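/-
T4 / S18, block [Base], residue part (owner: helper14).  `K`-free facts about a valuation subring
`A` of `ℚ̄` lying over a prime `ℓ` and its residue field `k`:

* `mem_of_isIntegral_int`, `mem_of_isIntegral`, `rootOfUnity_mem`, `rootOfUnity_notMem_nonunits`;
* `charP_residueField`, `natCast_notMem_nonunits`, `isUnit_natCast`;
* `rootOfUnity_eq_of_sub_mem_nonunits` : roots of unity of order prime to `ℓ` inject into `k`;
* `exists_rootOfUnity_sub_mem_nonunits` : `a ^ n ≡ 1` implies `a ≡ ζ` with `ζ ^ n = 1`;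
* `isAlgClosed_residueField` : `k` is algebraically closed;
* `residue_eq_zero_or_rootOfUnity` (R1) : every residue class is `0` or that of a root of unity
  of order prime to `ℓ`;
* `exists_mem_sub_mem_nonunits` (B2) : `A ∩ K → k` is surjective as soon as `K` contains the
  roots of unity of order prime to `ℓ`.
-/
import Mathlib
import Fermat.Prelude.Def_FLTPrelim_Ramification

set_option autoImplicit false

namespace Fermat.Agent.S18.BaseRes

open Polynomial

section General

variable {L : Type*} [Field L]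

/-- Elements integral over `ℤ` lie in every valuation subring. -/
theorem mem_of_isIntegral_int (A : ValuationSubring L) {x : L} (hx : IsIntegral ℤ x) : x ∈ A := by
  have h1 : IsIntegral A x := hx.tower_top
  obtain ⟨y, hy⟩ := (IsIntegrallyClosed.isIntegral_iff (R := A) (K := L)).1 h1
  rw [← hy]; exact y.2

/-- Elements integral over a valuation subring lie in it. -/
theorem mem_of_isIntegral (A : ValuationSubring L) {x : L} (hx : IsIntegral A x) : x ∈ A := by
  obtain ⟨y, hy⟩ := (IsIntegrallyClosed.isIntegral_iff (R := A) (K := L)).1 hx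
  rw [← hy]; exact y.2

theorem rootOfUnity_mem (A : ValuationSubring L) {n : ℕ} (hn : n ≠ 0) {ζ : L} (hζ : ζ ^ n = 1) :
    ζ ∈ A := by
  refine mem_of_isIntegral_int A ?_
  refine ⟨X ^ n - 1, monic_X_pow_sub_C 1 hn, ?_⟩
  simp [hζ]

theorem rootOfUnity_notMem_nonunits (A : ValuationSubring L) {n : ℕ} (hn : n ≠ 0) {ζ : L}
    (hζ : ζ ^ n = 1) : ζ ∉ A.nonunits := by
  intro h
  rw [ValuationSubring.mem_nonunits_iff] at h
  have h1 : A.valuation (ζ ^ n) < 1 := by
    rw [map_pow]
    exact pow_lt_one₀ zero_le h hn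
  rw [hζ, map_one] at h1
  exact lt_irrefl _ h1

/-- The residue field has characteristic `ℓ` when `A` lies over `ℓ`. -/
theorem charP_residueField (ℓ : ℕ) [Fact ℓ.Prime] (A : ValuationSubring L)
    (hA : A.LiesOverPrime ℓ) : CharP (IsLocalRing.ResidueField A) ℓ := by
  refine (CharP.charP_iff_prime_eq_zero (Fact.out)).2 ?_
  have h1 : (((ℓ : A) : A) : L) ∈ A.nonunits := by
    have : (((ℓ : A) : A) : L) = (ℓ : L) := by simp
    rw [this]; exact hA
  rw [ValuationSubring.coe_mem_nonunits_iff] at h1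
  have h2 := (IsLocalRing.residue_eq_zero_iff _).2 h1
  simpa using h2

theorem natCast_notMem_nonunits (ℓ : ℕ) [Fact ℓ.Prime] (A : ValuationSubring L)
    (hA : A.LiesOverPrime ℓ) {m : ℕ} (hm : ¬ ℓ ∣ m) : (m : L) ∉ A.nonunits := by
  intro h
  have := charP_residueField ℓ A hA
  have h1 : (((m : A) : A) : L) ∈ A.nonunits := by
    have : (((m : A) : A) : L) = (m : L) := by simp
    rw [this]; exact h
  rw [ValuationSubring.coe_mem_nonunits_iff] at h1
  have h2 := (IsLocalRing.residue_eq_zero_iff _).2 h1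
  have h3 : ((m : ℕ) : IsLocalRing.ResidueField A) = 0 := by simpa using h2
  exact hm ((CharP.cast_eq_zero_iff (IsLocalRing.ResidueField A) ℓ m).1 h3)

/-- Integers prime to `ℓ` are units of `A`. -/
theorem isUnit_natCast (ℓ : ℕ) [Fact ℓ.Prime] (A : ValuationSubring L)
    (hA : A.LiesOverPrime ℓ) {m : ℕ} (hm : ¬ ℓ ∣ m) : IsUnit ((m : A)) := by
  by_contra h
  have h1 : (m : A) ∈ IsLocalRing.maximalIdeal A := (IsLocalRing.mem_maximalIdeal _).2 h
  rw [← ValuationSubring.coe_mem_nonunits_iff] at h1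
  have h2 : (((m : A) : A) : L) = (m : L) := by simp
  rw [h2] at h1
  exact natCast_notMem_nonunits ℓ A hA hm h1

/-- Distinct roots of unity of order prime to `ℓ` have distinct residues. -/
theorem rootOfUnity_eq_of_sub_mem_nonunits (ℓ : ℕ) [Fact ℓ.Prime] (A : ValuationSubring L)
    (hA : A.LiesOverPrime ℓ) {n : ℕ} (hn : ¬ ℓ ∣ n) {ζ ξ : L} (hζ : ζ ^ n = 1) (hξ : ξ ^ n = 1)
    (h : ζ - ξ ∈ A.nonunits) : ζ = ξ := by
  have hn0 : n ≠ 0 := by rintro rfl; exact hn (dvd_zero _)
  by_contra hne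
  have hξ0 : ξ ≠ 0 := by
    rintro rfl
    rw [zero_pow hn0] at hξ
    exact zero_ne_one hξ
  have hξA : ξ ∈ A := rootOfUnity_mem A hn0 hξ
  have hζA : ζ ∈ A := rootOfUnity_mem A hn0 hζ
  -- ∑_{i<n} ζ^i ξ^(n-1-i) = 0
  have hsum : ∑ i ∈ Finset.range n, ζ ^ i * ξ ^ (n - 1 - i) = 0 := by
    have h1 := Commute.geom_sum₂_mul (Commute.all ζ ξ) n
    rw [hζ, hξ, sub_self] at h1
    rcases mul_eq_zero.1 h1 with h2 | h2
    · exact h2
    · exact absurd (sub_eq_zero.1 h2) hne
  -- each term is ≡ ξ^(n-1) mod nonunits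
  have hterm : ∀ i : ℕ, A.valuation (ζ ^ i - ξ ^ i) < 1 := by
    intro i
    have h1 := Commute.geom_sum₂_mul (Commute.all ζ ξ) i
    rw [← h1, map_mul]
    have h2 : A.valuation (∑ j ∈ Finset.range i, ζ ^ j * ξ ^ (i - 1 - j)) ≤ 1 := by
      rw [ValuationSubring.valuation_le_one_iff]
      exact sum_mem fun j _ => mul_mem (pow_mem hζA _) (pow_mem hξA _)
    have h3 : A.valuation (ζ - ξ) < 1 := (ValuationSubring.mem_nonunits_iff A).1 h
    exact mul_lt_one_of_nonneg_of_lt_one_right h2 zero_le h3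
  have hkey : A.valuation ((n : L) * ξ ^ (n - 1)) < 1 := by
    have h1 : (n : L) * ξ ^ (n - 1) =
        - ∑ i ∈ Finset.range n, (ζ ^ i - ξ ^ i) * ξ ^ (n - 1 - i) := by
      have h2 : ∑ i ∈ Finset.range n, (ζ ^ i - ξ ^ i) * ξ ^ (n - 1 - i) =
          ∑ i ∈ Finset.range n, ζ ^ i * ξ ^ (n - 1 - i) - ∑ i ∈ Finset.range n, ξ ^ (n - 1) := by
        rw [← Finset.sum_sub_distrib]
        refine Finset.sum_congr rfl fun i hi => ?_
        have hi' : i < n := Finset.mem_range.1 hi
        rw [sub_mul, ← pow_add]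
        congr 2; omega
      rw [h2, hsum]
      simp
    rw [h1, Valuation.map_neg]
    refine Valuation.map_sum_lt _ one_ne_zero fun i _ => ?_
    rw [map_mul]
    have h2 : A.valuation (ξ ^ (n - 1 - i)) ≤ 1 := by
      rw [ValuationSubring.valuation_le_one_iff]; exact pow_mem hξA _
    exact mul_lt_one_of_nonneg_of_lt_one_left zero_le (hterm i) h2
  have hunit : A.valuation (ξ ^ (n - 1)) = 1 := by
    have h1 : A.valuation ξ = 1 := by
      have h2 : A.valuation ξ ≤ 1 := (ValuationSubring.valuation_le_one_iff A ξ).2 hξA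
      rcases lt_or_eq_of_le h2 with h3 | h3
      · exact absurd ((ValuationSubring.mem_nonunits_iff A).2 h3) (rootOfUnity_notMem_nonunits A hn0 hξ)
      · exact h3
    rw [map_pow, h1, one_pow]
  rw [map_mul, hunit, mul_one] at hkey
  exact natCast_notMem_nonunits ℓ A hA hn ((ValuationSubring.mem_nonunits_iff A).2 hkey)


/-- If `a ^ n - 1` is a nonunit of `A` (with `n ≠ 0`) then `a` is congruent to an `n`-th root of
unity, provided `X ^ n - 1` splits in `L`. -/
theorem exists_rootOfUnity_sub_mem_nonunits [IsAlgClosed L] (A : ValuationSubring L) {n : ℕ}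
    (hn : n ≠ 0) {a : L} (ha : a ∈ A) (h : a ^ n - 1 ∈ A.nonunits) :
    ∃ ζ : L, ζ ^ n = 1 ∧ a - ζ ∈ A.nonunits := by
  classical
  by_contra hcon
  push Not at hcon
  have hsplit : (X ^ n - 1 : L[X]).Splits := IsAlgClosed.splits _
  have hmonic : (X ^ n - 1 : L[X]).Monic := monic_X_pow_sub_C 1 hn
  have hprod := hsplit.eq_prod_roots
  rw [hmonic.leadingCoeff, C_1, one_mul] at hprod
  have heval : a ^ n - 1 = ((X ^ n - 1 : L[X]).roots.map fun ζ => a - ζ).prod := by
    have h1 := congrArg (Polynomial.eval a) hprod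
    rw [eval_multiset_prod, Multiset.map_map] at h1
    simpa using h1
  have hroot : ∀ ζ ∈ (X ^ n - 1 : L[X]).roots, ζ ^ n = 1 := by
    intro ζ hζ
    have h1 := (mem_roots hmonic.ne_zero).1 hζ
    have h2 : ζ ^ n - 1 = 0 := by simpa [IsRoot] using h1
    exact sub_eq_zero.1 h2
  have hall : ∀ s : Multiset L, (∀ ζ ∈ s, ζ ^ n = 1) →
      A.valuation ((s.map fun ζ => a - ζ).prod) = 1 := by
    intro s
    induction s using Multiset.induction_on with
    | empty => intro _; simp
    | cons ζ s ih =>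
      intro hs
      rw [Multiset.map_cons, Multiset.prod_cons, map_mul,
        ih fun ξ hξ => hs ξ (Multiset.mem_cons_of_mem hξ), mul_one]
      have hζ := hs ζ (Multiset.mem_cons_self ζ s)
      have h1 : A.valuation (a - ζ) ≤ 1 :=
        (ValuationSubring.valuation_le_one_iff A _).2 (sub_mem ha (rootOfUnity_mem A hn hζ))
      rcases lt_or_eq_of_le h1 with h2 | h2
      · exact absurd ((ValuationSubring.mem_nonunits_iff A).2 h2) (hcon ζ hζ)
      · exact h2
  have h1 := hall _ hroot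
  rw [← heval] at h1
  have h2 := (ValuationSubring.mem_nonunits_iff A).1 h
  rw [h1] at h2
  exact lt_irrefl _ h2

/-- The residue field of a valuation subring of an algebraically closed field is
algebraically closed. -/
theorem isAlgClosed_residueField [IsAlgClosed L] (A : ValuationSubring L) :
    IsAlgClosed (IsLocalRing.ResidueField A) := by
  refine IsAlgClosed.of_exists_root _ fun p hp hirr => ?_
  have hlift : p ∈ Polynomial.lifts (IsLocalRing.residue A) :=
    (Polynomial.mem_lifts p).2 (Polynomial.map_surjective _ IsLocalRing.residue_surjective p)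
  obtain ⟨P, hPmap, hPdeg, hPmonic⟩ := Polynomial.lifts_and_degree_eq_and_monic hlift hp
  have hdeg : (P.map (algebraMap A L)).degree ≠ 0 := by
    rw [degree_map_eq_of_injective (FaithfulSMul.algebraMap_injective A L), hPdeg]
    exact (Polynomial.degree_pos_of_irreducible hirr).ne'
  obtain ⟨x, hx⟩ := IsAlgClosed.exists_root (P.map (algebraMap A L)) hdeg
  have hxint : IsIntegral A x := ⟨P, hPmonic, by rwa [IsRoot, eval_map] at hx⟩
  have hxA : x ∈ A := mem_of_isIntegral A hxint
  refine ⟨IsLocalRing.residue A ⟨x, hxA⟩, ?_⟩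
  have h1 : P.eval₂ (RingHom.id A) (⟨x, hxA⟩ : A) = 0 := by
    apply Subtype.ext
    have h2 := Polynomial.hom_eval₂ P (RingHom.id A) A.subtype ⟨x, hxA⟩
    rw [RingHom.comp_id] at h2
    rw [IsRoot, eval_map] at hx
    have h3 : (A.subtype (P.eval₂ (RingHom.id A) (⟨x, hxA⟩ : A)) : L) = 0 := by
      rw [h2]; exact hx
    simpa using h3
  have h4 := Polynomial.hom_eval₂ P (RingHom.id A) (IsLocalRing.residue A) ⟨x, hxA⟩
  rw [RingHom.comp_id, h1, map_zero] at h4
  rw [← hPmap, eval_map]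
  exact h4.symm

/-- Every element of the residue field is algebraic over the prime field, if every element of `L`
is algebraic over `ℤ`. -/
theorem residue_isAlgebraic [CharZero L] (ℓ : ℕ) [Fact ℓ.Prime] (A : ValuationSubring L)
    [Algebra (ZMod ℓ) (IsLocalRing.ResidueField A)]
    (halg : ∀ x : L, IsAlgebraic ℤ x) (x : IsLocalRing.ResidueField A) :
    IsAlgebraic (ZMod ℓ) x := by
  obtain ⟨a, rfl⟩ := IsLocalRing.residue_surjective x
  obtain ⟨P, hP0, hPa⟩ := halg (a : L)
  have hprim : P.primPart.IsPrimitive := Polynomial.isPrimitive_primPart P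
  have hPa' : aeval (a : L) P.primPart = 0 := Polynomial.aeval_primPart_eq_zero hP0 hPa
  refine ⟨P.primPart.map (Int.castRingHom (ZMod ℓ)), ?_, ?_⟩
  · intro h0
    have h1 : (C (ℓ : ℤ)) ∣ P.primPart := by
      rw [Polynomial.C_dvd_iff_dvd_coeff]
      intro i
      have h2 := congrArg (fun q => Polynomial.coeff q i) h0
      simp only [coeff_map, coeff_zero] at h2
      exact (ZMod.intCast_zmod_eq_zero_iff_dvd _ _).1 h2
    have h3 := hprim _ h1
    have h4 := Int.isUnit_iff.1 h3
    have hl : (2 : ℤ) ≤ ℓ := by exact_mod_cast (Fact.out : ℓ.Prime).two_le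
    omega
  · rw [aeval_def, eval₂_map]
    have h1 : (algebraMap (ZMod ℓ) (IsLocalRing.ResidueField A)).comp (Int.castRingHom (ZMod ℓ)) =
        (IsLocalRing.residue A).comp (Int.castRingHom A) := RingHom.ext_int _ _
    rw [h1, ← Polynomial.hom_eval₂]
    have h2 : P.primPart.eval₂ (Int.castRingHom A) a = 0 := by
      apply Subtype.ext
      have h3 := Polynomial.hom_eval₂ P.primPart (Int.castRingHom A) A.subtype a
      have h4 : A.subtype.comp (Int.castRingHom A) = algebraMap ℤ L := RingHom.ext_int _ _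
      rw [h4] at h3
      have h5 : (A.subtype (P.primPart.eval₂ (Int.castRingHom A) a) : L) = 0 := by
        rw [h3]; exact hPa'
      rw [ZeroMemClass.coe_zero]
      exact h5
    rw [h2, map_zero]

/-- An element of a field of characteristic `ℓ` which is algebraic over the prime field is zero or
a root of unity of order prime to `ℓ`. -/
theorem exists_pow_eq_one_of_isAlgebraic_zmod (ℓ : ℕ) [Fact ℓ.Prime] {k : Type*} [Field k]
    [Algebra (ZMod ℓ) k] {x : k} (hx : IsAlgebraic (ZMod ℓ) x) (hx0 : x ≠ 0) :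
    ∃ n : ℕ, ¬ ℓ ∣ n ∧ x ^ n = 1 := by
  classical
  have hfd : FiniteDimensional (ZMod ℓ) (IntermediateField.adjoin (ZMod ℓ) {x}) :=
    IntermediateField.adjoin.finiteDimensional hx.isIntegral
  have hfin : Finite (IntermediateField.adjoin (ZMod ℓ) {x}) :=
    Module.finite_of_finite (ZMod ℓ)
  let _ : Fintype (IntermediateField.adjoin (ZMod ℓ) {x}) := Fintype.ofFinite _
  let y : IntermediateField.adjoin (ZMod ℓ) {x} :=
    ⟨x, IntermediateField.mem_adjoin_simple_self (ZMod ℓ) x⟩
  have hy0 : y ≠ 0 := by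
    intro h
    exact hx0 (congrArg Subtype.val h)
  have h1 := FiniteField.pow_card_sub_one_eq_one y hy0
  have : CharP (IntermediateField.adjoin (ZMod ℓ) {x}) ℓ :=
    charP_of_injective_algebraMap (algebraMap (ZMod ℓ) _).injective ℓ
  obtain ⟨d, -, hd⟩ := FiniteField.card (IntermediateField.adjoin (ZMod ℓ) {x}) ℓ
  refine ⟨Fintype.card (IntermediateField.adjoin (ZMod ℓ) {x}) - 1, ?_, ?_⟩
  · rw [hd]
    intro hdvd
    have h2 : ℓ ∣ ℓ ^ (d : ℕ) := dvd_pow_self ℓ d.ne_zero
    have h3 : 1 ≤ ℓ ^ (d : ℕ) := Nat.one_le_pow _ _ (Fact.out : ℓ.Prime).pos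
    have h4 : ℓ ∣ 1 := by
      have := (Nat.dvd_sub h2 hdvd)
      rwa [Nat.sub_sub_self h3] at this
    exact (Fact.out : ℓ.Prime).one_lt.ne' (Nat.dvd_one.1 h4)
  · have h2 := congrArg Subtype.val h1
    simpa [y] using h2

/-- **Residues are roots of unity** (general form): if `L` is algebraically closed of
characteristic zero and algebraic over `ℤ`, and `A` lies over `ℓ`, then every element of `A` is a
nonunit or congruent modulo the nonunits to a root of unity of order prime to `ℓ`. -/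
theorem nonunit_or_rootOfUnity_general [CharZero L] [IsAlgClosed L] (ℓ : ℕ) [Fact ℓ.Prime]
    (A : ValuationSubring L) (hA : A.LiesOverPrime ℓ) (halg : ∀ x : L, IsAlgebraic ℤ x)
    {a : L} (ha : a ∈ A) :
    a ∈ A.nonunits ∨ ∃ (n : ℕ) (ζ : L), ¬ ℓ ∣ n ∧ ζ ^ n = 1 ∧ a - ζ ∈ A.nonunits := by
  by_cases hnu : a ∈ A.nonunits
  · exact Or.inl hnu
  right
  have hch := charP_residueField ℓ A hA
  let _ : Algebra (ZMod ℓ) (IsLocalRing.ResidueField A) := ZMod.algebra _ ℓ
  have hx0 : IsLocalRing.residue A ⟨a, ha⟩ ≠ 0 := by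
    intro h0
    rw [IsLocalRing.residue_eq_zero_iff, ← ValuationSubring.coe_mem_nonunits_iff] at h0
    exact hnu h0
  obtain ⟨n, hn, hxn⟩ := exists_pow_eq_one_of_isAlgebraic_zmod ℓ
    (residue_isAlgebraic ℓ A halg (IsLocalRing.residue A ⟨a, ha⟩)) hx0
  have hn0 : n ≠ 0 := by rintro rfl; exact hn (dvd_zero _)
  have h1 : IsLocalRing.residue A ((⟨a, ha⟩ : A) ^ n - 1) = 0 := by
    rw [map_sub, map_pow, hxn, map_one, sub_self]
  rw [IsLocalRing.residue_eq_zero_iff, ← ValuationSubring.coe_mem_nonunits_iff] at h1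
  have h2 : a ^ n - 1 ∈ A.nonunits := by simpa using h1
  obtain ⟨ζ, hζ, hζa⟩ := exists_rootOfUnity_sub_mem_nonunits A hn0 ha h2
  exact ⟨n, ζ, hn, hζ, hζa⟩

end General

section Qb

/-- Every element of `AlgebraicClosure ℚ` is algebraic over `ℤ`. -/
theorem isAlgebraic_int_Qb (x : AlgebraicClosure ℚ) : IsAlgebraic ℤ x :=
  (IsFractionRing.isAlgebraic_iff ℤ ℚ (AlgebraicClosure ℚ)).mpr
    ((AlgebraicClosure.isAlgebraic ℚ).isAlgebraic x)

/-- **(R1)** Every element of a valuation subring `A` of `ℚ̄` over `ℓ` is a nonunit or is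
congruent modulo the nonunits to a root of unity of order prime to `ℓ`. -/
theorem residue_eq_zero_or_rootOfUnity (ℓ : ℕ) [Fact ℓ.Prime]
    (A : ValuationSubring (AlgebraicClosure ℚ)) (hA : A.LiesOverPrime ℓ)
    (a : AlgebraicClosure ℚ) (ha : a ∈ A) :
    a ∈ A.nonunits ∨
      ∃ (n : ℕ) (ζ : AlgebraicClosure ℚ), ¬ ℓ ∣ n ∧ ζ ^ n = 1 ∧ a - ζ ∈ A.nonunits :=
  nonunit_or_rootOfUnity_general ℓ A hA isAlgebraic_int_Qb ha

/-- **(R2)** The residue field of a valuation subring of `ℚ̄` is algebraically closed. -/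
theorem isAlgClosed_residueField_Qb (A : ValuationSubring (AlgebraicClosure ℚ)) :
    IsAlgClosed (IsLocalRing.ResidueField A) :=
  isAlgClosed_residueField A

/-- **(B2)** If an intermediate field `K` of `ℚ̄/ℚ` contains all roots of unity of order prime
to `ℓ`, then `A ∩ K` surjects onto the residue field of `A`. -/
theorem exists_mem_sub_mem_nonunits (ℓ : ℕ) [Fact ℓ.Prime]
    (A : ValuationSubring (AlgebraicClosure ℚ)) (hA : A.LiesOverPrime ℓ)
    (K : IntermediateField ℚ (AlgebraicClosure ℚ))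
    (hK : ∀ (n : ℕ) (ζ : AlgebraicClosure ℚ), ¬ ℓ ∣ n → ζ ^ n = 1 → ζ ∈ K)
    (a : AlgebraicClosure ℚ) (ha : a ∈ A) :
    ∃ b : K, (b : AlgebraicClosure ℚ) ∈ A ∧ a - (b : AlgebraicClosure ℚ) ∈ A.nonunits := by
  rcases residue_eq_zero_or_rootOfUnity ℓ A hA a ha with h | ⟨n, ζ, hn, hζ, h⟩
  · exact ⟨0, by simp, by simpa using h⟩
  · have hn0 : n ≠ 0 := by rintro rfl; exact hn (dvd_zero _)
    exact ⟨⟨ζ, hK n ζ hn hζ⟩, rootOfUnity_mem A hn0 hζ, h⟩

end Qb

end Fermat.Agent.S18.BaseRes
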