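import Mathlib

/-!
# S18 team library, block [IGUSA] T3: the local ring of the `x`-line inside the cover field

OWNER: helper65 (only the owner edits this file).

Setting of the assembly spec: `O` a commutative ring (a DVR in the application), `A0 := O[X]`
(variable `y`), `L` a field with an `A0`-algebra structure (the cover field `K(x)`, `y = J(x)`),
`x : L`.  `evx x : O[X] →+* L` evaluates polynomials *in the variable `x`* (constants go through
the `A0`-structure `O → O[X] → L`).

`R1 x c1 : Subring L` is the set of fractions `p(x)/q(x)` with `q(c1)` a unit of `O`, i.e. the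
localisation of `O[x]` at the maximal ideal `(𝔪_O, x − c1)`, realised as a subring of `L` so
that every `L`-algebra is automatically an `R1`-algebra (no instance plumbing for the consumers).
-/

set_option autoImplicit false

namespace Fermat.Agent.S18.CoverLocDef

open Polynomial

variable {O : Type*} [CommRing O] {L : Type*} [Field L] [Algebra O[X] L]

/-- Evaluation of polynomials in the cover variable at `x : L`; constants through `O → O[X] → L`. -/
noncomputable def evx (x : L) : O[X] →+* L :=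
  eval₂RingHom ((algebraMap O[X] L).comp C) x

theorem evx_apply (x : L) (p : O[X]) :
    evx x p = eval₂ ((algebraMap O[X] L).comp C) x p := rfl

@[simp] theorem evx_C (x : L) (a : O) : evx x (C a) = algebraMap O[X] L (C a) := by
  rw [evx_apply, eval₂_C]; rfl

@[simp] theorem evx_X (x : L) : evx (O := O) x X = x := by
  rw [evx_apply, eval₂_X]

/-- The local ring of the `x`-line at the closed point `x ≡ c1` of the special fibre, inside `L`:
fractions `p(x)/q(x)` with `q(c1) ∈ Oˣ`. -/
def R1 (x : L) (c1 : O) : Subring L where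
  carrier := {l | ∃ p q : O[X], IsUnit (q.eval c1) ∧ l * evx x q = evx x p}
  mul_mem' := by
    rintro l l' ⟨p, q, hq, h⟩ ⟨p', q', hq', h'⟩
    refine ⟨p * p', q * q', ?_, ?_⟩
    · rw [eval_mul]; exact hq.mul hq'
    · rw [map_mul, map_mul, ← h, ← h']; ring
  one_mem' := ⟨1, 1, by simp, by simp⟩
  add_mem' := by
    rintro l l' ⟨p, q, hq, h⟩ ⟨p', q', hq', h'⟩
    refine ⟨p * q' + p' * q, q * q', ?_, ?_⟩
    · rw [eval_mul]; exact hq.mul hq'
    · rw [map_add, map_mul, map_mul, map_mul, ← h, ← h']; ring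
  zero_mem' := ⟨0, 1, by simp, by simp⟩
  neg_mem' := by
    rintro l ⟨p, q, hq, h⟩
    exact ⟨-p, q, hq, by rw [map_neg, ← h]; ring⟩

theorem mem_R1_iff {x : L} {c1 : O} {l : L} :
    l ∈ R1 x c1 ↔ ∃ p q : O[X], IsUnit (q.eval c1) ∧ l * evx x q = evx x p := Iff.rfl

theorem evx_mem_R1 (x : L) (c1 : O) (p : O[X]) : evx x p ∈ R1 x c1 :=
  ⟨p, 1, by simp, by simp⟩

/-- `x` itself lies in `R1`. -/
theorem x_mem_R1 (x : L) (c1 : O) : x ∈ R1 (O := O) x c1 := by
  have := evx_mem_R1 x c1 (X : O[X])
  rwa [evx_X] at this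

/-- constants lie in `R1`. -/
theorem algebraMap_C_mem_R1 (x : L) (c1 : O) (a : O) : algebraMap O[X] L (C a) ∈ R1 x c1 := by
  have := evx_mem_R1 x c1 (C a)
  rwa [evx_C] at this

/-- If `q(c1)` is a unit of `O` and `q(x) ≠ 0`, then `1/q(x) ∈ R1`. -/
theorem inv_evx_mem_R1 (x : L) (c1 : O) (q : O[X]) (hq : IsUnit (q.eval c1))
    (hq0 : evx x q ≠ 0) : (evx x q)⁻¹ ∈ R1 x c1 :=
  ⟨1, q, hq, by rw [map_one, inv_mul_cancel₀ hq0]⟩

/-- The image of the base ring `A0 = O[X]` (variable `y = J(x) = Num(x)/Den(x)`) lies in `R1` as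
soon as `Den(c1)` is a unit of `O` (hypothesis (L3) of the cover datum). -/
theorem algebraMap_mem_R1 (x : L) (c1 : O) (Num Den : O[X])
    (hL3 : algebraMap O[X] L X * evx x Den = evx x Num) (hc1 : IsUnit (Den.eval c1))
    (a : O[X]) : algebraMap O[X] L a ∈ R1 x c1 := by
  have hy : algebraMap O[X] L X ∈ R1 x c1 := ⟨Num, Den, hc1, hL3⟩
  induction a using Polynomial.induction_on' with
  | add p q hp hq => rw [map_add]; exact add_mem hp hq
  | monomial n a =>
    rw [← C_mul_X_pow_eq_monomial, map_mul, map_pow]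
    exact mul_mem (algebraMap_C_mem_R1 x c1 a) (pow_mem hy n)

/-- The element `p(x)` of `R1`. -/
noncomputable def evR (x : L) (c1 : O) (p : O[X]) : R1 x c1 := ⟨evx x p, evx_mem_R1 x c1 p⟩

/-- The element `π` (a constant of `O`) of `R1`. -/
noncomputable def piR (x : L) (c1 : O) (π : O) : R1 x c1 := evR x c1 (C π)

/-- The element `x − c1` of `R1`. -/
noncomputable def sR (x : L) (c1 : O) : R1 x c1 := evR x c1 (X - C c1)

@[simp] theorem coe_evR (x : L) (c1 : O) (p : O[X]) : ((evR x c1 p : R1 x c1) : L) = evx x p := rfl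

theorem coe_piR (x : L) (c1 : O) (π : O) :
    ((piR x c1 π : R1 x c1) : L) = algebraMap O[X] L (C π) := by
  rw [piR, coe_evR, evx_C]

theorem coe_sR (x : L) (c1 : O) :
    ((sR x c1 : R1 x c1) : L) = x - algebraMap O[X] L (C c1) := by
  rw [sR, coe_evR, map_sub, evx_X, evx_C]

/-- `p ↦ p(x)` as a ring hom `O[X] →+* R1`. -/
noncomputable def evRHom (x : L) (c1 : O) : O[X] →+* R1 x c1 :=
  (evx x).codRestrict (R1 x c1) (evx_mem_R1 x c1)

@[simp] theorem evRHom_apply (x : L) (c1 : O) (p : O[X]) : evRHom x c1 p = evR x c1 p := rfl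

/-- The structure map `A0 = O[X] →+* R1` (variable `y = Num(x)/Den(x)`), available when `Den(c1)`
is a unit of `O`. -/
noncomputable def ofA0 (x : L) (c1 : O) (Num Den : O[X])
    (hL3 : algebraMap O[X] L X * evx x Den = evx x Num) (hc1 : IsUnit (Den.eval c1)) :
    O[X] →+* R1 x c1 :=
  (algebraMap O[X] L).codRestrict (R1 x c1) (algebraMap_mem_R1 x c1 Num Den hL3 hc1)

@[simp] theorem coe_ofA0 (x : L) (c1 : O) (Num Den : O[X])
    (hL3 : algebraMap O[X] L X * evx x Den = evx x Num) (hc1 : IsUnit (Den.eval c1)) (a : O[X]) :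
    ((ofA0 x c1 Num Den hL3 hc1 a : R1 x c1) : L) = algebraMap O[X] L a := rfl

/-- `algebraMap (R1) T ∘ ofA0 = algebraMap A0 T` for every `L`-algebra `T` in the `A0`-tower. -/
theorem algebraMap_ofA0 (x : L) (c1 : O) (Num Den : O[X])
    (hL3 : algebraMap O[X] L X * evx x Den = evx x Num) (hc1 : IsUnit (Den.eval c1))
    {T : Type*} [CommRing T] [Algebra L T] [Algebra O[X] T] [IsScalarTower O[X] L T] (a : O[X]) :
    algebraMap (R1 x c1) T (ofA0 x c1 Num Den hL3 hc1 a) = algebraMap O[X] T a := by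
  rw [IsScalarTower.algebraMap_apply O[X] L T]
  rfl

/-- Elements of an `L`-algebra that are integral over `A0` are integral over `R1`. -/
theorem isIntegral_R1_of_isIntegral (x : L) (c1 : O) (Num Den : O[X])
    (hL3 : algebraMap O[X] L X * evx x Den = evx x Num) (hc1 : IsUnit (Den.eval c1))
    {T : Type*} [CommRing T] [Algebra L T] [Algebra O[X] T] [IsScalarTower O[X] L T] {z : T}
    (hz : IsIntegral O[X] z) : IsIntegral (R1 x c1) z := by
  obtain ⟨f, hf, hfz⟩ := hz
  refine ⟨f.map (ofA0 x c1 Num Den hL3 hc1), hf.map _, ?_⟩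
  rw [eval₂_map]
  have : (algebraMap (R1 x c1) T).comp (ofA0 x c1 Num Den hL3 hc1) = algebraMap O[X] T :=
    RingHom.ext (algebraMap_ofA0 x c1 Num Den hL3 hc1)
  rw [this]
  exact hfz

end Fermat.Agent.S18.CoverLocDef
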