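import Mathlib
import Fermat.Agent.S18.CoverLocDef

/-!
# S18 team library, block [IGUSA]: the TOP interface of the abstract Igusa smoothness theorem

OWNER: helper9 (only the owner edits this file).  Definitions and `Prop`-valued statements only.

Setting (y-side by instances, x-side by elements, as in `CoverLocDef`):
`O` a DVR, `A0 := O[X]` (variable `y`), `Ky` a fraction field of `A0`, `F` a finite field
extension of `Ky` (the function field of the model), `L` a finite Galois extension of `Ky`
(the cover field `K(x)`, `y = Num(x)/Den(x)`), `Tot := L ⊗[Ky] F`.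

* `CoverDatum`   what a cover file (Legendre / Hesse / Kummer) provides;
* `VertInput`    (S') the vertical input: a `Ky`-basis of `F` of integral elements with
                 discriminant prime to `π` (from separability of the special fibre);
* `HorInput`     (H) the horizontal input: for every horizontal prime `p` through a point
                 `(π, x - c1)` over `y = c` and every complex root `x0` of `p`, a uniformising
                 power series `Λ` at `x0` and `[F : Ky]` distinct embeddings `F → ℂ((s))`
                 compatible with `y = Num(Λ)/Den(Λ)`;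
* `LeafReg`      (T6) regularity of `B = integralClosure A0 Tot` at the maximal ideals over
                 `(π, y - c)`, with residue field `O/π`;
* `Conclusion`   (I3) at the maximal ideals of `R = integralClosure A0 F` over `(π, y - c)`;
* `IgusaAbs`     the abstract theorem: `CoverDatum + VertInput + HorInput ⟹ Conclusion`.
-/

set_option autoImplicit false

noncomputable section

namespace Fermat.Agent.S18.IgusaTop

open Polynomial TensorProduct Fermat.Agent.S18.CoverLocDef

section Concrete

variable {O : Type*} [CommRing O]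
  (Ky F : Type*) {L : Type*} [Field Ky] [Field F] [Field L]
  [Algebra O[X] Ky]
  [Algebra Ky F] [Algebra O[X] F] [IsScalarTower O[X] Ky F]
  [Algebra Ky L] [Algebra O[X] L] [IsScalarTower O[X] Ky L]

/-- The cover datum on the `x`-side: `L = Frac O[x]` is Galois over `Ky`,
`y = Num(x)/Den(x)`, `Num` has unit leading coefficient and larger degree than `Den`,
`gcd(Num, Den) = 1`. -/
structure CoverDatum (x : L) (Num Den : O[X]) : Prop where
  inj : Function.Injective (evx (O := O) x)
  gen : ∀ l : L, ∃ p q : O[X], q ≠ 0 ∧ l * evx x q = evx x p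
  y_eq : algebraMap O[X] L X * evx x Den = evx x Num
  lc : IsUnit Num.leadingCoeff
  deg : Den.natDegree < Num.natDegree
  bezout : ∃ a b : O[X], a * Num + b * Den = 1
  finite : FiniteDimensional Ky L
  galois : IsGalois Ky L

/-- (S') vertical input: a family of `[F : Ky]` integral elements of `F` whose Gram
determinant (discriminant) is the image of an element of `O[y]` prime to `π`. -/
def VertInput (π : O) : Prop :=
  ∃ (e : Fin (Module.finrank Ky F) → F) (d0 : O[X]),
    (∀ i, IsIntegral O[X] (e i)) ∧
    algebraMap O[X] Ky d0 = (Matrix.of fun i j => Algebra.trace Ky F (e i * e j)).det ∧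
    ¬ C π ∣ d0

/-- (H) horizontal input at the points of the `x`-line over `y = c`. -/
def HorInput (Num Den : O[X]) (π c : O) (φ : O →+* ℂ) : Prop :=
  ∀ (c1 : O), π ∣ (Num - C c * Den).eval c1 → IsUnit (Den.eval c1) →
    ∀ (p : O[X]), Prime p → ¬ Associated p (C π) → π ∣ p.eval c1 →
    ∀ x0 : ℂ, (p.map φ).eval x0 = 0 →
    ∃ (Λ : PowerSeries ℂ) (ι : Fin (Module.finrank Ky F) → (F →+* LaurentSeries ℂ)),
      PowerSeries.constantCoeff Λ = x0 ∧ PowerSeries.coeff 1 Λ ≠ 0 ∧ Function.Injective ι ∧
      (∀ i (o : O), ι i (algebraMap O[X] F (C o)) = HahnSeries.C (φ o)) ∧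
      ∀ i, HahnSeries.ofPowerSeries ℤ ℂ (aeval Λ (Num.map φ)) =
        ι i (algebraMap O[X] F X) * HahnSeries.ofPowerSeries ℤ ℂ (aeval Λ (Den.map φ))

variable (L) in
/-- (T6) every maximal ideal `Q` of `B = integralClosure O[y] Tot` over `(π, y - c)` is locally
generated by `π` and one more element, and has residue field `O/π`. -/
def LeafReg (π c : O) : Prop :=
  ∀ Q : Ideal (integralClosure O[X] (L ⊗[Ky] F)), Q.IsMaximal →
    algebraMap O[X] (integralClosure O[X] (L ⊗[Ky] F)) (C π) ∈ Q →
    algebraMap O[X] (integralClosure O[X] (L ⊗[Ky] F)) (X - C c) ∈ Q →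
    ∃ s0 ∈ Q, (∀ z ∈ Q, ∃ u, u ∉ Q ∧
        u * z ∈ Ideal.span {algebraMap O[X] (integralClosure O[X] (L ⊗[Ky] F)) (C π), s0}) ∧
      ∀ b : integralClosure O[X] (L ⊗[Ky] F), ∃ a : O,
        b - algebraMap O[X] (integralClosure O[X] (L ⊗[Ky] F)) (C a) ∈ Q

/-- (I3) at the points over `y = c`: every maximal ideal `n` of `R = integralClosure O[y] F`
containing `π` and `y - c` is locally generated by `π` and one more element. -/
def Conclusion (π c : O) : Prop :=
  ∀ n : Ideal (integralClosure O[X] F), n.IsMaximal →
    algebraMap O[X] (integralClosure O[X] F) (C π) ∈ n →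
    algebraMap O[X] (integralClosure O[X] F) (X - C c) ∈ n →
    ∃ t ∈ n, ∀ z ∈ n, ∃ u, u ∉ n ∧
      u * z ∈ Ideal.span {algebraMap O[X] (integralClosure O[X] F) (C π), t}

end Concrete

/-- (T6 statement) `CoverDatum + VertInput + HorInput ⟹ LeafReg`. -/
def RegStatement : Prop :=
  ∀ (O : Type) [CommRing O] [IsDomain O] [IsDiscreteValuationRing O] [CharZero O]
    [IsAlgClosed (IsLocalRing.ResidueField O)]
    (Ky F L : Type) [Field Ky] [Field F] [Field L]
    [Algebra O[X] Ky] [IsFractionRing O[X] Ky]
    [Algebra Ky F] [Algebra O[X] F] [IsScalarTower O[X] Ky F] [FiniteDimensional Ky F]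
    [Algebra Ky L] [Algebra O[X] L] [IsScalarTower O[X] Ky L]
    (x : L) (Num Den : O[X]) (π c : O) (φ : O →+* ℂ),
    Irreducible π → Function.Injective φ →
    CoverDatum Ky x Num Den → VertInput Ky F π → HorInput Ky F Num Den π c φ →
    LeafReg Ky F L π c

/-- (T7/T8 statement) `CoverDatum + LeafReg ⟹ Conclusion` (norm descent along `G = Gal(L/Ky)`). -/
def DescentStatement : Prop :=
  ∀ (O : Type) [CommRing O] [IsDomain O] [IsDiscreteValuationRing O] [CharZero O]
    (Ky F L : Type) [Field Ky] [Field F] [Field L]
    [Algebra O[X] Ky] [IsFractionRing O[X] Ky]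
    [Algebra Ky F] [Algebra O[X] F] [IsScalarTower O[X] Ky F] [FiniteDimensional Ky F]
    [Algebra Ky L] [Algebra O[X] L] [IsScalarTower O[X] Ky L]
    (x : L) (Num Den : O[X]) (π c : O),
    Irreducible π → CoverDatum Ky x Num Den → LeafReg Ky F L π c → Conclusion F π c

/-- The abstract Igusa theorem. -/
def IgusaAbs : Prop :=
  ∀ (O : Type) [CommRing O] [IsDomain O] [IsDiscreteValuationRing O] [CharZero O]
    [IsAlgClosed (IsLocalRing.ResidueField O)]
    (Ky F L : Type) [Field Ky] [Field F] [Field L]
    [Algebra O[X] Ky] [IsFractionRing O[X] Ky]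
    [Algebra Ky F] [Algebra O[X] F] [IsScalarTower O[X] Ky F] [FiniteDimensional Ky F]
    [Algebra Ky L] [Algebra O[X] L] [IsScalarTower O[X] Ky L]
    (x : L) (Num Den : O[X]) (π c : O) (φ : O →+* ℂ),
    Irreducible π → Function.Injective φ →
    CoverDatum Ky x Num Den → VertInput Ky F π → HorInput Ky F Num Den π c φ →
    Conclusion F π c

theorem igusaAbs_of (hReg : RegStatement) (hDesc : DescentStatement) : IgusaAbs := by
  intro O _ _ _ _ _ Ky F L _ _ _ _ _ _ _ _ _ _ _ _ x Num Den π c φ hπ hφ hcov hV hH
  exact hDesc O Ky F L x Num Den π c hπ hcov (hReg O Ky F L x Num Den π c φ hπ hφ hcov hV hH)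

end Fermat.Agent.S18.IgusaTop
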