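/-
S18 — leaf P6 (helper48): separability of algebraic elements of `k((q))` over `k(t)`.

If `k` is a perfect field of characteristic `p` and `t ∈ k((q))` has `q`-order prime to `p`, then
every element of `k((q))` that is algebraic over `k(t)` is separable over `k(t)`.

Proof ("orders mod `p`" / `p`-basis argument).  Put `M = k(t)`.
(A) every `c ∈ M` is `∑_{i<p} t^i b_i^p` with `b_i ∈ M`;
(B) `1, t, …, t^(p-1)` are linearly independent over the `p`-th powers of `k((q))` (the nonzero
    terms `t^i y_i^p` have pairwise distinct orders modulo `p`);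
(C) if the minimal polynomial `f` of `x` is inseparable then `f = g(X^p)`; decomposing the
    coefficients of `g` as in (A) gives `0 = f(x) = ∑_i t^i h_i(x)^p` with `deg h_i < deg f`,
    so all `h_i(x) = 0` by (B), hence `h_i = 0`, hence `g = 0`: contradiction.
-/
import Mathlib

set_option autoImplicit false

namespace Fermat.Agent.S18.SepLaurent

open Polynomial

variable {k : Type*} [Field k]

/-- A finite nonempty sum of nonzero Laurent series with pairwise distinct orders is nonzero. -/
theorem sum_ne_zero_of_injOn_order {ι : Type*} (s : Finset ι) (f : ι → LaurentSeries k)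
    (hne : s.Nonempty) (hf : ∀ i ∈ s, f i ≠ 0)
    (hinj : Set.InjOn (fun i => (f i).order) (s : Set ι)) : ∑ i ∈ s, f i ≠ 0 := by
  classical
  obtain ⟨i₀, hi₀, hmin⟩ := s.exists_min_image (fun i => (f i).order) hne
  intro h0
  have hc : (∑ i ∈ s, f i).coeff (f i₀).order = (f i₀).coeff (f i₀).order := by
    rw [HahnSeries.coeff_sum]
    apply Finset.sum_eq_single_of_mem i₀ hi₀
    intro j hj hjne
    apply HahnSeries.coeff_eq_zero_of_lt_order
    exact lt_of_le_of_ne (hmin j hj) (fun h => hjne (hinj hj hi₀ h.symm))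
  rw [h0, HahnSeries.coeff_zero] at hc
  exact hf i₀ hi₀ (HahnSeries.coeff_order_eq_zero.mp hc.symm)

/-- (B) `1, t, …, t^(p-1)` are linearly independent over the `p`-th powers of `k((q))`. -/
theorem eq_zero_of_sum_pow_mul_pow_eq_zero (p : ℕ) [Fact p.Prime] (t : LaurentSeries k)
    (ht : ¬ (p : ℤ) ∣ t.order) (ht0 : t ≠ 0) (y : Fin p → LaurentSeries k)
    (h : ∑ i : Fin p, t ^ (i : ℕ) * y i ^ p = 0) : ∀ i, y i = 0 := by
  classical
  have hp : p.Prime := Fact.out
  by_contra hcon
  obtain ⟨i₁, hi₁⟩ := not_forall.mp hcon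
  set s : Finset (Fin p) := Finset.univ.filter (fun i => y i ≠ 0) with hs
  have hsne : s.Nonempty := ⟨i₁, by simp [hs, hi₁]⟩
  have hsum : ∑ i ∈ s, t ^ (i : ℕ) * y i ^ p = 0 := by
    rw [← h]
    apply Finset.sum_subset (Finset.subset_univ _)
    intro i _ hi
    have : y i = 0 := by simpa [hs] using hi
    rw [this, zero_pow hp.ne_zero, mul_zero]
  refine sum_ne_zero_of_injOn_order s _ hsne ?_ ?_ hsum
  · intro i hi
    exact mul_ne_zero (pow_ne_zero _ ht0) (pow_ne_zero _ (Finset.mem_filter.mp hi).2)
  · intro i hi j hj hij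
    have hyi : y i ≠ 0 := (Finset.mem_filter.mp hi).2
    have hyj : y j ≠ 0 := (Finset.mem_filter.mp hj).2
    simp only at hij
    rw [HahnSeries.order_mul (pow_ne_zero _ ht0) (pow_ne_zero _ hyi),
      HahnSeries.order_mul (pow_ne_zero _ ht0) (pow_ne_zero _ hyj),
      HahnSeries.order_pow, HahnSeries.order_pow, HahnSeries.order_pow, HahnSeries.order_pow,
      nsmul_eq_mul, nsmul_eq_mul, nsmul_eq_mul, nsmul_eq_mul] at hij
    have hdvd : (p : ℤ) ∣ (((i : ℕ) : ℤ) - ((j : ℕ) : ℤ)) * t.order := by
      refine ⟨(y j).order - (y i).order, ?_⟩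
      linear_combination hij
    have hpz : Prime (p : ℤ) := Nat.prime_iff_prime_int.mp hp
    have hdvd' : (p : ℤ) ∣ ((i : ℕ) : ℤ) - ((j : ℕ) : ℤ) :=
      (hpz.dvd_or_dvd hdvd).resolve_right ht
    have hi' : ((i : ℕ) : ℤ) < p := by exact_mod_cast i.2
    have hj' : ((j : ℕ) : ℤ) < p := by exact_mod_cast j.2
    have hi0 : (0 : ℤ) ≤ ((i : ℕ) : ℤ) := Int.natCast_nonneg _
    have hj0 : (0 : ℤ) ≤ ((j : ℕ) : ℤ) := Int.natCast_nonneg _
    have heq : ((i : ℕ) : ℤ) - ((j : ℕ) : ℤ) = 0 := by
      apply Int.eq_zero_of_abs_lt_dvd hdvd'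
      rw [abs_lt]
      constructor <;> linarith
    apply Fin.ext
    exact_mod_cast sub_eq_zero.mp heq

section decomp

variable (p : ℕ) [Fact p.Prime] [CharP k p] [PerfectField k] (t : LaurentSeries k)

/-- The elements of `k((q))` of the form `∑_{i<p} t^i b_i^p` with `b_i ∈ k(t)`. -/
def Dec (z : LaurentSeries k) : Prop :=
  ∃ b : Fin p → IntermediateField.adjoin k {t},
    z = ∑ i : Fin p, t ^ (i : ℕ) * (b i : LaurentSeries k) ^ p

omit [Fact p.Prime] [PerfectField k] in
theorem charP_laurent : CharP (LaurentSeries k) p :=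
  charP_of_injective_algebraMap (algebraMap k (LaurentSeries k)).injective p

omit [PerfectField k] in
theorem dec_add {z z' : LaurentSeries k} (hz : Dec p t z) (hz' : Dec p t z') :
    Dec p t (z + z') := by
  have := charP_laurent (k := k) p
  obtain ⟨b, rfl⟩ := hz
  obtain ⟨b', rfl⟩ := hz'
  refine ⟨fun i => b i + b' i, ?_⟩
  rw [← Finset.sum_add_distrib]
  refine Finset.sum_congr rfl fun i _ => ?_
  rw [IntermediateField.coe_add, add_pow_char, mul_add]

omit [Fact p.Prime] [CharP k p] [PerfectField k] in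
theorem dec_mul_pow {z : LaurentSeries k} (hz : Dec p t z)
    (d : IntermediateField.adjoin k {t}) : Dec p t (z * (d : LaurentSeries k) ^ p) := by
  obtain ⟨b, rfl⟩ := hz
  refine ⟨fun i => b i * d, ?_⟩
  rw [Finset.sum_mul]
  refine Finset.sum_congr rfl fun i _ => ?_
  rw [IntermediateField.coe_mul, mul_pow, mul_assoc]

theorem dec_monomial (n : ℕ) (a : k) :
    Dec p t (algebraMap k (LaurentSeries k) a * t ^ n) := by
  classical
  have hp : p.Prime := Fact.out
  have : PerfectRing k p := PerfectField.toPerfectRing p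
  obtain ⟨a', ha'⟩ := surjective_frobenius k p a
  rw [frobenius_def] at ha'
  have htM : t ∈ IntermediateField.adjoin k {t} :=
    IntermediateField.subset_adjoin k {t} (Set.mem_singleton t)
  set d : IntermediateField.adjoin k {t} :=
    algebraMap k (IntermediateField.adjoin k {t}) a' * (⟨t, htM⟩ : IntermediateField.adjoin k {t}) ^ (n / p)
    with hd
  refine ⟨fun i => if (i : ℕ) = n % p then d else 0, ?_⟩
  have hlt : n % p < p := Nat.mod_lt _ hp.pos
  rw [Finset.sum_eq_single_of_mem (⟨n % p, hlt⟩ : Fin p) (Finset.mem_univ _)]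
  · simp only [if_true]
    have hdc : (d : LaurentSeries k) = algebraMap k (LaurentSeries k) a' * t ^ (n / p) := by
      rw [hd]
      simp only [IntermediateField.coe_mul, IntermediateField.coe_pow]
      rfl
    rw [hdc, mul_pow, ← map_pow, ha', ← pow_mul]
    have hn : n = n % p + n / p * p := by
      rw [mul_comm]; exact (Nat.mod_add_div n p).symm
    conv_lhs => rw [hn, pow_add]
    ring
  · intro j _ hj
    have : ¬ ((j : ℕ) = n % p) := fun h => hj (Fin.ext h)
    simp [this, hp.ne_zero]

theorem dec_aeval (P : k[X]) : Dec p t (aeval t P) := by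
  induction P using Polynomial.induction_on' with
  | add P Q hP hQ =>
    rw [map_add]
    exact dec_add p t hP hQ
  | monomial n a =>
    rw [aeval_monomial]
    exact dec_monomial p t n a

/-- (A) every element of `k(t)` is `∑_{i<p} t^i b_i^p` with `b_i ∈ k(t)`. -/
theorem dec_of_mem {c : LaurentSeries k} (hc : c ∈ IntermediateField.adjoin k {t}) :
    Dec p t c := by
  have hp : p.Prime := Fact.out
  obtain ⟨r, s, rfl⟩ := (IntermediateField.mem_adjoin_simple_iff k c).mp hc
  have htM : t ∈ IntermediateField.adjoin k {t} :=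
    IntermediateField.subset_adjoin k {t} (Set.mem_singleton t)
  have hsM : aeval t s ∈ IntermediateField.adjoin k {t} := by
    rw [← IntermediateField.mem_toSubalgebra]
    rw [aeval_eq_sum_range]
    refine Subalgebra.sum_mem _ fun i _ => ?_
    refine Subalgebra.smul_mem _ (Subalgebra.pow_mem _ ?_ _) _
    exact htM
  have hinvM : (aeval t s)⁻¹ ∈ IntermediateField.adjoin k {t} := IntermediateField.inv_mem _ hsM
  have h1 := dec_mul_pow p t (dec_aeval p t (r * s ^ (p - 1))) ⟨(aeval t s)⁻¹, hinvM⟩
  have heq : aeval t (r * s ^ (p - 1)) * ((aeval t s)⁻¹) ^ p = aeval t r / aeval t s := by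
    rw [map_mul, map_pow]
    by_cases hs0 : aeval t s = 0
    · rw [hs0, zero_pow (Nat.sub_ne_zero_of_lt hp.one_lt), mul_zero, zero_mul, div_zero]
    · have hinv : ((aeval t s)⁻¹) ^ p = ((aeval t s)⁻¹) ^ (p - 1) * (aeval t s)⁻¹ := by
        rw [← pow_succ, Nat.sub_add_cancel hp.pos]
      rw [hinv, mul_assoc, ← mul_assoc ((aeval t s) ^ (p - 1)), ← mul_pow, mul_inv_cancel₀ hs0,
        one_pow, one_mul, div_eq_mul_inv]
  rw [← heq]
  exact h1

end decomp

/-- **P6.** Every element of `k((q))` algebraic over `k(t)` is separable over `k(t)`, when `k` is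
perfect of characteristic `p` and `p ∤ ord_q t`. -/
theorem isSeparable_of_mem_laurent {k : Type*} [Field k] (p : ℕ) [Fact p.Prime] [CharP k p]
    [PerfectField k] (t : LaurentSeries k) (ht : ¬ (p : ℤ) ∣ t.order) (ht0 : t ≠ 0)
    (x : LaurentSeries k) (hx : IsAlgebraic (IntermediateField.adjoin k {t}) x) :
    IsSeparable (IntermediateField.adjoin k {t}) x := by
  classical
  have hp : p.Prime := Fact.out
  have hcharL := charP_laurent (k := k) p
  have hcharM : CharP (IntermediateField.adjoin k {t}) p :=
    charP_of_injective_algebraMap (algebraMap k (IntermediateField.adjoin k {t})).injective p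
  have hint : IsIntegral (IntermediateField.adjoin k {t}) x := hx.isIntegral
  have hirr := minpoly.irreducible hint
  rcases Polynomial.separable_or p hirr with h | ⟨_, g, hg, hgf⟩
  · exact h
  exfalso
  have hdec : ∀ j : ℕ, Dec p t ((g.coeff j : IntermediateField.adjoin k {t}) : LaurentSeries k) :=
    fun j => dec_of_mem p t (g.coeff j).2
  choose b hb using hdec
  -- the auxiliary polynomials
  set hpoly : Fin p → (IntermediateField.adjoin k {t})[X] := fun i =>
    ∑ j ∈ Finset.range (g.natDegree + 1), C (b j i) * X ^ j with hhpoly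
  have haev : ∀ i, aeval x (hpoly i) =
      ∑ j ∈ Finset.range (g.natDegree + 1), (b j i : LaurentSeries k) * x ^ j := by
    intro i
    rw [hhpoly]
    simp only [map_sum, map_mul, aeval_C, map_pow, aeval_X]
    rfl
  have h0 : aeval x (expand (IntermediateField.adjoin k {t}) p g) = 0 := by
    rw [hgf]; exact minpoly.aeval _ x
  rw [expand_aeval, aeval_eq_sum_range] at h0
  have hsum : ∑ i : Fin p, t ^ (i : ℕ) * (aeval x (hpoly i)) ^ p = 0 := by
    rw [← h0]
    have h1 : ∀ i : Fin p, t ^ (i : ℕ) * (aeval x (hpoly i)) ^ p =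
        ∑ j ∈ Finset.range (g.natDegree + 1),
          t ^ (i : ℕ) * (b j i : LaurentSeries k) ^ p * (x ^ p) ^ j := by
      intro i
      rw [haev i, sum_pow_char, Finset.mul_sum]
      refine Finset.sum_congr rfl fun j _ => ?_
      rw [mul_pow, ← pow_mul, ← pow_mul, mul_comm j p, mul_assoc]
    simp_rw [h1]
    rw [Finset.sum_comm]
    refine Finset.sum_congr rfl fun j _ => ?_
    rw [← Finset.sum_mul, ← hb j]
    rfl
  have hkey := eq_zero_of_sum_pow_mul_pow_eq_zero p t ht ht0 (fun i => aeval x (hpoly i)) hsum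
  -- degrees
  have hdeg : (minpoly (IntermediateField.adjoin k {t}) x).natDegree = g.natDegree * p := by
    rw [← hgf, natDegree_expand]
  have hpos : 0 < g.natDegree := by
    have := minpoly.natDegree_pos hint
    rw [hdeg] at this
    exact Nat.pos_of_mul_pos_right this
  have hlt : g.natDegree < (minpoly (IntermediateField.adjoin k {t}) x).natDegree := by
    rw [hdeg]
    calc g.natDegree = g.natDegree * 1 := (mul_one _).symm
      _ < g.natDegree * p := Nat.mul_lt_mul_of_pos_left hp.one_lt hpos
  have hpolydeg : ∀ i, (hpoly i).natDegree ≤ g.natDegree := by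
    intro i
    rw [hhpoly]
    refine natDegree_sum_le_of_forall_le _ _ fun j hj => ?_
    exact (natDegree_C_mul_X_pow_le _ _).trans (Nat.lt_succ_iff.mp (Finset.mem_range.mp hj))
  have hpoly0 : ∀ i, hpoly i = 0 := by
    intro i
    by_contra hne
    have h1 := minpoly.degree_le_of_ne_zero (IntermediateField.adjoin k {t}) x hne (hkey i)
    have h2 := natDegree_le_natDegree h1
    have := hpolydeg i
    omega
  have hb0 : ∀ j, j ≤ g.natDegree → ∀ i, b j i = 0 := by
    intro j hj i
    have h1 : (hpoly i).coeff j = 0 := by rw [hpoly0 i, coeff_zero]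
    rw [hhpoly] at h1
    simp only [finsetSum_coeff, coeff_C_mul, coeff_X_pow] at h1
    rw [Finset.sum_eq_single_of_mem j (Finset.mem_range.mpr (Nat.lt_succ_of_le hj))] at h1
    · simpa using h1
    · intro j' _ hj'
      rw [if_neg (Ne.symm hj'), mul_zero]
  have hg0 : g = 0 := by
    refine Polynomial.ext fun j => ?_
    rw [coeff_zero]
    by_cases hj : j ≤ g.natDegree
    · have h1 := hb j
      simp only [hb0 j hj] at h1
      have h2 : ((g.coeff j : IntermediateField.adjoin k {t}) : LaurentSeries k) = 0 := by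
        rw [h1]
        apply Finset.sum_eq_zero
        intro i _
        simp [hp.ne_zero]
      exact_mod_cast h2
    · exact coeff_eq_zero_of_natDegree_lt (not_le.mp hj)
  exact hg.ne_zero hg0

end Fermat.Agent.S18.SepLaurent
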