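import Mathlib

/-!
# S18 / [IGUSA] A-V : the vertical discriminant is a unit

* `isUnit_discr_of_isSeparable_residue` : `D` a local ring, `W` a finite free `D`-algebra whose
  reduction `W / 𝔪_D W` is (via surjections `φ0 : D → κ0`, `φ : W → κ`) a separable field
  extension `κ / κ0`.  Then the discriminant of every `D`-basis of `W` is a unit of `D`.
  (Application: `D = O[j]_(π)`, `W = R0 ⊗ D`, `κ0 = k(j̄)`, `κ = Frac (R0 / π)`.)
* `not_dvd_of_discr` : comparison of discriminants at a prime element `π`: if the family `c`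
  lies (up to a factor prime to `π`) in the span of the family `e` and the discriminant of `c`
  is prime to `π`, then so is the discriminant of `e`.
-/

set_option autoImplicit false

namespace Fermat.Agent.S18.VertDisc

open Module

section Residue

variable {D W κ0 κ ι : Type*} [CommRing D] [IsLocalRing D] [CommRing W] [Algebra D W]
  [Field κ0] [Field κ] [Algebra κ0 κ] [Fintype ι] [DecidableEq ι]

omit [IsLocalRing D] [Fintype ι] [DecidableEq ι] in
/-- Coordinates of an element of `I W` lie in `I`. -/
theorem repr_mem_of_mem_map (I : Ideal D) (c : Basis ι D W) {w : W}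
    (hw : w ∈ I.map (algebraMap D W)) (i : ι) : c.repr w i ∈ I := by
  have hw' : w ∈ (I • ⊤ : Submodule D W) := by
    rw [Ideal.smul_top_eq_map]
    exact hw
  refine Submodule.smul_induction_on hw' (fun r hr n _ => ?_) (fun x y hx hy => ?_)
  · rw [map_smul, Finsupp.smul_apply, smul_eq_mul]
    exact I.mul_mem_right _ hr
  · rw [map_add, Finsupp.add_apply]
    exact I.add_mem hx hy

variable (φ0 : D →+* κ0) (φ : W →+* κ)

omit [DecidableEq ι] in
/-- Reduction of a `D`-basis of `W` to a `κ0`-basis of `κ`, with its characteristic properties. -/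
theorem exists_basis_residue
    (hφ : Function.Surjective φ) (hφ0 : Function.Surjective φ0)
    (hcomp : ∀ d : D, φ (algebraMap D W d) = algebraMap κ0 κ (φ0 d))
    (hker : ∀ w : W, φ w = 0 → w ∈ (IsLocalRing.maximalIdeal D).map (algebraMap D W))
    (c : Basis ι D W) :
    ∃ b : Basis ι κ0 κ, (∀ i, b i = φ (c i)) ∧ ∀ (u : W) (i : ι), b.repr (φ u) i = φ0 (c.repr u i) := by
  have hker0 : RingHom.ker φ0 = IsLocalRing.maximalIdeal D :=
    IsLocalRing.eq_maximalIdeal (RingHom.ker_isMaximal_of_surjective φ0 hφ0)
  have h𝔪 : ∀ d ∈ IsLocalRing.maximalIdeal D, φ0 d = 0 := fun d hd => by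
    rw [← hker0] at hd
    exact hd
  have hsum : ∀ u : W, φ u = ∑ i, φ0 (c.repr u i) • φ (c i) := by
    intro u
    conv_lhs => rw [← c.sum_repr u]
    rw [map_sum]
    refine Finset.sum_congr rfl fun i _ => ?_
    rw [Algebra.smul_def, map_mul, hcomp, Algebra.smul_def]
  have hli : LinearIndependent κ0 (fun i => φ (c i)) := by
    rw [Fintype.linearIndependent_iff]
    intro g hg i
    choose d hd using fun i => hφ0 (g i)
    have h1 : φ (∑ j, d j • c j) = 0 := by
      rw [map_sum, ← hg]
      refine Finset.sum_congr rfl fun j _ => ?_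
      rw [Algebra.smul_def, map_mul, hcomp, hd, Algebra.smul_def]
    have h2 := repr_mem_of_mem_map _ c (hker _ h1) i
    rw [c.repr_sum_self] at h2
    rw [← hd i]
    exact h𝔪 _ h2
  have hsp : ⊤ ≤ Submodule.span κ0 (Set.range fun i => φ (c i)) := by
    intro y _
    obtain ⟨u, rfl⟩ := hφ y
    rw [hsum u]
    exact Submodule.sum_mem _ fun i _ =>
      Submodule.smul_mem _ _ (Submodule.subset_span ⟨i, rfl⟩)
  refine ⟨Basis.mk hli hsp, fun i => by rw [Basis.mk_apply], fun u i => ?_⟩
  have h3 : φ u = ∑ j, φ0 (c.repr u j) • (Basis.mk hli hsp) j := by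
    rw [hsum u]
    refine Finset.sum_congr rfl fun j _ => ?_
    rw [Basis.mk_apply]
  rw [h3, Basis.repr_sum_self]

/-- A-V, abstract form: separable residue field extension ⇒ unit discriminant. -/
theorem isUnit_discr_of_isSeparable_residue [Algebra.IsSeparable κ0 κ]
    (hφ : Function.Surjective φ) (hφ0 : Function.Surjective φ0)
    (hcomp : ∀ d : D, φ (algebraMap D W d) = algebraMap κ0 κ (φ0 d))
    (hker : ∀ w : W, φ w = 0 → w ∈ (IsLocalRing.maximalIdeal D).map (algebraMap D W))
    (c : Basis ι D W) : IsUnit (Algebra.discr D c) := by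
  obtain ⟨b, hb, hrepr⟩ := exists_basis_residue φ0 φ hφ hφ0 hcomp hker c
  have hfin : Module.Finite κ0 κ := Module.Finite.of_basis b
  have htr : ∀ w : W, Algebra.trace κ0 κ (φ w) = φ0 (Algebra.trace D W w) := by
    intro w
    rw [Algebra.trace_eq_matrix_trace b, Algebra.trace_eq_matrix_trace c, Matrix.trace,
      Matrix.trace, map_sum]
    refine Finset.sum_congr rfl fun i _ => ?_
    rw [Matrix.diag_apply, Matrix.diag_apply, Algebra.leftMulMatrix_eq_repr_mul,
      Algebra.leftMulMatrix_eq_repr_mul, hb, ← map_mul φ, hrepr]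
  have hdiscr : φ0 (Algebra.discr D c) = Algebra.discr κ0 b := by
    rw [Algebra.discr_def, Algebra.discr_def, RingHom.map_det]
    congr 1
    ext i j
    rw [RingHom.mapMatrix_apply, Matrix.map_apply, Algebra.traceMatrix_apply,
      Algebra.traceMatrix_apply, Algebra.traceForm_apply, Algebra.traceForm_apply, hb, hb,
      ← map_mul φ, htr]
  have hne : Algebra.discr κ0 b ≠ 0 := Algebra.discr_not_zero_of_basis κ0 b
  have hker0 : RingHom.ker φ0 = IsLocalRing.maximalIdeal D :=
    IsLocalRing.eq_maximalIdeal (RingHom.ker_isMaximal_of_surjective φ0 hφ0)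
  rw [← IsLocalRing.notMem_maximalIdeal, ← hker0, RingHom.mem_ker, hdiscr]
  exact hne

end Residue

section Compare

variable {R E T ι : Type*} [CommRing R] [Field E] [Algebra R E] [IsFractionRing R E]
  [CommRing T] [Algebra E T] [Fintype ι] [DecidableEq ι]

/-- Comparison of discriminants at a prime element `π` of `R`: if `t • c i = ∑ j, M i j • e j`
with `M` over `R` and `π ∤ t`, and the discriminant of `c` is `u / v` with `π ∤ u`, then the
discriminant `d0` of `e` is prime to `π`. -/
theorem not_dvd_of_discr {π : R} (hπ : Prime π) (e c : ι → T) (t : R) (ht : ¬ π ∣ t)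
    (M : Matrix ι ι R)
    (hM : ∀ i, algebraMap R E t • c i = ∑ j, algebraMap R E (M i j) • e j)
    (d0 u v : R) (hd0 : Algebra.discr E e = algebraMap R E d0)
    (huv : Algebra.discr E c * algebraMap R E v = algebraMap R E u) (hu : ¬ π ∣ u) :
    ¬ π ∣ d0 := by
  have hinj := IsFractionRing.injective R E
  have h1 : Algebra.discr E (fun i => algebraMap R E t • c i) =
      (M.map (algebraMap R E)).det ^ 2 * Algebra.discr E e := by
    rw [← Algebra.discr_of_matrix_mulVec]
    congr 1
    ext i
    rw [hM i, Matrix.mulVec, dotProduct]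
    refine Finset.sum_congr rfl fun j _ => ?_
    rw [Matrix.map_apply, Matrix.map_apply, Algebra.smul_def]
  have h2 : Algebra.discr E (fun i => algebraMap R E t • c i) =
      algebraMap R E t ^ (2 * Fintype.card ι) * Algebra.discr E c := by
    have h3 : Algebra.traceMatrix E (fun i => algebraMap R E t • c i) =
        (algebraMap R E t ^ 2) • Algebra.traceMatrix E c := by
      ext i j
      rw [Matrix.smul_apply, Algebra.traceMatrix_apply, Algebra.traceMatrix_apply,
        Algebra.traceForm_apply, Algebra.traceForm_apply, smul_mul_smul_comm, map_smul, sq]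
    rw [Algebra.discr_def, h3, Matrix.det_smul, Algebra.discr_def, ← pow_mul]
  have h4 : t ^ (2 * Fintype.card ι) * u = M.det ^ 2 * d0 * v := by
    apply hinj
    rw [map_mul, map_mul, map_mul, map_pow, map_pow, ← huv, ← hd0, RingHom.map_det,
      RingHom.mapMatrix_apply, ← mul_assoc, ← h2, h1]
  intro hdvd
  have h5 : π ∣ t ^ (2 * Fintype.card ι) * u := by
    rw [h4]
    exact Dvd.dvd.mul_right (Dvd.dvd.mul_left hdvd _) _
  rcases hπ.dvd_or_dvd h5 with h | h
  · exact ht (hπ.dvd_of_dvd_pow h)
  · exact hu h

end Compare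

end Fermat.Agent.S18.VertDisc
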