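import Mathlib
import Fermat.Agent.S18.VertDisc

/-!
# S18 / [IGUSA] (V0): an integral basis with discriminant prime to the vertical prime

`A` an integrally closed noetherian domain with fraction field `K`, `F / K` finite separable,
`R := integralClosure A F`, `ϖ` a prime element of `A` which stays prime in `R` and such that the
residue extension is elementwise separable (every `b ∈ R` is a simple root modulo `ϖ` of some
`G ∈ A[X]`).  Then `F / K` has a basis of `A`-integral elements whose discriminant is prime to
`ϖ` (`exists_basis_discr_not_dvd`; `exists_basis_discr_not_dvd_C` and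
`exists_family_discr_not_dvd_C` are the versions for `A = O[X]`, `ϖ = C π`).

Proof: `D := A_(ϖ)` is a DVR, `W := integralClosure D F` is finite free over `D`, `ϖ W` is a
maximal ideal and `W / ϖ W` is separable over `D / ϖ D`; by `VertDisc` the discriminant of a
`D`-basis of `W` is a unit of `D`; rescale the basis into `R` by an element prime to `ϖ`.
-/

set_option autoImplicit false

namespace Fermat.Agent.S18.VertBasis

open Polynomial

/-- A simple root of a polynomial is separable over the base field. -/
theorem isSeparable_of_aeval_derivative_ne_zero {k E : Type*} [Field k] [Field E] [Algebra k E]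
    (x : E) (g : k[X]) (h0 : aeval x g = 0) (h1 : aeval x (derivative g) ≠ 0) :
    IsSeparable k x := by
  have hg : g ≠ 0 := by
    rintro rfl
    simp at h1
  have hint : IsIntegral k x := IsAlgebraic.isIntegral ⟨g, hg, h0⟩
  obtain ⟨h, hh⟩ := minpoly.dvd k x h0
  have hm : derivative (minpoly k x) ≠ 0 := by
    intro hm
    apply h1
    rw [hh, derivative_mul, hm, zero_mul, zero_add, map_mul, minpoly.aeval, zero_mul]
  exact (separable_iff_derivative_ne_zero (minpoly.irreducible hint)).mpr hm

/-- Evaluation commutes with a compatible pair of ring homomorphisms. -/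
theorem aeval_map_of_comp {D W κ0 κ : Type*} [CommRing D] [CommRing W] [Algebra D W]
    [CommRing κ0] [CommRing κ] [Algebra κ0 κ] (φ0 : D →+* κ0) (φ : W →+* κ)
    (hcomp : (algebraMap κ0 κ).comp φ0 = φ.comp (algebraMap D W)) (G : D[X]) (w : W) :
    aeval (φ w) (G.map φ0) = φ (aeval w G) := by
  rw [aeval_def, aeval_def, eval₂_map, hcomp, hom_eval₂]

section Local

variable {D K F : Type*} [CommRing D] [IsDomain D] [IsDiscreteValuationRing D] [Field K]
  [Algebra D K] [IsFractionRing D K] [Field F] [Algebra K F] [Algebra D F] [IsScalarTower D K F]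
  [FiniteDimensional K F] [Algebra.IsSeparable K F]

/-- Local form: over a DVR `D` with uniformizer `ϖ` such that `ϖ` stays prime in the integral
closure `W` of `D` in `F` and the residue extension is elementwise separable, every `D`-basis of
`W` has unit discriminant. -/
theorem isUnit_discr_of_prime (ϖ : D) (hϖ : IsLocalRing.maximalIdeal D = Ideal.span {ϖ})
    (hprime : Prime (algebraMap D (integralClosure D F) ϖ))
    (hsep : ∀ w : integralClosure D F, ∃ u : Dˣ, ∃ G : D[X],
      aeval ((u : D) • w) G ∈ Ideal.span {algebraMap D (integralClosure D F) ϖ} ∧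
      aeval ((u : D) • w) (derivative G) ∉ Ideal.span {algebraMap D (integralClosure D F) ϖ})
    {ι : Type*} [Fintype ι] [DecidableEq ι] (c : Module.Basis ι D (integralClosure D F)) :
    IsUnit (Algebra.discr D c) := by
  let Q : Ideal (integralClosure D F) := Ideal.span {algebraMap D (integralClosure D F) ϖ}
  have hQprime : Q.IsPrime :=
    (Ideal.span_singleton_prime hprime.ne_zero).mpr hprime
  have hcomap : IsLocalRing.maximalIdeal D = Q.comap (algebraMap D (integralClosure D F)) := by
    refine (IsLocalRing.maximalIdeal.isMaximal D).eq_of_le ?_ ?_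
    · exact (Ideal.comap_ne_top _ hQprime.ne_top)
    · rw [hϖ, Ideal.span_le, Set.singleton_subset_iff]
      exact Ideal.mem_comap.mpr (Ideal.subset_span rfl)
  have hQmax : Q.IsMaximal := by
    refine Ideal.isMaximal_of_isIntegral_of_isMaximal_comap (R := D) Q ?_
    rw [← hcomap]
    exact IsLocalRing.maximalIdeal.isMaximal D
  let _ : Field (D ⧸ IsLocalRing.maximalIdeal D) := Ideal.Quotient.field _
  let _ : Field (integralClosure D F ⧸ Q) := Ideal.Quotient.field Q
  let ψ : (D ⧸ IsLocalRing.maximalIdeal D) →+* (integralClosure D F ⧸ Q) :=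
    Ideal.Quotient.lift (IsLocalRing.maximalIdeal D) ((Ideal.Quotient.mk Q).comp (algebraMap D (integralClosure D F)))
      (fun d hd => by
        rw [hcomap] at hd
        exact Ideal.Quotient.eq_zero_iff_mem.mpr (Ideal.mem_comap.mp hd))
  let _ : Algebra (D ⧸ IsLocalRing.maximalIdeal D) (integralClosure D F ⧸ Q) := ψ.toAlgebra
  have hcomp : (algebraMap (D ⧸ IsLocalRing.maximalIdeal D) (integralClosure D F ⧸ Q)).comp
      (Ideal.Quotient.mk (IsLocalRing.maximalIdeal D)) =
      (Ideal.Quotient.mk Q).comp (algebraMap D (integralClosure D F)) := by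
    ext d
    rfl
  have : Algebra.IsSeparable (D ⧸ IsLocalRing.maximalIdeal D) (integralClosure D F ⧸ Q) := by
    refine ⟨fun x => ?_⟩
    obtain ⟨w, rfl⟩ := Ideal.Quotient.mk_surjective x
    obtain ⟨u, G, h0, h1⟩ := hsep w
    have hy : IsSeparable (D ⧸ IsLocalRing.maximalIdeal D)
        (Ideal.Quotient.mk Q ((u : D) • w)) := by
      refine isSeparable_of_aeval_derivative_ne_zero _
        (G.map (Ideal.Quotient.mk (IsLocalRing.maximalIdeal D))) ?_ ?_
      · rw [aeval_map_of_comp _ _ hcomp]
        exact Ideal.Quotient.eq_zero_iff_mem.mpr h0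
      · rw [derivative_map, aeval_map_of_comp _ _ hcomp]
        exact fun h => h1 (Ideal.Quotient.eq_zero_iff_mem.mp h)
    have hw : Ideal.Quotient.mk Q w =
        algebraMap (D ⧸ IsLocalRing.maximalIdeal D) (integralClosure D F ⧸ Q)
          (Ideal.Quotient.mk (IsLocalRing.maximalIdeal D) ((u⁻¹ : Dˣ) : D)) *
        Ideal.Quotient.mk Q ((u : D) • w) := by
      have h2 := RingHom.congr_fun hcomp ((u⁻¹ : Dˣ) : D)
      rw [RingHom.comp_apply, RingHom.comp_apply] at h2
      rw [h2, ← map_mul, ← Algebra.smul_def, smul_smul, Units.inv_mul, one_smul]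
    rw [hw]
    exact Field.isSeparable_mul (isSeparable_algebraMap _) hy
  refine VertDisc.isUnit_discr_of_isSeparable_residue
    (Ideal.Quotient.mk (IsLocalRing.maximalIdeal D)) (Ideal.Quotient.mk Q)
    Ideal.Quotient.mk_surjective Ideal.Quotient.mk_surjective
    (fun d => (RingHom.congr_fun hcomp d).symm) (fun w hw => ?_) c
  rw [hϖ, Ideal.map_span, Set.image_singleton]
  exact Ideal.Quotient.eq_zero_iff_mem.mp hw

end Local

/-- An element of `A` which is `ϖ` times an integral element of `F` is divisible by `ϖ`. -/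
theorem dvd_of_eq_mul_integral (K : Type*) {A F : Type*} [CommRing A] [IsIntegrallyClosed A]
    [Field K] [Algebra A K] [IsFractionRing A K] [Field F] [Algebra K F] [Algebra A F]
    [IsScalarTower A K F] (ϖ t : A) (hϖ : ϖ ≠ 0) (z : F) (hz : IsIntegral A z)
    (h : algebraMap A F t = algebraMap A F ϖ * z) : ϖ ∣ t := by
  have hK : algebraMap A K ϖ ≠ 0 :=
    fun h0 => hϖ (IsFractionRing.injective A K (by rw [h0, map_zero]))
  have hF : algebraMap A F ϖ ≠ 0 := by
    rw [IsScalarTower.algebraMap_apply A K F]
    exact fun h0 => hK ((algebraMap K F).injective (by rw [h0, map_zero]))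
  have hz' : z = algebraMap K F (algebraMap A K t / algebraMap A K ϖ) := by
    rw [map_div₀, ← IsScalarTower.algebraMap_apply, ← IsScalarTower.algebraMap_apply, h,
      mul_div_cancel_left₀ _ hF]
  rw [hz'] at hz
  obtain ⟨a, ha⟩ := IsIntegrallyClosed.isIntegral_iff.mp
    ((isIntegral_algebraMap_iff (algebraMap K F).injective).mp hz)
  refine ⟨a, IsFractionRing.injective A K ?_⟩
  rw [map_mul, ha, mul_div_cancel₀ _ hK]

section Transfer

variable {A D K F : Type*} [CommRing A] [IsDomain A] [IsIntegrallyClosed A] [CommRing D]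
  [Algebra A D] [Field K] [Algebra A K] [IsFractionRing A K] [Field F] [Algebra K F]
  [Algebra A F] [IsScalarTower A K F] [Algebra D F] [IsScalarTower A D F]

variable (M : Submonoid A) [IsLocalization M D] (ϖ : A)

omit [IsDomain A] [IsIntegrallyClosed A] [IsFractionRing A K] [IsScalarTower A K F] [Algebra A K] [Algebra K F] in
/-- Every `D`-integral element becomes `A`-integral after multiplication by an element of `M`. -/
theorem exists_integral_smul (w : integralClosure D F) :
    ∃ t ∈ M, ∃ r : integralClosure A F, (r : F) = algebraMap A F t * (w : F) := by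
  obtain ⟨⟨t, ht⟩, h⟩ := IsIntegral.exists_multiple_integral_of_isLocalization M (w : F) w.2
  refine ⟨t, ht, ⟨(⟨t, ht⟩ : M) • (w : F), h⟩, ?_⟩
  show (⟨t, ht⟩ : M) • (w : F) = _
  rw [Submonoid.smul_def, Algebra.smul_def]

omit [IsDomain A] in
include K in
/-- Divisibility by `ϖ` in the integral closure of `D` is detected in the integral closure of
`A`. -/
theorem dvd_iff_of_smul_eq (hϖ0 : ϖ ≠ 0) (hM : ∀ t ∈ M, ¬ ϖ ∣ t)
    (hprime : Prime (algebraMap A (integralClosure A F) ϖ))
    (w : integralClosure D F) (t : A) (ht : t ∈ M) (r : integralClosure A F)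
    (hr : (r : F) = algebraMap A F t * (w : F)) :
    algebraMap D (integralClosure D F) (algebraMap A D ϖ) ∣ w ↔
      algebraMap A (integralClosure A F) ϖ ∣ r := by
  constructor
  · rintro ⟨w', rfl⟩
    obtain ⟨t', ht', r', hr'⟩ := exists_integral_smul (A := A) M w'
    have h1 : algebraMap A (integralClosure A F) ϖ ∣ algebraMap A (integralClosure A F) t' * r := by
      refine ⟨algebraMap A (integralClosure A F) t * r', Subtype.ext ?_⟩
      simp only [Subalgebra.coe_mul, Subalgebra.coe_algebraMap, hr, hr']
      rw [← IsScalarTower.algebraMap_apply]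
      ring
    rcases hprime.dvd_or_dvd h1 with ⟨z, hz⟩ | h2
    · exfalso
      refine hM t' ht' (dvd_of_eq_mul_integral K ϖ t' hϖ0 (z : F) z.2 ?_)
      have := congrArg (Subtype.val) hz
      simpa only [Subalgebra.coe_mul, Subalgebra.coe_algebraMap] using this
    · exact h2
  · rintro ⟨r', rfl⟩
    obtain ⟨u, hu⟩ := (IsLocalization.map_units D ⟨t, ht⟩).exists_right_inv
    have hr'D : IsIntegral D (algebraMap D F u * (r' : F)) :=
      isIntegral_algebraMap.mul r'.2.tower_top
    refine ⟨⟨_, hr'D⟩, Subtype.ext ?_⟩
    simp only [Subalgebra.coe_mul, Subalgebra.coe_algebraMap] at hr ⊢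
    have h3 : algebraMap D F u * algebraMap A F t = 1 := by
      rw [IsScalarTower.algebraMap_apply A D F, ← map_mul, mul_comm, hu, map_one]
    rw [← IsScalarTower.algebraMap_apply]
    calc (w : F) = algebraMap D F u * algebraMap A F t * (w : F) := by rw [h3, one_mul]
      _ = algebraMap A F ϖ * (algebraMap D F u * (r' : F)) := by
        rw [mul_assoc, ← hr]
        ring

omit [IsDomain A] in
include K in
/-- `ϖ` stays prime in the integral closure of the localization. -/
theorem prime_of_localization (hϖ0 : ϖ ≠ 0) (hM : ∀ t ∈ M, ¬ ϖ ∣ t)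
    (hprime : Prime (algebraMap A (integralClosure A F) ϖ)) :
    Prime (algebraMap D (integralClosure D F) (algebraMap A D ϖ)) := by
  have key := dvd_iff_of_smul_eq (K := K) (D := D) M ϖ hϖ0 hM hprime
  have hone : ((1 : integralClosure A F) : F) =
      algebraMap A F 1 * ((1 : integralClosure D F) : F) := by
    simp
  refine ⟨?_, ?_, ?_⟩
  · intro h
    refine hprime.ne_zero (Subtype.ext ?_)
    have h2 := congrArg (Subtype.val) h
    simp only [Subalgebra.coe_algebraMap, ZeroMemClass.coe_zero] at h2 ⊢
    rw [← h2, ← IsScalarTower.algebraMap_apply]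
  · intro hu
    exact hprime.not_isUnit (isUnit_of_dvd_one ((key 1 1 M.one_mem 1 hone).mp hu.dvd))
  · intro w1 w2 h
    obtain ⟨t1, ht1, r1, hr1⟩ := exists_integral_smul (A := A) M w1
    obtain ⟨t2, ht2, r2, hr2⟩ := exists_integral_smul (A := A) M w2
    have h12 := (key (w1 * w2) (t1 * t2) (M.mul_mem ht1 ht2) (r1 * r2) (by
      simp only [Subalgebra.coe_mul, hr1, hr2, map_mul]
      ring)).mp h
    rcases hprime.dvd_or_dvd h12 with h | h
    · exact Or.inl ((key w1 t1 ht1 r1 hr1).mpr h)
    · exact Or.inr ((key w2 t2 ht2 r2 hr2).mpr h)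

end Transfer

/-- Discriminant of a rescaled family. -/
theorem discr_smul_family {K F ι : Type*} [CommRing K] [CommRing F] [Algebra K F] [Fintype ι]
    [DecidableEq ι] (a : K) (b : ι → F) :
    Algebra.discr K (fun i => a • b i) = a ^ (2 * Fintype.card ι) * Algebra.discr K b := by
  have h3 : Algebra.traceMatrix K (fun i => a • b i) = (a ^ 2) • Algebra.traceMatrix K b := by
    ext i j
    rw [Matrix.smul_apply, Algebra.traceMatrix_apply, Algebra.traceMatrix_apply,
      Algebra.traceForm_apply, Algebra.traceForm_apply, smul_mul_smul_comm, map_smul, sq]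
  rw [Algebra.discr_def, h3, Matrix.det_smul, Algebra.discr_def, ← pow_mul]

section Descent

variable {A D K F : Type*} [CommRing A] [IsDomain A] [IsIntegrallyClosed A] [CommRing D]
  [IsDomain D] [IsDiscreteValuationRing D] [Algebra A D] [Field K] [Algebra A K]
  [IsFractionRing A K] [Algebra D K] [IsFractionRing D K] [IsScalarTower A D K] [Field F]
  [Algebra K F] [Algebra A F] [IsScalarTower A K F] [Algebra D F] [IsScalarTower D K F]
  [IsScalarTower A D F] [FiniteDimensional K F] [Algebra.IsSeparable K F]

omit [IsDomain A] in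
/-- (V0) for a given model `D` of the localization of `A` at `(ϖ)`, assumed to be a DVR. -/
theorem exists_basis_of_isLocalization (M : Submonoid A) [IsLocalization M D] (ϖ : A)
    (hϖ0 : ϖ ≠ 0) (hM : ∀ t ∈ M, ¬ ϖ ∣ t)
    (hmax : IsLocalRing.maximalIdeal D = Ideal.span {algebraMap A D ϖ})
    (hprime : Prime (algebraMap A (integralClosure A F) ϖ))
    (hsep : ∀ b : integralClosure A F, ∃ G : A[X],
      aeval b G ∈ Ideal.span {algebraMap A (integralClosure A F) ϖ} ∧
      aeval b (derivative G) ∉ Ideal.span {algebraMap A (integralClosure A F) ϖ}) :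
    ∃ (e : Fin (Module.finrank K F) → F) (d0 : A), LinearIndependent K e ∧
      (∀ i, IsIntegral A (e i)) ∧
      algebraMap A K d0 = (Matrix.of fun i j => Algebra.trace K F (e i * e j)).det ∧
      ¬ ϖ ∣ d0 := by
  classical
  have key := dvd_iff_of_smul_eq (K := K) (D := D) M ϖ hϖ0 hM hprime
  have hprimeD := prime_of_localization (K := K) (D := D) M ϖ hϖ0 hM hprime
  have hsepD : ∀ w : integralClosure D F, ∃ u : Dˣ, ∃ G : D[X],
      aeval ((u : D) • w) G ∈
        Ideal.span {algebraMap D (integralClosure D F) (algebraMap A D ϖ)} ∧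
      aeval ((u : D) • w) (derivative G) ∉
        Ideal.span {algebraMap D (integralClosure D F) (algebraMap A D ϖ)} := by
    intro w
    obtain ⟨t, ht, r, hr⟩ := exists_integral_smul (A := A) M w
    obtain ⟨G, h0, h1⟩ := hsep r
    have hcoe : ∀ H : A[X], ((aeval r H : integralClosure A F) : F) =
        algebraMap A F 1 * ((aeval (((IsLocalization.map_units D ⟨t, ht⟩).unit : D) • w)
          (H.map (algebraMap A D)) : integralClosure D F) : F) := by
      intro H
      rw [map_one, one_mul, aeval_subalgebra_coe, aeval_subalgebra_coe, aeval_map_algebraMap, hr]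
      congr 1
      rw [IsUnit.unit_spec, Algebra.smul_def, Subalgebra.coe_mul, Subalgebra.coe_algebraMap,
        ← IsScalarTower.algebraMap_apply]
    refine ⟨(IsLocalization.map_units D ⟨t, ht⟩).unit, G.map (algebraMap A D), ?_, ?_⟩
    · rw [Ideal.mem_span_singleton] at h0 ⊢
      exact (key _ 1 M.one_mem _ (hcoe G)).mpr h0
    · rw [Ideal.mem_span_singleton] at h1 ⊢
      rw [derivative_map]
      exact fun h => h1 ((key _ 1 M.one_mem _ (hcoe (derivative G))).mp h)
  have hTF : Module.IsTorsionFree D F := .trans_faithfulSMul D K F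
  have hfin : Module.Finite D (integralClosure D F) := IsIntegralClosure.finite D K F _
  have hfree : Module.Free D (integralClosure D F) := IsIntegralClosure.module_free D K F _
  have hrank : Module.finrank D (integralClosure D F) = Module.finrank K F :=
    IsIntegralClosure.rank D K F _
  let c : Module.Basis (Fin (Module.finrank K F)) D (integralClosure D F) :=
    Module.finBasisOfFinrankEq D _ hrank
  have hunit : IsUnit (Algebra.discr D c) :=
    isUnit_discr_of_prime (algebraMap A D ϖ) hmax hprimeD hsepD c
  have hloc : IsLocalization (Algebra.algebraMapSubmonoid (integralClosure D F)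
      (nonZeroDivisors D)) F := IsIntegralClosure.isLocalization D K F _
  let cK : Module.Basis (Fin (Module.finrank K F)) K F :=
    c.localizationLocalization K (nonZeroDivisors D) F
  have hcK : ∀ i, cK i = (c i : F) := fun i =>
    Module.Basis.localizationLocalization_apply K (nonZeroDivisors D) F c i
  have hdisc : Algebra.discr K cK = algebraMap D K (Algebra.discr D c) :=
    Algebra.discr_localizationLocalization D (nonZeroDivisors D) F c
  choose t ht r hr using fun i => exists_integral_smul (A := A) M (c i)
  have hT : (∏ i, t i) ∈ M := Submonoid.prod_mem _ (fun i _ => ht i)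
  have hTK : algebraMap A K (∏ i, t i) ≠ 0 := by
    intro h0
    have h1 : (∏ i, t i) = 0 := IsFractionRing.injective A K (by rw [h0, map_zero])
    exact hM _ hT (h1 ▸ dvd_zero ϖ)
  have he : ∀ i, IsIntegral A (algebraMap A K (∏ i, t i) • cK i) := by
    intro i
    have h1 : (∏ j, t j) = (∏ j ∈ Finset.univ.erase i, t j) * t i :=
      (Finset.prod_erase_mul _ _ (Finset.mem_univ i)).symm
    rw [hcK, Algebra.smul_def, ← IsScalarTower.algebraMap_apply, h1, map_mul, mul_assoc, ← hr i]
    exact isIntegral_algebraMap.mul (r i).2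
  have hli : LinearIndependent K (fun i => algebraMap A K (∏ i, t i) • cK i) :=
    cK.linearIndependent.units_smul (fun _ => Units.mk0 _ hTK)
  have hde := discr_smul_family (algebraMap A K (∏ i, t i)) cK
  rw [Fintype.card_fin] at hde
  obtain ⟨d0, hd0⟩ := IsIntegrallyClosed.isIntegral_iff.mp (Algebra.discr_isIntegral K he)
  refine ⟨fun i => algebraMap A K (∏ i, t i) • cK i, d0, hli, he, hd0, ?_⟩
  rintro ⟨a, rfl⟩
  have h1 : algebraMap A D (ϖ * a) =
      algebraMap A D (∏ i, t i) ^ (2 * Module.finrank K F) * Algebra.discr D c := by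
    apply IsFractionRing.injective D K
    rw [← IsScalarTower.algebraMap_apply, hd0, hde, hdisc, map_mul, map_pow,
      ← IsScalarTower.algebraMap_apply]
  have h2 : IsUnit (algebraMap A D (ϖ * a)) := by
    rw [h1]
    exact ((IsLocalization.map_units D ⟨_, hT⟩).pow _).mul hunit
  have h3 : algebraMap A D (ϖ * a) ∈ IsLocalRing.maximalIdeal D := by
    rw [hmax, map_mul]
    exact Ideal.mul_mem_right _ _ (Ideal.subset_span rfl)
  exact (IsLocalRing.mem_maximalIdeal _).mp h3 h2

end Descent

/-- (V0), abstract form: if `ϖ` stays prime in the integral closure `R` of `A` in `F` and the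
residue extension is elementwise separable, then `F / K` has a basis of integral elements whose
discriminant is prime to `ϖ`. -/
theorem exists_basis_discr_not_dvd {A K F : Type*} [CommRing A] [IsDomain A] [IsNoetherianRing A]
    [IsIntegrallyClosed A] [Field K] [Algebra A K] [IsFractionRing A K] [Field F] [Algebra K F]
    [Algebra A F] [IsScalarTower A K F] [FiniteDimensional K F] [Algebra.IsSeparable K F]
    (ϖ : A) (hϖ : Prime ϖ)
    (hprime : Prime (algebraMap A (integralClosure A F) ϖ))
    (hsep : ∀ b : integralClosure A F, ∃ G : A[X],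
      aeval b G ∈ Ideal.span {algebraMap A (integralClosure A F) ϖ} ∧
      aeval b (derivative G) ∉ Ideal.span {algebraMap A (integralClosure A F) ϖ}) :
    ∃ (e : Fin (Module.finrank K F) → F) (d0 : A), LinearIndependent K e ∧
      (∀ i, IsIntegral A (e i)) ∧
      algebraMap A K d0 = (Matrix.of fun i j => Algebra.trace K F (e i * e j)).det ∧
      ¬ ϖ ∣ d0 := by
  have hP : (Ideal.span {ϖ} : Ideal A).IsPrime :=
    (Ideal.span_singleton_prime hϖ.ne_zero).mpr hϖ
  let D := Localization.AtPrime (Ideal.span {ϖ} : Ideal A)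
  have hDN : IsNoetherianRing D :=
    IsLocalization.isNoetherianRing (Ideal.span {ϖ} : Ideal A).primeCompl D inferInstance
  let algDK : Algebra D K :=
    (IsLocalization.lift (M := (Ideal.span {ϖ} : Ideal A).primeCompl) (S := D)
      (g := algebraMap A K) (fun y => IsUnit.mk0 _ (by
        intro h0
        have h1 : (y : A) = 0 := IsFractionRing.injective A K (by rw [h0, map_zero])
        exact y.2 (h1 ▸ Ideal.zero_mem _)))).toAlgebra
  have tADK : IsScalarTower A D K :=
    IsScalarTower.of_algebraMap_eq (fun a => (IsLocalization.lift_eq _ a).symm)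
  have hfrac : IsFractionRing D K :=
    IsFractionRing.isFractionRing_of_isDomain_of_isLocalization
      (Ideal.span {ϖ} : Ideal A).primeCompl D K
  let algDF : Algebra D F := ((algebraMap K F).comp (algebraMap D K)).toAlgebra
  have tDKF : IsScalarTower D K F := IsScalarTower.of_algebraMap_eq (fun _ => rfl)
  have tADF : IsScalarTower A D F := IsScalarTower.of_algebraMap_eq (fun a => by
    rw [IsScalarTower.algebraMap_apply A K F, IsScalarTower.algebraMap_apply A D K]
    rfl)
  have hmax : IsLocalRing.maximalIdeal D = Ideal.span {algebraMap A D ϖ} := by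
    rw [← IsLocalization.AtPrime.map_eq_maximalIdeal (Ideal.span {ϖ} : Ideal A) D,
      Ideal.map_span, Set.image_singleton]
  have hne : algebraMap A D ϖ ≠ 0 := by
    intro h0
    exact hϖ.ne_zero (IsLocalization.injective D
      (Ideal.span {ϖ} : Ideal A).primeCompl_le_nonZeroDivisors (by rw [h0, map_zero]))
  have hnf : ¬ IsField D := by
    rw [IsLocalRing.isField_iff_maximalIdeal_eq, hmax, Ideal.span_singleton_eq_bot]
    exact hne
  have hprinc : (IsLocalRing.maximalIdeal D).IsPrincipal := ⟨⟨_, hmax⟩⟩
  have hDVR : IsDiscreteValuationRing D :=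
    ((IsDiscreteValuationRing.TFAE D hnf).out 0 4).mpr hprinc
  exact exists_basis_of_isLocalization (D := D) (Ideal.span {ϖ} : Ideal A).primeCompl ϖ
    hϖ.ne_zero (fun t ht hdvd => ht (Ideal.mem_span_singleton.mpr hdvd)) hmax hprime hsep

/-- (V0) in the `y`-side setting of spec #1112. -/
theorem exists_basis_discr_not_dvd_C {O Ky F : Type*} [CommRing O] [IsDomain O]
    [IsDiscreteValuationRing O] [CharZero O] [Field Ky] [Algebra O[X] Ky]
    [IsFractionRing O[X] Ky] [Field F] [Algebra Ky F] [Algebra O[X] F] [IsScalarTower O[X] Ky F]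
    [FiniteDimensional Ky F] (π : O) (hπ : Irreducible π)
    (hprime : Prime (algebraMap O[X] (integralClosure O[X] F) (C π)))
    (hsep : ∀ b : integralClosure O[X] F, ∃ G : O[X][X],
      aeval b G ∈ Ideal.span {algebraMap O[X] (integralClosure O[X] F) (C π)} ∧
      aeval b (derivative G) ∉ Ideal.span {algebraMap O[X] (integralClosure O[X] F) (C π)}) :
    ∃ (e : Fin (Module.finrank Ky F) → F) (d0 : O[X]), LinearIndependent Ky e ∧
      (∀ i, IsIntegral O[X] (e i)) ∧
      algebraMap O[X] Ky d0 = (Matrix.of fun i j => Algebra.trace Ky F (e i * e j)).det ∧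
      ¬ C π ∣ d0 := by
  have hchar : CharZero Ky := charZero_of_injective_algebraMap (IsFractionRing.injective O[X] Ky)
  exact exists_basis_discr_not_dvd (C π) (prime_C_iff.mpr hπ.prime) hprime hsep

/-- (S') exactly in the existential form of #1196 (R1). -/
theorem exists_family_discr_not_dvd_C {O Ky F : Type*} [CommRing O] [IsDomain O]
    [IsDiscreteValuationRing O] [CharZero O] [Field Ky] [Algebra O[X] Ky]
    [IsFractionRing O[X] Ky] [Field F] [Algebra Ky F] [Algebra O[X] F] [IsScalarTower O[X] Ky F]
    [FiniteDimensional Ky F] (π : O) (hπ : Irreducible π)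
    (hprime : Prime (algebraMap O[X] (integralClosure O[X] F) (C π)))
    (hsep : ∀ b : integralClosure O[X] F, ∃ G : O[X][X],
      aeval b G ∈ Ideal.span {algebraMap O[X] (integralClosure O[X] F) (C π)} ∧
      aeval b (derivative G) ∉ Ideal.span {algebraMap O[X] (integralClosure O[X] F) (C π)}) :
    ∃ c : Fin (Module.finrank Ky F) → F, (∀ i, IsIntegral O[X] (c i)) ∧ ∃ d : O[X],
      algebraMap O[X] Ky d = (Matrix.of fun i j => Algebra.trace Ky F (c i * c j)).det ∧
      ¬ C π ∣ d := by
  obtain ⟨e, d0, -, he, hd, hnd⟩ := exists_basis_discr_not_dvd_C (Ky := Ky) π hπ hprime hsep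
  exact ⟨e, he, d0, hd, hnd⟩

end Fermat.Agent.S18.VertBasis
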