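import Mathlib
import Fermat.Agent.S18.IgusaTop
import Fermat.Agent.S18.VertBasis
import Fermat.Agent.S18.SepLaurent

/-!
# S18 / [IGUSA] (B-S): the vertical input `IgusaTop.VertInput` from a reduction map

`O` a DVR of characteristic zero with uniformizer `π`, `A0 = O[X]`, `F / Ky` finite,
`R := integralClosure A0 F`.  Given a field `k` (perfect, of characteristic `ℓ`), a surjection
`res : O → k` and a ring homomorphism `ρ : R → k((q))` with kernel `π R`, restricting to `res`
on constants and sending the coordinate `X` to a nonzero series of order prime to `ℓ`, the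
vertical input `VertInput Ky F π` holds (`vertInput_of_red`).

Proof: `π R = ker ρ` is prime; every `ρ b` is algebraic over `k(t̄)` (`t̄ := ρ X`), hence separable
by `SepLaurent`; clearing denominators in its minimal polynomial and lifting the coefficients
through `res` gives the elementwise separability input of `VertBasis`.
-/

set_option autoImplicit false

namespace Fermat.Agent.S18.IgusaBridgeS

open Polynomial

/-- Clearing denominators: if every element of the field `E` is a quotient of elements of the
image of `φ : B → E`, then every polynomial over `E` is, up to a nonzero constant, the image of a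
polynomial over `B`. -/
theorem exists_map_eq_C_mul {B E : Type*} [CommRing B] [Field E] (φ : B →+* E)
    (hE : ∀ x : E, ∃ r s : B, φ s ≠ 0 ∧ x * φ s = φ r) (m : E[X]) :
    ∃ (d : E) (g : B[X]), d ≠ 0 ∧ g.map φ = C d * m := by
  classical
  choose r s hs hrs using hE
  refine ⟨φ (∏ i ∈ Finset.range (m.natDegree + 1), s (m.coeff i)),
    ∑ i ∈ Finset.range (m.natDegree + 1),
      C (r (m.coeff i) * ∏ j ∈ (Finset.range (m.natDegree + 1)).erase i, s (m.coeff j)) * X ^ i,
    ?_, ?_⟩
  · rw [map_prod]
    exact Finset.prod_ne_zero_iff.mpr fun i _ => hs _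
  · have key : ∀ (N : ℕ) (c : ℕ → E),
        (∑ i ∈ Finset.range N,
          C (r (c i) * ∏ j ∈ (Finset.range N).erase i, s (c j)) * X ^ i).map φ =
        C (φ (∏ i ∈ Finset.range N, s (c i))) * ∑ i ∈ Finset.range N, C (c i) * X ^ i := by
      intro N c
      rw [Polynomial.map_sum, Finset.mul_sum]
      refine Finset.sum_congr rfl fun i hi => ?_
      rw [Polynomial.map_mul, Polynomial.map_pow, map_X, map_C, ← mul_assoc, ← C_mul]
      congr 2
      rw [map_mul, ← hrs, ← Finset.mul_prod_erase _ _ hi, map_mul]
      ring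
    rw [key, ← m.as_sum_range_C_mul_X_pow]

section Bridge

variable {O : Type*} [CommRing O] [IsDomain O] [IsDiscreteValuationRing O] [CharZero O]
  (Ky F : Type*) [Field Ky] [Field F] [Algebra O[X] Ky] [IsFractionRing O[X] Ky] [Algebra Ky F]
  [Algebra O[X] F] [IsScalarTower O[X] Ky F] [FiniteDimensional Ky F]

/-- (B-S) the vertical input from a reduction map into Laurent series over the residue field. -/
theorem vertInput_of_red (π : O) (hπ : Irreducible π) (ℓ : ℕ) [Fact ℓ.Prime] {k : Type*}
    [Field k] [CharP k ℓ] [PerfectField k] (res : O →+* k) (hres : Function.Surjective res)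
    (ρ : integralClosure O[X] F →+* LaurentSeries k)
    (hker : RingHom.ker ρ = Ideal.span {algebraMap O[X] (integralClosure O[X] F) (C π)})
    (hρC : ∀ o : O, ρ (algebraMap O[X] (integralClosure O[X] F) (C o)) = HahnSeries.C (res o))
    (hρX0 : ρ (algebraMap O[X] (integralClosure O[X] F) X) ≠ 0)
    (hρX : ¬ (ℓ : ℤ) ∣ (ρ (algebraMap O[X] (integralClosure O[X] F) X)).order) :
    IgusaTop.VertInput Ky F π := by
  classical
  have hinjF : Function.Injective (algebraMap O[X] F) := by
    rw [IsScalarTower.algebraMap_eq O[X] Ky F]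
    exact (algebraMap Ky F).injective.comp (IsFractionRing.injective O[X] Ky)
  have hne : algebraMap O[X] (integralClosure O[X] F) (C π) ≠ 0 := by
    intro h0
    have h1 := congrArg Subtype.val h0
    simp only [Subalgebra.coe_algebraMap, ZeroMemClass.coe_zero] at h1
    exact hπ.ne_zero (C_injective (hinjF (by rw [h1, map_zero, map_zero])))
  have hprime : Prime (algebraMap O[X] (integralClosure O[X] F) (C π)) := by
    rw [← Ideal.span_singleton_prime hne, ← hker]
    exact RingHom.ker_isPrime ρ
  obtain ⟨tb, htb⟩ : ∃ tb : LaurentSeries k,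
      tb = ρ (algebraMap O[X] (integralClosure O[X] F) X) := ⟨_, rfl⟩
  rw [← htb] at hρX0 hρX
  let φE : k[X] →+* IntermediateField.adjoin k {tb} :=
    (aeval (IntermediateField.AdjoinSimple.gen k tb) :
      k[X] →ₐ[k] IntermediateField.adjoin k {tb}).toRingHom
  have hcoe : ∀ p : k[X], ((φE p : IntermediateField.adjoin k {tb}) : LaurentSeries k) =
      aeval tb p := by
    intro p
    show algebraMap (IntermediateField.adjoin k {tb}) (LaurentSeries k)
      (aeval (IntermediateField.AdjoinSimple.gen k tb) p) = _
    rw [← aeval_algebraMap_apply, IntermediateField.AdjoinSimple.algebraMap_gen]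
  let τ : O[X] →+* IntermediateField.adjoin k {tb} := φE.comp (mapRingHom res)
  have hτ : (algebraMap (IntermediateField.adjoin k {tb}) (LaurentSeries k)).comp τ =
      ρ.comp (algebraMap O[X] (integralClosure O[X] F)) := by
    refine Polynomial.ringHom_ext (fun o => ?_) ?_
    · show ((φE (map res (C o)) : IntermediateField.adjoin k {tb}) : LaurentSeries k) =
        ρ (algebraMap O[X] (integralClosure O[X] F) (C o))
      rw [hcoe, hρC, map_C, aeval_C, HahnSeries.algebraMap_apply', PowerSeries.algebraMap_apply,
        Algebra.algebraMap_self_apply, HahnSeries.ofPowerSeries_C]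
    · show ((φE (map res X) : IntermediateField.adjoin k {tb}) : LaurentSeries k) =
        ρ (algebraMap O[X] (integralClosure O[X] F) X)
      rw [hcoe, map_X, aeval_X, htb]
  have hE : ∀ x : IntermediateField.adjoin k {tb}, ∃ r s : k[X],
      φE s ≠ 0 ∧ x * φE s = φE r := by
    intro x
    obtain ⟨r, s, hrs⟩ := (IntermediateField.mem_adjoin_simple_iff k (x : LaurentSeries k)).mp x.2
    by_cases hs : aeval tb s = 0
    · refine ⟨0, 1, by simp, ?_⟩
      rw [hs, div_zero] at hrs
      have hx : x = 0 := Subtype.ext hrs
      rw [hx, zero_mul, map_zero]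
    · refine ⟨r, s, fun h0 => hs ?_, Subtype.ext ?_⟩
      · rw [← hcoe, h0]
        rfl
      · rw [MulMemClass.coe_mul, hcoe, hcoe, hrs, div_mul_cancel₀ _ hs]
  have hsep : ∀ b : integralClosure O[X] F, ∃ G : O[X][X],
      aeval b G ∈ Ideal.span {algebraMap O[X] (integralClosure O[X] F) (C π)} ∧
      aeval b (derivative G) ∉ Ideal.span {algebraMap O[X] (integralClosure O[X] F) (C π)} := by
    intro b
    have hcomm : ∀ H : O[X][X], ρ (aeval b H) = aeval (ρ b) (H.map τ) := by
      intro H
      rw [aeval_def, aeval_def, hom_eval₂, eval₂_map, hτ]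
    have halg : IsAlgebraic (IntermediateField.adjoin k {tb}) (ρ b) := by
      obtain ⟨P, hPm, hP⟩ := b.2
      have hPb : aeval b P = 0 := Subtype.ext (by
        rw [aeval_subalgebra_coe]
        exact hP)
      refine ⟨P.map τ, (hPm.map τ).ne_zero, ?_⟩
      rw [← hcomm, hPb, map_zero]
    have hsepb : (minpoly (IntermediateField.adjoin k {tb}) (ρ b)).Separable :=
      SepLaurent.isSeparable_of_mem_laurent ℓ tb hρX hρX0 (ρ b) halg
    obtain ⟨d, g, hd, hg⟩ :=
      exists_map_eq_C_mul φE hE (minpoly (IntermediateField.adjoin k {tb}) (ρ b))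
    obtain ⟨G, hG⟩ := Polynomial.map_surjective (mapRingHom res)
      (Polynomial.map_surjective res hres) g
    have hGτ : G.map τ = C d * minpoly (IntermediateField.adjoin k {tb}) (ρ b) := by
      rw [← hg, ← hG, Polynomial.map_map]
    refine ⟨G, ?_, ?_⟩
    · rw [← hker, RingHom.mem_ker, hcomm, hGτ, map_mul, minpoly.aeval, mul_zero]
    · rw [← hker, RingHom.mem_ker, hcomm, ← derivative_map, hGτ, derivative_C_mul, map_mul,
        aeval_C]
      exact mul_ne_zero ((_root_.map_ne_zero _).mpr hd)
        (hsepb.aeval_derivative_ne_zero (minpoly.aeval _ _))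
  obtain ⟨e, d0, -, he, hd, hnd⟩ :=
    VertBasis.exists_basis_discr_not_dvd_C (Ky := Ky) π hπ hprime hsep
  exact ⟨e, d0, he, hd, hnd⟩

end Bridge

end Fermat.Agent.S18.IgusaBridgeS
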