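import Mathlib

/-!
# S18, block [Cech] : abstract two-chart lifting of an `m`-th root (place-free, pure algebra)

Setting (`Setting O E`): a discrete valuation ring `O` with uniformizer `π`, a field `E ⊇ O`,
two `O`-subalgebras `R0`, `Rinf` of `E` ("charts") glued along `j` (`R0[1/j] = Rinf[j]`), both
closed under `m`-th roots in `E`, `π` prime in both, special fibres `R•/π` integrally closed,
`R0` finite over `O[j]`, `m` a unit of `O`; and `w ∈ E` which is `≡ 1` modulo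
`π` at the generic point of the special fibre (`hw`) and is, locally at every closed point of
the special fibre of each chart, a unit times an `m`-th power (`loc0`, `locInf`).

Conclusion (`Conclusion S`): `w * h ^ m ∈ R0 ∩ Rinf` for some `h ≠ 0` in `E`.

This file only fixes the setting, the derived sets and the leaf statements (`Prop`-valued);
it has no proof obligations.
-/

set_option autoImplicit false

namespace Fermat.Agent.S18.CechPlan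

/-- The abstract two-chart setting. -/
structure Setting (O : Type*) [CommRing O] [IsDomain O] [IsDiscreteValuationRing O]
    (E : Type*) [Field E] [Algebra O E] where
  /-- uniformizer of `O` -/
  π : O
  /-- the exponent (`ℓ ∤ m`) -/
  m : ℕ
  /-- the coordinate gluing the two charts -/
  j : E
  /-- the function whose `m`-th root is to be found -/
  w : E
  /-- the chart `j ≠ ∞` -/
  R0 : Subalgebra O E
  /-- the chart `j ≠ 0` -/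
  Rinf : Subalgebra O E
  inj : Function.Injective (algebraMap O E)
  irr : Irreducible π
  hm : IsUnit (m : O)
  j_mem : j ∈ R0
  jinv_mem : j⁻¹ ∈ Rinf
  /-- `R0 ⊆ Rinf[j]` -/
  glue0 : ∀ x ∈ R0, ∃ n : ℕ, x * j⁻¹ ^ n ∈ Rinf
  /-- `Rinf ⊆ R0[1/j]` -/
  glueInf : ∀ x ∈ Rinf, ∃ n : ℕ, x * j ^ n ∈ R0
  root0 : ∀ x : E, x ^ m ∈ R0 → x ∈ R0
  rootInf : ∀ x : E, x ^ m ∈ Rinf → x ∈ Rinf
  prime0 : (Ideal.span {algebraMap O R0 π}).IsPrime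
  primeInf : (Ideal.span {algebraMap O Rinf π}).IsPrime
  /-- (Nor) for the chart `R0` -/
  nor0 : IsIntegrallyClosed (R0 ⧸ Ideal.span {algebraMap O R0 π})
  /-- (Nor) for the chart `Rinf` -/
  norInf : IsIntegrallyClosed (Rinf ⧸ Ideal.span {algebraMap O Rinf π})
  j_not : (⟨j, j_mem⟩ : R0) ∉ Ideal.span {algebraMap O R0 π}
  jinv_not : (⟨j⁻¹, jinv_mem⟩ : Rinf) ∉ Ideal.span {algebraMap O Rinf π}
  /-- `R0` is contained in a finitely generated `O[j]`-submodule of `E` -/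
  fin0 : ∃ s : Finset E, (R0 : Set E) ⊆ Submodule.span (Algebra.adjoin O {j}) (s : Set E)
  /-- (Loc) for the chart `R0` -/
  loc0 : ∀ n : Ideal R0, n.IsMaximal → algebraMap O R0 π ∈ n →
    ∃ g : E, ∃ hg : w * g ^ m ∈ R0, (⟨w * g ^ m, hg⟩ : R0) ∉ n
  /-- (Loc) for the chart `Rinf` -/
  locInf : ∀ n : Ideal Rinf, n.IsMaximal → algebraMap O Rinf π ∈ n →
    ∃ g : E, ∃ hg : w * g ^ m ∈ Rinf, (⟨w * g ^ m, hg⟩ : Rinf) ∉ n
  /-- `w ≡ 1` modulo `π` in the local ring of `R0` at the prime `π R0` -/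
  hw : ∃ s : R0, s ∉ Ideal.span {algebraMap O R0 π} ∧
    ∃ r : R0, (s : E) * (w - 1) = algebraMap O E π * (r : E)

variable {O : Type*} [CommRing O] [IsDomain O] [IsDiscreteValuationRing O]
  {E : Type*} [Field E] [Algebra O E]

namespace Setting

variable (S : Setting O E)

/-- The conclusion of block [Cech]: `w * h ^ m` is a global section, for some `h ≠ 0`. -/
def Conclusion : Prop :=
  ∃ h : E, h ≠ 0 ∧ S.w * h ^ S.m ∈ S.R0 ∧ S.w * h ^ S.m ∈ S.Rinf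

/-! ### Derived sets -/

/-- `x ∈ π R` for a subset `R` of `E`. -/
def PiDvd (R : Set E) (x : E) : Prop := ∃ z ∈ R, x = algebraMap O E S.π * z

/-- The middle chart `Rm = R0[1/j] = Rinf[j]`. -/
def Rm : Set E := {x | ∃ n : ℕ, x * S.j ^ n ∈ S.R0}

/-- The local ring of the generic point of the special fibre: `V = (Rm)_(π)`. -/
def V : Set E := {x | ∃ s ∈ S.Rm, ¬ S.PiDvd S.Rm s ∧ s * x ∈ S.Rm}

/-- `L(R) = {h : w h^m ∈ R}` ("sections of `O(D)` over `Spec R`", `div w = m D`). -/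
def L (R : Set E) : Set E := {h | S.w * h ^ S.m ∈ R}

/-! ### Leaves -/

/-- [Cech-R] the middle chart is a subring containing both charts, `m`-root closed, `π` is prime
in it, and divisibility by `π` descends to the charts. -/
structure LeafR : Prop where
  of_R0 : ∀ x ∈ S.R0, x ∈ S.Rm
  of_Rinf : ∀ x ∈ S.Rinf, x ∈ S.Rm
  iff_inf : ∀ x : E, x ∈ S.Rm ↔ ∃ n : ℕ, x * S.j⁻¹ ^ n ∈ S.Rinf
  add_mem : ∀ x ∈ S.Rm, ∀ y ∈ S.Rm, x + y ∈ S.Rm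
  mul_mem : ∀ x ∈ S.Rm, ∀ y ∈ S.Rm, x * y ∈ S.Rm
  neg_mem : ∀ x ∈ S.Rm, -x ∈ S.Rm
  jinv_mem : S.j⁻¹ ∈ S.Rm
  root : ∀ x : E, x ^ S.m ∈ S.Rm → x ∈ S.Rm
  prime : ∀ x ∈ S.Rm, ∀ y ∈ S.Rm, S.PiDvd S.Rm (x * y) → S.PiDvd S.Rm x ∨ S.PiDvd S.Rm y
  one_not : ¬ S.PiDvd S.Rm 1
  desc0 : ∀ x ∈ S.R0, S.PiDvd S.Rm x → S.PiDvd S.R0 x
  descInf : ∀ x ∈ S.Rinf, S.PiDvd S.Rm x → S.PiDvd S.Rinf x

/-- [Cech-V] `V` is a local subring of `E` with maximal ideal `π V`, `m`-root closed,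
`Rm ∩ π V = π Rm`. -/
structure LeafV : Prop where
  of_Rm : ∀ x ∈ S.Rm, x ∈ S.V
  add_mem : ∀ x ∈ S.V, ∀ y ∈ S.V, x + y ∈ S.V
  mul_mem : ∀ x ∈ S.V, ∀ y ∈ S.V, x * y ∈ S.V
  neg_mem : ∀ x ∈ S.V, -x ∈ S.V
  root : ∀ x : E, x ^ S.m ∈ S.V → x ∈ S.V
  inv_mem : ∀ x ∈ S.V, ¬ S.PiDvd S.V x → x⁻¹ ∈ S.V
  one_not : ¬ S.PiDvd S.V 1
  desc : ∀ x ∈ S.Rm, S.PiDvd S.V x → S.PiDvd S.Rm x

/-- [Cech-L] basic facts on the modules `L(R)`, `R ∈ {R0, Rinf, Rm}`. -/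
structure LeafL : Prop where
  w_mem : S.w ∈ S.V
  w_sub_one : S.PiDvd S.V (S.w - 1)
  prod0 : ∀ y : Fin S.m → E, (∀ i, y i ∈ S.L S.R0) → S.w * ∏ i, y i ∈ S.R0
  prodInf : ∀ y : Fin S.m → E, (∀ i, y i ∈ S.L S.Rinf) → S.w * ∏ i, y i ∈ S.Rinf
  prodM : ∀ y : Fin S.m → E, (∀ i, y i ∈ S.L S.Rm) → S.w * ∏ i, y i ∈ S.Rm
  add0 : ∀ x ∈ S.L S.R0, ∀ y ∈ S.L S.R0, x + y ∈ S.L S.R0
  addInf : ∀ x ∈ S.L S.Rinf, ∀ y ∈ S.L S.Rinf, x + y ∈ S.L S.Rinf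
  addM : ∀ x ∈ S.L S.Rm, ∀ y ∈ S.L S.Rm, x + y ∈ S.L S.Rm
  smul0 : ∀ r ∈ S.R0, ∀ y ∈ S.L S.R0, r * y ∈ S.L S.R0
  smulInf : ∀ r ∈ S.Rinf, ∀ y ∈ S.L S.Rinf, r * y ∈ S.L S.Rinf
  smulM : ∀ r ∈ S.Rm, ∀ y ∈ S.L S.Rm, r * y ∈ S.L S.Rm
  subV : ∀ y ∈ S.L S.Rm, y ∈ S.V
  desc0 : ∀ y ∈ S.L S.R0, S.PiDvd S.V y → S.PiDvd (S.L S.R0) y
  descInf : ∀ y ∈ S.L S.Rinf, S.PiDvd S.V y → S.PiDvd (S.L S.Rinf) y
  descM : ∀ y ∈ S.L S.Rm, S.PiDvd S.V y → S.PiDvd (S.L S.Rm) y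
  iff0 : ∀ y : E, y ∈ S.L S.Rm ↔ ∃ n : ℕ, y * S.j ^ n ∈ S.L S.R0
  iffInf : ∀ y : E, y ∈ S.L S.Rm ↔ ∃ n : ℕ, y * S.j⁻¹ ^ n ∈ S.L S.Rinf

/-- [Cech-F] `L(R0)` is a finitely generated `O[j]`-module. -/
def LeafF : Prop :=
  ∃ s : Finset E, (∀ e ∈ s, e ∈ S.L S.R0) ∧
    S.L S.R0 ⊆ Submodule.span (Algebra.adjoin O {S.j}) (s : Set E)

/-- [Cech-N] consequences of (Nor) in `E`-language: the special fibres of the three charts are
`m`-root closed in the residue field of `V`. -/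
structure LeafN : Prop where
  n0 : ∀ y ∈ S.V, ∀ r ∈ S.R0, S.PiDvd S.V (y ^ S.m - r) → ∃ c ∈ S.R0, S.PiDvd S.V (y - c)
  nInf : ∀ y ∈ S.V, ∀ r ∈ S.Rinf, S.PiDvd S.V (y ^ S.m - r) → ∃ c ∈ S.Rinf, S.PiDvd S.V (y - c)
  nM : ∀ y ∈ S.V, ∀ r ∈ S.Rm, S.PiDvd S.V (y ^ S.m - r) → ∃ c ∈ S.Rm, S.PiDvd S.V (y - c)

/-- [Cech-a] each chart carries a section of `L` which is `≡ 1` modulo `π V`. -/
def LeafA : Prop :=
  (∃ a ∈ S.L S.R0, S.PiDvd S.V (a - 1)) ∧ (∃ b ∈ S.L S.Rinf, S.PiDvd S.V (b - 1))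

/-- [Cech-b] `Lm = Rm · a + π Lm` for every `a ∈ Lm` with `a ≡ 1`. -/
def LeafB : Prop :=
  ∀ a ∈ S.L S.Rm, S.PiDvd S.V (a - 1) → ∀ y ∈ S.L S.Rm,
    ∃ c ∈ S.Rm, ∃ y' ∈ S.L S.Rm, y = c * a + algebraMap O E S.π * y'

/-- [Cech-c] the `π`-adic induction: the two local sections can be corrected, within their
classes modulo `π L`, to agree modulo `π ^ n Lm`. -/
def LeafC : Prop :=
  ∀ a ∈ S.L S.R0, ∀ b ∈ S.L S.Rinf, S.PiDvd S.V (a - 1) → S.PiDvd S.V (b - 1) →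
    ∀ n : ℕ, 1 ≤ n → ∃ a' ∈ S.L S.R0, ∃ b' ∈ S.L S.Rinf,
      S.PiDvd (S.L S.R0) (a' - a) ∧ S.PiDvd (S.L S.Rinf) (b' - b) ∧
      ∃ x ∈ S.L S.Rm, a' - b' = algebraMap O E S.π ^ n * x

/-- [Cech-d] `H = Lm / (L0 + Linf)` is `π`-adically separated (it is finitely generated over
the discrete valuation ring `O`). -/
def LeafD : Prop :=
  ∀ x ∈ S.L S.Rm,
    (∀ n : ℕ, ∃ x0 ∈ S.L S.R0, ∃ x1 ∈ S.L S.Rinf, ∃ y ∈ S.L S.Rm,
      x = x0 + x1 + algebraMap O E S.π ^ n * y) →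
    ∃ x0 ∈ S.L S.R0, ∃ x1 ∈ S.L S.Rinf, x = x0 + x1

/-- [Cech-c+d] a common section: two local sections `≡ 1` can be corrected to a global one. -/
def LeafH : Prop :=
  ∀ a ∈ S.L S.R0, ∀ b ∈ S.L S.Rinf, S.PiDvd S.V (a - 1) → S.PiDvd S.V (b - 1) →
    ∃ h ∈ S.L S.R0, h ∈ S.L S.Rinf ∧ S.PiDvd (S.L S.R0) (h - a)

end Setting

/-- The target of block [Cech]. -/
def CechStatement : Prop :=
  ∀ (O : Type) [CommRing O] [IsDomain O] [IsDiscreteValuationRing O]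
    (E : Type) [Field E] [Algebra O E] (S : Setting O E), S.Conclusion

end Fermat.Agent.S18.CechPlan
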