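/-
S18 — Red.lean (helper18): the FORMAL REDUCTION of S18 to its geometric core.

Frozen vocabulary: `Fbar = modularFunctionFieldBar N` (function field of `X₀(N)` over `ℚ̄`, inside
`ℚ̄((q))`), `k` the residue field of `A`, `Fk = modularFunctionFieldFullC k N`.

* `LiftStatement N A m` — the geometric core: if `U, V` are `A`-integral `q`-expansions of
  functions in `Fbar` with the SAME nonzero reduction (so `w = U / V ≡ 1` for the Gauss valuation)
  and `div w = m • D`, then `D` is principal.
* `ConstStatement N A` — a function on the reduced curve without zeros and poles is constant.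
* `DivExists N` — every nonzero function of `Fbar` has a divisor (finitely many zeros and poles).

`result_of_lift` : these three imply the conclusion of S18.
-/
import Mathlib
import Fermat.Prelude.Def_ModularCurve_ReductionModL
import Fermat.Agent.S24.PlaceBasic

set_option autoImplicit false

namespace Fermat.Agent.S18.Red

open ModularCurve AlgebraicCurve HahnSeries

set_option synthInstance.maxHeartbeats 400000

/-! ### The interface -/

/-- **Lifting statement** (the geometric core of S18), in frozen vocabulary. -/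
def LiftStatement (N : ℕ) (A : ValuationSubring (AlgebraicClosure ℚ)) (m : ℕ) : Prop :=
  ∀ (U V : LaurentSeries A)
    (hU : coeffMap A.subtype U ∈ modularFunctionFieldBar N)
    (hV : coeffMap A.subtype V ∈ modularFunctionFieldBar N),
    coeffMap (IsLocalRing.residue A) U ∈
      modularFunctionFieldFullC (IsLocalRing.ResidueField A) N →
    coeffMap (IsLocalRing.residue A) U ≠ 0 →
    coeffMap (IsLocalRing.residue A) U = coeffMap (IsLocalRing.residue A) V →
    ∀ D : Divisor (AlgebraicClosure ℚ) (modularFunctionFieldBar N),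
      (∀ P : Place (AlgebraicClosure ℚ) (modularFunctionFieldBar N),
        (m : ℤ) * D P = P.ord (⟨coeffMap A.subtype U, hU⟩ : modularFunctionFieldBar N)
          - P.ord (⟨coeffMap A.subtype V, hV⟩ : modularFunctionFieldBar N)) →
      Divisor.IsPrincipal D

/-- Constants of the reduced function field: no zeros and no poles ⟹ constant. -/
def ConstStatement (N : ℕ) (A : ValuationSubring (AlgebraicClosure ℚ)) : Prop :=
  ∀ f : modularFunctionFieldFullC (IsLocalRing.ResidueField A) N, f ≠ 0 →
    (∀ Q : Place (IsLocalRing.ResidueField A)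
      (modularFunctionFieldFullC (IsLocalRing.ResidueField A) N), Q.ord f = 0) →
    ∃ c : IsLocalRing.ResidueField A,
      f = algebraMap (IsLocalRing.ResidueField A)
        (modularFunctionFieldFullC (IsLocalRing.ResidueField A) N) c

/-- Every nonzero function of `Fbar` has a divisor. -/
def DivExists (N : ℕ) : Prop :=
  ∀ f : modularFunctionFieldBar N, f ≠ 0 →
    ∃ E : Divisor (AlgebraicClosure ℚ) (modularFunctionFieldBar N),
      ∀ v : Place (AlgebraicClosure ℚ) (modularFunctionFieldBar N), E v = v.ord f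

/-! ### Admissible (integral) `q`-expansions -/

section Adm

variable (N : ℕ) (A : ValuationSubring (AlgebraicClosure ℚ))

/-- `y : A((q))` is admissible: its image over `ℚ̄` lies in `Fbar` and its reduction in `Fk`. -/
def Adm (y : LaurentSeries A) : Prop :=
  coeffMap A.subtype y ∈ modularFunctionFieldBar N ∧
    coeffMap (IsLocalRing.residue A) y ∈
      modularFunctionFieldFullC (IsLocalRing.ResidueField A) N

variable {N A}

theorem Adm.mul {x y : LaurentSeries A} (hx : Adm N A x) (hy : Adm N A y) : Adm N A (x * y) :=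
  ⟨by rw [map_mul]; exact mul_mem hx.1 hy.1, by rw [map_mul]; exact mul_mem hx.2 hy.2⟩

theorem Adm.add {x y : LaurentSeries A} (hx : Adm N A x) (hy : Adm N A y) : Adm N A (x + y) :=
  ⟨by rw [map_add]; exact add_mem hx.1 hy.1, by rw [map_add]; exact add_mem hx.2 hy.2⟩

theorem Adm.one : Adm N A (1 : LaurentSeries A) :=
  ⟨by rw [map_one]; exact one_mem _, by rw [map_one]; exact one_mem _⟩

theorem adm_single (a : A) : Adm N A (HahnSeries.single 0 a) := by
  refine ⟨?_, ?_⟩
  · rw [coeffMap_single]
    have := (modularFunctionFieldBar N).algebraMap_mem (A.subtype a)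
    rwa [algebraMap_laurentSeries_eq_single] at this
  · rw [coeffMap_single]
    have := (modularFunctionFieldFullC (IsLocalRing.ResidueField A) N).algebraMap_mem
      (IsLocalRing.residue A a)
    rwa [algebraMap_laurentSeries_eq_single] at this

theorem adm_jqNModC {d : ℕ} [NeZero d] (hd : d ∣ N) : Adm N A (jqNModC A d) := by
  refine ⟨?_, ?_⟩
  · rw [coeffMap_jqNModC]
    have h1 : jqNModC ℚ d ∈ modularFunctionFieldFull N := jqModCd_mem_full ℚ N hd
    have h2 := coeffEmb_mem_laurentBaseChange (AlgebraicClosure ℚ) h1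
    rwa [coeffEmb, coeffMap_jqNModC] at h2
  · rw [coeffMap_jqNModC]
    exact jqModCd_mem_full _ N hd

theorem coeffMap_subtype_injective :
    Function.Injective (coeffMap A.subtype : LaurentSeries A → LaurentSeries (AlgebraicClosure ℚ)) := by
  intro x y hxy
  ext n
  have := congrArg (fun z : LaurentSeries (AlgebraicClosure ℚ) => z.coeff n) hxy
  simpa using this

/-- an admissible series with nonzero reduction is nonzero in `Fbar`. -/
theorem ne_zero_of_residue_ne_zero {y : LaurentSeries A}
    (hy : coeffMap A.subtype y ∈ modularFunctionFieldBar N)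
    (h : coeffMap (IsLocalRing.residue A) y ≠ 0) :
    (⟨coeffMap A.subtype y, hy⟩ : modularFunctionFieldBar N) ≠ 0 := by
  intro h0
  apply h
  have h1 : coeffMap A.subtype y = 0 := congrArg Subtype.val h0
  have h2 : y = 0 := coeffMap_subtype_injective (by rw [h1, map_zero])
  rw [h2, map_zero]

/-- Every element of `k[j(q^d) : d ∣ N]` is the reduction of an admissible series. -/
theorem exists_adm_of_mem_adjoin {x : LaurentSeries (IsLocalRing.ResidueField A)}
    (hx : x ∈ Algebra.adjoin (IsLocalRing.ResidueField A)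
      (divisorExpansionsC (IsLocalRing.ResidueField A) N)) :
    ∃ y : LaurentSeries A, Adm N A y ∧ coeffMap (IsLocalRing.residue A) y = x := by
  induction hx using Algebra.adjoin_induction with
  | mem x hx =>
    obtain ⟨d, hd0, hd, rfl⟩ := hx
    exact ⟨jqNModC A d, adm_jqNModC hd, by rw [coeffMap_jqNModC]; rfl⟩
  | algebraMap c =>
    obtain ⟨a, rfl⟩ := IsLocalRing.residue_surjective c
    refine ⟨HahnSeries.single 0 a, adm_single a, ?_⟩
    rw [coeffMap_single, algebraMap_laurentSeries_eq_single]
  | add x y _ _ hx hy =>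
    obtain ⟨x', hx', rfl⟩ := hx
    obtain ⟨y', hy', rfl⟩ := hy
    exact ⟨x' + y', hx'.add hy', map_add _ _ _⟩
  | mul x y _ _ hx hy =>
    obtain ⟨x', hx', rfl⟩ := hx
    obtain ⟨y', hy', rfl⟩ := hy
    exact ⟨x' * y', hx'.mul hy', map_mul _ _ _⟩

/-- Every nonzero element of `Fk` is a quotient of reductions of admissible series. -/
theorem exists_adm_div {g : LaurentSeries (IsLocalRing.ResidueField A)}
    (hg : g ∈ modularFunctionFieldFullC (IsLocalRing.ResidueField A) N) (hg0 : g ≠ 0) :
    ∃ P Q : LaurentSeries A, Adm N A P ∧ Adm N A Q ∧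
      coeffMap (IsLocalRing.residue A) P ≠ 0 ∧ coeffMap (IsLocalRing.residue A) Q ≠ 0 ∧
      g * coeffMap (IsLocalRing.residue A) Q = coeffMap (IsLocalRing.residue A) P := by
  obtain ⟨r, hr, s, hs, rfl⟩ := IntermediateField.mem_adjoin_iff_div.mp hg
  obtain ⟨P, hP, rfl⟩ := exists_adm_of_mem_adjoin hr
  obtain ⟨Q, hQ, rfl⟩ := exists_adm_of_mem_adjoin hs
  have hQ0 : coeffMap (IsLocalRing.residue A) Q ≠ 0 := by
    intro h; apply hg0; rw [h, div_zero]
  have hP0 : coeffMap (IsLocalRing.residue A) P ≠ 0 := by
    intro h; apply hg0; rw [h, zero_div]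
  exact ⟨P, Q, hP, hQ, hP0, hQ0, div_mul_cancel₀ _ hQ0⟩

end Adm

/-! ### Divisors in the closure of the integral principal divisors -/

section Closure

variable {N : ℕ} {A : ValuationSubring (AlgebraicClosure ℚ)}

/-- A divisor in the closure of the integral principal divisors is `div U - div V` with `U`, `V`
admissible with nonzero reductions (and `div U`, `div V` exist). -/
theorem exists_adm_of_mem_closure
    {E : Divisor (AlgebraicClosure ℚ) (modularFunctionFieldBar N)}
    (hE : E ∈ AddSubgroup.closure (integralPrincipalDivisors A (IsLocalRing.residue A) N)) :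
    ∃ (U V : LaurentSeries A) (hU : Adm N A U) (hV : Adm N A V)
      (EU EV : Divisor (AlgebraicClosure ℚ) (modularFunctionFieldBar N)),
      coeffMap (IsLocalRing.residue A) U ≠ 0 ∧ coeffMap (IsLocalRing.residue A) V ≠ 0 ∧
      E = EU - EV ∧
      (∀ v, EU v = v.ord (⟨coeffMap A.subtype U, hU.1⟩ : modularFunctionFieldBar N)) ∧
      (∀ v, EV v = v.ord (⟨coeffMap A.subtype V, hV.1⟩ : modularFunctionFieldBar N)) := by
  induction hE using AddSubgroup.closure_induction with
  | mem E hE =>
    obtain ⟨y, hy, hyk, hy0, hEy⟩ := hE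
    refine ⟨y, 1, ⟨hy, hyk⟩, Adm.one, E, 0, hy0, ?_, by rw [sub_zero], hEy, ?_⟩
    · rw [map_one]; exact one_ne_zero
    · intro v
      have h1 : (⟨coeffMap A.subtype (1 : LaurentSeries A), (Adm.one (N := N) (A := A)).1⟩ :
          modularFunctionFieldBar N) = 1 := Subtype.ext (map_one _)
      rw [h1, Place.ord_one]; rfl
  | zero =>
    refine ⟨1, 1, Adm.one, Adm.one, 0, 0, ?_, ?_, by rw [sub_zero], ?_, ?_⟩
    · rw [map_one]; exact one_ne_zero
    · rw [map_one]; exact one_ne_zero
    · intro v
      have h1 : (⟨coeffMap A.subtype (1 : LaurentSeries A), (Adm.one (N := N) (A := A)).1⟩ :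
          modularFunctionFieldBar N) = 1 := Subtype.ext (map_one _)
      rw [h1, Place.ord_one]; rfl
    · intro v
      have h1 : (⟨coeffMap A.subtype (1 : LaurentSeries A), (Adm.one (N := N) (A := A)).1⟩ :
          modularFunctionFieldBar N) = 1 := Subtype.ext (map_one _)
      rw [h1, Place.ord_one]; rfl
  | add E E' _ _ hE hE' =>
    obtain ⟨U, V, hU, hV, EU, EV, hU0, hV0, rfl, hEU, hEV⟩ := hE
    obtain ⟨U', V', hU', hV', EU', EV', hU0', hV0', rfl, hEU', hEV'⟩ := hE'
    refine ⟨U * U', V * V', hU.mul hU', hV.mul hV', EU + EU', EV + EV', ?_, ?_, by abel, ?_, ?_⟩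
    · rw [map_mul]; exact mul_ne_zero hU0 hU0'
    · rw [map_mul]; exact mul_ne_zero hV0 hV0'
    · intro v
      have h1 : (⟨coeffMap A.subtype (U * U'), (hU.mul hU').1⟩ : modularFunctionFieldBar N)
          = ⟨coeffMap A.subtype U, hU.1⟩ * ⟨coeffMap A.subtype U', hU'.1⟩ :=
        Subtype.ext (map_mul _ _ _)
      rw [h1, Place.ord_mul _ (ne_zero_of_residue_ne_zero hU.1 hU0)
        (ne_zero_of_residue_ne_zero hU'.1 hU0'), Finsupp.add_apply, hEU, hEU']
    · intro v
      have h1 : (⟨coeffMap A.subtype (V * V'), (hV.mul hV').1⟩ : modularFunctionFieldBar N)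
          = ⟨coeffMap A.subtype V, hV.1⟩ * ⟨coeffMap A.subtype V', hV'.1⟩ :=
        Subtype.ext (map_mul _ _ _)
      rw [h1, Place.ord_mul _ (ne_zero_of_residue_ne_zero hV.1 hV0)
        (ne_zero_of_residue_ne_zero hV'.1 hV0'), Finsupp.add_apply, hEV, hEV']
  | neg E _ hE =>
    obtain ⟨U, V, hU, hV, EU, EV, hU0, hV0, rfl, hEU, hEV⟩ := hE
    exact ⟨V, U, hV, hU, EV, EU, hV0, hU0, by abel, hEV, hEU⟩

end Closure

/-! ### The reduction -/

section Main

variable {N : ℕ} {A : ValuationSubring (AlgebraicClosure ℚ)}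

set_option maxHeartbeats 1000000 in
open Fermat.Agent.S24 in
/-- **Formal reduction of S18.** Given the reduction data `h`, the conclusion of S18 for the
exponent `m` follows from `DivExists`, `ConstStatement` and `LiftStatement N A m`. -/
theorem result_of_lift (h : ReductionInputsModL A N) (m : ℕ)
    (hdiv : DivExists N) (hconst : ConstStatement N A) (hlift : LiftStatement N A m)
    (z : JZero N) (hmz : m • z = 0) (hz : reductionModL A N z = 0) : z = 0 := by
  classical
  obtain ⟨D0, rfl⟩ := Pic0.mk_surjective z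
  have hr : IsPlaceReductionModL A N (placeReductionModL h) :=
    isPlaceReductionModL_placeReductionModL h
  have hgen : PrincipalGeneratedByIntegral A (IsLocalRing.residue A) N := h.choose_spec.2
  -- `m • D0` is principal
  have h2 : m • (D0 : Divisor (AlgebraicClosure ℚ) (modularFunctionFieldBar N)) ∈
      Divisor.principal (K := AlgebraicClosure ℚ) (F := modularFunctionFieldBar N) := by
    have h2' : (QuotientAddGroup.mk (m • D0) : Pic0 (AlgebraicClosure ℚ)
        (modularFunctionFieldBar N)) = 0 := hmz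
    rw [QuotientAddGroup.eq_zero_iff, AddSubgroup.mem_addSubgroupOf] at h2'
    exact h2'
  -- the reduction of `D0` is principal
  have h3 : Finsupp.mapDomain (placeReductionModL h)
      (D0 : Divisor (AlgebraicClosure ℚ) (modularFunctionFieldBar N)) ∈
      Divisor.principal (K := IsLocalRing.ResidueField A)
        (F := modularFunctionFieldFullC (IsLocalRing.ResidueField A) N) := by
    rw [reductionModL_mk h D0] at hz
    have hz' := hz
    rw [Pic0.mk, QuotientAddGroup.eq_zero_iff, AddSubgroup.mem_addSubgroupOf] at hz'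
    exact hz'
  obtain ⟨g, hg0, hg⟩ := h3
  -- lift `g`
  obtain ⟨P, Q, hP, hQ, hP0, hQ0, hgPQ⟩ :=
    exists_adm_div (N := N) (A := A) g.2 (fun h0 => hg0 (Subtype.ext h0))
  have hgPQ' : g * (⟨coeffMap (IsLocalRing.residue A) Q, hQ.2⟩ :
      modularFunctionFieldFullC (IsLocalRing.ResidueField A) N)
      = ⟨coeffMap (IsLocalRing.residue A) P, hP.2⟩ := Subtype.ext hgPQ
  have hQk0 : (⟨coeffMap (IsLocalRing.residue A) Q, hQ.2⟩ :
      modularFunctionFieldFullC (IsLocalRing.ResidueField A) N) ≠ 0 :=
    fun h0 => hQ0 (congrArg Subtype.val h0)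
  have hPL0 := ne_zero_of_residue_ne_zero hP.1 hP0
  have hQL0 := ne_zero_of_residue_ne_zero hQ.1 hQ0
  obtain ⟨EP, hEP⟩ := hdiv _ hPL0
  obtain ⟨EQ, hEQ⟩ := hdiv _ hQL0
  have hrP := hr.2 P hP.1 hP.2 hP0 EP hEP
  have hrQ := hr.2 Q hQ.1 hQ.2 hQ0 EQ hEQ
  have hEPprin : EP ∈ Divisor.principal (K := AlgebraicClosure ℚ)
      (F := modularFunctionFieldBar N) := ⟨_, hPL0, hEP⟩
  have hEQprin : EQ ∈ Divisor.principal (K := AlgebraicClosure ℚ)
      (F := modularFunctionFieldBar N) := ⟨_, hQL0, hEQ⟩
  -- the normalised divisor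
  set D1 : Divisor (AlgebraicClosure ℚ) (modularFunctionFieldBar N) :=
    (D0 : Divisor (AlgebraicClosure ℚ) (modularFunctionFieldBar N)) - EP + EQ with hD1
  have hD1r : Finsupp.mapDomain (placeReductionModL h) D1 = 0 := by
    ext Q'
    rw [hD1, Finsupp.mapDomain_add, Finsupp.mapDomain_sub, Finsupp.add_apply,
      Finsupp.sub_apply, hg, hrP, hrQ, Finsupp.zero_apply, ← hgPQ', Place.ord_mul _ hg0 hQk0]
    ring
  have hmD1 : m • D1 ∈ Divisor.principal (K := AlgebraicClosure ℚ)
      (F := modularFunctionFieldBar N) := by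
    have e : m • D1 = m • (D0 : Divisor (AlgebraicClosure ℚ) (modularFunctionFieldBar N))
        - m • EP + m • EQ := by
      rw [hD1, smul_add, smul_sub]
    rw [e]
    exact add_mem (sub_mem h2 (nsmul_mem hEPprin m)) (nsmul_mem hEQprin m)
  obtain ⟨U, V, hU, hV, EU, EV, hU0, hV0, hE, hEU, hEV⟩ := exists_adm_of_mem_closure (hgen hmD1)
  have hrU := hr.2 U hU.1 hU.2 hU0 EU hEU
  have hrV := hr.2 V hV.1 hV.2 hV0 EV hEV
  have hUk0 : (⟨coeffMap (IsLocalRing.residue A) U, hU.2⟩ :
      modularFunctionFieldFullC (IsLocalRing.ResidueField A) N) ≠ 0 :=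
    fun h0 => hU0 (congrArg Subtype.val h0)
  have hVk0 : (⟨coeffMap (IsLocalRing.residue A) V, hV.2⟩ :
      modularFunctionFieldFullC (IsLocalRing.ResidueField A) N) ≠ 0 :=
    fun h0 => hV0 (congrArg Subtype.val h0)
  -- the reductions of `U` and `V` have the same divisor
  have hord : ∀ Q' : Place (IsLocalRing.ResidueField A)
      (modularFunctionFieldFullC (IsLocalRing.ResidueField A) N),
      Q'.ord (⟨coeffMap (IsLocalRing.residue A) U, hU.2⟩ :
        modularFunctionFieldFullC (IsLocalRing.ResidueField A) N)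
      = Q'.ord (⟨coeffMap (IsLocalRing.residue A) V, hV.2⟩ :
        modularFunctionFieldFullC (IsLocalRing.ResidueField A) N) := by
    intro Q'
    have e1 : Finsupp.mapDomain.addMonoidHom (placeReductionModL h) (m • D1) = 0 := by
      rw [map_nsmul, Finsupp.mapDomain.addMonoidHom_apply, hD1r, smul_zero]
    rw [hE, map_sub, Finsupp.mapDomain.addMonoidHom_apply,
      Finsupp.mapDomain.addMonoidHom_apply] at e1
    have e2 : (Finsupp.mapDomain (placeReductionModL h) EU
        - Finsupp.mapDomain (placeReductionModL h) EV) Q' = 0 := by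
      rw [e1, Finsupp.zero_apply]
    rw [Finsupp.sub_apply, hrU, hrV] at e2
    linarith
  -- hence their quotient is a constant
  obtain ⟨c, hc⟩ := hconst
    ((⟨coeffMap (IsLocalRing.residue A) U, hU.2⟩ :
        modularFunctionFieldFullC (IsLocalRing.ResidueField A) N) /
      ⟨coeffMap (IsLocalRing.residue A) V, hV.2⟩) (div_ne_zero hUk0 hVk0)
    (fun Q' => by rw [ord_div Q' hUk0 hVk0, hord Q', sub_self])
  obtain ⟨a, rfl⟩ := IsLocalRing.residue_surjective c
  have hUV : coeffMap (IsLocalRing.residue A) U
      = coeffMap (IsLocalRing.residue A) (HahnSeries.single 0 a * V) := by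
    have e1 : (⟨coeffMap (IsLocalRing.residue A) U, hU.2⟩ :
        modularFunctionFieldFullC (IsLocalRing.ResidueField A) N)
        = algebraMap (IsLocalRing.ResidueField A)
            (modularFunctionFieldFullC (IsLocalRing.ResidueField A) N) (IsLocalRing.residue A a)
          * ⟨coeffMap (IsLocalRing.residue A) V, hV.2⟩ := by
      rw [← hc, div_mul_cancel₀ _ hVk0]
    have e2 := congrArg Subtype.val e1
    rw [map_mul, coeffMap_single, ← algebraMap_laurentSeries_eq_single]
    exact e2
  have ha0 : (A.subtype a : AlgebraicClosure ℚ) ≠ 0 := by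
    intro h0
    have ha : a = 0 := Subtype.ext h0
    rw [ha, map_zero] at hc
    exact div_ne_zero hUk0 hVk0 (by rw [hc, map_zero])
  have hV' : Adm N A (HahnSeries.single 0 a * V) := (adm_single a).mul hV
  have hVL : (⟨coeffMap A.subtype (HahnSeries.single 0 a * V), hV'.1⟩ :
      modularFunctionFieldBar N)
      = algebraMap (AlgebraicClosure ℚ) (modularFunctionFieldBar N) (A.subtype a)
        * ⟨coeffMap A.subtype V, hV.1⟩ := by
    apply Subtype.ext
    show coeffMap A.subtype (HahnSeries.single 0 a * V)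
      = algebraMap (AlgebraicClosure ℚ) (LaurentSeries (AlgebraicClosure ℚ)) (A.subtype a)
        * coeffMap A.subtype V
    rw [map_mul, coeffMap_single, algebraMap_laurentSeries_eq_single]
  -- apply the lifting statement
  have hD1prin : Divisor.IsPrincipal D1 := by
    refine hlift U (HahnSeries.single 0 a * V) hU.1 hV'.1 hU.2 hU0 hUV D1 fun v => ?_
    have e1 := congrArg (fun E : Divisor (AlgebraicClosure ℚ) (modularFunctionFieldBar N) => E v) hE
    simp only [Finsupp.smul_apply, Finsupp.sub_apply, nsmul_eq_mul] at e1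
    rw [e1, hEU, hEV, hVL, Place.ord_mul _
      (by simpa using ha0) (ne_zero_of_residue_ne_zero hV.1 hV0), ord_algebraMap, zero_add]
  -- conclude
  have hD0prin : (D0 : Divisor (AlgebraicClosure ℚ) (modularFunctionFieldBar N)) ∈
      Divisor.principal (K := AlgebraicClosure ℚ) (F := modularFunctionFieldBar N) := by
    have e : (D0 : Divisor (AlgebraicClosure ℚ) (modularFunctionFieldBar N))
        = D1 + EP - EQ := by
      rw [hD1]; abel
    rw [e]
    exact sub_mem (add_mem hD1prin hEPprin) hEQprin
  show (QuotientAddGroup.mk D0 : Pic0 (AlgebraicClosure ℚ) (modularFunctionFieldBar N)) = 0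
  rw [QuotientAddGroup.eq_zero_iff, AddSubgroup.mem_addSubgroupOf]
  exact hD0prin

end Main

end Fermat.Agent.S18.Red
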