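/-
S18 — ArithPlan.lean (helper42, [ARITH] sub-captain): BINDING interface of the arithmetic half.
Definitions and `Prop`-valued leaf statements only (no proof obligations).

Objects (all inside `Ω = ℚ̄((q))`):
* `OK A K = A ∩ K`              the base ring (a DVR with residue field `k = ResidueField A`
                                 by [Base]) for an intermediate field `K` of `ℚ̄/ℚ`;
* `FK N K ⊆ F̄`                 the function field `K · ℚ(j(q^d) : d ∣ N)`;
* `R0 N ℓ A K`, `Rinf N ℓ A K`  the two charts: the integral closures of `O[j]`, `O[j⁻¹]` in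
                                 `F_K` (`Subalgebra (OK A K) (FK N K)`);
* `GRel A x y`                  "`x ∈ Ω` is a Gauss-integral series with reduction `y ∈ k((q))`":
                                 `x · u = p` with `u, p ∈ A((q))`, `red u = 1`, `red p = y`.
-/
import Mathlib
import Fermat.Prelude.Def_ModularCurve_ReductionModL
import Fermat.Prelude.Def_ModularCurve_IgusaScheme
import Fermat.Agent.S18.CechPlan
import Fermat.Agent.S18.Red

set_option autoImplicit false

noncomputable section

namespace Fermat.Agent.S18.Arith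

open ModularCurve ModularCurve.IgusaScheme AlgebraicCurve HahnSeries

/-- `ℚ̄`. -/
abbrev Qb : Type := AlgebraicClosure ℚ

section Defs

variable (N : ℕ) [NeZero N] (ℓ : ℕ) [Fact ℓ.Prime]
variable (A : ValuationSubring Qb) (K : IntermediateField ℚ Qb)

/-- The base ring `O = A ∩ K`, as a valuation subring of `K`. -/
abbrev OK : ValuationSubring K := A.comap (algebraMap K Qb)

/-- The function field `F_K = K · ℚ(j(q^d) : d ∣ N)` as a subfield of `ℚ̄((q))`. -/
def FK : Subfield (LaurentSeries Qb) :=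
  Subfield.closure
    (Set.range (fun c : K => (HahnSeries.C (c : Qb) : LaurentSeries Qb)) ∪
      Set.range (fun x : modularFunctionFieldFull N => coeffEmb Qb (x : LaurentSeries ℚ)))

/-- Constants `K → F_K`. -/
def constK : K →+* FK N K :=
  ((HahnSeries.C : Qb →+* LaurentSeries Qb).comp (algebraMap K Qb)).codRestrict (FK N K)
    (fun c => Subfield.subset_closure (Or.inl ⟨c, rfl⟩))

/-- The rational function field inside `F_K`. -/
def ratEmb : modularFunctionFieldFull N →+* FK N K :=
  ((coeffEmb Qb).comp (modularFunctionFieldFull N).toSubfield.subtype).codRestrict (FK N K)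
    (fun x => Subfield.subset_closure (Or.inr ⟨x, rfl⟩))

instance algKFK : Algebra K (FK N K) := (constK N K).toAlgebra

instance algOFK : Algebra (OK A K) (FK N K) :=
  ((constK N K).comp (OK A K).subtype).toAlgebra

instance towerOKFK : IsScalarTower (OK A K) K (FK N K) :=
  IsScalarTower.of_algebraMap_eq fun _ => rfl

/-- `j ∈ F_K`. -/
def jK : FK N K := ratEmb N K (jFull N)

/-- The inclusion `O = A ∩ K → ℚ̄`. -/
def incO : OK A K →+* Qb := (algebraMap K Qb).comp (OK A K).subtype

/-- The residue map `O = A ∩ K → k = ResidueField A`. -/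
def resO : OK A K →+* IsLocalRing.ResidueField A :=
  (IsLocalRing.residue A).comp
    ((incO A K).codRestrict A.toSubring (fun x => x.2))

/-- The chart with coordinate `t`: the integral closure of `O[t]` in `F_K`. -/
def chart (t : FK N K) : Subalgebra (OK A K) (FK N K) :=
  (integralClosure (Algebra.adjoin (OK A K) {t}) (FK N K)).restrictScalars (OK A K)

omit [NeZero N] in
theorem mem_chart_iff {t x : FK N K} :
    x ∈ chart N A K t ↔ IsIntegral (Algebra.adjoin (OK A K) {t}) x := Iff.rfl

/-- The chart `j ≠ ∞` over `O`: the integral closure of `O[j]` in `F_K`.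
(The argument `ℓ` is kept for uniformity of signatures; it is not used.) -/
def R0 (N : ℕ) [NeZero N] (ℓ : ℕ) [Fact ℓ.Prime] (A : ValuationSubring Qb)
    (K : IntermediateField ℚ Qb) : Subalgebra (OK A K) (FK N K) :=
  chart N A K (jK N K)

/-- The chart `j ≠ 0` over `O`: the integral closure of `O[j⁻¹]` in `F_K`. -/
def Rinf (N : ℕ) [NeZero N] (ℓ : ℕ) [Fact ℓ.Prime] (A : ValuationSubring Qb)
    (K : IntermediateField ℚ Qb) : Subalgebra (OK A K) (FK N K) :=
  chart N A K (jK N K)⁻¹

/-- Gauss-integral series: `x · u = p` with `u, p ∈ A((q))`, `red u = 1`, `red p = y`.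
(`x ∈ A((q))` with reduction `y` is the case `u = 1`.) -/
def GRel (x : LaurentSeries Qb) (y : LaurentSeries (IsLocalRing.ResidueField A)) : Prop :=
  ∃ u p : LaurentSeries A, coeffMap (IsLocalRing.residue A) u = 1 ∧
    x * coeffMap A.subtype u = coeffMap A.subtype p ∧ coeffMap (IsLocalRing.residue A) p = y

/-- The ideal `𝔪_O · R` of a chart. -/
def piIdeal (R : Subalgebra (OK A K) (FK N K)) : Ideal R :=
  Ideal.map (algebraMap (OK A K) R) (IsLocalRing.maximalIdeal (OK A K))

/-- (I4) **ModelFacts for one chart** `R` with coordinate `t` (`t = j` for `R0`, `t = j⁻¹` for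
`Rinf`). -/
structure ChartFacts (R : Subalgebra (OK A K) (FK N K)) (t : FK N K) : Prop where
  t_mem : t ∈ R
  /-- `R` is integral over `O[t]` -/
  integral : ∀ x ∈ R, IsIntegral (Algebra.adjoin (OK A K) {t}) x
  /-- `R` is integrally closed in `F_K` -/
  closed : ∀ x : FK N K, IsIntegral R x → x ∈ R
  /-- `R` is contained in a finitely generated `O[t]`-submodule of `F_K` -/
  fin : ∃ s : Finset (FK N K),
    (R : Set (FK N K)) ⊆ Submodule.span (Algebra.adjoin (OK A K) {t}) (s : Set (FK N K))
  /-- `F_K = Frac R` -/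
  frac : ∀ x : FK N K, ∃ a ∈ R, ∃ b ∈ R, b ≠ 0 ∧ x * b = a
  /-- the reduction map: a ring hom `ρ : R → k((q))`, given by Gauss reduction of
  `q`-expansions, with kernel `𝔪_O R` and image in `F_k` -/
  red : ∃ ρ : R →+* LaurentSeries (IsLocalRing.ResidueField A),
    (∀ x : R, GRel A ((x : FK N K) : LaurentSeries Qb) (ρ x)) ∧
    RingHom.ker ρ = piIdeal N A K R ∧
    ∀ x : R, ρ x ∈ modularFunctionFieldFullC (IsLocalRing.ResidueField A) N

/-- What [Base] provides about the pair `(A, K)`. -/
structure BaseFacts : Prop where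
  dvr : IsDiscreteValuationRing (OK A K)
  /-- `O → k = ResidueField A` is onto -/
  res_surj : ∀ a : A, ∃ (x : K) (hx : (x : Qb) ∈ A),
    IsLocalRing.residue A a = IsLocalRing.residue A ⟨(x : Qb), hx⟩
  /-- roots of unity of order prime to `ℓ` lie in `K` -/
  roots : ∀ (n : ℕ) (ζ : Qb), ¬ ℓ ∣ n → ζ ^ n = 1 → ζ ∈ K

/-- (I4) **ModelFacts**: both charts and their gluing. -/
structure ModelFacts : Prop where
  c0 : ChartFacts N A K (R0 N ℓ A K) (jK N K)
  cInf : ChartFacts N A K (Rinf N ℓ A K) (jK N K)⁻¹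
  glue0 : ∀ x ∈ R0 N ℓ A K, ∃ n : ℕ, x * (jK N K)⁻¹ ^ n ∈ Rinf N ℓ A K
  glueInf : ∀ x ∈ Rinf N ℓ A K, ∃ n : ℕ, x * (jK N K) ^ n ∈ R0 N ℓ A K
  j_ne : jK N K ≠ 0

/-- (I3) **Igusa statement for one chart**: at every closed point of the special fibre the
maximal ideal of the local ring is generated by a uniformizer of `O` and one more element. -/
def IgusaAt (R : Subalgebra (OK A K) (FK N K)) : Prop :=
  ∀ π : OK A K, Irreducible π → ∀ n : Ideal R, n.IsMaximal → algebraMap (OK A K) R π ∈ n →
    ∃ t ∈ n, ∀ x ∈ n, ∃ c : R, c ∉ n ∧ c * x ∈ Ideal.span {algebraMap (OK A K) R π, t}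

end Defs

/-! ### Leaf statements of [ARITH] -/

section Leaves

/-- **[Base]** for every finite set of constants there is `K ∋ S` with `BaseFacts`. -/
def BaseStatement (ℓ : ℕ) : Prop :=
  ∀ A : ValuationSubring Qb, A.LiesOverPrime ℓ → ∀ S : Finset Qb,
    ∃ K : IntermediateField ℚ Qb, (↑S ⊆ (K : Set Qb)) ∧ BaseFacts ℓ A K

/-- **[Desc]** every element of `F̄` lies in `F_K` as soon as `K` contains a suitable finite set
of constants; and `F_K ⊆ F̄`. -/
def DescStatement (N : ℕ) : Prop :=
  (∀ x ∈ modularFunctionFieldBar N, ∃ S : Finset Qb,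
    ∀ K : IntermediateField ℚ Qb, (↑S ⊆ (K : Set Qb)) → x ∈ FK N K) ∧
  ∀ (K : IntermediateField ℚ Qb) (x : LaurentSeries Qb), x ∈ FK N K → x ∈ modularFunctionFieldBar N

/-- **[Coeff]** elements of `F_K` have coefficients in `K`. -/
def CoeffStatement (N : ℕ) : Prop :=
  ∀ (K : IntermediateField ℚ Qb) (x : LaurentSeries Qb), x ∈ FK N K → ∀ n : ℤ, x.coeff n ∈ K

/-- **[Model]** (I4). -/
def ModelStatement (N : ℕ) [NeZero N] (ℓ : ℕ) [Fact ℓ.Prime] : Prop :=
  ¬ ℓ ∣ N → ∀ A : ValuationSubring Qb, A.LiesOverPrime ℓ → ∀ K : IntermediateField ℚ Qb,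
    BaseFacts ℓ A K → ModelFacts N ℓ A K

/-- **[Igusa]** (I3), delivered by the [IGUSA] sub-team. -/
def IgusaStatement (N : ℕ) [NeZero N] (ℓ : ℕ) [Fact ℓ.Prime] : Prop :=
  ¬ ℓ ∣ N → ∀ A : ValuationSubring Qb, A.LiesOverPrime ℓ → ∀ K : IntermediateField ℚ Qb,
    BaseFacts ℓ A K → ModelFacts N ℓ A K →
      IgusaAt N A K (R0 N ℓ A K) ∧ IgusaAt N A K (Rinf N ℓ A K)

/-- **[Gauss]** for one chart: a quotient `w = u / v` of two `A`-integral series of `F_K` with
the same nonzero reduction is a unit at the generic point of the special fibre and `≡ 1` there. -/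
def GaussStatement (N : ℕ) : Prop :=
  ∀ (A : ValuationSubring Qb) (K : IntermediateField ℚ Qb), IsDiscreteValuationRing (OK A K) →
  ∀ (R : Subalgebra (OK A K) (FK N K)) (t : FK N K), ChartFacts N A K R t →
  ∀ (U V : LaurentSeries A) (u v : FK N K),
    (u : LaurentSeries Qb) = coeffMap A.subtype U → (v : LaurentSeries Qb) = coeffMap A.subtype V →
    coeffMap (IsLocalRing.residue A) U ≠ 0 →
    coeffMap (IsLocalRing.residue A) U = coeffMap (IsLocalRing.residue A) V →
    (∃ a b : R, a ∉ piIdeal N A K R ∧ b ∉ piIdeal N A K R ∧ u / v * (b : FK N K) = a) ∧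
    ∃ s : R, s ∉ piIdeal N A K R ∧ ∃ r : R, r ∈ piIdeal N A K R ∧
      (s : FK N K) * (u / v - 1) = r

/-- **[Dict]** every place of `F_K / K` is the restriction of a place of `F̄ / ℚ̄` with `e = 1`. -/
def DictStatement (N : ℕ) : Prop :=
  ∀ (K : IntermediateField ℚ Qb) (v : Place K (FK N K)),
    ∃ P : Place Qb (modularFunctionFieldBar N),
      ∀ (x : FK N K) (hx : (x : LaurentSeries Qb) ∈ modularFunctionFieldBar N),
        P.ord (⟨(x : LaurentSeries Qb), hx⟩ : modularFunctionFieldBar N) = v.ord x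

/-- **[Local]** (Loc) for one chart: if `w` is a unit at the generic point of the special fibre
and `m ∣ ord_v w` at every place `v` of `F_K / K`, then at every closed point of the special
fibre `w` is a unit times an `m`-th power. -/
def LocStatement (N : ℕ) : Prop :=
  ∀ (A : ValuationSubring Qb) (K : IntermediateField ℚ Qb), IsDiscreteValuationRing (OK A K) →
  ∀ (R : Subalgebra (OK A K) (FK N K)) (t : FK N K), ChartFacts N A K R t → IgusaAt N A K R →
  ∀ (m : ℕ) (w : FK N K), m ≠ 0 →
    (∃ a b : R, a ∉ piIdeal N A K R ∧ b ∉ piIdeal N A K R ∧ w * (b : FK N K) = a) →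
    (∀ v : Place K (FK N K), (m : ℤ) ∣ v.ord w) →
    ∀ n : Ideal R, n.IsMaximal → piIdeal N A K R ≤ n →
      ∃ g : FK N K, ∃ hg : w * g ^ m ∈ R, (⟨w * g ^ m, hg⟩ : R) ∉ n

/-- **[Nor]** the special fibre of a chart is integrally closed (a Dedekind domain). -/
def NorStatement (N : ℕ) : Prop :=
  ∀ (A : ValuationSubring Qb) (K : IntermediateField ℚ Qb), IsDiscreteValuationRing (OK A K) →
  ∀ (R : Subalgebra (OK A K) (FK N K)) (t : FK N K), ChartFacts N A K R t → IgusaAt N A K R →
  ∀ π : OK A K, Irreducible π →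
    (Ideal.span {algebraMap (OK A K) R π}).IsPrime ∧
      IsIntegrallyClosed (R ⧸ Ideal.span {algebraMap (OK A K) R π})

/-- **[Glob]** global functions have no zeros and no poles: a nonzero element of `R0 ∩ Rinf`
has order `0` at every place of `F̄ / ℚ̄` (every place contains `j` or `j⁻¹`, valuation rings
are integrally closed, and a principal divisor has degree `0`). -/
def GlobStatement (N : ℕ) [NeZero N] (ℓ : ℕ) [Fact ℓ.Prime] : Prop :=
  ∀ (A : ValuationSubring Qb) (K : IntermediateField ℚ Qb), ModelFacts N ℓ A K →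
    ∀ x : FK N K, x ∈ R0 N ℓ A K → x ∈ Rinf N ℓ A K → x ≠ 0 →
      ∀ (hx : (x : LaurentSeries Qb) ∈ modularFunctionFieldBar N)
        (P : Place Qb (modularFunctionFieldBar N)),
        P.ord (⟨(x : LaurentSeries Qb), hx⟩ : modularFunctionFieldBar N) = 0

/-- The target of [ARITH] + [CECH] + [IGUSA]: the lifting statement of `Red.lean`. -/
def FinalStatement (N : ℕ) [NeZero N] (ℓ : ℕ) [Fact ℓ.Prime] : Prop :=
  BaseStatement ℓ → DescStatement N → CoeffStatement N → ModelStatement N ℓ →
  IgusaStatement N ℓ → GaussStatement N → DictStatement N → LocStatement N → NorStatement N →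
  GlobStatement N ℓ → CechPlan.CechStatement →
  ¬ ℓ ∣ N → ∀ (A : ValuationSubring Qb), A.LiesOverPrime ℓ → ∀ m : ℕ, ¬ ℓ ∣ m →
    Red.LiftStatement N A m

end Leaves

end Fermat.Agent.S18.Arith
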