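import Mathlib

/-!
# Rational covers of the affine line (generic cover-field construction)

For `Num Den : O[X]` with `natDegree Den < natDegree Num` we put on the field
`L := FractionRing O[X]` (coordinate `x`) the structure of an algebra over `A0 := O[X]`
(coordinate `y`) by `y ↦ Num(x)/Den(x)`, extend it to `Ky := FractionRing O[X]` and prove
the basic facts (L1)–(L4) of the [IGUSA] cover datum, finite-dimensionality and a
criterion for `IsGalois`.
-/

set_option autoImplicit false

open Polynomial

namespace Fermat.Agent.S18.CoverGen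

universe u

/-- A rational cover `y = Num(x)/Den(x)` of the affine line over `O`. -/
structure RatData (O : Type u) [CommRing O] where
  /-- numerator -/
  Num : O[X]
  /-- denominator -/
  Den : O[X]
  hDen : Den ≠ 0
  hdeg : Den.natDegree < Num.natDegree

variable {O : Type u} [CommRing O] [IsDomain O]

omit [IsDomain O] in
theorem RatData.num_ne_zero (d : RatData O) : d.Num ≠ 0 := by
  intro h
  have := d.hdeg
  rw [h, natDegree_zero] at this
  exact Nat.not_lt_zero _ this

/-- The field of the cover: a copy of `FractionRing O[X]` (coordinate `x`), NOT reducible: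
its `O[X]`-algebra structure is `y ↦ Num(x)/Den(x)`. -/
def CoverField (_d : RatData O) : Type u := FractionRing O[X]

noncomputable instance instField (d : RatData O) : Field (CoverField d) :=
  inferInstanceAs (Field (FractionRing O[X]))

/-- Evaluation of polynomials at the cover coordinate `x` (the canonical embedding). -/
noncomputable def ev (d : RatData O) : O[X] →+* CoverField d :=
  algebraMap O[X] (FractionRing O[X])

/-- The cover coordinate `x`. -/
noncomputable def xc (d : RatData O) : CoverField d := ev d X

/-- The function `Num(x)/Den(x)`. -/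
noncomputable def J (d : RatData O) : CoverField d := ev d d.Num / ev d d.Den

theorem ev_injective (d : RatData O) : Function.Injective (ev d) :=
  IsFractionRing.injective O[X] (FractionRing O[X])

theorem ev_den_ne_zero (d : RatData O) : ev d d.Den ≠ 0 := fun h =>
  d.hDen (ev_injective d (by rw [h, map_zero]))

theorem ev_num_ne_zero (d : RatData O) : ev d d.Num ≠ 0 := fun h =>
  d.num_ne_zero (ev_injective d (by rw [h, map_zero]))

/-- The structure map `A0 = O[y] → L`, `y ↦ Num(x)/Den(x)`. -/
noncomputable def jHom (d : RatData O) : O[X] →+* CoverField d :=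
  eval₂RingHom ((ev d).comp C) (J d)

theorem jHom_C (d : RatData O) (c : O) : jHom d (C c) = ev d (C c) := by
  simp [jHom]

theorem jHom_X (d : RatData O) : jHom d X = J d := by
  simp [jHom]

theorem jHom_injective (d : RatData O) : Function.Injective (jHom d) := by
  rw [injective_iff_map_eq_zero]
  intro p hp
  by_contra hp0
  set n := p.natDegree with hn
  have hD0 := ev_den_ne_zero d
  have hsum : ∑ i ∈ Finset.range (n + 1), C (p.coeff i) * d.Num ^ i * d.Den ^ (n - i) = 0 := by
    apply ev_injective d
    rw [map_zero, map_sum]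
    have h0 : (jHom d p) * (ev d d.Den) ^ n = 0 := by rw [hp, zero_mul]
    rw [← h0]
    simp only [jHom, coe_eval₂RingHom]
    rw [eval₂_eq_sum_range, Finset.sum_mul]
    refine Finset.sum_congr rfl fun i hi => ?_
    have hi' : i ≤ n := Nat.lt_succ_iff.mp (Finset.mem_range.mp hi)
    have hpow : (ev d d.Den) ^ n = (ev d d.Den) ^ i * (ev d d.Den) ^ (n - i) := by
      rw [← pow_add, Nat.add_sub_cancel' hi']
    simp only [map_mul, map_pow, RingHom.comp_apply, J]
    rw [hpow, div_pow]
    field_simp
  have hN0 := d.num_ne_zero
  have hcoef := congrArg (fun q => q.coeff (n * d.Num.natDegree)) hsum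
  simp only [finsetSum_coeff, coeff_zero] at hcoef
  rw [Finset.sum_range_succ] at hcoef
  have hlow : ∀ i ∈ Finset.range n,
      (C (p.coeff i) * d.Num ^ i * d.Den ^ (n - i)).coeff (n * d.Num.natDegree) = 0 := by
    intro i hi
    have hi' : i < n := Finset.mem_range.mp hi
    apply coeff_eq_zero_of_natDegree_lt
    calc (C (p.coeff i) * d.Num ^ i * d.Den ^ (n - i)).natDegree
        ≤ (C (p.coeff i) * d.Num ^ i).natDegree + (d.Den ^ (n - i)).natDegree := natDegree_mul_le
      _ ≤ i * d.Num.natDegree + (n - i) * d.Den.natDegree := by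
          gcongr
          · exact (natDegree_C_mul_le _ _).trans natDegree_pow_le
          · exact natDegree_pow_le
      _ < i * d.Num.natDegree + (n - i) * d.Num.natDegree := by
          have h1 : 0 < n - i := Nat.sub_pos_of_lt hi'
          have h2 := d.hdeg
          have : (n - i) * d.Den.natDegree < (n - i) * d.Num.natDegree :=
            Nat.mul_lt_mul_of_pos_left h2 h1
          omega
      _ = n * d.Num.natDegree := by
          rw [← add_mul, Nat.add_sub_cancel' hi'.le]
  rw [Finset.sum_eq_zero hlow, zero_add, Nat.sub_self, pow_zero, mul_one, coeff_C_mul,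
    coeff_pow_of_natDegree_le le_rfl] at hcoef
  rcases mul_eq_zero.mp hcoef with h | h
  · exact hp0 (leadingCoeff_eq_zero.mp h)
  · exact hN0 (leadingCoeff_eq_zero.mp (eq_zero_of_pow_eq_zero h))

/-- The `A0 = O[y]`-algebra structure of the cover field: `y ↦ Num(x)/Den(x)`. -/
noncomputable instance instAlgebraA0 (d : RatData O) : Algebra O[X] (CoverField d) :=
  (jHom d).toAlgebra

theorem algebraMap_eq_jHom (d : RatData O) : algebraMap O[X] (CoverField d) = jHom d := rfl

/-- The `Ky = Frac O[y]`-algebra structure of the cover field. -/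
noncomputable instance instAlgebraKy (d : RatData O) :
    Algebra (FractionRing O[X]) (CoverField d) :=
  (IsFractionRing.lift (jHom_injective d) : FractionRing O[X] →+* CoverField d).toAlgebra

instance instIsScalarTower (d : RatData O) :
    IsScalarTower O[X] (FractionRing O[X]) (CoverField d) :=
  IsScalarTower.of_algebraMap_eq fun p =>
    (IsFractionRing.lift_algebraMap (jHom_injective d) p).symm

theorem algebraMap_comp_C (d : RatData O) :
    (algebraMap O[X] (CoverField d)).comp C = (ev d).comp C := by
  ext c
  simp [algebraMap_eq_jHom, jHom_C]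

/-- The spec's `ev := eval₂ ((algebraMap A0 L).comp C) x` is our `ev`. -/
theorem ev_eq (d : RatData O) :
    eval₂ ((algebraMap O[X] (CoverField d)).comp C) (xc d) = ⇑(ev d) := by
  funext p
  rw [algebraMap_comp_C, xc, ← hom_eval₂, eval₂_C_X]

/-- (L1) -/
theorem eval₂_injective (d : RatData O) :
    Function.Injective (eval₂ ((algebraMap O[X] (CoverField d)).comp C) (xc d)) := by
  rw [ev_eq]; exact ev_injective d

/-- (L2) -/
theorem exists_ev_div (d : RatData O) (l : CoverField d) :
    ∃ p q : O[X], q ≠ 0 ∧ l * ev d q = ev d p := by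
  obtain ⟨p, q, hq, rfl⟩ := IsFractionRing.div_surjective (A := O[X]) (K := FractionRing O[X]) l
  refine ⟨p, q, nonZeroDivisors.ne_zero hq, ?_⟩
  have hq0 : algebraMap O[X] (FractionRing O[X]) q ≠ 0 := fun h =>
    nonZeroDivisors.ne_zero hq (IsFractionRing.injective O[X] (FractionRing O[X])
      (by rw [h, map_zero]))
  exact div_mul_cancel₀ _ hq0

/-- (L3) -/
theorem algebraMap_X_mul (d : RatData O) :
    algebraMap O[X] (CoverField d) X * ev d d.Den = ev d d.Num := by
  rw [algebraMap_eq_jHom, jHom_X, J]
  exact div_mul_cancel₀ _ (ev_den_ne_zero d)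

/-- (L2) in the literal shape of the spec. -/
theorem exists_eval₂_div (d : RatData O) (l : CoverField d) :
    ∃ p q : O[X], q ≠ 0 ∧
      l * eval₂ ((algebraMap O[X] (CoverField d)).comp C) (xc d) q =
        eval₂ ((algebraMap O[X] (CoverField d)).comp C) (xc d) p := by
  rw [ev_eq]; exact exists_ev_div d l

/-- (L3) in the literal shape of the spec. -/
theorem algebraMap_X_mul_eval₂ (d : RatData O) :
    algebraMap O[X] (CoverField d) X *
        eval₂ ((algebraMap O[X] (CoverField d)).comp C) (xc d) d.Den =
      eval₂ ((algebraMap O[X] (CoverField d)).comp C) (xc d) d.Num := by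
  rw [ev_eq]; exact algebraMap_X_mul d

/-- The polynomial `Num(Y) − y·Den(Y)` over `A0 = O[y]`. -/
noncomputable def coverPoly (d : RatData O) : O[X][X] :=
  d.Num.map C - C X * d.Den.map C

omit [IsDomain O] in
theorem degree_coverPoly_sub_lt (d : RatData O) :
    (C (X : O[X]) * d.Den.map C).degree < (d.Num.map C).degree := by
  apply degree_lt_degree
  have h1 : (C (X : O[X]) * d.Den.map C).natDegree ≤ d.Den.natDegree :=
    (natDegree_C_mul_le _ _).trans natDegree_map_le
  have h2 : (d.Num.map (C : O →+* O[X])).natDegree = d.Num.natDegree :=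
    natDegree_map_eq_of_injective C_injective _
  rw [h2]
  exact lt_of_le_of_lt h1 d.hdeg

omit [IsDomain O] in
theorem leadingCoeff_coverPoly (d : RatData O) :
    (coverPoly d).leadingCoeff = C d.Num.leadingCoeff := by
  rw [coverPoly, leadingCoeff_sub_of_degree_lt (degree_coverPoly_sub_lt d),
    leadingCoeff_map_of_injective C_injective]

omit [IsDomain O] in
theorem coverPoly_ne_zero (d : RatData O) : coverPoly d ≠ 0 := by
  intro h
  have := leadingCoeff_coverPoly d
  rw [h, leadingCoeff_zero] at this
  exact d.num_ne_zero (leadingCoeff_eq_zero.mp (C_eq_zero.mp this.symm))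

theorem eval₂_coverPoly (d : RatData O) :
    eval₂ (algebraMap O[X] (CoverField d)) (xc d) (coverPoly d) = 0 := by
  have h1 : ∀ q : O[X], eval₂ (algebraMap O[X] (CoverField d)) (xc d) (q.map C) = ev d q := by
    intro q
    rw [eval₂_map, ← ev_eq]
  rw [coverPoly, eval₂_sub, eval₂_mul, eval₂_C, h1, h1, algebraMap_X_mul, sub_self]

/-- (L4) -/
theorem isIntegral_xc (d : RatData O) (h : IsUnit d.Num.leadingCoeff) :
    IsIntegral O[X] (xc d) := by
  have hu : IsUnit (coverPoly d).leadingCoeff := by
    rw [leadingCoeff_coverPoly]; exact h.map C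
  refine ⟨C (↑hu.unit⁻¹ : O[X]) * coverPoly d, ?_, ?_⟩
  · rw [Monic, leadingCoeff_mul', leadingCoeff_C]
    · exact hu.val_inv_mul
    · rw [leadingCoeff_C]
      intro h0
      have := hu.val_inv_mul
      rw [h0] at this
      exact zero_ne_one this
  · rw [eval₂_mul, eval₂_coverPoly, mul_zero]

theorem isAlgebraic_xc (d : RatData O) : IsAlgebraic (FractionRing O[X]) (xc d) := by
  refine ⟨(coverPoly d).map (algebraMap O[X] (FractionRing O[X])), ?_, ?_⟩
  · exact (Polynomial.map_ne_zero_iff (IsFractionRing.injective O[X] (FractionRing O[X]))).mpr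
      (coverPoly_ne_zero d)
  · rw [aeval_def, eval₂_map, ← IsScalarTower.algebraMap_eq]
    exact eval₂_coverPoly d

theorem ev_mem_adjoin (d : RatData O) (p : O[X]) :
    ev d p ∈ IntermediateField.adjoin (FractionRing O[X]) {xc d} := by
  rw [← ev_eq, eval₂_eq_sum]
  refine sum_mem fun i _ => mul_mem ?_ (pow_mem (IntermediateField.mem_adjoin_simple_self _ _) _)
  rw [RingHom.comp_apply, IsScalarTower.algebraMap_apply O[X] (FractionRing O[X]) (CoverField d)]
  exact IntermediateField.algebraMap_mem _ _

theorem adjoin_xc_eq_top (d : RatData O) :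
    IntermediateField.adjoin (FractionRing O[X]) {xc d} = ⊤ := by
  rw [eq_top_iff]
  intro l _
  obtain ⟨p, q, hq, h⟩ := exists_ev_div d l
  have hq0 : ev d q ≠ 0 := fun h0 => hq (ev_injective d (by rw [h0, map_zero]))
  have : l = ev d p / ev d q := by rw [← h, mul_div_cancel_right₀ _ hq0]
  rw [this]
  exact div_mem (ev_mem_adjoin d p) (ev_mem_adjoin d q)

theorem finiteDimensional (d : RatData O) :
    FiniteDimensional (FractionRing O[X]) (CoverField d) := by
  have h1 : FiniteDimensional (FractionRing O[X])
      (IntermediateField.adjoin (FractionRing O[X]) {xc d}) :=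
    IntermediateField.adjoin.finiteDimensional (isAlgebraic_xc d).isIntegral
  rw [adjoin_xc_eq_top] at h1
  exact (IntermediateField.topEquiv (F := FractionRing O[X])
    (E := CoverField d)).toLinearEquiv.finiteDimensional

/-- The polynomial `Num(Y)·Den(x) − Num(x)·Den(Y)` over the cover field. -/
noncomputable def splitPoly (d : RatData O) : (CoverField d)[X] :=
  C (ev d d.Den) * d.Num.map ((ev d).comp C) - C (ev d d.Num) * d.Den.map ((ev d).comp C)

theorem map_coverPoly (d : RatData O) :
    (coverPoly d).map (algebraMap O[X] (CoverField d)) = C (ev d d.Den)⁻¹ * splitPoly d := by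
  have hD0 := ev_den_ne_zero d
  rw [coverPoly, splitPoly, Polynomial.map_sub, Polynomial.map_mul, Polynomial.map_map,
    Polynomial.map_map, map_C, algebraMap_comp_C, algebraMap_eq_jHom, jHom_X, J, mul_sub,
    ← mul_assoc, ← mul_assoc, ← C_mul, ← C_mul, inv_mul_cancel₀ hD0, map_one, one_mul,
    inv_mul_eq_div]

/-- Criterion: the cover is Galois as soon as `Num(Y)·Den(x) − Num(x)·Den(Y)` splits over
the cover field. -/
theorem isGalois_of_splits [CharZero O] (d : RatData O) (h : (splitPoly d).Splits) :
    IsGalois (FractionRing O[X]) (CoverField d) := by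
  have := finiteDimensional d
  set P : (FractionRing O[X])[X] :=
    (coverPoly d).map (algebraMap O[X] (FractionRing O[X])) with hP
  have hPmap : P.map (algebraMap (FractionRing O[X]) (CoverField d)) =
      C (ev d d.Den)⁻¹ * splitPoly d := by
    rw [hP, Polynomial.map_map, ← IsScalarTower.algebraMap_eq, map_coverPoly]
  have hP0 : P ≠ 0 :=
    (Polynomial.map_ne_zero_iff (IsFractionRing.injective O[X] (FractionRing O[X]))).mpr
      (coverPoly_ne_zero d)
  have hroot : xc d ∈ P.rootSet (CoverField d) := by
    rw [mem_rootSet]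
    refine ⟨hP0, ?_⟩
    rw [hP, aeval_def, eval₂_map, ← IsScalarTower.algebraMap_eq]
    exact eval₂_coverPoly d
  have : P.IsSplittingField (FractionRing O[X]) (CoverField d) := by
    refine ⟨?_, ?_⟩
    · rw [hPmap]; exact h.C_mul _
    · rw [eq_top_iff]
      have h1 : (IntermediateField.adjoin (FractionRing O[X]) {xc d}).toSubalgebra =
          Algebra.adjoin (FractionRing O[X]) {xc d} :=
        IntermediateField.adjoin_simple_toSubalgebra_of_isAlgebraic (isAlgebraic_xc d)
      rw [adjoin_xc_eq_top, IntermediateField.top_toSubalgebra] at h1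
      rw [h1]
      exact Algebra.adjoin_mono (Set.singleton_subset_iff.mpr hroot)
  have : Normal (FractionRing O[X]) (CoverField d) := Normal.of_isSplittingField P
  exact isGalois_iff.mpr ⟨inferInstance, inferInstance⟩

end Fermat.Agent.S18.CoverGen
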