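/-
S18 — ModelPlan.lean (helper42), v2: exact sub-leaf statements of block [Model] (and of the
Gauss-ring calculus [GRel]) of the arithmetic half.  Definitions / `Prop`s only.

The charts are DEFINED as integral closures (`Arith.R0 = integral closure of O[j] in F_K`,
`Arith.Rinf = integral closure of O[j⁻¹] in F_K`), so `t_mem`, `integral`, `closed` of
`Arith.ChartFacts` are formal.  Remaining sub-leaves:

* `GRelStatement`    ([GRel])    calculus of the Gauss local ring `G_A ⊂ ℚ̄((q))`;
* `GRelNFStatement`  ([GRel-NF]) `π`-adic normal form of quotients of `O`-integral series;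
* `BasicStatement`   ([Basic])   fractions, gluing, `j ≠ 0`, `O`-integral `q`-expansions;
* `FinStatement`     ([Fin])     finiteness of the charts over `O[j]`, `O[j⁻¹]`;
* `QExpStatement`    ([QExp])    the `q`-expansion principle over `O` (S28-dependent);
* `RedOStatement`    ([Red])     the reduction maps of the charts.

Assembly (`Model.lean`): `BasicStatement → FinStatement → RedOStatement → Arith.ModelStatement`.
-/
import Fermat.Agent.S18.ArithPlan

set_option autoImplicit false

noncomputable section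

namespace Fermat.Agent.S18.ModelPlan

open ModularCurve ModularCurve.IgusaScheme AlgebraicCurve HahnSeries Fermat.Agent.S18.Arith

/-! ### [GRel] : the Gauss local ring `G_A ⊂ ℚ̄((q))` and its reduction, in relational form -/

/-- Calculus of `GRel` (owner: `GRel.lean`).  `G_A = {x | ∃ y, GRel A x y}` is a local subring of
`ℚ̄((q))` and `x ↦ y` is a ring homomorphism onto its residue field. -/
structure GRelFacts (A : ValuationSubring Qb) : Prop where
  of_int : ∀ X : LaurentSeries A,
    GRel A (coeffMap A.subtype X) (coeffMap (IsLocalRing.residue A) X)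
  unique : ∀ (x : LaurentSeries Qb) (y y' : LaurentSeries (IsLocalRing.ResidueField A)),
    GRel A x y → GRel A x y' → y = y'
  add : ∀ (x x' : LaurentSeries Qb) (y y' : LaurentSeries (IsLocalRing.ResidueField A)),
    GRel A x y → GRel A x' y' → GRel A (x + x') (y + y')
  mul : ∀ (x x' : LaurentSeries Qb) (y y' : LaurentSeries (IsLocalRing.ResidueField A)),
    GRel A x y → GRel A x' y' → GRel A (x * x') (y * y')
  neg : ∀ (x : LaurentSeries Qb) (y : LaurentSeries (IsLocalRing.ResidueField A)),
    GRel A x y → GRel A (-x) (-y)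
  inv : ∀ (x : LaurentSeries Qb) (y : LaurentSeries (IsLocalRing.ResidueField A)),
    GRel A x y → y ≠ 0 → GRel A x⁻¹ y⁻¹

/-- **[GRel]** the calculus holds for every `A`. -/
def GRelStatement : Prop := ∀ A : ValuationSubring Qb, GRelFacts A

/-- **[GRel-NF]** `π`-adic normal form over the discrete valuation ring `O = A ∩ K`: a nonzero
quotient `x = a / b` of two Laurent series with coefficients in `O` is `π ^ γ` times a unit of
the Gauss local ring.  (Primitive-part factorisation `a = π^α · unit · (1 + π c)` in `O((q))`.) -/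
def GRelNFStatement : Prop :=
  ∀ (A : ValuationSubring Qb) (K : IntermediateField ℚ Qb), IsDiscreteValuationRing (OK A K) →
  ∀ π : OK A K, Irreducible π →
  ∀ (x : LaurentSeries Qb) (a b : LaurentSeries (OK A K)), a ≠ 0 → b ≠ 0 →
    x * coeffMap (incO A K) b = coeffMap (incO A K) a →
    ∃ (γ : ℤ) (y : LaurentSeries (IsLocalRing.ResidueField A)), y ≠ 0 ∧
      GRel A (x * (HahnSeries.C (incO A K π) : LaurentSeries Qb) ^ (-γ)) y

/-! ### [Model] sub-leaves -/

section

variable (N : ℕ) [NeZero N] (ℓ : ℕ) [Fact ℓ.Prime]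

/-- **[Basic]** elementary facts on `F_K` and the two charts. -/
structure BasicFacts (A : ValuationSubring Qb) (K : IntermediateField ℚ Qb) : Prop where
  j_ne : jK N K ≠ 0
  frac0 : ∀ x : FK N K, ∃ a ∈ R0 N ℓ A K, ∃ b ∈ R0 N ℓ A K, b ≠ 0 ∧ x * b = a
  fracInf : ∀ x : FK N K, ∃ a ∈ Rinf N ℓ A K, ∃ b ∈ Rinf N ℓ A K, b ≠ 0 ∧ x * b = a
  glue0 : ∀ x ∈ R0 N ℓ A K, ∃ n : ℕ, x * (jK N K)⁻¹ ^ n ∈ Rinf N ℓ A K
  glueInf : ∀ x ∈ Rinf N ℓ A K, ∃ n : ℕ, x * (jK N K) ^ n ∈ R0 N ℓ A K
  /-- every element of `F_K` is a quotient of two Laurent series with coefficients in `O` -/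
  qfrac : ∀ x : FK N K, ∃ a b : LaurentSeries (OK A K), b ≠ 0 ∧
    ((x : FK N K) : LaurentSeries Qb) * coeffMap (incO A K) b = coeffMap (incO A K) a
  /-- `j` and `j⁻¹` have `q`-expansions with coefficients in `O` (indeed in `ℤ`) -/
  jint : ∃ J Jinv : LaurentSeries (OK A K),
    coeffMap (incO A K) J = ((jK N K : FK N K) : LaurentSeries Qb) ∧
    coeffMap (incO A K) Jinv = (((jK N K)⁻¹ : FK N K) : LaurentSeries Qb)

def BasicStatement : Prop :=
  ∀ (A : ValuationSubring Qb) (K : IntermediateField ℚ Qb), BasicFacts N ℓ A K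

/-- **[Fin]** the charts are finite over `O[j]`, resp. `O[j⁻¹]`. -/
def FinStatement : Prop :=
  ∀ (A : ValuationSubring Qb) (K : IntermediateField ℚ Qb), IsDiscreteValuationRing (OK A K) →
    (∃ s : Finset (FK N K), (R0 N ℓ A K : Set (FK N K)) ⊆
      Submodule.span (Algebra.adjoin (OK A K) {jK N K}) (s : Set (FK N K))) ∧
    (∃ s : Finset (FK N K), (Rinf N ℓ A K : Set (FK N K)) ⊆
      Submodule.span (Algebra.adjoin (OK A K) {(jK N K)⁻¹}) (s : Set (FK N K)))

/-- **[QExp]** (S28-dependent) the `q`-expansion principle over `O`: an element of `F_K` lying in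
the Gauss local ring is integral over `O[j]` localised at `π` (irreducibility of the special
fibre), and its reduction lies in `F_k`. -/
def QExpStatement : Prop :=
  ¬ ℓ ∣ N → ∀ A : ValuationSubring Qb, A.LiesOverPrime ℓ → ∀ K : IntermediateField ℚ Qb,
    BaseFacts ℓ A K →
    ∀ (x : FK N K) (y : LaurentSeries (IsLocalRing.ResidueField A)),
      GRel A ((x : FK N K) : LaurentSeries Qb) y →
      (∃ c : Polynomial (OK A K), c.map (resO A K) ≠ 0 ∧
        Polynomial.aeval (jK N K) c * x ∈ R0 N ℓ A K) ∧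
      y ∈ modularFunctionFieldFullC (IsLocalRing.ResidueField A) N

/-- The `red` field of `Arith.ChartFacts` for a chart `R`. -/
def RedOAt (A : ValuationSubring Qb) (K : IntermediateField ℚ Qb)
    (R : Subalgebra (OK A K) (FK N K)) : Prop :=
  ∃ ρ : R →+* LaurentSeries (IsLocalRing.ResidueField A),
    (∀ x : R, GRel A ((x : FK N K) : LaurentSeries Qb) (ρ x)) ∧
    RingHom.ker ρ = piIdeal N A K R ∧
    ∀ x : R, ρ x ∈ modularFunctionFieldFullC (IsLocalRing.ResidueField A) N

/-- **[Red]** reduction data on `R0`, `Rinf` (`ρ :=` Gauss reduction; kernel from [QExp] and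
`IntClReg`). -/
def RedOStatement : Prop :=
  ¬ ℓ ∣ N → ∀ A : ValuationSubring Qb, A.LiesOverPrime ℓ → ∀ K : IntermediateField ℚ Qb,
    BaseFacts ℓ A K → RedOAt N A K (R0 N ℓ A K) ∧ RedOAt N A K (Rinf N ℓ A K)

end

end Fermat.Agent.S18.ModelPlan
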