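/-
S18 — Model.lean (helper42): assembly of block [Model] from its sub-leaves
(`ModelPlan.BasicStatement`, `FinStatement`, `RedOStatement`).
-/
import Fermat.Agent.S18.ModelPlan

set_option autoImplicit false

noncomputable section

namespace Fermat.Agent.S18.Model

open ModularCurve ModularCurve.IgusaScheme AlgebraicCurve HahnSeries Fermat.Agent.S18.Arith
open Fermat.Agent.S18.ModelPlan

variable (N : ℕ) [NeZero N] (ℓ : ℕ) [Fact ℓ.Prime]

omit [NeZero N] in
/-- The ideal `𝔪_O R` of a chart is prime as soon as it is the kernel of a ring homomorphism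
to `k((q))`. -/
theorem piIdeal_isPrime_of_redOAt {A : ValuationSubring Qb} {K : IntermediateField ℚ Qb}
    {R : Subalgebra (OK A K) (FK N K)} (h : RedOAt N A K R) : (piIdeal N A K R).IsPrime := by
  obtain ⟨ρ, -, hker, -⟩ := h
  rw [← hker]
  exact RingHom.ker_isPrime ρ

variable (A : ValuationSubring Qb) (K : IntermediateField ℚ Qb)

omit [NeZero N] in
/-- The coordinate lies in its chart. -/
theorem self_mem_chart (t : FK N K) : t ∈ chart N A K t := by
  rw [mem_chart_iff]
  exact isIntegral_algebraMap
    (x := (⟨t, Algebra.subset_adjoin (Set.mem_singleton t)⟩ : Algebra.adjoin (OK A K) {t}))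

omit [NeZero N] in
/-- A chart is integrally closed in `F_K`. -/
theorem mem_chart_of_isIntegral (t x : FK N K) (hx : IsIntegral (chart N A K t) x) :
    x ∈ chart N A K t := by
  have h1 : IsIntegral (integralClosure (Algebra.adjoin (OK A K) {t}) (FK N K)) x := hx
  have h2 : x ∈ integralClosure
      (integralClosure (Algebra.adjoin (OK A K) {t}) (FK N K)) (FK N K) := h1
  rw [integralClosure_idem] at h2
  obtain ⟨y, rfl⟩ := Algebra.mem_bot.mp h2
  exact y.2

/-- **[Model]** from its sub-leaves. -/
theorem modelStatement_of_leaves (hbasic : BasicStatement N ℓ) (hfin : FinStatement N ℓ)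
    (hred : RedOStatement N ℓ) : ModelStatement N ℓ := by
  intro hℓN A hA K hB
  have hS := hbasic A K
  obtain ⟨hf0, hfInf⟩ := hfin A K hB.dvr
  obtain ⟨hr0, hrInf⟩ := hred hℓN A hA K hB
  refine ⟨⟨self_mem_chart N A K _, fun x hx => hx, mem_chart_of_isIntegral N A K _, hf0,
      hS.frac0, hr0⟩,
    ⟨self_mem_chart N A K _, fun x hx => hx, mem_chart_of_isIntegral N A K _, hfInf,
      hS.fracInf, hrInf⟩,
    hS.glue0, hS.glueInf, hS.j_ne⟩

end Fermat.Agent.S18.Model
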