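import Mathlib
import Fermat.Agent.S18.ArithPlan
import Fermat.Agent.S18.Model
import Fermat.Agent.S18.IgusaTop
import Fermat.Agent.S18.CoverGen

/-!
# S18 team library, block [IGUSA] T8a: instantiation of the abstract setting at a chart

OWNER: helper9 (only the owner edits this file).

For a coordinate `t : FK N K` (`t = jK` for `R0`, `t = jK⁻¹` for `Rinf`) the type synonym
`ChartF N A K t` is the field `F_K` with the `O[y]`-algebra structure `y ↦ t`
(`O = OK A K`).  The integral closure of `O[y]` in it has the same carrier as the chart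
`Arith.chart N A K t`; `chartEquiv` is the resulting ring isomorphism and
`igusaAt_of_conclusion` transports `IgusaTop.Conclusion` to the chart.
-/

set_option autoImplicit false

noncomputable section

namespace Fermat.Agent.S18.IgusaInst

open Polynomial Fermat.Agent.S18.Arith

variable (N : ℕ) (A : ValuationSubring Qb) (K : IntermediateField ℚ Qb)

/-- `F_K` with the `O[y]`-algebra structure `y ↦ t`. -/
def ChartF (_t : FK N K) : Type := FK N K

instance instFieldChartF (t : FK N K) : Field (ChartF N K t) := inferInstanceAs (Field (FK N K))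

/-- the identity `F_K → ChartF`. -/
def toChartF (t : FK N K) : FK N K ≃+* ChartF N K t := RingEquiv.refl _

/-- The structure map `O[y] → F_K`, `y ↦ t`. -/
def yHom (t : FK N K) : (OK A K)[X] →+* ChartF N K t :=
  (aeval (R := OK A K) (A := FK N K) t).toRingHom

instance instAlgebraChartF (t : FK N K) : Algebra (OK A K)[X] (ChartF N K t) :=
  (yHom N A K t).toAlgebra

theorem algebraMap_chartF (t : FK N K) (p : (OK A K)[X]) :
    algebraMap (OK A K)[X] (ChartF N K t) p = aeval (R := OK A K) (A := FK N K) t p := rfl

theorem algebraMap_chartF_C (t : FK N K) (o : OK A K) :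
    algebraMap (OK A K)[X] (ChartF N K t) (C o) = algebraMap (OK A K) (FK N K) o := by
  rw [algebraMap_chartF, aeval_C]

theorem algebraMap_chartF_X (t : FK N K) :
    algebraMap (OK A K)[X] (ChartF N K t) X = t := by
  rw [algebraMap_chartF, aeval_X]

/-- The `Ky`-algebra structure (`Ky = Frac O[y]`) on `ChartF`, available when `y ↦ t` is
injective (i.e. `t` is transcendental over `O`). -/
instance instAlgebraKyChartF (t : FK N K) [FaithfulSMul (OK A K)[X] (ChartF N K t)] :
    Algebra (FractionRing (OK A K)[X]) (ChartF N K t) :=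
  FractionRing.liftAlgebra (OK A K)[X] (ChartF N K t)

instance instIsScalarTowerChartF (t : FK N K) [FaithfulSMul (OK A K)[X] (ChartF N K t)] :
    IsScalarTower (OK A K)[X] (FractionRing (OK A K)[X]) (ChartF N K t) :=
  FractionRing.isScalarTower_liftAlgebra (OK A K)[X] (ChartF N K t)

/-- `FaithfulSMul` from injectivity of `aeval t`. -/
theorem faithfulSMul_chartF (t : FK N K)
    (ht : Function.Injective (aeval (R := OK A K) (A := FK N K) t)) :
    FaithfulSMul (OK A K)[X] (ChartF N K t) :=
  (faithfulSMul_iff_algebraMap_injective _ _).2 ht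

/-- Integrality over `O[y]` is integrality over `O[t] ⊆ F_K`. -/
theorem isIntegral_iff (t : FK N K) (z : FK N K) :
    IsIntegral (OK A K)[X] (show ChartF N K t from z) ↔ z ∈ chart N A K t := by
  rw [mem_chart_iff]
  constructor
  · rintro ⟨p, hp, hpz⟩
    refine ⟨p.map ((aeval (R := OK A K) (A := FK N K) t).codRestrict
      (Algebra.adjoin (OK A K) {t}) (fun q => by
        rw [Algebra.adjoin_singleton_eq_range_aeval]; exact ⟨q, rfl⟩)).toRingHom, hp.map _, ?_⟩
    rw [eval₂_map]
    exact hpz
  · rintro ⟨p, hp, hpz⟩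
    have hsurj : Function.Surjective ((aeval (R := OK A K) (A := FK N K) t).codRestrict
        (Algebra.adjoin (OK A K) {t}) (fun q => by
          rw [Algebra.adjoin_singleton_eq_range_aeval]; exact ⟨q, rfl⟩)).toRingHom := by
      rintro ⟨y, hy⟩
      rw [Algebra.adjoin_singleton_eq_range_aeval] at hy
      obtain ⟨q, rfl⟩ := hy
      exact ⟨q, rfl⟩
    obtain ⟨q, hq, -, hqm⟩ := Polynomial.lifts_and_natDegree_eq_and_monic
      (Polynomial.mem_lifts_of_surjective hsurj p) hp
    refine ⟨q, hqm, ?_⟩
    have := hpz
    rw [← hq, eval₂_map] at this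
    exact this

/-- The ring isomorphism between the chart and the integral closure of `O[y]` in `ChartF`. -/
def chartEquiv (t : FK N K) :
    chart N A K t ≃+* integralClosure (OK A K)[X] (ChartF N K t) where
  toFun z := ⟨z.1, (isIntegral_iff N A K t z.1).2 z.2⟩
  invFun z := ⟨z.1, (isIntegral_iff N A K t z.1).1 z.2⟩
  left_inv _ := rfl
  right_inv _ := rfl
  map_mul' _ _ := rfl
  map_add' _ _ := rfl

theorem chartEquiv_algebraMap (t : FK N K) (o : OK A K) :
    chartEquiv N A K t (algebraMap (OK A K) (chart N A K t) o) =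
      algebraMap (OK A K)[X] (integralClosure (OK A K)[X] (ChartF N K t)) (C o) := by
  apply Subtype.ext
  show algebraMap (OK A K) (FK N K) o = algebraMap (OK A K)[X] (ChartF N K t) (C o)
  rw [algebraMap_chartF_C]

theorem chartEquiv_coord (t : FK N K) (c : OK A K) :
    chartEquiv N A K t
        ((⟨t, Model.self_mem_chart N A K t⟩ : chart N A K t) -
          algebraMap (OK A K) (chart N A K t) c) =
      algebraMap (OK A K)[X] (integralClosure (OK A K)[X] (ChartF N K t)) (X - C c) := by
  apply Subtype.ext
  show t - algebraMap (OK A K) (FK N K) c = algebraMap (OK A K)[X] (ChartF N K t) (X - C c)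
  rw [map_sub, algebraMap_chartF_C, algebraMap_chartF_X]
  rfl

/-- Transport of `IgusaTop.Conclusion` to the chart: at every maximal ideal `n` of the chart
containing `π` and `t - c`, `n` is locally generated by `π` and one more element. -/
theorem igusaAt_of_conclusion (t : FK N K) (π c : OK A K)
    (h : IgusaTop.Conclusion (ChartF N K t) π c) :
    ∀ n : Ideal (chart N A K t), n.IsMaximal →
      algebraMap (OK A K) (chart N A K t) π ∈ n →
      (⟨t, Model.self_mem_chart N A K t⟩ : chart N A K t) -
          algebraMap (OK A K) (chart N A K t) c ∈ n →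
      ∃ t' ∈ n, ∀ x ∈ n, ∃ u : chart N A K t, u ∉ n ∧
        u * x ∈ Ideal.span {algebraMap (OK A K) (chart N A K t) π, t'} := by
  intro n hn hπ hc
  set e := chartEquiv N A K t with he
  set f : integralClosure (OK A K)[X] (ChartF N K t) →+* chart N A K t := e.symm.toRingHom with hf
  have hfe : ∀ z, f (e z) = z := fun z => e.symm_apply_apply z
  have hef : ∀ z, e (f z) = z := fun z => e.apply_symm_apply z
  have hn' : (n.comap f).IsMaximal :=
    Ideal.comap_isMaximal_of_surjective f e.symm.surjective
  have hmem : ∀ z, z ∈ n.comap f ↔ f z ∈ n := fun z => Iff.rfl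
  obtain ⟨t'', ht'', hgen⟩ := h (n.comap f) hn'
    (by rw [hmem, ← chartEquiv_algebraMap, hfe]; exact hπ)
    (by rw [hmem, ← chartEquiv_coord, hfe]; exact hc)
  refine ⟨f t'', ht'', fun x hx => ?_⟩
  obtain ⟨u, hu, hux⟩ := hgen (e x) (by rw [hmem, hfe]; exact hx)
  refine ⟨f u, hu, ?_⟩
  rw [Ideal.mem_span_pair] at hux ⊢
  obtain ⟨a, b, hab⟩ := hux
  refine ⟨f a, f b, ?_⟩
  apply e.injective
  rw [map_add, map_mul, map_mul, map_mul, hef, hef, hef, hef, chartEquiv_algebraMap]
  exact hab

/-- **The chart theorem**: the abstract Igusa theorem at a chart with coordinate `t`, for a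
cover `d` of the `y`-line over `O`, at the points over `y = c`. -/
theorem igusaAt_chart (hAbs : IgusaTop.IgusaAbs) [IsDiscreteValuationRing (OK A K)]
    [IsAlgClosed (IsLocalRing.ResidueField (OK A K))]
    (t : FK N K) [FaithfulSMul (OK A K)[X] (ChartF N K t)]
    [FiniteDimensional (FractionRing (OK A K)[X]) (ChartF N K t)]
    (π c : OK A K) (hπ : Irreducible π)
    (d : CoverGen.RatData (OK A K))
    (hcov : IgusaTop.CoverDatum (FractionRing (OK A K)[X]) (CoverGen.xc d) d.Num d.Den)
    (hV : IgusaTop.VertInput (FractionRing (OK A K)[X]) (ChartF N K t) π)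
    (φ : OK A K →+* ℂ) (hφ : Function.Injective φ)
    (hH : IgusaTop.HorInput (FractionRing (OK A K)[X]) (ChartF N K t) d.Num d.Den π c φ) :
    ∀ n : Ideal (chart N A K t), n.IsMaximal →
      algebraMap (OK A K) (chart N A K t) π ∈ n →
      (⟨t, Model.self_mem_chart N A K t⟩ : chart N A K t) -
          algebraMap (OK A K) (chart N A K t) c ∈ n →
      ∃ t' ∈ n, ∀ x ∈ n, ∃ u : chart N A K t, u ∉ n ∧
        u * x ∈ Ideal.span {algebraMap (OK A K) (chart N A K t) π, t'} :=
  igusaAt_of_conclusion N A K t π c
    (hAbs (OK A K) (FractionRing (OK A K)[X]) (ChartF N K t) (CoverGen.CoverField d)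
      (CoverGen.xc d) d.Num d.Den π c φ hπ hφ hcov hV hH)

end Fermat.Agent.S18.IgusaInst
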