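/-
S18 — JNot.lean (helper135, for helper29 [GLUE]): `j` and `j⁻¹` do not lie in the ideal `𝔪_O R`
of their charts.
-/
import Mathlib
import Fermat.Agent.S18.ModelPlan

set_option autoImplicit false

noncomputable section

namespace Fermat.Agent.S18.JNot

open Fermat.Agent.S18.Arith ModularCurve ModularCurve.IgusaScheme HahnSeries

/-- The coefficientwise map sends the `q`-expansion of `j` to the `q`-expansion of `j`. -/
theorem coeffMap_jqModC {R S : Type*} [CommRing R] [CommRing S] (f : R →+* S) :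
    coeffMap f (jqModC R) = jqModC S :=
  map_jqModC f

/-- The `q`-expansion of `j` over a nontrivial ring is nonzero. -/
theorem jqModC_ne_zero (k : Type*) [CommRing k] [Nontrivial k] : jqModC k ≠ 0 := by
  intro h
  have h1 := coeff_jqModC_neg_one k
  rw [h, HahnSeries.coeff_zero] at h1
  exact zero_ne_one h1

/-- The underlying series of `j ∈ F_K`. -/
theorem coe_jK (N : ℕ) [NeZero N] (K : IntermediateField ℚ Qb) :
    ((jK N K : FK N K) : LaurentSeries Qb) = jqModC Qb := by
  have h1 : ((jK N K : FK N K) : LaurentSeries Qb) = coeffEmb Qb jq := rfl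
  rw [h1, ← jqModC_rat]
  exact coeffMap_jqModC (algebraMap ℚ Qb)

/-- `j` is Gauss-integral with reduction the `q`-expansion of `j` over the residue field. -/
theorem gRel_jK (hG : ModelPlan.GRelStatement) (N : ℕ) [NeZero N]
    (A : ValuationSubring Qb) (K : IntermediateField ℚ Qb) :
    GRel A ((jK N K : FK N K) : LaurentSeries Qb) (jqModC (IsLocalRing.ResidueField A)) := by
  have h := (hG A).of_int (jqModC A)
  rw [coeffMap_jqModC, coeffMap_jqModC] at h
  rw [coe_jK]
  exact h

theorem jNot (hG : ModelPlan.GRelStatement) (N : ℕ) [NeZero N] (ℓ : ℕ) [Fact ℓ.Prime]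
    (A : ValuationSubring Qb) (K : IntermediateField ℚ Qb) (hM : ModelFacts N ℓ A K) :
    (⟨jK N K, hM.c0.t_mem⟩ : R0 N ℓ A K) ∉ piIdeal N A K (R0 N ℓ A K) ∧
    (⟨(jK N K)⁻¹, hM.cInf.t_mem⟩ : Rinf N ℓ A K) ∉ piIdeal N A K (Rinf N ℓ A K) := by
  have hrel := gRel_jK hG N A K
  have hne : jqModC (IsLocalRing.ResidueField A) ≠ 0 := jqModC_ne_zero _
  constructor
  · intro hmem
    obtain ⟨ρ, hρ, hker, -⟩ := hM.c0.red
    rw [← hker, RingHom.mem_ker] at hmem
    have h1 := hρ ⟨jK N K, hM.c0.t_mem⟩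
    rw [hmem] at h1
    exact hne ((hG A).unique _ _ _ hrel h1)
  · intro hmem
    obtain ⟨ρ, hρ, hker, -⟩ := hM.cInf.red
    rw [← hker, RingHom.mem_ker] at hmem
    have h1 := hρ ⟨(jK N K)⁻¹, hM.cInf.t_mem⟩
    rw [hmem] at h1
    have h2 := (hG A).inv _ _ hrel hne
    have h3 : (jqModC (IsLocalRing.ResidueField A))⁻¹ = 0 := (hG A).unique _ _ _ h2 h1
    exact hne (inv_eq_zero.mp h3)

end Fermat.Agent.S18.JNot
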