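import Mathlib

/-!
# S18 : (Nor) from the Igusa statement

If `π` is a prime element of a noetherian ring `R` and every maximal ideal `n ∋ π` is, locally,
generated by `π` and one more element `t`, then the special fibre `R / π` is an integrally
closed domain (its local rings at maximal ideals are discrete valuation rings or fields).
This is the form of (Nor) consumed by `CechPlan.Setting.nor0` / `norInf`.
-/

set_option autoImplicit false

namespace Fermat.Agent.S18.NorOfIgusa

open IsLocalRing

theorem isIntegrallyClosed_quotient_of_igusa {R : Type*} [CommRing R] [IsNoetherianRing R] (π : R)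
    (hprime : (Ideal.span {π}).IsPrime)
    (h : ∀ n : Ideal R, n.IsMaximal → π ∈ n →
      ∃ t ∈ n, ∀ x ∈ n, ∃ c, c ∉ n ∧ c * x ∈ Ideal.span {π, t}) :
    IsIntegrallyClosed (R ⧸ Ideal.span {π}) := by
  have := hprime
  have : IsDomain (R ⧸ Ideal.span {π}) := Ideal.Quotient.isDomain _
  refine IsIntegrallyClosed.of_localization_maximal fun P hP0 hPmax => ?_
  have hnmax : (P.comap (Ideal.Quotient.mk (Ideal.span {π}))).IsMaximal :=
    Ideal.comap_isMaximal_of_surjective _ Ideal.Quotient.mk_surjective
  have hπn : π ∈ P.comap (Ideal.Quotient.mk (Ideal.span {π})) := by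
    rw [Ideal.mem_comap]
    have h0 : Ideal.Quotient.mk (Ideal.span {π}) π = 0 :=
      Ideal.Quotient.eq_zero_iff_mem.mpr (Ideal.mem_span_singleton_self π)
    rw [h0]
    exact P.zero_mem
  obtain ⟨t, htn, ht⟩ := h _ hnmax hπn
  have : IsNoetherianRing (Localization.AtPrime P) :=
    IsLocalization.isNoetherianRing P.primeCompl _ inferInstance
  have hprinc : (maximalIdeal (Localization.AtPrime P)).IsPrincipal := by
    refine ⟨⟨algebraMap _ _ (Ideal.Quotient.mk (Ideal.span {π}) t), ?_⟩⟩
    rw [← Localization.AtPrime.map_eq_maximalIdeal]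
    apply le_antisymm
    · rw [Ideal.map_le_iff_le_comap]
      intro xbar hx
      obtain ⟨x, rfl⟩ := Ideal.Quotient.mk_surjective xbar
      obtain ⟨c, hcn, hcx⟩ := ht x hx
      rw [Ideal.mem_span_pair] at hcx
      obtain ⟨a, b, hab⟩ := hcx
      have hcP : Ideal.Quotient.mk (Ideal.span {π}) c ∉ P := hcn
      have h1 : Ideal.Quotient.mk (Ideal.span {π}) c * Ideal.Quotient.mk (Ideal.span {π}) x =
          Ideal.Quotient.mk (Ideal.span {π}) b * Ideal.Quotient.mk (Ideal.span {π}) t := by
        rw [← map_mul, ← map_mul, ← hab, map_add, map_mul]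
        have h0 : Ideal.Quotient.mk (Ideal.span {π}) π = 0 :=
          Ideal.Quotient.eq_zero_iff_mem.mpr (Ideal.mem_span_singleton_self π)
        rw [h0, mul_zero, zero_add]
      have hunit : IsUnit (algebraMap (R ⧸ Ideal.span {π}) (Localization.AtPrime P)
          (Ideal.Quotient.mk (Ideal.span {π}) c)) :=
        IsLocalization.map_units (Localization.AtPrime P) (⟨_, hcP⟩ : P.primeCompl)
      rw [Ideal.mem_comap, Ideal.submodule_span_eq, Ideal.mem_span_singleton']
      obtain ⟨u, hu⟩ := hunit
      refine ⟨↑u⁻¹ * algebraMap _ _ (Ideal.Quotient.mk (Ideal.span {π}) b), ?_⟩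
      have h2 := congrArg (algebraMap (R ⧸ Ideal.span {π}) (Localization.AtPrime P)) h1
      rw [map_mul, map_mul, ← hu] at h2
      rw [mul_assoc, ← h2, ← mul_assoc, Units.inv_mul, one_mul]
    · rw [Ideal.submodule_span_eq, Ideal.span_singleton_le_iff_mem]
      exact Ideal.mem_map_of_mem _ htn
  have htfae := (tfae_of_isNoetherianRing_of_isLocalRing_of_isDomain
    (R := Localization.AtPrime P)).out 4 3
  exact (htfae.mp hprinc).1

end Fermat.Agent.S18.NorOfIgusa
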