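import Fermat.Agent.S18.ArithPlan
import Fermat.Agent.S18.NorOfIgusa

/-!
# S18, [ARITH] leaf [Nor]

`norStatement N : Arith.NorStatement N` : for a chart `R` with `ChartFacts` and the Igusa
statement `IgusaAt`, the ideal `π R` is prime and the special fibre `R / π` is integrally closed.

Reusable by-products (for [Loc] and [Final]):
* `isNoetherianRing_chart` : a chart with `ChartFacts` over a DVR is a noetherian ring;
* `piIdeal_eq_span` : `piIdeal = (π)` for a uniformizer `π`;
* `isPrime_piIdeal` : `piIdeal` is prime (kernel of the reduction map into the field `k((q))`).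
-/

set_option autoImplicit false

namespace Fermat.Agent.S18.Nor

open Fermat.Agent.S18 Fermat.Agent.S18.Arith ModularCurve

section Abstract

variable {O E : Type*} [CommRing O] [IsNoetherianRing O] [CommRing E] [Algebra O E]

/-- `O[t]` is noetherian. -/
theorem isNoetherianRing_adjoin_singleton (t : E) :
    IsNoetherianRing (Algebra.adjoin O {t}) := by
  have hBfg : (Algebra.adjoin O ({t} : Set E)).FG := ⟨{t}, by simp⟩
  have : Algebra.FiniteType O (Algebra.adjoin O ({t} : Set E)) :=
    (Subalgebra.fg_iff_finiteType _).mp hBfg
  exact Algebra.FiniteType.isNoetherianRing O _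

/-- A subalgebra `R ∋ t` contained in a finitely generated `O[t]`-submodule is a noetherian
ring. -/
theorem isNoetherianRing_of_subset_span (R : Subalgebra O E) (t : E) (ht : t ∈ R)
    (hfin : ∃ s : Finset E, (R : Set E) ⊆ Submodule.span (Algebra.adjoin O {t}) (s : Set E)) :
    IsNoetherianRing R := by
  have hP : IsNoetherianRing (Algebra.adjoin O {t}) := isNoetherianRing_adjoin_singleton t
  obtain ⟨s, hs⟩ := hfin
  have hPR : Algebra.adjoin O {t} ≤ R := Algebra.adjoin_le (Set.singleton_subset_iff.mpr ht)
  -- `R` as an `O[t]`-submodule of `E`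
  let RB : Submodule (Algebra.adjoin O {t}) E :=
    { carrier := R
      add_mem' := fun {x y} hx hy => R.add_mem hx hy
      zero_mem' := R.zero_mem
      smul_mem' := fun c x hx => by
        have hc : (c : E) ∈ R := hPR c.2
        have h1 : c • x = (c : E) * x := by rw [Subalgebra.smul_def, smul_eq_mul]
        rw [h1]
        exact R.mul_mem hc hx }
  have hle : RB ≤ Submodule.span (Algebra.adjoin O {t}) (s : Set E) := fun x hx => hs hx
  have hnoethSpan : IsNoetherian (Algebra.adjoin O {t})
      (Submodule.span (Algebra.adjoin O {t}) (s : Set E)) :=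
    isNoetherian_of_fg_of_noetherian _ (Submodule.fg_span s.finite_toSet)
  have hnoethRB : IsNoetherian (Algebra.adjoin O {t}) RB :=
    isNoetherian_of_injective (Submodule.inclusion hle) (Submodule.inclusion_injective hle)
  -- transport to `R`
  let _ : Algebra (Algebra.adjoin O {t}) R := (Subalgebra.inclusion hPR).toRingHom.toAlgebra
  let f : R →ₗ[Algebra.adjoin O {t}] RB :=
    { toFun := fun x => ⟨(x : E), x.2⟩
      map_add' := fun x y => rfl
      map_smul' := fun c x => by
        apply Subtype.ext
        show ((c • x : R) : E) = (c • (⟨(x : E), x.2⟩ : RB) : RB)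
        rw [Algebra.smul_def]
        rfl }
  have hf : Function.Injective f := fun x y hxy => Subtype.ext (congrArg Subtype.val hxy)
  have h1 : IsNoetherian (Algebra.adjoin O {t}) R := isNoetherian_of_injective f hf
  exact isNoetherian_of_tower (Algebra.adjoin O {t}) h1

end Abstract

variable {N : ℕ} {A : ValuationSubring Qb} {K : IntermediateField ℚ Qb}

/-- A chart with `ChartFacts` over a discrete valuation ring is a noetherian ring. -/
theorem isNoetherianRing_chart (hdvr : IsDiscreteValuationRing (OK A K))
    {R : Subalgebra (OK A K) (FK N K)} {t : FK N K} (hC : ChartFacts N A K R t) :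
    IsNoetherianRing R :=
  have := hdvr
  isNoetherianRing_of_subset_span R t hC.t_mem hC.fin

/-- `𝔪_O R = π R` for a uniformizer `π` of `O`. -/
theorem piIdeal_eq_span [IsDiscreteValuationRing (OK A K)] (R : Subalgebra (OK A K) (FK N K))
    {π : OK A K} (hπ : Irreducible π) :
    piIdeal N A K R = Ideal.span {algebraMap (OK A K) R π} := by
  rw [piIdeal, hπ.maximalIdeal_eq, Ideal.map_span, Set.image_singleton]

/-- `𝔪_O R` is a prime ideal: it is the kernel of the reduction map into `k((q))`. -/
theorem isPrime_piIdeal {R : Subalgebra (OK A K) (FK N K)} {t : FK N K}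
    (hC : ChartFacts N A K R t) : (piIdeal N A K R).IsPrime := by
  obtain ⟨ρ, -, hker, -⟩ := hC.red
  rw [← hker]
  exact RingHom.ker_isPrime ρ

/-- `π R` is a prime ideal for a uniformizer `π` of `O`. -/
theorem isPrime_span [IsDiscreteValuationRing (OK A K)] {R : Subalgebra (OK A K) (FK N K)}
    {t : FK N K} (hC : ChartFacts N A K R t) {π : OK A K} (hπ : Irreducible π) :
    (Ideal.span {algebraMap (OK A K) R π}).IsPrime := by
  rw [← piIdeal_eq_span R hπ]
  exact isPrime_piIdeal hC

/-- **[Nor]** -/
theorem norStatement (N : ℕ) : Arith.NorStatement N := by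
  intro A K hdvr R t hC hI π hπ
  have := hdvr
  have : IsNoetherianRing R := isNoetherianRing_chart hdvr hC
  have hprime : (Ideal.span {algebraMap (OK A K) R π}).IsPrime := isPrime_span hC hπ
  exact ⟨hprime, NorOfIgusa.isIntegrallyClosed_quotient_of_igusa (algebraMap (OK A K) R π) hprime
    (fun n hn hπn => hI π hπ n hn hπn)⟩

end Fermat.Agent.S18.Nor
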