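/-
S18, block [ARITH]/[Sep] glue (helper69): the char-`ℓ` function field
`F_k = modularFunctionFieldFullC k N ⊂ k((q))` is finite over `k(j̄)` (any field `k`).
Separability over `k(j̄)` is proved here from the statement of leaf P6 (`SepLaurent.lean`) as a
hypothesis; `SepDegSep.lean` discharges it.

Also: generic transfer lemmas between "`x` over `k(t)` inside `L`" and "`x` over `k(t)` inside an
intermediate field `F ∋ t`".
-/
import Fermat.Agent.S28.FieldEmb
import Fermat.Agent.S28.HeckeMain

set_option autoImplicit false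

noncomputable section

namespace Fermat.Agent.S18.SepDeg

open ModularCurve IntermediateField Polynomial

section Transfer

variable {k L : Type*} [Field k] [Field L] [Algebra k L] (F : IntermediateField k L)
  (t : L) (ht : t ∈ F)

include ht in
theorem adjoin_simple_le : adjoin k {t} ≤ F :=
  adjoin_le_iff.mpr (Set.singleton_subset_iff.mpr ht)

theorem map_adjoin_simple : (adjoin k {(⟨t, ht⟩ : ↥F)}).map F.val = adjoin k {t} := by
  rw [adjoin_map, Set.image_singleton]
  rfl

theorem mem_adjoin_simple_iff (c : ↥F) :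
    c ∈ adjoin k {(⟨t, ht⟩ : ↥F)} ↔ (c : L) ∈ adjoin k {t} := by
  rw [← map_adjoin_simple F t ht, IntermediateField.mem_map]
  constructor
  · intro h
    exact ⟨c, h, rfl⟩
  · rintro ⟨c', hc', hcc'⟩
    have : c' = c := Subtype.ext hcc'
    exact this ▸ hc'

/-- The identification `k(t) ⊂ L` → `k(t) ⊂ F`. -/
def toInner : ↥(adjoin k {t}) →+* ↥(adjoin k {(⟨t, ht⟩ : ↥F)}) where
  toFun c := ⟨⟨(c : L), adjoin_simple_le F t ht c.2⟩, (mem_adjoin_simple_iff F t ht _).mpr c.2⟩
  map_one' := rfl
  map_mul' _ _ := rfl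
  map_zero' := rfl
  map_add' _ _ := rfl

@[simp]
theorem coe_toInner (c : ↥(adjoin k {t})) : (((toInner F t ht c : ↥(adjoin k {(⟨t, ht⟩ : ↥F)})) : ↥F) : L)
    = (c : L) := rfl

/-- Evaluating the transported polynomial at `x : F` and pushing to `L`. -/
theorem val_aeval_map_toInner (x : ↥F) (p : Polynomial ↥(adjoin k {t})) :
    ((Polynomial.aeval x (p.map (toInner F t ht)) : ↥F) : L) = Polynomial.aeval (x : L) p := by
  rw [Polynomial.aeval_def, Polynomial.eval₂_map, Polynomial.aeval_def]
  have h := Polynomial.hom_eval₂ p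
    ((algebraMap ↥(adjoin k {(⟨t, ht⟩ : ↥F)}) ↥F).comp (toInner F t ht)) (F.val : ↥F →+* L) x
  exact h.trans rfl

theorem isIntegral_inner {x : ↥F} (hx : IsIntegral ↥(adjoin k {t}) (x : L)) :
    IsIntegral ↥(adjoin k {(⟨t, ht⟩ : ↥F)}) x := by
  obtain ⟨p, hp, hpx⟩ := hx
  refine ⟨p.map (toInner F t ht), hp.map _, ?_⟩
  have h := val_aeval_map_toInner F t ht x p
  rw [Polynomial.aeval_def (x : L) p, hpx] at h
  rw [← Polynomial.aeval_def]
  exact Subtype.ext h

theorem isSeparable_inner {x : ↥F}
    (hs : IsSeparable ↥(adjoin k {t}) (x : L)) :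
    IsSeparable ↥(adjoin k {(⟨t, ht⟩ : ↥F)}) x := by
  have hq : (minpoly ↥(adjoin k {t}) (x : L)).map (toInner F t ht) |>.Separable :=
    Polynomial.Separable.map hs
  have h0 : Polynomial.aeval x ((minpoly ↥(adjoin k {t}) (x : L)).map (toInner F t ht)) = 0 := by
    apply Subtype.ext
    rw [val_aeval_map_toInner, minpoly.aeval]
    rfl
  exact hq.of_dvd (minpoly.dvd _ x h0)

end Transfer

section Full

variable (k : Type*) [Field k] (N : ℕ) [NeZero N]

/-- `j̄` as an element of the function field `F_k`. -/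
def jb : ↥(modularFunctionFieldFullC k N) := ⟨jqModC k, jqModC_mem_full k N⟩

omit [NeZero N] in
@[simp] theorem coe_jb : ((jb k N : ↥(modularFunctionFieldFullC k N)) : LaurentSeries k) = jqModC k :=
  rfl

omit [NeZero N] in
theorem divisorExpansionsC_one : divisorExpansionsC k 1 = {jqModC k} := by
  ext x
  constructor
  · rintro ⟨d, hd, hd1, rfl⟩
    have : d = 1 := Nat.dvd_one.mp hd1
    subst this
    rw [qExpand_one_apply]
    rfl
  · rintro rfl
    refine ⟨1, ⟨one_ne_zero⟩, dvd_rfl, ?_⟩
    rw [qExpand_one_apply]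

theorem fullC_one_eq : modularFunctionFieldFullC k 1 = adjoin k {jqModC k} := by
  unfold modularFunctionFieldFullC
  rw [divisorExpansionsC_one]

omit [NeZero N] in
theorem finite_divisorExpansionsC (hN : N ≠ 0) : (divisorExpansionsC k N).Finite := by
  refine Set.Finite.subset ((N.divisors : Set ℕ).toFinite.image (fun d => Fermat.Agent.S28.jd k d)) ?_
  rintro x ⟨d, hd, hdN, rfl⟩
  refine ⟨d, ?_, ?_⟩
  · exact Finset.mem_coe.mpr (Nat.mem_divisors.mpr ⟨hdN, hN⟩)
  · exact Fermat.Agent.S28.jd_eq k d

omit [NeZero N] in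
/-- Every element of `F_k` is algebraic over `k(j̄) ⊂ k((q))`. -/
theorem isAlgebraic_over_j (x : LaurentSeries k) (hx : x ∈ modularFunctionFieldFullC k N) :
    IsAlgebraic ↥(adjoin k {jqModC k}) x := by
  have h := Fermat.Agent.S28.isAlgebraic_fullC k
    (fun r hr => Fermat.Agent.S28.exists_heckeData r hr) N x hx
  have key : ∀ (E1 E2 : IntermediateField k (LaurentSeries k)), E1 = E2 →
      IsAlgebraic ↥E1 x → IsAlgebraic ↥E2 x := by
    rintro E1 E2 rfl h
    exact h
  exact key _ _ (fullC_one_eq k) h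

omit [NeZero N] in
/-- Every element of `F_k` is integral over `k(j̄)` (inside `F_k`). -/
theorem isIntegral_over_jb (x : ↥(modularFunctionFieldFullC k N)) :
    IsIntegral ↥(adjoin k {jb k N}) x :=
  isIntegral_inner (modularFunctionFieldFullC k N) (jqModC k) (jqModC_mem_full k N)
    (isAlgebraic_over_j k N x x.2).isIntegral

set_option synthInstance.maxHeartbeats 400000 in
set_option maxHeartbeats 1000000 in
/-- **(hfd)** `F_k` is finite over `k(j̄)`. -/
theorem finiteDimensional_full :
    FiniteDimensional ↥(adjoin k {jb k N}) ↥(modularFunctionFieldFullC k N) := by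
  classical
  -- the finite generating set inside `F_k`
  let S' : Set ↥(modularFunctionFieldFullC k N) := {x | (x : LaurentSeries k) ∈ divisorExpansionsC k N}
  have hS'fin : S'.Finite := by
    refine Set.Finite.preimage ?_ (finite_divisorExpansionsC k N (NeZero.ne N))
    exact Subtype.val_injective.injOn
  have himg : ((modularFunctionFieldFullC k N).val :
      ↥(modularFunctionFieldFullC k N) → LaurentSeries k) '' S' = divisorExpansionsC k N := by
    ext x
    constructor
    · rintro ⟨y, hy, rfl⟩
      exact hy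
    · intro hx
      exact ⟨⟨x, subset_adjoin k _ hx⟩, hx, rfl⟩
  have htop : adjoin k S' = ⊤ := by
    apply IntermediateField.map_injective (modularFunctionFieldFullC k N).val
    rw [adjoin_map, himg, ← AlgHom.fieldRange_eq_map, IntermediateField.fieldRange_val]
    rfl
  have htop' : adjoin ↥(adjoin k {jb k N}) S' = ⊤ := by
    apply IntermediateField.restrictScalars_injective k
    rw [IntermediateField.restrictScalars_top, eq_top_iff, ← htop, restrictScalars_adjoin]
    exact adjoin.mono k _ _ Set.subset_union_right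
  have : Finite S' := hS'fin.to_subtype
  have hfin : FiniteDimensional ↥(adjoin k {jb k N}) ↥(adjoin ↥(adjoin k {jb k N}) S') :=
    finiteDimensional_adjoin fun x _ => isIntegral_over_jb k N x
  rw [htop'] at hfin
  exact Module.Finite.equiv (IntermediateField.topEquiv (F := ↥(adjoin k {jb k N}))
    (E := ↥(modularFunctionFieldFullC k N))).toLinearEquiv

end Full

section Sep

variable (k : Type*) [Field k]

/-- The statement of leaf P6 (`SepLaurent.isSeparable_of_mem_laurent`), as a `Prop`. -/
def SepLaurentStatement (p : ℕ) : Prop :=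
  ∀ t : LaurentSeries k, ¬ (p : ℤ) ∣ t.order → t ≠ 0 → ∀ x : LaurentSeries k,
    IsAlgebraic ↥(adjoin k {t}) x → IsSeparable ↥(adjoin k {t}) x

theorem order_jqModC : (jqModC k).order = -1 := by
  have hne : jqModC k ≠ 0 := jqModC_ne_zero_of_nontrivial k
  apply le_antisymm
  · refine HahnSeries.order_le_of_coeff_ne_zero ?_
    rw [coeff_jqModC_neg_one]
    exact one_ne_zero
  · by_contra hlt
    rw [not_le] at hlt
    exact hne (HahnSeries.coeff_order_eq_zero.mp (coeff_jqModC_of_lt k hlt))

variable (N : ℕ) [NeZero N]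

omit [NeZero N] in
/-- **(hsep)**, from P6: `F_k` is separable over `k(j̄)`. -/
theorem isSeparable_full_of (ℓ : ℕ) (hℓ : ℓ.Prime) (hP6 : SepLaurentStatement k ℓ) :
    Algebra.IsSeparable ↥(adjoin k {jb k N}) ↥(modularFunctionFieldFullC k N) := by
  refine ⟨fun x => ?_⟩
  have hord : ¬ ((ℓ : ℤ) ∣ (jqModC k).order) := by
    rw [order_jqModC, Int.dvd_neg]
    intro h
    have h1 : ℓ ∣ 1 := by exact_mod_cast h
    exact hℓ.one_lt.ne' (Nat.dvd_one.mp h1)
  exact isSeparable_inner (modularFunctionFieldFullC k N) (jqModC k) (jqModC_mem_full k N)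
    (hP6 (jqModC k) hord (jqModC_ne_zero_of_nontrivial k) x (isAlgebraic_over_j k N x x.2))

end Sep

end Fermat.Agent.S18.SepDeg
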