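import Mathlib
import Fermat.Agent.S18.IgusaInst
import Fermat.Agent.S18.IgusaBridgeS
import Fermat.Agent.S18.JNot
import Fermat.Agent.S18.SepDeg
import Fermat.Agent.S18.BaseRes
import Fermat.Agent.S18.Nor

/-!
# S18 team library, block [IGUSA] T8 (C3): the vertical input at a chart

OWNER: helper55 (only the owner edits this file).

`vertInput_chart` : for a chart with coordinate `t = j` or `t = j⁻¹` and `ChartFacts`, the
vertical input `IgusaTop.VertInput` of the abstract Igusa theorem holds for the instance package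
`IgusaInst.ChartF`.  The reduction map `ρ` of `ChartFacts.red`, transported along
`IgusaInst.chartEquiv`, is fed to the abstract bridge `IgusaBridgeS.vertInput_of_red`:
its kernel is `(π)`, it is `C ∘ resO` on constants and `ρ t = j̄^{±1}` has order `∓1`.
-/

set_option autoImplicit false

noncomputable section

namespace Fermat.Agent.S18.ChartVert

open Polynomial ModularCurve Fermat.Agent.S18.Arith Fermat.Agent.S18.IgusaInst

variable (N : ℕ) [NeZero N] (ℓ : ℕ) [Fact ℓ.Prime]
variable (A : ValuationSubring Qb) (K : IntermediateField ℚ Qb)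

omit [Fact ℓ.Prime] in
/-- The residue map `O → k` is onto (from `BaseFacts.res_surj`). -/
theorem resO_surjective_of (hB : BaseFacts ℓ A K) : Function.Surjective (resO A K) := by
  intro b
  obtain ⟨a, rfl⟩ := IsLocalRing.residue_surjective b
  obtain ⟨x, hx, hax⟩ := hB.res_surj a
  exact ⟨⟨x, ValuationSubring.mem_comap.mpr hx⟩, hax.symm⟩

omit [NeZero N] in
/-- A constant `o ∈ O`, viewed in `F_K ⊆ ℚ̄((q))`, is Gauss-integral with reduction the constant
`resO o`. -/
theorem gRel_const (hG : ModelPlan.GRelStatement) (o : OK A K) :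
    GRel A ((algebraMap (OK A K) (FK N K) o : FK N K) : LaurentSeries Qb)
      (HahnSeries.C (resO A K o)) := by
  have h := (hG A).of_int (HahnSeries.C (⟨incO A K o, o.2⟩ : A))
  have h1 : coeffMap A.subtype (HahnSeries.C (⟨incO A K o, o.2⟩ : A)) =
      ((algebraMap (OK A K) (FK N K) o : FK N K) : LaurentSeries Qb) := by
    show coeffMap A.subtype (HahnSeries.single 0 (⟨incO A K o, o.2⟩ : A)) = _
    rw [coeffMap_single]
    rfl
  have h2 : coeffMap (IsLocalRing.residue A) (HahnSeries.C (⟨incO A K o, o.2⟩ : A)) =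
      HahnSeries.C (resO A K o) := by
    show coeffMap (IsLocalRing.residue A) (HahnSeries.single 0 (⟨incO A K o, o.2⟩ : A)) = _
    rw [coeffMap_single]
    rfl
  rw [h1, h2] at h
  exact h

/-- `ℓ` does not divide `±1`. -/
theorem not_dvd_of_sq_eq_one {z : ℤ} (hz : z = -1 ∨ z = 1) : ¬ (ℓ : ℤ) ∣ z := by
  have hℓ : ℓ.Prime := Fact.out
  intro h
  have h1 : (ℓ : ℤ) ∣ 1 := by
    rcases hz with rfl | rfl
    · exact (Int.dvd_neg).mp h
    · exact h
  have h2 : ℓ ∣ 1 := by exact_mod_cast h1
  exact hℓ.one_lt.ne' (Nat.dvd_one.mp h2)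

/-- **(C3)** the vertical input at a chart. -/
theorem vertInput_chart (hG : ModelPlan.GRelStatement) (hB : BaseFacts ℓ A K)
    (hA : A.LiesOverPrime ℓ) (t : FK N K) (ht : t = jK N K ∨ t = (jK N K)⁻¹)
    [FaithfulSMul (OK A K)[X] (ChartF N K t)]
    [FiniteDimensional (FractionRing (OK A K)[X]) (ChartF N K t)]
    (hC : ChartFacts N A K (chart N A K t) t) (π : OK A K) (hπ : Irreducible π) :
    IgusaTop.VertInput (FractionRing (OK A K)[X]) (ChartF N K t) π := by
  have := hB.dvr
  have : CharP (IsLocalRing.ResidueField A) ℓ := BaseRes.charP_residueField ℓ A hA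
  have : IsAlgClosed (IsLocalRing.ResidueField A) := BaseRes.isAlgClosed_residueField_Qb A
  obtain ⟨ρ, hρ, hker, -⟩ := hC.red
  set e := chartEquiv N A K t with he
  set ρ' : integralClosure (OK A K)[X] (ChartF N K t) →+*
      LaurentSeries (IsLocalRing.ResidueField A) := ρ.comp e.symm.toRingHom with hρ'
  have hρ'e : ∀ z, ρ' (e z) = ρ z := fun z => by
    show ρ (e.symm (e z)) = ρ z
    rw [e.symm_apply_apply]
  -- the kernel
  have hker' : RingHom.ker ρ' = Ideal.span
      {algebraMap (OK A K)[X] (integralClosure (OK A K)[X] (ChartF N K t)) (C π)} := by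
    ext z
    rw [RingHom.mem_ker, Ideal.mem_span_singleton]
    show ρ (e.symm z) = 0 ↔ _
    rw [← RingHom.mem_ker, hker, Nor.piIdeal_eq_span _ hπ, Ideal.mem_span_singleton]
    constructor
    · rintro ⟨a, ha⟩
      refine ⟨e a, ?_⟩
      rw [← chartEquiv_algebraMap, ← map_mul, ← ha, e.apply_symm_apply]
    · rintro ⟨b, hb⟩
      refine ⟨e.symm b, ?_⟩
      apply e.injective
      rw [map_mul, e.apply_symm_apply, e.apply_symm_apply, chartEquiv_algebraMap, hb]
  -- constants
  have hρC : ∀ o : OK A K,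
      ρ' (algebraMap (OK A K)[X] (integralClosure (OK A K)[X] (ChartF N K t)) (C o)) =
        HahnSeries.C (resO A K o) := by
    intro o
    rw [← chartEquiv_algebraMap, hρ'e]
    exact (hG A).unique _ _ _ (hρ _) (gRel_const N A K hG o)
  -- the coordinate
  have hX : algebraMap (OK A K)[X] (integralClosure (OK A K)[X] (ChartF N K t)) X =
      e ⟨t, Model.self_mem_chart N A K t⟩ := by
    apply Subtype.ext
    show algebraMap (OK A K)[X] (ChartF N K t) X = t
    rw [algebraMap_chartF_X]
  have hjne : jqModC (IsLocalRing.ResidueField A) ≠ 0 := JNot.jqModC_ne_zero _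
  have hjrel := JNot.gRel_jK hG N A K
  have hρt : ρ ⟨t, Model.self_mem_chart N A K t⟩ = jqModC (IsLocalRing.ResidueField A) ∨
      ρ ⟨t, Model.self_mem_chart N A K t⟩ = (jqModC (IsLocalRing.ResidueField A))⁻¹ := by
    rcases ht with rfl | rfl
    · exact Or.inl ((hG A).unique _ _ _ (hρ _) hjrel)
    · exact Or.inr ((hG A).unique _ _ _ (hρ _) ((hG A).inv _ _ hjrel hjne))
  have hord : (jqModC (IsLocalRing.ResidueField A)).order = -1 := SepDeg.order_jqModC _
  have hρX0 : ρ' (algebraMap (OK A K)[X] (integralClosure (OK A K)[X] (ChartF N K t)) X) ≠ 0 := by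
    rw [hX, hρ'e]
    rcases hρt with h | h
    · rw [h]; exact hjne
    · rw [h]; exact inv_ne_zero hjne
  have hρX : ¬ (ℓ : ℤ) ∣
      (ρ' (algebraMap (OK A K)[X] (integralClosure (OK A K)[X] (ChartF N K t)) X)).order := by
    rw [hX, hρ'e]
    apply not_dvd_of_sq_eq_one
    rcases hρt with h | h
    · left; rw [h, hord]
    · right
      rw [h]
      have h1 : (jqModC (IsLocalRing.ResidueField A) *
          (jqModC (IsLocalRing.ResidueField A))⁻¹).order = 0 := by
        rw [mul_inv_cancel₀ hjne]; exact HahnSeries.order_one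
      rw [HahnSeries.order_mul hjne (inv_ne_zero hjne), hord] at h1
      linarith
  exact IgusaBridgeS.vertInput_of_red (FractionRing (OK A K)[X]) (ChartF N K t) π hπ ℓ
    (resO A K) (resO_surjective_of ℓ A K hB) ρ' hker' hρC hρX0 hρX

end Fermat.Agent.S18.ChartVert
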