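/-
S18 — GRel.lean (helper7): block [GRel] of the arithmetic half.

The calculus of the Gauss relation `Arith.GRel A x y`
("`x ∈ ℚ̄((q))` is Gauss-integral for the valuation subring `A`, with reduction `y ∈ k((q))`"):
`G_A = {x | ∃ y, GRel A x y}` is a local subring of `ℚ̄((q))` and `x ↦ y` is a well defined ring
homomorphism onto `k((q))`.

Main result: `gRelStatement : ModelPlan.GRelStatement`.
-/
import Fermat.Agent.S18.ModelPlan

set_option autoImplicit false

noncomputable section

namespace Fermat.Agent.S18.GRel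

open ModularCurve HahnSeries Fermat.Agent.S18.Arith Fermat.Agent.S18.ModelPlan

variable (A : ValuationSubring Qb)

/-- Coefficientwise inclusion `A((q)) → ℚ̄((q))` is injective. -/
theorem coeffMap_subtype_injective :
    Function.Injective (coeffMap A.subtype : LaurentSeries A → LaurentSeries Qb) := by
  intro X Y h
  ext n
  have h1 := congrArg (fun z : LaurentSeries Qb => z.coeff n) h
  simpa using h1

/-- Coefficientwise reduction `A((q)) → k((q))` is surjective. -/
theorem coeffMap_residue_surjective :
    Function.Surjective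
      (coeffMap (IsLocalRing.residue A) :
        LaurentSeries A → LaurentSeries (IsLocalRing.ResidueField A)) := by
  classical
  intro y
  have hs : Function.Surjective (IsLocalRing.residue A) := IsLocalRing.residue_surjective
  let g : ZeroHom (IsLocalRing.ResidueField A) A :=
    { toFun := fun c => if c = 0 then 0 else Function.surjInv hs c
      map_zero' := by simp }
  have hg : ∀ c, IsLocalRing.residue A (g c) = c := by
    intro c
    change IsLocalRing.residue A (if c = 0 then 0 else Function.surjInv hs c) = c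
    split_ifs with h
    · rw [h, map_zero]
    · exact Function.surjInv_eq hs c
  refine ⟨y.map g, ?_⟩
  ext n
  rw [coeffMap_coeff, HahnSeries.map_coeff]
  exact hg _

/-- A series all of whose coefficients lie in `A` comes from `A((q))`. -/
theorem exists_coeffMap_subtype_eq (x : LaurentSeries Qb) (hx : ∀ n, x.coeff n ∈ A) :
    ∃ X : LaurentSeries A, coeffMap A.subtype X = x := by
  refine ⟨⟨fun n => ⟨x.coeff n, hx n⟩, x.isPWO_support.mono ?_⟩, ?_⟩
  · intro n hn
    simp only [Function.mem_support, ne_eq] at hn ⊢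
    intro h0
    exact hn (Subtype.ext h0)
  · ext n
    rfl

theorem gRel_of_int (X : LaurentSeries A) :
    GRel A (coeffMap A.subtype X) (coeffMap (IsLocalRing.residue A) X) :=
  ⟨1, X, map_one _, by rw [map_one, mul_one], rfl⟩

theorem gRel_unique (x : LaurentSeries Qb) (y y' : LaurentSeries (IsLocalRing.ResidueField A))
    (h : GRel A x y) (h' : GRel A x y') : y = y' := by
  obtain ⟨u, p, hu, hx, hp⟩ := h
  obtain ⟨u', p', hu', hx', hp'⟩ := h'
  have h1 : coeffMap A.subtype (p * u') = coeffMap A.subtype (p' * u) := by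
    rw [map_mul, map_mul, ← hx, ← hx']
    ring
  have h2 := coeffMap_subtype_injective A h1
  have h3 := congrArg (coeffMap (IsLocalRing.residue A)) h2
  rw [map_mul, map_mul, hu, hu', hp, hp', mul_one, mul_one] at h3
  exact h3

theorem gRel_add (x x' : LaurentSeries Qb) (y y' : LaurentSeries (IsLocalRing.ResidueField A))
    (h : GRel A x y) (h' : GRel A x' y') : GRel A (x + x') (y + y') := by
  obtain ⟨u, p, hu, hx, hp⟩ := h
  obtain ⟨u', p', hu', hx', hp'⟩ := h'
  refine ⟨u * u', p * u' + p' * u, ?_, ?_, ?_⟩
  · rw [map_mul, hu, hu', mul_one]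
  · rw [map_mul, map_add, map_mul, map_mul, ← hx, ← hx']
    ring
  · rw [map_add, map_mul, map_mul, hu, hu', hp, hp', mul_one, mul_one]

theorem gRel_mul (x x' : LaurentSeries Qb) (y y' : LaurentSeries (IsLocalRing.ResidueField A))
    (h : GRel A x y) (h' : GRel A x' y') : GRel A (x * x') (y * y') := by
  obtain ⟨u, p, hu, hx, hp⟩ := h
  obtain ⟨u', p', hu', hx', hp'⟩ := h'
  refine ⟨u * u', p * p', ?_, ?_, ?_⟩
  · rw [map_mul, hu, hu', mul_one]
  · rw [map_mul, map_mul, ← hx, ← hx']
    ring
  · rw [map_mul, hp, hp']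

theorem gRel_neg (x : LaurentSeries Qb) (y : LaurentSeries (IsLocalRing.ResidueField A))
    (h : GRel A x y) : GRel A (-x) (-y) := by
  obtain ⟨u, p, hu, hx, hp⟩ := h
  refine ⟨u, -p, hu, ?_, ?_⟩
  · rw [map_neg, ← hx, neg_mul]
  · rw [map_neg, hp]

theorem gRel_inv (x : LaurentSeries Qb) (y : LaurentSeries (IsLocalRing.ResidueField A))
    (h : GRel A x y) (hy : y ≠ 0) : GRel A x⁻¹ y⁻¹ := by
  obtain ⟨u, p, hu, hx, hp⟩ := h
  obtain ⟨v, hv⟩ := coeffMap_residue_surjective A y⁻¹
  have hx0 : x ≠ 0 := by
    rintro rfl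
    rw [zero_mul] at hx
    have hp0 : p = 0 := coeffMap_subtype_injective A (by rw [← hx, map_zero])
    apply hy
    rw [← hp, hp0, map_zero]
  refine ⟨p * v, u * v, ?_, ?_, ?_⟩
  · rw [map_mul, hp, hv, mul_inv_cancel₀ hy]
  · rw [map_mul, map_mul, ← hx, ← mul_assoc, ← mul_assoc, inv_mul_cancel₀ hx0, one_mul]
  · rw [map_mul, hu, hv, one_mul]

/-- **[GRel]** the calculus of the Gauss relation. -/
theorem gRelStatement : ModelPlan.GRelStatement := fun A =>
  { of_int := gRel_of_int A
    unique := gRel_unique A
    add := gRel_add A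
    mul := gRel_mul A
    neg := gRel_neg A
    inv := gRel_inv A }

end Fermat.Agent.S18.GRel
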