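/-
S18 — DescCoeff.lean (helper18): the [ARITH] leaves [Coeff] and [Desc] of `ArithPlan.lean`.

* `coeffStatement N` : elements of `F_K = FK N K` have all their `q`-expansion coefficients in `K`
  (`F_K` is contained in the image of `K((q))`).
* `descStatement N` : every element of `F̄ = modularFunctionFieldBar N` lies in `F_K` as soon as
  `K` contains a suitable finite set of constants; and `F_K ⊆ F̄`.
-/
import Mathlib
import Fermat.Agent.S18.ArithPlan

set_option autoImplicit false

namespace Fermat.Agent.S18.DescCoeff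

open ModularCurve HahnSeries Fermat.Agent.S18.Arith

/-! ### [Coeff] -/

/-- `F_K` is contained in the image of `K((q))` in `ℚ̄((q))`. -/
theorem FK_le_fieldRange (N : ℕ) (K : IntermediateField ℚ Qb) :
    FK N K ≤ (coeffMap (algebraMap K Qb)).fieldRange := by
  unfold FK
  rw [Subfield.closure_le]
  rintro x (⟨c, rfl⟩ | ⟨y, rfl⟩)
  · refine ⟨HahnSeries.C c, ?_⟩
    change coeffMap (algebraMap K Qb) (HahnSeries.single 0 c) = HahnSeries.single 0 (c : Qb)
    rw [coeffMap_single]
    rfl
  · refine ⟨coeffMap (algebraMap ℚ K) (y : LaurentSeries ℚ), ?_⟩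
    rw [coeffMap_coeffMap]
    exact coeffMap_congr (RingHom.ext fun c => (IsScalarTower.algebraMap_apply ℚ K Qb c).symm) _

/-- **[Coeff]** elements of `F_K` have coefficients in `K`. -/
theorem coeffStatement (N : ℕ) : CoeffStatement N := by
  intro K x hx n
  obtain ⟨y, rfl⟩ := FK_le_fieldRange N K hx
  rw [coeffMap_coeff]
  exact (y.coeff n).2

/-! ### [Desc] -/

/-- `F_K ⊆ F̄`. -/
theorem FK_le_bar (N : ℕ) (K : IntermediateField ℚ Qb) :
    FK N K ≤ (modularFunctionFieldBar N).toSubfield := by
  unfold FK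
  rw [Subfield.closure_le]
  rintro x (⟨c, rfl⟩ | ⟨y, rfl⟩)
  · have h : (HahnSeries.C (c : Qb) : LaurentSeries Qb)
        = algebraMap Qb (LaurentSeries Qb) (c : Qb) := by
      rw [algebraMap_laurentSeries_eq_single]
      rfl
    change (HahnSeries.C (c : Qb) : LaurentSeries Qb) ∈ modularFunctionFieldBar N
    rw [h]
    exact (modularFunctionFieldBar N).algebraMap_mem _
  · exact coeffEmb_mem_laurentBaseChange Qb y.2

/-- **[Desc]** every element of `F̄` lies in `F_K` for `K` large enough; and `F_K ⊆ F̄`. -/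
theorem descStatement (N : ℕ) : DescStatement N := by
  classical
  refine ⟨fun x hx => ?_, fun K x hx => FK_le_bar N K hx⟩
  induction hx using IntermediateField.adjoin_induction with
  | mem x hx =>
    obtain ⟨y, hy, rfl⟩ := hx
    exact ⟨∅, fun K _ => Subfield.subset_closure (Or.inr ⟨⟨y, hy⟩, rfl⟩)⟩
  | algebraMap c =>
    refine ⟨{c}, fun K hK => ?_⟩
    have hc : c ∈ K := hK (by simp)
    have h : algebraMap Qb (LaurentSeries Qb) c
        = (HahnSeries.C (((⟨c, hc⟩ : K) : Qb)) : LaurentSeries Qb) := by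
      rw [algebraMap_laurentSeries_eq_single]
      rfl
    rw [h]
    exact Subfield.subset_closure (Or.inl ⟨⟨c, hc⟩, rfl⟩)
  | add x y _ _ hx hy =>
    obtain ⟨S, hS⟩ := hx
    obtain ⟨T, hT⟩ := hy
    refine ⟨S ∪ T, fun K hK => ?_⟩
    rw [Finset.coe_union] at hK
    exact add_mem (hS K (Set.subset_union_left.trans hK)) (hT K (Set.subset_union_right.trans hK))
  | inv x _ hx =>
    obtain ⟨S, hS⟩ := hx
    exact ⟨S, fun K hK => inv_mem (hS K hK)⟩
  | mul x y _ _ hx hy =>
    obtain ⟨S, hS⟩ := hx
    obtain ⟨T, hT⟩ := hy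
    refine ⟨S ∪ T, fun K hK => ?_⟩
    rw [Finset.coe_union] at hK
    exact mul_mem (hS K (Set.subset_union_left.trans hK)) (hT K (Set.subset_union_right.trans hK))

end Fermat.Agent.S18.DescCoeff
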