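import Mathlib
import Fermat.Agent.S24.ModAssembly
import Fermat.Agent.S24.AnEmb
import Fermat.Agent.S24.AnEmbCusp
import Fermat.Agent.S24.AnRoots

/-!
# S18 team library, block [IGUSA] A-H: horizontal embeddings from the S24 data

OWNER: helper39 (only the owner edits this file).

For a cover `x ↦ j = Num(x)/Den(x)` of the `j`-line (Legendre, Hesse, Kummer) and a point
`x₀ ∈ ℚ̄` of the cover we produce a power series `Λ(s) = x₀ + s·u(s)`, `u(0) ≠ 0`, and
`|QN N| = ψ(N)` pairwise distinct ring homs `ι q : F_N → ℂ((s))` over `embC : ℚ̄ → ℂ` such that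
`Num(Λ) = ι q (j) · Den(Λ)`; i.e. `x ↦ Λ`, `F_N ∋ f ↦ ι q f` define `ψ(N)` distinct homs
`F_N[x]/(Num − j·Den) → ℂ((s))` over the local embedding `K[x]_(x - x₀) → ℂ[[s]]`, `x ↦ Λ`.

The root extraction (leaf P7, `RootExt.exists_powerSeries_root`) enters as the hypothesis
`RootHyp`, so that this file only depends on the landed S24 library.
-/

set_option autoImplicit false

namespace Fermat.Agent.S18.HorS24

open Polynomial Fermat.Agent.S24
open scoped MatrixGroups

/-- The conclusion of leaf P7 (`RootExt.exists_powerSeries_root`) for the data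
`(Num, Den, a, x₀, e, g)`. -/
def RootHyp (Num Den : ℂ[X]) (a x₀ : ℂ) (e : ℕ) : Prop :=
  ∀ T : PowerSeries ℂ, T.order = e →
    ∃ Λ : PowerSeries ℂ, PowerSeries.constantCoeff Λ = x₀ ∧ PowerSeries.coeff 1 Λ ≠ 0 ∧
      aeval Λ Num = (PowerSeries.C a + T) * aeval Λ Den

/-- A Laurent series of order `e ≥ 0`, `e : ℕ`, nonzero, is a power series of order `e`. -/
theorem exists_powerSeries_of_order_eq {T : LaurentSeries ℂ} {e : ℕ} (hT0 : T ≠ 0)
    (hT : T.order = (e : ℤ)) :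
    ∃ T₀ : PowerSeries ℂ, HahnSeries.ofPowerSeries ℤ ℂ T₀ = T ∧ T₀.order = e := by
  refine ⟨PowerSeries.X ^ e * T.powerSeriesPart, ?_, ?_⟩
  · exact LaurentSeries.X_order_mul_powerSeriesPart hT.symm
  · have h1 : HahnSeries.ofPowerSeries ℤ ℂ (PowerSeries.X ^ e * T.powerSeriesPart) = T :=
      LaurentSeries.X_order_mul_powerSeriesPart hT.symm
    have hne : PowerSeries.X ^ e * T.powerSeriesPart ≠ 0 := by
      intro h0
      rw [h0, map_zero] at h1
      exact hT0 h1.symm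
    rw [← AnRoots.order_ofPowerSeries_eq_iff hne, h1, hT]

section Generic

variable {K F : Type*} [Field K] [Field F] [Algebra K F]
variable {X : Type*} {G : Type*} [Group G] [MulAction G X]

/-- **Generic horizontal family.** From an embedding datum for `t` of index `e` and a point `x₀`
of a cover `t = Num(x)/Den(x)` at which `Num` vanishes to order exactly `e` (and `Den` does not
vanish): a uniformising parametrisation `Λ` of the cover at `x₀` compatible with all the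
embeddings of the datum. -/
theorem exists_family_of_datum (φ : K →+* ℂ) (t : F) (e : ℕ) (he : 0 < e) (g : G)
    (h : EmbDatum φ X t e g) (Num Den : K[X]) (x₀ : K)
    (hroot : RootHyp (Num.map φ) (Den.map φ) 0 (φ x₀) e) :
    ∃ (Λ : PowerSeries ℂ) (ι : X → F →+* LaurentSeries ℂ),
      PowerSeries.constantCoeff Λ = φ x₀ ∧ PowerSeries.coeff 1 Λ ≠ 0 ∧ Function.Injective ι ∧
      (∀ x b, ι x (algebraMap K F b) = HahnSeries.C (φ b)) ∧
      ∀ x, HahnSeries.ofPowerSeries ℤ ℂ (aeval Λ (Num.map φ)) =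
        ι x t * HahnSeries.ofPowerSeries ℤ ℂ (aeval Λ (Den.map φ)) := by
  obtain ⟨ι, hinj, hφ, T, hT, hTe, -⟩ := h
  have hT0 : T ≠ 0 := by
    rintro rfl
    rw [HahnSeries.order_zero] at hTe
    have : (e : ℤ) = 0 := hTe.symm
    omega
  obtain ⟨T₀, hT₀, hT₀e⟩ := exists_powerSeries_of_order_eq hT0 hTe
  obtain ⟨Λ, hΛ0, hΛ1, hΛ⟩ := hroot T₀ hT₀e
  refine ⟨Λ, ι, hΛ0, hΛ1, hinj, hφ, fun x => ?_⟩
  rw [hΛ, map_zero, zero_add, map_mul, hT₀, hT x]

end Generic

section Modular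

variable (N : ℕ) [NeZero N]

open Classical in
/-- The ramification index of `j` over the value `a` in characteristic zero. -/
noncomputable def eJ (a : Kb) : ℕ := if a = 0 then 3 else if a = 1728 then 2 else 1

theorem eJ_zero : eJ (0 : Kb) = 3 := by
  unfold eJ
  rw [if_pos rfl]

theorem eJ_1728 : eJ (1728 : Kb) = 2 := by
  unfold eJ
  rw [if_neg (by norm_num), if_pos rfl]

theorem eJ_of_ne {a : Kb} (h0 : a ≠ 0) (h1 : a ≠ 1728) : eJ a = 1 := by
  unfold eJ
  rw [if_neg h0, if_neg h1]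

theorem eJ_pos (a : Kb) : 0 < eJ a := by
  by_cases h0 : a = 0
  · rw [h0, eJ_zero]; norm_num
  by_cases h1 : a = 1728
  · rw [h1, eJ_1728]; norm_num
  · rw [eJ_of_ne h0 h1]; norm_num

/-- The embedding datum of S24 over an arbitrary finite value `j = a`. -/
theorem exists_datum (a : Kb) :
    ∃ g : SL(2, ℤ), EmbDatum embC (QN N) (jF N - algebraMap Kb (FN N) a) (eJ a) g := by
  by_cases h0 : a = 0
  · subst h0
    refine ⟨ModularGroup.S * ModularGroup.T, ?_⟩
    rw [eJ_zero]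
    exact datum_rho (hasTaylorEmb N _)
  by_cases h1 : a = 1728
  · subst h1
    refine ⟨ModularGroup.S, ?_⟩
    rw [eJ_1728]
    exact datum_i (hasTaylorEmb N _)
  · refine ⟨1, ?_⟩
    rw [eJ_of_ne h0 h1]
    exact datum_generic (fun z₀ => hasTaylorEmb N z₀) a h0 h1

/-- **Horizontal family over a finite value of `j`.** `x₀` a point of the cover
`j = Num(x)/Den(x)` with `Den(x₀) ≠ 0`, `a = j(x₀)`, at which `j(x) - a` vanishes to order
exactly `eJ a` (`= 3, 2, 1` for `a = 0`, `a = 1728`, otherwise). -/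
theorem exists_family_fin (Num Den : Kb[X]) (x₀ a : Kb)
    (hroot : RootHyp (Num.map embC) (Den.map embC) (embC a) (embC x₀) (eJ a)) :
    ∃ (Λ : PowerSeries ℂ) (ι : QN N → FN N →+* LaurentSeries ℂ),
      PowerSeries.constantCoeff Λ = embC x₀ ∧ PowerSeries.coeff 1 Λ ≠ 0 ∧ Function.Injective ι ∧
      (∀ q b, ι q (algebraMap Kb (FN N) b) = HahnSeries.C (embC b)) ∧
      ∀ q, HahnSeries.ofPowerSeries ℤ ℂ (aeval Λ (Num.map embC)) =
        ι q (jF N) * HahnSeries.ofPowerSeries ℤ ℂ (aeval Λ (Den.map embC)) := by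
  obtain ⟨g, hdat⟩ := exists_datum N a
  obtain ⟨ι, hinj, hφ, T, hT, hTe, -⟩ := hdat
  have hT0 : T ≠ 0 := by
    rintro rfl
    rw [HahnSeries.order_zero] at hTe
    have h1 := eJ_pos a
    have : ((eJ a : ℕ) : ℤ) = 0 := hTe.symm
    omega
  obtain ⟨T₀, hT₀, hT₀e⟩ := exists_powerSeries_of_order_eq hT0 hTe
  obtain ⟨Λ, hΛ0, hΛ1, hΛ⟩ := hroot T₀ hT₀e
  refine ⟨Λ, ι, hΛ0, hΛ1, hinj, hφ, fun q => ?_⟩
  have hj : ι q (jF N) = HahnSeries.C (embC a) + T := by
    rw [← hT q, map_sub, hφ]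
    ring
  rw [hΛ, map_mul, map_add, hT₀, HahnSeries.ofPowerSeries_C, hj]

/-- **Horizontal family over `j = ∞`.** `x₀` a point of a cover `j⁻¹ = Num(x)/Den(x)` with
`Den(x₀) ≠ 0` at which `Num` vanishes to order exactly `N` (Kummer chart: `Num = X ^ N`,
`Den = 1`, `x₀ = 0`). -/
theorem exists_family_cusp (Num Den : Kb[X]) (x₀ : Kb)
    (hroot : RootHyp (Num.map embC) (Den.map embC) 0 (embC x₀) N) :
    ∃ (Λ : PowerSeries ℂ) (ι : QN N → FN N →+* LaurentSeries ℂ),
      PowerSeries.constantCoeff Λ = embC x₀ ∧ PowerSeries.coeff 1 Λ ≠ 0 ∧ Function.Injective ι ∧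
      (∀ q b, ι q (algebraMap Kb (FN N) b) = HahnSeries.C (embC b)) ∧
      ∀ q, HahnSeries.ofPowerSeries ℤ ℂ (aeval Λ (Num.map embC)) =
        ι q (jF N)⁻¹ * HahnSeries.ofPowerSeries ℤ ℂ (aeval Λ (Den.map embC)) :=
  exists_family_of_datum embC (jF N)⁻¹ N (Nat.pos_of_ne_zero (NeZero.ne N)) ModularGroup.T
    (datum_cusp (hasCuspEmb N)) Num Den x₀ hroot

end Modular

end Fermat.Agent.S18.HorS24
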