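import Mathlib

/-!
# S18 team library, block [IGUSA] A-H: evaluating polynomials at a uniformising power series

OWNER: helper39 (only the owner edits this file).

`Λ ∈ ℂ[[s]]` with `Λ(0) = c` and `Λ'(0) ≠ 0`.  Then `p ↦ p(Λ)` is an injective ring hom
`ℂ[X] → ℂ[[s]]` with `ord_s p(Λ) = ` multiplicity of the root `c` of `p`.  In particular it
extends to the local ring of the affine line at `c`, sends a separable polynomial vanishing at `c`
to a uniformiser, and polynomials not vanishing at `c` to units.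
-/

set_option autoImplicit false

namespace Fermat.Agent.S18.HorEval

open Polynomial

variable {Λ : PowerSeries ℂ} {c : ℂ}

theorem constantCoeff_aeval (Λ : PowerSeries ℂ) (p : ℂ[X]) :
    PowerSeries.constantCoeff (aeval Λ p) = p.eval (PowerSeries.constantCoeff Λ) := by
  induction p using Polynomial.induction_on' with
  | add p q hp hq => rw [map_add, map_add, hp, hq, eval_add]
  | monomial n a =>
    rw [aeval_monomial, map_mul, map_pow, eval_monomial]
    congr 1

theorem order_sub_C (h0 : PowerSeries.constantCoeff Λ = c) (h1 : PowerSeries.coeff 1 Λ ≠ 0) :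
    (Λ - PowerSeries.C c).order = 1 := by
  have : ((1 : ℕ) : ℕ∞) = 1 := rfl
  rw [← this, PowerSeries.order_eq_nat]
  refine ⟨?_, fun i hi => ?_⟩
  · rw [map_sub, PowerSeries.coeff_C, if_neg one_ne_zero, sub_zero]
    exact h1
  · have hi0 : i = 0 := by omega
    subst hi0
    rw [PowerSeries.coeff_zero_eq_constantCoeff_apply, map_sub, h0, PowerSeries.constantCoeff_C,
      sub_self]

theorem order_aeval_of_eval_ne_zero (h0 : PowerSeries.constantCoeff Λ = c) {q : ℂ[X]}
    (hq : q.eval c ≠ 0) : (aeval Λ q).order = 0 := by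
  apply PowerSeries.order_zero_of_unit
  rw [PowerSeries.isUnit_iff_constantCoeff, constantCoeff_aeval, h0]
  exact isUnit_iff_ne_zero.mpr hq

/-- `ord_s p(Λ)` is the multiplicity of the root `c = Λ(0)` of `p`. -/
theorem order_aeval (h0 : PowerSeries.constantCoeff Λ = c) (h1 : PowerSeries.coeff 1 Λ ≠ 0)
    {p : ℂ[X]} (hp : p ≠ 0) : (aeval Λ p).order = (p.rootMultiplicity c : ℕ∞) := by
  obtain ⟨q, hpq, hq⟩ := exists_eq_pow_rootMultiplicity_mul_and_not_dvd p hp c
  have hq' : q.eval c ≠ 0 := fun h => hq (dvd_iff_isRoot.mpr h)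
  conv_lhs => rw [hpq]
  rw [map_mul, map_pow, map_sub, aeval_X, aeval_C, PowerSeries.order_mul, PowerSeries.order_pow,
    order_aeval_of_eval_ne_zero h0 hq', add_zero]
  have : (algebraMap ℂ (PowerSeries ℂ)) c = PowerSeries.C c := rfl
  rw [this, order_sub_C h0 h1]
  simp

theorem aeval_ne_zero (h0 : PowerSeries.constantCoeff Λ = c) (h1 : PowerSeries.coeff 1 Λ ≠ 0)
    {p : ℂ[X]} (hp : p ≠ 0) : aeval Λ p ≠ 0 := by
  intro h
  have h2 := order_aeval h0 h1 hp
  rw [h, PowerSeries.order_zero] at h2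
  exact ENat.top_ne_natCast _ h2

theorem aeval_injective (h0 : PowerSeries.constantCoeff Λ = c) (h1 : PowerSeries.coeff 1 Λ ≠ 0) :
    Function.Injective (aeval (R := ℂ) Λ) := by
  rw [injective_iff_map_eq_zero]
  intro p hp
  by_contra hne
  exact aeval_ne_zero h0 h1 hne hp

theorem isUnit_aeval_iff (h0 : PowerSeries.constantCoeff Λ = c) {p : ℂ[X]} :
    IsUnit (aeval Λ p) ↔ p.eval c ≠ 0 := by
  rw [PowerSeries.isUnit_iff_constantCoeff, constantCoeff_aeval, h0, isUnit_iff_ne_zero]

/-- A separable polynomial vanishing at `c` is sent to a uniformiser. -/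
theorem order_aeval_of_separable (h0 : PowerSeries.constantCoeff Λ = c)
    (h1 : PowerSeries.coeff 1 Λ ≠ 0) {p : ℂ[X]} (hp : p.Separable) (hc : p.eval c = 0) :
    (aeval Λ p).order = 1 := by
  have hp0 : p ≠ 0 := hp.ne_zero
  rw [order_aeval h0 h1 hp0]
  have h2 : p.rootMultiplicity c ≤ 1 := rootMultiplicity_le_one_of_separable hp c
  have h3 : 0 < p.rootMultiplicity c := (rootMultiplicity_pos hp0).mpr hc
  have h4 : p.rootMultiplicity c = 1 := by omega
  rw [h4]
  rfl

section Field

variable {K : Type*} [Field K] (φ : K →+* ℂ)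

/-- The evaluation hom `K[X] → ℂ[[s]]`, `p ↦ p^φ(Λ)`. -/
noncomputable def evalHom (Λ : PowerSeries ℂ) : K[X] →+* PowerSeries ℂ :=
  (aeval (R := ℂ) Λ).toRingHom.comp (mapRingHom φ)

theorem evalHom_apply (Λ : PowerSeries ℂ) (p : K[X]) : evalHom φ Λ p = aeval Λ (p.map φ) := rfl

theorem evalHom_C (Λ : PowerSeries ℂ) (a : K) : evalHom φ Λ (C a) = PowerSeries.C (φ a) := by
  rw [evalHom_apply, map_C, aeval_C]
  rfl

theorem evalHom_X (Λ : PowerSeries ℂ) : evalHom φ Λ (X : K[X]) = Λ := by
  rw [evalHom_apply, map_X, aeval_X]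

theorem evalHom_injective (h0 : PowerSeries.constantCoeff Λ = c)
    (h1 : PowerSeries.coeff 1 Λ ≠ 0) : Function.Injective (evalHom φ Λ) := by
  intro p q hpq
  rw [evalHom_apply, evalHom_apply] at hpq
  exact map_injective φ φ.injective (aeval_injective h0 h1 hpq)

theorem isUnit_evalHom_iff (h0 : PowerSeries.constantCoeff Λ = c) {p : K[X]} :
    IsUnit (evalHom φ Λ p) ↔ (p.map φ).eval c ≠ 0 := by
  rw [evalHom_apply, isUnit_aeval_iff h0]

/-- An irreducible polynomial over `K` (characteristic zero) with `p^φ(c) = 0` is sent to a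
uniformiser of `ℂ[[s]]`. -/
theorem order_evalHom_of_irreducible (h0 : PowerSeries.constantCoeff Λ = c)
    (h1 : PowerSeries.coeff 1 Λ ≠ 0) {p : K[X]} (hp : Irreducible p)
    (hc : (p.map φ).eval c = 0) : (evalHom φ Λ p).order = 1 := by
  haveI : CharZero K := RingHom.charZero φ
  rw [evalHom_apply]
  exact order_aeval_of_separable h0 h1 (hp.separable.map) hc

/-- Extension of the evaluation hom to any fraction field of `K[X]` (e.g. `RatFunc K`). -/
theorem exists_fractionRing_lift (h0 : PowerSeries.constantCoeff Λ = c)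
    (h1 : PowerSeries.coeff 1 Λ ≠ 0) (E : Type*) [Field E] [Algebra K[X] E]
    [IsFractionRing K[X] E] :
    ∃ εE : E →+* LaurentSeries ℂ, ∀ p : K[X],
      εE (algebraMap K[X] E p) = HahnSeries.ofPowerSeries ℤ ℂ (evalHom φ Λ p) := by
  have hinj : Function.Injective
      ((HahnSeries.ofPowerSeries ℤ ℂ).comp (evalHom φ Λ) : K[X] →+* LaurentSeries ℂ) :=
    (HahnSeries.ofPowerSeries_injective).comp (evalHom_injective φ h0 h1)
  exact ⟨IsFractionRing.lift hinj, fun p => IsFractionRing.lift_algebraMap hinj p⟩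

end Field

end Fermat.Agent.S18.HorEval
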