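import Mathlib
import Fermat.Agent.S18.HorEval

/-!
# S18 team library, block [IGUSA] A-H: homs out of `F'[x]/(Num − j·Den)`

OWNER: helper39 (only the owner edits this file).

Mathlib-only wiring between the horizontal families of `HorS24.lean` and leaf P4 (`HEmb`):
* `injective_comp`: a family of ring homs `ι x : F → Ω`, pairwise distinct and agreeing on a
  subfield `Kb`, stays pairwise distinct on any subfield `F'` with `Kb · F' = F`;
* `exists_adjoinRoot_homs`: the induced homs `σ x : F'[x]/(Num − j·Den) → ℂ((s))`, `x ↦ Λ`,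
  pairwise distinct, restricting on `K'[x]` to the evaluation hom `HorEval.evalHom φ' Λ`.
-/

set_option autoImplicit false

namespace Fermat.Agent.S18.HorTot

open Polynomial

/-- A pairwise distinct family of ring homs out of a field `F`, all agreeing on the range of
`κ : Kb → F`, stays pairwise distinct after restriction along `ρ : F' → F` as soon as `F` is
generated as a field by the ranges of `ρ` and `κ`. -/
theorem injective_comp {Kb F F' Ω X : Type*} [Field Kb] [Field F] [Field F'] [Field Ω]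
    (κ : Kb →+* F) (ρ : F' →+* F)
    (hgen : Subfield.closure (Set.range ρ ∪ Set.range κ) = ⊤)
    (ι : X → F →+* Ω) (hinj : Function.Injective ι)
    (hκ : ∀ (x y : X) (b : Kb), ι x (κ b) = ι y (κ b)) :
    Function.Injective (fun x => (ι x).comp ρ) := by
  intro x y hxy
  apply hinj
  have hle : Subfield.closure (Set.range ρ ∪ Set.range κ) ≤ (ι x).eqLocusField (ι y) := by
    rw [Subfield.closure_le]
    rintro f (⟨f', rfl⟩ | ⟨b, rfl⟩)
    · exact congrArg (fun g : F' →+* Ω => g f') hxy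
    · exact hκ x y b
  rw [hgen] at hle
  ext f
  exact hle (Subfield.mem_top f)

section AdjoinRoot

variable {K' F' : Type*} [Field K'] [Field F'] [Algebra K' F'] (φ' : K' →+* ℂ)
variable (Num Den : K'[X]) (j' : F')

/-- The polynomial `Num − j·Den ∈ F'[x]` of a cover `j = Num(x)/Den(x)`. -/
noncomputable def coverPoly : F'[X] :=
  Num.map (algebraMap K' F') - C j' * Den.map (algebraMap K' F')

variable {Num Den j'}

/-- evaluating `p ∈ K'[x]` (viewed in `F'[x]`) along `τ`, `x ↦ Λ` is the evaluation hom -/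
theorem eval₂_map_eq {Λ : PowerSeries ℂ} (τ : F' →+* LaurentSeries ℂ)
    (hτK : ∀ b, τ (algebraMap K' F' b) = HahnSeries.C (φ' b)) (p : K'[X]) :
    (p.map (algebraMap K' F')).eval₂ τ (HahnSeries.ofPowerSeries ℤ ℂ Λ) =
      HahnSeries.ofPowerSeries ℤ ℂ (aeval Λ (p.map φ')) := by
  rw [eval₂_map]
  induction p using Polynomial.induction_on' with
  | add p q hp hq => rw [eval₂_add, hp, hq, Polynomial.map_add, map_add, map_add]
  | monomial n a =>
    rw [eval₂_monomial, map_monomial, aeval_monomial, map_mul, map_pow, RingHom.comp_apply, hτK]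
    congr 1
    exact (HahnSeries.ofPowerSeries_C (Γ := ℤ) (φ' a)).symm

theorem eval₂_coverPoly {Λ : PowerSeries ℂ} (τ : F' →+* LaurentSeries ℂ)
    (hτK : ∀ b, τ (algebraMap K' F' b) = HahnSeries.C (φ' b))
    (hrel : HahnSeries.ofPowerSeries ℤ ℂ (aeval Λ (Num.map φ')) =
      τ j' * HahnSeries.ofPowerSeries ℤ ℂ (aeval Λ (Den.map φ'))) :
    (coverPoly Num Den j').eval₂ τ (HahnSeries.ofPowerSeries ℤ ℂ Λ) = 0 := by
  rw [coverPoly, eval₂_sub, eval₂_mul, eval₂_C, eval₂_map_eq φ' τ hτK, eval₂_map_eq φ' τ hτK,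
    hrel, sub_self]

/-- **Homs out of `F'[x]/(Num − j·Den)`.** -/
theorem exists_adjoinRoot_homs {X : Type*} (Λ : PowerSeries ℂ)
    (τ : X → F' →+* LaurentSeries ℂ) (hτ : Function.Injective τ)
    (hτK : ∀ x b, τ x (algebraMap K' F' b) = HahnSeries.C (φ' b))
    (hrel : ∀ x, HahnSeries.ofPowerSeries ℤ ℂ (aeval Λ (Num.map φ')) =
      τ x j' * HahnSeries.ofPowerSeries ℤ ℂ (aeval Λ (Den.map φ'))) :
    ∃ σ : X → AdjoinRoot (coverPoly Num Den j') →+* LaurentSeries ℂ,
      Function.Injective σ ∧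
      (∀ x f, σ x (AdjoinRoot.of (coverPoly Num Den j') f) = τ x f) ∧
      (∀ x, σ x (AdjoinRoot.root (coverPoly Num Den j')) = HahnSeries.ofPowerSeries ℤ ℂ Λ) ∧
      ∀ x (p : K'[X]), σ x (AdjoinRoot.mk (coverPoly Num Den j') (p.map (algebraMap K' F'))) =
        HahnSeries.ofPowerSeries ℤ ℂ (HorEval.evalHom φ' Λ p) := by
  classical
  let σ : X → AdjoinRoot (coverPoly Num Den j') →+* LaurentSeries ℂ := fun x =>
    AdjoinRoot.lift (τ x) (HahnSeries.ofPowerSeries ℤ ℂ Λ) (eval₂_coverPoly φ' (τ x) (hτK x) (hrel x))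
  have hof : ∀ x f, σ x (AdjoinRoot.of (coverPoly Num Den j') f) = τ x f := fun x f =>
    AdjoinRoot.lift_of _
  have hroot : ∀ x, σ x (AdjoinRoot.root (coverPoly Num Den j')) = HahnSeries.ofPowerSeries ℤ ℂ Λ :=
    fun x => AdjoinRoot.lift_root _
  refine ⟨σ, ?_, hof, hroot, ?_⟩
  · intro x y hxy
    apply hτ
    ext f
    rw [← hof x f, ← hof y f, hxy]
  · intro x p
    show AdjoinRoot.lift (τ x) _ _ (AdjoinRoot.mk _ _) = _
    rw [AdjoinRoot.lift_mk, HorEval.evalHom_apply]
    exact eval₂_map_eq φ' (τ x) (hτK x) p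

end AdjoinRoot

end Fermat.Agent.S18.HorTot
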