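import Mathlib
import Fermat.Agent.S18.HorS24
import Fermat.Agent.S18.HorTot

/-!
# S18 team library, block [IGUSA] A-H: hypothesis (H) of the abstract Igusa theorem from S24

OWNER: helper39 (only the owner edits this file).

`F'` is any field with a ring hom `ρ : F' → F_N = modularFunctionFieldBar N` such that `F_N` is
generated as a field by `ρ(F')` and `ℚ̄` (e.g. `F' = F_K = K·F_ℚ` for a subfield `K ⊂ ℚ̄`).
For every algebraic number `a ∈ ℂ` we produce a power series `T` of order `e` and `ψ(N)` pairwise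
distinct ring homs `ι i : F' → ℂ((s))` which are `embC` on constants and send (the preimage of) `j`
to `a + T`:
* `hypH_fin`      : chart `y = j`:  `e = eC a` (`= 3, 2, 1` for `a = 0`, `a = 1728`, otherwise);
* `hypH_inf_zero` : chart `y = 1/j` at `a = 0`: `e = N`;
* `hypH_inf_ne`   : chart `y = 1/j` at `a ≠ 0`, `1728·a ≠ 1`: `e = 1`.
-/

set_option autoImplicit false

namespace Fermat.Agent.S18.HorHyp

open Polynomial Fermat.Agent.S24 ModularCurve
open scoped MatrixGroups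

/-- Every complex number algebraic over `ℚ` is in the range of `embC`. -/
theorem exists_embC_eq_of_isAlgebraic (z : ℂ) (hz : IsAlgebraic ℚ z) : ∃ b : Kb, embC b = z := by
  have hsp : ((minpoly ℚ z).map (algebraMap ℚ Kb)).Splits := IsAlgClosed.splits _
  have hroots := hsp.roots_map embC
  have hmap : ((minpoly ℚ z).map (algebraMap ℚ Kb)).map embC =
      (minpoly ℚ z).map (algebraMap ℚ ℂ) := by
    rw [Polynomial.map_map]
    congr 1
    exact RingHom.ext_rat _ _
  have hne : (minpoly ℚ z).map (algebraMap ℚ ℂ) ≠ 0 :=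
    (Polynomial.map_ne_zero_iff (algebraMap ℚ ℂ).injective).mpr (minpoly.ne_zero hz.isIntegral)
  have hz' : z ∈ ((minpoly ℚ z).map (algebraMap ℚ ℂ)).roots := by
    rw [mem_roots hne, IsRoot.def, eval_map_algebraMap]
    exact minpoly.aeval ℚ z
  rw [← hmap, hroots, Multiset.mem_map] at hz'
  obtain ⟨b, -, hb⟩ := hz'
  exact ⟨b, hb⟩

open Classical in
/-- The ramification index of `j` over the value `a ∈ ℂ`. -/
noncomputable def eC (a : ℂ) : ℕ := if a = 0 then 3 else if a = 1728 then 2 else 1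

theorem eC_zero : eC 0 = 3 := by
  unfold eC
  rw [if_pos rfl]

theorem eC_1728 : eC 1728 = 2 := by
  unfold eC
  rw [if_neg (by norm_num), if_pos rfl]

theorem eC_of_ne {a : ℂ} (h0 : a ≠ 0) (h1 : a ≠ 1728) : eC a = 1 := by
  unfold eC
  rw [if_neg h0, if_neg h1]

theorem eC_pos (a : ℂ) : 0 < eC a := by
  by_cases h0 : a = 0
  · rw [h0, eC_zero]; norm_num
  by_cases h1 : a = 1728
  · rw [h1, eC_1728]; norm_num
  · rw [eC_of_ne h0 h1]; norm_num

theorem eC_embC (a : Kb) : eC (embC a) = HorS24.eJ a := by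
  by_cases h0 : a = 0
  · rw [h0, map_zero, eC_zero, HorS24.eJ_zero]
  by_cases h1 : a = 1728
  · have : embC (1728 : Kb) = 1728 := map_ofNat embC 1728
    rw [h1, this, eC_1728, HorS24.eJ_1728]
  · have h0' : embC a ≠ 0 := fun h => h0 (embC_injective (by rw [h, map_zero]))
    have h1' : embC a ≠ 1728 := fun h => h1 (embC_injective (by
      rw [h]; exact (map_ofNat embC 1728).symm))
    rw [eC_of_ne h0' h1', HorS24.eJ_of_ne h0 h1]

variable (N : ℕ) [NeZero N] {F' : Type*} [Field F'] (ρ : F' →+* FN N)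

/-- Transport of a coset-indexed family on `F_N` to a `Fin n`-indexed family on `F'`. -/
theorem exists_fin_family
    (hgen : Subfield.closure (Set.range ρ ∪ Set.range (algebraMap Kb (FN N))) = ⊤)
    (n : ℕ) (hn : n = dedekindPsi N)
    (ι₀ : QN N → FN N →+* LaurentSeries ℂ) (hinj : Function.Injective ι₀)
    (hφ : ∀ q b, ι₀ q (algebraMap Kb (FN N) b) = HahnSeries.C (embC b)) :
    ∃ ι : Fin n → (F' →+* LaurentSeries ℂ), Function.Injective ι ∧
      ∀ i, ∃ q, ι i = (ι₀ q).comp ρ := by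
  have hcard : Nat.card (QN N) = n := by rw [hn]; exact Fermat.Agent.S20.card_Q N
  haveI : Finite (QN N) := CosetOrbits.finite_quot N
  let e : QN N ≃ Fin n := Finite.equivFinOfCardEq hcard
  have hinj' := HorTot.injective_comp (algebraMap Kb (FN N)) ρ hgen ι₀ hinj
    (fun x y b => by rw [hφ x b, hφ y b])
  exact ⟨fun i => (ι₀ (e.symm i)).comp ρ, fun i k hik => e.symm.injective (hinj' hik),
    fun i => ⟨e.symm i, rfl⟩⟩

/-- **Hypothesis (H), chart `y = j`.** -/
theorem hypH_fin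
    (hgen : Subfield.closure (Set.range ρ ∪ Set.range (algebraMap Kb (FN N))) = ⊤)
    (n : ℕ) (hn : n = dedekindPsi N) (a : ℂ) (ha : IsAlgebraic ℚ a) :
    ∃ T : PowerSeries ℂ, T.order = eC a ∧
      ∃ ι : Fin n → (F' →+* LaurentSeries ℂ), Function.Injective ι ∧
        (∀ i f b, ρ f = algebraMap Kb (FN N) b → ι i f = HahnSeries.C (embC b)) ∧
        (∀ i f, ρ f = jF N → ι i f = HahnSeries.ofPowerSeries ℤ ℂ (PowerSeries.C a + T)) := by
  obtain ⟨a', rfl⟩ := exists_embC_eq_of_isAlgebraic a ha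
  obtain ⟨g, ι₀, hinj, hφ, T, hT, hTe, -⟩ := HorS24.exists_datum N a'
  have hT0 : T ≠ 0 := by
    rintro rfl
    rw [HahnSeries.order_zero] at hTe
    have h1 := HorS24.eJ_pos a'
    have : ((HorS24.eJ a' : ℕ) : ℤ) = 0 := hTe.symm
    omega
  obtain ⟨T₀, hT₀, hT₀e⟩ := HorS24.exists_powerSeries_of_order_eq hT0 hTe
  obtain ⟨ι, hι, hιq⟩ := exists_fin_family N ρ hgen n hn ι₀ hinj hφ
  refine ⟨T₀, by rw [hT₀e, eC_embC], ι, hι, fun i f b hf => ?_, fun i f hf => ?_⟩
  · obtain ⟨q, hq⟩ := hιq i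
    rw [hq, RingHom.comp_apply, hf, hφ]
  · obtain ⟨q, hq⟩ := hιq i
    have hj : ι₀ q (jF N) = HahnSeries.C (embC a') + T := by
      rw [← hT q, map_sub, hφ]
      ring
    rw [hq, RingHom.comp_apply, hf, hj, map_add, hT₀, HahnSeries.ofPowerSeries_C]

/-- **Hypothesis (H), chart `y = 1/j`, at the cusps (`a = 0`).** -/
theorem hypH_inf_zero
    (hgen : Subfield.closure (Set.range ρ ∪ Set.range (algebraMap Kb (FN N))) = ⊤)
    (n : ℕ) (hn : n = dedekindPsi N) :
    ∃ T : PowerSeries ℂ, T.order = N ∧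
      ∃ ι : Fin n → (F' →+* LaurentSeries ℂ), Function.Injective ι ∧
        (∀ i f b, ρ f = algebraMap Kb (FN N) b → ι i f = HahnSeries.C (embC b)) ∧
        (∀ i f, ρ f = (jF N)⁻¹ → ι i f = HahnSeries.ofPowerSeries ℤ ℂ (PowerSeries.C 0 + T)) := by
  obtain ⟨ι₀, hinj, hφ, T, hT, hTe, -⟩ := datum_cusp (hasCuspEmb N)
  have hT0 : T ≠ 0 := by
    rintro rfl
    rw [HahnSeries.order_zero] at hTe
    have h1 := Nat.pos_of_ne_zero (NeZero.ne N)
    have : ((N : ℕ) : ℤ) = 0 := hTe.symm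
    omega
  obtain ⟨T₀, hT₀, hT₀e⟩ := HorS24.exists_powerSeries_of_order_eq hT0 hTe
  obtain ⟨ι, hι, hιq⟩ := exists_fin_family N ρ hgen n hn ι₀ hinj hφ
  refine ⟨T₀, hT₀e, ι, hι, fun i f b hf => ?_, fun i f hf => ?_⟩
  · obtain ⟨q, hq⟩ := hιq i
    rw [hq, RingHom.comp_apply, hf, hφ]
  · obtain ⟨q, hq⟩ := hιq i
    rw [hq, RingHom.comp_apply, hf, hT q, map_zero, zero_add, hT₀]

/-- inverse of `b + T'`, `b ≠ 0`, `ord T' = 1`, is `b⁻¹ + T` with `ord T = 1` -/
theorem exists_inv_eq (b : ℂ) (hb : b ≠ 0) (T' : PowerSeries ℂ) (hT' : T'.order = 1) :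
    ∃ T : PowerSeries ℂ, T.order = 1 ∧ (PowerSeries.C b + T') * (PowerSeries.C b⁻¹ + T) = 1 := by
  have hc : PowerSeries.constantCoeff (PowerSeries.C b + T') ≠ 0 := by
    have h0 : PowerSeries.constantCoeff T' = 0 := by
      rw [← PowerSeries.coeff_zero_eq_constantCoeff_apply]
      apply PowerSeries.coeff_of_lt_order
      rw [hT']
      exact zero_lt_one
    rw [map_add, PowerSeries.constantCoeff_C, h0, add_zero]
    exact hb
  have hinv := PowerSeries.mul_inv_cancel _ hc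
  refine ⟨(PowerSeries.C b + T')⁻¹ - PowerSeries.C b⁻¹, ?_, by rw [add_sub_cancel, hinv]⟩
  have h1 : (PowerSeries.C b + T') * ((PowerSeries.C b + T')⁻¹ - PowerSeries.C b⁻¹) =
      - (T' * PowerSeries.C b⁻¹) := by
    rw [mul_sub, hinv, add_mul, ← map_mul, mul_inv_cancel₀ hb, map_one]
    ring
  have h2 := congrArg PowerSeries.order h1
  rw [PowerSeries.order_mul, PowerSeries.order_neg, PowerSeries.order_mul, hT'] at h2
  have h3 : (PowerSeries.C b + T').order = 0 :=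
    PowerSeries.order_zero_of_unit (PowerSeries.isUnit_iff_constantCoeff.mpr
      (isUnit_iff_ne_zero.mpr hc))
  have h4 : (PowerSeries.C (b⁻¹ : ℂ)).order = 0 :=
    PowerSeries.order_zero_of_unit (PowerSeries.isUnit_iff_constantCoeff.mpr
      (isUnit_iff_ne_zero.mpr (by rw [PowerSeries.constantCoeff_C]; exact inv_ne_zero hb)))
  rw [h3, h4, zero_add, add_zero] at h2
  exact h2

/-- **Hypothesis (H), chart `y = 1/j`, away from the cusps** (`a ≠ 0`, `1/a ≠ 1728`). -/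
theorem hypH_inf_ne
    (hgen : Subfield.closure (Set.range ρ ∪ Set.range (algebraMap Kb (FN N))) = ⊤)
    (n : ℕ) (hn : n = dedekindPsi N) (a : ℂ) (ha : IsAlgebraic ℚ a) (ha0 : a ≠ 0)
    (ha1 : 1728 * a ≠ 1) :
    ∃ T : PowerSeries ℂ, T.order = 1 ∧
      ∃ ι : Fin n → (F' →+* LaurentSeries ℂ), Function.Injective ι ∧
        (∀ i f b, ρ f = algebraMap Kb (FN N) b → ι i f = HahnSeries.C (embC b)) ∧
        (∀ i f, ρ f = (jF N)⁻¹ → ι i f = HahnSeries.ofPowerSeries ℤ ℂ (PowerSeries.C a + T)) := by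
  have hb0 : a⁻¹ ≠ 0 := inv_ne_zero ha0
  have hb1 : a⁻¹ ≠ 1728 := by
    intro h
    apply ha1
    rw [← h, inv_mul_cancel₀ ha0]
  obtain ⟨T', hT'e, ι, hι, hιK, hιj⟩ := hypH_fin N ρ hgen n hn a⁻¹ ha.inv
  rw [eC_of_ne hb0 hb1, Nat.cast_one] at hT'e
  obtain ⟨T, hTe, hmul⟩ := exists_inv_eq a⁻¹ hb0 T' hT'e
  rw [inv_inv] at hmul
  refine ⟨T, hTe, ι, hι, hιK, fun i f hf => ?_⟩
  have hf0 : f ≠ 0 := by
    rintro rfl
    rw [map_zero] at hf
    have hj : jF N ≠ 0 := fun h => (transcendental_jF N) (by rw [h]; exact isAlgebraic_zero)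
    exact inv_ne_zero hj hf.symm
  have hfinv : ρ f⁻¹ = jF N := by rw [map_inv₀, hf, inv_inv]
  have h1 := hιj i f⁻¹ hfinv
  rw [map_inv₀] at h1
  have h2 : HahnSeries.ofPowerSeries ℤ ℂ (PowerSeries.C a⁻¹ + T') *
      HahnSeries.ofPowerSeries ℤ ℂ (PowerSeries.C a + T) = 1 := by
    rw [← map_mul, hmul, map_one]
  rw [← h1] at h2
  have h3 : ι i f ≠ 0 := (map_ne_zero (ι i)).mpr hf0
  field_simp at h2
  exact h2.symm

end Fermat.Agent.S18.HorHyp
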