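import Mathlib
import Fermat.Agent.S18.ArithPlan
import Fermat.Agent.S18.DescCoeff
import Fermat.Agent.S18.HorHyp
import Fermat.Agent.S24.AnDegree

/-!
# S18 team library: degree of `F_K / K(j)` and hypothesis (H) for `F_K`

OWNER: helper39 (only the owner edits this file).

For an arbitrary intermediate field `K` of `ℚ̄ / ℚ` and `F_K = FK N K` (`ArithPlan`):
* `toBar : F_K →+* F̄` (inclusion), `toBar_constK`, `toBar_jK`, `closure_toBar` (`F̄ = ℚ̄ · F_K`);
* `transcendental_jK`, `finiteDimensional_jK`, `finrank_jK : [F_K : K(j)] = ψ(N)`;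
* `finrank_of_range` : the same over any field `Ky` acting on `F_K` with range `K(j)`;
* `hypH_FK_fin`, `hypH_FK_inf_zero`, `hypH_FK_inf_ne` : hypothesis (H) of the abstract Igusa
  theorem for `F_K` (families of `ψ(N)` distinct embeddings `F_K → ℂ((s))`).
-/

set_option autoImplicit false

namespace Fermat.Agent.S18.DegFK

open ModularCurve ModularCurve.IgusaScheme Fermat.Agent.S24 Fermat.Agent.S18.Arith
  IntermediateField Polynomial

variable (N : ℕ) [NeZero N] (K : IntermediateField ℚ Qb)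

/-- The inclusion `F_K → F̄`. -/
noncomputable def toBar : ↥(FK N K) →+* FN N :=
  (FK N K).subtype.codRestrict (modularFunctionFieldBar N)
    (fun x => DescCoeff.FK_le_bar N K x.2)

@[simp] theorem coe_toBar (x : ↥(FK N K)) :
    ((toBar N K x : FN N) : LaurentSeries Qb) = (x : LaurentSeries Qb) := rfl

theorem toBar_constK (c : K) :
    toBar N K (constK N K c) = algebraMap Kb (FN N) (c : Qb) := by
  apply Subtype.ext
  show (HahnSeries.C (c : Qb) : LaurentSeries Qb) = algebraMap Qb (LaurentSeries Qb) (c : Qb)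
  rw [algebraMap_laurentSeries_eq_single]
  rfl

theorem toBar_jK : toBar N K (jK N K) = jF N := by
  apply Subtype.ext
  rfl

theorem toBar_injective : Function.Injective (toBar N K) := (toBar N K).injective

/-- `F̄` is generated as a field by `F_K` and `ℚ̄`. -/
theorem closure_toBar :
    Subfield.closure (Set.range (toBar N K) ∪ Set.range (algebraMap Kb (FN N))) = ⊤ := by
  rw [eq_top_iff]
  intro y _
  set S : Subfield (FN N) :=
    Subfield.closure (Set.range (toBar N K) ∪ Set.range (algebraMap Kb (FN N))) with hS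
  -- the image of `S` in `ℚ̄((q))` contains the generators of `F̄`
  have hle : Subfield.closure
      (Set.range (algebraMap Qb (LaurentSeries Qb)) ∪
        (⇑(coeffEmb Qb) '' (modularFunctionFieldFull N : Set (LaurentSeries ℚ)))) ≤
      S.map (modularFunctionFieldBar N).toSubfield.subtype := by
    rw [Subfield.closure_le]
    rintro z (⟨c, rfl⟩ | ⟨w, hw, rfl⟩)
    · refine ⟨algebraMap Kb (FN N) c, ?_, rfl⟩
      exact Subfield.subset_closure (Or.inr ⟨c, rfl⟩)
    · refine ⟨toBar N K (ratEmb N K ⟨w, hw⟩), ?_, rfl⟩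
      exact Subfield.subset_closure (Or.inl ⟨_, rfl⟩)
  obtain ⟨s, hs, hsy⟩ := hle (mem_laurentBaseChange_iff.mp y.2)
  have : s = y := Subtype.ext hsy
  rw [← this]
  exact hs

/-! ### The degree `[F_K : K(j)] = ψ(N)` -/

theorem algebraMap_eq_constK (c : K) : algebraMap K ↥(FK N K) c = constK N K c := rfl

theorem toBar_aeval (p : K[X]) (x : ↥(FK N K)) :
    toBar N K (aeval x p) = aeval (toBar N K x) (p.map (algebraMap K Qb)) := by
  rw [aeval_def, Polynomial.hom_eval₂, aeval_def, eval₂_map]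
  congr 1
  apply RingHom.ext
  intro c
  rw [RingHom.comp_apply, RingHom.comp_apply, algebraMap_eq_constK, toBar_constK]
  rfl

theorem transcendental_jK : Transcendental K (jK N K) := by
  rintro ⟨p, hp0, hp⟩
  apply transcendental_jF N
  refine ⟨p.map (algebraMap K Qb), ?_, ?_⟩
  · exact (Polynomial.map_ne_zero_iff (algebraMap K Qb).injective).mpr hp0
  · rw [← toBar_jK N K, ← toBar_aeval, hp, map_zero]

/-- coefficientwise descent of `F_K` to `K((q))` -/
noncomputable def lower : ↥(FK N K) →+* LaurentSeries K where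
  toFun x := Classical.choose (RingHom.mem_fieldRange.mp (DescCoeff.FK_le_fieldRange N K x.2))
  map_one' := by
    apply (coeffMap (algebraMap K Qb)).injective
    rw [Classical.choose_spec (RingHom.mem_fieldRange.mp (DescCoeff.FK_le_fieldRange N K
      (1 : ↥(FK N K)).2)), map_one]
    rfl
  map_mul' x y := by
    apply (coeffMap (algebraMap K Qb)).injective
    rw [map_mul, Classical.choose_spec (RingHom.mem_fieldRange.mp (DescCoeff.FK_le_fieldRange N K
      (x * y).2)), Classical.choose_spec (RingHom.mem_fieldRange.mp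
      (DescCoeff.FK_le_fieldRange N K x.2)), Classical.choose_spec (RingHom.mem_fieldRange.mp
      (DescCoeff.FK_le_fieldRange N K y.2))]
    rfl
  map_zero' := by
    apply (coeffMap (algebraMap K Qb)).injective
    rw [Classical.choose_spec (RingHom.mem_fieldRange.mp (DescCoeff.FK_le_fieldRange N K
      (0 : ↥(FK N K)).2)), map_zero]
    rfl
  map_add' x y := by
    apply (coeffMap (algebraMap K Qb)).injective
    rw [map_add, Classical.choose_spec (RingHom.mem_fieldRange.mp (DescCoeff.FK_le_fieldRange N K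
      (x + y).2)), Classical.choose_spec (RingHom.mem_fieldRange.mp
      (DescCoeff.FK_le_fieldRange N K x.2)), Classical.choose_spec (RingHom.mem_fieldRange.mp
      (DescCoeff.FK_le_fieldRange N K y.2))]
    rfl

theorem coeffMap_lower (x : ↥(FK N K)) :
    coeffMap (algebraMap K Qb) (lower N K x) = (x : LaurentSeries Qb) :=
  Classical.choose_spec (RingHom.mem_fieldRange.mp (DescCoeff.FK_le_fieldRange N K x.2))

theorem lower_smul (a : K) (y : ↥(FK N K)) : lower N K (a • y) = a • lower N K y := by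
  apply (coeffMap (algebraMap K Qb)).injective
  rw [coeffMap_lower, DegreeBound.smul_eq_algebraMap_mul, map_mul, coeffMap_lower,
    algebraMap_laurentSeries_eq_single, coeffMap_single, Algebra.smul_def]
  rfl

theorem coeffMap_comp_lower (x : ↥(FK N K)) :
    coeffMap (embC.comp (algebraMap K Qb)) (lower N K x) =
      coeffMap embC (x : LaurentSeries Qb) := by
  rw [← coeffMap_coeffMap, coeffMap_lower]

/-- The `K`-subalgebra of `F_K` of elements lying in `RN N = ℚ̄[j(q^d) : d ∣ N]`. -/
noncomputable def Rsub : Subalgebra K ↥(FK N K) where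
  carrier := {x | toBar N K x ∈ RN N}
  mul_mem' := fun {a b} ha hb => by
    show toBar N K (a * b) ∈ RN N
    rw [map_mul]
    exact (RN N).mul_mem ha hb
  add_mem' := fun {a b} ha hb => by
    show toBar N K (a + b) ∈ RN N
    rw [map_add]
    exact (RN N).add_mem ha hb
  algebraMap_mem' := fun c => by
    show toBar N K (algebraMap K ↥(FK N K) c) ∈ RN N
    rw [algebraMap_eq_constK, toBar_constK]
    exact (RN N).algebraMap_mem _

theorem mem_Rsub {x : ↥(FK N K)} : x ∈ Rsub N K ↔ toBar N K x ∈ RN N := Iff.rfl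

theorem jK_mem_Rsub : jK N K ∈ Rsub N K := by
  rw [mem_Rsub, toBar_jK]
  exact jF_mem_RN N

theorem adjoin_Rsub_eq_top : IntermediateField.adjoin K (Rsub N K : Set ↥(FK N K)) = ⊤ := by
  rw [eq_top_iff]
  intro x _
  set E : IntermediateField K ↥(FK N K) :=
    IntermediateField.adjoin K (Rsub N K : Set ↥(FK N K)) with hE
  -- rational functions lie in the image of `E`
  have key : ∀ w ∈ modularFunctionFieldFull N,
      coeffEmb Qb w ∈ E.toSubfield.map (FK N K).subtype := by
    intro w hw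
    unfold modularFunctionFieldFull at hw
    induction hw using IntermediateField.adjoin_induction with
    | mem y hy =>
      obtain ⟨d, hd0, hd, rfl⟩ := hy
      have := hd0
      have hmem : qExpand ℚ d jq ∈ modularFunctionFieldFull N := jqd_mem_full N hd
      refine ⟨ratEmb N K ⟨_, hmem⟩, ?_, rfl⟩
      apply IntermediateField.subset_adjoin
      show toBar N K (ratEmb N K ⟨_, hmem⟩) ∈ RN N
      have h1 : toBar N K (ratEmb N K ⟨_, hmem⟩) = genJ N d hd := Subtype.ext rfl
      rw [h1]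
      exact genJ_mem_RN N d hd
    | algebraMap c =>
      refine ⟨algebraMap K ↥(FK N K) (algebraMap ℚ K c), E.algebraMap_mem _, ?_⟩
      rw [AnDegree.coeffEmb_algebraMap, algebraMap_laurentSeries_eq_single]
      rfl
    | add a b _ _ ha hb => rw [map_add]; exact add_mem ha hb
    | inv a _ ha => rw [map_inv₀]; exact inv_mem ha
    | mul a b _ _ ha hb => rw [map_mul]; exact mul_mem ha hb
  have hle : FK N K ≤ E.toSubfield.map (FK N K).subtype := by
    unfold FK
    rw [Subfield.closure_le]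
    rintro z (⟨c, rfl⟩ | ⟨w, rfl⟩)
    · exact ⟨algebraMap K ↥(FK N K) c, E.algebraMap_mem _, rfl⟩
    · exact key w w.2
  obtain ⟨e, he, hex⟩ := hle x.2
  have : e = x := Subtype.ext hex
  rw [← this]
  exact he

theorem exists_root_poly (x : ↥(FK N K)) (hx : x ∈ Rsub N K) :
    ∃ p : Polynomial K⟮jK N K⟯, p ≠ 0 ∧ p.natDegree ≤ dedekindPsi N ∧ aeval x p = 0 := by
  obtain ⟨c, hc⟩ := AnDegree.hrel N (toBar N K x) hx
  refine DegreeBound.exists_root_poly_aux (embC.comp (algebraMap K Qb)) (lower N K)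
    (lower_smul N K) (jK N K) (transcendental_jK N K) (dedekindPsi N) x c ?_
  rw [coeffMap_comp_lower, coeffMap_comp_lower]
  exact hc

theorem finiteDimensional_and_finrank_le :
    FiniteDimensional K⟮jK N K⟯ ↥(FK N K) ∧
      Module.finrank K⟮jK N K⟯ ↥(FK N K) ≤ dedekindPsi N :=
  finrank_le_of_subalgebra_root (jK N K) (Rsub N K) (jK_mem_Rsub N K) (adjoin_Rsub_eq_top N K)
    (dedekindPsi N) (exists_root_poly N K)

theorem finiteDimensional_jK : FiniteDimensional K⟮jK N K⟯ ↥(FK N K) :=
  (finiteDimensional_and_finrank_le N K).1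

/-! ### Hypothesis (H) for `F_K` -/

/-- `embC b` is algebraic over `ℚ`. -/
theorem isAlgebraic_embC (b : Qb) : IsAlgebraic ℚ (embC b) := by
  have hb : IsAlgebraic ℚ b := (AlgebraicClosure.isAlgebraic ℚ).isAlgebraic b
  obtain ⟨p, hp0, hp⟩ := hb
  refine ⟨p, hp0, ?_⟩
  have h := congrArg embC hp
  rw [map_zero, aeval_def, Polynomial.hom_eval₂] at h
  rw [aeval_def]
  have hcomp : algebraMap ℚ ℂ = embC.comp (algebraMap ℚ Qb) := RingHom.ext_rat _ _
  rw [hcomp]
  exact h

/-- **(H) for `F_K`, chart `y = j`.** -/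
theorem hypH_FK_fin (a : ℂ) (ha : IsAlgebraic ℚ a) :
    ∃ T : PowerSeries ℂ, T.order = HorHyp.eC a ∧
      ∃ ι : Fin (dedekindPsi N) → (↥(FK N K) →+* LaurentSeries ℂ), Function.Injective ι ∧
        (∀ i (c : K), ι i (constK N K c) = HahnSeries.C (embC (c : Qb))) ∧
        (∀ i, ι i (jK N K) = HahnSeries.ofPowerSeries ℤ ℂ (PowerSeries.C a + T)) := by
  obtain ⟨T, hT, ι, hι, hc, hj⟩ :=
    HorHyp.hypH_fin N (toBar N K) (closure_toBar N K) (dedekindPsi N) rfl a ha
  exact ⟨T, hT, ι, hι, fun i c => hc i _ _ (toBar_constK N K c), fun i => hj i _ (toBar_jK N K)⟩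

/-- **(H) for `F_K`, chart `y = 1/j`, at the cusps.** -/
theorem hypH_FK_inf_zero :
    ∃ T : PowerSeries ℂ, T.order = N ∧
      ∃ ι : Fin (dedekindPsi N) → (↥(FK N K) →+* LaurentSeries ℂ), Function.Injective ι ∧
        (∀ i (c : K), ι i (constK N K c) = HahnSeries.C (embC (c : Qb))) ∧
        (∀ i, ι i (jK N K)⁻¹ = HahnSeries.ofPowerSeries ℤ ℂ (PowerSeries.C 0 + T)) := by
  obtain ⟨T, hT, ι, hι, hc, hj⟩ :=
    HorHyp.hypH_inf_zero N (toBar N K) (closure_toBar N K) (dedekindPsi N) rfl
  refine ⟨T, hT, ι, hι, fun i c => hc i _ _ (toBar_constK N K c), fun i => hj i _ ?_⟩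
  rw [map_inv₀, toBar_jK]

/-- **(H) for `F_K`, chart `y = 1/j`, away from the cusps.** -/
theorem hypH_FK_inf_ne (a : ℂ) (ha : IsAlgebraic ℚ a) (ha0 : a ≠ 0) (ha1 : 1728 * a ≠ 1) :
    ∃ T : PowerSeries ℂ, T.order = 1 ∧
      ∃ ι : Fin (dedekindPsi N) → (↥(FK N K) →+* LaurentSeries ℂ), Function.Injective ι ∧
        (∀ i (c : K), ι i (constK N K c) = HahnSeries.C (embC (c : Qb))) ∧
        (∀ i, ι i (jK N K)⁻¹ = HahnSeries.ofPowerSeries ℤ ℂ (PowerSeries.C a + T)) := by
  obtain ⟨T, hT, ι, hι, hc, hj⟩ :=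
    HorHyp.hypH_inf_ne N (toBar N K) (closure_toBar N K) (dedekindPsi N) rfl a ha ha0 ha1
  refine ⟨T, hT, ι, hι, fun i c => hc i _ _ (toBar_constK N K c), fun i => hj i _ ?_⟩
  rw [map_inv₀, toBar_jK]

/-- **`[F_K : K(j)] = ψ(N)`.** -/
theorem finrank_jK : Module.finrank K⟮jK N K⟯ ↥(FK N K) = dedekindPsi N := by
  refine le_antisymm (finiteDimensional_and_finrank_le N K).2 ?_
  haveI := finiteDimensional_jK N K
  obtain ⟨T, -, ι, hι, hc, hj⟩ := hypH_FK_fin N K 1 isAlgebraic_one
  have h := card_le_finrank_of_ringHoms (K := K) (jK N K) ι hι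
    (fun q q' a => by rw [algebraMap_eq_constK, hc, hc]) (fun q q' => by rw [hj, hj])
  rwa [Nat.card_eq_fintype_card, Fintype.card_fin] at h

/-- The degree over any field `Ky` acting on `F_K` with the same range as `K(j)` (e.g.
`Ky = Frac O[y]`, `y ↦ j` or `y ↦ j⁻¹`). -/
theorem finrank_of_range {Ky : Type*} [Field Ky] [Algebra Ky ↥(FK N K)]
    (h : Set.range (algebraMap Ky ↥(FK N K)) = (K⟮jK N K⟯ : Set ↥(FK N K))) :
    FiniteDimensional Ky ↥(FK N K) ∧ Module.finrank Ky ↥(FK N K) = dedekindPsi N := by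
  have hmem : ∀ y : Ky, algebraMap Ky ↥(FK N K) y ∈ K⟮jK N K⟯ := fun y => by
    have : algebraMap Ky ↥(FK N K) y ∈ Set.range (algebraMap Ky ↥(FK N K)) := ⟨y, rfl⟩
    rw [h] at this
    exact this
  let f : Ky →+* K⟮jK N K⟯ := (algebraMap Ky ↥(FK N K)).codRestrict K⟮jK N K⟯ hmem
  have hf : Function.Bijective f := by
    refine ⟨f.injective, fun z => ?_⟩
    have hz : (z : ↥(FK N K)) ∈ Set.range (algebraMap Ky ↥(FK N K)) := by
      rw [h]
      exact z.2
    obtain ⟨y, hy⟩ := hz
    exact ⟨y, Subtype.ext hy⟩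
  have hfin : Module.finrank Ky ↥(FK N K) = Module.finrank K⟮jK N K⟯ ↥(FK N K) :=
    Algebra.finrank_eq_of_equiv_equiv (RingEquiv.ofBijective f hf) (RingEquiv.refl _)
      (RingHom.ext fun y => rfl)
  have hrank : Module.finrank Ky ↥(FK N K) = dedekindPsi N := by rw [hfin, finrank_jK]
  refine ⟨?_, hrank⟩
  apply Module.finite_of_finrank_pos
  rw [hrank]
  exact AnDegree.dedekindPsi_pos N

end Fermat.Agent.S18.DegFK
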