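import Mathlib
import Fermat.Agent.S18.DegFK

/-!
# S18 team library: the degree of `F_K` over `Ky = Frac O[y]`

OWNER: helper39 (only the owner edits this file).

Convenience wrapper of `DegFK.finrank_of_range` in the shape of the abstract Igusa setting
(`IgusaTop`): `O` a ring with fraction field `K` (through `g : O →+* K`), `Ky` a fraction field of
`O[X]`, and `F_K` an `O[X]`-algebra in the tower `O[X] → Ky → F_K` with constants through `g` and
`X ↦ j` (chart `Fin`) or `X ↦ j⁻¹` (chart `Inf`).  Then `[F_K : Ky] = ψ(N)`.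
-/

set_option autoImplicit false

namespace Fermat.Agent.S18.DegFKy

open ModularCurve Fermat.Agent.S24 Fermat.Agent.S18.Arith IntermediateField Polynomial
  Fermat.Agent.S18.DegFK

variable (N : ℕ) [NeZero N] (K : IntermediateField ℚ Qb)
variable {O Ky : Type*} [CommRing O] [Field Ky] [Algebra O[X] Ky] [IsFractionRing O[X] Ky]
  [Algebra Ky ↥(FK N K)] [Algebra O[X] ↥(FK N K)] [IsScalarTower O[X] Ky ↥(FK N K)]

/-- The range of `Ky → F_K` is `K(j)`. -/
theorem range_algebraMap (g : O →+* K)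
    (hg : ∀ c : K, ∃ a b : O, g b ≠ 0 ∧ c * g b = g a)
    (hC : ∀ o : O, algebraMap O[X] ↥(FK N K) (C o) = constK N K (g o))
    (hX : algebraMap O[X] ↥(FK N K) X = jK N K ∨ algebraMap O[X] ↥(FK N K) X = (jK N K)⁻¹) :
    Set.range (algebraMap Ky ↥(FK N K)) = (K⟮jK N K⟯ : Set ↥(FK N K)) := by
  have hjmem : jK N K ∈ K⟮jK N K⟯ := mem_adjoin_simple_self K (jK N K)
  -- polynomials land in `K(j)`
  have hpoly : ∀ p : O[X], algebraMap O[X] ↥(FK N K) p ∈ K⟮jK N K⟯ := by
    intro p
    induction p using Polynomial.induction_on' with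
    | add p q hp hq => rw [map_add]; exact add_mem hp hq
    | monomial n a =>
      rw [← C_mul_X_pow_eq_monomial, map_mul, map_pow, hC]
      refine mul_mem (K⟮jK N K⟯.algebraMap_mem (g a)) (pow_mem ?_ n)
      rcases hX with h | h
      · rw [h]; exact hjmem
      · rw [h]; exact inv_mem hjmem
  apply Set.Subset.antisymm
  · rintro _ ⟨y, rfl⟩
    obtain ⟨a, b, hb, rfl⟩ := IsFractionRing.div_surjective (A := O[X]) y
    rw [map_div₀, ← IsScalarTower.algebraMap_apply, ← IsScalarTower.algebraMap_apply]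
    exact div_mem (hpoly a) (hpoly b)
  · -- `K(j)` is contained in the field range
    have hrange : ∀ p : O[X], algebraMap O[X] ↥(FK N K) p ∈ (algebraMap Ky ↥(FK N K)).fieldRange :=
      fun p => ⟨algebraMap O[X] Ky p, (IsScalarTower.algebraMap_apply O[X] Ky ↥(FK N K) p).symm⟩
    have hle : K⟮jK N K⟯.toSubfield ≤ (algebraMap Ky ↥(FK N K)).fieldRange := by
      rw [IntermediateField.adjoin_toSubfield, Subfield.closure_le]
      rintro z (⟨c, rfl⟩ | hz)
      · obtain ⟨a, b, hb, hab⟩ := hg c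
        have hb' : constK N K (g b) ≠ 0 := (map_ne_zero (constK N K)).mpr hb
        have h1 : algebraMap K ↥(FK N K) c = constK N K (g a) / constK N K (g b) := by
          rw [eq_div_iff hb', algebraMap_eq_constK, ← map_mul, hab]
        rw [h1, ← hC, ← hC]
        exact div_mem (hrange _) (hrange _)
      · rw [Set.mem_singleton_iff] at hz
        rw [hz]
        rcases hX with h | h
        · rw [← h]; exact hrange X
        · have h2 : jK N K = (algebraMap O[X] ↥(FK N K) X)⁻¹ := by rw [h, inv_inv]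
          rw [h2]
          exact inv_mem (hrange X)
    intro z hz
    exact hle hz

/-- **`[F_K : Ky] = ψ(N)`** for `Ky = Frac O[y]`, `y ↦ j` or `y ↦ j⁻¹`. -/
theorem finrank_eq (g : O →+* K)
    (hg : ∀ c : K, ∃ a b : O, g b ≠ 0 ∧ c * g b = g a)
    (hC : ∀ o : O, algebraMap O[X] ↥(FK N K) (C o) = constK N K (g o))
    (hX : algebraMap O[X] ↥(FK N K) X = jK N K ∨ algebraMap O[X] ↥(FK N K) X = (jK N K)⁻¹) :
    FiniteDimensional Ky ↥(FK N K) ∧ Module.finrank Ky ↥(FK N K) = dedekindPsi N :=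
  finrank_of_range N K (range_algebraMap N K g hg hC hX)

/-- A field is the fraction field of each of its valuation subrings (element form). -/
theorem exists_frac_of_valuationSubring {K' : Type*} [Field K'] (V : ValuationSubring K')
    (c : K') : ∃ a b : V, V.subtype b ≠ 0 ∧ c * V.subtype b = V.subtype a := by
  rcases V.mem_or_inv_mem c with h | h
  · exact ⟨⟨c, h⟩, 1, by simp, by simp⟩
  · by_cases hc : c = 0
    · exact ⟨0, 1, by simp, by simp [hc]⟩
    · refine ⟨1, ⟨c⁻¹, h⟩, ?_, ?_⟩
      · show c⁻¹ ≠ 0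
        exact inv_ne_zero hc
      · show c * c⁻¹ = 1
        exact mul_inv_cancel₀ hc

/-- **`[F_K : Ky] = ψ(N)`** over the base ring `O = OK A K = A ∩ K` of `ArithPlan`. -/
theorem finrank_eq_OK (A : ValuationSubring Qb) {Ky : Type*} [Field Ky]
    [Algebra (OK A K)[X] Ky] [IsFractionRing (OK A K)[X] Ky]
    [Algebra Ky ↥(FK N K)] [Algebra (OK A K)[X] ↥(FK N K)]
    [IsScalarTower (OK A K)[X] Ky ↥(FK N K)]
    (hC : ∀ o : OK A K, algebraMap (OK A K)[X] ↥(FK N K) (C o) =
      algebraMap (OK A K) ↥(FK N K) o)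
    (hX : algebraMap (OK A K)[X] ↥(FK N K) X = jK N K ∨
      algebraMap (OK A K)[X] ↥(FK N K) X = (jK N K)⁻¹) :
    FiniteDimensional Ky ↥(FK N K) ∧ Module.finrank Ky ↥(FK N K) = dedekindPsi N :=
  finrank_eq N K (OK A K).subtype (exists_frac_of_valuationSubring (OK A K))
    (fun o => hC o) hX

end Fermat.Agent.S18.DegFKy
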