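import Fermat.Agent.S18.IgusaInst
import Fermat.Agent.S18.DegFKy

/-!
# S18 / [IGUSA] T8 (C1) : the chart field `ChartF N K t` over `Ky = Frac O[y]`

For `t = jK` or `t = jK⁻¹` the structure map `O[y] → F_K`, `y ↦ t`, is injective
(`t` is transcendental over `K ⊇ O`), and `[F_K : Ky] = ψ(N)`.
-/

set_option autoImplicit false
set_option linter.unusedSectionVars false

namespace Fermat.Agent.S18.ChartDeg

open Polynomial ModularCurve Fermat.Agent.S18.Arith Fermat.Agent.S18.IgusaInst

variable (N : ℕ) [NeZero N] (A : ValuationSubring Qb) (K : IntermediateField ℚ Qb)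

/-- `aeval t : O[X] → F_K` is injective for `t` transcendental over `K`. -/
theorem aeval_injective_of_transcendental (t : FK N K) (ht : Transcendental K t) :
    Function.Injective (aeval (R := OK A K) (A := FK N K) t) := by
  rw [injective_iff_map_eq_zero]
  intro p hp
  have hinj : Function.Injective (algebraMap (OK A K) K) :=
    FaithfulSMul.algebraMap_injective (OK A K) K
  have h1 : aeval t (p.map (algebraMap (OK A K) K)) = 0 := by
    rw [aeval_map_algebraMap]
    exact hp
  have h2 : p.map (algebraMap (OK A K) K) = 0 := by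
    by_contra hne
    exact ht ⟨_, hne, h1⟩
  exact (Polynomial.map_eq_zero_iff hinj).mp h2

theorem transcendental_jK_inv : Transcendental K (jK N K)⁻¹ := by
  intro h
  have h2 : IsAlgebraic K ((jK N K)⁻¹)⁻¹ := h.inv
  rw [inv_inv] at h2
  exact DegFK.transcendental_jK N K h2

theorem faithfulSMul_jK : FaithfulSMul (OK A K)[X] (ChartF N K (jK N K)) :=
  faithfulSMul_chartF N A K (jK N K)
    (aeval_injective_of_transcendental N A K (jK N K) (DegFK.transcendental_jK N K))

theorem faithfulSMul_jKinv : FaithfulSMul (OK A K)[X] (ChartF N K (jK N K)⁻¹) :=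
  faithfulSMul_chartF N A K (jK N K)⁻¹
    (aeval_injective_of_transcendental N A K (jK N K)⁻¹ (transcendental_jK_inv N K))

theorem finrank_chartF (t : FK N K) (ht : t = jK N K ∨ t = (jK N K)⁻¹)
    [FaithfulSMul (OK A K)[X] (ChartF N K t)] :
    FiniteDimensional (FractionRing (OK A K)[X]) (ChartF N K t) ∧
      Module.finrank (FractionRing (OK A K)[X]) (ChartF N K t) = dedekindPsi N := by
  have h := @DegFKy.finrank_eq_OK N _ K A (FractionRing (OK A K)[X]) _ _ _
    (instAlgebraKyChartF N A K t) (instAlgebraChartF N A K t) (instIsScalarTowerChartF N A K t)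
    (fun o => algebraMap_chartF_C N A K t o)
    (by
      rcases ht with h | h
      · left; rw [← h]; exact algebraMap_chartF_X N A K t
      · right; rw [← h]; exact algebraMap_chartF_X N A K t)
  exact h

end Fermat.Agent.S18.ChartDeg
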