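/-
S18 / T8 leaf (C2), owner helper94: base-ring facts for the chart instantiation
(`O = OK A K = A ∩ K`), except the residue-field part (helper49, `ResOK.lean`).

* `phiO A K : OK A K →+* ℂ`  the embedding `O ⊂ K ⊂ ℚ̄ → ℂ` (`embC` of `S24/AnDefs`);
* `phiO_injective`, `isAlgebraic_phiO`;
* `isUnit_natCast_OK`        integers prime to `ℓ` are units of `O`;
* `exists_primitiveRoot_OK`  `O` contains a primitive `n`-th root of unity for `ℓ ∤ n`;
* `exists_omega_OK`          `O` contains a primitive cube root of unity for `ℓ ≠ 3`.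
-/
import Mathlib
import Fermat.Agent.S18.ArithPlan
import Fermat.Agent.S18.BaseRes
import Fermat.Agent.S24.AnDefs

set_option autoImplicit false
set_option linter.unusedSectionVars false
set_option linter.style.haveILetI false

namespace Fermat.Agent.S18.ChartBase

open Fermat.Agent.S18.Arith

variable (ℓ : ℕ) [Fact ℓ.Prime] (A : ValuationSubring Qb) (K : IntermediateField ℚ Qb)

/-- The embedding `O = A ∩ K → ℂ`. -/
noncomputable def phiO : OK A K →+* ℂ := Fermat.Agent.S24.embC.comp (incO A K)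

theorem phiO_apply (o : OK A K) : phiO A K o = Fermat.Agent.S24.embC (incO A K o) := rfl

theorem incO_apply (o : OK A K) : incO A K o = ((o : K) : Qb) := rfl

theorem incO_injective : Function.Injective (incO A K) := by
  intro a b h
  exact Subtype.ext (Subtype.ext h)

theorem incO_mem (o : OK A K) : incO A K o ∈ A := o.2

theorem phiO_injective : Function.Injective (phiO A K) :=
  Fermat.Agent.S24.embC_injective.comp (incO_injective A K)

theorem isAlgebraic_phiO (o : OK A K) : IsAlgebraic ℚ (phiO A K o) := by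
  haveI : Algebra.IsAlgebraic ℚ (AlgebraicClosure ℚ) := AlgebraicClosure.isAlgebraic ℚ
  have h : IsAlgebraic ℚ (incO A K o) := Algebra.IsAlgebraic.isAlgebraic _
  obtain ⟨p, hp0, hp⟩ := h
  refine ⟨p, hp0, ?_⟩
  have h2 := congrArg Fermat.Agent.S24.embC hp
  rw [map_zero, Polynomial.aeval_def, Polynomial.hom_eval₂] at h2
  rw [Polynomial.aeval_def, phiO_apply]
  have h3 : Fermat.Agent.S24.embC.comp (algebraMap ℚ Qb) = algebraMap ℚ ℂ :=
    Subsingleton.elim _ _
  rw [h3] at h2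
  exact h2

/-- Membership in `O = A ∩ K` for an element of `ℚ̄` lying in both. -/
theorem exists_OK_of_mem {x : Qb} (hK : x ∈ K) (hxA : x ∈ A) : ∃ o : OK A K, incO A K o = x :=
  ⟨⟨⟨x, hK⟩, hxA⟩, rfl⟩

/-- An element of `O` whose image in `ℚ̄` is a unit of `A` is a unit of `O`. -/
theorem isUnit_OK_of_notMem_nonunits (o : OK A K) (h : incO A K o ∉ A.nonunits) : IsUnit o := by
  have hoA : incO A K o ∈ A := o.2
  have hval : A.valuation (incO A K o) = 1 := by
    have h1 : A.valuation (incO A K o) ≤ 1 := (A.valuation_le_one_iff _).mpr hoA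
    have h2 : ¬ A.valuation (incO A K o) < 1 := fun hlt => h (A.mem_nonunits_iff.mpr hlt)
    exact le_antisymm h1 (not_lt.mp h2)
  have ho0 : incO A K o ≠ 0 := by
    intro h0
    rw [h0, map_zero] at hval
    exact zero_ne_one hval
  have hoK0 : (o : K) ≠ 0 := by
    intro h0
    apply ho0
    rw [incO_apply, h0]
    rfl
  have hinvA : (incO A K o)⁻¹ ∈ A := by
    rw [← A.valuation_le_one_iff, map_inv₀, hval, inv_one]
  have hinv : ((o : K)⁻¹ : K) ∈ OK A K := by
    rw [ValuationSubring.mem_comap, map_inv₀]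
    exact hinvA
  exact IsUnit.of_mul_eq_one ⟨(o : K)⁻¹, hinv⟩ (Subtype.ext (mul_inv_cancel₀ hoK0))

/-- Integers prime to `ℓ` are units of `O`. -/
theorem isUnit_natCast_OK (hA : A.LiesOverPrime ℓ) (n : ℕ) (hn : ¬ ℓ ∣ n) :
    IsUnit ((n : ℕ) : OK A K) := by
  apply isUnit_OK_of_notMem_nonunits
  rw [map_natCast]
  exact BaseRes.natCast_notMem_nonunits ℓ A hA hn

/-- `O` contains the primitive `n`-th roots of unity for `ℓ ∤ n`. -/
theorem exists_primitiveRoot_OK (hB : BaseFacts ℓ A K) (_hA : A.LiesOverPrime ℓ) (n : ℕ)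
    (hn : ¬ ℓ ∣ n) : ∃ ζ : OK A K, IsPrimitiveRoot ζ n := by
  have hn0 : n ≠ 0 := by rintro rfl; exact hn (dvd_zero _)
  haveI : NeZero ((n : ℕ) : ℚ) := ⟨by exact_mod_cast hn0⟩
  obtain ⟨ζ, hζ⟩ := HasEnoughRootsOfUnity.exists_primitiveRoot Qb n
  have hζK : ζ ∈ K := hB.roots n ζ hn hζ.pow_eq_one
  have hζA : ζ ∈ A := BaseRes.rootOfUnity_mem A hn0 hζ.pow_eq_one
  obtain ⟨o, ho⟩ := exists_OK_of_mem A K hζK hζA
  refine ⟨o, ?_⟩
  have : IsPrimitiveRoot (incO A K o) n := ho ▸ hζ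
  exact this.of_map_of_injective (incO_injective A K)

/-- `O` contains a primitive cube root of unity for `ℓ ≠ 3`. -/
theorem exists_omega_OK (hB : BaseFacts ℓ A K) (hA : A.LiesOverPrime ℓ) (h3 : ℓ ≠ 3) :
    ∃ ω : OK A K, ω ^ 2 + ω + 1 = 0 := by
  have hℓ : ¬ ℓ ∣ 3 := by
    intro h
    have := (Nat.prime_dvd_prime_iff_eq (Fact.out : ℓ.Prime) Nat.prime_three).mp h
    exact h3 this
  obtain ⟨ζ, hζ⟩ := exists_primitiveRoot_OK ℓ A K hB hA 3 hℓ
  refine ⟨ζ, ?_⟩
  have h1 : ζ ^ 3 = 1 := hζ.pow_eq_one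
  have h2 : ζ ≠ 1 := hζ.ne_one (by norm_num)
  have h4 : (ζ - 1) * (ζ ^ 2 + ζ + 1) = 0 := by
    have : (ζ - 1) * (ζ ^ 2 + ζ + 1) = ζ ^ 3 - 1 := by ring
    rw [this, h1, sub_self]
  rcases mul_eq_zero.mp h4 with h | h
  · exact absurd (sub_eq_zero.mp h) h2
  · exact h

end Fermat.Agent.S18.ChartBase
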