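import Mathlib

/-!
# S18 : Gauss's lemma and common roots (used by the cover charts and by T3b)

* `dvd_of_common_root`: over a unique factorisation domain `O`, a primitive irreducible
  `p : O[X]` divides every `q : O[X]` with which it shares a root in a field `E ⊇ O`.
* `natDegree_ne_zero_of_prime`, `isPrimitive_of_prime`: over a discrete valuation ring with
  uniformizer `π`, a prime element of `O[X]` not associated to `π` is non-constant and primitive.
* `dvd_of_prime_of_common_root`: the combination, in the shape of the [IGUSA] T3 leaves.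
* `dvd_eval_of_prime_of_common_root`: if moreover `π ∣ p(c₁)` then `π ∣ q(c₁)`.
-/

set_option autoImplicit false

namespace Fermat.Agent.S18.GaussRoot

open Polynomial

section UFD

variable {O : Type*} [CommRing O] [IsDomain O] [UniqueFactorizationMonoid O]
  {E : Type*} [Field E]

/-- **Gauss.** A primitive irreducible polynomial over a unique factorisation domain divides
every polynomial with which it shares a root in some field. -/
theorem dvd_of_common_root (φ : O →+* E) (hφ : Function.Injective φ) {p q : O[X]}
    (hp : Irreducible p) (hprim : p.IsPrimitive) (x₀ : E) (hp0 : (p.map φ).eval x₀ = 0)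
    (hq0 : (q.map φ).eval x₀ = 0) : p ∣ q := by
  set K := FractionRing O with hK
  set ψ : K →+* E := IsFractionRing.lift hφ with hψ
  have hψφ : ψ.comp (algebraMap O K) = φ := by
    ext a
    exact IsFractionRing.lift_algebraMap hφ a
  have hpK : Irreducible (p.map (algebraMap O K)) :=
    (hprim.irreducible_iff_irreducible_map_fraction_map).mp hp
  refine hprim.dvd_of_fraction_map_dvd_fraction_map (K := K) ?_
  rcases dvd_or_isCoprime _ (q.map (algebraMap O K)) hpK with h | h
  · exact h
  · exfalso
    obtain ⟨a, b, hab⟩ := h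
    have h1 := congrArg (fun f => (f.map ψ).eval x₀) hab
    simp only [Polynomial.map_add, Polynomial.map_mul, Polynomial.map_map, hψφ, eval_add, eval_mul,
      hp0, hq0, mul_zero, add_zero, Polynomial.map_one, eval_one] at h1
    exact zero_ne_one h1

end UFD

section DVR

variable {O : Type*} [CommRing O] [IsDomain O] [IsDiscreteValuationRing O]

/-- Over a DVR with uniformizer `π`, a prime element of `O[X]` not associated to `π` is not
constant. -/
theorem natDegree_ne_zero_of_prime {π : O} (hπ : Irreducible π) {p : O[X]} (hp : Prime p)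
    (hpπ : ¬ Associated p (C π)) : p.natDegree ≠ 0 := by
  intro h0
  obtain ⟨a, rfl⟩ := natDegree_eq_zero.mp h0
  have ha : Prime a := prime_C_iff.mp hp
  have hassoc : Associated a π := IsDiscreteValuationRing.associated_of_irreducible O ha.irreducible hπ
  obtain ⟨u, hu⟩ := hassoc
  exact hpπ ⟨Units.map (C : O →+* O[X]).toMonoidHom u, by
    rw [← hu, C_mul]
    rfl⟩

/-- Over a DVR with uniformizer `π`, a prime element of `O[X]` not associated to `π` is
primitive. -/
theorem isPrimitive_of_prime {π : O} (hπ : Irreducible π) {p : O[X]} (hp : Prime p)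
    (hpπ : ¬ Associated p (C π)) : p.IsPrimitive :=
  hp.irreducible.isPrimitive (natDegree_ne_zero_of_prime hπ hp hpπ)

variable {E : Type*} [Field E]

/-- A prime element `p ≁ π` of `O[X]` divides every polynomial with which it shares a root. -/
theorem dvd_of_prime_of_common_root {π : O} (hπ : Irreducible π) (φ : O →+* E)
    (hφ : Function.Injective φ) {p q : O[X]} (hp : Prime p) (hpπ : ¬ Associated p (C π))
    (x₀ : E) (hp0 : (p.map φ).eval x₀ = 0) (hq0 : (q.map φ).eval x₀ = 0) : p ∣ q :=
  dvd_of_common_root φ hφ hp.irreducible (isPrimitive_of_prime hπ hp hpπ) x₀ hp0 hq0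

/-- If `p ≁ π` is prime with `π ∣ p(c₁)` and `q` shares a root with `p`, then `π ∣ q(c₁)`. -/
theorem dvd_eval_of_prime_of_common_root {π : O} (hπ : Irreducible π) (φ : O →+* E)
    (hφ : Function.Injective φ) {p q : O[X]} (hp : Prime p) (hpπ : ¬ Associated p (C π))
    {c₁ : O} (hpc : π ∣ p.eval c₁) (x₀ : E) (hp0 : (p.map φ).eval x₀ = 0)
    (hq0 : (q.map φ).eval x₀ = 0) : π ∣ q.eval c₁ := by
  obtain ⟨r, rfl⟩ := dvd_of_prime_of_common_root hπ φ hφ hp hpπ x₀ hp0 hq0
  rw [eval_mul]
  exact Dvd.dvd.mul_right hpc _

/-- Contrapositive: a polynomial `q` with `q(c₁)` a unit does not vanish at the roots of `p`. -/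
theorem eval_ne_zero_of_isUnit_eval {π : O} (hπ : Irreducible π) (φ : O →+* E)
    (hφ : Function.Injective φ) {p q : O[X]} (hp : Prime p) (hpπ : ¬ Associated p (C π))
    {c₁ : O} (hpc : π ∣ p.eval c₁) (hq : IsUnit (q.eval c₁)) (x₀ : E)
    (hp0 : (p.map φ).eval x₀ = 0) : (q.map φ).eval x₀ ≠ 0 := fun hq0 =>
  hπ.not_isUnit (isUnit_of_dvd_unit
    (dvd_eval_of_prime_of_common_root hπ φ hφ hp hpπ hpc x₀ hp0 hq0) hq)

end DVR

end Fermat.Agent.S18.GaussRoot
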