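import Mathlib

/-!
# S18, block [IGUSA], leaf P7: root extraction in `ℂ⟦s⟧`

If `Num - a * Den = (X - x₀)^e * g` with `g(x₀) ≠ 0`, `Den(x₀) ≠ 0`, and `T ∈ ℂ⟦s⟧` has order
exactly `e`, then there is a power series `Λ = x₀ + s·υ` (`υ(0) ≠ 0`) with
`Num(Λ) = (a + T) · Den(Λ)`.

Proof: write `T = s^e T₁`, `Λ = x₀ + s / Y`; then `Y` is a root of the polynomial
`T₁ · Y^e · Dᵣ(Y) - gᵣ(Y)` where `hᵣ(Y) = Y^d h(x₀ + s / Y)` is the reversed shifted polynomial.
Its leading coefficient `T₁ · Den(x₀)` is a unit and it has a simple root modulo `s`, so Hensel's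
lemma in the `s`-adically complete ring `ℂ⟦s⟧` applies.
-/

set_option autoImplicit false

open Polynomial

namespace Fermat.Agent.S18.RootExt

/-- The lower-order part of the reversed shifted polynomial. -/
noncomputable def low (x₀ : ℂ) (d : ℕ) (h : ℂ[X]) : (PowerSeries ℂ)[X] :=
  ∑ k ∈ Finset.range d,
    C (PowerSeries.C ((taylor x₀ h).coeff (k + 1)) * PowerSeries.X ^ (k + 1)) * X ^ (d - (k + 1))

/-- The reversed shifted polynomial `Y ^ d * h (x₀ + s / Y)`. -/
noncomputable def revShift (x₀ : ℂ) (d : ℕ) (h : ℂ[X]) : (PowerSeries ℂ)[X] :=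
  C (PowerSeries.C (h.eval x₀)) * X ^ d + low x₀ d h

theorem degree_low_lt (x₀ : ℂ) (d : ℕ) (h : ℂ[X]) : (low x₀ d h).degree < d := by
  unfold low
  refine lt_of_le_of_lt (degree_sum_le _ _) ?_
  rw [Finset.sup_lt_iff (by exact WithBot.bot_lt_coe d)]
  intro k hk
  have hk' : k < d := Finset.mem_range.mp hk
  refine lt_of_le_of_lt (degree_C_mul_X_pow_le _ _) ?_
  exact_mod_cast (by omega : d - (k + 1) < d)

theorem map_low (x₀ : ℂ) (d : ℕ) (h : ℂ[X]) :
    (low x₀ d h).map PowerSeries.constantCoeff = 0 := by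
  unfold low
  rw [Polynomial.map_sum]
  refine Finset.sum_eq_zero fun k _ => ?_
  simp

theorem map_revShift (x₀ : ℂ) (d : ℕ) (h : ℂ[X]) :
    (revShift x₀ d h).map PowerSeries.constantCoeff = C (h.eval x₀) * X ^ d := by
  unfold revShift
  rw [Polynomial.map_add, map_low]
  simp

theorem revShift_eq_sum (x₀ : ℂ) (d : ℕ) (h : ℂ[X]) :
    revShift x₀ d h = ∑ k ∈ Finset.range (d + 1),
      C (PowerSeries.C ((taylor x₀ h).coeff k) * PowerSeries.X ^ k) * X ^ (d - k) := by
  rw [Finset.sum_range_succ', revShift, low, add_comm]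
  simp [taylor_coeff_zero]

theorem eval_revShift (x₀ : ℂ) (d : ℕ) (h : ℂ[X]) (hd : h.natDegree ≤ d)
    (Y υ : PowerSeries ℂ) (hY : Y * υ = 1) :
    (revShift x₀ d h).eval Y = Y ^ d * aeval (PowerSeries.C x₀ + PowerSeries.X * υ) h := by
  have h1 : aeval (PowerSeries.C x₀ + PowerSeries.X * υ) h
      = aeval (PowerSeries.X * υ) (taylor x₀ h) := by
    rw [taylor_apply, aeval_comp]
    simp [add_comm]
  rw [h1, aeval_eq_sum_range' (n := d + 1) (by rw [natDegree_taylor]; omega), revShift_eq_sum,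
    eval_finsetSum, Finset.mul_sum]
  refine Finset.sum_congr rfl fun k hk => ?_
  have hk' : k ≤ d := Nat.lt_succ_iff.mp (Finset.mem_range.mp hk)
  rw [eval_mul, eval_C, eval_pow, eval_X]
  have h2 : Y ^ d = Y ^ (d - k) * Y ^ k := by rw [← pow_add, Nat.sub_add_cancel hk']
  have h3 : Y ^ k * υ ^ k = 1 := by rw [← mul_pow, hY, one_pow]
  rw [h2, Algebra.smul_def, mul_pow]
  have h4 : algebraMap ℂ (PowerSeries ℂ) ((taylor x₀ h).coeff k)
      = PowerSeries.C ((taylor x₀ h).coeff k) := rfl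
  rw [h4]
  linear_combination
    (-(PowerSeries.C ((taylor x₀ h).coeff k) * PowerSeries.X ^ k * Y ^ (d - k))) * h3

/-- **Root extraction** (leaf P7 of the S18 [IGUSA] table). -/
theorem exists_powerSeries_root (Num Den : ℂ[X]) (a x₀ : ℂ) (e : ℕ) (he : 0 < e) (g : ℂ[X])
    (hfac : Num - C a * Den = (X - C x₀) ^ e * g) (hg : g.eval x₀ ≠ 0) (hDen : Den.eval x₀ ≠ 0)
    (T : PowerSeries ℂ) (hT : T.order = e) :
    ∃ Λ : PowerSeries ℂ, PowerSeries.constantCoeff Λ = x₀ ∧ PowerSeries.coeff 1 Λ ≠ 0 ∧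
      aeval Λ Num = (PowerSeries.C a + T) * aeval Λ Den := by
  classical
  -- `T = s ^ e * T₁` with `T₁ (0) ≠ 0`
  obtain ⟨hTe, hTlt⟩ := PowerSeries.order_eq_nat.mp hT
  obtain ⟨T₁, hT₁⟩ : PowerSeries.X ^ e ∣ T := PowerSeries.X_pow_dvd_iff.mpr hTlt
  have ht₀ : PowerSeries.constantCoeff T₁ ≠ 0 := by
    have : PowerSeries.coeff e T = PowerSeries.coeff 0 T₁ := by
      rw [hT₁]
      simpa using PowerSeries.coeff_X_pow_mul T₁ e 0
    rw [← PowerSeries.coeff_zero_eq_constantCoeff_apply, ← this]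
    exact hTe
  set t₀ : ℂ := PowerSeries.constantCoeff T₁ with ht₀def
  set D₀ : ℂ := Den.eval x₀ with hD₀def
  set g₀ : ℂ := g.eval x₀ with hg₀def
  set d : ℕ := g.natDegree + Den.natDegree + 1 with hd
  -- the residual root
  obtain ⟨Y₀, hY₀⟩ : ∃ Y₀ : ℂ, Y₀ ^ e = g₀ / (t₀ * D₀) :=
    IsAlgClosed.exists_pow_nat_eq _ he
  have hY₀0 : Y₀ ≠ 0 := by
    rintro rfl
    rw [zero_pow he.ne'] at hY₀
    exact div_ne_zero hg (mul_ne_zero ht₀ hDen) hY₀.symm
  -- the unit leading coefficient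
  set w : PowerSeries ℂ := (T₁ * PowerSeries.C D₀)⁻¹ with hwdef
  have hcc : PowerSeries.constantCoeff (T₁ * PowerSeries.C D₀) = t₀ * D₀ := by simp [ht₀def]
  have hw : w * (T₁ * PowerSeries.C D₀) = 1 :=
    PowerSeries.inv_mul_cancel _ (by rw [hcc]; exact mul_ne_zero ht₀ hDen)
  have hw₀ : PowerSeries.constantCoeff w = (t₀ * D₀)⁻¹ := by
    rw [hwdef, PowerSeries.constantCoeff_inv, hcc]
  have hwne : w ≠ 0 := by
    rintro h
    rw [h, zero_mul] at hw
    exact zero_ne_one hw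
  -- the monic polynomial
  set R : (PowerSeries ℂ)[X] :=
    C w * (C T₁ * X ^ e * low x₀ d Den - revShift x₀ d g) with hR
  set f : (PowerSeries ℂ)[X] := X ^ (e + d) + R with hf
  have hf_eq : f = C w * (C T₁ * X ^ e * revShift x₀ d Den - revShift x₀ d g) := by
    have h1 : (X : (PowerSeries ℂ)[X]) ^ (e + d)
        = C w * (C T₁ * X ^ e * (C (PowerSeries.C D₀) * X ^ d)) := by
      have : (C w * (C T₁ * C (PowerSeries.C D₀)) : (PowerSeries ℂ)[X]) = 1 := by
        rw [← C_mul, ← C_mul, hw, C_1]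
      calc (X : (PowerSeries ℂ)[X]) ^ (e + d)
          = (C w * (C T₁ * C (PowerSeries.C D₀))) * X ^ (e + d) := by rw [this, one_mul]
        _ = C w * (C T₁ * X ^ e * (C (PowerSeries.C D₀) * X ^ d)) := by rw [pow_add]; ring
    rw [hf, hR, h1]
    unfold revShift
    ring
  have hdegR : R.degree < ((e + d : ℕ) : WithBot ℕ) := by
    rw [hR, degree_C_mul hwne]
    refine lt_of_le_of_lt (degree_sub_le _ _) (max_lt ?_ ?_)
    · have h1 : (C T₁ * X ^ e * low x₀ d Den : (PowerSeries ℂ)[X]).degree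
          ≤ (e : WithBot ℕ) + (low x₀ d Den).degree := by
        refine le_trans (degree_mul_le _ _) ?_
        gcongr
        exact degree_C_mul_X_pow_le _ _
      refine lt_of_le_of_lt h1 ?_
      have h2 := degree_low_lt x₀ d Den
      rw [Nat.cast_add]
      exact WithBot.add_lt_add_left (by simp) h2
    · have h1 : (revShift x₀ d g).degree ≤ (d : WithBot ℕ) := by
        unfold revShift
        refine le_trans (degree_add_le _ _) (max_le (degree_C_mul_X_pow_le _ _) ?_)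
        exact (degree_low_lt x₀ d g).le
      refine lt_of_le_of_lt h1 ?_
      exact_mod_cast (by omega : d < e + d)
  have hmonic : f.Monic := monic_X_pow_add hdegR
  -- reduction of `f` modulo `s`
  have hfmap : f.map PowerSeries.constantCoeff = X ^ (e + d) - C (Y₀ ^ e) * X ^ d := by
    rw [hf, hR, Polynomial.map_add, Polynomial.map_mul, Polynomial.map_sub, Polynomial.map_mul,
      map_low, map_revShift, Polynomial.map_pow, map_X, map_C, hw₀, hY₀]
    have : (t₀ * D₀)⁻¹ * g₀ = g₀ / (t₀ * D₀) := by rw [div_eq_inv_mul]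
    rw [mul_zero, zero_sub, mul_neg, ← mul_assoc, ← C_mul, ← sub_eq_add_neg, ← hg₀def, this]
  have key : ∀ p : (PowerSeries ℂ)[X], PowerSeries.constantCoeff (p.eval (PowerSeries.C Y₀))
      = (p.map PowerSeries.constantCoeff).eval Y₀ := by
    intro p
    rw [eval_map]
    conv_rhs => rw [← PowerSeries.constantCoeff_C (R := ℂ) Y₀]
    rw [eval₂_at_apply]
  have hI : f.eval (PowerSeries.C Y₀) ∈ Ideal.span {(PowerSeries.X : PowerSeries ℂ)} := by
    rw [Ideal.mem_span_singleton, PowerSeries.X_dvd_iff, key, hfmap]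
    simp [pow_add]
  have hU : IsUnit (Ideal.Quotient.mk (Ideal.span {(PowerSeries.X : PowerSeries ℂ)})
      (f.derivative.eval (PowerSeries.C Y₀))) := by
    apply IsUnit.map
    rw [PowerSeries.isUnit_iff_constantCoeff, key, ← derivative_map, hfmap, isUnit_iff_ne_zero]
    have hd1 : d = (d - 1) + 1 := by omega
    have hed : e + d - 1 = e + (d - 1) := by omega
    simp only [derivative_sub, derivative_X_pow, derivative_mul, derivative_C, zero_mul, zero_add,
      eval_sub, eval_mul, eval_pow, eval_X, eval_C, hed]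
    have : ((e + d : ℕ) : ℂ) * Y₀ ^ (e + (d - 1)) - Y₀ ^ e * ((d : ℂ) * Y₀ ^ (d - 1))
        = (e : ℂ) * Y₀ ^ (e + (d - 1)) := by
      push_cast
      ring
    rw [this]
    exact mul_ne_zero (Nat.cast_ne_zero.mpr he.ne') (pow_ne_zero _ hY₀0)
  obtain ⟨Y, hroot, hYa⟩ := HenselianRing.is_henselian f hmonic (PowerSeries.C Y₀) hI hU
  -- `Y` is a unit
  have hYcc : PowerSeries.constantCoeff Y = Y₀ := by
    rw [Ideal.mem_span_singleton, PowerSeries.X_dvd_iff] at hYa
    simpa [sub_eq_zero] using hYa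
  have hYinv : Y * Y⁻¹ = 1 := PowerSeries.mul_inv_cancel _ (by rw [hYcc]; exact hY₀0)
  have hY0 : Y ≠ 0 := by
    rintro rfl
    simp at hYinv
  set υ : PowerSeries ℂ := Y⁻¹ with hυ
  set Λ : PowerSeries ℂ := PowerSeries.C x₀ + PowerSeries.X * υ with hΛ
  -- the equation satisfied by `Y`
  have hgd : g.natDegree ≤ d := by omega
  have hDd : Den.natDegree ≤ d := by omega
  have hmain : T₁ * Y ^ e * aeval Λ Den = aeval Λ g := by
    have h0 : f.eval Y = 0 := hroot
    rw [hf_eq, eval_mul, eval_C, eval_sub, eval_mul, eval_mul, eval_C, eval_pow, eval_X,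
      eval_revShift x₀ d Den hDd Y υ hYinv, eval_revShift x₀ d g hgd Y υ hYinv] at h0
    have h1 := (mul_eq_zero.mp h0).resolve_left hwne
    have h2 : Y ^ d * (T₁ * Y ^ e * aeval Λ Den - aeval Λ g) = 0 := by
      rw [← h1]; ring
    have h3 := (mul_eq_zero.mp h2).resolve_left (pow_ne_zero _ hY0)
    exact sub_eq_zero.mp h3
  refine ⟨Λ, ?_, ?_, ?_⟩
  · simp [hΛ]
  · rw [hΛ, map_add, PowerSeries.coeff_succ_X_mul]
    have : PowerSeries.coeff 1 (PowerSeries.C x₀ : PowerSeries ℂ) = 0 := by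
      rw [PowerSeries.coeff_C]; simp
    rw [this, zero_add, PowerSeries.coeff_zero_eq_constantCoeff_apply, hυ,
      PowerSeries.constantCoeff_inv, hYcc]
    exact inv_ne_zero hY₀0
  · have hNum : Num = C a * Den + (X - C x₀) ^ e * g := by rw [← hfac]; ring
    have hΛx : aeval Λ (X - C x₀ : ℂ[X]) = PowerSeries.X * υ := by
      simp [hΛ]
    have hCa : aeval Λ (C a : ℂ[X]) = PowerSeries.C a := by
      rw [aeval_C]; rfl
    have hυY : υ ^ e * Y ^ e = 1 := by rw [← mul_pow, mul_comm, hYinv, one_pow]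
    rw [hNum, map_add, map_mul, map_mul, map_pow, hΛx, hCa, ← hmain, hT₁, mul_pow]
    linear_combination (PowerSeries.X ^ e * T₁ * aeval Λ Den) * hυY

end Fermat.Agent.S18.RootExt
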