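import Mathlib
import Fermat.Agent.S18.IgusaTop
import Fermat.Agent.S18.RootExt

/-!
# S18 : from local factorisations (E3) and hypothesis (H) to `IgusaTop.HorInput` (bridge (B-H))

* `horInput_of_local`: the cover-independent step.  If at every relevant root `x₀` the cover has
  a local factorisation `Num - a·Den = (X - x₀)^(e a)·g`, `g(x₀) ≠ 0`, with value `a ∈ S`, and
  hypothesis (H) provides for each `a ∈ S` a power series `T` of order `e a` and `[F : Ky]`
  distinct embeddings `ι i : F → ℂ((s))` with `ι i (y) = a + T`, then `HorInput` holds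
  (`Λ` by `RootExt.exists_powerSeries_root`).
* `isAlgebraic_of_root`: the roots of a nonzero polynomial with algebraic coefficients are
  algebraic (so that the value set `S` may be restricted to algebraic numbers).
-/

set_option autoImplicit false

namespace Fermat.Agent.S18.HorBridge

open Polynomial

/-- The roots of a nonzero polynomial whose coefficients are algebraic numbers are algebraic. -/
theorem isAlgebraic_of_root {O : Type*} [CommRing O] (φ : O →+* ℂ)
    (hφalg : ∀ o : O, IsAlgebraic ℚ (φ o)) (p : O[X]) (hp : p.map φ ≠ 0) (x₀ : ℂ)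
    (h : (p.map φ).eval x₀ = 0) : IsAlgebraic ℚ x₀ := by
  have hmem : p.map φ ∈ lifts (algebraMap (algebraicClosure ℚ ℂ) ℂ) := by
    rw [lifts_iff_coeff_lifts]
    intro n
    rw [coeff_map]
    exact ⟨⟨φ (p.coeff n), mem_algebraicClosure_iff.mpr (hφalg _)⟩, rfl⟩
  obtain ⟨q, hq⟩ := (mem_lifts _).mp hmem
  have hq0 : q ≠ 0 := by
    rintro rfl
    rw [Polynomial.map_zero] at hq
    exact hp hq.symm
  have hx : IsAlgebraic (algebraicClosure ℚ ℂ) x₀ :=
    ⟨q, hq0, by rw [aeval_def, ← eval_map, hq, h]⟩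
  have : Algebra.IsAlgebraic ℚ (algebraicClosure ℚ ℂ) := algebraicClosure.isAlgebraic ℚ ℂ
  exact IsAlgebraic.restrictScalars ℚ hx

section

variable {O : Type*} [CommRing O]
  (Ky F : Type*) [Field Ky] [Field F] [Algebra Ky F] [Algebra O[X] F]

/-- **Generic bridge (B-H).** Local factorisations of the cover at the relevant roots, with
values in `S`, together with hypothesis (H) on `S`, give `HorInput`. -/
theorem horInput_of_local (Num Den : O[X]) (π c : O) (φ : O →+* ℂ) (e : ℂ → ℕ) (S : Set ℂ)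
    (hE3 : ∀ c1 : O, π ∣ (Num - C c * Den).eval c1 → IsUnit (Den.eval c1) →
      ∀ p : O[X], Prime p → ¬ Associated p (C π) → π ∣ p.eval c1 →
      ∀ x0 : ℂ, (p.map φ).eval x0 = 0 →
      ∃ a : ℂ, a ∈ S ∧ (Den.map φ).eval x0 ≠ 0 ∧ ∃ g : ℂ[X],
        Num.map φ - C a * Den.map φ = (X - C x0) ^ e a * g ∧ g.eval x0 ≠ 0 ∧ 0 < e a)
    (hH : ∀ a ∈ S, ∃ T : PowerSeries ℂ, T.order = e a ∧
      ∃ ι : Fin (Module.finrank Ky F) → (F →+* LaurentSeries ℂ), Function.Injective ι ∧
        (∀ i (o : O), ι i (algebraMap O[X] F (C o)) = HahnSeries.C (φ o)) ∧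
        ∀ i, ι i (algebraMap O[X] F X) = HahnSeries.ofPowerSeries ℤ ℂ (PowerSeries.C a + T)) :
    IgusaTop.HorInput Ky F Num Den π c φ := by
  intro c1 hc1 hDen p hp hpπ hpc x0 hx0
  obtain ⟨a, haS, hD0, g, hfac, hg, he⟩ := hE3 c1 hc1 hDen p hp hpπ hpc x0 hx0
  obtain ⟨T, hT, ι, hι, hιC, hιX⟩ := hH a haS
  obtain ⟨Λ, hΛ0, hΛ1, hΛ⟩ := RootExt.exists_powerSeries_root (Num.map φ) (Den.map φ) a x0 (e a)
    he g hfac hg hD0 T hT
  refine ⟨Λ, ι, hΛ0, hΛ1, hι, hιC, fun i => ?_⟩
  rw [hΛ, map_mul, hιX]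

end

end Fermat.Agent.S18.HorBridge
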