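import Mathlib
import Fermat.Agent.S18.CoverGen
import Fermat.Agent.S18.GaussRoot

/-!
# S18 : the Kummer chart at the cusps (blueprint [Igusa], COVERS; assembly spec, cover datum)

The cover used at the cusps (chart `y = 1/j`, point `c = 0`) is `y = x ^ N`, i.e. `Num = X ^ N`,
`Den = 1`, over a base `O` containing a primitive `N`-th root of unity.  This file instantiates
the generic cover field of `CoverGen` and provides the cover-specific inputs of the spec:

* `data O N hN : RatData O`, `isUnit_leadingCoeff_num`, `isIntegral_xc` (L4),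
  `isUnit_eval_den` (every `c₁` is admissible), `dvd_of_dvd_eval_num` (points over `c = 0`);
* `X_pow_sub_C_pow_eq_prod`, `splits_X_pow_sub_C_pow`, `splitPoly_eq`, `splits_splitPoly`,
  `isGalois`: the cover is Galois over `Frac O[y]` (roots `μ x`, `μ ∈ μ_N`);
* `bezout`: (E0);
* `ram`, `valueSet`, `local_factorisation`, `local_factorisation_data`: (E3) with `e 0 = N`,
  `e a = 1` otherwise, `S = {a | 1728 a ≠ 1}`;
* `mem_valueSet_of_root`: the roots `x₀` of a prime `p ≁ π` of `O[X]` through a point `c₁ ≡ 0`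
  of the special fibre have `x₀ ^ N ∈ S` (the relevant points of the Kummer chart do not lie
  over `j = 1728`).
-/

set_option autoImplicit false

namespace Fermat.Agent.S18.KummerChart

open Polynomial
open Fermat.Agent.S18

universe u

section Splitting

variable {L : Type*} [Field L] {N : ℕ}

/-- `Y ^ N - x ^ N = ∏_{μ ∈ μ_N} (Y - μ x)`. -/
theorem X_pow_sub_C_pow_eq_prod (hN : 0 < N) {ζ : L} (hζ : IsPrimitiveRoot ζ N) (x : L) :
    (X ^ N - C (x ^ N) : L[X]) = ∏ μ ∈ nthRootsFinset N (1 : L), (X - C (μ * x)) := by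
  classical
  have hC : Function.Injective (C : L → L[X]) := C_injective
  have hζ' : IsPrimitiveRoot (C ζ) N := hζ.map_of_injective hC
  have himg : (nthRootsFinset N (1 : L)).image C = nthRootsFinset N (1 : L[X]) := by
    refine Finset.eq_of_subset_of_card_le ?_ ?_
    · intro y hy
      obtain ⟨μ, hμ, rfl⟩ := Finset.mem_image.mp hy
      rw [mem_nthRootsFinset hN] at hμ ⊢
      rw [← C_pow, hμ, C_1]
    · rw [hζ'.card_nthRootsFinset, Finset.card_image_of_injective _ hC, hζ.card_nthRootsFinset]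
  rw [C_pow, hζ'.pow_sub_pow_eq_prod_sub_mul _ _ hN, ← himg,
    Finset.prod_image (fun a _ b _ h => hC h)]
  refine Finset.prod_congr rfl fun μ _ => ?_
  rw [C_mul]

/-- `Y ^ N - x ^ N` splits over a field containing a primitive `N`-th root of unity. -/
theorem splits_X_pow_sub_C_pow (hN : 0 < N) {ζ : L} (hζ : IsPrimitiveRoot ζ N) (x : L) :
    (X ^ N - C (x ^ N) : L[X]).Splits := by
  rw [X_pow_sub_C_pow_eq_prod hN hζ x]
  exact Splits.prod fun μ _ => Splits.X_sub_C _

end Splitting

section Data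

variable (O : Type u) [CommRing O] [IsDomain O] (N : ℕ) (hN : 0 < N)

/-- The Kummer cover `y = x ^ N` of the affine line. -/
noncomputable def data : CoverGen.RatData O where
  Num := X ^ N
  Den := 1
  hDen := one_ne_zero
  hdeg := by
    rw [natDegree_one, natDegree_X_pow]
    exact hN

@[simp] theorem data_Num : (data O N hN).Num = X ^ N := rfl

@[simp] theorem data_Den : (data O N hN).Den = 1 := rfl

theorem isUnit_leadingCoeff_num : IsUnit (data O N hN).Num.leadingCoeff := by
  rw [data_Num, leadingCoeff_X_pow]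
  exact isUnit_one

/-- (L4) for the Kummer cover. -/
theorem isIntegral_xc : IsIntegral O[X] (CoverGen.xc (data O N hN)) :=
  CoverGen.isIntegral_xc _ (isUnit_leadingCoeff_num O N hN)

/-- Every point `c₁` of the `x`-line is admissible: `Den(c₁) = 1`. -/
theorem isUnit_eval_den (c₁ : O) : IsUnit ((data O N hN).Den.eval c₁) := by
  rw [data_Den, eval_one]
  exact isUnit_one

variable {O N}

/-- The points of the `x`-line over `y ≡ 0` are the points `c₁ ≡ 0`. -/
theorem dvd_of_dvd_eval_num {π : O} (hπ : Prime π) {c₁ : O}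
    (h : π ∣ (data O N hN).Num.eval c₁) : π ∣ c₁ := by
  rw [data_Num, eval_pow, eval_X] at h
  exact hπ.dvd_of_dvd_pow h

variable (O N)

theorem splitPoly_eq :
    CoverGen.splitPoly (data O N hN) = X ^ N - C (CoverGen.xc (data O N hN) ^ N) := by
  unfold CoverGen.splitPoly
  simp only [data_Num, data_Den, map_one, Polynomial.map_pow, Polynomial.map_X, Polynomial.map_one,
    one_mul, mul_one, map_pow]
  rfl

variable {O N}

theorem splits_splitPoly {ζ : O} (hζ : IsPrimitiveRoot ζ N) :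
    (CoverGen.splitPoly (data O N hN)).Splits := by
  rw [splitPoly_eq]
  have hinj : Function.Injective ((CoverGen.ev (data O N hN)).comp C) :=
    (CoverGen.ev_injective _).comp C_injective
  exact splits_X_pow_sub_C_pow hN (hζ.map_of_injective hinj) _

/-- The Kummer cover is Galois over `Frac O[y]` when `O ∋ ζ_N` has characteristic zero. -/
theorem isGalois [CharZero O] {ζ : O} (hζ : IsPrimitiveRoot ζ N) :
    IsGalois (FractionRing O[X]) (CoverGen.CoverField (data O N hN)) :=
  CoverGen.isGalois_of_splits _ (splits_splitPoly hN hζ)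

variable (O N)

/-- (E0) for the Kummer cover. -/
theorem bezout : ∃ a b : O[X], a * (data O N hN).Num + b * (data O N hN).Den = 1 :=
  ⟨0, 1, by simp⟩

end Data

section Ramification

/-- The ramification function of the Kummer cover `y = x ^ N`. -/
noncomputable def ram (N : ℕ) (a : ℂ) : ℕ := if a = 0 then N else 1

theorem ram_zero (N : ℕ) : ram N 0 = N := if_pos rfl

theorem ram_of_ne_zero (N : ℕ) {a : ℂ} (ha : a ≠ 0) : ram N a = 1 := if_neg ha

theorem ram_pos {N : ℕ} (hN : 0 < N) (a : ℂ) : 0 < ram N a := by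
  unfold ram
  split_ifs
  · exact hN
  · exact Nat.one_pos

/-- The values `a = 1/j` allowed on the Kummer chart: everything but `j = 1728`. -/
def valueSet : Set ℂ := {a | 1728 * a ≠ 1}

theorem mem_valueSet_iff {a : ℂ} : a ∈ valueSet ↔ 1728 * a ≠ 1 := Iff.rfl

theorem zero_mem_valueSet : (0 : ℂ) ∈ valueSet := by
  simp [valueSet]

/-- (E3) for the Kummer cover: the local factorisation of `X ^ N - a` at a root `x₀`. -/
theorem local_factorisation {N : ℕ} (hN : 0 < N) (x₀ : ℂ) :
    ∃ g : ℂ[X], (X ^ N : ℂ[X]) - C (x₀ ^ N) * 1 = (X - C x₀) ^ ram N (x₀ ^ N) * g ∧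
      g.eval x₀ ≠ 0 ∧ 0 < ram N (x₀ ^ N) := by
  suffices h : ∃ g : ℂ[X], (X ^ N : ℂ[X]) - C (x₀ ^ N) * 1 = (X - C x₀) ^ ram N (x₀ ^ N) * g ∧
      g.eval x₀ ≠ 0 by
    obtain ⟨g, h1, h2⟩ := h
    exact ⟨g, h1, h2, ram_pos hN _⟩
  by_cases hx : x₀ = 0
  · subst hx
    refine ⟨1, ?_, by simp⟩
    rw [zero_pow hN.ne', ram_zero]
    simp
  · rw [ram_of_ne_zero N (pow_ne_zero N hx), pow_one, mul_one]
    have hroot : (X ^ N - C (x₀ ^ N) : ℂ[X]).IsRoot x₀ := by simp
    obtain ⟨g, hg⟩ := dvd_iff_isRoot.mpr hroot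
    refine ⟨g, hg, ?_⟩
    have hd := congrArg (fun p => (derivative p).eval x₀) hg
    simp only [derivative_sub, derivative_X_pow, derivative_C, sub_zero, derivative_mul,
      derivative_X, one_mul, eval_add, eval_mul, eval_sub, eval_X, eval_C, sub_self, zero_mul,
      add_zero, eval_pow] at hd
    rw [← hd]
    exact mul_ne_zero (Nat.cast_ne_zero.mpr hN.ne') (pow_ne_zero _ hx)

variable (O : Type u) [CommRing O] [IsDomain O] (N : ℕ) (hN : 0 < N)

theorem eval_map_den (φ : O →+* ℂ) (x₀ : ℂ) : ((data O N hN).Den.map φ).eval x₀ = 1 := by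
  simp

theorem eval_map_den_ne_zero (φ : O →+* ℂ) (x₀ : ℂ) : ((data O N hN).Den.map φ).eval x₀ ≠ 0 := by
  rw [eval_map_den]
  exact one_ne_zero

theorem eval_map_num (φ : O →+* ℂ) (x₀ : ℂ) : ((data O N hN).Num.map φ).eval x₀ = x₀ ^ N := by
  simp

/-- The value `a = Num(x₀)/Den(x₀)` of the spec is `x₀ ^ N`. -/
theorem value_eq (φ : O →+* ℂ) (x₀ : ℂ) :
    ((data O N hN).Num.map φ).eval x₀ / ((data O N hN).Den.map φ).eval x₀ = x₀ ^ N := by
  rw [eval_map_num, eval_map_den, div_one]

/-- (E3) for the Kummer cover datum, at every `x₀ : ℂ`. -/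
theorem local_factorisation_data (φ : O →+* ℂ) (x₀ : ℂ) :
    ∃ g : ℂ[X], (data O N hN).Num.map φ - C (x₀ ^ N) * (data O N hN).Den.map φ
        = (X - C x₀) ^ ram N (x₀ ^ N) * g ∧ g.eval x₀ ≠ 0 ∧ 0 < ram N (x₀ ^ N) := by
  simpa using local_factorisation hN x₀

end Ramification

section ValueSet

variable {O : Type u} [CommRing O] [IsDomain O] [IsDiscreteValuationRing O]

/-- On the Kummer chart at `c = 0`: the roots `x₀` of a prime `p ≁ π` of `O[X]` passing through
a point `c₁ ≡ 0` of the special fibre satisfy `1728 · x₀ ^ N ≠ 1`. -/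
theorem mem_valueSet_of_root {π : O} (hπ : Irreducible π) (N : ℕ) (φ : O →+* ℂ)
    (hφ : Function.Injective φ) {c₁ : O} (hc₁ : π ∣ c₁) {p : O[X]} (hp : Prime p)
    (hpπ : ¬ Associated p (C π)) (hpc : π ∣ p.eval c₁) (x₀ : ℂ)
    (hx₀ : (p.map φ).eval x₀ = 0) : x₀ ^ N ∈ valueSet := by
  intro h
  rcases Nat.eq_zero_or_pos N with hN | hN
  · subst hN
    norm_num at h
  set q : O[X] := C 1728 * X ^ N - 1 with hq
  have hq0 : (q.map φ).eval x₀ = 0 := by
    have h1 : φ 1728 = 1728 := map_ofNat φ 1728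
    simp only [hq, Polynomial.map_sub, Polynomial.map_mul, map_C, Polynomial.map_pow, map_X,
      Polynomial.map_one, eval_sub, eval_mul, eval_C, eval_pow, eval_X, eval_one, h1]
    rw [h, sub_self]
  have h1 : π ∣ q.eval c₁ :=
    GaussRoot.dvd_eval_of_prime_of_common_root hπ φ hφ hp hpπ hpc x₀ hx₀ hq0
  have h2 : q.eval c₁ = 1728 * c₁ ^ N - 1 := by
    simp [hq]
  have h3 : π ∣ 1728 * c₁ ^ N := Dvd.dvd.mul_left (dvd_pow hc₁ hN.ne') _
  rw [h2] at h1
  have h4 : π ∣ 1 := by
    have := dvd_sub h3 h1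
    rwa [sub_sub_cancel] at this
  exact hπ.not_isUnit (isUnit_of_dvd_one h4)

/-- The same with the point given by `π ∣ Num(c₁)` (i.e. `J(c₁) ≡ 0`). -/
theorem mem_valueSet_of_root' {π : O} (hπ : Irreducible π) (N : ℕ) (hN : 0 < N) (φ : O →+* ℂ)
    (hφ : Function.Injective φ) {c₁ : O} (hc₁ : π ∣ (data O N hN).Num.eval c₁) {p : O[X]}
    (hp : Prime p) (hpπ : ¬ Associated p (C π)) (hpc : π ∣ p.eval c₁) (x₀ : ℂ)
    (hx₀ : (p.map φ).eval x₀ = 0) :
    ((data O N hN).Num.map φ).eval x₀ / ((data O N hN).Den.map φ).eval x₀ ∈ valueSet := by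
  rw [value_eq]
  exact mem_valueSet_of_root hπ N φ hφ
    (dvd_of_dvd_eval_num hN (UniqueFactorizationMonoid.irreducible_iff_prime.mp hπ) hc₁) hp hpπ hpc x₀ hx₀

end ValueSet

end Fermat.Agent.S18.KummerChart
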