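import Mathlib
import Fermat.Agent.S18.HorBridge
import Fermat.Agent.S18.KummerChart

/-!
# S18 : `HorInput` for the Kummer cover (bridge (B-H), chart `y = 1/j`, point `c = 0`)

`horInput`: over a DVR `O` with uniformizer `π` and an embedding `φ : O → ℂ` with algebraic
values, hypothesis (H) at the cusp value `a = 0` (order `N`) and at the algebraic values
`a ≠ 0`, `1728·a ≠ 1` (order `1`) gives `IgusaTop.HorInput Ky F (X ^ N) 1 π 0 φ`.

The two hypotheses are literally the outputs `hypH_inf_zero` / `hypH_inf_ne` of `HorHyp`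
(resp. `hypH_FK_inf_zero` / `hypH_FK_inf_ne` of `DegFK`) for the `A0`-structure `y ↦ j⁻¹`.
-/

set_option autoImplicit false

namespace Fermat.Agent.S18.KummerHor

open Polynomial
open Fermat.Agent.S18

variable {O : Type*} [CommRing O] [IsDomain O] [IsDiscreteValuationRing O]
  (Ky F : Type*) [Field Ky] [Field F] [Algebra Ky F] [Algebra O[X] F]

/-- **(B-H) for the Kummer cover at `c = 0`.** -/
theorem horInput {N : ℕ} (hN : 0 < N) {π : O} (hπ : Irreducible π) (φ : O →+* ℂ)
    (hφ : Function.Injective φ) (hφalg : ∀ o : O, IsAlgebraic ℚ (φ o))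
    (hH0 : ∃ T : PowerSeries ℂ, T.order = N ∧
      ∃ ι : Fin (Module.finrank Ky F) → (F →+* LaurentSeries ℂ), Function.Injective ι ∧
        (∀ i (o : O), ι i (algebraMap O[X] F (C o)) = HahnSeries.C (φ o)) ∧
        ∀ i, ι i (algebraMap O[X] F X) = HahnSeries.ofPowerSeries ℤ ℂ (PowerSeries.C 0 + T))
    (hH1 : ∀ a : ℂ, IsAlgebraic ℚ a → a ≠ 0 → 1728 * a ≠ 1 →
      ∃ T : PowerSeries ℂ, T.order = 1 ∧
      ∃ ι : Fin (Module.finrank Ky F) → (F →+* LaurentSeries ℂ), Function.Injective ι ∧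
        (∀ i (o : O), ι i (algebraMap O[X] F (C o)) = HahnSeries.C (φ o)) ∧
        ∀ i, ι i (algebraMap O[X] F X) = HahnSeries.ofPowerSeries ℤ ℂ (PowerSeries.C a + T)) :
    IgusaTop.HorInput Ky F (X ^ N : O[X]) (1 : O[X]) π 0 φ := by
  refine HorBridge.horInput_of_local Ky F (X ^ N : O[X]) (1 : O[X]) π 0 φ (KummerChart.ram N)
    {a | IsAlgebraic ℚ a ∧ 1728 * a ≠ 1} ?_ ?_
  · intro c1 hc1 _ p hp hpπ hpc x0 hx0
    have hc1' : π ∣ c1 := by
      have h1 : π ∣ c1 ^ N := by simpa using hc1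
      exact (UniqueFactorizationMonoid.irreducible_iff_prime.mp hπ).dvd_of_dvd_pow h1
    have hpmap : p.map φ ≠ 0 := (Polynomial.map_ne_zero_iff hφ).mpr hp.ne_zero
    have halg : IsAlgebraic ℚ x0 := HorBridge.isAlgebraic_of_root φ hφalg p hpmap x0 hx0
    refine ⟨x0 ^ N, ⟨halg.pow N, ?_⟩, by simp, ?_⟩
    · exact KummerChart.mem_valueSet_of_root hπ N φ hφ hc1' hp hpπ hpc x0 hx0
    · simpa using KummerChart.local_factorisation hN x0
  · rintro a ⟨halg, h1728⟩
    by_cases ha : a = 0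
    · subst ha
      rw [KummerChart.ram_zero]
      exact hH0
    · rw [KummerChart.ram_of_ne_zero N ha, Nat.cast_one]
      exact hH1 a halg ha h1728

end Fermat.Agent.S18.KummerHor
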