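import Mathlib
import Fermat.Agent.S18.IgusaInst
import Fermat.Agent.S18.HorBridge
import Fermat.Agent.S18.KummerHor
import Fermat.Agent.S18.GaussRoot
import Fermat.Agent.S18.DegFK
import Fermat.Agent.S18.DegFKy

/-!
# S18 team library, block [IGUSA] T8 (C4): the horizontal input `HorInput` at the two charts

OWNER: helper73 (only the owner edits this file).

For the chart field `ChartF N K t` (`t = jK` resp. `t = jK⁻¹`) over `O = OK A K`, with
`φ = embC ∘ incO : O → ℂ`:

* `horInput_fin_core`: `IgusaTop.HorInput Ky (ChartF N K jK) Num Den π c φ` from the local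
  factorisations (E3) of the cover (`e = HorHyp.eC`);
* `horInput_inf_core`: `IgusaTop.HorInput Ky (ChartF N K jK⁻¹) (X ^ N) 1 π 0 φ` (Kummer cover).

Producers: `DegFK.hypH_FK_fin / _inf_zero / _inf_ne` (the analytic families of embeddings),
`DegFKy.finrank_eq_OK` (`[F_K : Ky] = ψ(N)`), `HorBridge.horInput_of_local`,
`KummerHor.horInput`, `GaussRoot.eval_ne_zero_of_isUnit_eval`.
-/

set_option autoImplicit false

noncomputable section

namespace Fermat.Agent.S18.ChartHor

open Polynomial ModularCurve Fermat.Agent.S24 Fermat.Agent.S18.Arith Fermat.Agent.S18.IgusaInst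

variable (N : ℕ) [NeZero N] (A : ValuationSubring Qb) (K : IntermediateField ℚ Qb)

/-- `φ = embC ∘ incO` is injective. -/
theorem phi_injective : Function.Injective (embC.comp (incO A K)) := by
  intro a b hab
  have h1 : incO A K a = incO A K b := embC_injective hab
  have h2 : ((a : K) : Qb) = ((b : K) : Qb) := h1
  exact Subtype.ext (Subtype.ext h2)

/-- `φ = embC ∘ incO` has algebraic values. -/
theorem phi_isAlgebraic (o : OK A K) : IsAlgebraic ℚ (embC.comp (incO A K) o) :=
  DegFK.isAlgebraic_embC _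

/-- `[F_K : Ky] = ψ(N)` for the chart field. -/
theorem finrank_chartF (t : FK N K) (ht : t = jK N K ∨ t = (jK N K)⁻¹)
    [FaithfulSMul (OK A K)[X] (ChartF N K t)] :
    Module.finrank (FractionRing (OK A K)[X]) (ChartF N K t) = dedekindPsi N :=
  (@DegFKy.finrank_eq_OK N _ K A (FractionRing (OK A K)[X]) _ _ _
    (instAlgebraKyChartF N A K t) (instAlgebraChartF N A K t) (instIsScalarTowerChartF N A K t)
    (fun o => algebraMap_chartF_C N A K t o)
    (by
      rcases ht with h | h
      · exact Or.inl ((algebraMap_chartF_X N A K t).trans h)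
      · exact Or.inr ((algebraMap_chartF_X N A K t).trans h))).2

/-- Recasting of the analytic families of `DegFK` to the chart field. -/
theorem recast (t : FK N K) (ht : t = jK N K ∨ t = (jK N K)⁻¹)
    [FaithfulSMul (OK A K)[X] (ChartF N K t)] (a : ℂ) (e : ℕ)
    (h : ∃ T : PowerSeries ℂ, T.order = e ∧
      ∃ ι : Fin (dedekindPsi N) → (↥(FK N K) →+* LaurentSeries ℂ), Function.Injective ι ∧
        (∀ i (c : K), ι i (constK N K c) = HahnSeries.C (embC (c : Qb))) ∧
        (∀ i, ι i t = HahnSeries.ofPowerSeries ℤ ℂ (PowerSeries.C a + T))) :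
    ∃ T : PowerSeries ℂ, T.order = e ∧
      ∃ ι : Fin (Module.finrank (FractionRing (OK A K)[X]) (ChartF N K t)) →
          (ChartF N K t →+* LaurentSeries ℂ), Function.Injective ι ∧
        (∀ i (o : OK A K), ι i (algebraMap (OK A K)[X] (ChartF N K t) (C o)) =
          HahnSeries.C (embC.comp (incO A K) o)) ∧
        ∀ i, ι i (algebraMap (OK A K)[X] (ChartF N K t) X) =
          HahnSeries.ofPowerSeries ℤ ℂ (PowerSeries.C a + T) := by
  obtain ⟨T, hT, ι, hι, hc, hj⟩ := h
  have hfr := finrank_chartF N A K t ht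
  refine ⟨T, hT, fun i => ι (Fin.cast hfr i), ?_, ?_, ?_⟩
  · intro i i' hii
    exact Fin.cast_injective hfr (hι hii)
  · intro i o
    rw [algebraMap_chartF_C]
    exact hc (Fin.cast hfr i) (o : K)
  · intro i
    rw [algebraMap_chartF_X]
    exact hj (Fin.cast hfr i)

/-- The embedding `φ = embC ∘ incO : O = A ∩ K → ℂ`. -/
def phiO : OK A K →+* ℂ := embC.comp (incO A K)

theorem phiO_apply (o : OK A K) : phiO A K o = embC (incO A K o) := rfl

theorem phiO_injective : Function.Injective (phiO A K) := phi_injective A K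

theorem isAlgebraic_phiO (o : OK A K) : IsAlgebraic ℚ (phiO A K o) := phi_isAlgebraic A K o

/-- **(C4), chart `y = j`**: the family (H) for the chart field, at every algebraic value. -/
theorem hH_fin [FaithfulSMul (OK A K)[X] (ChartF N K (jK N K))] :
    ∀ a : ℂ, IsAlgebraic ℚ a → ∃ T : PowerSeries ℂ, T.order = HorHyp.eC a ∧
      ∃ ι : Fin (Module.finrank (FractionRing (OK A K)[X]) (ChartF N K (jK N K))) →
          (ChartF N K (jK N K) →+* LaurentSeries ℂ), Function.Injective ι ∧
        (∀ i (o : OK A K), ι i (algebraMap (OK A K)[X] (ChartF N K (jK N K)) (C o)) =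
          HahnSeries.C (phiO A K o)) ∧
        ∀ i, ι i (algebraMap (OK A K)[X] (ChartF N K (jK N K)) X) =
          HahnSeries.ofPowerSeries ℤ ℂ (PowerSeries.C a + T) :=
  fun a ha => recast N A K (jK N K) (Or.inl rfl) a (HorHyp.eC a) (DegFK.hypH_FK_fin N K a ha)

/-- **(C4), chart `y = 1/j`, cusp value `0`.** -/
theorem hH_inf0 [FaithfulSMul (OK A K)[X] (ChartF N K (jK N K)⁻¹)] :
    ∃ T : PowerSeries ℂ, T.order = N ∧
      ∃ ι : Fin (Module.finrank (FractionRing (OK A K)[X]) (ChartF N K (jK N K)⁻¹)) →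
          (ChartF N K (jK N K)⁻¹ →+* LaurentSeries ℂ), Function.Injective ι ∧
        (∀ i (o : OK A K), ι i (algebraMap (OK A K)[X] (ChartF N K (jK N K)⁻¹) (C o)) =
          HahnSeries.C (phiO A K o)) ∧
        ∀ i, ι i (algebraMap (OK A K)[X] (ChartF N K (jK N K)⁻¹) X) =
          HahnSeries.ofPowerSeries ℤ ℂ (PowerSeries.C 0 + T) :=
  recast N A K (jK N K)⁻¹ (Or.inr rfl) 0 N (DegFK.hypH_FK_inf_zero N K)

/-- **(C4), chart `y = 1/j`, values `a ≠ 0`, `1728·a ≠ 1`.** -/
theorem hH_inf1 [FaithfulSMul (OK A K)[X] (ChartF N K (jK N K)⁻¹)] :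
    ∀ a : ℂ, IsAlgebraic ℚ a → a ≠ 0 → 1728 * a ≠ 1 → ∃ T : PowerSeries ℂ, T.order = 1 ∧
      ∃ ι : Fin (Module.finrank (FractionRing (OK A K)[X]) (ChartF N K (jK N K)⁻¹)) →
          (ChartF N K (jK N K)⁻¹ →+* LaurentSeries ℂ), Function.Injective ι ∧
        (∀ i (o : OK A K), ι i (algebraMap (OK A K)[X] (ChartF N K (jK N K)⁻¹) (C o)) =
          HahnSeries.C (phiO A K o)) ∧
        ∀ i, ι i (algebraMap (OK A K)[X] (ChartF N K (jK N K)⁻¹) X) =
          HahnSeries.ofPowerSeries ℤ ℂ (PowerSeries.C a + T) :=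
  fun a ha ha0 ha1 =>
    recast N A K (jK N K)⁻¹ (Or.inr rfl) a 1 (DegFK.hypH_FK_inf_ne N K a ha ha0 ha1)

/-- **(C4), composed**: `HorInput` for the Kummer cover at the chart `y = 1/j`, point `c = 0`. -/
theorem horInput_inf [IsDiscreteValuationRing (OK A K)]
    [FaithfulSMul (OK A K)[X] (ChartF N K (jK N K)⁻¹)] (π : OK A K) (hπ : Irreducible π) :
    IgusaTop.HorInput (FractionRing (OK A K)[X]) (ChartF N K (jK N K)⁻¹) (X ^ N) 1 π 0
      (phiO A K) :=
  KummerHor.horInput (FractionRing (OK A K)[X]) (ChartF N K (jK N K)⁻¹) (Nat.pos_of_ne_zero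
    (NeZero.ne N)) hπ (phiO A K) (phiO_injective A K) (isAlgebraic_phiO A K) (hH_inf0 N A K)
    (hH_inf1 N A K)

end Fermat.Agent.S18.ChartHor
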