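import Mathlib
import Fermat.Agent.S18.ChartHor
import Fermat.Agent.S18.ChartBase

/-!
# S18 team library, block [IGUSA] T8 (C4): `ChartHor` restated with `ChartBase.phiO`

OWNER: helper73 (only the owner edits this file).

`ChartHor.phiO` and `ChartBase.phiO` are the same ring hom `embC ∘ incO` (both files landed
within a minute of each other).  This file restates the (C4) families and the composed Kummer
`HorInput` with `ChartBase.phiO`, so that consumers only ever see ONE `phiO`.
-/

set_option autoImplicit false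

namespace Fermat.Agent.S18.ChartHorBase

open Polynomial ModularCurve Fermat.Agent.S18.Arith Fermat.Agent.S18.IgusaInst

variable (N : ℕ) [NeZero N] (A : ValuationSubring Qb) (K : IntermediateField ℚ Qb)

theorem phiO_eq : ChartHor.phiO A K = ChartBase.phiO A K := rfl

/-- **(C4), chart `y = j`** (with `ChartBase.phiO`). -/
theorem hH_fin [FaithfulSMul (OK A K)[X] (ChartF N K (jK N K))] :
    ∀ a : ℂ, IsAlgebraic ℚ a → ∃ T : PowerSeries ℂ, T.order = HorHyp.eC a ∧
      ∃ ι : Fin (Module.finrank (FractionRing (OK A K)[X]) (ChartF N K (jK N K))) →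
          (ChartF N K (jK N K) →+* LaurentSeries ℂ), Function.Injective ι ∧
        (∀ i (o : OK A K), ι i (algebraMap (OK A K)[X] (ChartF N K (jK N K)) (C o)) =
          HahnSeries.C (ChartBase.phiO A K o)) ∧
        ∀ i, ι i (algebraMap (OK A K)[X] (ChartF N K (jK N K)) X) =
          HahnSeries.ofPowerSeries ℤ ℂ (PowerSeries.C a + T) :=
  ChartHor.hH_fin N A K

/-- **(C4), chart `y = 1/j`, cusp value `0`** (with `ChartBase.phiO`). -/
theorem hH_inf0 [FaithfulSMul (OK A K)[X] (ChartF N K (jK N K)⁻¹)] :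
    ∃ T : PowerSeries ℂ, T.order = N ∧
      ∃ ι : Fin (Module.finrank (FractionRing (OK A K)[X]) (ChartF N K (jK N K)⁻¹)) →
          (ChartF N K (jK N K)⁻¹ →+* LaurentSeries ℂ), Function.Injective ι ∧
        (∀ i (o : OK A K), ι i (algebraMap (OK A K)[X] (ChartF N K (jK N K)⁻¹) (C o)) =
          HahnSeries.C (ChartBase.phiO A K o)) ∧
        ∀ i, ι i (algebraMap (OK A K)[X] (ChartF N K (jK N K)⁻¹) X) =
          HahnSeries.ofPowerSeries ℤ ℂ (PowerSeries.C 0 + T) :=
  ChartHor.hH_inf0 N A K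

/-- **(C4), chart `y = 1/j`, values `a ≠ 0`, `1728·a ≠ 1`** (with `ChartBase.phiO`). -/
theorem hH_inf1 [FaithfulSMul (OK A K)[X] (ChartF N K (jK N K)⁻¹)] :
    ∀ a : ℂ, IsAlgebraic ℚ a → a ≠ 0 → 1728 * a ≠ 1 → ∃ T : PowerSeries ℂ, T.order = 1 ∧
      ∃ ι : Fin (Module.finrank (FractionRing (OK A K)[X]) (ChartF N K (jK N K)⁻¹)) →
          (ChartF N K (jK N K)⁻¹ →+* LaurentSeries ℂ), Function.Injective ι ∧
        (∀ i (o : OK A K), ι i (algebraMap (OK A K)[X] (ChartF N K (jK N K)⁻¹) (C o)) =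
          HahnSeries.C (ChartBase.phiO A K o)) ∧
        ∀ i, ι i (algebraMap (OK A K)[X] (ChartF N K (jK N K)⁻¹) X) =
          HahnSeries.ofPowerSeries ℤ ℂ (PowerSeries.C a + T) :=
  ChartHor.hH_inf1 N A K

/-- **(C4), composed** (with `ChartBase.phiO`): `HorInput` for the Kummer cover at the chart
`y = 1/j`, point `c = 0`. -/
theorem horInput_inf [IsDiscreteValuationRing (OK A K)]
    [FaithfulSMul (OK A K)[X] (ChartF N K (jK N K)⁻¹)] (π : OK A K) (hπ : Irreducible π) :
    IgusaTop.HorInput (FractionRing (OK A K)[X]) (ChartF N K (jK N K)⁻¹) (X ^ N) 1 π 0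
      (ChartBase.phiO A K) :=
  ChartHor.horInput_inf N A K π hπ

/-- `[F_K : Ky] = ψ(N)` for the chart field (re-export). -/
theorem finrank_chartF (t : FK N K) (ht : t = jK N K ∨ t = (jK N K)⁻¹)
    [FaithfulSMul (OK A K)[X] (ChartF N K t)] :
    Module.finrank (FractionRing (OK A K)[X]) (ChartF N K t) = dedekindPsi N :=
  ChartHor.finrank_chartF N A K t ht

end Fermat.Agent.S18.ChartHorBase
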