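import Mathlib
import Fermat.Agent.S18.CoverGen
import Fermat.Agent.S18.IgusaTop

/-!
# From a rational cover (`CoverGen.RatData`) to the `IgusaTop.CoverDatum`

Generic bridge used by the three cover files (Legendre / Hesse / Kummer): for
`L := CoverGen.CoverField d`, `Ky := FractionRing O[X]`, `x := CoverGen.xc d`, the structure
`IgusaTop.CoverDatum Ky x d.Num d.Den` holds as soon as `Num` has unit leading coefficient,
`gcd(Num, Den) = 1` (Bezout) and `Num(Y)·Den(x) − Num(x)·Den(Y)` splits over `L`.
-/

set_option autoImplicit false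

open Polynomial

namespace Fermat.Agent.S18.CoverDatumOf

open Fermat.Agent.S18 Fermat.Agent.S18.CoverGen

universe u

variable {O : Type u} [CommRing O] [IsDomain O]

/-- `CoverLocDef.evx` at the cover coordinate is the canonical evaluation `CoverGen.ev`. -/
theorem evx_xc (d : RatData O) (p : O[X]) :
    CoverLocDef.evx (O := O) (xc d) p = ev d p := by
  rw [CoverLocDef.evx_apply, ev_eq]

theorem coe_evx_xc (d : RatData O) :
    ⇑(CoverLocDef.evx (O := O) (xc d)) = ⇑(ev d) :=
  funext (evx_xc d)

/-- The generic cover datum. -/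
theorem coverDatum [CharZero O] (d : RatData O) (hlc : IsUnit d.Num.leadingCoeff)
    (hbez : ∃ a b : O[X], a * d.Num + b * d.Den = 1) (hsplit : (splitPoly d).Splits) :
    IgusaTop.CoverDatum (FractionRing O[X]) (xc d) d.Num d.Den where
  inj := by rw [coe_evx_xc]; exact ev_injective d
  gen := fun l => by
    obtain ⟨p, q, hq, h⟩ := exists_ev_div d l
    exact ⟨p, q, hq, by rw [evx_xc, evx_xc]; exact h⟩
  y_eq := by rw [evx_xc, evx_xc]; exact algebraMap_X_mul d
  lc := hlc
  deg := d.hdeg
  bezout := hbez
  finite := finiteDimensional d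
  galois := isGalois_of_splits d hsplit

end Fermat.Agent.S18.CoverDatumOf
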