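import Mathlib
import Fermat.Agent.S18.CoverGen

/-!
# The Hesse cover of the `j`-line (cover datum for `ℓ = 2`)

`j = 27 x³ (x³ + 8)³ / (x³ − 1)³`, Galois with group `A₄` (generated by `x ↦ ω x` and
`x ↦ (x + 2)/(x − 1)`) as soon as `ω² + ω + 1 = 0` has a root in `O`.
-/

set_option autoImplicit false

open Polynomial

namespace Fermat.Agent.S18.Hesse

open Fermat.Agent.S18.CoverGen

universe u

section Identities

variable {R : Type*} [CommRing R]

theorem cube_id (ω a b : R) (hω : ω ^ 2 + ω + 1 = 0) :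
    (b - a) * (b - ω * a) * (b - ω ^ 2 * a) = b ^ 3 - a ^ 3 := by
  linear_combination (-a * b ^ 2 + ω * a ^ 2 * b - (ω - 1) * a ^ 3) * hω

/-- The quotient `(Num(y) Den(x) − Num(x) Den(y)) / (27 (y³ − x³))` in terms of `s = y³`,
`t = x³`. -/
def Q (s t : R) : R :=
  (-(s + 8) + (s - 1) * t) ^ 3 + (3 * s - 12) ^ 3 * t + (-(3 * s + 6)) ^ 3 * t ^ 2
    - 3 * (3 * s - 12) * (-(3 * s + 6)) * t * (-(s + 8) + (s - 1) * t)

theorem norm_id (ω x s : R) (hω : ω ^ 2 + ω + 1 = 0) :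
    ((x - 1) ^ 3 * s - (x + 2) ^ 3) * ((ω * x - 1) ^ 3 * s - (ω * x + 2) ^ 3) *
      ((ω ^ 2 * x - 1) ^ 3 * s - (ω ^ 2 * x + 2) ^ 3) = Q s (x ^ 3) := by
  unfold Q
  linear_combination (ω^7 * x^9 * s^3 - 3 * ω^7 * x^9 * s^2 + 3 * ω^7 * x^9 * s - ω^7 * x^9 - 3 * ω^7 * x^8 * s^3 + 9 * ω^7 * x^8 * s - 6 * ω^7 * x^8 + 3 * ω^7 * x^7 * s^3 - 18 * ω^7 * x^7 * s^2 + 27 * ω^7 * x^7 * s - 12 * ω^7 * x^7 - ω^7 * x^6 * s^3 - 6 * ω^7 * x^6 * s^2 + 15 * ω^7 * x^6 * s - 8 * ω^7 * x^6 - ω^6 * x^9 * s^3 + 3 * ω^6 * x^9 * s^2 - 3 * ω^6 * x^9 * s + ω^6 * x^9 + 6 * ω^6 * x^7 * s^3 + 45 * ω^6 * x^7 * s^2 - 27 * ω^6 * x^7 * s - 24 * ω^6 * x^7 - 8 * ω^6 * x^6 * s^3 + 33 * ω^6 * x^6 * s^2 + 39 * ω^6 * x^6 * s - 64 * ω^6 * x^6 + 3 * ω^6 * x^5 * s^3 + 27 * ω^6 * x^5 * s^2 + 18 * ω^6 * x^5 * s - 48 * ω^6 * x^5 + 3 * ω^5 * x^7 * s^3 - 18 * ω^5 * x^7 * s^2 + 27 * ω^5 * x^7 * s - 12 * ω^5 * x^7 - 9 * ω^5 * x^6 * s^3 + 27 *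 ω^5 * x^6 * s^2 + 54 * ω^5 * x^6 * s - 72 * ω^5 * x^6 + 9 * ω^5 * x^5 * s^3 - 81 * ω^5 * x^5 * s^2 + 216 * ω^5 * x^5 * s - 144 * ω^5 * x^5 - 3 * ω^5 * x^4 * s^3 - 9 * ω^5 * x^4 * s^2 + 108 * ω^5 * x^4 * s - 96 * ω^5 * x^4 + ω^4 * x^9 * s^3 - 3 * ω^4 * x^9 * s^2 + 3 * ω^4 * x^9 * s - ω^4 * x^9 - 11 * ω^4 * x^6 * s^3 - 228 * ω^4 * x^6 * s^2 - 402 * ω^4 * x^6 * s - 88 * ω^4 * x^6 + 18 * ω^4 * x^5 * s^3 + 81 * ω^4 * x^5 * s^2 - 540 * ω^4 * x^5 * s - 288 * ω^4 * x^5 - 9 * ω^4 * x^4 * s^3 - 108 * ω^4 * x^4 * s^2 - 324 * ω^4 * x^4 * s - 288 * ω^4 * x^4 + ω^4 * x^3 * s^3 + 15 * ω^4 * x^3 * s^2 + 48 * ω^4 * x^3 * s - 64 * ω^4 * x^3 - ω^3 * x^9 * s^3 + 3 * ω^3 * x^9 * s^2 - 3 * ω^3 * x^9 * s + ω^3 * x^9 + 2 * ω^3 * x^6 * s^3 + 255 * ω^3 * x^6 * s^2 + 456 * ω^3 * x^6 * s + 16 * ω^3 * x^6 + 9 * ω^3 * x^5 * s^3 - 81 * ω^3 * x^5 * s^2 + 216 * ω^3 * x^5 * s - 144 * ω^3 * x^5 - 18 * ω^3 * x^4 * s^3 + 270 * ω^3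 * x^4 * s^2 + 324 * ω^3 * x^4 * s - 576 * ω^3 * x^4 + 8 * ω^3 * x^3 * s^3 + 39 * ω^3 * x^3 * s^2 - 264 * ω^3 * x^3 * s - 512 * ω^3 * x^3 + 3 * ω^2 * x^5 * s^3 + 27 * ω^2 * x^5 * s^2 + 18 * ω^2 * x^5 * s - 48 * ω^2 * x^5 - 9 * ω^2 * x^4 * s^3 - 108 * ω^2 * x^4 * s^2 - 324 * ω^2 * x^4 * s - 288 * ω^2 * x^4 + 9 * ω^2 * x^3 * s^3 + 54 * ω^2 * x^3 * s^2 - 216 * ω^2 * x^3 * s - 576 * ω^2 * x^3 - 3 * ω^2 * x^2 * s^3 - 54 * ω^2 * x^2 * s^2 - 288 * ω^2 * x^2 * s - 384 * ω^2 * x^2 + ω * x^9 * s^3 - 3 * ω * x^9 * s^2 + 3 * ω * x^9 * s - ω * x^9 - 3 * ω * x^6 * s^3 - 261 * ω * x^6 * s^2 - 441 * ω * x^6 * s - 24 * ω * x^6 - 3 * ω * x^4 * s^3 - 9 * ω * x^4 * s^2 + 108 * ω * x^4 * s - 96 * ω * x^4 + 11 * ω * x^3 * s^3 - 402 * ω * x^3 * s^2 + 1824 * ω * x^3 * s - 704 * ω * x^3 - 6 * ω * x^2 * s^3 + 54 * ω * x^2 * s^2 + 720 * ω * x^2 * s - 768 * ω * x^2 - x^9 * s^3 + 3 * x^9 * s^2 - 3 * x^9 * s + x^9 + 3 * x^6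 * s^3 + 261 * x^6 * s^2 + 441 * x^6 * s + 24 * x^6 - 2 * x^3 * s^3 + 456 * x^3 * s^2 - 2040 * x^3 * s + 128 * x^3 - 3 * x^2 * s^3 - 54 * x^2 * s^2 - 288 * x^2 * s - 384 * x^2 + 3 * x * s^3 + 36 * x * s^2 - 768 * x) * hω

theorem quot_id (x y : R) :
    (x ^ 3 - 1) ^ 3 * (27 * y ^ 3 * (y ^ 3 + 8) ^ 3)
        - (27 * x ^ 3 * (x ^ 3 + 8) ^ 3) * (y ^ 3 - 1) ^ 3 =
      27 * (y ^ 3 - x ^ 3) * Q (y ^ 3) (x ^ 3) := by
  unfold Q
  ring

/-- The splitting identity: `Num(y) Den(x) − Num(x) Den(y)` is `27` times the product of the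
twelve linear forms `y − γ(x)`, `γ ∈ A₄` (denominators cleared). -/
theorem split_id (ω x y : R) (hω : ω ^ 2 + ω + 1 = 0) :
    (x ^ 3 - 1) ^ 3 * (27 * y ^ 3 * (y ^ 3 + 8) ^ 3)
        - (27 * x ^ 3 * (x ^ 3 + 8) ^ 3) * (y ^ 3 - 1) ^ 3 =
      27 * ((y - x) * (y - ω * x) * (y - ω ^ 2 * x)) *
        (((x - 1) * y - (x + 2)) * ((x - 1) * y - ω * (x + 2)) *
          ((x - 1) * y - ω ^ 2 * (x + 2))) *
        (((ω * x - 1) * y - (ω * x + 2)) * ((ω * x - 1) * y - ω * (ω * x + 2)) *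
          ((ω * x - 1) * y - ω ^ 2 * (ω * x + 2))) *
        (((ω ^ 2 * x - 1) * y - (ω ^ 2 * x + 2)) * ((ω ^ 2 * x - 1) * y - ω * (ω ^ 2 * x + 2)) *
          ((ω ^ 2 * x - 1) * y - ω ^ 2 * (ω ^ 2 * x + 2))) := by
  rw [cube_id ω x y hω, cube_id ω (x + 2) ((x - 1) * y) hω,
    cube_id ω (ω * x + 2) ((ω * x - 1) * y) hω,
    cube_id ω (ω ^ 2 * x + 2) ((ω ^ 2 * x - 1) * y) hω, quot_id]
  have h := norm_id ω x (y ^ 3) hω
  linear_combination (-27 * (y ^ 3 - x ^ 3)) * h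

end Identities

section Cover

variable (O : Type u) [CommRing O]

/-- The numerator `27 x³ (x³ + 8)³` of the Hesse `j`-function. -/
noncomputable def hNum : O[X] := 27 * X ^ 3 * (X ^ 3 + 8) ^ 3

/-- The denominator `(x³ − 1)³` of the Hesse `j`-function. -/
noncomputable def hDen : O[X] := (X ^ 3 - 1) ^ 3

theorem natDegree_hDen [Nontrivial O] : (hDen O).natDegree = 9 := by
  unfold hDen
  compute_degree!

theorem hDen_ne_zero [Nontrivial O] : hDen O ≠ 0 := by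
  intro h
  have := natDegree_hDen O
  rw [h, natDegree_zero] at this
  exact absurd this (by norm_num)

theorem natDegree_hNum [IsDomain O] [CharZero O] : (hNum O).natDegree = 12 := by
  unfold hNum
  compute_degree!

theorem leadingCoeff_hNum [IsDomain O] : (hNum O).leadingCoeff = 27 := by
  have h8 : (X ^ 3 + 8 : O[X]).leadingCoeff = 1 := by
    have : (X ^ 3 + 8 : O[X]) = X ^ 3 + C 8 := by rw [map_ofNat C 8]
    rw [this, leadingCoeff_X_pow_add_C (by norm_num)]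
  have h27 : (27 : O[X]).leadingCoeff = 27 := by
    have : (27 : O[X]) = C 27 := (map_ofNat C 27).symm
    rw [this, leadingCoeff_C]
  unfold hNum
  rw [leadingCoeff_mul, leadingCoeff_mul, leadingCoeff_pow, leadingCoeff_pow, h8, h27]
  simp

/-- The Hesse cover datum `y = 27 x³ (x³+8)³ / (x³−1)³`. -/
noncomputable def data [IsDomain O] [CharZero O] : RatData O where
  Num := hNum O
  Den := hDen O
  hDen := hDen_ne_zero O
  hdeg := by rw [natDegree_hDen, natDegree_hNum]; norm_num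

end Cover

section Galois

variable (O : Type u) [CommRing O] [IsDomain O] [CharZero O]

theorem ev_hDen : ev (data O) (hDen O) = (xc (data O) ^ 3 - 1) ^ 3 := by
  simp [hDen, xc]

theorem ev_hNum : ev (data O) (hNum O) = 27 * xc (data O) ^ 3 * (xc (data O) ^ 3 + 8) ^ 3 := by
  simp only [hNum, xc, map_mul, map_pow, map_add]
  rw [map_ofNat (ev (data O)) 27, map_ofNat (ev (data O)) 8]

omit [IsDomain O] [CharZero O] in
theorem map_hNum {S : Type*} [CommRing S] (f : O →+* S) :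
    (hNum O).map f = 27 * X ^ 3 * (X ^ 3 + 8) ^ 3 := by
  simp [hNum, Polynomial.map_mul, Polynomial.map_pow, Polynomial.map_add]

omit [IsDomain O] [CharZero O] in
theorem map_hDen {S : Type*} [CommRing S] (f : O →+* S) :
    (hDen O).map f = (X ^ 3 - 1) ^ 3 := by
  simp [hDen, Polynomial.map_pow, Polynomial.map_sub]

/-- `Num(Y)·Den(x) − Num(x)·Den(Y)` splits over the Hesse field: its roots are the twelve
`A₄`-translates of `x`. -/
theorem splits_splitPoly (ω : O) (hω : ω ^ 2 + ω + 1 = 0) : (splitPoly (data O)).Splits := by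
  set x : CoverField (data O) := xc (data O) with hx
  set w : CoverField (data O) := ev (data O) (C ω) with hwdef
  have hw0 : w ^ 2 + w + 1 = 0 := by
    rw [hwdef, ← map_pow, ← map_add, ← map_one (ev (data O)), ← map_add, ← C_pow, ← C_add,
      ← C_1, ← C_add, hω, C_0, map_zero]
  have hw : (C w : (CoverField (data O))[X]) ^ 2 + C w + 1 = 0 := by
    rw [← C_pow, ← C_add, ← C_1, ← C_add, hw0, C_0]
  have key := split_id (C w) (C x) (X : (CoverField (data O))[X]) hw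
  have hsp : splitPoly (data O) = (C x ^ 3 - 1) ^ 3 * (27 * X ^ 3 * (X ^ 3 + 8) ^ 3)
        - (27 * C x ^ 3 * (C x ^ 3 + 8) ^ 3) * (X ^ 3 - 1) ^ 3 := by
    unfold splitPoly
    show C (ev (data O) (hDen O)) * (hNum O).map _ - C (ev (data O) (hNum O)) * (hDen O).map _ = _
    rw [ev_hDen, ev_hNum, map_hNum, map_hDen]
    simp only [map_pow, map_sub, map_one, map_mul, map_add, map_ofNat, hx]
  rw [hsp, key]
  repeat' apply Splits.mul
  all_goals exact Splits.of_natDegree_le_one (by compute_degree!)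

/-- The Hesse cover is Galois (group `A₄`) once `O` contains a primitive cube root of unity. -/
theorem isGalois (ω : O) (hω : ω ^ 2 + ω + 1 = 0) :
    IsGalois (FractionRing O[X]) (CoverField (data O)) :=
  isGalois_of_splits (data O) (splits_splitPoly O ω hω)

/-- (L4) for the Hesse cover. -/
theorem isIntegral_xc (h3 : IsUnit (3 : O)) : IsIntegral O[X] (xc (data O)) := by
  apply CoverGen.isIntegral_xc
  show IsUnit (hNum O).leadingCoeff
  rw [leadingCoeff_hNum]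
  have : (27 : O) = 3 ^ 3 := by norm_num
  rw [this]
  exact h3.pow 3

omit [IsDomain O] [CharZero O] in
/-- (E0) for the Hesse cover. -/
theorem bezout (h3 : IsUnit (3 : O)) : ∃ a b : O[X], a * hNum O + b * hDen O = 1 := by
  obtain ⟨u, hu⟩ := h3.exists_left_inv
  refine ⟨C (u ^ 12) * (101 - 112 * X ^ 3 + 38 * X ^ 6),
    C (u ^ 12) * (-531441 - 198099 * X ^ 3 - 24678 * X ^ 6 - 1026 * X ^ 9), ?_⟩
  have h1 : u ^ 12 * 531441 = 1 := by
    have : (u * 3) ^ 12 = 1 := by rw [hu, one_pow]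
    linear_combination this
  have h : (C (u ^ 12) : O[X]) * 531441 = 1 := by
    have h2 : (531441 : O[X]) = C 531441 := (map_ofNat C 531441).symm
    rw [h2, ← C_mul, h1, C_1]
  unfold hNum hDen
  linear_combination h

end Galois

section Local

/-- The ramification function of the `j`-line: `3` over `0`, `2` over `1728`, `1` elsewhere. -/
noncomputable def eH (a : ℂ) : ℕ := if a = 0 then 3 else if a = 1728 then 2 else 1

theorem eH_pos (a : ℂ) : 0 < eH a := by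
  unfold eH
  split_ifs <;> norm_num

theorem eH_zero : eH 0 = 3 := by simp [eH]

theorem eH_1728 : eH 1728 = 2 := by
  unfold eH
  rw [if_neg (by norm_num), if_pos rfl]

theorem eH_of_ne {a : ℂ} (h0 : a ≠ 0) (h1 : a ≠ 1728) : eH a = 1 := by
  unfold eH
  rw [if_neg h0, if_neg h1]

private theorem fac_j0_zero :
    (27 * X ^ 3 * (X ^ 3 + 8) ^ 3 : ℂ[X]) = (X - C 0) ^ 3 * (27 * (X ^ 3 + 8) ^ 3) := by
  rw [C_0, sub_zero]
  ring

private theorem fac_j0 (x0 : ℂ) (h : x0 ^ 3 = -8) :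
    (27 * X ^ 3 * (X ^ 3 + 8) ^ 3 : ℂ[X]) =
      (X - C x0) ^ 3 * (27 * X ^ 3 * (X ^ 2 + C x0 * X + C x0 ^ 2) ^ 3) := by
  have hc : (C x0 : ℂ[X]) ^ 3 = -8 := by
    rw [← C_pow, h, C_neg, map_ofNat C 8]
  linear_combination (27 * X ^ 3 * ((X ^ 3 + 8) ^ 2 + (X ^ 3 + 8) * (X ^ 3 - C x0 ^ 3)
    + (X ^ 3 - C x0 ^ 3) ^ 2) : ℂ[X]) * hc

private theorem fac_j1728 (x0 : ℂ) (h : x0 ^ 6 - 20 * x0 ^ 3 - 8 = 0) :
    (27 * X ^ 3 * (X ^ 3 + 8) ^ 3 - C 1728 * (X ^ 3 - 1) ^ 3 : ℂ[X]) =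
      (X - C x0) ^ 2 * (27 * (X ^ 5 + C x0 * X ^ 4 + C x0 ^ 2 * X ^ 3 + C x0 ^ 3 * X ^ 2
        + C x0 ^ 4 * X + C x0 ^ 5 - 20 * (X ^ 2 + C x0 * X + C x0 ^ 2)) ^ 2) := by
  have hc : (C x0 : ℂ[X]) ^ 6 - 20 * C x0 ^ 3 - 8 = 0 := by
    have := congrArg (C : ℂ →+* ℂ[X]) h
    simpa [map_sub, map_mul, map_pow, map_ofNat] using this
  have hh : (X ^ 6 - 20 * X ^ 3 - 8 : ℂ[X]) =
      (X - C x0) * (X ^ 5 + C x0 * X ^ 4 + C x0 ^ 2 * X ^ 3 + C x0 ^ 3 * X ^ 2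
        + C x0 ^ 4 * X + C x0 ^ 5 - 20 * (X ^ 2 + C x0 * X + C x0 ^ 2)) := by
    linear_combination (1 : ℂ[X]) * hc
  have h1728 : (C 1728 : ℂ[X]) = 1728 := map_ofNat C 1728
  have e : (27 * X ^ 3 * (X ^ 3 + 8) ^ 3 - 1728 * (X ^ 3 - 1) ^ 3 : ℂ[X]) =
      27 * (X ^ 6 - 20 * X ^ 3 - 8) ^ 2 := by ring
  rw [h1728, e, hh]
  ring

/-- (E3), core form over `ℂ`: the local factorisation of `Num − a·Den` at a point `x0` of the
Hesse line with `j(x0) = a`. -/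
theorem local_factor_core (x0 : ℂ) (hD : (x0 ^ 3 - 1) ^ 3 ≠ 0) :
    ∃ g : ℂ[X],
      (27 * X ^ 3 * (X ^ 3 + 8) ^ 3 : ℂ[X])
          - C (27 * x0 ^ 3 * (x0 ^ 3 + 8) ^ 3 / (x0 ^ 3 - 1) ^ 3) * (X ^ 3 - 1) ^ 3 =
        (X - C x0) ^ eH (27 * x0 ^ 3 * (x0 ^ 3 + 8) ^ 3 / (x0 ^ 3 - 1) ^ 3) * g ∧
      g.eval x0 ≠ 0 := by
  set a : ℂ := 27 * x0 ^ 3 * (x0 ^ 3 + 8) ^ 3 / (x0 ^ 3 - 1) ^ 3 with ha
  have haD : a * (x0 ^ 3 - 1) ^ 3 = 27 * x0 ^ 3 * (x0 ^ 3 + 8) ^ 3 := by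
    rw [ha, div_mul_cancel₀ _ hD]
  by_cases h0 : a = 0
  · -- `j = 0`
    rw [h0, eH_zero, C_0, zero_mul, sub_zero]
    have hnum : 27 * x0 ^ 3 * (x0 ^ 3 + 8) ^ 3 = 0 := by rw [← haD, h0, zero_mul]
    have hcases : x0 = 0 ∨ x0 ^ 3 = -8 := by
      rcases mul_eq_zero.mp hnum with h | h
      · rcases mul_eq_zero.mp h with h | h
        · norm_num at h
        · exact Or.inl (pow_eq_zero_iff (by norm_num) |>.mp h)
      · right
        have := pow_eq_zero_iff (by norm_num) |>.mp h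
        linear_combination this
    rcases hcases with hx | hx
    · refine ⟨27 * (X ^ 3 + 8) ^ 3, ?_, ?_⟩
      · rw [hx]; exact fac_j0_zero
      · rw [hx]
        simp only [eval_mul, eval_pow, eval_add, eval_X, eval_ofNat]
        norm_num
    · refine ⟨27 * X ^ 3 * (X ^ 2 + C x0 * X + C x0 ^ 2) ^ 3, fac_j0 x0 hx, ?_⟩
      have hx0 : x0 ≠ 0 := by
        rintro rfl
        norm_num at hx
      simp only [eval_mul, eval_pow, eval_add, eval_X, eval_ofNat, eval_C]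
      have : x0 ^ 2 + x0 * x0 + x0 ^ 2 = 3 * x0 ^ 2 := by ring
      rw [this]
      have h3 : (3 : ℂ) ≠ 0 := by norm_num
      have h27 : (27 : ℂ) ≠ 0 := by norm_num
      exact mul_ne_zero (mul_ne_zero h27 (pow_ne_zero _ hx0))
        (pow_ne_zero _ (mul_ne_zero h3 (pow_ne_zero _ hx0)))
  by_cases h1 : a = 1728
  · -- `j = 1728`
    rw [h1, eH_1728]
    have hh : x0 ^ 6 - 20 * x0 ^ 3 - 8 = 0 := by
      have h2 : 27 * (x0 ^ 6 - 20 * x0 ^ 3 - 8) ^ 2 = 0 := by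
        have := haD
        rw [h1] at this
        linear_combination (-1 : ℂ) * this
      have h3 : (x0 ^ 6 - 20 * x0 ^ 3 - 8) ^ 2 = 0 := by
        rcases mul_eq_zero.mp h2 with h | h
        · norm_num at h
        · exact h
      exact pow_eq_zero_iff (by norm_num) |>.mp h3
    refine ⟨_, fac_j1728 x0 hh, ?_⟩
    have hx0 : x0 ≠ 0 := by
      rintro rfl
      norm_num at hh
    have hx10 : x0 ^ 3 - 10 ≠ 0 := by
      intro h10
      have h10' : x0 ^ 3 = 10 := by linear_combination h10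
      have : x0 ^ 6 = 100 := by
        have : x0 ^ 6 = (x0 ^ 3) ^ 2 := by ring
        rw [this, h10']; norm_num
      rw [this, h10'] at hh
      norm_num at hh
    simp only [eval_mul, eval_pow, eval_add, eval_sub, eval_X, eval_ofNat, eval_C]
    have : x0 ^ 5 + x0 * x0 ^ 4 + x0 ^ 2 * x0 ^ 3 + x0 ^ 3 * x0 ^ 2 + x0 ^ 4 * x0 + x0 ^ 5
        - 20 * (x0 ^ 2 + x0 * x0 + x0 ^ 2) = 6 * x0 ^ 2 * (x0 ^ 3 - 10) := by ring
    rw [this]
    have h6 : (6 : ℂ) ≠ 0 := by norm_num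
    have h27 : (27 : ℂ) ≠ 0 := by norm_num
    exact mul_ne_zero h27 (pow_ne_zero _ (mul_ne_zero (mul_ne_zero h6 (pow_ne_zero _ hx0)) hx10))
  · -- generic point
    rw [eH_of_ne h0 h1, pow_one]
    set f : ℂ[X] := 27 * X ^ 3 * (X ^ 3 + 8) ^ 3 - C a * (X ^ 3 - 1) ^ 3 with hf
    have hroot : f.IsRoot x0 := by
      rw [IsRoot.def, hf]
      simp only [eval_mul, eval_pow, eval_add, eval_sub, eval_X, eval_ofNat, eval_C, eval_one]
      linear_combination (-1 : ℂ) * haD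
    obtain ⟨g, hg⟩ := dvd_iff_isRoot.mpr hroot
    refine ⟨g, hg, ?_⟩
    intro hg0
    have hder : (derivative f).eval x0 = 0 := by
      rw [hg, derivative_mul, derivative_sub, derivative_X, derivative_C, sub_zero, one_mul]
      simp only [eval_add, eval_mul, eval_sub, eval_X, eval_C, sub_self, zero_mul, add_zero]
      exact hg0
    have hder' : derivative f = 81 * X ^ 2 * (X ^ 3 + 8) ^ 2 * (4 * X ^ 3 + 8)
        - C a * (9 * X ^ 2 * (X ^ 3 - 1) ^ 2) := by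
      rw [hf]
      have hC3 : (C (3 : ℂ) : ℂ[X]) = 3 := map_ofNat C 3
      simp only [derivative_sub, derivative_mul, derivative_pow, derivative_add, derivative_X,
        derivative_C, derivative_one, derivative_ofNat, Nat.cast_ofNat, hC3]
      ring
    rw [hder'] at hder
    simp only [eval_mul, eval_pow, eval_add, eval_sub, eval_X, eval_ofNat, eval_C, eval_one]
      at hder
    have hW : 81 * x0 ^ 2 * (x0 ^ 3 + 8) ^ 2 * (x0 ^ 3 - 1) ^ 2 * (x0 ^ 6 - 20 * x0 ^ 3 - 8)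
        = 0 := by
      have hD1 : x0 ^ 3 - 1 ≠ 0 := fun h => hD (by rw [h]; norm_num)
      have : (x0 ^ 3 - 1) * (81 * x0 ^ 2 * (x0 ^ 3 + 8) ^ 2 * (x0 ^ 3 - 1) ^ 2
          * (x0 ^ 6 - 20 * x0 ^ 3 - 8)) = 0 := by
        linear_combination (x0 ^ 3 - 1) ^ 4 * hder + 9 * x0 ^ 2 * (x0 ^ 3 - 1) ^ 3 * haD
      exact (mul_eq_zero.mp this).resolve_left hD1
    have hnum0 : 27 * x0 ^ 3 * (x0 ^ 3 + 8) ^ 3 ≠ 0 := by
      intro h
      apply h0
      have : a * (x0 ^ 3 - 1) ^ 3 = 0 := by rw [haD, h]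
      exact (mul_eq_zero.mp this).resolve_right hD
    rcases mul_eq_zero.mp hW with h | h
    · rcases mul_eq_zero.mp h with h | h
      · rcases mul_eq_zero.mp h with h | h
        · rcases mul_eq_zero.mp h with h | h
          · norm_num at h
          · apply hnum0
            have := pow_eq_zero_iff (by norm_num) |>.mp h
            rw [this]; ring
        · apply hnum0
          have := pow_eq_zero_iff (by norm_num) |>.mp h
          rw [this]; ring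
      · exact hD (by
          have := pow_eq_zero_iff (by norm_num) |>.mp h
          rw [this]; ring)
    · apply h1
      have : (a - 1728) * (x0 ^ 3 - 1) ^ 3 = 0 := by
        linear_combination haD + 27 * (x0 ^ 6 - 20 * x0 ^ 3 - 8 + 0) * h
      have := (mul_eq_zero.mp this).resolve_right hD
      linear_combination this

end Local

section Spec

variable (O : Type u) [CommRing O]

theorem eH_def (a : ℂ) : eH a = if a = 0 then 3 else if a = 1728 then 2 else 1 := rfl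

/-- (E3) for the Hesse cover, in the literal shape of the assembly spec (`S = univ`,
`e = eH`: `3` over `0`, `2` over `1728`, `1` elsewhere). -/
theorem local_factor (φ : O →+* ℂ) (x0 : ℂ) (hx0 : ((hDen O).map φ).eval x0 ≠ 0) :
    ∃ g : ℂ[X],
      (hNum O).map φ - C (((hNum O).map φ).eval x0 / ((hDen O).map φ).eval x0) * (hDen O).map φ =
        (X - C x0) ^ eH (((hNum O).map φ).eval x0 / ((hDen O).map φ).eval x0) * g ∧
      g.eval x0 ≠ 0 ∧ 0 < eH (((hNum O).map φ).eval x0 / ((hDen O).map φ).eval x0) := by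
  rw [map_hNum, map_hDen] at *
  simp only [eval_mul, eval_pow, eval_add, eval_sub, eval_X, eval_ofNat, eval_one] at hx0 ⊢
  obtain ⟨g, hg, hg0⟩ := local_factor_core x0 hx0
  exact ⟨g, hg, hg0, eH_pos _⟩

/-- (E3) with the ramification function written out. -/
theorem local_factor' (φ : O →+* ℂ) (x0 : ℂ) (hx0 : ((hDen O).map φ).eval x0 ≠ 0) (a : ℂ)
    (ha : a = ((hNum O).map φ).eval x0 / ((hDen O).map φ).eval x0) :
    ∃ g : ℂ[X],
      (hNum O).map φ - C a * (hDen O).map φ =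
        (X - C x0) ^ (if a = 0 then 3 else if a = 1728 then 2 else 1) * g ∧
      g.eval x0 ≠ 0 ∧ 0 < (if a = 0 then 3 else if a = 1728 then 2 else 1) := by
  subst ha
  exact local_factor O φ x0 hx0

variable [IsDomain O] [CharZero O]

@[simp] theorem data_Num : (data O).Num = hNum O := rfl

@[simp] theorem data_Den : (data O).Den = hDen O := rfl

/-- The complete cover datum of the Hesse cover (items (L1)–(L4), (E0) of the assembly spec,
finite-dimensionality and Galois), for a domain `O` of characteristic zero in which `3` is a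
unit and which contains a primitive cube root of unity `ω`. -/
theorem cover_datum (ω : O) (hω : ω ^ 2 + ω + 1 = 0) (h3 : IsUnit (3 : O)) :
    FiniteDimensional (FractionRing O[X]) (CoverField (data O)) ∧
    IsGalois (FractionRing O[X]) (CoverField (data O)) ∧
    Function.Injective
      (eval₂ ((algebraMap O[X] (CoverField (data O))).comp C) (xc (data O))) ∧
    (∀ l : CoverField (data O), ∃ p q : O[X], q ≠ 0 ∧
      l * eval₂ ((algebraMap O[X] (CoverField (data O))).comp C) (xc (data O)) q =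
        eval₂ ((algebraMap O[X] (CoverField (data O))).comp C) (xc (data O)) p) ∧
    algebraMap O[X] (CoverField (data O)) X *
        eval₂ ((algebraMap O[X] (CoverField (data O))).comp C) (xc (data O)) (hDen O) =
      eval₂ ((algebraMap O[X] (CoverField (data O))).comp C) (xc (data O)) (hNum O) ∧
    IsIntegral O[X] (xc (data O)) ∧
    ∃ a b : O[X], a * hNum O + b * hDen O = 1 :=
  ⟨finiteDimensional (data O), isGalois O ω hω, eval₂_injective (data O),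
    exists_eval₂_div (data O), algebraMap_X_mul_eval₂ (data O), isIntegral_xc O h3, bezout O h3⟩

end Spec

end Fermat.Agent.S18.Hesse
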