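import Mathlib
import Fermat.Agent.S18.Hesse
import Fermat.Agent.S18.CoverDatumOf

/-!
# The `IgusaTop.CoverDatum` of the Hesse cover (`ℓ = 2`)
-/

set_option autoImplicit false

open Polynomial

namespace Fermat.Agent.S18.HesseDatum

open Fermat.Agent.S18 Fermat.Agent.S18.CoverGen

universe u

variable (O : Type u) [CommRing O] [IsDomain O] [CharZero O]

/-- The Hesse cover `y = 27 x³ (x³+8)³ / (x³−1)³` is a cover datum in the sense of `IgusaTop`
as soon as `3` is a unit of `O` and `O` contains a primitive cube root of unity. -/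
theorem coverDatum (ω : O) (hω : ω ^ 2 + ω + 1 = 0) (h3 : IsUnit (3 : O)) :
    IgusaTop.CoverDatum (FractionRing O[X]) (xc (Hesse.data O)) (Hesse.hNum O) (Hesse.hDen O) := by
  have hlc : IsUnit (Hesse.data O).Num.leadingCoeff := by
    show IsUnit (Hesse.hNum O).leadingCoeff
    rw [Hesse.leadingCoeff_hNum]
    have : (27 : O) = 3 ^ 3 := by norm_num
    rw [this]
    exact h3.pow 3
  exact CoverDatumOf.coverDatum (Hesse.data O) hlc (Hesse.bezout O h3)
    (Hesse.splits_splitPoly O ω hω)

omit [IsDomain O] [CharZero O] in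
/-- Every point `c1` of the Hesse line with `Den(c1)` a unit is admissible; the value of
`Num − c·Den` at `c1` is `27 c1³ (c1³+8)³ − c (c1³−1)³`. -/
theorem eval_sub (c c1 : O) :
    (Hesse.hNum O - C c * Hesse.hDen O).eval c1 =
      27 * c1 ^ 3 * (c1 ^ 3 + 8) ^ 3 - c * (c1 ^ 3 - 1) ^ 3 := by
  simp [Hesse.hNum, Hesse.hDen]

omit [IsDomain O] [CharZero O] in
theorem eval_hDen (c1 : O) : (Hesse.hDen O).eval c1 = (c1 ^ 3 - 1) ^ 3 := by
  simp [Hesse.hDen]

end Fermat.Agent.S18.HesseDatum
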