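import Mathlib
import Fermat.Agent.S18.HorBridge
import Fermat.Agent.S18.GaussRoot
import Fermat.Agent.S18.Hesse

/-!
# S18 : `HorInput` for the Hesse cover (bridge (B-H), chart `y = j`, every point `c`)

OWNER: helper46 (only the owner edits this file).

`horInput`: over a DVR `O` with uniformizer `π` and an embedding `φ : O → ℂ` with algebraic
values, hypothesis (H) of the function field at all algebraic values `a` with ramification
`e a = 3, 2, 1` (for `a = 0`, `a = 1728`, otherwise) gives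
`IgusaTop.HorInput Ky F (Hesse.hNum O) (Hesse.hDen O) π c φ` for every `c`.

The hypothesis `hH` is literally the output of `HorHyp.hypH_fin` (resp. `DegFK.hypH_FK_fin`)
for the `A0`-structure `y ↦ j`, with `e := HorHyp.eC` (`eC_zero`, `eC_1728`, `eC_of_ne`).
-/

set_option autoImplicit false

namespace Fermat.Agent.S18.HesseHor

open Polynomial
open Fermat.Agent.S18

/-- The value of a polynomial with algebraic coefficients at an algebraic number is
algebraic. -/
theorem isAlgebraic_eval_map {O : Type*} [CommRing O] (φ : O →+* ℂ)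
    (hφalg : ∀ o : O, IsAlgebraic ℚ (φ o)) (q : O[X]) (x0 : ℂ) (hx0 : IsAlgebraic ℚ x0) :
    IsAlgebraic ℚ ((q.map φ).eval x0) := by
  rw [← mem_algebraicClosure_iff] at hx0 ⊢
  rw [eval_map, eval₂_eq_sum_range]
  refine sum_mem fun i _ => mul_mem ?_ (pow_mem hx0 i)
  exact mem_algebraicClosure_iff.mpr (hφalg _)

/-- A function with the values `3`, `2`, `1` at `0`, `1728`, elsewhere is `Hesse.eH`. -/
theorem eq_eH (e : ℂ → ℕ) (he0 : e 0 = 3) (he1 : e 1728 = 2)
    (he : ∀ a : ℂ, a ≠ 0 → a ≠ 1728 → e a = 1) (a : ℂ) : e a = Hesse.eH a := by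
  by_cases h0 : a = 0
  · rw [h0, he0, Hesse.eH_zero]
  by_cases h1 : a = 1728
  · rw [h1, he1, Hesse.eH_1728]
  · rw [he a h0 h1, Hesse.eH_of_ne h0 h1]

universe u

variable {O : Type u} [CommRing O] [IsDomain O] [IsDiscreteValuationRing O]
  (Ky F : Type*) [Field Ky] [Field F] [Algebra Ky F] [Algebra O[X] F]

/-- **(B-H) for the Hesse cover**, at every point `c` of the `j`-line. -/
theorem horInput {π : O} (hπ : Irreducible π) (c : O) (φ : O →+* ℂ)
    (hφ : Function.Injective φ) (hφalg : ∀ o : O, IsAlgebraic ℚ (φ o))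
    (e : ℂ → ℕ) (he0 : e 0 = 3) (he1 : e 1728 = 2)
    (he : ∀ a : ℂ, a ≠ 0 → a ≠ 1728 → e a = 1)
    (hH : ∀ a : ℂ, IsAlgebraic ℚ a → ∃ T : PowerSeries ℂ, T.order = e a ∧
      ∃ ι : Fin (Module.finrank Ky F) → (F →+* LaurentSeries ℂ), Function.Injective ι ∧
        (∀ i (o : O), ι i (algebraMap O[X] F (C o)) = HahnSeries.C (φ o)) ∧
        ∀ i, ι i (algebraMap O[X] F X) = HahnSeries.ofPowerSeries ℤ ℂ (PowerSeries.C a + T)) :
    IgusaTop.HorInput Ky F (Hesse.hNum O) (Hesse.hDen O) π c φ := by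
  refine HorBridge.horInput_of_local Ky F (Hesse.hNum O) (Hesse.hDen O) π c φ e
    {a | IsAlgebraic ℚ a} ?_ (fun a ha => hH a ha)
  intro c1 _ hDen p hp hpπ hpc x0 hx0
  have hpmap : p.map φ ≠ 0 := (Polynomial.map_ne_zero_iff hφ).mpr hp.ne_zero
  have halg : IsAlgebraic ℚ x0 := HorBridge.isAlgebraic_of_root φ hφalg p hpmap x0 hx0
  have hD : ((Hesse.hDen O).map φ).eval x0 ≠ 0 :=
    GaussRoot.eval_ne_zero_of_isUnit_eval hπ φ hφ hp hpπ hpc hDen x0 hx0
  have hval : IsAlgebraic ℚ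
      (((Hesse.hNum O).map φ).eval x0 / ((Hesse.hDen O).map φ).eval x0) := by
    have h1 := isAlgebraic_eval_map φ hφalg (Hesse.hNum O) x0 halg
    have h2 := isAlgebraic_eval_map φ hφalg (Hesse.hDen O) x0 halg
    rw [← mem_algebraicClosure_iff] at h1 h2 ⊢
    exact div_mem h1 h2
  obtain ⟨g, hfac, hg, hpos⟩ := Hesse.local_factor O φ x0 hD
  refine ⟨_, hval, hD, g, ?_, hg, ?_⟩
  · rw [eq_eH e he0 he1 he]
    exact hfac
  · rw [eq_eH e he0 he1 he]
    exact hpos

end Fermat.Agent.S18.HesseHor
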