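import Fermat.Agent.S18.NormDescent

/-!
# S18 / [IGUSA] T7b : norm descent, base-ring form

Wrapper of `NormDescent.normDescent` for the global assembly.  There the regular-point leaf (T6)
speaks about maximal ideals of `integralClosure A T` for a base ring `A` (`A = O[y]`), while the
chart ring `R` (integral over `A`, integrally closed, `F = Frac R`) is the ring whose maximal
ideal `n` we want to generate locally.  `integralClosure A T` and `integralClosure R T` have the
same elements; this file transports everything along that identification and also picks the
maximal ideal `Q` over `n` (lying over).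
-/

set_option autoImplicit false

namespace Fermat.Agent.S18.NormDescentBase

section

variable (A R T : Type*) [CommRing A] [CommRing R] [CommRing T] [Algebra A R] [Algebra R T]
  [Algebra A T] [IsScalarTower A R T] [Algebra.IsIntegral A R]

/-- `integralClosure A T` and `integralClosure R T` coincide when `R` is integral over `A`. -/
noncomputable def closureEquiv : integralClosure A T ≃+* integralClosure R T where
  toFun z := ⟨(z : T), z.2.tower_top⟩
  invFun z := ⟨(z : T), isIntegral_trans (z : T) z.2⟩
  left_inv _ := rfl
  right_inv _ := rfl
  map_mul' _ _ := rfl
  map_add' _ _ := rfl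

@[simp] theorem coe_closureEquiv (z : integralClosure A T) :
    ((closureEquiv A R T z : integralClosure R T) : T) = (z : T) := rfl

@[simp] theorem coe_closureEquiv_symm (z : integralClosure R T) :
    (((closureEquiv A R T).symm z : integralClosure A T) : T) = (z : T) := rfl

theorem closureEquiv_algebraMap (a : A) :
    closureEquiv A R T (algebraMap A (integralClosure A T) a) =
      algebraMap R (integralClosure R T) (algebraMap A R a) :=
  Subtype.ext (IsScalarTower.algebraMap_apply A R T a)

/-- Finiteness over the base ring gives finiteness over `R`. -/
theorem finite_integralClosure_of_base [Module.Finite A (integralClosure A T)] :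
    Module.Finite R (integralClosure R T) := by
  classical
  obtain ⟨S, hS⟩ := (Module.Finite.fg_top : (⊤ : Submodule A (integralClosure A T)).FG)
  refine ⟨⟨S.image (closureEquiv A R T), ?_⟩⟩
  rw [eq_top_iff]
  intro z _
  have hmem : (closureEquiv A R T).symm z ∈ Submodule.span A (S : Set (integralClosure A T)) := by
    rw [hS]
    exact Submodule.mem_top
  have key : ∀ b : integralClosure A T, b ∈ Submodule.span A (S : Set (integralClosure A T)) →
      closureEquiv A R T b ∈ Submodule.span R
        ((S.image (closureEquiv A R T) : Finset _) : Set (integralClosure R T)) := by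
    intro b hb
    induction hb using Submodule.span_induction with
    | mem x hx =>
      exact Submodule.subset_span (Finset.mem_coe.mpr (Finset.mem_image_of_mem _ hx))
    | zero =>
      rw [map_zero]
      exact Submodule.zero_mem _
    | add x y _ _ hx hy =>
      rw [map_add]
      exact Submodule.add_mem _ hx hy
    | smul r x _ hx =>
      have h : closureEquiv A R T (r • x) = algebraMap A R r • closureEquiv A R T x := by
        apply Subtype.ext
        show r • (x : T) = algebraMap A R r • (x : T)
        rw [algebraMap_smul]
      rw [h]
      exact Submodule.smul_mem _ _ hx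
  have h2 := key _ hmem
  rwa [RingEquiv.apply_symm_apply] at h2

end

/-- [IGUSA] T7b: norm descent with the regular-point hypothesis stated for the maximal ideals
of `integralClosure A T` over `n` (`A` a base ring over which `R` is integral). -/
theorem normDescent_base {A R F T G : Type*} [CommRing A] [CommRing R] [IsDomain R]
    [IsIntegrallyClosed R] [Field F] [Algebra R F] [IsFractionRing R F]
    [CommRing T] [Algebra F T] [Algebra R T] [IsScalarTower R F T] [Module.Finite F T]
    [Algebra A R] [Algebra A T] [IsScalarTower A R T] [Algebra.IsIntegral A R]
    [Group G] [Finite G] [MulSemiringAction G T] [SMulCommClass G F T]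
    (hinv : ∀ z : T, (∀ g : G, g • z = z) → z ∈ Set.range (algebraMap F T))
    (hcard : Module.finrank F T = Nat.card G)
    [Module.Finite R (integralClosure R T)]
    (n : Ideal R) [hn : n.IsMaximal] (π : A) (hπ : algebraMap A R π ∈ n)
    (hReg : ∀ Q : Ideal (integralClosure A T), Q.IsMaximal →
      (∀ r ∈ n, ∀ q : integralClosure A T, (q : T) = algebraMap R T r → q ∈ Q) →
      ∃ s0 ∈ Q,
        (∀ z ∈ Q, ∃ u ∉ Q, u * z ∈ Ideal.span {algebraMap A (integralClosure A T) π, s0}) ∧
        ∀ b : integralClosure A T, ∃ a : A, b - algebraMap A (integralClosure A T) a ∈ Q) :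
    ∃ t ∈ n, ∀ z ∈ n, ∃ u ∉ n, u * z ∈ Ideal.span {algebraMap A R π, t} := by
  classical
  have hcardpos : 0 < Nat.card G := Nat.card_pos
  have hntT : Nontrivial T :=
    Module.nontrivial_of_finrank_pos (R := F) (by rw [hcard]; exact hcardpos)
  -- `R → integralClosure R T` is injective
  have hinj : Function.Injective (algebraMap R (integralClosure R T)) := by
    intro a b hab
    have h1 : algebraMap R T a = algebraMap R T b := congrArg Subtype.val hab
    rw [IsScalarTower.algebraMap_apply R F T, IsScalarTower.algebraMap_apply R F T] at h1
    exact IsFractionRing.injective R F ((algebraMap F T).injective h1)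
  -- a maximal ideal of `integralClosure R T` over `n`
  obtain ⟨QR, hQRmax, hQRn⟩ := Ideal.exists_ideal_over_maximal_of_isIntegral
    (S := integralClosure R T) n (by
      rw [(RingHom.injective_iff_ker_eq_bot _).mp hinj]
      exact bot_le)
  set e := closureEquiv A R T with he
  -- its copy in `integralClosure A T`
  have hQAmax : (QR.comap (e : integralClosure A T →+* integralClosure R T)).IsMaximal :=
    Ideal.comap_isMaximal_of_surjective _ e.surjective
  have hnQ : ∀ r ∈ n, ∀ q : integralClosure A T, (q : T) = algebraMap R T r →
      q ∈ QR.comap (e : integralClosure A T →+* integralClosure R T) := by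
    intro r hr q hq
    rw [Ideal.mem_comap]
    have h1 : (e : integralClosure A T →+* integralClosure R T) q =
        algebraMap R (integralClosure R T) r := Subtype.ext hq
    rw [h1]
    rw [← hQRn] at hr
    exact hr
  obtain ⟨s0, hs0, hloc, hres⟩ := hReg _ hQAmax hnQ
  refine NormDescent.normDescent hinv hcard n (algebraMap A R π) hπ QR hQRmax hQRn (e s0) hs0
    ?_ ?_
  · intro z hz
    have hz' : e.symm z ∈ QR.comap (e : integralClosure A T →+* integralClosure R T) := by
      rw [Ideal.mem_comap]
      show e (e.symm z) ∈ QR
      rw [RingEquiv.apply_symm_apply]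
      exact hz
    obtain ⟨u, hu, hmem⟩ := hloc _ hz'
    obtain ⟨b1, b2, h12⟩ := Ideal.mem_span_pair.mp hmem
    refine ⟨e u, fun h => hu h, Ideal.mem_span_pair.mpr ⟨e b1, e b2, ?_⟩⟩
    have h3 := congrArg e h12
    rw [map_add, map_mul, map_mul, map_mul, RingEquiv.apply_symm_apply, he,
      closureEquiv_algebraMap] at h3
    exact h3
  · intro b
    obtain ⟨a, ha⟩ := hres (e.symm b)
    refine ⟨algebraMap A R a, ?_⟩
    rw [Ideal.mem_comap] at ha
    have h3 : (e : integralClosure A T →+* integralClosure R T)
        (e.symm b - algebraMap A (integralClosure A T) a) =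
        b - algebraMap R (integralClosure R T) (algebraMap A R a) := by
      show e (e.symm b - algebraMap A (integralClosure A T) a) = _
      rw [map_sub, RingEquiv.apply_symm_apply, he, closureEquiv_algebraMap]
    rw [← h3]
    exact ha

end Fermat.Agent.S18.NormDescentBase
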