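/-
S18 / [IGUSA] assembly leaf T2 (owner: helper94): trace forms, discriminants and integral closures.

Setting: `Rb` an integrally closed domain with fraction field `E`, `T` a commutative finite
`E`-algebra (NOT assumed to be a field or reduced).

* `isIntegral_trace`            : the trace of an `Rb`-integral element of `T` is `Rb`-integral;
* `discr_smul_mem_span`         : (a) `discr • z ∈ span_Rb (range b)` for integral `z`;
* `mem_span_inv_discr_smul`     : (a) `z ∈ span_Rb {d⁻¹ • b i}`;
* `finite_integralClosure`      : (a) `integralClosure Rb T` is a finite `Rb`-module;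
* `discr_of_matrix_smul`        : (b) `discr (M • b) = (det M)² * discr b`;
* `exists_basis_of_integralClosure` : an `Rb`-basis of `integralClosure Rb T` is an `E`-basis
  of `T`;
* `trace_coe_eq`, `discr_coe_eq`: traces/discriminants over `Rb` and over `E` agree;
* `isReduced_quotient_of_isUnit_discr'` / `isReduced_quotient_of_isUnit_discr` :
  (c) unit discriminant ⇒ the fibre `W ⧸ m W` is reduced.
-/
import Mathlib

set_option autoImplicit false
set_option linter.unusedSectionVars false
set_option linter.style.haveILetI false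

namespace Fermat.Agent.S18.TraceDisc

open Polynomial Module TensorProduct

/-- The Gram determinant in "matrix of traces" form is `Algebra.discr`. -/
theorem discr_eq_det_of {E T ι : Type*} [CommRing E] [CommRing T] [Algebra E T]
    [Fintype ι] [DecidableEq ι] (b : ι → T) :
    Algebra.discr E b = (Matrix.of fun i j => Algebra.trace E T (b i * b j)).det := rfl

section Integral

variable {Rb E T : Type*} [CommRing Rb] [Field E] [Algebra Rb E] [CommRing T] [Algebra E T]
  [Algebra Rb T] [IsScalarTower Rb E T] [Module.Finite E T]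

theorem isIntegral_trace {z : T} (hz : IsIntegral Rb z) : IsIntegral Rb (Algebra.trace E T z) := by
  classical
  obtain ⟨p, hpm, hp⟩ := hz
  let Eb := AlgebraicClosure E
  let f : T →ₗ[E] T := Algebra.lmul E T z
  let g : Module.End Eb (Eb ⊗[E] T) := f.baseChange Eb
  have hg : g = Algebra.lmul Eb (Eb ⊗[E] T) (1 ⊗ₜ z) := Algebra.baseChange_lmul z
  have h1 : LinearMap.trace Eb _ g = algebraMap E Eb (Algebra.trace E T z) :=
    LinearMap.trace_baseChange f Eb
  have h3 : LinearMap.trace Eb _ g = g.charpoly.roots.sum :=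
    Module.End.trace_eq_sum_roots_charpoly_of_splits (IsAlgClosed.splits _)
  rw [← isIntegral_algebraMap_iff (algebraMap E Eb).injective, ← h1, h3]
  apply IsIntegral.multiset_sum
  intro μ hμ
  have hroot : g.charpoly.IsRoot μ := Polynomial.isRoot_of_mem_roots hμ
  rw [← Module.End.hasEigenvalue_iff_isRoot_charpoly] at hroot
  obtain ⟨v, hv⟩ := hroot.exists_hasEigenvector
  refine ⟨p, hpm, ?_⟩
  have hring : (algebraMap Eb (Eb ⊗[E] T)).comp (algebraMap Rb Eb) =
      (Algebra.TensorProduct.includeRight : T →ₐ[E] Eb ⊗[E] T).toRingHom.comp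
        (algebraMap Rb T) := by
    ext r
    have e1 : algebraMap Rb T r = (algebraMap Rb E r) • (1 : T) := by
      rw [IsScalarTower.algebraMap_apply Rb E T, Algebra.algebraMap_eq_smul_one]
    have e2 : algebraMap Rb Eb r = (algebraMap Rb E r) • (1 : Eb) := by
      rw [IsScalarTower.algebraMap_apply Rb E Eb, Algebra.algebraMap_eq_smul_one]
    have e3 : (algebraMap Eb (Eb ⊗[E] T)) (algebraMap Rb Eb r) = (algebraMap Rb Eb r) ⊗ₜ[E] (1 : T) :=
      Algebra.TensorProduct.algebraMap_apply _
    have e4 : (Algebra.TensorProduct.includeRight : T →ₐ[E] Eb ⊗[E] T).toRingHom (algebraMap Rb T r)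
        = (1 : Eb) ⊗ₜ[E] (algebraMap Rb T r) := rfl
    rw [RingHom.comp_apply, RingHom.comp_apply, e3, e4, e1, e2, TensorProduct.smul_tmul]
  have h4 : aeval g (p.map (algebraMap Rb Eb)) = 0 := by
    rw [hg, Polynomial.aeval_algHom_apply]
    have : aeval ((1 : Eb) ⊗ₜ[E] z) (p.map (algebraMap Rb Eb)) = 0 := by
      rw [aeval_def, eval₂_map, hring]
      have := Polynomial.hom_eval₂ p (algebraMap Rb T)
        (Algebra.TensorProduct.includeRight : T →ₐ[E] Eb ⊗[E] T).toRingHom z
      rw [hp, map_zero] at this
      simpa using this.symm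
    rw [this, map_zero]
  have h5 := Module.End.aeval_apply_of_hasEigenvector hv (p := p.map (algebraMap Rb Eb))
  rw [h4, LinearMap.zero_apply, eval_map] at h5
  rcases smul_eq_zero.mp h5.symm with h | h
  · exact h
  · exact absurd h hv.2

end Integral
section MatrixChange

variable {Rb E T : Type*} [CommRing Rb] [CommRing E] [Algebra Rb E] [CommRing T] [Algebra E T]
  [Algebra Rb T] [IsScalarTower Rb E T] {ι : Type*} [Fintype ι] [DecidableEq ι]

/-- (b) change of family by a matrix with entries in `Rb`. -/
theorem discr_of_matrix_smul (b c : ι → T) (M : Matrix ι ι Rb)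
    (hc : ∀ i, c i = ∑ j, M i j • b j) :
    Algebra.discr E c = algebraMap Rb E M.det ^ 2 * Algebra.discr E b := by
  have h := Algebra.discr_of_matrix_mulVec (A := E) b (M.map (algebraMap Rb E))
  have hc' : c = ((M.map (algebraMap Rb E)).map (algebraMap E T)).mulVec b := by
    funext i
    rw [hc i]
    simp only [Matrix.mulVec, dotProduct, Matrix.map_apply]
    refine Finset.sum_congr rfl fun j _ => ?_
    rw [← IsScalarTower.algebraMap_apply, Algebra.smul_def]
  rw [hc', h, ← RingHom.mapMatrix_apply, ← RingHom.map_det]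

end MatrixChange

section Closed

variable {Rb E T : Type*} [CommRing Rb] [IsDomain Rb] [IsIntegrallyClosed Rb] [Field E]
  [Algebra Rb E] [IsFractionRing Rb E] [CommRing T] [Algebra E T] [Algebra Rb T]
  [IsScalarTower Rb E T] [Module.Finite E T]

theorem exists_algebraMap_eq_trace {z : T} (hz : IsIntegral Rb z) :
    ∃ r : Rb, algebraMap Rb E r = Algebra.trace E T z :=
  IsIntegrallyClosed.isIntegral_iff.mp (isIntegral_trace hz)

variable {ι : Type*} [Fintype ι] [DecidableEq ι]

/-- The Gram matrix of a family of integral elements has entries in `Rb`. -/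
theorem exists_traceMatrix_eq (b : ι → T) (hb : ∀ i, IsIntegral Rb (b i)) :
    ∃ G : Matrix ι ι Rb, G.map (algebraMap Rb E) = Algebra.traceMatrix E b := by
  have h : ∀ i j, ∃ r : Rb, algebraMap Rb E r = Algebra.trace E T (b i * b j) :=
    fun i j => exists_algebraMap_eq_trace ((hb i).mul (hb j))
  choose G hG using h
  refine ⟨Matrix.of G, ?_⟩
  ext i j
  simp [Algebra.traceMatrix_apply, Algebra.traceForm_apply, hG]

theorem exists_algebraMap_eq_discr (b : ι → T) (hb : ∀ i, IsIntegral Rb (b i)) :
    ∃ d : Rb, algebraMap Rb E d = Algebra.discr E b := by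
  obtain ⟨G, hG⟩ := exists_traceMatrix_eq (Rb := Rb) (E := E) b hb
  refine ⟨G.det, ?_⟩
  rw [Algebra.discr_def, ← hG, RingHom.map_det, RingHom.mapMatrix_apply]

/-- (a) `discr • z` is an `Rb`-combination of the basis, for every integral `z`. -/
theorem discr_smul_mem_span (b : Basis ι E T) (hb : ∀ i, IsIntegral Rb (b i)) {z : T}
    (hz : IsIntegral Rb z) :
    Algebra.discr E b • z ∈ Submodule.span Rb (Set.range b) := by
  obtain ⟨G, hG⟩ := exists_traceMatrix_eq (Rb := Rb) (E := E) (⇑b) hb
  have ht : ∀ i, ∃ r : Rb, algebraMap Rb E r = Algebra.trace E T (z * b i) :=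
    fun i => exists_algebraMap_eq_trace (hz.mul (hb i))
  choose r hr using ht
  have key : ∀ i, Algebra.discr E b * b.equivFun z i = algebraMap Rb E ((G.adjugate.mulVec r) i) := by
    have h1 := Algebra.traceMatrix_of_basis_mulVec (A := E) b z
    have h2 : (Algebra.traceMatrix E b).adjugate.mulVec
        ((Algebra.traceMatrix E b).mulVec (b.equivFun z)) = Algebra.discr E b • b.equivFun z := by
      rw [Matrix.mulVec_mulVec, Matrix.adjugate_mul, Matrix.smul_mulVec, Matrix.one_mulVec]
      rfl
    intro i
    have h3 := congrFun h2 i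
    rw [h1, Pi.smul_apply, smul_eq_mul] at h3
    rw [← h3, ← hG, ← RingHom.mapMatrix_apply, ← RingHom.map_adjugate]
    simp only [Matrix.mulVec, dotProduct, RingHom.mapMatrix_apply, Matrix.map_apply, map_sum,
      map_mul, hr]
  have hz' : Algebra.discr E b • z = ∑ i, ((G.adjugate.mulVec r) i) • b i := by
    conv_lhs => rw [← b.sum_equivFun z, Finset.smul_sum]
    refine Finset.sum_congr rfl fun i _ => ?_
    rw [smul_smul, key i, algebraMap_smul]
  rw [hz']
  exact Submodule.sum_mem _ fun i _ => Submodule.smul_mem _ _ (Submodule.subset_span ⟨i, rfl⟩)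

/-- (a) every integral `z` lies in the `Rb`-span of the `d⁻¹ • b i`. -/
theorem mem_span_inv_discr_smul (b : Basis ι E T) (hb : ∀ i, IsIntegral Rb (b i))
    (hd : Algebra.discr E b ≠ 0) {z : T} (hz : IsIntegral Rb z) :
    z ∈ Submodule.span Rb (Set.range fun i => (Algebra.discr E b)⁻¹ • b i) := by
  obtain ⟨c, hc⟩ := (Submodule.mem_span_range_iff_exists_fun Rb).mp (discr_smul_mem_span b hb hz)
  rw [Submodule.mem_span_range_iff_exists_fun]
  refine ⟨c, ?_⟩
  have : z = (Algebra.discr E b)⁻¹ • (Algebra.discr E b • z) := (inv_smul_smul₀ hd z).symm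
  rw [this, ← hc, Finset.smul_sum]
  refine Finset.sum_congr rfl fun i _ => ?_
  rw [← algebraMap_smul E (c i) (b i), ← algebraMap_smul E (c i) ((Algebra.discr E b)⁻¹ • b i),
    smul_smul, smul_smul, mul_comm]

/-- (a) the integral closure is a finite module. -/
theorem finite_integralClosure [IsNoetherianRing Rb] (b : Basis ι E T)
    (hb : ∀ i, IsIntegral Rb (b i)) (hd : Algebra.discr E b ≠ 0) :
    Module.Finite Rb (integralClosure Rb T) := by
  set N : Submodule Rb T := Submodule.span Rb (Set.range fun i => (Algebra.discr E b)⁻¹ • b i)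
    with hN
  have hfg : N.FG := Submodule.fg_span (Set.finite_range _)
  haveI : IsNoetherian Rb N := isNoetherian_of_fg_of_noetherian N hfg
  have hle : Subalgebra.toSubmodule (integralClosure Rb T) ≤ N := fun z hz =>
    mem_span_inv_discr_smul b hb hd hz
  haveI : IsNoetherian Rb (Subalgebra.toSubmodule (integralClosure Rb T)) := isNoetherian_of_le hle
  exact (inferInstance : Module.Finite Rb (Subalgebra.toSubmodule (integralClosure Rb T)))

omit [IsDomain Rb] [IsIntegrallyClosed Rb] [Field E] [Algebra Rb E] [IsFractionRing Rb E]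
  [Algebra E T] [IsScalarTower Rb E T] [Module.Finite E T] [DecidableEq ι] in
theorem coe_eq_sum_repr (b : Basis ι Rb (integralClosure Rb T)) (x : integralClosure Rb T) :
    (x : T) = ∑ j, (b.repr x j) • ((b j : integralClosure Rb T) : T) := by
  have h := congrArg (integralClosure Rb T).val (b.sum_repr x).symm
  rw [map_sum] at h
  rw [show (x : T) = (integralClosure Rb T).val x from rfl, h]
  refine Finset.sum_congr rfl fun j _ => ?_
  rw [map_smul]
  rfl

/-- An `Rb`-basis of the integral closure of `Rb` in `T` is an `E`-basis of `T`. -/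
theorem exists_basis_of_integralClosure (b : Basis ι Rb (integralClosure Rb T)) :
    ∃ bE : Basis ι E T, ∀ i, bE i = ((b i : integralClosure Rb T) : T) := by
  have hli0 : LinearIndependent Rb (fun i => ((b i : integralClosure Rb T) : T)) := by
    have := b.linearIndependent.map' (integralClosure Rb T).val.toLinearMap
      (LinearMap.ker_eq_bot.mpr Subtype.val_injective)
    exact this
  have hli : LinearIndependent E (fun i => ((b i : integralClosure Rb T) : T)) :=
    hli0.localization E (nonZeroDivisors Rb)
  have hsp : ⊤ ≤ Submodule.span E (Set.range fun i => ((b i : integralClosure Rb T) : T)) := by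
    intro z _
    have hzE : IsIntegral E z := Algebra.IsIntegral.isIntegral z
    obtain ⟨m, hm⟩ := IsIntegral.exists_multiple_integral_of_isLocalization
      (nonZeroDivisors Rb) z hzE
    -- `m • z` is integral over `Rb`
    set w : integralClosure Rb T := ⟨m • z, hm⟩ with hw
    have hw' : (w : T) = ∑ i, (b.repr w i) • ((b i : integralClosure Rb T) : T) :=
      coe_eq_sum_repr b w
    have hm0 : algebraMap Rb E (m : Rb) ≠ 0 :=
      IsFractionRing.to_map_ne_zero_of_mem_nonZeroDivisors m.2
    have hz : z = (algebraMap Rb E (m : Rb))⁻¹ • (w : T) := by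
      have h1 : (w : T) = algebraMap Rb E (m : Rb) • z := by
        rw [algebraMap_smul]; rfl
      rw [h1, inv_smul_smul₀ hm0]
    rw [hz]
    refine Submodule.smul_mem _ _ ?_
    rw [hw']
    refine Submodule.sum_mem _ fun i _ => ?_
    rw [← algebraMap_smul E (b.repr w i)]
    exact Submodule.smul_mem _ _ (Submodule.subset_span ⟨i, rfl⟩)
  exact ⟨Basis.mk hli hsp, fun i => Basis.mk_apply hli hsp i⟩

/-- Coordinates over `Rb` and over `E` agree. -/
theorem repr_coe_eq (b : Basis ι Rb (integralClosure Rb T)) (bE : Basis ι E T)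
    (hbE : ∀ i, bE i = ((b i : integralClosure Rb T) : T)) (x : integralClosure Rb T) (i : ι) :
    bE.repr (x : T) i = algebraMap Rb E (b.repr x i) := by
  have hx : (x : T) = ∑ j, (algebraMap Rb E (b.repr x j)) • bE j := by
    rw [coe_eq_sum_repr b x]
    refine Finset.sum_congr rfl fun j _ => ?_
    rw [algebraMap_smul, hbE]
  rw [hx, bE.repr_sum_self]

/-- Traces over `Rb` (of the free module `integralClosure Rb T`) and over `E` agree. -/
theorem trace_coe_eq (b : Basis ι Rb (integralClosure Rb T)) (w : integralClosure Rb T) :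
    Algebra.trace E T (w : T) = algebraMap Rb E (Algebra.trace Rb (integralClosure Rb T) w) := by
  obtain ⟨bE, hbE⟩ := exists_basis_of_integralClosure (E := E) b
  rw [Algebra.trace_eq_matrix_trace bE, Algebra.trace_eq_matrix_trace b, Matrix.trace, Matrix.trace,
    map_sum]
  refine Finset.sum_congr rfl fun i _ => ?_
  rw [Matrix.diag_apply, Matrix.diag_apply, Algebra.leftMulMatrix_eq_repr_mul,
    Algebra.leftMulMatrix_eq_repr_mul, hbE i, ← repr_coe_eq b bE hbE]
  rfl

theorem discr_coe_eq (b : Basis ι Rb (integralClosure Rb T)) :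
    Algebra.discr E (fun i => ((b i : integralClosure Rb T) : T)) =
      algebraMap Rb E (Algebra.discr Rb b) := by
  rw [Algebra.discr_def, Algebra.discr_def, RingHom.map_det, RingHom.mapMatrix_apply]
  congr 1
  ext i j
  rw [Algebra.traceMatrix_apply, Algebra.traceForm_apply, Matrix.map_apply,
    Algebra.traceMatrix_apply, Algebra.traceForm_apply, ← trace_coe_eq b]
  rfl

end Closed

section Reduced

/-- (c), general form: a finite free algebra over a local ring with unit discriminant has reduced
special fibre. -/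
theorem isReduced_quotient_of_isUnit_discr' {Rb W ι : Type*} [CommRing Rb] [IsLocalRing Rb]
    [CommRing W] [Algebra Rb W] [Fintype ι] [DecidableEq ι] (b : Basis ι Rb W)
    (hu : IsUnit (Algebra.discr Rb b)) :
    IsReduced (W ⧸ (IsLocalRing.maximalIdeal Rb).map (algebraMap Rb W)) := by
  haveI : Module.Free Rb W := Module.Free.of_basis b
  haveI : Module.Finite Rb W := Module.Finite.of_basis b
  -- Step 1: nilpotent mod `m W` ⇒ trace in `m`
  have htr : ∀ u : W, IsNilpotent (Ideal.Quotient.mk
      ((IsLocalRing.maximalIdeal Rb).map (algebraMap Rb W)) u) →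
      Algebra.trace Rb W u ∈ IsLocalRing.maximalIdeal Rb := by
    intro u hu'
    have h1 := Algebra.trace_quotient_mk (R := Rb) (S := W) u
    have h2 : IsNilpotent (Algebra.trace (Rb ⧸ IsLocalRing.maximalIdeal Rb)
        (W ⧸ (IsLocalRing.maximalIdeal Rb).map (algebraMap Rb W))
        (Ideal.Quotient.mk ((IsLocalRing.maximalIdeal Rb).map (algebraMap Rb W)) u)) :=
      Algebra.isNilpotent_trace_of_isNilpotent hu'
    rw [h1] at h2
    exact Ideal.Quotient.eq_zero_iff_mem.mp h2.eq_zero
  refine ⟨fun x hx => ?_⟩
  obtain ⟨w, rfl⟩ := Ideal.Quotient.mk_surjective x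
  have ht : ∀ i, Algebra.trace Rb W (w * b i) ∈ IsLocalRing.maximalIdeal Rb := fun i =>
    htr _ (by rw [map_mul]; exact (Commute.all _ _).isNilpotent_mul_right hx)
  have h1 := Algebra.traceMatrix_of_basis_mulVec (A := Rb) b w
  have hunit : IsUnit (Algebra.traceMatrix Rb b).det := hu
  have h2 : b.equivFun w =
      (Algebra.traceMatrix Rb b)⁻¹.mulVec (fun i => Algebra.trace Rb W (w * b i)) := by
    rw [← h1, Matrix.mulVec_mulVec, Matrix.nonsing_inv_mul _ hunit, Matrix.one_mulVec]
  have hc : ∀ i, b.equivFun w i ∈ IsLocalRing.maximalIdeal Rb := by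
    intro i
    rw [h2]
    simp only [Matrix.mulVec, dotProduct]
    exact Ideal.sum_mem _ fun j _ => Ideal.mul_mem_left _ _ (ht j)
  rw [Ideal.Quotient.eq_zero_iff_mem, ← b.sum_equivFun w]
  refine Ideal.sum_mem _ fun i _ => ?_
  rw [Algebra.smul_def]
  exact Ideal.mul_mem_right _ _ (Ideal.mem_map_of_mem _ (hc i))

/-- (c) `Rb` local, `b` an `Rb`-basis of `integralClosure Rb T` with unit Gram determinant
(in the form of `HEmb`) ⇒ the special fibre of the integral closure is reduced. -/
theorem isReduced_quotient_of_isUnit_discr {Rb E T ι : Type*} [CommRing Rb] [IsDomain Rb]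
    [IsIntegrallyClosed Rb] [IsLocalRing Rb] [Field E] [Algebra Rb E] [IsFractionRing Rb E]
    [CommRing T] [Algebra E T] [Algebra Rb T] [IsScalarTower Rb E T] [Module.Finite E T]
    [Fintype ι] [DecidableEq ι] (b : Basis ι Rb (integralClosure Rb T))
    (hu : ∃ u : Rbˣ, algebraMap Rb E (u : Rb) =
      (Matrix.of fun i j => Algebra.trace E T
        (((b i : integralClosure Rb T) : T) * ((b j : integralClosure Rb T) : T))).det) :
    IsReduced ((integralClosure Rb T) ⧸
      (IsLocalRing.maximalIdeal Rb).map (algebraMap Rb (integralClosure Rb T))) := by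
  apply isReduced_quotient_of_isUnit_discr' b
  obtain ⟨u, hu⟩ := hu
  have h := discr_coe_eq (E := E) b
  have h' : algebraMap Rb E (u : Rb) = algebraMap Rb E (Algebra.discr Rb b) := hu.trans h
  rw [← IsFractionRing.injective Rb E h']
  exact u.isUnit

end Reduced

end Fermat.Agent.S18.TraceDisc
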