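import Mathlib
import Fermat.Agent.S18.TraceDisc

/-!
# S18 [IGUSA] T1': ranks and traces on `Tot = L ⊗[Ky] F`, and global finiteness

OWNER: helper55.

* `finrank_left  : finrank L (L ⊗[Ky] F) = finrank Ky F`;
* `trace_left    : Tr_{Tot/L}(1 ⊗ f) = Tr_{F/Ky}(f)`;
* `trace_right   : Tr_{Tot/F}(l ⊗ 1) = Tr_{L/Ky}(l)` (`F`-structure = `rightAlgebra`);
* `finite_integralClosure_right` : the integral closure of `R = integralClosure A0 F` in `Tot`
  is a finite `R`-module.
-/

set_option autoImplicit false

namespace Fermat.Agent.S18.TotTrace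

open TensorProduct

attribute [local instance] Algebra.TensorProduct.rightAlgebra

variable {Ky L F : Type*} [Field Ky] [Field L] [Field F] [Algebra Ky L] [Algebra Ky F]

theorem finrank_left [FiniteDimensional Ky F] :
    Module.finrank L (L ⊗[Ky] F) = Module.finrank Ky F :=
  Module.finrank_baseChange

theorem trace_left [FiniteDimensional Ky F] (f : F) :
    Algebra.trace L (L ⊗[Ky] F) (1 ⊗ₜ[Ky] f) = algebraMap Ky L (Algebra.trace Ky F f) := by
  rw [Algebra.trace_apply, Algebra.trace_apply, ← Algebra.baseChange_lmul,
    LinearMap.trace_baseChange]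

theorem trace_right [FiniteDimensional Ky L] (l : L) :
    Algebra.trace F (L ⊗[Ky] F) (l ⊗ₜ[Ky] 1) = algebraMap Ky F (Algebra.trace Ky L l) := by
  have h := Algebra.trace_eq_of_equiv_equiv (A₁ := F) (B₁ := L ⊗[Ky] F) (A₂ := F)
    (B₂ := F ⊗[Ky] L) (RingEquiv.refl F) (Algebra.TensorProduct.comm Ky L F).toRingEquiv
    (by
      ext f
      simp [Algebra.TensorProduct.right_algebraMap_apply]) (l ⊗ₜ[Ky] 1)
  rw [h]
  change Algebra.trace F (F ⊗[Ky] L) ((Algebra.TensorProduct.comm Ky L F) (l ⊗ₜ[Ky] 1)) = _
  rw [Algebra.TensorProduct.comm_tmul]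
  exact trace_left (Ky := Ky) (L := F) (F := L) l

/-- The swap `L ⊗[Ky] F ≃ F ⊗[Ky] L` as an `F`-linear equivalence (right structure on the source,
left structure on the target). -/
noncomputable def commRight : (L ⊗[Ky] F) ≃ₗ[F] (F ⊗[Ky] L) :=
  { (Algebra.TensorProduct.comm Ky L F).toLinearEquiv with
    map_smul' := fun f t => by
      change (Algebra.TensorProduct.comm Ky L F) (f • t) =
        f • (Algebra.TensorProduct.comm Ky L F) t
      rw [Algebra.smul_def, Algebra.smul_def, map_mul,
        Algebra.TensorProduct.right_algebraMap_apply, Algebra.TensorProduct.comm_tmul,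
        Algebra.TensorProduct.algebraMap_apply]
      rfl }

theorem commRight_symm_tmul (f : F) (l : L) :
    (commRight (Ky := Ky) (L := L) (F := F)).symm (f ⊗ₜ[Ky] l) = l ⊗ₜ[Ky] f := rfl

/-- The `F`-basis `(b i ⊗ 1)` of `L ⊗[Ky] F` attached to a `Ky`-basis `b` of `L`. -/
noncomputable def basisRight {ι : Type*} (b : Module.Basis ι Ky L) :
    Module.Basis ι F (L ⊗[Ky] F) :=
  (b.baseChange F).map (commRight (Ky := Ky) (L := L) (F := F)).symm

theorem basisRight_apply {ι : Type*} (b : Module.Basis ι Ky L) (i : ι) :
    basisRight (F := F) b i = b i ⊗ₜ[Ky] (1 : F) := by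
  rw [basisRight, Module.Basis.map_apply, Module.Basis.baseChange_apply, commRight_symm_tmul]

theorem finite_right [FiniteDimensional Ky L] : Module.Finite F (L ⊗[Ky] F) :=
  Module.Finite.of_basis (basisRight (F := F) (Module.finBasis Ky L))

/-- The discriminant of the `F`-basis `(b i ⊗ 1)` is the image of the discriminant of `b`. -/
theorem discr_basisRight [FiniteDimensional Ky L] {ι : Type*} [Fintype ι] [DecidableEq ι]
    (b : Module.Basis ι Ky L) :
    Algebra.discr F (basisRight (F := F) b) = algebraMap Ky F (Algebra.discr Ky b) := by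
  rw [Algebra.discr_def, Algebra.discr_def, RingHom.map_det]
  congr 1
  ext i j
  rw [RingHom.mapMatrix_apply, Matrix.map_apply, Algebra.traceMatrix_apply,
    Algebra.traceMatrix_apply, Algebra.traceForm_apply, Algebra.traceForm_apply,
    basisRight_apply, basisRight_apply, Algebra.TensorProduct.tmul_mul_tmul, mul_one,
    trace_right]

/-- Global finiteness: the integral closure of `R = integralClosure A0 F` in `L ⊗[Ky] F`
(an `R`-algebra through `F`) is a finite `R`-module. -/
theorem finite_integralClosure_right {A0 : Type*} [CommRing A0] [IsDomain A0]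
    [IsIntegrallyClosed A0] [IsNoetherianRing A0] [Algebra A0 Ky] [IsFractionRing A0 Ky]
    [Algebra A0 L] [Algebra A0 F] [IsScalarTower A0 Ky L] [IsScalarTower A0 Ky F]
    [FiniteDimensional Ky L] [FiniteDimensional Ky F] [CharZero Ky] :
    Module.Finite (integralClosure A0 F) (integralClosure (integralClosure A0 F) (L ⊗[Ky] F)) := by
  classical
  have hIC : IsIntegrallyClosed (integralClosure A0 F) :=
    integralClosure.isIntegrallyClosedOfFiniteExtension Ky
  have hFR : IsFractionRing (integralClosure A0 F) F :=
    IsIntegralClosure.isFractionRing_of_finite_extension A0 Ky F (integralClosure A0 F)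
  have hN : IsNoetherianRing (integralClosure A0 F) :=
    IsIntegralClosure.isNoetherianRing A0 Ky F (integralClosure A0 F)
  have hfin : Module.Finite F (L ⊗[Ky] F) := finite_right
  obtain ⟨s, b, hb⟩ := FiniteDimensional.exists_is_basis_integral A0 Ky L
  have hb' : ∀ i, IsIntegral (integralClosure A0 F) (basisRight (F := F) b i) := by
    intro i
    rw [basisRight_apply]
    have h := IsIntegral.map_of_comp_eq (algebraMap A0 (integralClosure A0 F))
      (Algebra.TensorProduct.includeLeft (R := Ky) (S := Ky) (A := L) (B := F)).toRingHom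
      (by
        ext a
        simp only [RingHom.comp_apply, AlgHom.toRingHom_eq_coe, RingHom.coe_coe,
          Algebra.TensorProduct.includeLeft_apply]
        change (1 : L) ⊗ₜ[Ky] (algebraMap A0 F a) = algebraMap A0 L a ⊗ₜ[Ky] (1 : F)
        rw [IsScalarTower.algebraMap_apply A0 Ky F, IsScalarTower.algebraMap_apply A0 Ky L,
          Algebra.algebraMap_eq_smul_one, Algebra.algebraMap_eq_smul_one (A := L),
          TensorProduct.smul_tmul])
      (hb i)
    exact h
  have hd : Algebra.discr F (basisRight (F := F) b) ≠ 0 := by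
    rw [discr_basisRight]
    intro h0
    exact Algebra.discr_not_zero_of_basis Ky b
      ((algebraMap Ky F).injective (by rw [h0, map_zero]))
  exact TraceDisc.finite_integralClosure (Rb := integralClosure A0 F) (E := F)
    (T := L ⊗[Ky] F) (basisRight (F := F) b) hb' hd

end Fermat.Agent.S18.TotTrace
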