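import Fermat.Agent.S18.IgusaTop
import Fermat.Agent.S18.NormDescentBase
import Fermat.Agent.S18.TotTrace

/-!
# S18 / [IGUSA] (D) : norm descent from the cover, `CoverDatum + LeafReg ⟹ Conclusion`

Wiring of `NormDescentBase.normDescent_base` with `A = O[y]`, `R = integralClosure O[y] F`,
`T = Tot = L ⊗[Ky] F` (an `F`-algebra through the right factor), `G = Gal(L/Ky)`.
-/

set_option autoImplicit false
set_option linter.unusedSectionVars false
set_option linter.style.haveILetI false

namespace Fermat.Agent.S18.IgusaDescent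

open Polynomial TensorProduct Fermat.Agent.S18.IgusaTop

attribute [local instance] Algebra.TensorProduct.rightAlgebra

section Core

variable {O : Type} [CommRing O] [IsDomain O] [IsDiscreteValuationRing O] [CharZero O]
  (Ky F L : Type) [Field Ky] [Field F] [Field L]
  [Algebra O[X] Ky] [IsFractionRing O[X] Ky]
  [Algebra Ky F] [Algebra O[X] F] [IsScalarTower O[X] Ky F] [FiniteDimensional Ky F]
  [Algebra Ky L] [Algebra O[X] L] [IsScalarTower O[X] Ky L]

/-- The two structure maps `O[y] → L ⊗[Ky] F` (through `L` and through `F`) agree. -/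
theorem algebraMap_tot_eq (a : O[X]) :
    algebraMap O[X] (L ⊗[Ky] F) a = algebraMap F (L ⊗[Ky] F) (algebraMap O[X] F a) := by
  rw [Algebra.TensorProduct.algebraMap_apply, Algebra.TensorProduct.right_algebraMap_apply,
    IsScalarTower.algebraMap_apply O[X] Ky F, IsScalarTower.algebraMap_apply O[X] Ky L,
    Algebra.algebraMap_eq_smul_one (A := F), Algebra.algebraMap_eq_smul_one (A := L),
    TensorProduct.smul_tmul]

theorem isScalarTower_tot : IsScalarTower O[X] (integralClosure O[X] F) (L ⊗[Ky] F) :=
  IsScalarTower.of_algebraMap_eq fun a => algebraMap_tot_eq Ky F L a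

include O in
theorem charZero_Ky : CharZero Ky :=
  charZero_of_injective_ringHom (f := (algebraMap O[X] Ky).comp (C : O →+* O[X]))
    ((IsFractionRing.injective O[X] Ky).comp C_injective)

/-- **Descent core**: for any finite group `G` acting on `Tot = L ⊗[Ky] F` by `F`-algebra
automorphisms with invariants `F` and `[Tot : F] = |G|`. -/
theorem conclusion_of_leafReg [FiniteDimensional Ky L] {G : Type*} [Group G] [Finite G]
    [MulSemiringAction G (L ⊗[Ky] F)] [SMulCommClass G F (L ⊗[Ky] F)]
    (hinv : ∀ z : L ⊗[Ky] F, (∀ g : G, g • z = z) → z ∈ Set.range (algebraMap F (L ⊗[Ky] F)))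
    (hcard : Module.finrank F (L ⊗[Ky] F) = Nat.card G)
    (π c : O) (hreg : LeafReg Ky F L π c) : Conclusion F π c := by
  intro n hn hπn hcn
  haveI : CharZero Ky := charZero_Ky (O := O) Ky
  haveI : IsIntegrallyClosed (integralClosure O[X] F) :=
    integralClosure.isIntegrallyClosedOfFiniteExtension Ky
  haveI : IsFractionRing (integralClosure O[X] F) F :=
    IsIntegralClosure.isFractionRing_of_finite_extension O[X] Ky F (integralClosure O[X] F)
  haveI : Module.Finite F (L ⊗[Ky] F) := TotTrace.finite_right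
  haveI : IsScalarTower O[X] (integralClosure O[X] F) (L ⊗[Ky] F) := isScalarTower_tot Ky F L
  haveI : Module.Finite (integralClosure O[X] F)
      (integralClosure (integralClosure O[X] F) (L ⊗[Ky] F)) :=
    TotTrace.finite_integralClosure_right
  haveI := hn
  refine NormDescentBase.normDescent_base (A := O[X]) (R := integralClosure O[X] F) (F := F)
    (T := L ⊗[Ky] F) (G := G) hinv hcard n (C π) hπn ?_
  intro Q hQ hQn
  have hπQ : algebraMap O[X] (integralClosure O[X] (L ⊗[Ky] F)) (C π) ∈ Q :=
    hQn _ hπn _ (IsScalarTower.algebraMap_apply O[X] (integralClosure O[X] F) (L ⊗[Ky] F) _)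
  have hcQ : algebraMap O[X] (integralClosure O[X] (L ⊗[Ky] F)) (X - C c) ∈ Q :=
    hQn _ hcn _ (IsScalarTower.algebraMap_apply O[X] (integralClosure O[X] F) (L ⊗[Ky] F) _)
  obtain ⟨s0, hs0, hloc, hres⟩ := hreg Q hQ hπQ hcQ
  refine ⟨s0, hs0, hloc, fun b => ?_⟩
  obtain ⟨a, ha⟩ := hres b
  exact ⟨C a, ha⟩

end Core

section Gal

variable (Ky F L : Type) [Field Ky] [Field F] [Field L] [Algebra Ky F] [Algebra Ky L]

/-- The Galois group of `L/Ky`, as a type synonym (so that its action on `L ⊗[Ky] F` below is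
the only scalar action in sight). -/
def GalT : Type := L ≃ₐ[Ky] L

instance : Group (GalT Ky L) := inferInstanceAs (Group (L ≃ₐ[Ky] L))

instance [FiniteDimensional Ky L] : Finite (GalT Ky L) :=
  inferInstanceAs (Finite (L ≃ₐ[Ky] L))

/-- `g ↦ g ⊗ id`. -/
noncomputable def galHom : GalT Ky L →* ((L ⊗[Ky] F) ≃ₐ[Ky] (L ⊗[Ky] F)) where
  toFun g := Algebra.TensorProduct.congr (show L ≃ₐ[Ky] L from g) (AlgEquiv.refl : F ≃ₐ[Ky] F)
  map_one' := Algebra.TensorProduct.congr_refl
  map_mul' g h := by
    apply AlgEquiv.coe_toAlgHom_injective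
    apply Algebra.TensorProduct.ext'
    intro a b
    rfl

noncomputable instance galAction : MulSemiringAction (GalT Ky L) (L ⊗[Ky] F) :=
  MulSemiringAction.compHom _ (galHom Ky F L)

theorem gal_smul_tmul (g : GalT Ky L) (l : L) (f : F) :
    g • (l ⊗ₜ[Ky] f) = (show L ≃ₐ[Ky] L from g) l ⊗ₜ[Ky] f := rfl

instance smulCommClass_gal : SMulCommClass (GalT Ky L) F (L ⊗[Ky] F) :=
  ⟨fun g f z => by
    rw [Algebra.smul_def, Algebra.smul_def, smul_mul',
      Algebra.TensorProduct.right_algebraMap_apply, gal_smul_tmul, map_one]⟩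

theorem finrank_gal [FiniteDimensional Ky L] [IsGalois Ky L] :
    Module.finrank F (L ⊗[Ky] F) = Nat.card (GalT Ky L) := by
  rw [Module.finrank_eq_card_basis (TotTrace.basisRight (F := F) (Module.finBasis Ky L)),
    Fintype.card_fin]
  exact (IsGalois.card_aut_eq_finrank Ky L).symm

/-- coordinates of `g • z` in the `L`-basis `1 ⊗ b i` -/
theorem repr_gal_smul {ι : Type*} [Fintype ι] (b : Module.Basis ι Ky F) (g : GalT Ky L)
    (z : L ⊗[Ky] F) (i : ι) :
    (b.baseChange L).repr (g • z) i = (show L ≃ₐ[Ky] L from g) ((b.baseChange L).repr z i) := by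
  induction z using TensorProduct.induction_on with
  | zero =>
    rw [smul_zero, map_zero, Finsupp.zero_apply]
    exact (map_zero (show L ≃ₐ[Ky] L from g)).symm
  | tmul l f =>
    rw [gal_smul_tmul, Module.Basis.baseChange_repr_tmul, Module.Basis.baseChange_repr_tmul,
      map_smul]
  | add z w hz hw =>
    rw [smul_add, map_add, Finsupp.add_apply, hz, hw, map_add, Finsupp.add_apply, map_add]

/-- The invariants of `Gal(L/Ky)` on `L ⊗[Ky] F` are `F`. -/
theorem mem_range_of_fixed [FiniteDimensional Ky L] [IsGalois Ky L] [FiniteDimensional Ky F]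
    (z : L ⊗[Ky] F) (hz : ∀ g : GalT Ky L, g • z = z) :
    z ∈ Set.range (algebraMap F (L ⊗[Ky] F)) := by
  classical
  set b := Module.finBasis Ky F with hb
  set B := b.baseChange L with hB
  have hfix : ∀ i, B.repr z i ∈ Set.range (algebraMap Ky L) := by
    intro i
    rw [IsGalois.mem_range_algebraMap_iff_fixed]
    intro g
    have h := repr_gal_smul Ky F L b g z i
    rw [hz g] at h
    exact h.symm
  choose k hk using hfix
  refine ⟨∑ i, k i • b i, ?_⟩
  rw [Algebra.TensorProduct.right_algebraMap_apply, TensorProduct.tmul_sum]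
  conv_rhs => rw [← B.sum_repr z]
  refine Finset.sum_congr rfl fun i _ => ?_
  rw [← hk i, hB, Module.Basis.baseChange_apply, TensorProduct.smul_tmul', smul_eq_mul, mul_one,
    ← TensorProduct.smul_tmul, Algebra.algebraMap_eq_smul_one]

end Gal

/-- **(D)** `CoverDatum + LeafReg ⟹ Conclusion`. -/
theorem descentStatement : IgusaTop.DescentStatement := by
  intro O _ _ _ _ Ky F L _ _ _ _ _ _ _ _ _ _ _ _ x Num Den π c _ hcov hreg
  haveI : FiniteDimensional Ky L := hcov.finite
  haveI : IsGalois Ky L := hcov.galois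
  exact conclusion_of_leafReg Ky F L (G := GalT Ky L) (mem_range_of_fixed Ky F L)
    (finrank_gal Ky F L) π c hreg

end Fermat.Agent.S18.IgusaDescent
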