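import Mathlib
import Fermat.Agent.S18.CoverLocDef
import Fermat.Agent.S18.HorEval

/-!
# S18 team library, block [IGUSA] T3b: the horizontal embedding `ε : R1 → ℂ[[s]]`

OWNER: helper39 (only the owner edits this file).

`R1 x c1 ⊂ L` is the local ring of the `x`-line at the closed point `x ≡ c1` of the special fibre
(`CoverLocDef`).  For a horizontal prime `p ∈ O[X]` through that point (`p` prime, `p ≁ π`,
`π ∣ p(c1)`) and a uniformising power series `Λ = x₀ + s·u(s)`, `u(0) ≠ 0`, at a complex root `x₀`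
of `p`, the evaluation `q(x) ↦ q^φ(Λ)` extends to a ring hom `ε : R1 → ℂ[[s]]` which is local for
the prime `p(x)` of `R1` and sends `p(x)` to a uniformiser (`exists_eps`).
-/

set_option autoImplicit false

namespace Fermat.Agent.S18.CoverLocEps

open Polynomial Fermat.Agent.S18.CoverLocDef

variable {O : Type*} [CommRing O] [IsDomain O] [IsDiscreteValuationRing O]

/-- A prime of `O[X]` not associated to the uniformiser has positive degree. -/
theorem natDegree_ne_zero_of_prime (π : O) (hπ : Irreducible π) (p : O[X]) (hp : Prime p)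
    (hpπ : ¬ Associated p (C π)) : p.natDegree ≠ 0 := by
  intro hdeg
  obtain ⟨a, rfl⟩ := natDegree_eq_zero.mp hdeg
  apply hpπ
  have ha0 : a ≠ 0 := by
    rintro rfl
    exact hp.ne_zero (by simp)
  obtain ⟨n, hn⟩ := IsDiscreteValuationRing.associated_pow_irreducible ha0 hπ
  obtain ⟨u, hu⟩ := hn.symm
  -- `a = π ^ n * u`
  have hCa : (C a : O[X]) = C π ^ n * C (u : O) := by rw [← C_pow, ← C_mul, hu]
  have hn0 : n ≠ 0 := by
    rintro rfl
    apply hp.not_isUnit
    rw [hCa, pow_zero, one_mul]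
    exact (Polynomial.isUnit_C).mpr u.isUnit
  have h1 : C π ∣ (C a : O[X]) := by
    rw [hCa]
    exact Dvd.dvd.mul_right (dvd_pow_self _ hn0) _
  have h2 : (C a : O[X]) ∣ C π := by
    have h3 : (C a : O[X]) ∣ C π ^ n * C (u : O) := by rw [← hCa]
    rcases hp.dvd_or_dvd h3 with h4 | h4
    · exact hp.dvd_of_dvd_pow h4
    · exact absurd (isUnit_of_dvd_unit h4 ((Polynomial.isUnit_C).mpr u.isUnit)) hp.not_isUnit
  exact associated_of_dvd_dvd h2 h1

/-- Auxiliary form of the key divisibility, over an arbitrary fraction field `K` of `O`. -/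
theorem dvd_of_eval_eq_zero_aux {K : Type*} [Field K] [Algebra O K] [IsFractionRing O K]
    (φK : K →+* ℂ) (p : O[X]) (hprim : p.IsPrimitive) (hp : Irreducible p)
    (x₀ : ℂ) (hx₀ : ((p.map (algebraMap O K)).map φK).eval x₀ = 0) (a : O[X])
    (ha : ((a.map (algebraMap O K)).map φK).eval x₀ = 0) : p ∣ a := by
  have hirr : Irreducible (p.map (algebraMap O K)) :=
    (hprim.irreducible_iff_irreducible_map_fraction_map (K := K)).mp hp
  apply hprim.dvd_of_fraction_map_dvd_fraction_map (K := K)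
  rcases hirr.isCoprime_or_dvd (a.map (algebraMap O K)) with hcop | hdvd
  · exfalso
    obtain ⟨u, v, huv⟩ := hcop
    have h1 := congrArg (fun f : K[X] => (f.map φK).eval x₀) huv
    simp only [Polynomial.map_add, Polynomial.map_mul, eval_add, eval_mul, hx₀, ha,
      mul_zero, add_zero, Polynomial.map_one, eval_one] at h1
    exact zero_ne_one h1
  · exact hdvd

/-- Auxiliary: a primitive irreducible polynomial is sent to a uniformiser. -/
theorem order_aeval_aux {K : Type*} [Field K] [Algebra O K] [IsFractionRing O K]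
    (φK : K →+* ℂ) (p : O[X]) (hprim : p.IsPrimitive) (hp : Irreducible p)
    (Λ : PowerSeries ℂ)
    (hΛ0 : ((p.map (algebraMap O K)).map φK).eval (PowerSeries.constantCoeff Λ) = 0)
    (hΛ1 : PowerSeries.coeff 1 Λ ≠ 0) :
    (aeval Λ ((p.map (algebraMap O K)).map φK)).order = 1 := by
  have hirr : Irreducible (p.map (algebraMap O K)) :=
    (hprim.irreducible_iff_irreducible_map_fraction_map (K := K)).mp hp
  have h1 := HorEval.order_evalHom_of_irreducible (Λ := Λ) φK rfl hΛ1 hirr hΛ0
  rw [HorEval.evalHom_apply] at h1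
  exact h1

/-- the extension of an injective `φ : O → ℂ` to the fraction field restricts to `φ` -/
theorem map_map_lift (φ : O →+* ℂ) (hφ : Function.Injective φ) (q : O[X]) :
    (q.map (algebraMap O (FractionRing O))).map
      (IsFractionRing.lift hφ : FractionRing O →+* ℂ) = q.map φ := by
  rw [Polynomial.map_map]
  congr 1
  apply RingHom.ext
  intro r
  rw [RingHom.comp_apply]
  exact IsFractionRing.lift_algebraMap hφ r

/-- **Key divisibility.** If `a^φ` vanishes at a complex root `x₀` of `p^φ` (`p` a horizontal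
prime), then `p ∣ a` in `O[X]`. -/
theorem dvd_of_eval_eq_zero (π : O) (hπ : Irreducible π) (φ : O →+* ℂ)
    (hφ : Function.Injective φ) (p : O[X]) (hp : Prime p) (hpπ : ¬ Associated p (C π))
    (x₀ : ℂ) (hx₀ : (p.map φ).eval x₀ = 0) (a : O[X]) (ha : (a.map φ).eval x₀ = 0) : p ∣ a := by
  have hprim : p.IsPrimitive :=
    hp.irreducible.isPrimitive (natDegree_ne_zero_of_prime π hπ p hp hpπ)
  refine dvd_of_eval_eq_zero_aux (K := FractionRing O) (IsFractionRing.lift hφ) p hprim
    hp.irreducible x₀ ?_ a ?_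
  · rw [map_map_lift φ hφ]; exact hx₀
  · rw [map_map_lift φ hφ]; exact ha

variable {L : Type*} [Field L] [Algebra O[X] L]

/-- The submonoid of polynomials whose value at `c1` is a unit of `O`. -/
def unitSub (c1 : O) : Submonoid O[X] where
  carrier := {q | IsUnit (q.eval c1)}
  mul_mem' := fun {a b} ha hb => by
    show IsUnit ((a * b).eval c1)
    rw [eval_mul]
    exact ha.mul hb
  one_mem' := by
    show IsUnit ((1 : O[X]).eval c1)
    rw [eval_one]
    exact isUnit_one

theorem mem_unitSub {c1 : O} {q : O[X]} : q ∈ unitSub c1 ↔ IsUnit (q.eval c1) := Iff.rfl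

theorem ne_zero_of_mem_unitSub {c1 : O} {q : O[X]} (hq : q ∈ unitSub c1) : q ≠ 0 := by
  rintro rfl
  have h : IsUnit ((0 : O[X]).eval c1) := hq
  rw [eval_zero] at h
  exact not_isUnit_zero h

/-- `q(x)` is a unit of `R1` when `q(c1)` is a unit of `O`. -/
theorem isUnit_evR (x : L) (hL1 : Function.Injective (evx (O := O) x)) (c1 : O) {q : O[X]}
    (hq : IsUnit (q.eval c1)) : IsUnit (evR x c1 q) := by
  have hq0 : evx x q ≠ 0 := by
    intro h
    have : q = 0 := hL1 (by rw [h, map_zero])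
    exact ne_zero_of_mem_unitSub (c1 := c1) hq this
  refine IsUnit.of_mul_eq_one ⟨(evx x q)⁻¹, inv_evx_mem_R1 x c1 q hq hq0⟩ ?_
  apply Subtype.ext
  show evx x q * (evx x q)⁻¹ = 1
  exact mul_inv_cancel₀ hq0

/-- `R1 x c1` is the localisation of `O[X]` at `unitSub c1` (through `p ↦ p(x)`). -/
theorem isLocalization_R1 (x : L) (hL1 : Function.Injective (evx (O := O) x)) (c1 : O) :
    @IsLocalization O[X] _ (unitSub c1) (R1 x c1) _ (evRHom x c1).toAlgebra := by
  letI : Algebra O[X] (R1 x c1) := (evRHom x c1).toAlgebra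
  rw [isLocalization_iff]
  refine ⟨fun y => isUnit_evR x hL1 c1 y.2, fun z => ?_, fun {a b} hab => ⟨1, ?_⟩⟩
  · obtain ⟨p, q, hq, h⟩ := z.2
    refine ⟨(p, ⟨q, hq⟩), ?_⟩
    apply Subtype.ext
    exact h
  · have h1 : evx x a = evx x b := congrArg (fun r : R1 x c1 => (r : L)) hab
    rw [hL1 h1]

/-- **T3b.** The horizontal embedding of the local ring `R1` into `ℂ[[s]]`. -/
theorem exists_eps (x : L) (hL1 : Function.Injective (evx (O := O) x)) (c1 : O) (π : O)
    (hπ : Irreducible π) (φ : O →+* ℂ) (hφ : Function.Injective φ) (p : O[X]) (hp : Prime p)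
    (hpπ : ¬ Associated p (C π)) (hpc : π ∣ p.eval c1) (Λ : PowerSeries ℂ)
    (hΛ0 : (p.map φ).eval (PowerSeries.constantCoeff Λ) = 0)
    (hΛ1 : PowerSeries.coeff 1 Λ ≠ 0) :
    ∃ ε : R1 x c1 →+* PowerSeries ℂ, (∀ q : O[X], ε (evR x c1 q) = aeval Λ (q.map φ)) ∧
      (∀ r : R1 x c1, IsUnit (ε r) ↔ ¬ evR x c1 p ∣ r) ∧ (ε (evR x c1 p)).order = 1 := by
  letI : Algebra O[X] (R1 x c1) := (evRHom x c1).toAlgebra
  haveI : IsLocalization (unitSub c1) (R1 x c1) := isLocalization_R1 x hL1 c1
  have halg : ∀ q : O[X], algebraMap O[X] (R1 x c1) q = evR x c1 q := fun q => rfl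
  -- the evaluation hom on `O[X]`
  let g : O[X] →+* PowerSeries ℂ := (aeval (R := ℂ) Λ).toRingHom.comp (mapRingHom φ)
  have hgdef : ∀ q : O[X], g q = aeval Λ (q.map φ) := fun q => rfl
  -- polynomials vanishing at `x₀` are multiples of `p`
  have hkey : ∀ a : O[X], (a.map φ).eval (PowerSeries.constantCoeff Λ) = 0 → p ∣ a :=
    fun a ha => dvd_of_eval_eq_zero π hπ φ hφ p hp hpπ _ hΛ0 a ha
  have hunit_iff : ∀ a : O[X], IsUnit (g a) ↔ ¬ p ∣ a := by
    intro a
    rw [hgdef, HorEval.isUnit_aeval_iff rfl]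
    constructor
    · rintro hne ⟨b, rfl⟩
      apply hne
      rw [Polynomial.map_mul, eval_mul, hΛ0, zero_mul]
    · intro hnd h0
      exact hnd (hkey a h0)
  -- `p` does not divide the denominators
  have hden : ∀ q : O[X], IsUnit (q.eval c1) → ¬ p ∣ q := by
    rintro q hq ⟨b, rfl⟩
    rw [eval_mul] at hq
    have h1 : IsUnit (p.eval c1) := isUnit_of_mul_isUnit_left hq
    exact hπ.not_isUnit (isUnit_of_dvd_unit hpc h1)
  have hg : ∀ y : unitSub c1, IsUnit (g (y : O[X])) := fun y => (hunit_iff _).mpr (hden _ y.2)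
  let ε : R1 x c1 →+* PowerSeries ℂ := IsLocalization.lift (M := unitSub c1) hg
  have hε : ∀ q : O[X], ε (evR x c1 q) = aeval Λ (q.map φ) := by
    intro q
    rw [← halg, ← hgdef]
    exact IsLocalization.lift_eq hg q
  -- the image of `p` is a uniformiser
  have hord : (ε (evR x c1 p)).order = 1 := by
    rw [hε]
    have hprim : p.IsPrimitive :=
      hp.irreducible.isPrimitive (natDegree_ne_zero_of_prime π hπ p hp hpπ)
    have h1 := order_aeval_aux (K := FractionRing O) (IsFractionRing.lift hφ) p hprim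
      hp.irreducible Λ (by rw [map_map_lift φ hφ]; exact hΛ0) hΛ1
    rw [map_map_lift φ hφ] at h1
    exact h1
  refine ⟨ε, hε, fun r => ?_, hord⟩
  -- `r = a(x)/q(x)`
  obtain ⟨a, q, hq, h⟩ := r.2
  have hrq : r * evR x c1 q = evR x c1 a := Subtype.ext h
  have hqu : IsUnit (evR x c1 q) := isUnit_evR x hL1 c1 hq
  have hεq : IsUnit (ε (evR x c1 q)) := hqu.map ε
  have h2 : ε r * ε (evR x c1 q) = ε (evR x c1 a) := by rw [← map_mul, hrq]
  constructor
  · rintro hu ⟨b, rfl⟩
    rw [map_mul] at hu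
    have h3 : IsUnit (ε (evR x c1 p)) := isUnit_of_mul_isUnit_left hu
    have h4 := PowerSeries.order_zero_of_unit h3
    rw [hord] at h4
    exact one_ne_zero h4
  · intro hnd
    have h3 : ¬ p ∣ a := by
      rintro ⟨b, rfl⟩
      apply hnd
      have h4 : evR x c1 (p * b) = evR x c1 p * evR x c1 b := by
        rw [← evRHom_apply, map_mul]
        rfl
      rw [h4] at hrq
      obtain ⟨v, hv⟩ := hqu
      refine ⟨evR x c1 b * (v⁻¹ : (R1 x c1)ˣ), ?_⟩
      rw [← mul_assoc, ← hrq, ← hv, mul_assoc, Units.mul_inv, mul_one]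
    have h5 : IsUnit (ε (evR x c1 a)) := by
      rw [hε, ← hgdef]
      exact (hunit_iff a).mpr h3
    rw [← h2] at h5
    exact isUnit_of_mul_isUnit_left h5

end Fermat.Agent.S18.CoverLocEps
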