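import Mathlib

/-!
# S18 team library, block [IGUSA] T3(iv)/T5-H: the local parameter at a horizontal prime

OWNER: helper73 (only the owner edits this file).

Mathlib only.  `O` is a GCD domain with an embedding `φ : O → ℂ`, `p0 ∈ O[X]` is irreducible of
positive degree, `x0 ∈ ℂ` is a root of `p0.map φ` and `Λ ∈ ℂ⟦s⟧` has constant coefficient `x0`
and nonzero linear coefficient.

* `dvd_of_eval_map_eq_zero`: `q(x0) = 0 → p0 ∣ q` (Gauss lemma);
* `order_aeval_eq_one`: `p0(Λ)` has order `1` (`x0` is a simple root);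
* `constantCoeff_aeval_ne_zero`: `¬ p0 ∣ q → q(Λ)` is a unit;
* `exists_eps_of_root`: for a field `L = Frac O[x]` and a subalgebra `R1` of fractions
  `a(x)/b(x)` with `b ∉ 𝔪` (`p0 ∈ 𝔪`), the ring hom `ε : R1 → ℂ⟦s⟧`, `x ↦ Λ`, and its extension
  `εL : L → ℂ((s))`, with `ε (p0(x))` of order `1` and `ε r` a unit for `r ∉ (p0(x))`.
  These are exactly the inputs `ε, εL, hεp, hεu, hεL` of `IgusaDiscH.not_dvd_discr_of_embeddings`.
-/

set_option autoImplicit false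
set_option linter.style.haveILetI false

namespace Fermat.Agent.S18.HorEps

open Polynomial

/-- The constant coefficient of `Q(Λ)` is `Q(Λ(0))`. -/
theorem constantCoeff_aeval (Λ : PowerSeries ℂ) (Q : ℂ[X]) :
    PowerSeries.constantCoeff (aeval Λ Q) = Q.eval (PowerSeries.constantCoeff Λ) := by
  rw [aeval_def, hom_eval₂]
  have h : (PowerSeries.constantCoeff (R := ℂ)).comp (algebraMap ℂ (PowerSeries ℂ)) =
      RingHom.id ℂ := by
    ext a
    simp
  rw [h, eval₂_id]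

/-- A power series with nonzero linear coefficient is transcendental over `ℂ`. -/
theorem aeval_ne_zero_of_coeff_one_ne_zero (Λ : PowerSeries ℂ)
    (hΛ1 : PowerSeries.coeff 1 Λ ≠ 0) (Q : ℂ[X]) (hQ : Q ≠ 0) : aeval Λ Q ≠ 0 := by
  intro h0
  have halg : IsAlgebraic ℂ Λ := ⟨Q, hQ, h0⟩
  have hint : IsIntegral ℂ Λ := halg.isIntegral
  have hdeg : (minpoly ℂ Λ).degree = 1 :=
    IsAlgClosed.degree_eq_one_of_irreducible ℂ (minpoly.irreducible hint)
  obtain ⟨c, hc⟩ := minpoly.mem_range_of_degree_eq_one ℂ Λ hdeg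
  apply hΛ1
  rw [← hc]
  simp

section Gauss

variable {O : Type*} [CommRing O] [IsDomain O] [IsGCDMonoid O]

/-- Gauss lemma, auxiliary form with an explicit fraction field. -/
theorem dvd_of_eval_map_eq_zero_aux (K : Type*) [Field K] [Algebra O K] [IsFractionRing O K]
    (φ : O →+* ℂ) (φK : K →+* ℂ) (hφK : φK.comp (algebraMap O K) = φ) (p0 : O[X])
    (hp0 : Irreducible p0) (hdeg : p0.natDegree ≠ 0) (x0 : ℂ) (hx0 : (p0.map φ).eval x0 = 0)
    (q : O[X]) (hq : (q.map φ).eval x0 = 0) : p0 ∣ q := by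
  classical
  have hprim : p0.IsPrimitive := hp0.isPrimitive hdeg
  have hirr : Irreducible (p0.map (algebraMap O K)) :=
    (hprim.irreducible_iff_irreducible_map_fraction_map).1 hp0
  have hdvdK : p0.map (algebraMap O K) ∣ q.map (algebraMap O K) := by
    by_contra hnd
    obtain ⟨a, b, hab⟩ := (hirr.coprime_iff_not_dvd).2 hnd
    have h1 := congrArg (fun r : K[X] => (r.map φK).eval x0) hab
    simp only [Polynomial.map_add, Polynomial.map_mul, Polynomial.map_map, hφK, eval_add, eval_mul,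
      hx0, hq, mul_zero, add_zero, Polynomial.map_one, eval_one] at h1
    exact zero_ne_one h1
  exact hprim.dvd_of_fraction_map_dvd_fraction_map hdvdK

/-- Gauss lemma: a polynomial vanishing at a root of the irreducible `p0` is divisible by `p0`. -/
theorem dvd_of_eval_map_eq_zero (φ : O →+* ℂ) (hφ : Function.Injective φ) (p0 : O[X])
    (hp0 : Irreducible p0) (hdeg : p0.natDegree ≠ 0) (x0 : ℂ) (hx0 : (p0.map φ).eval x0 = 0)
    (q : O[X]) (hq : (q.map φ).eval x0 = 0) : p0 ∣ q := by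
  have hφK : ∃ φK : FractionRing O →+* ℂ, φK.comp (algebraMap O (FractionRing O)) = φ := by
    refine ⟨IsFractionRing.lift hφ, ?_⟩
    ext a
    rw [RingHom.comp_apply]
    exact IsFractionRing.lift_algebraMap hφ a
  obtain ⟨φK, hφK⟩ := hφK
  exact dvd_of_eval_map_eq_zero_aux (FractionRing O) φ φK hφK p0 hp0 hdeg x0 hx0 q hq

/-- `x0` is a simple root of `p0`. -/
theorem derivative_eval_ne_zero (φ : O →+* ℂ) (hφ : Function.Injective φ) (p0 : O[X])
    (hp0 : Irreducible p0) (hdeg : p0.natDegree ≠ 0) (x0 : ℂ) (hx0 : (p0.map φ).eval x0 = 0) :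
    (p0.map φ).derivative.eval x0 ≠ 0 := by
  have : CharZero O := φ.charZero
  intro h0
  rw [derivative_map] at h0
  have hdvd := dvd_of_eval_map_eq_zero φ hφ p0 hp0 hdeg x0 hx0 _ h0
  have hne : derivative p0 ≠ 0 := fun h => hdeg (derivative_eq_zero.1 h)
  have hle := natDegree_le_of_dvd hdvd hne
  have hlt := natDegree_derivative_lt hdeg
  omega

/-- `p0(Λ)` has order `1`. -/
theorem order_aeval_eq_one (φ : O →+* ℂ) (hφ : Function.Injective φ) (p0 : O[X])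
    (hp0 : Irreducible p0) (hdeg : p0.natDegree ≠ 0) (x0 : ℂ) (hx0 : (p0.map φ).eval x0 = 0)
    (Λ : PowerSeries ℂ) (hΛ0 : PowerSeries.constantCoeff Λ = x0)
    (hΛ1 : PowerSeries.coeff 1 Λ ≠ 0) : (aeval Λ (p0.map φ)).order = 1 := by
  have hder := derivative_eval_ne_zero φ hφ p0 hp0 hdeg x0 hx0
  obtain ⟨G, hG⟩ : X - C x0 ∣ p0.map φ := dvd_iff_isRoot.2 hx0
  have hG0 : G.eval x0 ≠ 0 := by
    have h1 : (p0.map φ).derivative.eval x0 = G.eval x0 := by
      rw [hG, derivative_mul]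
      simp
    rw [← h1]
    exact hder
  -- `Λ - x0 = s * υ`
  have hc0 : PowerSeries.constantCoeff (Λ - PowerSeries.C x0) = 0 := by
    rw [map_sub, hΛ0]
    simp
  obtain ⟨υ, hυ⟩ := PowerSeries.X_dvd_iff.2 hc0
  have hυ0 : PowerSeries.constantCoeff υ ≠ 0 := by
    have h1 : PowerSeries.coeff 1 (Λ - PowerSeries.C x0) = PowerSeries.coeff 1 Λ := by
      rw [map_sub, PowerSeries.coeff_C]
      simp
    rw [hυ] at h1
    have h2 : PowerSeries.coeff 1 (PowerSeries.X * υ) = PowerSeries.coeff 0 υ :=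
      PowerSeries.coeff_succ_X_mul 0 υ
    rw [h2] at h1
    rw [← PowerSeries.coeff_zero_eq_constantCoeff_apply, h1]
    exact hΛ1
  have hGΛ : PowerSeries.constantCoeff (aeval Λ G) ≠ 0 := by
    rw [constantCoeff_aeval, hΛ0]
    exact hG0
  have hunit : IsUnit (υ * aeval Λ G) := by
    rw [PowerSeries.isUnit_iff_constantCoeff, map_mul]
    exact isUnit_iff_ne_zero.2 (mul_ne_zero hυ0 hGΛ)
  have hval : aeval Λ (p0.map φ) = PowerSeries.X * (υ * aeval Λ G) := by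
    rw [hG, map_mul, map_sub, aeval_X, aeval_C, ← mul_assoc, ← hυ]
    rfl
  rw [hval, PowerSeries.order_mul, PowerSeries.order_X, PowerSeries.order_zero_of_unit hunit,
    add_zero]

/-- `q(Λ)` is a unit when `p0 ∤ q`. -/
theorem constantCoeff_aeval_ne_zero (φ : O →+* ℂ) (hφ : Function.Injective φ) (p0 : O[X])
    (hp0 : Irreducible p0) (hdeg : p0.natDegree ≠ 0) (x0 : ℂ) (hx0 : (p0.map φ).eval x0 = 0)
    (Λ : PowerSeries ℂ) (hΛ0 : PowerSeries.constantCoeff Λ = x0) (q : O[X]) (hq : ¬ p0 ∣ q) :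
    PowerSeries.constantCoeff (aeval Λ (q.map φ)) ≠ 0 := by
  rw [constantCoeff_aeval, hΛ0]
  exact fun h => hq (dvd_of_eval_map_eq_zero φ hφ p0 hp0 hdeg x0 hx0 q h)

end Gauss

/-- A ring hom into Laurent series with values in power series factors through power series. -/
theorem exists_ringHom_of_forall_mem {A : Type*} [CommRing A] (f : A →+* LaurentSeries ℂ)
    (h : ∀ a, ∃ Y : PowerSeries ℂ, f a = HahnSeries.ofPowerSeries ℤ ℂ Y) :
    ∃ g : A →+* PowerSeries ℂ, ∀ a, f a = HahnSeries.ofPowerSeries ℤ ℂ (g a) := by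
  choose g hg using h
  have hinj : Function.Injective (HahnSeries.ofPowerSeries ℤ ℂ) :=
    HahnSeries.ofPowerSeries_injective
  refine ⟨{ toFun := g
            map_one' := hinj (by rw [← hg, map_one, map_one])
            map_mul' := fun a b => hinj (by rw [← hg, map_mul, map_mul, hg a, hg b])
            map_zero' := hinj (by rw [← hg, map_zero, map_zero])
            map_add' := fun a b => hinj (by rw [← hg, map_add, map_add, hg a, hg b]) }, hg⟩

section Eps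

variable {O L : Type*} [CommRing O] [IsDomain O] [IsGCDMonoid O] [Field L] [Algebra O L]

/-- **The local parameter at a horizontal prime.**  `L = Frac O[x]`, `R1 ⊂ L` a subalgebra of
fractions `a(x)/b(x)`, `b ∉ 𝔪`, containing `x` and the inverses of all `b(x)`, `b ∉ 𝔪`;
`p0 ∈ 𝔪` irreducible of positive degree with a complex root `x0`; `Λ ∈ ℂ⟦s⟧` with `Λ(0) = x0`
and `Λ'(0) ≠ 0`.  Then `x ↦ Λ` defines `ε : R1 → ℂ⟦s⟧` and `εL : L → ℂ((s))` with `ε (p0(x))` of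
order `1` and `ε r` a unit whenever `p0(x) ∤ r` in `R1`. -/
theorem exists_eps_of_root (x : L) (hinj : Function.Injective (aeval x : O[X] →ₐ[O] L))
    (hfrac : ∀ l : L, ∃ a b : O[X], b ≠ 0 ∧ l * aeval x b = aeval x a)
    (𝔪 : Ideal O[X]) (R1 : Subalgebra O L) (hx : x ∈ R1)
    (hR1 : ∀ r ∈ R1, ∃ a b : O[X], b ∉ 𝔪 ∧ r * aeval x b = aeval x a)
    (hR1inv : ∀ b : O[X], b ∉ 𝔪 → ∃ z ∈ R1, z * aeval x b = 1)
    (φ : O →+* ℂ) (hφ : Function.Injective φ) (p0 : O[X]) (hp0 : Irreducible p0)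
    (hdeg : p0.natDegree ≠ 0) (hp0𝔪 : p0 ∈ 𝔪) (x0 : ℂ) (hx0 : (p0.map φ).eval x0 = 0)
    (Λ : PowerSeries ℂ) (hΛ0 : PowerSeries.constantCoeff Λ = x0)
    (hΛ1 : PowerSeries.coeff 1 Λ ≠ 0) :
    ∃ (ε : R1 →+* PowerSeries ℂ) (εL : L →+* LaurentSeries ℂ),
      (∀ r : R1, εL (algebraMap R1 L r) = HahnSeries.ofPowerSeries ℤ ℂ (ε r)) ∧
      (∀ q : O[X], εL (aeval x q) = HahnSeries.ofPowerSeries ℤ ℂ (aeval Λ (q.map φ))) ∧
      (ε (aeval (⟨x, hx⟩ : R1) p0)).order = 1 ∧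
      ∀ r : R1, ¬ (aeval (⟨x, hx⟩ : R1) p0) ∣ r → PowerSeries.constantCoeff (ε r) ≠ 0 := by
  classical
  have hιinj : Function.Injective (HahnSeries.ofPowerSeries ℤ ℂ) :=
    HahnSeries.ofPowerSeries_injective
  -- the evaluation `O[X] → ℂ⟦s⟧`, `X ↦ Λ`
  obtain ⟨ψ0, hψ0⟩ : ∃ ψ0 : O[X] →+* PowerSeries ℂ, ∀ q, ψ0 q = aeval Λ (q.map φ) :=
    ⟨(aeval Λ : ℂ[X] →ₐ[ℂ] PowerSeries ℂ).toRingHom.comp (mapRingHom φ), fun q => rfl⟩
  have hψ0inj : Function.Injective ψ0 := by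
    rw [injective_iff_map_eq_zero]
    intro q hq
    rw [hψ0] at hq
    by_contra hq0
    exact aeval_ne_zero_of_coeff_one_ne_zero Λ hΛ1 _ ((Polynomial.map_ne_zero_iff hφ).2 hq0) hq
  have hψinj : Function.Injective ((HahnSeries.ofPowerSeries ℤ ℂ).comp ψ0) :=
    hιinj.comp hψ0inj
  -- `L` is the fraction field of `O[X]` along `aeval x`
  letI algL : Algebra O[X] L := (aeval x : O[X] →ₐ[O] L).toRingHom.toAlgebra
  have halg : ∀ q : O[X], algebraMap O[X] L q = aeval x q := fun q => rfl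
  haveI : FaithfulSMul O[X] L := (faithfulSMul_iff_algebraMap_injective O[X] L).2 hinj
  haveI : IsFractionRing O[X] L := IsFractionRing.of_field O[X] L (by
    intro l
    obtain ⟨a, b, hb, hab⟩ := hfrac l
    refine ⟨a, b, ?_⟩
    have hb' : aeval x b ≠ 0 := fun h => hb (hinj (by rw [h, map_zero]))
    rw [halg, halg, eq_div_iff hb', hab])
  obtain ⟨εL, hεL⟩ : ∃ εL : L →+* LaurentSeries ℂ,
      ∀ q : O[X], εL (algebraMap O[X] L q) = (HahnSeries.ofPowerSeries ℤ ℂ).comp ψ0 q :=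
    ⟨IsFractionRing.lift hψinj, fun q => IsFractionRing.lift_algebraMap hψinj q⟩
  replace hεL : ∀ q : O[X], εL (aeval x q) = HahnSeries.ofPowerSeries ℤ ℂ (ψ0 q) := hεL
  -- values on `R1` are power series
  have hnotdvd : ∀ b : O[X], b ∉ 𝔪 → ¬ p0 ∣ b :=
    fun b hb hdvd => hb (Ideal.mem_of_dvd 𝔪 hdvd hp0𝔪)
  have hunit : ∀ b : O[X], b ∉ 𝔪 → IsUnit (ψ0 b) := by
    intro b hb
    rw [PowerSeries.isUnit_iff_constantCoeff, hψ0]
    exact isUnit_iff_ne_zero.2
      (constantCoeff_aeval_ne_zero φ hφ p0 hp0 hdeg x0 hx0 Λ hΛ0 b (hnotdvd b hb))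
  have hval : ∀ r : R1, ∃ Y : PowerSeries ℂ,
      (εL.comp (algebraMap R1 L)) r = HahnSeries.ofPowerSeries ℤ ℂ Y := by
    intro r
    obtain ⟨a, b, hb, hab⟩ := hR1 r r.2
    obtain ⟨U, hU⟩ := hunit b hb
    refine ⟨ψ0 a * ((U⁻¹ : (PowerSeries ℂ)ˣ) : PowerSeries ℂ), ?_⟩
    have h1 := congrArg εL hab
    rw [map_mul, hεL, hεL] at h1
    have h2 : (HahnSeries.ofPowerSeries ℤ ℂ) (ψ0 b) *
        (HahnSeries.ofPowerSeries ℤ ℂ) ((U⁻¹ : (PowerSeries ℂ)ˣ) : PowerSeries ℂ) = 1 := by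
      rw [← map_mul, ← hU, Units.mul_inv, map_one]
    change εL (r : L) = _
    calc εL (r : L) = εL (r : L) * ((HahnSeries.ofPowerSeries ℤ ℂ) (ψ0 b) *
          (HahnSeries.ofPowerSeries ℤ ℂ) ((U⁻¹ : (PowerSeries ℂ)ˣ) : PowerSeries ℂ)) := by
          rw [h2, mul_one]
      _ = (HahnSeries.ofPowerSeries ℤ ℂ) (ψ0 a) *
          (HahnSeries.ofPowerSeries ℤ ℂ) ((U⁻¹ : (PowerSeries ℂ)ˣ) : PowerSeries ℂ) := by
          rw [← mul_assoc, h1]
      _ = _ := (map_mul _ _ _).symm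
  obtain ⟨ε, hε⟩ := exists_ringHom_of_forall_mem (εL.comp (algebraMap R1 L)) hval
  have hε' : ∀ r : R1, εL (r : L) = HahnSeries.ofPowerSeries ℤ ℂ (ε r) := hε
  have hεpoly : ∀ q : O[X], ε (aeval (⟨x, hx⟩ : R1) q) = ψ0 q := by
    intro q
    apply hιinj
    rw [← hε', ← hεL, ← Subalgebra.aeval_coe]
  refine ⟨ε, εL, hε, fun q => by rw [hεL, hψ0], ?_, ?_⟩
  · rw [hεpoly, hψ0]
    exact order_aeval_eq_one φ hφ p0 hp0 hdeg x0 hx0 Λ hΛ0 hΛ1
  · intro r hr
    obtain ⟨a, b, hb, hab⟩ := hR1 r r.2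
    have hna : ¬ p0 ∣ a := by
      rintro ⟨a', rfl⟩
      obtain ⟨z, hz, hzb⟩ := hR1inv b hb
      apply hr
      refine ⟨aeval (⟨x, hx⟩ : R1) a' * ⟨z, hz⟩, ?_⟩
      apply Subtype.ext
      have h1 : (r : L) = (r : L) * aeval x b * z := by
        rw [mul_assoc, mul_comm (aeval x b), hzb, mul_one]
      rw [h1, hab, map_mul, Subalgebra.coe_mul, Subalgebra.coe_mul, ← Subalgebra.aeval_coe,
        ← Subalgebra.aeval_coe, mul_assoc]
    have h1 := congrArg εL hab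
    rw [map_mul, hεL, hεL, hε', ← map_mul] at h1
    have h2 := hιinj h1
    have h3 := congrArg PowerSeries.constantCoeff h2
    rw [map_mul] at h3
    intro h0
    rw [h0, zero_mul, hψ0] at h3
    exact constantCoeff_aeval_ne_zero φ hφ p0 hp0 hdeg x0 hx0 Λ hΛ0 a hna h3.symm

end Eps

end Fermat.Agent.S18.HorEps
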