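import Mathlib
import Fermat.Agent.S18.CoverLocDef
import Fermat.Agent.S18.CoverLocEps
import Fermat.Agent.S18.HorEps

/-!
# S18 team library, block [IGUSA] T3b+: extension of the local parameter to `L`

OWNER: helper73 (only the owner edits this file).

`exists_eps_epsL`: helper39's `CoverLocEps.exists_eps` together with the extension
`εL : L → ℂ((s))` of `ε : R1 x c1 → ℂ⟦s⟧` when `L = Frac O[x]` (hypothesis `hL2`).
-/

set_option autoImplicit false
set_option linter.style.haveILetI false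

namespace Fermat.Agent.S18.CoverLocEpsL

open Polynomial Fermat.Agent.S18.CoverLocDef

variable {O : Type*} [CommRing O] [IsDomain O] [IsDiscreteValuationRing O]
  {L : Type*} [Field L] [Algebra O[X] L]

/-- **T3b with the extension to `L`**: when `L = Frac O[x]` (hypothesis `hL2`), `ε` extends to
`εL : L → ℂ((s))`. -/
theorem exists_eps_epsL (x : L) (hL1 : Function.Injective (evx (O := O) x))
    (hL2 : ∀ l : L, ∃ p q : O[X], q ≠ 0 ∧ l * evx x q = evx x p) (c1 : O) (π : O)
    (hπ : Irreducible π) (φ : O →+* ℂ) (hφ : Function.Injective φ) (p : O[X]) (hp : Prime p)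
    (hpπ : ¬ Associated p (C π)) (hpc : π ∣ p.eval c1) (Λ : PowerSeries ℂ)
    (hΛ0 : (p.map φ).eval (PowerSeries.constantCoeff Λ) = 0)
    (hΛ1 : PowerSeries.coeff 1 Λ ≠ 0) :
    ∃ (ε : R1 x c1 →+* PowerSeries ℂ) (εL : L →+* LaurentSeries ℂ),
      (∀ q : O[X], ε (evR x c1 q) = aeval Λ (q.map φ)) ∧
      (∀ r : R1 x c1, IsUnit (ε r) ↔ ¬ evR x c1 p ∣ r) ∧ (ε (evR x c1 p)).order = 1 ∧
      (∀ r : R1 x c1, εL (algebraMap (R1 x c1) L r) = HahnSeries.ofPowerSeries ℤ ℂ (ε r)) ∧
      ∀ q : O[X], εL (evx x q) = HahnSeries.ofPowerSeries ℤ ℂ (aeval Λ (q.map φ)) := by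
  classical
  obtain ⟨ε, h1, h2, h3⟩ := CoverLocEps.exists_eps x hL1 c1 π hπ φ hφ p hp hpπ hpc Λ hΛ0 hΛ1
  have hιinj : Function.Injective (HahnSeries.ofPowerSeries ℤ ℂ) :=
    HahnSeries.ofPowerSeries_injective
  -- `ε` is injective
  have hεinj : Function.Injective ε := by
    rw [injective_iff_map_eq_zero]
    intro r hr
    obtain ⟨p', q, hq, hrq⟩ := mem_R1_iff.1 r.2
    have hq0 : evx x q ≠ 0 := by
      intro h
      have hq00 : q = 0 := hL1 (by rw [h, map_zero])
      rw [hq00, eval_zero] at hq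
      exact not_isUnit_zero hq
    have h4 : evR x c1 p' = r * evR x c1 q := Subtype.ext hrq.symm
    have h5 : aeval Λ (p'.map φ) = 0 := by
      rw [← h1, h4, map_mul, hr, zero_mul]
    have h6 : p'.map φ = 0 := by
      by_contra hne
      exact HorEps.aeval_ne_zero_of_coeff_one_ne_zero Λ hΛ1 _ hne h5
    have h7 : p' = 0 := by
      by_contra hne
      exact (Polynomial.map_ne_zero_iff hφ).2 hne h6
    rw [h7, map_zero] at hrq
    apply Subtype.ext
    rcases mul_eq_zero.1 hrq with h | h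
    · exact h
    · exact absurd h hq0
  have hcompinj : Function.Injective ((HahnSeries.ofPowerSeries ℤ ℂ).comp ε) :=
    hιinj.comp hεinj
  -- `L` is the fraction field of `R1`
  haveI : FaithfulSMul (R1 x c1) L :=
    (faithfulSMul_iff_algebraMap_injective (R1 x c1) L).2 Subtype.val_injective
  haveI : IsFractionRing (R1 x c1) L := IsFractionRing.of_field (R1 x c1) L (by
    intro z
    obtain ⟨p', q, hq, hz⟩ := hL2 z
    have hq0 : evx x q ≠ 0 := fun h => hq (hL1 (by rw [h, map_zero]))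
    refine ⟨evR x c1 p', evR x c1 q, ?_⟩
    change z = evx x p' / evx x q
    rw [eq_div_iff hq0, hz])
  obtain ⟨εL, hεL⟩ : ∃ εL : L →+* LaurentSeries ℂ, ∀ r : R1 x c1,
      εL (algebraMap (R1 x c1) L r) = (HahnSeries.ofPowerSeries ℤ ℂ).comp ε r :=
    ⟨IsFractionRing.lift hcompinj, fun r => IsFractionRing.lift_algebraMap hcompinj r⟩
  refine ⟨ε, εL, h1, h2, h3, hεL, fun q => ?_⟩
  have h4 := hεL (evR x c1 q)
  rw [RingHom.comp_apply, h1] at h4
  exact h4

end Fermat.Agent.S18.CoverLocEpsL
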