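import Fermat.Agent.S18.CoverLocDef

/-!
# S18 team library, block [IGUSA] T3e: primes of the local ring `R1` of the `x`-line

OWNER: helper92 (only the owner edits this file).

Setting of `CoverLocDef`: `O` a DVR, `L` a field with an `O[X]`-algebra structure, `x : L` with
`evx x : O[X] →+* L` injective, `R1 x c1 ⊆ L` the ring of fractions `p(x)/q(x)`, `q(c1) ∈ Oˣ`.

* `isUnit_evR` / `not_isUnit_evR`: `q(x)` is a unit of `R1` iff `q(c1)` is a unit of `O`;
* `prime_evR`: for `p` prime in `O[X]` with `p(c1)` a non-unit, `p(x)` is prime in `R1`;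
* `exists_prime_of_prime` (T3e): every prime of `R1` not associated to `π` is associated to
  `p(x)` for a prime `p` of `O[X]`, `p ≁ π`, `π ∣ p(c1)`.
-/

set_option autoImplicit false

namespace Fermat.Agent.S18.CoverLocPrime

open Polynomial Fermat.Agent.S18.CoverLocDef

variable {O : Type*} [CommRing O] {L : Type*} [Field L] [Algebra O[X] L]

theorem evR_mul (x : L) (c1 : O) (p q : O[X]) :
    evR x c1 (p * q) = evR x c1 p * evR x c1 q :=
  map_mul (evRHom x c1) p q

theorem evR_one (x : L) (c1 : O) : evR x c1 (1 : O[X]) = 1 :=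
  map_one (evRHom x c1)

theorem evR_injective (x : L) (hL1 : Function.Injective (evx (O := O) x)) (c1 : O) :
    Function.Injective (evR (O := O) x c1) := by
  intro p q h
  exact hL1 (congrArg Subtype.val h)

/-- Every element of `R1` is a fraction `a(x)/q(x)` with `q(c1)` a unit. -/
theorem exists_evR_eq (x : L) (c1 : O) (r : R1 x c1) :
    ∃ a q : O[X], IsUnit (q.eval c1) ∧ r * evR x c1 q = evR x c1 a := by
  obtain ⟨a, q, hq, h⟩ := r.2
  exact ⟨a, q, hq, Subtype.ext h⟩

/-- `q(c1) ∈ Oˣ` implies `q(x) ∈ R1ˣ`. -/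
theorem isUnit_evR [Nontrivial O] (x : L) (hL1 : Function.Injective (evx (O := O) x)) (c1 : O) (q : O[X])
    (hq : IsUnit (q.eval c1)) : IsUnit (evR x c1 q) := by
  have hq0 : evx x q ≠ 0 := by
    intro h
    have h0 : q = 0 := hL1 (by rw [h, map_zero])
    rw [h0, eval_zero] at hq
    exact not_isUnit_zero hq
  refine IsUnit.of_mul_eq_one ⟨(evx x q)⁻¹, inv_evx_mem_R1 x c1 q hq hq0⟩ (Subtype.ext ?_)
  change evx x q * (evx x q)⁻¹ = 1
  exact mul_inv_cancel₀ hq0

/-- `p(c1) ∉ Oˣ` implies `p(x) ∉ R1ˣ`. -/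
theorem not_isUnit_evR (x : L) (hL1 : Function.Injective (evx (O := O) x)) (c1 : O) (p : O[X])
    (hp : ¬ IsUnit (p.eval c1)) : ¬ IsUnit (evR x c1 p) := by
  intro hu
  obtain ⟨r, hr⟩ := hu.exists_right_inv
  obtain ⟨a, q, hq, h⟩ := exists_evR_eq x c1 r
  have h1 : evR x c1 (p * a) = evR x c1 q := by
    rw [evR_mul, ← h, ← mul_assoc, hr, one_mul]
  have h2 : p * a = q := evR_injective x hL1 c1 h1
  rw [← h2, eval_mul] at hq
  exact hp (isUnit_of_mul_isUnit_left hq)

theorem isUnit_evR_iff [Nontrivial O] (x : L) (hL1 : Function.Injective (evx (O := O) x)) (c1 : O) (p : O[X]) :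
    IsUnit (evR x c1 p) ↔ IsUnit (p.eval c1) :=
  ⟨fun h => by_contra fun h' => not_isUnit_evR x hL1 c1 p h' h, isUnit_evR x hL1 c1 p⟩

/-- A prime `p` of `O[X]` with `p(c1)` a non-unit stays prime in `R1`. -/
theorem prime_evR [Nontrivial O] (x : L) (hL1 : Function.Injective (evx (O := O) x)) (c1 : O) (p : O[X])
    (hp : Prime p) (hpc : ¬ IsUnit (p.eval c1)) : Prime (evR x c1 p) := by
  refine ⟨?_, not_isUnit_evR x hL1 c1 p hpc, ?_⟩
  · intro h
    have h0 : p = 0 := evR_injective x hL1 c1 (by rw [h]; exact (map_zero (evRHom x c1)).symm)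
    exact hp.ne_zero h0
  · intro r s hrs
    obtain ⟨t, ht⟩ := hrs
    obtain ⟨a, q, hq, ha⟩ := exists_evR_eq x c1 r
    obtain ⟨b, q', hq', hb⟩ := exists_evR_eq x c1 s
    obtain ⟨e, q'', hq'', he⟩ := exists_evR_eq x c1 t
    have h1 : evR x c1 (a * b * q'') = evR x c1 (p * e * q * q') := by
      rw [evR_mul, evR_mul, evR_mul, evR_mul, evR_mul, ← ha, ← hb, ← he]
      calc r * evR x c1 q * (s * evR x c1 q') * evR x c1 q''
          = (r * s) * evR x c1 q'' * evR x c1 q * evR x c1 q' := by ring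
        _ = evR x c1 p * (t * evR x c1 q'') * evR x c1 q * evR x c1 q' := by rw [ht]; ring
    have h2 : a * b * q'' = p * e * q * q' := evR_injective x hL1 c1 h1
    have h3 : p ∣ a * b * q'' := ⟨e * q * q', by rw [h2]; ring⟩
    have key : ∀ (r' : R1 x c1) (a' q₁ : O[X]), IsUnit (q₁.eval c1) →
        r' * evR x c1 q₁ = evR x c1 a' → p ∣ a' → evR x c1 p ∣ r' := by
      intro r' a' q₁ hq₁ ha' hdvd
      obtain ⟨k, hk⟩ := hdvd
      obtain ⟨u, hu⟩ := isUnit_evR x hL1 c1 q₁ hq₁
      refine ⟨evR x c1 k * ↑u⁻¹, ?_⟩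
      have : r' = evR x c1 a' * ↑u⁻¹ := by
        rw [← ha', ← hu, mul_assoc, Units.mul_inv, mul_one]
      rw [this, hk, evR_mul, mul_assoc]
    rcases hp.dvd_or_dvd h3 with h4 | h4
    · rcases hp.dvd_or_dvd h4 with h5 | h5
      · exact Or.inl (key r a q hq ha h5)
      · exact Or.inr (key s b q' hq' hb h5)
    · exfalso
      obtain ⟨k, hk⟩ := h4
      rw [hk, eval_mul] at hq''
      exact hpc (isUnit_of_mul_isUnit_left hq'')

variable [IsDomain O] [IsDiscreteValuationRing O]

/-- **T3e.** Every prime element of `R1` that is not associated to `π` is associated to `p(x)`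
for a prime `p` of `O[X]` which is not associated to `π` and lies in `(π, X - c1)`. -/
theorem exists_prime_of_prime (x : L) (hL1 : Function.Injective (evx (O := O) x)) (c1 : O)
    (π : O) (hπ : Irreducible π) (p1 : R1 x c1) (hp1 : Prime p1)
    (hne : ¬ Associated p1 (piR x c1 π)) :
    ∃ p : O[X], Prime p ∧ ¬ Associated p (C π) ∧ π ∣ p.eval c1 ∧
      Associated p1 (evR x c1 p) := by
  obtain ⟨a, q, hq, ha⟩ := exists_evR_eq x c1 p1
  have hqu : IsUnit (evR x c1 q) := isUnit_evR x hL1 c1 q hq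
  have ha0 : a ≠ 0 := by
    rintro rfl
    have h0 : p1 * evR x c1 q = 0 := by rw [ha]; exact map_zero (evRHom x c1)
    rcases mul_eq_zero.mp h0 with h | h
    · exact hp1.ne_zero h
    · rw [h] at hqu
      exact not_isUnit_zero hqu
  obtain ⟨f, hf, hfa⟩ := UniqueFactorizationMonoid.exists_prime_factors a ha0
  have h1 : p1 ∣ evRHom x c1 f.prod := by
    have h2 : p1 ∣ evRHom x c1 a := ⟨evR x c1 q, ha.symm⟩
    exact ((hfa.map (evRHom x c1)).dvd_iff_dvd_right).mpr h2
  rw [map_multiset_prod] at h1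
  obtain ⟨p, hpf, hp1p⟩ := hp1.exists_mem_multiset_map_dvd h1
  have hp : Prime p := hf p hpf
  have hp1p' : p1 ∣ evR x c1 p := hp1p
  have hpc : ¬ IsUnit (p.eval c1) := by
    intro hu
    exact hp1.not_isUnit (isUnit_of_dvd_unit hp1p' (isUnit_evR x hL1 c1 p hu))
  have hassoc : Associated p1 (evR x c1 p) :=
    hp1.associated_of_dvd (prime_evR x hL1 c1 p hp hpc) hp1p'
  refine ⟨p, hp, ?_, ?_, hassoc⟩
  · intro h
    apply hne
    exact hassoc.trans (h.map (evRHom x c1))
  · have hmem : p.eval c1 ∈ IsLocalRing.maximalIdeal O := (IsLocalRing.mem_maximalIdeal _).mpr hpc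
    rw [hπ.maximalIdeal_eq, Ideal.mem_span_singleton] at hmem
    exact hmem

/-- **Consumer form.** Every nonzero non-unit `d` of `R1` is divisible by `π` or by `p(x)` for a
prime `p` of `O[X]`, `p ≁ π`, `p ∈ (π, X - c1)`. -/
theorem exists_prime_dvd (x : L) (hL1 : Function.Injective (evx (O := O) x)) (c1 : O)
    (π : O) (hπ : Irreducible π) (d : R1 x c1) (hd0 : d ≠ 0) (hd : ¬ IsUnit d) :
    piR x c1 π ∣ d ∨
      ∃ p : O[X], Prime p ∧ ¬ Associated p (C π) ∧ π ∣ p.eval c1 ∧ evR x c1 p ∣ d := by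
  obtain ⟨a, q, hq, ha⟩ := exists_evR_eq x c1 d
  obtain ⟨u, hu⟩ := isUnit_evR x hL1 c1 q hq
  have ha0 : a ≠ 0 := by
    rintro rfl
    have h0 : d * evR x c1 q = 0 := by rw [ha]; exact map_zero (evRHom x c1)
    rcases mul_eq_zero.mp h0 with h | h
    · exact hd0 h
    · rw [← hu] at h
      exact u.ne_zero h
  have hda : ∀ p : O[X], p ∣ a → evR x c1 p ∣ d := by
    rintro p ⟨k, rfl⟩
    refine ⟨evR x c1 k * ↑u⁻¹, ?_⟩
    have : d = evR x c1 (p * k) * ↑u⁻¹ := by
      rw [← ha, ← hu, mul_assoc, Units.mul_inv, mul_one]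
    rw [this, evR_mul, mul_assoc]
  have hau : ¬ IsUnit (a.eval c1) := by
    intro h
    apply hd
    have h1 : IsUnit (d * evR x c1 q) := by rw [ha]; exact isUnit_evR x hL1 c1 a h
    exact isUnit_of_mul_isUnit_left h1
  obtain ⟨f, hf, hfa⟩ := UniqueFactorizationMonoid.exists_prime_factors a ha0
  have hex : ∃ p ∈ f, ¬ IsUnit (p.eval c1) := by
    by_contra hall
    push Not at hall
    apply hau
    have h1 : IsUnit ((f.prod).eval c1) := by
      have : (f.prod).eval c1 = (f.map (evalRingHom c1)).prod := by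
        rw [← coe_evalRingHom, map_multiset_prod]
      rw [this]
      apply Multiset.prod_induction (fun y => IsUnit y)
      · intro y z hy hz
        exact hy.mul hz
      · exact isUnit_one
      · intro y hy
        obtain ⟨p, hp, rfl⟩ := Multiset.mem_map.mp hy
        exact hall p hp
    have h2 := (hfa.map (evalRingHom c1))
    rw [coe_evalRingHom] at h2
    exact h2.isUnit h1
  obtain ⟨p, hpf, hpc⟩ := hex
  have hp : Prime p := hf p hpf
  have hpa : p ∣ a := (Multiset.dvd_prod hpf).trans hfa.dvd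
  by_cases hassoc : Associated p (C π)
  · left
    have h1 : Associated (evR x c1 p) (piR x c1 π) := hassoc.map (evRHom x c1)
    exact h1.symm.dvd.trans (hda p hpa)
  · right
    refine ⟨p, hp, hassoc, ?_, hda p hpa⟩
    have hmem : p.eval c1 ∈ IsLocalRing.maximalIdeal O := (IsLocalRing.mem_maximalIdeal _).mpr hpc
    rw [hπ.maximalIdeal_eq, Ideal.mem_span_singleton] at hmem
    exact hmem

end Fermat.Agent.S18.CoverLocPrime
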