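import Mathlib

/-!
# P4: the trace-form discriminant of a finite algebra with enough embeddings is a unit

`isUnit_discr_of_embeddings`: `V` a DVR with fraction field `E`, `T` a finite `E`-algebra of
rank `n` with `n` distinct ring embeddings `σ k : T → ℂ((X))` over an embedding `εE : E → ℂ((X))`
sending uniformisers to series of order one.  If `b` is a family of `n` integral elements
spanning the integral elements over `V`, the Gram determinant of the trace form on `b` is a unit
of `V`.

The proof is by power sums: the embeddings diagonalise the left multiplication matrices, so the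
trace is the sum of the embeddings; a kernel vector of the Gram matrix modulo the uniformiser
gives an integral element all of whose embeddings vanish at `X = 0`, hence which is divisible by
the uniformiser among integral elements.
-/

namespace Fermat.Agent.S18.HEmb

/-- Power sums: complex numbers all of whose positive power sums vanish are zero. -/
theorem powersum_zero {n : ℕ} (a : Fin n → ℂ) (h : ∀ m : ℕ, 1 ≤ m → ∑ k, a k ^ m = 0) :
    ∀ k, a k = 0 := by
  classical
  intro k₀
  by_contra hc
  let S : Finset ℂ := (Finset.univ.image a).erase (a k₀)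
  let R : Polynomial ℂ := ∏ c' ∈ S, (Polynomial.X - Polynomial.C c')
  let Q : Polynomial ℂ := Polynomial.X * R
  have h1 : ∑ k, Q.eval (a k) = 0 := by
    have hQ : ∀ k, Q.eval (a k) = ∑ m ∈ Finset.range (Q.natDegree + 1), Q.coeff m * a k ^ m :=
      fun k => Polynomial.eval_eq_sum_range _
    simp_rw [hQ]
    rw [Finset.sum_comm]
    apply Finset.sum_eq_zero
    intro m _
    rw [← Finset.mul_sum]
    rcases Nat.eq_zero_or_pos m with rfl | hm
    · have : Q.coeff 0 = 0 := Polynomial.coeff_X_mul_zero R
      rw [this, zero_mul]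
    · rw [h m hm, mul_zero]
  have h2 : ∀ k, Q.eval (a k) = if a k = a k₀ then Q.eval (a k₀) else 0 := by
    intro k
    split_ifs with hk
    · rw [hk]
    · have hmem : a k ∈ S := Finset.mem_erase.2 ⟨hk, Finset.mem_image_of_mem a (Finset.mem_univ k)⟩
      simp only [Q, R, Polynomial.eval_mul, Polynomial.eval_X, Polynomial.eval_prod,
        Polynomial.eval_sub, Polynomial.eval_C]
      rw [Finset.prod_eq_zero hmem (sub_self _), mul_zero]
  have h3 : Q.eval (a k₀) ≠ 0 := by
    simp only [Q, R, Polynomial.eval_mul, Polynomial.eval_X, Polynomial.eval_prod,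
      Polynomial.eval_sub, Polynomial.eval_C]
    refine mul_ne_zero hc (Finset.prod_ne_zero_iff.2 fun c' hc' => ?_)
    exact sub_ne_zero.2 (Ne.symm (Finset.mem_erase.1 hc').1)
  rw [Finset.sum_congr rfl (fun k _ => h2 k)] at h1
  rw [Finset.sum_ite, Finset.sum_const_zero, add_zero, Finset.sum_const, nsmul_eq_mul] at h1
  rcases mul_eq_zero.1 h1 with h4 | h4
  · have h5 : (Finset.univ.filter fun k => a k = a k₀).card = 0 := by exact_mod_cast h4
    have h6 : k₀ ∈ Finset.univ.filter fun k => a k = a k₀ := by simp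
    rw [Finset.card_eq_zero] at h5
    rw [h5] at h6
    exact absurd h6 (Finset.notMem_empty _)
  · exact h3 h4

/-- Conjugate matrices over a field have the same trace and characteristic polynomial. -/
theorem trace_charpoly_of_conj {n : Type*} [Fintype n] [DecidableEq n] {K : Type*} [Field K]
    (M A D : Matrix n n K) (hM : M.det ≠ 0) (h : M * A = D * M) :
    A.trace = D.trace ∧ A.charpoly = D.charpoly := by
  let Mu : (Matrix n n K)ˣ := Matrix.nonsingInvUnit M hM.isUnit
  have hMu : (Mu : Matrix n n K) = M := rfl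
  have hD : D = (Mu : Matrix n n K) * A * ((Mu⁻¹ : (Matrix n n K)ˣ) : Matrix n n K) := by
    rw [hMu, h, mul_assoc, ← hMu, Units.mul_inv, mul_one]
  constructor
  · rw [hD, Matrix.trace_units_conj]
  · rw [hD]
    have := Matrix.charpoly_units_conj Mu A
    rw [← this]
    rfl

section

variable {V E : Type*} [CommRing V] [IsDomain V] [IsDiscreteValuationRing V] [Field E]
  [Algebra V E] [IsFractionRing V E]

/-- A uniformiser maps to `X` times a unit. -/
theorem constantCoeff_eq_zero_of_order (f : PowerSeries ℂ) (hf : f.order = 1) :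
    PowerSeries.constantCoeff f = 0 ∧ f ∣ PowerSeries.X := by
  have h1 : f.order = ((1 : ℕ) : ℕ∞) := by rw [hf]; rfl
  obtain ⟨h2, h3⟩ := PowerSeries.order_eq_nat.1 h1
  have h4 : PowerSeries.constantCoeff f = 0 := by
    have := h3 0 Nat.one_pos
    rwa [PowerSeries.coeff_zero_eq_constantCoeff] at this
  refine ⟨h4, ?_⟩
  obtain ⟨w, hw⟩ := PowerSeries.X_dvd_iff.2 h4
  have h5 : PowerSeries.constantCoeff w ≠ 0 := by
    rw [hw, PowerSeries.coeff_succ_X_mul, PowerSeries.coeff_zero_eq_constantCoeff] at h2
    exact h2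
  have h6 : IsUnit w := PowerSeries.isUnit_iff_constantCoeff.2 h5.isUnit
  obtain ⟨u, rfl⟩ := h6
  refine ⟨((u⁻¹ : (PowerSeries ℂ)ˣ) : PowerSeries ℂ), ?_⟩
  rw [hw, mul_assoc, Units.mul_inv, mul_one]

/-- Lemma V: an element of the fraction field whose image is a power series is in `V`. -/
theorem mem_range_of_emb (ε : V →+* PowerSeries ℂ)
    (hε : ∀ ϖ : V, Irreducible ϖ → (ε ϖ).order = 1) (εE : E →+* LaurentSeries ℂ)
    (hεE : ∀ v : V, εE (algebraMap V E v) = HahnSeries.ofPowerSeries ℤ ℂ (ε v))
    (c : E) (p : PowerSeries ℂ) (hc : εE c = HahnSeries.ofPowerSeries ℤ ℂ p) :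
    ∃ v : V, algebraMap V E v = c := by
  rcases ValuationRing.isInteger_or_isInteger V c with ⟨v, hv⟩ | ⟨v, hv⟩
  · exact ⟨v, hv⟩
  · by_cases hc0 : c = 0
    · exact ⟨0, by rw [hc0, map_zero]⟩
    have h1 : c * algebraMap V E v = 1 := by rw [hv, mul_inv_cancel₀ hc0]
    have h2 : p * ε v = 1 := by
      apply HahnSeries.ofPowerSeries_injective (Γ := ℤ)
      rw [map_mul, ← hc, ← hεE, ← map_mul, h1, map_one, map_one]
    have h3 : IsUnit v := by
      by_contra hnu
      obtain ⟨ϖ, hϖ⟩ := IsDiscreteValuationRing.exists_irreducible V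
      have h4 : v ∈ IsLocalRing.maximalIdeal V := (IsLocalRing.mem_maximalIdeal v).2 hnu
      rw [hϖ.maximalIdeal_eq] at h4
      obtain ⟨y, rfl⟩ := Ideal.mem_span_singleton.1 h4
      have h5 := congrArg PowerSeries.constantCoeff h2
      rw [map_mul, map_mul, map_mul, (constantCoeff_eq_zero_of_order _ (hε ϖ hϖ)).1] at h5
      simp at h5
    obtain ⟨u, rfl⟩ := h3
    refine ⟨((u⁻¹ : Vˣ) : V), ?_⟩
    have h6 : algebraMap V E ((u⁻¹ : Vˣ) : V) * algebraMap V E (u : V) = 1 := by
      rw [← map_mul, Units.inv_mul, map_one]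
    calc algebraMap V E ((u⁻¹ : Vˣ) : V)
        = algebraMap V E ((u⁻¹ : Vˣ) : V) * (c * algebraMap V E (u : V)) := by rw [h1, mul_one]
      _ = c * (algebraMap V E ((u⁻¹ : Vˣ) : V) * algebraMap V E (u : V)) := by ring
      _ = c := by rw [h6, mul_one]

end

theorem isUnit_discr_of_embeddings {V E T : Type*} [CommRing V] [IsDomain V] [IsDiscreteValuationRing V] [Field E] [Algebra V E] [IsFractionRing V E] [CommRing T] [Algebra E T] [Algebra V T] [IsScalarTower V E T] [Module.Finite E T] (ε : V →+* PowerSeries ℂ) (hε : ∀ ϖ : V, Irreducible ϖ → (ε ϖ).order = 1) (εE : E →+* LaurentSeries ℂ) (hεE : ∀ v : V, εE (algebraMap V E v) = HahnSeries.ofPowerSeries ℤ ℂ (ε v)) (n : ℕ) (hn : Module.finrank E T = n) (σ : Fin n → (T →+* LaurentSeries ℂ)) (hσ : Function.Injective σ) (hσE : ∀ i (x : E), σ i (algebraMap E T x) = εE x) (b : Fin n → T) (hb : ∀ i, IsIntegral V (b i)) (hspan : ∀ x : T, IsIntegral V x → x ∈ Submodule.span V (Set.range b)) : ∃ u : Vˣ, algebraMap V E (u : V) = (Matrix.of fun i j => Algebra.trace E T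 (b i * b j)).det := by
  classical
  have hιinj : Function.Injective (HahnSeries.ofPowerSeries ℤ ℂ) :=
    HahnSeries.ofPowerSeries_injective
  obtain ⟨ϖ, hϖ⟩ := IsDiscreteValuationRing.exists_irreducible V
  obtain ⟨hcc0, hXdvd⟩ := constantCoeff_eq_zero_of_order _ (hε ϖ hϖ)
  have hϖE : algebraMap V E ϖ ≠ 0 := by
    intro h0
    exact hϖ.ne_zero (IsFractionRing.injective V E (by rw [h0, map_zero]))
  have hεϖ : ε ϖ ≠ 0 := by
    intro h0
    have := hε ϖ hϖ
    rw [h0, PowerSeries.order_zero] at this
    exact absurd this (by decide)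
  have hιεϖ : HahnSeries.ofPowerSeries ℤ ℂ (ε ϖ) ≠ 0 := by
    intro h0
    exact hεϖ (hιinj (by rw [h0, map_zero]))
  -- compatibility on `V`
  have hσV : ∀ k (v : V), σ k (algebraMap V T v) = HahnSeries.ofPowerSeries ℤ ℂ (ε v) := by
    intro k v
    rw [IsScalarTower.algebraMap_apply V E T, hσE, hεE]
  -- Step 4: integral elements map to power series
  have hint : ∀ w : T, IsIntegral V w → ∀ k, ∃ p : PowerSeries ℂ,
      HahnSeries.ofPowerSeries ℤ ℂ p = σ k w := by
    intro w hw k
    have h1 : IsIntegral (PowerSeries ℂ) (σ k w) := by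
      refine IsIntegral.map_of_comp_eq ε (σ k) ?_ hw
      ext v
      simp only [RingHom.comp_apply]
      rw [hσV]
      rfl
    obtain ⟨y, hy⟩ := IsIntegrallyClosed.algebraMap_eq_of_integral h1
    exact ⟨y, hy⟩
  -- Step 0: `b` is a basis
  have hspanE : ⊤ ≤ Submodule.span E (Set.range b) := by
    intro x _
    have hxE : IsIntegral E x := Algebra.IsIntegral.isIntegral x
    obtain ⟨⟨m, hm⟩, hmx⟩ :=
      IsIntegral.exists_multiple_integral_of_isLocalization (nonZeroDivisors V) x hxE
    have h1 := hspan _ hmx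
    have h2 : (⟨m, hm⟩ : nonZeroDivisors V) • x ∈ Submodule.span E (Set.range b) :=
      Submodule.span_le_restrictScalars V E (Set.range b) h1
    have hmE : algebraMap V E m ≠ 0 := IsFractionRing.to_map_ne_zero_of_mem_nonZeroDivisors hm
    have h3 : x = (algebraMap V E m)⁻¹ • ((⟨m, hm⟩ : nonZeroDivisors V) • x) := by
      rw [Submonoid.smul_def, ← IsScalarTower.algebraMap_smul E m x, smul_smul,
        inv_mul_cancel₀ hmE, one_smul]
    rw [h3]
    exact Submodule.smul_mem _ _ h2
  let B : Module.Basis (Fin n) E T :=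
    basisOfTopLeSpanOfCardEqFinrank b hspanE (by rw [hn, Fintype.card_fin])
  have hB : ∀ i, B i = b i := fun i => by
    simp only [B, coe_basisOfTopLeSpanOfCardEqFinrank]
  -- semilinearity
  have hσsum : ∀ k (r : Fin n → E), σ k (∑ i, r i • b i) = ∑ i, εE (r i) * σ k (b i) := by
    intro k r
    rw [map_sum]
    refine Finset.sum_congr rfl fun i _ => ?_
    rw [Algebra.smul_def, map_mul, hσE]
  -- Step 1
  let M : Matrix (Fin n) (Fin n) (LaurentSeries ℂ) := Matrix.of fun k i => σ k (b i)
  have hM : M.det ≠ 0 := by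
    intro h0
    obtain ⟨v, hv0, hv⟩ := Matrix.exists_vecMul_eq_zero_iff.2 h0
    have hli : LinearIndependent (LaurentSeries ℂ)
        (fun k : Fin n => ((σ k : T →* LaurentSeries ℂ) : T → LaurentSeries ℂ)) := by
      have := linearIndependent_monoidHom T (LaurentSeries ℂ)
      refine this.comp (fun k : Fin n => ((σ k : T →+* LaurentSeries ℂ) : T →* LaurentSeries ℂ))
        (fun i j hij => hσ (RingHom.ext fun x => ?_))
      exact DFunLike.congr_fun hij x
    have key : ∑ k, v k • ((σ k : T →* LaurentSeries ℂ) : T → LaurentSeries ℂ) = 0 := by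
      funext x
      simp only [Finset.sum_apply, Pi.smul_apply, smul_eq_mul, Pi.zero_apply]
      have hx : x = ∑ i, (B.repr x i) • b i := by
        conv_lhs => rw [← B.sum_repr x]
        simp only [hB]
      rw [hx]
      simp only [MonoidHom.coe_coe, hσsum, Finset.mul_sum]
      rw [Finset.sum_comm]
      refine Finset.sum_eq_zero fun i _ => ?_
      have := congrFun hv i
      simp only [Matrix.vecMul, dotProduct, M, Matrix.of_apply, Pi.zero_apply] at this
      calc ∑ k, v k * (εE (B.repr x i) * σ k (b i))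
          = εE (B.repr x i) * ∑ k, v k * σ k (b i) := by
            rw [Finset.mul_sum]; refine Finset.sum_congr rfl fun k _ => by ring
        _ = 0 := by rw [this, mul_zero]
    exact hv0 (funext fun k => Fintype.linearIndependent_iff.1 hli v key k)
  -- Step 2
  have hconj : ∀ x : T, M * (Algebra.leftMulMatrix B x).map εE =
      Matrix.diagonal (fun k => σ k x) * M := by
    intro x
    refine Matrix.ext fun k j => ?_
    rw [Matrix.diagonal_mul, Matrix.mul_apply]
    simp only [M, Matrix.of_apply, Matrix.map_apply, Algebra.leftMulMatrix_eq_repr_mul]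
    have h1 : x * b j = ∑ i, (B.repr (x * B j) i) • b i := by
      conv_lhs => rw [← hB j, ← B.sum_repr (x * B j)]
      simp only [hB]
    rw [← map_mul, h1, hσsum]
    refine Finset.sum_congr rfl fun i _ => by ring
  have htr : ∀ x : T, εE (Algebra.trace E T x) = ∑ k, σ k x := by
    intro x
    rw [Algebra.trace_eq_matrix_trace B x]
    have h1 := (trace_charpoly_of_conj M _ _ hM (hconj x)).1
    rw [Matrix.trace_diagonal] at h1
    rw [← h1]
    simp only [Matrix.trace, Matrix.diag_apply, Matrix.map_apply, map_sum]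
  have hchar : ∀ x : T, (Algebra.leftMulMatrix B x).charpoly.map εE =
      ∏ k, (Polynomial.X - Polynomial.C (σ k x)) := by
    intro x
    have h1 := (trace_charpoly_of_conj M _ _ hM (hconj x)).2
    rw [Matrix.charpoly_diagonal] at h1
    rw [← h1, Matrix.charpoly_map]
  -- Lemma K
  have hK : ∀ z : T, (∀ k, ∃ p : PowerSeries ℂ, HahnSeries.ofPowerSeries ℤ ℂ p = σ k z) →
      IsIntegral V z := by
    intro z hz
    choose p hp using hz
    have h1 : (Algebra.leftMulMatrix B z).charpoly.map εE =
        (∏ k, (Polynomial.X - Polynomial.C (p k))).map (HahnSeries.ofPowerSeries ℤ ℂ) := by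
      rw [hchar z, Polynomial.map_prod]
      refine Finset.prod_congr rfl fun k _ => ?_
      rw [Polynomial.map_sub, Polynomial.map_X, Polynomial.map_C, hp]
    have h2 : (Algebra.leftMulMatrix B z).charpoly ∈ Polynomial.lifts (algebraMap V E) := by
      rw [Polynomial.lifts_iff_coeff_lifts]
      intro m
      have h3 : εE ((Algebra.leftMulMatrix B z).charpoly.coeff m) =
          HahnSeries.ofPowerSeries ℤ ℂ ((∏ k, (Polynomial.X - Polynomial.C (p k))).coeff m) := by
        rw [← Polynomial.coeff_map, h1, Polynomial.coeff_map]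
      obtain ⟨v, hv⟩ := mem_range_of_emb ε hε εE hεE _ _ h3
      exact ⟨v, hv⟩
    obtain ⟨q, hq, -, hqm⟩ :=
      Polynomial.lifts_and_degree_eq_and_monic h2 (Matrix.charpoly_monic _)
    refine ⟨q, hqm, ?_⟩
    have h3 : Polynomial.aeval z (Algebra.leftMulMatrix B z).charpoly = 0 := by
      apply Algebra.leftMulMatrix_injective B
      rw [map_zero, ← Polynomial.aeval_algHom_apply, Matrix.aeval_self_charpoly]
    rw [← hq, Polynomial.aeval_def, Polynomial.eval₂_map, ← IsScalarTower.algebraMap_eq] at h3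
    exact h3
  -- Gram entries
  have hγ : ∀ i j, ∃ v : V, algebraMap V E v = Algebra.trace E T (b i * b j) := by
    intro i j
    choose p hp using hint (b i * b j) ((hb i).mul (hb j))
    refine mem_range_of_emb ε hε εE hεE _ (∑ k, p k) ?_
    rw [htr, map_sum]
    exact Finset.sum_congr rfl fun k _ => (hp k).symm
  choose γ hγ using hγ
  have hdet : algebraMap V E (Matrix.of γ).det =
      (Matrix.of fun i j => Algebra.trace E T (b i * b j)).det := by
    rw [RingHom.map_det]
    congr 1
    ext i j
    simp only [RingHom.mapMatrix_apply, Matrix.map_apply, Matrix.of_apply, hγ]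
  suffices hu : IsUnit (Matrix.of γ).det by
    obtain ⟨u, hu⟩ := hu
    exact ⟨u, by rw [hu, hdet]⟩
  by_contra hnu
  have hdet0 : ((IsLocalRing.residue V).mapMatrix (Matrix.of γ)).det = 0 := by
    rw [← RingHom.map_det]
    exact (IsLocalRing.residue_eq_zero_iff _).2 ((IsLocalRing.mem_maximalIdeal _).2 hnu)
  obtain ⟨vbar, hvbar0, hvbar⟩ := Matrix.exists_mulVec_eq_zero_iff.2 hdet0
  choose c hc using fun i => IsLocalRing.residue_surjective (R := V) (vbar i)
  have hc0 : ∃ i₀, ¬ ϖ ∣ c i₀ := by
    by_contra hall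
    push Not at hall
    apply hvbar0
    funext i
    rw [← hc i]
    refine (IsLocalRing.residue_eq_zero_iff _).2 ?_
    rw [hϖ.maximalIdeal_eq]
    exact Ideal.mem_span_singleton.2 (hall i)
  have hγc : ∀ j, ϖ ∣ ∑ i, γ j i * c i := by
    intro j
    have h1 : IsLocalRing.residue V (∑ i, γ j i * c i) = 0 := by
      have h2 := congrFun hvbar j
      simp only [Matrix.mulVec, dotProduct, RingHom.mapMatrix_apply, Matrix.map_apply,
        Matrix.of_apply, Pi.zero_apply] at h2
      rw [map_sum]
      simp only [map_mul, hc]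
      exact h2
    rw [IsLocalRing.residue_eq_zero_iff, hϖ.maximalIdeal_eq] at h1
    exact Ideal.mem_span_singleton.1 h1
  set x : T := ∑ i, c i • b i with hx
  have hxint : IsIntegral V x := IsIntegral.sum _ fun i _ => (hb i).smul (c i)
  have htrbx : ∀ j, ∃ t : V, Algebra.trace E T (b j * x) = algebraMap V E (ϖ * t) := by
    intro j
    obtain ⟨t, ht⟩ := hγc j
    refine ⟨t, ?_⟩
    rw [← ht, hx, Finset.mul_sum, map_sum, map_sum]
    refine Finset.sum_congr rfl fun i _ => ?_
    rw [mul_smul_comm, ← IsScalarTower.algebraMap_smul E (c i) (b j * b i), map_smul,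
      smul_eq_mul, ← hγ j i, ← map_mul, mul_comm]
  have htryx : ∀ y : T, IsIntegral V y →
      ∃ t : V, Algebra.trace E T (y * x) = algebraMap V E (ϖ * t) := by
    intro y hy
    obtain ⟨d, rfl⟩ := (Submodule.mem_span_range_iff_exists_fun V).1 (hspan y hy)
    choose t ht using htrbx
    refine ⟨∑ j, d j * t j, ?_⟩
    rw [Finset.sum_mul, map_sum, Finset.mul_sum, map_sum]
    refine Finset.sum_congr rfl fun j _ => ?_
    rw [smul_mul_assoc, ← IsScalarTower.algebraMap_smul E (d j) (b j * x), map_smul,
      smul_eq_mul, ht j, ← map_mul]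
    congr 1
    ring
  choose p hp using hint x hxint
  have hps : ∀ m : ℕ, 1 ≤ m → ∑ k, (PowerSeries.constantCoeff (p k)) ^ m = 0 := by
    intro m hm
    obtain ⟨t, ht⟩ := htryx (x ^ (m - 1)) (hxint.pow _)
    rw [← pow_succ, Nat.sub_add_cancel hm] at ht
    have h1 := htr (x ^ m)
    rw [ht, hεE] at h1
    simp only [map_pow, ← hp] at h1
    simp only [← map_pow] at h1
    rw [← map_sum] at h1
    have h2 := congrArg PowerSeries.constantCoeff (hιinj h1)
    rw [map_mul, map_mul, hcc0, zero_mul, map_sum] at h2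
    simp only [map_pow] at h2
    exact h2.symm
  have hp0 := powersum_zero (fun k => PowerSeries.constantCoeff (p k)) hps
  have hdvd : ∀ k, ε ϖ ∣ p k := fun k => hXdvd.trans (PowerSeries.X_dvd_iff.2 (hp0 k))
  choose q hq using hdvd
  set z : T := (algebraMap V E ϖ)⁻¹ • x with hz
  have hzx : ϖ • z = x := by
    rw [hz, ← IsScalarTower.algebraMap_smul E ϖ, smul_smul, mul_inv_cancel₀ hϖE, one_smul]
  have hzint : IsIntegral V z := by
    apply hK
    intro k
    refine ⟨q k, ?_⟩
    have h1 : σ k x = HahnSeries.ofPowerSeries ℤ ℂ (ε ϖ) * σ k z := by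
      rw [← hzx, Algebra.smul_def, map_mul, hσV]
    rw [← hp k, hq k, map_mul] at h1
    exact mul_left_cancel₀ hιεϖ h1
  obtain ⟨d, hd⟩ := (Submodule.mem_span_range_iff_exists_fun V).1 (hspan z hzint)
  have hcd : ∀ i, c i = ϖ * d i := by
    have hxx : ∑ i, (algebraMap V E (c i)) • B i = ∑ i, (algebraMap V E (ϖ * d i)) • B i := by
      simp only [hB, IsScalarTower.algebraMap_smul]
      rw [← hx, ← hzx, ← hd, Finset.smul_sum]
      simp only [smul_smul]
    intro i
    have h1 := congrArg (fun t => B.repr t i) hxx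
    simp only [B.repr_sum_self] at h1
    exact IsFractionRing.injective V E h1
  obtain ⟨i₀, hi₀⟩ := hc0
  exact hi₀ ⟨d i₀, hcd i₀⟩

end Fermat.Agent.S18.HEmb
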