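import Mathlib
import Fermat.Agent.S18.HEmb

/-!
# S18 team library, block [IGUSA] T5-H: horizontal primes do not divide the discriminant

OWNER: helper73 (only the owner edits this file).

Mathlib + `HEmb` only.

* `isUnit_discr_of_isLocalization`: `HEmb.isUnit_discr_of_embeddings` for a discrete valuation
  ring `V` which is a localization of a ring `R1`, with integrality and the spanning hypothesis
  stated over `R1`;
* `not_dvd_discr_of_embeddings`: the same for `V = (R1)_(p)`, `p` a prime element of the
  noetherian domain `R1`, everything stated over `R1`: the conclusion is `¬ p ∣ d`;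
* `exists_tot_embeddings`: ring homs out of `L ⊗[Ky] F` from compatible ring homs out of `L`
  and `F`.
-/

set_option autoImplicit false
set_option linter.style.haveILetI false

namespace Fermat.Agent.S18.IgusaDiscH

open scoped TensorProduct

/-- `HEmb` over a localization: the basis `b` consists of `R1`-integral elements and spans the
`R1`-integral elements over `R1`; `V` is a DVR which is a localization of `R1`. -/
theorem isUnit_discr_of_isLocalization {R1 V L Tot : Type*} [CommRing R1] [CommRing V]
    [IsDomain V] [IsDiscreteValuationRing V] [Field L] [Algebra R1 V] [Algebra R1 L]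
    [Algebra V L] [IsScalarTower R1 V L] [IsFractionRing V L] (M : Submonoid R1)
    [IsLocalization M V] [CommRing Tot] [Algebra L Tot] [Algebra R1 Tot] [Algebra V Tot]
    [IsScalarTower R1 L Tot] [IsScalarTower V L Tot] [Module.Finite L Tot]
    (ε : V →+* PowerSeries ℂ) (hε : ∀ ϖ : V, Irreducible ϖ → (ε ϖ).order = 1)
    (εL : L →+* LaurentSeries ℂ)
    (hεL : ∀ v : V, εL (algebraMap V L v) = HahnSeries.ofPowerSeries ℤ ℂ (ε v))
    (n : ℕ) (hn : Module.finrank L Tot = n) (σ : Fin n → (Tot →+* LaurentSeries ℂ))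
    (hσ : Function.Injective σ) (hσL : ∀ i (x : L), σ i (algebraMap L Tot x) = εL x)
    (b : Fin n → Tot) (hb : ∀ i, IsIntegral R1 (b i))
    (hspan : ∀ x : Tot, IsIntegral R1 x → x ∈ Submodule.span R1 (Set.range b)) :
    ∃ u : Vˣ, algebraMap V L (u : V) =
      (Matrix.of fun i j => Algebra.trace L Tot (b i * b j)).det := by
  haveI : IsScalarTower R1 V Tot := IsScalarTower.of_algebraMap_eq fun r => by
    rw [IsScalarTower.algebraMap_apply R1 L Tot, IsScalarTower.algebraMap_apply V L Tot,
      ← IsScalarTower.algebraMap_apply R1 V L]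
  have hb' : ∀ i, IsIntegral V (b i) := fun i => (hb i).tower_top
  have hspan' : ∀ x : Tot, IsIntegral V x → x ∈ Submodule.span V (Set.range b) := by
    intro x hx
    obtain ⟨m, hm⟩ := IsIntegral.exists_multiple_integral_of_isLocalization M x hx
    have h1 := hspan _ hm
    have h2 : (m : R1) • x ∈ Submodule.span V (Set.range b) :=
      Submodule.span_le_restrictScalars R1 V _ h1
    rw [← algebraMap_smul V (m : R1) x] at h2
    obtain ⟨u, hu⟩ := IsLocalization.map_units V m
    rw [← hu] at h2
    have h3 := Submodule.smul_mem _ ((u⁻¹ : Vˣ) : V) h2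
    rwa [smul_smul, Units.inv_mul, one_smul] at h3
  exact HEmb.isUnit_discr_of_embeddings ε hε εL hεL n hn σ hσ hσL b hb' hspan'

/-- A prime element `p` of the noetherian domain `R1`, with a ring hom `ε : R1 → ℂ⟦s⟧` sending
`p` to a series of order `1` and the elements outside `(p)` to units, and with
`finrank L Tot` distinct extensions of `ε` to `Tot`, does not divide the discriminant of an
`R1`-basis of the integral closure of `R1` in `Tot`. -/
theorem not_dvd_discr_of_embeddings {R1 L Tot : Type*} [CommRing R1] [IsDomain R1]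
    [IsNoetherianRing R1] [Field L] [Algebra R1 L] [IsFractionRing R1 L] [CommRing Tot]
    [Algebra L Tot] [Algebra R1 Tot] [IsScalarTower R1 L Tot] [Module.Finite L Tot]
    (p : R1) (hp : Prime p) (ε : R1 →+* PowerSeries ℂ) (hεp : (ε p).order = 1)
    (hεu : ∀ r : R1, ¬ p ∣ r → PowerSeries.constantCoeff (ε r) ≠ 0)
    (εL : L →+* LaurentSeries ℂ)
    (hεL : ∀ r : R1, εL (algebraMap R1 L r) = HahnSeries.ofPowerSeries ℤ ℂ (ε r))
    (n : ℕ) (hn : Module.finrank L Tot = n) (σ : Fin n → (Tot →+* LaurentSeries ℂ))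
    (hσ : Function.Injective σ) (hσL : ∀ i (x : L), σ i (algebraMap L Tot x) = εL x)
    (b : Fin n → Tot) (hb : ∀ i, IsIntegral R1 (b i))
    (hspan : ∀ x : Tot, IsIntegral R1 x → x ∈ Submodule.span R1 (Set.range b))
    (d : R1)
    (hd : algebraMap R1 L d = (Matrix.of fun i j => Algebra.trace L Tot (b i * b j)).det) :
    ¬ p ∣ d := by
  haveI hP : (Ideal.span {p} : Ideal R1).IsPrime := (Ideal.span_singleton_prime hp.ne_zero).2 hp
  have hM : (Ideal.span {p} : Ideal R1).primeCompl ≤ nonZeroDivisors R1 := by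
    intro x hx
    exact mem_nonZeroDivisors_of_ne_zero (fun h => hx (h ▸ (Ideal.span {p} : Ideal R1).zero_mem))
  haveI : IsDomain (Localization.AtPrime (Ideal.span {p} : Ideal R1)) :=
    IsLocalization.isDomain_localization hM
  haveI : IsNoetherianRing (Localization.AtPrime (Ideal.span {p} : Ideal R1)) :=
    IsLocalization.isNoetherianRing (Ideal.span {p} : Ideal R1).primeCompl _ inferInstance
  have hunitL : ∀ y : (Ideal.span {p} : Ideal R1).primeCompl, IsUnit (algebraMap R1 L y) := by
    intro y
    refine isUnit_iff_ne_zero.2 ?_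
    rw [Ne, map_eq_zero_iff _ (IsFractionRing.injective R1 L)]
    exact nonZeroDivisors.ne_zero (hM y.2)
  letI algVL : Algebra (Localization.AtPrime (Ideal.span {p} : Ideal R1)) L :=
    (IsLocalization.lift (M := (Ideal.span {p} : Ideal R1).primeCompl) hunitL).toAlgebra
  haveI : IsScalarTower R1 (Localization.AtPrime (Ideal.span {p} : Ideal R1)) L :=
    IsScalarTower.of_algebraMap_eq fun r =>
      (IsLocalization.lift_eq (M := (Ideal.span {p} : Ideal R1).primeCompl) hunitL r).symm
  haveI : IsFractionRing (Localization.AtPrime (Ideal.span {p} : Ideal R1)) L :=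
    IsFractionRing.isFractionRing_of_isDomain_of_isLocalization
      (Ideal.span {p} : Ideal R1).primeCompl _ L
  letI algVT : Algebra (Localization.AtPrime (Ideal.span {p} : Ideal R1)) Tot :=
    ((algebraMap L Tot).comp
      (algebraMap (Localization.AtPrime (Ideal.span {p} : Ideal R1)) L)).toAlgebra
  haveI : IsScalarTower (Localization.AtPrime (Ideal.span {p} : Ideal R1)) L Tot :=
    IsScalarTower.of_algebraMap_eq fun _ => rfl
  -- the localization is a DVR
  have hmax : IsLocalRing.maximalIdeal (Localization.AtPrime (Ideal.span {p} : Ideal R1)) =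
      Ideal.span {algebraMap R1 (Localization.AtPrime (Ideal.span {p} : Ideal R1)) p} := by
    rw [← IsLocalization.AtPrime.map_eq_maximalIdeal (Ideal.span {p} : Ideal R1)
      (Localization.AtPrime (Ideal.span {p} : Ideal R1)), Ideal.map_span, Set.image_singleton]
  have hpV : algebraMap R1 (Localization.AtPrime (Ideal.span {p} : Ideal R1)) p ≠ 0 := by
    rw [Ne, map_eq_zero_iff _ (IsLocalization.injective _ hM)]
    exact hp.ne_zero
  have hnf : ¬ IsField (Localization.AtPrime (Ideal.span {p} : Ideal R1)) := by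
    rw [IsLocalRing.isField_iff_maximalIdeal_eq, hmax, Ideal.span_singleton_eq_bot]
    exact hpV
  haveI : IsDiscreteValuationRing (Localization.AtPrime (Ideal.span {p} : Ideal R1)) :=
    ((IsDiscreteValuationRing.TFAE _ hnf).out 0 4).2 (by rw [hmax]; exact ⟨⟨_, rfl⟩⟩)
  -- extend `ε`
  have hunitε : ∀ y : (Ideal.span {p} : Ideal R1).primeCompl, IsUnit (ε y) := by
    intro y
    refine PowerSeries.isUnit_iff_constantCoeff.2 (isUnit_iff_ne_zero.2 (hεu y fun hdvd => ?_))
    exact y.2 (Ideal.mem_span_singleton.2 hdvd)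
  obtain ⟨ε', hε'⟩ : ∃ ε' : Localization.AtPrime (Ideal.span {p} : Ideal R1) →+* PowerSeries ℂ,
      ∀ r : R1, ε' (algebraMap R1 _ r) = ε r :=
    ⟨IsLocalization.lift (M := (Ideal.span {p} : Ideal R1).primeCompl) hunitε,
      fun r => IsLocalization.lift_eq _ r⟩
  have hε'1 : ∀ ϖ : Localization.AtPrime (Ideal.span {p} : Ideal R1), Irreducible ϖ →
      (ε' ϖ).order = 1 := by
    intro ϖ hϖ
    have h1 : Ideal.span {ϖ} =
        Ideal.span {algebraMap R1 (Localization.AtPrime (Ideal.span {p} : Ideal R1)) p} := by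
      rw [← hmax, hϖ.maximalIdeal_eq]
    obtain ⟨u, hu⟩ := Ideal.span_singleton_eq_span_singleton.1 h1
    have h2 : ϖ = algebraMap R1 (Localization.AtPrime (Ideal.span {p} : Ideal R1)) p *
        ((u⁻¹ : (Localization.AtPrime (Ideal.span {p} : Ideal R1))ˣ) :
          Localization.AtPrime (Ideal.span {p} : Ideal R1)) := by
      rw [← hu, mul_assoc, Units.mul_inv, mul_one]
    rw [h2, map_mul, hε', PowerSeries.order_mul, hεp,
      PowerSeries.order_zero_of_unit ((u⁻¹).isUnit.map ε'), add_zero]
  have hεL' : ∀ v : Localization.AtPrime (Ideal.span {p} : Ideal R1),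
      εL (algebraMap _ L v) = HahnSeries.ofPowerSeries ℤ ℂ (ε' v) := by
    have hcomp : εL.comp (algebraMap (Localization.AtPrime (Ideal.span {p} : Ideal R1)) L) =
        (HahnSeries.ofPowerSeries ℤ ℂ).comp ε' := by
      refine IsLocalization.ringHom_ext (Ideal.span {p} : Ideal R1).primeCompl ?_
      ext r
      simp only [RingHom.comp_apply]
      rw [← IsScalarTower.algebraMap_apply R1 _ L, hεL, hε']
    intro v
    exact congrArg (fun f : Localization.AtPrime (Ideal.span {p} : Ideal R1) →+*
      LaurentSeries ℂ => f v) hcomp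
  obtain ⟨u, hu⟩ := isUnit_discr_of_isLocalization (Ideal.span {p} : Ideal R1).primeCompl
    ε' hε'1 εL hεL' n hn σ hσ hσL b hb hspan
  rw [← hd, IsScalarTower.algebraMap_apply R1 (Localization.AtPrime (Ideal.span {p} : Ideal R1)) L]
    at hu
  have hu' := IsFractionRing.injective (Localization.AtPrime (Ideal.span {p} : Ideal R1)) L hu
  have hunit : IsUnit (algebraMap R1 (Localization.AtPrime (Ideal.span {p} : Ideal R1)) d) := by
    rw [← hu']
    exact u.isUnit
  have hmem := (IsLocalization.AtPrime.isUnit_to_map_iff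
    (Localization.AtPrime (Ideal.span {p} : Ideal R1)) (Ideal.span {p} : Ideal R1) d).1 hunit
  intro hdvd
  exact hmem (Ideal.mem_span_singleton.2 hdvd)

/-- Ring homs out of `L ⊗[Ky] F` from compatible ring homs out of `L` and `F`. -/
theorem exists_tot_embeddings {Ky L F Ω : Type*} [CommRing Ky] [CommRing L] [CommRing F]
    [CommRing Ω] [Algebra Ky L] [Algebra Ky F] (εL : L →+* Ω) (n : ℕ) (ι : Fin n → (F →+* Ω))
    (hι : Function.Injective ι)
    (hc : ∀ i (k : Ky), ι i (algebraMap Ky F k) = εL (algebraMap Ky L k)) :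
    ∃ σ : Fin n → (L ⊗[Ky] F →+* Ω), Function.Injective σ ∧
      (∀ i (x : L), σ i (algebraMap L (L ⊗[Ky] F) x) = εL x) ∧
      ∀ i (f : F), σ i (1 ⊗ₜ[Ky] f) = ι i f := by
  letI : Algebra Ky Ω := (εL.comp (algebraMap Ky L)).toAlgebra
  let εA : L →ₐ[Ky] Ω := { εL with commutes' := fun _ => rfl }
  let ιA : Fin n → (F →ₐ[Ky] Ω) := fun i => { ι i with commutes' := fun k => hc i k }
  have hσ1 : ∀ i (x : L) (f : F),
      (Algebra.TensorProduct.productMap εA (ιA i)) (x ⊗ₜ[Ky] f) = εL x * ι i f := by
    intro i x f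
    rw [Algebra.TensorProduct.productMap_apply_tmul]
    rfl
  refine ⟨fun i => (Algebra.TensorProduct.productMap εA (ιA i)).toRingHom, ?_, ?_, ?_⟩
  · intro i j hij
    apply hι
    ext f
    have h1 := congrArg (fun g : L ⊗[Ky] F →+* Ω => g (1 ⊗ₜ[Ky] f)) hij
    have h2 := hσ1 i 1 f
    have h3 := hσ1 j 1 f
    rw [map_one, one_mul] at h2 h3
    rw [← h2, ← h3]
    exact h1
  · intro i x
    rw [Algebra.TensorProduct.algebraMap_apply]
    have h2 := hσ1 i x 1
    rw [map_one, mul_one] at h2
    exact h2
  · intro i f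
    have h2 := hσ1 i 1 f
    rw [map_one, one_mul] at h2
    exact h2

end Fermat.Agent.S18.IgusaDiscH
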