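import Mathlib

/-!
# S18 / [IGUSA] leaf P8 : a two-dimensional regular local ring with a prime parameter is a UFD

`ufd_of_maximalIdeal_eq_span_pair` : a Noetherian local domain `R` whose maximal ideal is
generated by two elements `π, t`, with `π` a prime element, is a unique factorisation domain.

Proof (Kaplansky's criterion): a nonzero prime `p` contains `π`, or else `p` is principal: the
quotient `R ⧸ (π)` is a Noetherian local domain with principal maximal ideal, hence a principal
ideal ring, so `p + (π) = (g) + (π)` for some `g ∈ p`; as `π ∉ p` this gives `p = (g) + π p`,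
and Nakayama yields `p = (g)`.
-/

set_option autoImplicit false

namespace Fermat.Agent.S18.UFD2

open IsLocalRing

/-- A Noetherian local domain with principal maximal ideal is a principal ideal ring. -/
theorem isPrincipalIdealRing_of_maximalIdeal_eq_span {S : Type*} [CommRing S] [IsDomain S]
    [IsNoetherianRing S] [IsLocalRing S] (t : S) (hm : maximalIdeal S = Ideal.span {t}) :
    IsPrincipalIdealRing S := by
  have h : (maximalIdeal S).IsPrincipal := ⟨⟨t, hm⟩⟩
  exact ((tfae_of_isNoetherianRing_of_isLocalRing_of_isDomain S).out 4 0).mp h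

/-- The quotient of a local ring with maximal ideal `(π, t)` by `(π)` has maximal ideal `(t)`. -/
theorem maximalIdeal_quotient_eq_span {R : Type*} [CommRing R] [IsLocalRing R] (π t : R)
    (hm : maximalIdeal R = Ideal.span {π, t}) [IsLocalRing (R ⧸ Ideal.span {π})] :
    maximalIdeal (R ⧸ Ideal.span {π}) = Ideal.span {Ideal.Quotient.mk (Ideal.span {π}) t} := by
  have hsurj : Function.Surjective (Ideal.Quotient.mk (Ideal.span {π})) :=
    Ideal.Quotient.mk_surjective
  have hmap : (maximalIdeal R).map (Ideal.Quotient.mk (Ideal.span {π})) =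
      Ideal.span {Ideal.Quotient.mk (Ideal.span {π}) t} := by
    rw [hm, Ideal.map_span, Set.image_pair]
    have h0 : Ideal.Quotient.mk (Ideal.span {π}) π = 0 :=
      Ideal.Quotient.eq_zero_iff_mem.mpr (Ideal.mem_span_singleton_self π)
    rw [h0]
    apply le_antisymm
    · rw [Ideal.span_le]
      rintro x (rfl | rfl)
      · exact Ideal.zero_mem _
      · exact Ideal.subset_span rfl
    · exact Ideal.span_mono (by simp)
  rw [← hmap]
  symm
  apply IsLocalRing.eq_maximalIdeal
  have hker : RingHom.ker (Ideal.Quotient.mk (Ideal.span {π})) ≤ maximalIdeal R := by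
    rw [Ideal.mk_ker, hm]
    exact Ideal.span_mono (by simp)
  rcases Ideal.map_eq_top_or_isMaximal_of_surjective _ hsurj (maximalIdeal.isMaximal R) with h | h
  · exfalso
    have h1 : (1 : R ⧸ Ideal.span {π}) ∈
        (maximalIdeal R).map (Ideal.Quotient.mk (Ideal.span {π})) := by
      rw [h]; trivial
    obtain ⟨x, hx, hx1⟩ := (Ideal.mem_map_iff_of_surjective _ hsurj).mp h1
    have h2 : x - 1 ∈ Ideal.span {π} := by
      rw [← Ideal.Quotient.eq_zero_iff_mem, map_sub, hx1, map_one, sub_self]
    have h3 : x - 1 ∈ maximalIdeal R := by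
      have := hker
      rw [Ideal.mk_ker] at this
      exact this h2
    have h4 : (1 : R) ∈ maximalIdeal R := by
      have h5 := Ideal.sub_mem _ hx h3
      rwa [sub_sub_cancel] at h5
    exact (Ideal.ne_top_iff_one _).mp (maximalIdeal.isMaximal R).ne_top h4
  · exact h

/-- **P8.** A Noetherian local domain whose maximal ideal is `(π, t)` with `π` prime is a UFD. -/
theorem ufd_of_maximalIdeal_eq_span_pair {R : Type*} [CommRing R] [IsDomain R]
    [IsNoetherianRing R] [IsLocalRing R] (π t : R) (hπ : Prime π)
    (hm : IsLocalRing.maximalIdeal R = Ideal.span {π, t}) : UniqueFactorizationMonoid R := by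
  rw [UniqueFactorizationMonoid.iff_exists_prime_mem_of_isPrime]
  intro p hp0 hp
  by_cases hπp : π ∈ p
  · exact ⟨π, hπp, hπ⟩
  -- the quotient by `(π)`
  have hIprime : (Ideal.span {π} : Ideal R).IsPrime :=
    (Ideal.span_singleton_prime hπ.ne_zero).mpr hπ
  have : IsDomain (R ⧸ Ideal.span {π}) := Ideal.Quotient.isDomain _
  have : IsLocalRing (R ⧸ Ideal.span {π}) :=
    IsLocalRing.of_surjective' (Ideal.Quotient.mk (Ideal.span {π})) Ideal.Quotient.mk_surjective
  have : IsPrincipalIdealRing (R ⧸ Ideal.span {π}) :=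
    isPrincipalIdealRing_of_maximalIdeal_eq_span _ (maximalIdeal_quotient_eq_span π t hm)
  have hsurj : Function.Surjective (Ideal.Quotient.mk (Ideal.span {π})) :=
    Ideal.Quotient.mk_surjective
  -- a generator of the image of `p`
  obtain ⟨gbar, hgbar⟩ := (IsPrincipalIdealRing.principal
    (p.map (Ideal.Quotient.mk (Ideal.span {π})))).principal
  have hgmem : gbar ∈ p.map (Ideal.Quotient.mk (Ideal.span {π})) := by
    rw [hgbar]; exact Submodule.mem_span_singleton_self gbar
  obtain ⟨g, hg, rfl⟩ := (Ideal.mem_map_iff_of_surjective _ hsurj).mp hgmem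
  -- `p ≤ (g) ⊔ (π) • p`
  have hle : p ≤ Ideal.span {g} ⊔ (Ideal.span {π} : Ideal R) • p := by
    intro y hy
    have hy' : Ideal.Quotient.mk (Ideal.span {π}) y ∈
        p.map (Ideal.Quotient.mk (Ideal.span {π})) := Ideal.mem_map_of_mem _ hy
    rw [hgbar] at hy'
    obtain ⟨abar, ha⟩ := Ideal.mem_span_singleton'.mp hy'
    obtain ⟨a, rfl⟩ := hsurj abar
    have h1 : y - a * g ∈ Ideal.span {π} := by
      rw [← Ideal.Quotient.eq_zero_iff_mem, map_sub, map_mul, ha, sub_self]
    obtain ⟨b, hb⟩ := Ideal.mem_span_singleton'.mp h1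
    have hbp : b ∈ p := by
      have h2 : b * π ∈ p := by
        rw [hb]
        exact Ideal.sub_mem _ hy (Ideal.mul_mem_left _ _ hg)
      exact (hp.mem_or_mem h2).resolve_right hπp
    have h3 : y = a * g + π * b := by rw [mul_comm π b, hb]; ring
    rw [h3]
    refine Submodule.add_mem_sup (Ideal.mul_mem_left _ _ (Ideal.mem_span_singleton_self g)) ?_
    rw [smul_eq_mul]
    exact Ideal.mul_mem_mul (Ideal.mem_span_singleton_self π) hbp
  have hπm : (Ideal.span {π} : Ideal R) ≤ Ideal.jacobson ⊥ := by
    rw [IsLocalRing.jacobson_eq_maximalIdeal ⊥ bot_ne_top, hm]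
    exact Ideal.span_mono (by simp)
  have hpg : p ≤ Ideal.span {g} :=
    Submodule.le_of_le_smul_of_le_jacobson_bot (IsNoetherian.noetherian p) hπm hle
  have hgp : Ideal.span {g} = p :=
    le_antisymm ((Ideal.span_singleton_le_iff_mem p).mpr hg) hpg
  have hg0 : g ≠ 0 := by
    rintro rfl
    apply hp0
    rw [← hgp]
    simp
  exact ⟨g, hg, (Ideal.span_singleton_prime hg0).mp (hgp ▸ hp)⟩

end Fermat.Agent.S18.UFD2
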