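import Mathlib
import Fermat.Agent.S18.UFD2

/-!
# S18 team library, block [IGUSA]: plan of the LOCAL étaleness statement (T4/T5/T6-local)

OWNER: helper65 (architect; only the owner edits this file).

Abstract setting (Mathlib-only): `R1` a noetherian integrally closed local domain with maximal
ideal `(π, s)`, `π` prime, `¬ π ∣ s` (in the application `R1 = CoverLocDef.R1 x c1`, the local
ring of the `x`-line at a closed point of the special fibre), `L = Frac R1`, `T` a finite
commutative `L`-algebra of rank `n` (in the application `T = Tot = L ⊗[Ky] F`).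

* `(hV)` vertical input: `n` integral elements whose Gram determinant is prime to `π`;
* `(hH)` horizontal input: for every prime element `p ≁ π` a local embedding
  `ε : R1 → ℂ[[s]]` with `ord ε(p) = 1` and `n` distinct extensions `σ i : T → ℂ((s))`.

Conclusion `LocEtStatement`: every maximal ideal `Q` of `integralClosure R1 T` is locally
generated by `(π, s)`.

The leaves are `Prop`s so that each owner proves one of them in a separate file; the glue
`locEt_of_leaves` is proved here.
-/

set_option autoImplicit false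

namespace Fermat.Agent.S18.IgusaPlan

universe u

/-- The Gram matrix of the trace form (same expression as in `HEmb.isUnit_discr_of_embeddings`). -/
noncomputable abbrev gram (L : Type u) {T : Type u} [Field L] [CommRing T] [Algebra L T] {n : ℕ}
    (b : Fin n → T) : Matrix (Fin n) (Fin n) L :=
  Matrix.of fun i j => Algebra.trace L T (b i * b j)

/-- **Leaf TraceInt** (part of T2): the trace of an integral element lies in the base. -/
def TraceIntStatement : Prop :=
  ∀ {R1 L T : Type u} [CommRing R1] [IsDomain R1] [IsIntegrallyClosed R1]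
    [Field L] [Algebra R1 L] [IsFractionRing R1 L] [CommRing T]
    [Algebra L T] [Algebra R1 T] [IsScalarTower R1 L T] [Module.Finite L T]
    (x : T), IsIntegral R1 x → ∃ r : R1, algebraMap R1 L r = Algebra.trace L T x

/-- **Leaf LocFree** (T4 = T2(a) + P1 + P2): the integral closure has an `R1`-basis of `n`
elements (in the shape consumed by `HEmb`). -/
def LocFreeStatement : Prop :=
  ∀ {R1 L T : Type u} [CommRing R1] [IsDomain R1] [IsNoetherianRing R1] [IsLocalRing R1]
    [IsIntegrallyClosed R1] [Field L] [Algebra R1 L] [IsFractionRing R1 L] [CommRing T]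
    [Algebra L T] [Algebra R1 T] [IsScalarTower R1 L T] [Module.Finite L T]
    (π s : R1), IsLocalRing.maximalIdeal R1 = Ideal.span {π, s} → Prime π → ¬ π ∣ s →
    ∀ (n : ℕ), Module.finrank L T = n →
    ∀ (c : Fin n → T), (∀ i, IsIntegral R1 (c i)) → (gram L c).det ≠ 0 →
    ∃ b : Fin n → T, (∀ i, IsIntegral R1 (b i)) ∧ LinearIndependent L b ∧
      ∀ x : T, IsIntegral R1 x → x ∈ Submodule.span R1 (Set.range b)

/-- **Leaf DiscVert** (T5-V): comparison of Gram determinants, `d_c = det(M)² · d_b`. -/
def DiscVertStatement : Prop :=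
  ∀ {R1 L T : Type u} [CommRing R1] [IsDomain R1]
    [Field L] [Algebra R1 L] [IsFractionRing R1 L] [CommRing T]
    [Algebra L T] [Algebra R1 T] [IsScalarTower R1 L T] [Module.Finite L T]
    (π : R1), Prime π → ∀ (n : ℕ),
    ∀ (c : Fin n → T) (d : R1), algebraMap R1 L d = (gram L c).det → ¬ π ∣ d →
    ∀ (b : Fin n → T), (∀ i, c i ∈ Submodule.span R1 (Set.range b)) →
    ∀ (dB : R1), algebraMap R1 L dB = (gram L b).det → ¬ π ∣ dB

/-- **Leaf DiscHor** (T5-H (a), helper73's shape): a horizontal prime does not divide the Gram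
determinant of an integral basis. -/
def DiscHorStatement : Prop :=
  ∀ {R1 L T : Type u} [CommRing R1] [IsDomain R1] [IsNoetherianRing R1]
    [Field L] [Algebra R1 L] [IsFractionRing R1 L] [CommRing T]
    [Algebra L T] [Algebra R1 T] [IsScalarTower R1 L T] [Module.Finite L T]
    (p : R1), Prime p → ∀ (ε : R1 →+* PowerSeries ℂ), (ε p).order = 1 →
    (∀ r : R1, ¬ p ∣ r → PowerSeries.constantCoeff (ε r) ≠ 0) →
    ∀ (εL : L →+* LaurentSeries ℂ),
    (∀ r, εL (algebraMap R1 L r) = HahnSeries.ofPowerSeries ℤ ℂ (ε r)) →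
    ∀ (n : ℕ), Module.finrank L T = n → ∀ (σ : Fin n → (T →+* LaurentSeries ℂ)),
    Function.Injective σ → (∀ i x, σ i (algebraMap L T x) = εL x) →
    ∀ (b : Fin n → T), (∀ i, IsIntegral R1 (b i)) →
    (∀ x : T, IsIntegral R1 x → x ∈ Submodule.span R1 (Set.range b)) →
    ∀ (d : R1), algebraMap R1 L d = (gram L b).det → ¬ p ∣ d

/-- **Leaf LocReg** (T6-local = T2(c) + artinian reduced): unit discriminant ⇒ the fibre
`B1/(π, s)B1` is reduced ⇒ every maximal ideal of `B1` is locally generated by `(π, s)`. -/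
def LocRegStatement : Prop :=
  ∀ {R1 L T : Type u} [CommRing R1] [IsDomain R1] [IsNoetherianRing R1] [IsLocalRing R1]
    [IsIntegrallyClosed R1] [Field L] [Algebra R1 L] [IsFractionRing R1 L] [CommRing T]
    [Algebra L T] [Algebra R1 T] [IsScalarTower R1 L T] [Module.Finite L T]
    (π s : R1), IsLocalRing.maximalIdeal R1 = Ideal.span {π, s} →
    ∀ (n : ℕ), Module.finrank L T = n →
    ∀ (b : Fin n → T), (∀ i, IsIntegral R1 (b i)) → LinearIndependent L b →
    (∀ x : T, IsIntegral R1 x → x ∈ Submodule.span R1 (Set.range b)) →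
    ∀ (u : R1ˣ), algebraMap R1 L (u : R1) = (gram L b).det →
    ∀ (Q : Ideal (integralClosure R1 T)), Q.IsMaximal → ∀ z ∈ Q, ∃ w, w ∉ Q ∧
      w * z ∈ Ideal.span {algebraMap R1 (integralClosure R1 T) π,
        algebraMap R1 (integralClosure R1 T) s}

/-- The vertical hypothesis `(hV)`. -/
def VertHyp {R1 : Type u} (L T : Type u) [CommRing R1] [Field L] [Algebra R1 L] [CommRing T]
    [Algebra L T] [Algebra R1 T] (π : R1) (n : ℕ) : Prop :=
  ∃ c : Fin n → T, (∀ i, IsIntegral R1 (c i)) ∧
    ∃ d : R1, algebraMap R1 L d = (gram L c).det ∧ ¬ π ∣ d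

/-- The horizontal hypothesis `(hH)` at a prime element `p` of `R1`. -/
def HorHypAt {R1 : Type u} (L T : Type u) [CommRing R1] [Field L] [Algebra R1 L] [CommRing T]
    [Algebra L T] (p : R1) (n : ℕ) : Prop :=
  ∃ (ε : R1 →+* PowerSeries ℂ) (εL : L →+* LaurentSeries ℂ) (σ : Fin n → (T →+* LaurentSeries ℂ)),
    (ε p).order = 1 ∧ (∀ r : R1, ¬ p ∣ r → PowerSeries.constantCoeff (ε r) ≠ 0) ∧
    (∀ r, εL (algebraMap R1 L r) = HahnSeries.ofPowerSeries ℤ ℂ (ε r)) ∧
    Function.Injective σ ∧ ∀ i x, σ i (algebraMap L T x) = εL x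

/-- **LocEt**: the local étaleness statement consumed by the global assembly (T6). -/
def LocEtStatement : Prop :=
  ∀ {R1 L T : Type u} [CommRing R1] [IsDomain R1] [IsNoetherianRing R1] [IsLocalRing R1]
    [IsIntegrallyClosed R1] [Field L] [Algebra R1 L] [IsFractionRing R1 L] [CommRing T]
    [Algebra L T] [Algebra R1 T] [IsScalarTower R1 L T] [Module.Finite L T]
    (π s : R1), IsLocalRing.maximalIdeal R1 = Ideal.span {π, s} → Prime π → ¬ π ∣ s →
    ∀ (n : ℕ), Module.finrank L T = n → VertHyp L T π n →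
    (∀ p : R1, Prime p → ¬ Associated p π → HorHypAt L T p n) →
    ∀ (Q : Ideal (integralClosure R1 T)), Q.IsMaximal → ∀ z ∈ Q, ∃ w, w ∉ Q ∧
      w * z ∈ Ideal.span {algebraMap R1 (integralClosure R1 T) π,
        algebraMap R1 (integralClosure R1 T) s}

/-- Glue: the local étaleness statement from its leaves (+ landed `UFD2`). -/
theorem locEt_of_leaves (hTr : TraceIntStatement.{u}) (hFree : LocFreeStatement.{u})
    (hVert : DiscVertStatement.{u}) (hHor : DiscHorStatement.{u}) (hReg : LocRegStatement.{u}) :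
    LocEtStatement.{u} := by
  intro R1 L T _ _ _ _ _ _ _ _ _ _ _ _ _ π s hm hπ hπs n hn hV hH Q hQ z hz
  obtain ⟨c, hc, d, hd, hπd⟩ := hV
  have hd0 : d ≠ 0 := fun h => hπd (h ▸ dvd_zero π)
  have hinj : Function.Injective (algebraMap R1 L) := IsFractionRing.injective R1 L
  have hdet0 : (gram L c).det ≠ 0 := by
    rw [← hd]
    exact fun h => hd0 (hinj (by rw [h, map_zero]))
  obtain ⟨b, hb, hbL, hspan⟩ := hFree π s hm hπ hπs n hn c hc hdet0
  -- the Gram matrix of `b` has entries in `R1`
  have hentry : ∀ i j, ∃ r : R1, algebraMap R1 L r = Algebra.trace L T (b i * b j) :=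
    fun i j => hTr (b i * b j) ((hb i).mul (hb j))
  choose M hM using hentry
  set dB : R1 := (Matrix.of M).det with hdB
  have hdBL : algebraMap R1 L dB = (gram L b).det := by
    rw [hdB, RingHom.map_det]
    congr 1
    ext i j
    simp [hM, gram]
  have hπdB : ¬ π ∣ dB :=
    hVert π hπ n c d hd hπd b (fun i => hspan _ (hc i)) dB hdBL
  have hdB0 : dB ≠ 0 := fun h => hπdB (h ▸ dvd_zero π)
  have : UniqueFactorizationMonoid R1 := UFD2.ufd_of_maximalIdeal_eq_span_pair π s hπ hm
  have hunit : IsUnit dB := by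
    by_contra hnu
    obtain ⟨p, hp, hpd⟩ := WfDvdMonoid.exists_irreducible_factor hnu hdB0
    have hp' : Prime p := UniqueFactorizationMonoid.irreducible_iff_prime.mp hp
    by_cases hass : Associated p π
    · exact hπdB (hass.symm.dvd.trans hpd)
    · obtain ⟨ε, εL, σ, h1, h2, h3, h4, h5⟩ := hH p hp' hass
      exact hHor p hp' ε h1 h2 εL h3 n hn σ h4 h5 b hb hspan dB hdBL hpd
  obtain ⟨u, hu⟩ := hunit
  exact hReg π s hm n hn b hb hbL hspan u (by rw [hu, hdBL]) Q hQ z hz

end Fermat.Agent.S18.IgusaPlan
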