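import Mathlib
import Fermat.Agent.S18.CoverLocDef
import Fermat.Agent.S18.CoverLocPrime
import Fermat.Agent.S18.CoverLocEpsL
import Fermat.Agent.S18.HorEps
import Fermat.Agent.S18.IgusaDiscH
import Fermat.Agent.S18.IgusaPlan
import Fermat.Agent.S18.IgusaTop

/-!
# S18 team library, block [IGUSA]: the horizontal glue `HorInput ⟹ HorHypAt`

OWNER: helper73 (only the owner edits this file).

In the setting of `IgusaTop` (cover datum `x, Num, Den` on `L`, function field `F` over
`Ky = Frac O[y]`), at a closed point `c1` of the `x`-line with `Den(c1)` a unit: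
every prime element `p1` of `R1 x c1` not associated to `π` satisfies the horizontal hypothesis
`IgusaPlan.HorHypAt L (L ⊗[Ky] F) p1 (finrank Ky F)` of the local étaleness statement.

Ingredients: `CoverLocPrime.exists_prime_of_prime` (T3e), `CoverLocEpsL.exists_eps_epsL` (T3b),
`IgusaTop.HorInput` (the analytic input) and `IgusaDiscH.exists_tot_embeddings`.
-/

set_option autoImplicit false

namespace Fermat.Agent.S18.HorGlue

open Polynomial TensorProduct Fermat.Agent.S18.CoverLocDef

/-- **Horizontal glue.** -/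
theorem horHypAt_of_horInput {O : Type} [CommRing O] [IsDomain O] [IsDiscreteValuationRing O]
    (Ky F L : Type) [Field Ky] [Field F] [Field L]
    [Algebra O[X] Ky] [IsFractionRing O[X] Ky]
    [Algebra Ky F] [Algebra O[X] F] [IsScalarTower O[X] Ky F]
    [Algebra Ky L] [Algebra O[X] L] [IsScalarTower O[X] Ky L]
    (x : L) (Num Den : O[X]) (π c : O) (φ : O →+* ℂ) (hπ : Irreducible π)
    (hφ : Function.Injective φ) (hcov : IgusaTop.CoverDatum Ky x Num Den)
    (hH : IgusaTop.HorInput Ky F Num Den π c φ)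
    (c1 : O) (hc : π ∣ (Num - C c * Den).eval c1) (hDen : IsUnit (Den.eval c1))
    (p1 : R1 x c1) (hp1 : Prime p1) (hne : ¬ Associated p1 (piR x c1 π)) :
    IgusaPlan.HorHypAt L (L ⊗[Ky] F) p1 (Module.finrank Ky F) := by
  classical
  have hιinj : Function.Injective (HahnSeries.ofPowerSeries ℤ ℂ) :=
    HahnSeries.ofPowerSeries_injective
  -- the prime of `O[X]` behind `p1`
  obtain ⟨p, hp, hpπ, hpc, hass⟩ :=
    CoverLocPrime.exists_prime_of_prime x hcov.inj c1 π hπ p1 hp1 hne
  -- a complex root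
  have hdeg : p.natDegree ≠ 0 := CoverLocEps.natDegree_ne_zero_of_prime π hπ p hp hpπ
  have hdeg' : (p.map φ).degree ≠ 0 := by
    intro h0
    apply hdeg
    rw [← natDegree_map_eq_of_injective hφ p]
    exact natDegree_eq_zero_iff_degree_le_zero.2 h0.le
  obtain ⟨x0, hx0⟩ := IsAlgClosed.exists_root (p.map φ) hdeg'
  -- the analytic input
  obtain ⟨Λ, ι, hΛ0, hΛ1, hι, hιC, hιy⟩ := hH c1 hc hDen p hp hpπ hpc x0 hx0
  -- the local parameter
  obtain ⟨ε, εL, h1, h2, h3, h4, h5⟩ := CoverLocEpsL.exists_eps_epsL x hcov.inj hcov.gen c1 π hπ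
    φ hφ p hp hpπ hpc Λ (by rw [hΛ0]; exact hx0) hΛ1
  -- `Den(Λ) ≠ 0`
  have hDen0 : Den ≠ 0 := by
    rintro rfl
    rw [eval_zero] at hDen
    exact not_isUnit_zero hDen
  have hDenΛ : HahnSeries.ofPowerSeries ℤ ℂ (aeval Λ (Den.map φ)) ≠ 0 := by
    intro h0
    have h00 : aeval Λ (Den.map φ) = 0 := hιinj (by rw [h0, map_zero])
    exact HorEps.aeval_ne_zero_of_coeff_one_ne_zero Λ hΛ1 _
      ((Polynomial.map_ne_zero_iff hφ).2 hDen0) h00
  -- compatibility on `Ky`
  have hcompat : ∀ i (k : Ky), ι i (algebraMap Ky F k) = εL (algebraMap Ky L k) := by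
    intro i
    have hcomp : (ι i).comp (algebraMap Ky F) = εL.comp (algebraMap Ky L) := by
      refine IsLocalization.ringHom_ext (nonZeroDivisors O[X]) ?_
      refine Polynomial.ringHom_ext (fun o => ?_) ?_
      · simp only [RingHom.comp_apply]
        rw [← IsScalarTower.algebraMap_apply O[X] Ky F, ← IsScalarTower.algebraMap_apply O[X] Ky L,
          hιC, ← evx_C x o, h5, Polynomial.map_C, aeval_C]
        exact (HahnSeries.ofPowerSeries_C (φ o)).symm
      · simp only [RingHom.comp_apply]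
        rw [← IsScalarTower.algebraMap_apply O[X] Ky F, ← IsScalarTower.algebraMap_apply O[X] Ky L]
        have hy := congrArg εL hcov.y_eq
        rw [map_mul, h5, h5, hιy i] at hy
        exact (mul_right_cancel₀ hDenΛ hy).symm
    intro k
    exact congrArg (fun f : Ky →+* LaurentSeries ℂ => f k) hcomp
  obtain ⟨σ, hσinj, hσL, -⟩ :=
    IgusaDiscH.exists_tot_embeddings εL (Module.finrank Ky F) ι hι hcompat
  -- transport along `p1 ~ p(x)`
  obtain ⟨u, hu⟩ := hass
  have horder : (ε p1).order = 1 := by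
    have h6 : ε (evR x c1 p) = ε p1 * ε (u : R1 x c1) := by rw [← hu, map_mul]
    rw [h6, PowerSeries.order_mul, PowerSeries.order_zero_of_unit (u.isUnit.map ε), add_zero] at h3
    exact h3
  have hunit : ∀ r : R1 x c1, ¬ p1 ∣ r → PowerSeries.constantCoeff (ε r) ≠ 0 := by
    intro r hr
    have h7 : ¬ evR x c1 p ∣ r := fun hdvd => hr ((Dvd.intro _ hu).trans hdvd)
    exact (PowerSeries.isUnit_iff_constantCoeff.1 ((h2 r).2 h7)).ne_zero
  exact ⟨ε, εL, σ, horder, hunit, h4, hσinj, hσL⟩

end Fermat.Agent.S18.HorGlue
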