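import Mathlib

/-!
# S18, block [IGUSA], assembly leaf T6 (abstract core): regular points of the cover

Abstract commutative algebra behind "every maximal ideal `Q ∋ π` of the integral closure `B` of
the cover is generated, locally at `Q`, by `π` and one more element, and has residue field `k`".

* `exists_idem_of_isMaximal` : in a reduced Artinian ring every maximal ideal `Q` is cut out by an
  idempotent-like element `e ∉ Q` with `e * Q = 0`.
* `exists_notMem_mul_mem_map` : `B1` finite over a local ring `R1` with reduced closed fibre;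
  then for every maximal `Q` of `B1`, `Q` is generated by `𝔪_{R1}` locally at `Q`.
* `exists_notMem_mul_mem_span_pair` : descent of the previous statement from `B1` ("`B` localised
  at a prime of `B0`") to `B`.
* `exists_sub_mem_of_integral` / `exists_sub_mem_of_integral_polynomial` : the residue field of a
  maximal ideal is that of `O` (algebraically closed residue field).
* `igusaReg` : the combination, in the shape of the S18 assembly spec (T6).
-/

set_option autoImplicit false

namespace Fermat.Agent.S18.IgusaReg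

/-- In a reduced Artinian ring, a maximal ideal `Q` is annihilated by an element outside `Q`. -/
theorem exists_idem_of_isMaximal {A : Type*} [CommRing A] [IsArtinianRing A] [IsReduced A]
    (Q : Ideal A) [hQ : Q.IsMaximal] : ∃ e : A, e ∉ Q ∧ ∀ z ∈ Q, e * z = 0 := by
  classical
  let m₀ : MaximalSpectrum A := ⟨Q, hQ⟩
  let E := IsArtinianRing.equivPi A
  refine ⟨E.symm (Pi.single m₀ 1), ?_, ?_⟩
  · intro he
    have h1 : E (E.symm (Pi.single m₀ 1)) m₀ = 0 := by
      rw [IsArtinianRing.equivPi_apply]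
      exact Ideal.Quotient.eq_zero_iff_mem.mpr he
    rw [AlgEquiv.apply_symm_apply, Pi.single_eq_same] at h1
    exact one_ne_zero h1
  · intro z hz
    apply E.injective
    rw [map_mul, AlgEquiv.apply_symm_apply, map_zero]
    funext m
    by_cases hm : m = m₀
    · subst hm
      rw [Pi.mul_apply, IsArtinianRing.equivPi_apply]
      have : (Ideal.Quotient.mk m₀.asIdeal) z = 0 := Ideal.Quotient.eq_zero_iff_mem.mpr hz
      simp [this]
    · rw [Pi.mul_apply, Pi.single_eq_of_ne hm, zero_mul]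
      rfl

/-- `B1` finite over a local ring `R1` with reduced closed fibre `B1 ⧸ 𝔪 B1`: every maximal ideal
`Q` of `B1` contains `𝔪 B1` and is generated by it locally at `Q`. -/
theorem exists_notMem_mul_mem_map {R1 B1 : Type*} [CommRing R1] [IsLocalRing R1] [CommRing B1]
    [Algebra R1 B1] [Module.Finite R1 B1]
    (hred : IsReduced (B1 ⧸ (IsLocalRing.maximalIdeal R1).map (algebraMap R1 B1)))
    (Q : Ideal B1) [hQ : Q.IsMaximal] :
    (IsLocalRing.maximalIdeal R1).map (algebraMap R1 B1) ≤ Q ∧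
      ∀ z ∈ Q, ∃ u : B1, u ∉ Q ∧ u * z ∈ (IsLocalRing.maximalIdeal R1).map (algebraMap R1 B1) := by
  set mB : Ideal B1 := (IsLocalRing.maximalIdeal R1).map (algebraMap R1 B1) with hmB
  -- `𝔪 B1 ≤ Q`
  have hle : mB ≤ Q := by
    rw [hmB, Ideal.map_le_iff_le_comap]
    have hmax : (Q.comap (algebraMap R1 B1)).IsMaximal :=
      Ideal.isMaximal_comap_of_isIntegral_of_isMaximal Q
    rw [IsLocalRing.eq_maximalIdeal hmax]
  refine ⟨hle, ?_⟩
  -- the closed fibre is Artinian
  let k := R1 ⧸ IsLocalRing.maximalIdeal R1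
  let _ : Field k := Ideal.Quotient.field _
  let A := B1 ⧸ mB
  have hfin : Module.Finite k A := by
    have : Module.Finite R1 A := inferInstanceAs (Module.Finite R1 (B1 ⧸ mB))
    exact Module.Finite.of_restrictScalars_finite R1 k A
  have hart : IsArtinianRing A := IsArtinianRing.of_finite k A
  -- the image of `Q`
  have hsurj : Function.Surjective (Ideal.Quotient.mk mB) := Ideal.Quotient.mk_surjective
  have hcomap : (Q.map (Ideal.Quotient.mk mB)).comap (Ideal.Quotient.mk mB) = Q := by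
    rw [Ideal.comap_map_of_surjective _ hsurj, ← RingHom.ker_eq_comap_bot, Ideal.mk_ker]
    exact sup_eq_left.mpr hle
  have hmaxA : (Q.map (Ideal.Quotient.mk mB)).IsMaximal := by
    rcases Ideal.map_eq_top_or_isMaximal_of_surjective _ hsurj hQ with h | h
    · exfalso
      rw [h, Ideal.comap_top] at hcomap
      exact hQ.ne_top hcomap.symm
    · exact h
  obtain ⟨e, he, hez⟩ := exists_idem_of_isMaximal (A := A) (Q.map (Ideal.Quotient.mk mB))
  obtain ⟨u, rfl⟩ := hsurj e
  intro z hz
  refine ⟨u, fun hu => he (Ideal.mem_map_of_mem _ hu), ?_⟩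
  have := hez _ (Ideal.mem_map_of_mem (Ideal.Quotient.mk mB) hz)
  rw [← map_mul] at this
  exact Ideal.Quotient.eq_zero_iff_mem.mp this

/-- Descent from `B1` (a "localisation" of `B` in which denominators from `B0 ∖ Q` can be cleared)
to `B`: if the closed fibre of `B1` over the local ring `R1` is reduced and `𝔪_{R1} = (π, s)`, then
every maximal ideal `Q` of `B` is generated by `π, s` locally at `Q`. -/
theorem exists_notMem_mul_mem_span_pair
    {B0 R1 B B1 : Type*} [CommRing B0] [CommRing R1] [IsLocalRing R1] [CommRing B] [CommRing B1]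
    [Algebra B0 R1] [Algebra R1 B1] [Algebra B0 B] [Algebra B B1] [Algebra B0 B1]
    [IsScalarTower B0 R1 B1] [IsScalarTower B0 B B1] [Module.Finite R1 B1]
    (hred : IsReduced (B1 ⧸ (IsLocalRing.maximalIdeal R1).map (algebraMap R1 B1)))
    (π s : B0)
    (hgen : IsLocalRing.maximalIdeal R1 = Ideal.span {algebraMap B0 R1 π, algebraMap B0 R1 s})
    (hinj : Function.Injective (algebraMap B B1))
    (Q : Ideal B) [hQ : Q.IsMaximal]
    (hden : ∀ β : B1, ∃ t : B0, algebraMap B0 B t ∉ Q ∧
      ∃ b : B, algebraMap B B1 b = algebraMap B0 B1 t * β) :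
    ∀ z ∈ Q, ∃ u : B, u ∉ Q ∧ u * z ∈ Ideal.span {algebraMap B0 B π, algebraMap B0 B s} := by
  have htower : ∀ t : B0, algebraMap B0 B1 t = algebraMap B B1 (algebraMap B0 B t) :=
    fun t => IsScalarTower.algebraMap_apply B0 B B1 t
  have htower' : ∀ t : B0, algebraMap B0 B1 t = algebraMap R1 B1 (algebraMap B0 R1 t) :=
    fun t => IsScalarTower.algebraMap_apply B0 R1 B1 t
  -- every element of `Q B1` has a multiple by some `t ∉ Q` in the image of `Q`
  have hQB1 : ∀ y ∈ Q.map (algebraMap B B1), ∃ t : B0, algebraMap B0 B t ∉ Q ∧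
      ∃ q ∈ Q, algebraMap B B1 q = algebraMap B0 B1 t * y := by
    intro y hy
    refine Submodule.span_induction (p := fun y _ => ∃ t : B0, algebraMap B0 B t ∉ Q ∧
      ∃ q ∈ Q, algebraMap B B1 q = algebraMap B0 B1 t * y) ?_ ?_ ?_ ?_ hy
    · rintro _ ⟨q, hq, rfl⟩
      refine ⟨1, ?_, q, hq, ?_⟩
      · rw [map_one]; exact (Ideal.ne_top_iff_one Q).mp hQ.ne_top
      · rw [map_one, one_mul]
    · refine ⟨1, ?_, 0, Q.zero_mem, ?_⟩
      · rw [map_one]; exact (Ideal.ne_top_iff_one Q).mp hQ.ne_top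
      · rw [map_zero, mul_zero]
    · rintro y₁ y₂ _ _ ⟨t₁, ht₁, q₁, hq₁, h₁⟩ ⟨t₂, ht₂, q₂, hq₂, h₂⟩
      refine ⟨t₁ * t₂, ?_, algebraMap B0 B t₂ * q₁ + algebraMap B0 B t₁ * q₂,
        Q.add_mem (Q.mul_mem_left _ hq₁) (Q.mul_mem_left _ hq₂), ?_⟩
      · rw [map_mul]
        exact fun h => (hQ.isPrime.mem_or_mem h).elim ht₁ ht₂
      · rw [map_add, map_mul, map_mul, h₁, h₂, ← htower, ← htower, map_mul]
        ring
    · rintro β y _ ⟨t, ht, q, hq, h⟩
      obtain ⟨t', ht', b', hb'⟩ := hden β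
      refine ⟨t' * t, ?_, b' * q, Q.mul_mem_left _ hq, ?_⟩
      · rw [map_mul]
        exact fun h => (hQ.isPrime.mem_or_mem h).elim ht' ht
      · rw [map_mul, hb', h, map_mul, smul_eq_mul]
        ring
  -- `Q B1` is proper
  have hne : Q.map (algebraMap B B1) ≠ ⊤ := by
    intro htop
    obtain ⟨t, ht, q, hq, h⟩ := hQB1 1 (htop ▸ Submodule.mem_top)
    rw [mul_one, htower] at h
    exact ht (hinj h ▸ hq)
  obtain ⟨Q1, hQ1max, hQ1⟩ := Ideal.exists_le_maximal _ hne
  have hcomap : Q1.comap (algebraMap B B1) = Q := by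
    refine (hQ.eq_of_le ?_ (Ideal.map_le_iff_le_comap.mp hQ1)).symm
    exact Ideal.comap_ne_top _ hQ1max.ne_top
  obtain ⟨-, hloc⟩ := exists_notMem_mul_mem_map hred Q1
  intro z hz
  obtain ⟨u₁, hu₁, hu₁z⟩ := hloc (algebraMap B B1 z) (hQ1 (Ideal.mem_map_of_mem _ hz))
  rw [hgen, Ideal.map_span, Set.image_pair, Ideal.mem_span_pair] at hu₁z
  obtain ⟨β₁, β₂, hβ⟩ := hu₁z
  rw [← htower', ← htower'] at hβ
  obtain ⟨tu, htu, bu, hbu⟩ := hden u₁
  obtain ⟨t₁, ht₁, b₁, hb₁⟩ := hden β₁
  obtain ⟨t₂, ht₂, b₂, hb₂⟩ := hden β₂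
  refine ⟨algebraMap B0 B (t₁ * t₂) * bu, ?_, ?_⟩
  · intro hmem
    have h1 : algebraMap B B1 (algebraMap B0 B (t₁ * t₂) * bu) ∈ Q1 :=
      hQ1 (Ideal.mem_map_of_mem _ hmem)
    rw [map_mul, hbu, ← htower, ← mul_assoc, ← map_mul] at h1
    rcases hQ1max.isPrime.mem_or_mem h1 with h2 | h2
    · rw [htower] at h2
      have h3 : algebraMap B0 B (t₁ * t₂ * tu) ∈ Q := by
        rw [← hcomap]; exact h2
      rw [map_mul, map_mul] at h3
      rcases hQ.isPrime.mem_or_mem h3 with h4 | h4
      · exact (hQ.isPrime.mem_or_mem h4).elim ht₁ ht₂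
      · exact htu h4
    · exact hu₁ h2
  · rw [Ideal.mem_span_pair]
    refine ⟨algebraMap B0 B (tu * t₂) * b₁, algebraMap B0 B (tu * t₁) * b₂, ?_⟩
    apply hinj
    simp only [map_mul, map_add, hbu, hb₁, hb₂, ← htower]
    linear_combination (algebraMap B0 B1 t₁ * algebraMap B0 B1 t₂ * algebraMap B0 B1 tu) * hβ

/-- The residue field of a maximal ideal `Q` of `B` is that of the local ring `O` with
algebraically closed residue field, as soon as `B ⧸ Q` is integral over `O`. -/
theorem exists_sub_mem_of_integral {O B : Type*} [CommRing O] [IsLocalRing O]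
    [IsAlgClosed (IsLocalRing.ResidueField O)] [CommRing B] (f : O →+* B)
    (Q : Ideal B) [hQ : Q.IsMaximal]
    (hm : ∀ a ∈ IsLocalRing.maximalIdeal O, f a ∈ Q)
    (hint : ∀ b : B, ∃ p : Polynomial O, p.Monic ∧ p.eval₂ f b ∈ Q) :
    ∀ b : B, ∃ a : O, b - f a ∈ Q := by
  let k := IsLocalRing.ResidueField O
  let K' := B ⧸ Q
  let _ : Field K' := Ideal.Quotient.field Q
  let φ : k →+* K' := Ideal.Quotient.lift (IsLocalRing.maximalIdeal O)
    ((Ideal.Quotient.mk Q).comp f) (fun a ha => Ideal.Quotient.eq_zero_iff_mem.mpr (hm a ha))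
  let _ : Algebra k K' := φ.toAlgebra
  have hφ : (algebraMap k K').comp (IsLocalRing.residue O) = (Ideal.Quotient.mk Q).comp f := by
    ext a
    rfl
  have hInt : Algebra.IsIntegral k K' := by
    refine ⟨fun x => ?_⟩
    obtain ⟨b, rfl⟩ := Ideal.Quotient.mk_surjective x
    obtain ⟨p, hp, hpb⟩ := hint b
    refine ⟨p.map (IsLocalRing.residue O), hp.map _, ?_⟩
    rw [Polynomial.eval₂_map, hφ, ← Polynomial.hom_eval₂]
    exact Ideal.Quotient.eq_zero_iff_mem.mpr hpb
  intro b
  obtain ⟨a', ha'⟩ := (IsAlgClosed.algebraMap_bijective_of_isIntegral (k := k) (K := K')).2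
    (Ideal.Quotient.mk Q b)
  obtain ⟨a, rfl⟩ := IsLocalRing.residue_surjective a'
  refine ⟨a, ?_⟩
  rw [← Ideal.Quotient.eq_zero_iff_mem, map_sub, sub_eq_zero]
  have : (algebraMap k K') (IsLocalRing.residue O a) = Ideal.Quotient.mk Q (f a) :=
    congrArg (fun g : O →+* K' => g a) hφ
  rw [← this, ha']

/-- Version of `exists_sub_mem_of_integral` for an algebra `B` integral over `O[y]` and a maximal
ideal containing `𝔪_O` and `y - c`. -/
theorem exists_sub_mem_of_integral_polynomial {O B : Type*} [CommRing O] [IsLocalRing O]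
    [IsAlgClosed (IsLocalRing.ResidueField O)] [CommRing B] [Algebra (Polynomial O) B]
    (hint : ∀ b : B, IsIntegral (Polynomial O) b)
    (Q : Ideal B) [hQ : Q.IsMaximal]
    (hm : ∀ a ∈ IsLocalRing.maximalIdeal O, algebraMap (Polynomial O) B (Polynomial.C a) ∈ Q)
    (c : O) (hc : algebraMap (Polynomial O) B (Polynomial.X - Polynomial.C c) ∈ Q) :
    ∀ b : B, ∃ a : O, b - algebraMap (Polynomial O) B (Polynomial.C a) ∈ Q := by
  refine exists_sub_mem_of_integral ((algebraMap (Polynomial O) B).comp Polynomial.C) Q hm ?_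
  intro b
  obtain ⟨P, hP, hPb⟩ := hint b
  refine ⟨P.map (Polynomial.evalRingHom c), hP.map _, ?_⟩
  rw [← Ideal.Quotient.eq_zero_iff_mem, Polynomial.hom_eval₂, Polynomial.eval₂_map]
  have hhom : ((Ideal.Quotient.mk Q).comp ((algebraMap (Polynomial O) B).comp Polynomial.C)).comp
      (Polynomial.evalRingHom c) = (Ideal.Quotient.mk Q).comp (algebraMap (Polynomial O) B) := by
    apply Polynomial.ringHom_ext
    · intro a
      simp
    · have h1 : Ideal.Quotient.mk Q (algebraMap (Polynomial O) B (Polynomial.X - Polynomial.C c))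
          = 0 := Ideal.Quotient.eq_zero_iff_mem.mpr hc
      rw [map_sub, map_sub, sub_eq_zero] at h1
      simpa using h1.symm
  rw [hhom, ← Polynomial.hom_eval₂, hPb, map_zero]

/-- **T6, abstract form.** `B` integral over `O[y]` (`O` local with algebraically closed residue
field), `Q` a maximal ideal of `B` containing `𝔪_O` and `y - c`; `B0 → B` a ring over which `B`
becomes, after clearing denominators outside `Q`, a ring `B1` finite over a local ring `R1` with
`𝔪_{R1} = (π₁, s)` and reduced closed fibre. Then `Q` is generated by `π₁, s` locally at `Q`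
and has residue field `O ⧸ 𝔪_O`. -/
theorem igusaReg
    {O B0 R1 B B1 : Type*} [CommRing O] [IsLocalRing O] [IsAlgClosed (IsLocalRing.ResidueField O)]
    [CommRing B0] [CommRing R1] [IsLocalRing R1] [CommRing B] [CommRing B1]
    [Algebra (Polynomial O) B]
    [Algebra B0 R1] [Algebra R1 B1] [Algebra B0 B] [Algebra B B1] [Algebra B0 B1]
    [IsScalarTower B0 R1 B1] [IsScalarTower B0 B B1] [Module.Finite R1 B1]
    (hint : ∀ b : B, IsIntegral (Polynomial O) b)
    (hred : IsReduced (B1 ⧸ (IsLocalRing.maximalIdeal R1).map (algebraMap R1 B1)))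
    (π₁ s : B0)
    (hgen : IsLocalRing.maximalIdeal R1 = Ideal.span {algebraMap B0 R1 π₁, algebraMap B0 R1 s})
    (hinj : Function.Injective (algebraMap B B1))
    (Q : Ideal B) [hQ : Q.IsMaximal]
    (hm : ∀ a ∈ IsLocalRing.maximalIdeal O, algebraMap (Polynomial O) B (Polynomial.C a) ∈ Q)
    (c : O) (hc : algebraMap (Polynomial O) B (Polynomial.X - Polynomial.C c) ∈ Q)
    (hsQ : algebraMap B0 B s ∈ Q)
    (hden : ∀ β : B1, ∃ t : B0, algebraMap B0 B t ∉ Q ∧
      ∃ b : B, algebraMap B B1 b = algebraMap B0 B1 t * β) :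
    ∃ s0 ∈ Q, (∀ z ∈ Q, ∃ u : B, u ∉ Q ∧ u * z ∈ Ideal.span {algebraMap B0 B π₁, s0}) ∧
      ∀ b : B, ∃ a : O, b - algebraMap (Polynomial O) B (Polynomial.C a) ∈ Q :=
  ⟨algebraMap B0 B s, hsQ,
    exists_notMem_mul_mem_span_pair hred π₁ s hgen hinj Q hden,
    exists_sub_mem_of_integral_polynomial hint Q hm c hc⟩

end Fermat.Agent.S18.IgusaReg
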