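import Mathlib
import Fermat.Agent.S18.IgusaTop
import Fermat.Agent.S18.IgusaReg

/-!
# S18, block [IGUSA], leaf T6b: from the local statement at `R1 x c1` to `IgusaTop.LeafReg`

OWNER: helper76 (only the owner edits this file).

Setting of `IgusaTop`: `O` a DVR with algebraically closed residue field, `A0 = O[X]` (variable
`y`), `T = L ⊗[Ky] F`, `B = integralClosure O[X] T`, `Q` a maximal ideal of `B` containing `π`
and `y - c`.

* `isIntegral_x`  : `x` is integral over `O[y]` (unit leading coefficient of `Num`, `deg`);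
* `exists_point`  : there is `c1 : O` with `x - c1 ∈ Q`, `Den(c1)` a unit and
  `π ∣ (Num - c Den)(c1)`;
* `exists_sub_mem`: the residue field of `Q` is `O/π`;
* `igusaReg_at`   : descent of the local generation statement from
  `integralClosure (R1 x c1) T` (conclusion shape of `IgusaPlan.LocEtStatement`) to `B`;
* `leafReg_of_locGen` : the combination, with conclusion `IgusaTop.LeafReg`.
-/

set_option autoImplicit false

noncomputable section

namespace Fermat.Agent.S18.IgusaRegAsm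

open Polynomial TensorProduct Fermat.Agent.S18.CoverLocDef Fermat.Agent.S18.IgusaTop

/-- Descent along an injective ring hom `ι : B → B1` in which denominators outside `Q` can be
cleared: if every maximal ideal of `B1` is locally generated by `ι πB, ι sB`, then the maximal
ideal `Q` of `B` is locally generated by `πB, sB`. -/
theorem exists_notMem_mul_mem_span_pair_of_loc {B B1 : Type*} [CommRing B] [CommRing B1]
    (ι : B →+* B1) (hinj : Function.Injective ι) (πB sB : B)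
    (Q : Ideal B) [hQ : Q.IsMaximal]
    (hden : ∀ β : B1, ∃ t : B, t ∉ Q ∧ ∃ b : B, ι b = ι t * β)
    (hloc : ∀ Q1 : Ideal B1, Q1.IsMaximal → ∀ z ∈ Q1, ∃ w, w ∉ Q1 ∧
      w * z ∈ Ideal.span {ι πB, ι sB}) :
    ∀ z ∈ Q, ∃ u : B, u ∉ Q ∧ u * z ∈ Ideal.span {πB, sB} := by
  have hone : (1 : B) ∉ Q := (Ideal.ne_top_iff_one Q).mp hQ.ne_top
  -- every element of `Q B1` has a multiple by some `t ∉ Q` in the image of `Q`
  have hQB1 : ∀ y ∈ Q.map ι, ∃ t : B, t ∉ Q ∧ ∃ q ∈ Q, ι q = ι t * y := by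
    intro y hy
    refine Submodule.span_induction (p := fun y _ => ∃ t : B, t ∉ Q ∧ ∃ q ∈ Q, ι q = ι t * y)
      ?_ ?_ ?_ ?_ hy
    · rintro _ ⟨q, hq, rfl⟩
      exact ⟨1, hone, q, hq, by rw [map_one, one_mul]⟩
    · exact ⟨1, hone, 0, Q.zero_mem, by rw [map_zero, mul_zero]⟩
    · rintro y₁ y₂ _ _ ⟨t₁, ht₁, q₁, hq₁, h₁⟩ ⟨t₂, ht₂, q₂, hq₂, h₂⟩
      refine ⟨t₁ * t₂, fun h => (hQ.isPrime.mem_or_mem h).elim ht₁ ht₂, t₂ * q₁ + t₁ * q₂,
        Q.add_mem (Q.mul_mem_left _ hq₁) (Q.mul_mem_left _ hq₂), ?_⟩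
      rw [map_add, map_mul, map_mul, h₁, h₂, map_mul]
      ring
    · rintro β y _ ⟨t, ht, q, hq, h⟩
      obtain ⟨t', ht', b', hb'⟩ := hden β
      refine ⟨t' * t, fun h => (hQ.isPrime.mem_or_mem h).elim ht' ht, b' * q,
        Q.mul_mem_left _ hq, ?_⟩
      rw [map_mul, hb', h, map_mul, smul_eq_mul]
      ring
  -- `Q B1` is proper
  have hne : Q.map ι ≠ ⊤ := by
    intro htop
    obtain ⟨t, ht, q, hq, h⟩ := hQB1 1 (htop ▸ Submodule.mem_top)
    rw [mul_one] at h
    exact ht (hinj h ▸ hq)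
  obtain ⟨Q1, hQ1max, hQ1⟩ := Ideal.exists_le_maximal _ hne
  have hcomap : Q1.comap ι = Q := by
    refine (hQ.eq_of_le ?_ (Ideal.map_le_iff_le_comap.mp hQ1)).symm
    exact Ideal.comap_ne_top _ hQ1max.ne_top
  intro z hz
  obtain ⟨u₁, hu₁, hu₁z⟩ := hloc Q1 hQ1max (ι z) (hQ1 (Ideal.mem_map_of_mem _ hz))
  rw [Ideal.mem_span_pair] at hu₁z
  obtain ⟨β₁, β₂, hβ⟩ := hu₁z
  obtain ⟨tu, htu, bu, hbu⟩ := hden u₁
  obtain ⟨t₁, ht₁, b₁, hb₁⟩ := hden β₁
  obtain ⟨t₂, ht₂, b₂, hb₂⟩ := hden β₂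
  refine ⟨t₁ * t₂ * bu, ?_, ?_⟩
  · intro hmem
    have h1 : ι (t₁ * t₂ * bu) ∈ Q1 := hQ1 (Ideal.mem_map_of_mem _ hmem)
    rw [map_mul, hbu, ← mul_assoc, ← map_mul] at h1
    rcases hQ1max.isPrime.mem_or_mem h1 with h2 | h2
    · have h3 : t₁ * t₂ * tu ∈ Q := by
        rw [← hcomap]; exact h2
      rcases hQ.isPrime.mem_or_mem h3 with h4 | h4
      · exact (hQ.isPrime.mem_or_mem h4).elim ht₁ ht₂
      · exact htu h4
    · exact hu₁ h2
  · rw [Ideal.mem_span_pair]
    refine ⟨tu * t₂ * b₁, tu * t₁ * b₂, ?_⟩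
    apply hinj
    simp only [map_mul, map_add, hbu, hb₁, hb₂]
    linear_combination (ι t₁ * ι t₂ * ι tu) * hβ

section Concrete

variable {O : Type*} [CommRing O]
  (Ky F : Type*) {L : Type*} [Field Ky] [Field F] [Field L]
  [Algebra O[X] Ky] [Algebra Ky F]
  [Algebra Ky L] [Algebra O[X] L] [IsScalarTower O[X] Ky L]

omit [Algebra O[X] Ky] [Field Ky] [Algebra Ky L] [IsScalarTower O[X] Ky L] in
/-- `x` is integral over `O[y]`: it is a root of `Num(Z) - y Den(Z)`, whose leading coefficient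
is a unit. -/
theorem isIntegral_x_base (x : L) (Num Den : O[X])
    (hL3 : algebraMap O[X] L X * evx x Den = evx x Num)
    (hlc : IsUnit Num.leadingCoeff) (hdeg : Den.natDegree < Num.natDegree) :
    IsIntegral O[X] x := by
  set P : O[X][X] := Num.map C - C X * Den.map C with hP
  have hnat : (C (X : O[X]) * Den.map C).natDegree < (Num.map (C : O →+* O[X])).natDegree := by
    rw [natDegree_map_eq_of_injective C_injective]
    calc (C (X : O[X]) * Den.map C).natDegree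
        ≤ (Den.map (C : O →+* O[X])).natDegree := natDegree_C_mul_le _ _
      _ ≤ Den.natDegree := natDegree_map_le
      _ < Num.natDegree := hdeg
  have hlead : P.leadingCoeff = C Num.leadingCoeff := by
    rw [hP, leadingCoeff_sub_of_degree_lt (degree_lt_degree hnat),
      leadingCoeff_map_of_injective C_injective]
  have haeval : aeval x P = 0 := by
    rw [hP, map_sub, map_mul, aeval_C, aeval_def, aeval_def, eval₂_map, eval₂_map,
      ← evx_apply, ← evx_apply, hL3, sub_self]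
  have h1 := isIntegral_leadingCoeff_smul P x haeval
  rw [hlead] at h1
  obtain ⟨u, hu⟩ := hlc
  have h2 : x = C (↑u⁻¹ : O) • (C Num.leadingCoeff • x) := by
    rw [smul_smul, ← C_mul, ← hu, Units.inv_mul, C_1, one_smul]
  rw [h2]
  exact IsIntegral.smul _ h1

/-- (int) `x`, seen in `T = L ⊗[Ky] F`, is integral over `O[y]`. -/
theorem isIntegral_x (x : L) (Num Den : O[X])
    (hL3 : algebraMap O[X] L X * evx x Den = evx x Num)
    (hlc : IsUnit Num.leadingCoeff) (hdeg : Den.natDegree < Num.natDegree) :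
    IsIntegral O[X] (algebraMap L (L ⊗[Ky] F) x) :=
  (isIntegral_x_base x Num Den hL3 hlc hdeg).algebraMap

/-- `p ↦ p(x)` as a ring hom `O[X] →+* B`. -/
def evB (x : L) (hx : IsIntegral O[X] (algebraMap L (L ⊗[Ky] F) x)) :
    O[X] →+* integralClosure O[X] (L ⊗[Ky] F) :=
  eval₂RingHom ((algebraMap O[X] (integralClosure O[X] (L ⊗[Ky] F))).comp C)
    ⟨algebraMap L (L ⊗[Ky] F) x, hx⟩

theorem coe_evB (x : L) (hx : IsIntegral O[X] (algebraMap L (L ⊗[Ky] F) x)) (p : O[X]) :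
    ((evB Ky F x hx p : integralClosure O[X] (L ⊗[Ky] F)) : L ⊗[Ky] F) =
      algebraMap L (L ⊗[Ky] F) (evx x p) := by
  have h1 := Polynomial.hom_eval₂ p
    ((algebraMap O[X] (integralClosure O[X] (L ⊗[Ky] F))).comp C)
    (integralClosure O[X] (L ⊗[Ky] F)).val.toRingHom ⟨algebraMap L (L ⊗[Ky] F) x, hx⟩
  have h2 := Polynomial.hom_eval₂ p ((algebraMap O[X] L).comp C) (algebraMap L (L ⊗[Ky] F)) x
  have h3 : (integralClosure O[X] (L ⊗[Ky] F)).val.toRingHom.comp
      ((algebraMap O[X] (integralClosure O[X] (L ⊗[Ky] F))).comp C) =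
      (algebraMap L (L ⊗[Ky] F)).comp ((algebraMap O[X] L).comp C) := by
    ext a
    exact IsScalarTower.algebraMap_apply O[X] L (L ⊗[Ky] F) (C a)
  rw [h3] at h1
  rw [evx_apply, h2]
  exact h1

theorem evB_C (x : L) (hx : IsIntegral O[X] (algebraMap L (L ⊗[Ky] F) x)) (a : O) :
    evB Ky F x hx (C a) = algebraMap O[X] (integralClosure O[X] (L ⊗[Ky] F)) (C a) := by
  rw [evB, coe_eval₂RingHom, eval₂_C]
  rfl

theorem evB_X (x : L) (hx : IsIntegral O[X] (algebraMap L (L ⊗[Ky] F) x)) :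
    evB Ky F x hx X = ⟨algebraMap L (L ⊗[Ky] F) x, hx⟩ := by
  rw [evB, coe_eval₂RingHom, eval₂_X]

/-- `Num(x) = y Den(x)` in `B`. -/
theorem evB_num (x : L) (hx : IsIntegral O[X] (algebraMap L (L ⊗[Ky] F) x)) (Num Den : O[X])
    (hL3 : algebraMap O[X] L X * evx x Den = evx x Num) :
    evB Ky F x hx Num =
      algebraMap O[X] (integralClosure O[X] (L ⊗[Ky] F)) X * evB Ky F x hx Den := by
  apply Subtype.ext
  rw [coe_evB, ← hL3, map_mul, ← IsScalarTower.algebraMap_apply O[X] L (L ⊗[Ky] F)]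
  change _ = algebraMap O[X] (L ⊗[Ky] F) X *
    ((evB Ky F x hx Den : integralClosure O[X] (L ⊗[Ky] F)) : L ⊗[Ky] F)
  rw [coe_evB]

/-- If `x - c1 ∈ Q` then `p(x) ≡ p(c1)` modulo `Q`. -/
theorem evB_sub_mem (x : L) (hx : IsIntegral O[X] (algebraMap L (L ⊗[Ky] F) x))
    (Q : Ideal (integralClosure O[X] (L ⊗[Ky] F))) (c1 : O)
    (hc1Q : (⟨algebraMap L (L ⊗[Ky] F) x, hx⟩ -
      algebraMap O[X] (integralClosure O[X] (L ⊗[Ky] F)) (C c1) :
        integralClosure O[X] (L ⊗[Ky] F)) ∈ Q) (p : O[X]) :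
    evB Ky F x hx p - algebraMap O[X] (integralClosure O[X] (L ⊗[Ky] F)) (C (p.eval c1)) ∈ Q := by
  obtain ⟨r, hr⟩ := X_sub_C_dvd_sub_C_eval (a := c1) (p := p)
  have h1 := congrArg (evB Ky F x hx) hr
  rw [map_sub, map_mul, map_sub, evB_C, evB_C, evB_X] at h1
  rw [h1]
  exact Q.mul_mem_right _ hc1Q

/-- A constant of `O` that is a unit is not in a proper ideal of `B`. -/
theorem algebraMap_C_notMem (Q : Ideal (integralClosure O[X] (L ⊗[Ky] F))) (hQ : Q ≠ ⊤)
    (a : O) (ha : IsUnit a) :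
    algebraMap O[X] (integralClosure O[X] (L ⊗[Ky] F)) (C a) ∉ Q :=
  fun h => hQ (Ideal.eq_top_of_isUnit_mem _ h
    ((ha.map C).map (algebraMap O[X] (integralClosure O[X] (L ⊗[Ky] F)))))

/-- (res) the residue field of `Q` is `O/π`. -/
theorem exists_sub_mem [IsDomain O] [IsDiscreteValuationRing O]
    [IsAlgClosed (IsLocalRing.ResidueField O)] (π c : O) (hπ : Irreducible π)
    (Q : Ideal (integralClosure O[X] (L ⊗[Ky] F))) (hQ : Q.IsMaximal)
    (hπQ : algebraMap O[X] (integralClosure O[X] (L ⊗[Ky] F)) (C π) ∈ Q)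
    (hcQ : algebraMap O[X] (integralClosure O[X] (L ⊗[Ky] F)) (X - C c) ∈ Q) :
    ∀ b : integralClosure O[X] (L ⊗[Ky] F), ∃ a : O,
      b - algebraMap O[X] (integralClosure O[X] (L ⊗[Ky] F)) (C a) ∈ Q := by
  have := hQ
  refine IgusaReg.exists_sub_mem_of_integral_polynomial
    (fun b => integralClosure.isIntegral b) Q ?_ c hcQ
  intro a ha
  rw [hπ.maximalIdeal_eq, Ideal.mem_span_singleton] at ha
  obtain ⟨r, rfl⟩ := ha
  rw [C_mul, map_mul]
  exact Q.mul_mem_right _ hπQ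

/-- (pt) the point of the `x`-line under `Q`. -/
theorem exists_point [IsDomain O] [IsDiscreteValuationRing O]
    [IsAlgClosed (IsLocalRing.ResidueField O)]
    (x : L) (Num Den : O[X]) (π c : O) (hπ : Irreducible π)
    (hL3 : algebraMap O[X] L X * evx x Den = evx x Num)
    (hbez : ∃ a b : O[X], a * Num + b * Den = 1)
    (hx : IsIntegral O[X] (algebraMap L (L ⊗[Ky] F) x))
    (Q : Ideal (integralClosure O[X] (L ⊗[Ky] F))) (hQ : Q.IsMaximal)
    (hπQ : algebraMap O[X] (integralClosure O[X] (L ⊗[Ky] F)) (C π) ∈ Q)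
    (hcQ : algebraMap O[X] (integralClosure O[X] (L ⊗[Ky] F)) (X - C c) ∈ Q) :
    ∃ c1 : O, π ∣ (Num - C c * Den).eval c1 ∧ IsUnit (Den.eval c1) ∧
      (⟨algebraMap L (L ⊗[Ky] F) x, hx⟩ -
        algebraMap O[X] (integralClosure O[X] (L ⊗[Ky] F)) (C c1) :
          integralClosure O[X] (L ⊗[Ky] F)) ∈ Q := by
  obtain ⟨c1, hc1⟩ := exists_sub_mem Ky F π c hπ Q hQ hπQ hcQ ⟨algebraMap L (L ⊗[Ky] F) x, hx⟩
  have hcong := evB_sub_mem Ky F x hx Q c1 hc1
  have hdvd : ∀ a : O, algebraMap O[X] (integralClosure O[X] (L ⊗[Ky] F)) (C a) ∈ Q → π ∣ a := by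
    intro a ha
    by_contra hna
    have hu : IsUnit a := by
      rw [← IsLocalRing.notMem_maximalIdeal, hπ.maximalIdeal_eq, Ideal.mem_span_singleton]
      exact hna
    exact algebraMap_C_notMem Ky F Q hQ.ne_top a hu ha
  refine ⟨c1, ?_, ?_, hc1⟩
  · apply hdvd
    have h1 := hcong (Num - C c * Den)
    have h2 : evB Ky F x hx (Num - C c * Den) ∈ Q := by
      rw [map_sub, map_mul, evB_num Ky F x hx Num Den hL3, evB_C, ← sub_mul, ← map_sub]
      exact Q.mul_mem_right _ hcQ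
    have h3 := Q.sub_mem h2 h1
    rwa [sub_sub_cancel] at h3
  · obtain ⟨a, b, hab⟩ := hbez
    have h1 : (evB Ky F x hx a * algebraMap O[X] (integralClosure O[X] (L ⊗[Ky] F)) X +
        evB Ky F x hx b) * evB Ky F x hx Den = 1 := by
      have h := congrArg (evB Ky F x hx) hab
      rw [map_add, map_mul, map_mul, evB_num Ky F x hx Num Den hL3, map_one] at h
      rw [← h]
      ring
    have h2 : evB Ky F x hx Den ∉ Q := fun h =>
      hQ.ne_top ((Ideal.eq_top_iff_one Q).mpr (h1 ▸ Q.mul_mem_left _ h))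
    by_contra hnu
    have h3 : π ∣ Den.eval c1 := by
      by_contra hna
      apply hnu
      rw [← IsLocalRing.notMem_maximalIdeal, hπ.maximalIdeal_eq, Ideal.mem_span_singleton]
      exact hna
    obtain ⟨r, hr⟩ := h3
    have h4 : algebraMap O[X] (integralClosure O[X] (L ⊗[Ky] F)) (C (Den.eval c1)) ∈ Q := by
      rw [hr, C_mul, map_mul]
      exact Q.mul_mem_right _ hπQ
    have h5 := Q.add_mem (hcong Den) h4
    rw [sub_add_cancel] at h5
    exact h2 h5

/-- The inclusion `B = integralClosure O[y] T ⊆ B1 = integralClosure (R1 x c1) T`. -/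
def incl (x : L) (c1 : O) (Num Den : O[X])
    (hL3 : algebraMap O[X] L X * evx x Den = evx x Num) (hc1 : IsUnit (Den.eval c1)) :
    integralClosure O[X] (L ⊗[Ky] F) →+* integralClosure (R1 x c1) (L ⊗[Ky] F) where
  toFun b := ⟨b.1, isIntegral_R1_of_isIntegral x c1 Num Den hL3 hc1 b.2⟩
  map_one' := rfl
  map_mul' _ _ := rfl
  map_zero' := rfl
  map_add' _ _ := rfl

omit [Algebra O[X] Ky] [Field Ky] [Algebra Ky L] [IsScalarTower O[X] Ky L] in
/-- Common denominator of the coefficients of a polynomial over `R1 x c1`. -/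
theorem exists_common_den (x : L) (c1 : O) (f : Polynomial (R1 x c1)) :
    ∃ q : O[X], IsUnit (q.eval c1) ∧
      ∀ i, ∃ p : O[X], ((f.coeff i : R1 x c1) : L) * evx x q = evx x p := by
  induction f using Polynomial.induction_on' with
  | add f g hf hg =>
    obtain ⟨q₁, hq₁, h₁⟩ := hf
    obtain ⟨q₂, hq₂, h₂⟩ := hg
    refine ⟨q₁ * q₂, by rw [eval_mul]; exact hq₁.mul hq₂, fun i => ?_⟩
    obtain ⟨p₁, hp₁⟩ := h₁ i
    obtain ⟨p₂, hp₂⟩ := h₂ i
    refine ⟨p₁ * q₂ + p₂ * q₁, ?_⟩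
    rw [coeff_add, Subring.coe_add, map_mul, map_add, map_mul, map_mul, ← hp₁, ← hp₂]
    ring
  | monomial n r =>
    obtain ⟨p, q, hq, h⟩ := r.2
    refine ⟨q, hq, fun i => ?_⟩
    rw [coeff_monomial]
    split_ifs
    · exact ⟨p, h⟩
    · exact ⟨0, by simp⟩

/-- Clearing denominators: an element of `T` integral over `R1 x c1` becomes integral over
`O[y]` after multiplication by some `q(x)` with `q(c1)` a unit. -/
theorem exists_isIntegral_mul (x : L) (hx : IsIntegral O[X] (algebraMap L (L ⊗[Ky] F) x))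
    (c1 : O) (β : L ⊗[Ky] F) (hβ : IsIntegral (R1 x c1) β) :
    ∃ q : O[X], IsUnit (q.eval c1) ∧
      IsIntegral O[X] (algebraMap L (L ⊗[Ky] F) (evx x q) * β) := by
  obtain ⟨f, hf, hfβ⟩ := hβ
  obtain ⟨q, hq, hcoef⟩ := exists_common_den x c1 f
  refine ⟨q, hq, ?_⟩
  have hg : (f.scaleRoots (evR x c1 q)).Monic := (monic_scaleRoots_iff _).mpr hf
  have hgβ : eval₂ (algebraMap (R1 x c1) (L ⊗[Ky] F))
      (algebraMap (R1 x c1) (L ⊗[Ky] F) (evR x c1 q) * β) (f.scaleRoots (evR x c1 q)) = 0 := by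
    rw [scaleRoots_eval₂_mul, hfβ, mul_zero]
  -- the coefficients of the scaled polynomial are polynomials in `x`
  have hgcoef : ∀ i, ∃ p : O[X],
      (((f.scaleRoots (evR x c1 q)).coeff i : R1 x c1) : L) = evx x p := by
    intro i
    rw [coeff_scaleRoots]
    rcases lt_trichotomy i f.natDegree with hi | hi | hi
    · obtain ⟨p, hp⟩ := hcoef i
      obtain ⟨k, hk⟩ : ∃ k, f.natDegree - i = k + 1 := ⟨f.natDegree - i - 1, by omega⟩
      refine ⟨p * q ^ k, ?_⟩
      rw [hk, pow_succ, Subring.coe_mul, Subring.coe_mul, Subring.coe_pow, coe_evR, map_mul,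
        map_pow, ← hp]
      ring
    · refine ⟨1, ?_⟩
      rw [hi, Nat.sub_self, pow_zero, mul_one, coeff_natDegree, hf.leadingCoeff]
      simp
    · refine ⟨0, ?_⟩
      rw [coeff_eq_zero_of_natDegree_lt hi]
      simp
  have hlift : (f.scaleRoots (evR x c1 q)).map (algebraMap (R1 x c1) (L ⊗[Ky] F)) ∈
      Polynomial.lifts (algebraMap (integralClosure O[X] (L ⊗[Ky] F)) (L ⊗[Ky] F)) := by
    rw [lifts_iff_coeff_lifts]
    intro i
    obtain ⟨p, hp⟩ := hgcoef i
    refine ⟨evB Ky F x hx p, ?_⟩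
    rw [coeff_map]
    change ((evB Ky F x hx p : integralClosure O[X] (L ⊗[Ky] F)) : L ⊗[Ky] F) =
      algebraMap L (L ⊗[Ky] F) (((f.scaleRoots (evR x c1 q)).coeff i : R1 x c1) : L)
    rw [coe_evB, hp]
  obtain ⟨G, hG, -, hGm⟩ := lifts_and_natDegree_eq_and_monic hlift (hg.map _)
  have hBint : IsIntegral (integralClosure O[X] (L ⊗[Ky] F))
      (algebraMap L (L ⊗[Ky] F) (evx x q) * β) := by
    refine ⟨G, hGm, ?_⟩
    rw [← eval_map, hG, eval_map]
    exact hgβ
  exact isIntegral_trans _ hBint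

/-- (loc) descent of the local generation statement at `R1 x c1` (the conclusion shape of
`IgusaPlan.LocEtStatement`) to the maximal ideal `Q ∋ x - c1` of `B`. -/
theorem igusaReg_at (x : L) (Num Den : O[X]) (π : O)
    (hL3 : algebraMap O[X] L X * evx x Den = evx x Num)
    (hx : IsIntegral O[X] (algebraMap L (L ⊗[Ky] F) x))
    (c1 : O) (hc1 : IsUnit (Den.eval c1))
    (Q : Ideal (integralClosure O[X] (L ⊗[Ky] F))) (hQ : Q.IsMaximal)
    (hc1Q : (⟨algebraMap L (L ⊗[Ky] F) x, hx⟩ -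
        algebraMap O[X] (integralClosure O[X] (L ⊗[Ky] F)) (C c1) :
          integralClosure O[X] (L ⊗[Ky] F)) ∈ Q)
    (hloc1 : ∀ Q1 : Ideal (integralClosure (R1 x c1) (L ⊗[Ky] F)), Q1.IsMaximal →
      ∀ z ∈ Q1, ∃ w, w ∉ Q1 ∧ w * z ∈ Ideal.span
        {algebraMap (R1 x c1) (integralClosure (R1 x c1) (L ⊗[Ky] F)) (piR x c1 π),
         algebraMap (R1 x c1) (integralClosure (R1 x c1) (L ⊗[Ky] F)) (sR x c1)}) :
    ∀ z ∈ Q, ∃ u, u ∉ Q ∧ u * z ∈ Ideal.span
      {algebraMap O[X] (integralClosure O[X] (L ⊗[Ky] F)) (C π),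
       (⟨algebraMap L (L ⊗[Ky] F) x, hx⟩ -
        algebraMap O[X] (integralClosure O[X] (L ⊗[Ky] F)) (C c1) :
          integralClosure O[X] (L ⊗[Ky] F))} := by
  have := hQ
  have hinj : Function.Injective (incl Ky F x c1 Num Den hL3 hc1) := by
    intro a b h
    apply Subtype.ext
    exact congrArg (fun z : integralClosure (R1 x c1) (L ⊗[Ky] F) => (z : L ⊗[Ky] F)) h
  have hden : ∀ β : integralClosure (R1 x c1) (L ⊗[Ky] F),
      ∃ t : integralClosure O[X] (L ⊗[Ky] F), t ∉ Q ∧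
        ∃ b : integralClosure O[X] (L ⊗[Ky] F),
          incl Ky F x c1 Num Den hL3 hc1 b = incl Ky F x c1 Num Den hL3 hc1 t * β := by
    intro β
    obtain ⟨q, hq, hint⟩ := exists_isIntegral_mul Ky F x hx c1 β.1 β.2
    refine ⟨evB Ky F x hx q, ?_, ⟨_, hint⟩, ?_⟩
    · intro hmem
      have h1 := evB_sub_mem Ky F x hx Q c1 hc1Q q
      have h2 := Q.sub_mem hmem h1
      rw [sub_sub_cancel] at h2
      exact algebraMap_C_notMem Ky F Q hQ.ne_top _ hq h2
    · apply Subtype.ext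
      change algebraMap L (L ⊗[Ky] F) (evx x q) * β.1 =
        ((evB Ky F x hx q : integralClosure O[X] (L ⊗[Ky] F)) : L ⊗[Ky] F) * β.1
      rw [coe_evB]
  have e1 : incl Ky F x c1 Num Den hL3 hc1
      (algebraMap O[X] (integralClosure O[X] (L ⊗[Ky] F)) (C π)) =
      algebraMap (R1 x c1) (integralClosure (R1 x c1) (L ⊗[Ky] F)) (piR x c1 π) := by
    apply Subtype.ext
    change algebraMap O[X] (L ⊗[Ky] F) (C π) =
      algebraMap L (L ⊗[Ky] F) ((piR x c1 π : R1 x c1) : L)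
    rw [coe_piR, ← IsScalarTower.algebraMap_apply O[X] L (L ⊗[Ky] F)]
  have e2 : incl Ky F x c1 Num Den hL3 hc1
      (⟨algebraMap L (L ⊗[Ky] F) x, hx⟩ -
        algebraMap O[X] (integralClosure O[X] (L ⊗[Ky] F)) (C c1)) =
      algebraMap (R1 x c1) (integralClosure (R1 x c1) (L ⊗[Ky] F)) (sR x c1) := by
    apply Subtype.ext
    change algebraMap L (L ⊗[Ky] F) x - algebraMap O[X] (L ⊗[Ky] F) (C c1) =
      algebraMap L (L ⊗[Ky] F) ((sR x c1 : R1 x c1) : L)
    rw [coe_sR, map_sub, ← IsScalarTower.algebraMap_apply O[X] L (L ⊗[Ky] F)]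
  refine exists_notMem_mul_mem_span_pair_of_loc (incl Ky F x c1 Num Den hL3 hc1) hinj _ _ Q
    hden ?_
  rw [e1, e2]
  exact hloc1

/-- **T6b.** The local generation statements at the rings `R1 x c1` (for the points `c1` of the
`x`-line over `y = c`, i.e. the conclusions of `IgusaPlan.LocEtStatement` there) imply
`IgusaTop.LeafReg`. -/
theorem leafReg_of_locGen [IsDomain O] [IsDiscreteValuationRing O]
    [IsAlgClosed (IsLocalRing.ResidueField O)]
    (x : L) (Num Den : O[X]) (π c : O) (hπ : Irreducible π)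
    (hL3 : algebraMap O[X] L X * evx x Den = evx x Num)
    (hlc : IsUnit Num.leadingCoeff) (hdeg : Den.natDegree < Num.natDegree)
    (hbez : ∃ a b : O[X], a * Num + b * Den = 1)
    (hloc : ∀ c1 : O, π ∣ (Num - C c * Den).eval c1 → IsUnit (Den.eval c1) →
      ∀ Q1 : Ideal (integralClosure (R1 x c1) (L ⊗[Ky] F)), Q1.IsMaximal →
        ∀ z ∈ Q1, ∃ w, w ∉ Q1 ∧ w * z ∈ Ideal.span
          {algebraMap (R1 x c1) (integralClosure (R1 x c1) (L ⊗[Ky] F)) (piR x c1 π),
           algebraMap (R1 x c1) (integralClosure (R1 x c1) (L ⊗[Ky] F)) (sR x c1)}) :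
    LeafReg Ky F L π c := by
  intro Q hQ hπQ hcQ
  have hx := isIntegral_x Ky F x Num Den hL3 hlc hdeg
  obtain ⟨c1, h1, h2, h3⟩ := exists_point Ky F x Num Den π c hπ hL3 hbez hx Q hQ hπQ hcQ
  exact ⟨_, h3, igusaReg_at Ky F x Num Den π hL3 hx c1 h2 Q hQ h3 (hloc c1 h1 h2),
    exists_sub_mem Ky F π c hπ Q hQ hπQ hcQ⟩

end Concrete

end Fermat.Agent.S18.IgusaRegAsm
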