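import Fermat.Agent.S18.CoverLocDef

/-!
# S18 [IGUSA] T3d: `A0/π → R1/π` is injective

`C_dvd_of_piR_dvd`: if the image in `R1` of `a ∈ A0 = O[X]` (variable `y = Num(x)/Den(x)`) is
divisible by `π`, then `C π ∣ a`.  This is "`J mod π` is non-constant".
-/

namespace Fermat.Agent.S18.CoverLocPi

open Polynomial Fermat.Agent.S18.CoverLocDef

/-- Over a field: if the homogenised composition `∑ aᵢ Nⁱ D^(d-i)` vanishes, with
`deg D < deg N` and `D ≠ 0`, then `a = 0`. -/
theorem eq_zero_of_homog_eq_zero {k : Type*} [Field k] (a N D : k[X]) (hD : D ≠ 0)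
    (hdeg : D.natDegree < N.natDegree) (d : ℕ) (hd : a.natDegree ≤ d)
    (h : ∑ i ∈ Finset.range (d + 1), C (a.coeff i) * N ^ i * D ^ (d - i) = 0) : a = 0 := by
  by_contra ha
  have hN : N ≠ 0 := by
    rintro rfl
    simp at hdeg
  set m := a.natDegree with hm
  set Dg := m * N.natDegree + (d - m) * D.natDegree with hDg
  have hterm : ∀ i, (C (a.coeff i) * N ^ i * D ^ (d - i)).natDegree ≤
      i * N.natDegree + (d - i) * D.natDegree := by
    intro i
    calc (C (a.coeff i) * N ^ i * D ^ (d - i)).natDegree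
        ≤ (C (a.coeff i) * N ^ i).natDegree + (D ^ (d - i)).natDegree := natDegree_mul_le
      _ ≤ (N ^ i).natDegree + (D ^ (d - i)).natDegree :=
          Nat.add_le_add_right (natDegree_C_mul_le _ _) _
      _ ≤ i * N.natDegree + (d - i) * D.natDegree :=
          Nat.add_le_add natDegree_pow_le natDegree_pow_le
  have hlc : a.coeff m ≠ 0 := by
    rw [hm, coeff_natDegree]
    exact leadingCoeff_ne_zero.2 ha
  have hcoeff := congrArg (fun P => P.coeff Dg) h
  simp only [finsetSum_coeff, coeff_zero] at hcoeff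
  rw [Finset.sum_eq_single m] at hcoeff
  · have hnd : (C (a.coeff m) * N ^ m * D ^ (d - m)).natDegree = Dg := by
      rw [natDegree_mul (mul_ne_zero (C_ne_zero.2 hlc) (pow_ne_zero _ hN)) (pow_ne_zero _ hD),
        natDegree_C_mul hlc, natDegree_pow, natDegree_pow]
    have hne : C (a.coeff m) * N ^ m * D ^ (d - m) ≠ 0 :=
      mul_ne_zero (mul_ne_zero (C_ne_zero.2 hlc) (pow_ne_zero _ hN)) (pow_ne_zero _ hD)
    rw [← hnd, coeff_natDegree] at hcoeff
    exact leadingCoeff_ne_zero.2 hne hcoeff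
  · intro i hi him
    rcases lt_or_gt_of_ne him with hlt | hgt
    · refine coeff_eq_zero_of_natDegree_lt (lt_of_le_of_lt (hterm i) ?_)
      have hmd : m ≤ d := hd
      obtain ⟨t, ht⟩ : ∃ t, m = i + 1 + t := ⟨m - i - 1, by omega⟩
      obtain ⟨s, hs⟩ : ∃ s, d = m + s := ⟨d - m, by omega⟩
      have e1 : d - i = (1 + t) + s := by omega
      have e2 : d - m = s := by omega
      rw [hDg, e1, e2, ht]
      have h3 : (1 + t) * D.natDegree < (1 + t) * N.natDegree :=
        Nat.mul_lt_mul_of_pos_left hdeg (by omega)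
      nlinarith
    · rw [coeff_eq_zero_of_natDegree_lt hgt, C_0, zero_mul, zero_mul, coeff_zero]
  · intro hmem
    exact absurd (Finset.mem_range.2 (Nat.lt_succ_of_le hd)) hmem

variable {O : Type*} [CommRing O] [IsDomain O] [IsDiscreteValuationRing O] {L : Type*} [Field L]
  [Algebra O[X] L]

theorem C_dvd_of_piR_dvd (x : L) (hL1 : Function.Injective (evx (O := O) x)) (c1 : O) (π : O)
    (hπ : Irreducible π) (Num Den : O[X])
    (hL3 : algebraMap O[X] L X * evx x Den = evx x Num) (hc1 : IsUnit (Den.eval c1))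
    (hNum : IsUnit Num.leadingCoeff) (hdeg : Den.natDegree < Num.natDegree) (a : O[X])
    (h : piR x c1 π ∣ (⟨algebraMap O[X] L a, algebraMap_mem_R1 x c1 Num Den hL3 hc1 a⟩ :
      R1 x c1)) : C π ∣ a := by
  obtain ⟨⟨r, p, q, hq, hr⟩, hrr⟩ := h
  have h1 : algebraMap O[X] L a = algebraMap O[X] L (C π) * r := by
    have h0 := congrArg Subtype.val hrr
    rw [Subring.coe_mul, coe_piR] at h0
    exact h0
  set d := a.natDegree with hd
  set H : O[X] := ∑ i ∈ Finset.range (d + 1), C (a.coeff i) * Num ^ i * Den ^ (d - i) with hHdef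
  have hH : evx x H = algebraMap O[X] L a * evx x Den ^ d := by
    conv_rhs => rw [as_sum_range_C_mul_X_pow a]
    rw [hHdef, map_sum, map_sum, Finset.sum_mul]
    refine Finset.sum_congr rfl fun i hi => ?_
    have hid : i ≤ d := Nat.lt_succ_iff.1 (Finset.mem_range.1 hi)
    rw [map_mul, map_mul, map_pow, map_pow, evx_C, map_mul, map_pow, ← hL3, mul_pow]
    have e : evx x Den ^ d = evx x Den ^ i * evx x Den ^ (d - i) := by
      rw [← pow_add, Nat.add_sub_cancel' hid]
    rw [e]
    ring
  have h2 : H * q = C π * p * Den ^ d := by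
    apply hL1
    rw [map_mul, hH, h1, map_mul, map_mul, map_pow, evx_C, ← hr]
    ring
  have hCπ : Prime (C π) := prime_C_iff.2 hπ.prime
  have hCH : C π ∣ H := by
    have hdvd : C π ∣ H * q := ⟨p * Den ^ d, by rw [h2, mul_assoc]⟩
    rcases hCπ.dvd_or_dvd hdvd with h3 | h3
    · exact h3
    · exfalso
      obtain ⟨q', rfl⟩ := h3
      rw [eval_mul, eval_C] at hq
      exact hπ.not_isUnit (isUnit_of_mul_isUnit_left hq)
  have hresπ : IsLocalRing.residue O π = 0 :=
    (IsLocalRing.residue_eq_zero_iff π).2 ((IsLocalRing.mem_maximalIdeal π).2 hπ.not_isUnit)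
  have hH0 : H.map (IsLocalRing.residue O) = 0 := by
    obtain ⟨H', hH'⟩ := hCH
    rw [hH', Polynomial.map_mul, map_C, hresπ, C_0, zero_mul]
  have hHmap : H.map (IsLocalRing.residue O) = ∑ i ∈ Finset.range (d + 1),
      C ((a.map (IsLocalRing.residue O)).coeff i) * (Num.map (IsLocalRing.residue O)) ^ i *
        (Den.map (IsLocalRing.residue O)) ^ (d - i) := by
    rw [hHdef, Polynomial.map_sum]
    refine Finset.sum_congr rfl fun i _ => ?_
    rw [Polynomial.map_mul, Polynomial.map_mul, Polynomial.map_pow, Polynomial.map_pow, map_C,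
      coeff_map]
  have hDen : Den.map (IsLocalRing.residue O) ≠ 0 := by
    intro h0
    have h3 : IsLocalRing.residue O (Den.eval c1) = 0 := by
      rw [← eval₂_at_apply, ← eval_map, h0, eval_zero]
    exact (hc1.map (IsLocalRing.residue O)).ne_zero h3
  have hNumdeg : (Num.map (IsLocalRing.residue O)).natDegree = Num.natDegree :=
    natDegree_map_of_leadingCoeff_ne_zero _ (hNum.map (IsLocalRing.residue O)).ne_zero
  have hdeg' : (Den.map (IsLocalRing.residue O)).natDegree <
      (Num.map (IsLocalRing.residue O)).natDegree := by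
    rw [hNumdeg]
    exact lt_of_le_of_lt natDegree_map_le hdeg
  have ha0 : a.map (IsLocalRing.residue O) = 0 :=
    eq_zero_of_homog_eq_zero _ _ _ hDen hdeg' d natDegree_map_le (hHmap ▸ hH0)
  rw [C_dvd_iff_dvd_coeff]
  intro i
  have h4 : IsLocalRing.residue O (a.coeff i) = 0 := by
    rw [← coeff_map, ha0, coeff_zero]
  rw [IsLocalRing.residue_eq_zero_iff, hπ.maximalIdeal_eq, Ideal.mem_span_singleton] at h4
  exact h4

/-- The same statement for the structure map `ofA0 : A0 →+* R1`. -/
theorem C_dvd_of_piR_dvd_ofA0 (x : L) (hL1 : Function.Injective (evx (O := O) x)) (c1 : O)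
    (π : O) (hπ : Irreducible π) (Num Den : O[X])
    (hL3 : algebraMap O[X] L X * evx x Den = evx x Num) (hc1 : IsUnit (Den.eval c1))
    (hNum : IsUnit Num.leadingCoeff) (hdeg : Den.natDegree < Num.natDegree) (a : O[X])
    (h : piR x c1 π ∣ ofA0 x c1 Num Den hL3 hc1 a) : C π ∣ a :=
  C_dvd_of_piR_dvd x hL1 c1 π hπ Num Den hL3 hc1 hNum hdeg a h

omit [IsDomain O] [IsDiscreteValuationRing O] in
/-- `ofA0 (C π) = piR`. -/
theorem ofA0_C (x : L) (c1 : O) (π : O) (Num Den : O[X])
    (hL3 : algebraMap O[X] L X * evx x Den = evx x Num) (hc1 : IsUnit (Den.eval c1)) :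
    ofA0 x c1 Num Den hL3 hc1 (C π) = piR x c1 π := by
  apply Subtype.ext
  rw [coe_ofA0, coe_piR]

end Fermat.Agent.S18.CoverLocPi
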