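import Fermat.Agent.S18.CoverLocDef

/-!
# S18 / [IGUSA] assembly leaf T3a : ring-theoretic properties of `R1 x c1 ⊂ L`

Setting of `CoverLocDef`: `O` a DVR, `L` a field with an `O[X]`-algebra structure (the `y`-line),
`x : L` with `evx x : O[X] →+* L` injective (L1).  Then the subring `R1 x c1` of `L` (fractions
`p(x)/q(x)` with `q(c1) ∈ Oˣ`) is the localization of `O[X]` (the `x`-line) at the maximal ideal
`(𝔪_O, X - c1)`.  Consequently it is a Noetherian integrally closed local domain, with fraction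
field `L` under (L2), maximal ideal `(π, x - c1)`, `π` prime, `π ∤ x - c1`, and residue field
`O/π`.
-/

set_option autoImplicit false
set_option linter.unusedSectionVars false
set_option linter.style.haveILetI false

namespace Fermat.Agent.S18.CoverLocRing

open Polynomial Fermat.Agent.S18.CoverLocDef

noncomputable section

section IdealPart

variable {O : Type*} [CommRing O]

/-- Membership in `(π, X - c1)` is divisibility of the value at `c1` by `π`. -/
theorem mem_span_pair_iff (π c1 : O) (p : O[X]) :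
    p ∈ Ideal.span {C π, X - C c1} ↔ π ∣ p.eval c1 := by
  constructor
  · intro hp
    have hle : Ideal.span {C π, X - C c1} ≤ Ideal.comap (evalRingHom c1) (Ideal.span {π}) := by
      refine Ideal.span_le.mpr ?_
      rintro q (rfl | rfl)
      · simp
      · simp
    have := hle hp
    simpa [Ideal.mem_span_singleton] using this
  · rintro ⟨r, hr⟩
    have h := modByMonic_add_div p (X - C c1)
    rw [modByMonic_X_sub_C_eq_C_eval, hr] at h
    rw [← h, C_mul]
    exact Ideal.add_mem _ (Ideal.mul_mem_right _ _ (Ideal.subset_span (by simp)))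
      (Ideal.mul_mem_right _ _ (Ideal.subset_span (by simp)))

end IdealPart

variable {O : Type*} [CommRing O] [IsDomain O] [IsDiscreteValuationRing O] {L : Type*} [Field L]
  [Algebra O[X] L]

/-- The maximal ideal `(𝔪_O, X - c1)` of `O[X]` (the `x`-line). -/
def mx (c1 : O) : Ideal O[X] := Ideal.comap (evalRingHom c1) (IsLocalRing.maximalIdeal O)

theorem mem_mx_iff (c1 : O) (q : O[X]) : q ∈ mx c1 ↔ ¬ IsUnit (q.eval c1) := by
  rw [mx, Ideal.mem_comap, IsLocalRing.mem_maximalIdeal, mem_nonunits_iff]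
  rfl

theorem notMem_mx_iff (c1 : O) (q : O[X]) : q ∉ mx c1 ↔ IsUnit (q.eval c1) := by
  rw [mem_mx_iff, not_not]

instance mx_isMaximal (c1 : O) : (mx c1).IsMaximal :=
  Ideal.comap_isMaximal_of_surjective _ (fun r => ⟨C r, by simp⟩)

theorem mx_eq_span (c1 π : O) (hπ : Irreducible π) : mx c1 = Ideal.span {C π, X - C c1} := by
  ext q
  rw [mem_span_pair_iff, mx, Ideal.mem_comap, hπ.maximalIdeal_eq, Ideal.mem_span_singleton]
  rfl

theorem not_isUnit_iff_dvd (π : O) (hπ : Irreducible π) (r : O) : ¬ IsUnit r ↔ π ∣ r := by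
  rw [← mem_nonunits_iff, ← IsLocalRing.mem_maximalIdeal, hπ.maximalIdeal_eq,
    Ideal.mem_span_singleton]

theorem ne_zero_of_isUnit_eval {c1 : O} {q : O[X]} (hq : IsUnit (q.eval c1)) : q ≠ 0 := by
  rintro rfl
  rw [eval_zero] at hq
  exact not_isUnit_zero hq

theorem evx_ne_zero (x : L) (hL1 : Function.Injective (evx (O := O) x)) {q : O[X]} (hq : q ≠ 0) :
    evx x q ≠ 0 := fun h => hq (hL1 (by rw [h, map_zero]))

theorem evR_mul (x : L) (c1 : O) (p q : O[X]) :
    evR x c1 (p * q) = evR x c1 p * evR x c1 q := map_mul (evRHom x c1) p q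

theorem evR_sub (x : L) (c1 : O) (p q : O[X]) :
    evR x c1 (p - q) = evR x c1 p - evR x c1 q := map_sub (evRHom x c1) p q

theorem evR_injective (x : L) (hL1 : Function.Injective (evx (O := O) x)) (c1 : O) :
    Function.Injective (evR x c1) := fun _ _ h => hL1 (congrArg Subtype.val h)

/-- `q(x)` is a unit of `R1` when `q(c1)` is a unit of `O`. -/
theorem isUnit_evR (x : L) (hL1 : Function.Injective (evx (O := O) x)) (c1 : O) {q : O[X]}
    (hq : IsUnit (q.eval c1)) : IsUnit (evR x c1 q) := by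
  have h0 : evx x q ≠ 0 := evx_ne_zero x hL1 (ne_zero_of_isUnit_eval hq)
  refine IsUnit.of_mul_eq_one ⟨(evx x q)⁻¹, inv_evx_mem_R1 x c1 q hq h0⟩ ?_
  apply Subtype.ext
  change evx x q * (evx x q)⁻¹ = 1
  exact mul_inv_cancel₀ h0

/-- The (non-instance) `O[X]`-algebra structure on `R1` through the `x`-line, `p ↦ p(x)`. -/
@[reducible] def algR1 (x : L) (c1 : O) : Algebra O[X] (R1 x c1) := (evRHom x c1).toAlgebra

/-- `R1 x c1` is the localization of `O[X]` (the `x`-line) at `(𝔪_O, X - c1)`. -/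
theorem isLocalization_R1 (x : L) (hL1 : Function.Injective (evx (O := O) x)) (c1 : O) :
    letI := algR1 (O := O) x c1
    IsLocalization.AtPrime (R1 x c1) (mx c1) := by
  letI := algR1 (O := O) x c1
  refine (isLocalization_iff _ _).mpr ⟨?_, ?_, ?_⟩
  · rintro ⟨q, hq⟩
    exact isUnit_evR x hL1 c1 ((notMem_mx_iff c1 q).mp hq)
  · rintro ⟨l, p, q, hq, h⟩
    exact ⟨(p, ⟨q, (notMem_mx_iff c1 q).mpr hq⟩), Subtype.ext h⟩
  · intro a b h
    have hab : a = b := hL1 (congrArg Subtype.val h)
    exact ⟨1, by rw [hab]⟩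

/-! ### The seven T3a statements -/

theorem isLocalRing_R1 (x : L) (hL1 : Function.Injective (evx (O := O) x)) (c1 : O) :
    IsLocalRing (R1 x c1) := by
  letI := algR1 (O := O) x c1
  haveI := isLocalization_R1 x hL1 c1
  exact IsLocalization.AtPrime.isLocalRing (R1 x c1) (mx c1)

theorem isNoetherianRing_R1 (x : L) (hL1 : Function.Injective (evx (O := O) x)) (c1 : O) :
    IsNoetherianRing (R1 x c1) := by
  letI := algR1 (O := O) x c1
  haveI := isLocalization_R1 x hL1 c1
  exact IsLocalization.isNoetherianRing (mx c1).primeCompl _ inferInstance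

theorem isIntegrallyClosed_R1 (x : L) (hL1 : Function.Injective (evx (O := O) x)) (c1 : O) :
    IsIntegrallyClosed (R1 x c1) := by
  letI := algR1 (O := O) x c1
  haveI := isLocalization_R1 x hL1 c1
  exact isIntegrallyClosed_of_isLocalization _ (mx c1).primeCompl
    (Ideal.primeCompl_le_nonZeroDivisors _)

theorem isFractionRing_R1 (x : L) (hL1 : Function.Injective (evx (O := O) x))
    (hL2 : ∀ l : L, ∃ p q : O[X], q ≠ 0 ∧ l * evx x q = evx x p) (c1 : O) :
    IsFractionRing (R1 x c1) L := by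
  refine IsFractionRing.of_field (R1 x c1) L ?_
  intro l
  obtain ⟨p, q, hq, h⟩ := hL2 l
  refine ⟨evR x c1 p, evR x c1 q, ?_⟩
  have h0 : evx x q ≠ 0 := evx_ne_zero x hL1 hq
  change l = evx x p / evx x q
  rw [eq_div_iff h0]
  exact h

theorem maximalIdeal_R1 (x : L) (hL1 : Function.Injective (evx (O := O) x)) (c1 : O) (π : O)
    (hπ : Irreducible π) [IsLocalRing (R1 x c1)] :
    IsLocalRing.maximalIdeal (R1 x c1) = Ideal.span {piR x c1 π, sR x c1} := by
  letI := algR1 (O := O) x c1
  haveI := isLocalization_R1 x hL1 c1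
  rw [← IsLocalization.AtPrime.map_eq_maximalIdeal (mx c1) (R1 x c1), mx_eq_span c1 π hπ,
    Ideal.map_span, Set.image_pair]
  rfl

theorem prime_piR (x : L) (hL1 : Function.Injective (evx (O := O) x)) (c1 : O) (π : O)
    (hπ : Irreducible π) : Prime (piR x c1 π) := by
  letI := algR1 (O := O) x c1
  haveI := isLocalization_R1 x hL1 c1
  have hCπ : Prime (C π : O[X]) := prime_C_iff.mpr hπ.prime
  have hne : piR x c1 π ≠ 0 := by
    intro h
    have : (C π : O[X]) = 0 := evR_injective x hL1 c1 (by rw [← piR, h]; exact (map_zero (evRHom x c1)).symm)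
    exact hCπ.ne_zero this
  rw [← Ideal.span_singleton_prime hne]
  have hprime : (Ideal.span {(C π : O[X])}).IsPrime := (Ideal.span_singleton_prime hCπ.ne_zero).mpr hCπ
  have hdisj : Disjoint ((mx c1).primeCompl : Set O[X]) (Ideal.span {(C π : O[X])} : Set O[X]) := by
    rw [Set.disjoint_left]
    intro q hq hq'
    apply hq
    rw [mx_eq_span c1 π hπ]
    exact Ideal.span_mono (by simp) hq'
  have h := IsLocalization.isPrime_of_isPrime_disjoint (mx c1).primeCompl (R1 x c1) _ hprime hdisj
  rw [Ideal.map_span, Set.image_singleton] at h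
  exact h

theorem not_piR_dvd_sR (x : L) (hL1 : Function.Injective (evx (O := O) x)) (c1 : O) (π : O)
    (hπ : Irreducible π) : ¬ piR x c1 π ∣ sR x c1 := by
  rintro ⟨⟨l, a, q, hq, h⟩, hl⟩
  have hCπ : Prime (C π : O[X]) := prime_C_iff.mpr hπ.prime
  -- in `L`: `(x - c1) * q(x) = π * a(x)`
  have h1 : evx x (X - C c1) = evx x (C π) * l := congrArg Subtype.val hl
  have h2 : evx x ((X - C c1) * q) = evx x (C π * a) := by
    rw [map_mul, map_mul, h1, ← h]; ring
  have h3 : (X - C c1) * q = C π * a := hL1 h2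
  have hdvd : C π ∣ (X - C c1) * q := ⟨a, h3⟩
  rcases hCπ.dvd_or_dvd hdvd with h4 | h4
  · have h5 := (C_dvd_iff_dvd_coeff π (X - C c1)).mp h4 1
    rw [coeff_sub, coeff_X_one, coeff_C] at h5
    simp only [one_ne_zero, if_false, sub_zero] at h5
    exact hπ.not_isUnit (isUnit_of_dvd_one h5)
  · obtain ⟨b, rfl⟩ := h4
    rw [eval_mul, eval_C] at hq
    exact hπ.not_isUnit (isUnit_of_mul_isUnit_left hq)

/-! ### Extras -/

/-- `p(x)` is a unit of `R1` iff `p(c1)` is a unit of `O`. -/
theorem isUnit_evR_iff (x : L) (hL1 : Function.Injective (evx (O := O) x)) (c1 : O) (q : O[X]) :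
    IsUnit (evR x c1 q) ↔ IsUnit (q.eval c1) := by
  refine ⟨fun hu => ?_, isUnit_evR x hL1 c1⟩
  obtain ⟨⟨l, p', q', hq', h'⟩, hl⟩ := hu.exists_right_inv
  have h1 : evx x q * l = 1 := congrArg Subtype.val hl
  have h2 : evx x (p' * q) = evx x q' := by
    rw [map_mul, ← h']
    calc l * evx x q' * evx x q = (evx x q * l) * evx x q' := by ring
      _ = evx x q' := by rw [h1, one_mul]
  have h3 : p' * q = q' := hL1 h2
  rw [← h3, eval_mul] at hq'
  exact isUnit_of_mul_isUnit_right hq'

theorem evR_mem_maximalIdeal_iff (x : L) (hL1 : Function.Injective (evx (O := O) x)) (c1 : O)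
    [IsLocalRing (R1 x c1)] (q : O[X]) :
    evR x c1 q ∈ IsLocalRing.maximalIdeal (R1 x c1) ↔ ¬ IsUnit (q.eval c1) := by
  rw [IsLocalRing.mem_maximalIdeal, mem_nonunits_iff, isUnit_evR_iff x hL1 c1]

/-- Every element of `R1` is congruent to a constant of `O` modulo the maximal ideal. -/
theorem exists_sub_mem_maximalIdeal (x : L) (hL1 : Function.Injective (evx (O := O) x)) (c1 : O)
    [IsLocalRing (R1 x c1)] (z : R1 x c1) :
    ∃ r : O, z - evR x c1 (C r) ∈ IsLocalRing.maximalIdeal (R1 x c1) := by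
  obtain ⟨l, p, q, hq, h⟩ := z
  obtain ⟨u, hu⟩ := hq
  refine ⟨p.eval c1 * ((u⁻¹ : Oˣ) : O), ?_⟩
  set r : O := p.eval c1 * ((u⁻¹ : Oˣ) : O) with hr
  have hqu : IsUnit (evR x c1 q) := isUnit_evR x hL1 c1 ⟨u, hu⟩
  have hmul : ((⟨l, p, q, ⟨u, hu⟩, h⟩ : R1 x c1) - evR x c1 (C r)) * evR x c1 q
      = evR x c1 (p - C r * q) := by
    apply Subtype.ext
    change (l - evx x (C r)) * evx x q = evx x (p - C r * q)
    have e1 : evx x (p - C r * q) = evx x p - evx x (C r) * evx x q := by
      rw [map_sub, map_mul]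
    rw [e1, sub_mul, h]
  have hmem : evR x c1 (p - C r * q) ∈ IsLocalRing.maximalIdeal (R1 x c1) := by
    rw [evR_mem_maximalIdeal_iff x hL1 c1]
    have : (p - C r * q).eval c1 = 0 := by
      rw [eval_sub, eval_mul, eval_C, ← hu, hr, mul_assoc, Units.inv_mul, mul_one, sub_self]
    rw [this]
    exact not_isUnit_zero
  rw [← hmul] at hmem
  exact (Ideal.mul_unit_mem_iff_mem _ hqu).mp hmem

/-- Constants of `𝔪_O` lie in the maximal ideal of `R1`. -/
theorem evR_C_mem_maximalIdeal (x : L) (hL1 : Function.Injective (evx (O := O) x)) (c1 : O)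
    [IsLocalRing (R1 x c1)] {a : O} (ha : a ∈ IsLocalRing.maximalIdeal O) :
    evR x c1 (C a) ∈ IsLocalRing.maximalIdeal (R1 x c1) := by
  rw [evR_mem_maximalIdeal_iff x hL1 c1, eval_C]
  exact (IsLocalRing.mem_maximalIdeal a).mp ha

/-- transfer of algebraic closedness along a ring isomorphism (universe-polymorphic) -/
theorem isAlgClosed_of_ringEquiv {k : Type*} {k' : Type*} [Field k] [Field k'] (e : k ≃+* k')
    [IsAlgClosed k] : IsAlgClosed k' := by
  apply IsAlgClosed.of_exists_root
  intro p hmp hp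
  have hpe : degree (p.map e.symm.toRingHom) ≠ 0 := by
    rw [degree_map]
    exact ne_of_gt (degree_pos_of_irreducible hp)
  rcases IsAlgClosed.exists_root (k := k) (p.map e.symm.toRingHom) hpe with ⟨y, hy⟩
  use e y
  rw [IsRoot] at hy
  apply e.symm.injective
  rw [map_zero, ← hy]
  clear hy hpe hp hmp
  induction p using Polynomial.induction_on <;> simp_all

/-- The residue field of `R1` is the residue field of `O`; in particular it is algebraically
closed when that of `O` is. -/
theorem isAlgClosed_residueField (x : L) (hL1 : Function.Injective (evx (O := O) x)) (c1 : O)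
    [IsLocalRing (R1 x c1)] [IsAlgClosed (IsLocalRing.ResidueField O)] :
    IsAlgClosed (IsLocalRing.ResidueField (R1 x c1)) := by
  let f : O →+* IsLocalRing.ResidueField (R1 x c1) :=
    (IsLocalRing.residue (R1 x c1)).comp ((evRHom x c1).comp C)
  have hf : ∀ a : O, f a = IsLocalRing.residue (R1 x c1) (evR x c1 (C a)) := fun _ => rfl
  haveI : IsLocalHom f := by
    refine ⟨fun a ha => ?_⟩
    by_contra hau
    have hmem : a ∈ IsLocalRing.maximalIdeal O := (IsLocalRing.mem_maximalIdeal a).mpr hau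
    have h0 : f a = 0 := by
      rw [hf]
      exact (IsLocalRing.residue_eq_zero_iff _).mpr (evR_C_mem_maximalIdeal x hL1 c1 hmem)
    rw [h0] at ha
    exact not_isUnit_zero ha
  let g : IsLocalRing.ResidueField O →+* IsLocalRing.ResidueField (R1 x c1) :=
    IsLocalRing.ResidueField.lift f
  have hg : Function.Surjective g := by
    intro w
    obtain ⟨z, rfl⟩ := IsLocalRing.residue_surjective w
    obtain ⟨r, hr⟩ := exists_sub_mem_maximalIdeal x hL1 c1 z
    refine ⟨IsLocalRing.residue O r, ?_⟩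
    change f r = _
    rw [hf]
    symm
    rw [← sub_eq_zero, ← map_sub]
    exact (IsLocalRing.residue_eq_zero_iff _).mpr hr
  exact isAlgClosed_of_ringEquiv (RingEquiv.ofBijective g ⟨g.injective, hg⟩)

/-- Every element of `R1` is a fraction `p(x)/q(x)` with `q(x)` a unit of `R1`. -/
theorem exists_mul_evR_eq (x : L) (c1 : O) (z : R1 x c1) :
    ∃ p q : O[X], IsUnit (q.eval c1) ∧ z * evR x c1 q = evR x c1 p := by
  obtain ⟨l, p, q, hq, h⟩ := z
  exact ⟨p, q, hq, Subtype.ext h⟩

theorem piR_mem_maximalIdeal (x : L) (hL1 : Function.Injective (evx (O := O) x)) (c1 : O) (π : O)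
    (hπ : Irreducible π) [IsLocalRing (R1 x c1)] :
    piR x c1 π ∈ IsLocalRing.maximalIdeal (R1 x c1) := by
  rw [maximalIdeal_R1 x hL1 c1 π hπ]
  exact Ideal.subset_span (by simp)

theorem sR_mem_maximalIdeal (x : L) (hL1 : Function.Injective (evx (O := O) x)) (c1 : O)
    [IsLocalRing (R1 x c1)] : sR x c1 ∈ IsLocalRing.maximalIdeal (R1 x c1) := by
  rw [sR, evR_mem_maximalIdeal_iff x hL1 c1]
  simp

end

end Fermat.Agent.S18.CoverLocRing
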