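import Mathlib
import Fermat.Agent.S18.IgusaPlan
import Fermat.Agent.S18.IgusaDiscH

/-!
# S18 team library, block [IGUSA] T5-H: the leaf `IgusaPlan.DiscHorStatement`

OWNER: helper73 (only the owner edits this file).

`IgusaPlan.DiscHorStatement` is `IgusaDiscH.not_dvd_discr_of_embeddings` verbatim.
-/

set_option autoImplicit false

namespace Fermat.Agent.S18.IgusaDiscHLeaf

universe u

/-- **Leaf DiscHor** of `IgusaPlan`. -/
theorem discHorStatement : IgusaPlan.DiscHorStatement.{u} := by
  intro R1 L T _ _ _ _ _ _ _ _ _ _ _ p hp ε h1 h2 εL h3 n hn σ h4 h5 b hb hspan d hd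
  exact IgusaDiscH.not_dvd_discr_of_embeddings p hp ε h1 h2 εL h3 n hn σ h4 h5 b hb hspan d hd

end Fermat.Agent.S18.IgusaDiscHLeaf
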