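import Mathlib

/-!
# T5-V (x-side): the vertical prime does not divide the discriminant upstairs

`not_dvd_gram_of_base`: if `e` is a family of `A`-integral elements of `F` whose trace Gram
determinant `d0 ∈ A` is prime to `π`, then for any family `b` spanning the `R1`-integral elements
of a finite `L`-algebra `Tot` receiving `F` compatibly with traces, the Gram determinant of `b`
is not divisible by `π` in `R1`.
-/

namespace Fermat.Agent.S18.GramVert

/-- Gram determinant of a family that is an `R1`-combination of another family. -/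
theorem gram_det_of_combination {R1 L Tot : Type*} [CommRing R1] [Field L] [Algebra R1 L]
    [CommRing Tot] [Algebra L Tot] [Algebra R1 Tot] [IsScalarTower R1 L Tot]
    (n : ℕ) (c b : Fin n → Tot) (M : Matrix (Fin n) (Fin n) R1)
    (hc : ∀ i, c i = ∑ j, M i j • b j) :
    (Matrix.of fun i j => Algebra.trace L Tot (c i * c j)).det =
      algebraMap R1 L M.det ^ 2 * (Matrix.of fun i j => Algebra.trace L Tot (b i * b j)).det := by
  classical
  have h1 : c = Matrix.mulVec ((M.map (algebraMap R1 L)).map (algebraMap L Tot)) b := by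
    funext i
    rw [hc i]
    simp only [Matrix.mulVec, dotProduct, Matrix.map_apply]
    refine Finset.sum_congr rfl fun j _ => ?_
    rw [← IsScalarTower.algebraMap_apply, Algebra.smul_def]
  have h2 := Algebra.discr_of_matrix_mulVec (A := L) b (M.map (algebraMap R1 L))
  rw [← h1] at h2
  have h3 : (M.map (algebraMap R1 L)).det = algebraMap R1 L M.det := by
    rw [RingHom.map_det]; rfl
  rw [h3] at h2
  exact h2

theorem not_dvd_gram_of_base {A K F R1 L Tot : Type*} [CommRing A] [Field K] [Algebra A K]
    [Field F] [Algebra K F] [Algebra A F] [IsScalarTower A K F] [CommRing R1] [IsDomain R1]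
    [Field L] [Algebra R1 L] [IsFractionRing R1 L] [Algebra A R1] [Algebra K L] [Algebra A L]
    [IsScalarTower A K L] [IsScalarTower A R1 L] [CommRing Tot] [Algebra L Tot] [Algebra R1 Tot]
    [IsScalarTower R1 L Tot] [Module.Finite L Tot]
    (π : A)
    (hcontr : ∀ a : A, algebraMap A R1 π ∣ algebraMap A R1 a → π ∣ a)
    (n : ℕ) (e : Fin n → F) (he : ∀ i, IsIntegral A (e i)) (d0 : A)
    (hd0 : algebraMap A K d0 = (Matrix.of fun i j => Algebra.trace K F (e i * e j)).det)
    (hπd0 : ¬ π ∣ d0)
    (jF : F →+* Tot)
    (hjA : ∀ a : A, jF (algebraMap A F a) = algebraMap R1 Tot (algebraMap A R1 a))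
    (htr : ∀ f : F, Algebra.trace L Tot (jF f) = algebraMap K L (Algebra.trace K F f))
    (b : Fin n → Tot)
    (hspan : ∀ x : Tot, IsIntegral R1 x → x ∈ Submodule.span R1 (Set.range b)) (d : R1)
    (hd : algebraMap R1 L d = (Matrix.of fun i j => Algebra.trace L Tot (b i * b j)).det) :
    ¬ algebraMap A R1 π ∣ d := by
  classical
  have hint : ∀ i, IsIntegral R1 (jF (e i)) := fun i =>
    IsIntegral.map_of_comp_eq (algebraMap A R1) jF
      (RingHom.ext fun a => by simp only [RingHom.comp_apply, hjA]) (he i)
  have hmem : ∀ i, ∃ c : Fin n → R1, ∑ j, c j • b j = jF (e i) := fun i =>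
    (Submodule.mem_span_range_iff_exists_fun R1).1 (hspan _ (hint i))
  choose M hM using hmem
  have h1 := gram_det_of_combination (L := L) n (fun i => jF (e i)) b (Matrix.of M)
    (fun i => (hM i).symm)
  have h2 : (Matrix.of fun i j => Algebra.trace L Tot (jF (e i) * jF (e j))).det =
      algebraMap R1 L (algebraMap A R1 d0) := by
    rw [← IsScalarTower.algebraMap_apply, IsScalarTower.algebraMap_apply A K L, hd0,
      RingHom.map_det]
    congr 1
    ext i j
    simp only [RingHom.mapMatrix_apply, Matrix.map_apply, Matrix.of_apply]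
    rw [← map_mul, htr]
  rw [h2, ← hd, ← map_pow, ← map_mul] at h1
  have h3 := IsFractionRing.injective R1 L h1
  intro hdvd
  exact hπd0 (hcontr d0 (h3 ▸ Dvd.dvd.mul_left hdvd _))

end Fermat.Agent.S18.GramVert
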