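import Fermat.Agent.S18.IgusaPlan
import Fermat.Agent.S18.GramVert

/-!
# S18 [IGUSA] T5-V: the leaf `IgusaPlan.DiscVertStatement`

OWNER: helper55.  From `GramVert.gram_det_of_combination` (`d_c = det(M)² · d_b`).
-/

namespace Fermat.Agent.S18.IgusaDiscVLeaf

universe u

/-- **Leaf DiscVert** of `IgusaPlan`. -/
theorem discVertStatement : IgusaPlan.DiscVertStatement.{u} := by
  intro R1 L T _ _ _ _ _ _ _ _ _ _ π _ n c d hd hπd b hcb dB hdB hdvd
  have hmem : ∀ i, ∃ m : Fin n → R1, ∑ j, m j • b j = c i := fun i =>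
    (Submodule.mem_span_range_iff_exists_fun R1).1 (hcb i)
  choose M hM using hmem
  have h1 := GramVert.gram_det_of_combination (L := L) n c b (Matrix.of M)
    (fun i => (hM i).symm)
  have h2 : algebraMap R1 L d = algebraMap R1 L ((Matrix.of M).det ^ 2 * dB) := by
    rw [map_mul, map_pow, hd, hdB]
    exact h1
  have h3 : d = (Matrix.of M).det ^ 2 * dB := IsFractionRing.injective R1 L h2
  exact hπd (h3 ▸ Dvd.dvd.mul_left hdvd _)

end Fermat.Agent.S18.IgusaDiscVLeaf
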