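import Fermat.Agent.S18.IntClosedPair

/-!
# S18 / [IGUSA] assembly leaf T4 : the integral closure over a regular pair is free of full rank

Abstract form (Mathlib + `S18/IntClosedPair` only).  `R` a Noetherian local integrally closed
domain with fraction field `K` and maximal ideal `(π, s)`, `π` prime, `π ∤ s`; `T` a finite
`K`-algebra (not necessarily a field) whose integral closure `B := integralClosure R T` is a finite
`R`-module.  Then `B` is a free `R`-module of rank `finrank K T`, and every `R`-basis of `B` is a
`K`-basis of `T`.

In the [IGUSA] assembly: `R = R1 = O[X]_(π, X - c1)`, `K = L`, `T = Tot = L ⊗[Ky] F`,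
`finrank L Tot = n`.
-/

set_option autoImplicit false

namespace Fermat.Agent.S18.IgusaFree

open Submodule

section Basis

variable {R : Type*} (K : Type*) {T : Type*} [CommRing R] [IsDomain R] [Field K] [Algebra R K]
  [IsFractionRing R K] [CommRing T] [Algebra R T] [Algebra K T] [IsScalarTower R K T]

/-- Every element of a finite `K`-algebra has a nonzero `R`-multiple which is integral over `R`
(`K = Frac R`). -/
theorem exists_ne_zero_isIntegral_smul [Module.Finite K T] (t : T) :
    ∃ d : R, d ≠ 0 ∧ IsIntegral R (d • t) := by
  have hK : IsAlgebraic K t := (IsIntegral.of_finite K t).isAlgebraic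
  have hRK : Algebra.IsAlgebraic R K := IsLocalization.isAlgebraic K (nonZeroDivisors R)
  have hR : IsAlgebraic R t := hK.restrictScalars R
  obtain ⟨d, hd, hdt⟩ := hR.exists_integral_multiple
  exact ⟨d, hd, hdt⟩

/-- An `R`-basis of the integral closure of `R` in a finite `K`-algebra `T` is `K`-linearly
independent in `T`. -/
theorem linearIndependent_coe_basis {ι : Type*} (β : Module.Basis ι R (integralClosure R T)) :
    LinearIndependent K (fun i => ((β i : integralClosure R T) : T)) := by
  rw [← LinearIndependent.iff_fractionRing (R := R) (K := K)]
  have h := β.linearIndependent.map' ((integralClosure R T).val.toLinearMap)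
    (LinearMap.ker_eq_bot.mpr Subtype.val_injective)
  exact h

/-- An `R`-basis of the integral closure of `R` in a finite `K`-algebra `T` spans `T` over `K`. -/
theorem span_coe_basis_eq_top [Module.Finite K T] {ι : Type*}
    (β : Module.Basis ι R (integralClosure R T)) :
    span K (Set.range fun i => ((β i : integralClosure R T) : T)) = ⊤ := by
  rw [eq_top_iff]
  intro t _
  obtain ⟨d, hd, hdt⟩ := exists_ne_zero_isIntegral_smul (R := R) K t
  have hdK : algebraMap R K d ≠ 0 := (map_ne_zero_iff _ (IsFractionRing.injective R K)).mpr hd
  -- `d • t` is an `R`-combination of the basis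
  have hmem : d • t ∈ span R (Set.range fun i => ((β i : integralClosure R T) : T)) := by
    have h1 : (⟨d • t, hdt⟩ : integralClosure R T) ∈ span R (Set.range β) := by
      rw [β.span_eq]; trivial
    have h2 := Submodule.mem_map_of_mem (f := (integralClosure R T).val.toLinearMap) h1
    rw [Submodule.map_span, ← Set.range_comp] at h2
    exact h2
  have hmemK : d • t ∈ span K (Set.range fun i => ((β i : integralClosure R T) : T)) :=
    Submodule.span_le_restrictScalars R K _ hmem
  have ht : t = (algebraMap R K d)⁻¹ • (d • t) := by
    rw [← algebraMap_smul K d t, smul_smul, inv_mul_cancel₀ hdK, one_smul]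
  rw [ht]
  exact Submodule.smul_mem _ _ hmemK

/-- An `R`-basis of the integral closure is a `K`-basis of `T`. -/
noncomputable def basisOfBasis [Module.Finite K T] {ι : Type*}
    (β : Module.Basis ι R (integralClosure R T)) : Module.Basis ι K T :=
  Module.Basis.mk (linearIndependent_coe_basis K β) (span_coe_basis_eq_top K β).ge

theorem basisOfBasis_apply [Module.Finite K T] {ι : Type*}
    (β : Module.Basis ι R (integralClosure R T)) (i : ι) :
    basisOfBasis K β i = ((β i : integralClosure R T) : T) := by
  simp [basisOfBasis]

/-- The cardinality of an `R`-basis of the integral closure is `finrank K T`. -/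
theorem card_eq_finrank [Module.Finite K T] {ι : Type*} [Fintype ι]
    (β : Module.Basis ι R (integralClosure R T)) : Fintype.card ι = Module.finrank K T :=
  (Module.finrank_eq_card_basis (basisOfBasis K β)).symm

end Basis

section Main

variable {R : Type*} (K : Type*) {T : Type*} [CommRing R] [IsDomain R] [IsIntegrallyClosed R]
  [IsLocalRing R] [IsNoetherianRing R] [Field K] [Algebra R K] [IsFractionRing R K]
  [CommRing T] [Algebra R T] [Algebra K T] [IsScalarTower R K T] [Module.Finite K T]

/-- **[IGUSA] T4, abstract form.** Over a Noetherian local integrally closed domain `R` with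
maximal ideal `(π, s)`, `π` prime, `π ∤ s`, the integral closure of `R` in a finite `K`-algebra
`T`, if module-finite, has an `R`-basis indexed by `Fin (finrank K T)`. -/
theorem exists_basis_integralClosure (π s : R)
    (hm : IsLocalRing.maximalIdeal R = Ideal.span {π, s}) (hp : Prime π) (hps : ¬ π ∣ s)
    [Module.Finite R (integralClosure R T)] :
    Nonempty (Module.Basis (Fin (Module.finrank K T)) R (integralClosure R T)) := by
  have hfree : Module.Free R (integralClosure R T) :=
    IntClosedPair.free_integralClosure K π s hm hp hps
  let β := Module.Free.chooseBasis R (integralClosure R T)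
  have hcard : Fintype.card (Module.Free.ChooseBasisIndex R (integralClosure R T)) =
      Module.finrank K T := card_eq_finrank K β
  exact ⟨β.reindex (Fintype.equivFinOfCardEq hcard)⟩

/-- Same, returning the basis together with the induced `K`-basis of `T`. -/
theorem exists_basis_integralClosure' (π s : R)
    (hm : IsLocalRing.maximalIdeal R = Ideal.span {π, s}) (hp : Prime π) (hps : ¬ π ∣ s)
    [Module.Finite R (integralClosure R T)] :
    ∃ (β : Module.Basis (Fin (Module.finrank K T)) R (integralClosure R T))
      (b : Module.Basis (Fin (Module.finrank K T)) K T),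
      ∀ i, b i = ((β i : integralClosure R T) : T) := by
  obtain ⟨β⟩ := exists_basis_integralClosure K (T := T) π s hm hp hps
  exact ⟨β, basisOfBasis K β, basisOfBasis_apply K β⟩

end Main

end Fermat.Agent.S18.IgusaFree
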