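/-
S18 / [IGUSA] (owner: helper94): the three leaves of `IgusaPlan.locEt_of_leaves` that consume
`TraceDisc`:

* `traceInt : IgusaPlan.TraceIntStatement`  ← `TraceDisc.exists_algebraMap_eq_trace`;
* `locFree  : IgusaPlan.LocFreeStatement`   ← `TraceDisc.finite_integralClosure`
                                               + `IgusaFree.exists_basis_integralClosure'`;
* `locReg   : IgusaPlan.LocRegStatement`    ← `TraceDisc.isReduced_quotient_of_isUnit_discr`
                                               + `IgusaReg.exists_notMem_mul_mem_map`;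
* `locEt    : IgusaPlan.LocEtStatement`     = `IgusaPlan.locEt_of_leaves` applied to the five leaves.
-/
import Mathlib
import Fermat.Agent.S18.IgusaPlan
import Fermat.Agent.S18.TraceDisc
import Fermat.Agent.S18.IgusaFree
import Fermat.Agent.S18.IgusaReg
import Fermat.Agent.S18.IgusaDiscVLeaf
import Fermat.Agent.S18.IgusaDiscHLeaf

set_option autoImplicit false

namespace Fermat.Agent.S18.IgusaLocLeaves

open Module

universe u

/-- Leaf TraceInt. -/
theorem traceInt : IgusaPlan.TraceIntStatement.{u} := by
  intro R1 L T _ _ _ _ _ _ _ _ _ _ _ x hx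
  exact TraceDisc.exists_algebraMap_eq_trace hx

/-- A family of integral elements that is `L`-linearly independent and `R1`-spans the integral
elements is an `R1`-basis of the integral closure. -/
theorem exists_basis_of_family {R1 L T : Type*} [CommRing R1] [IsDomain R1]
    [Field L] [Algebra R1 L] [IsFractionRing R1 L] [CommRing T]
    [Algebra L T] [Algebra R1 T] [IsScalarTower R1 L T] {ι : Type*}
    (b : ι → T) (hb : ∀ i, IsIntegral R1 (b i)) (hbL : LinearIndependent L b)
    (hspan : ∀ x : T, IsIntegral R1 x → x ∈ Submodule.span R1 (Set.range b)) :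
    ∃ β : Basis ι R1 (integralClosure R1 T), ∀ i, ((β i : integralClosure R1 T) : T) = b i := by
  set b' : ι → integralClosure R1 T := fun i => ⟨b i, hb i⟩ with hb'
  have hli0 : LinearIndependent R1 b := by
    refine hbL.restrict_scalars ?_
    intro r r' h
    simp only [Algebra.smul_def, mul_one] at h
    exact IsFractionRing.injective R1 L h
  have hli : LinearIndependent R1 b' :=
    LinearIndependent.of_comp (integralClosure R1 T).val.toLinearMap hli0
  have hsp : ⊤ ≤ Submodule.span R1 (Set.range b') := by
    intro x _
    have h2 : (x : T) ∈ Submodule.map (integralClosure R1 T).val.toLinearMap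
        (Submodule.span R1 (Set.range b')) := by
      rw [Submodule.map_span, ← Set.range_comp]
      exact hspan x x.2
    obtain ⟨y, hy, hyx⟩ := h2
    have : y = x := Subtype.ext hyx
    exact this ▸ hy
  exact ⟨Basis.mk hli hsp, fun i => by rw [Basis.mk_apply]⟩

/-- Leaf LocFree. -/
theorem locFree : IgusaPlan.LocFreeStatement.{u} := by
  intro R1 L T _ _ _ _ _ _ _ _ _ _ _ _ _ π s hm hπ hπs n hn c hc hdet
  classical
  -- `c` is an `L`-basis of `T`
  have hcli : LinearIndependent L c := by
    by_contra h
    exact hdet (Algebra.discr_zero_of_not_linearIndependent L h)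
  have hcard : Fintype.card (Fin n) = Module.finrank L T := by
    rw [Fintype.card_fin, hn]
  let bc : Basis (Fin n) L T := basisOfLinearIndependentOfCardEqFinrank' c hcli hcard
  have hbc : ⇑bc = c := coe_basisOfLinearIndependentOfCardEqFinrank' c hcli hcard
  have hfin : Module.Finite R1 (integralClosure R1 T) := by
    refine TraceDisc.finite_integralClosure (E := L) bc ?_ ?_
    · intro i; rw [hbc]; exact hc i
    · rw [hbc]; exact hdet
  obtain ⟨β, bL, hβ⟩ := IgusaFree.exists_basis_integralClosure' L (T := T) π s hm hπ hπs
  subst hn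
  refine ⟨fun i => ((β i : integralClosure R1 T) : T), fun i => (β i).2, ?_, ?_⟩
  · have := bL.linearIndependent
    have h2 : ⇑bL = fun i => ((β i : integralClosure R1 T) : T) := funext hβ
    rw [h2] at this
    exact this
  · intro x hx
    have := TraceDisc.coe_eq_sum_repr β ⟨x, hx⟩
    change x = _ at this
    rw [this]
    exact Submodule.sum_mem _ fun i _ => Submodule.smul_mem _ _ (Submodule.subset_span ⟨i, rfl⟩)

/-- Leaf LocReg. -/
theorem locReg : IgusaPlan.LocRegStatement.{u} := by
  intro R1 L T _ _ _ _ _ _ _ _ _ _ _ _ _ π s hm n hn b hb hbL hspan u hu Q hQ z hz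
  classical
  obtain ⟨β, hβ⟩ := exists_basis_of_family (L := L) b hb hbL hspan
  have hfin : Module.Finite R1 (integralClosure R1 T) := Module.Finite.of_basis β
  have hred : IsReduced ((integralClosure R1 T) ⧸
      (IsLocalRing.maximalIdeal R1).map (algebraMap R1 (integralClosure R1 T))) := by
    refine TraceDisc.isReduced_quotient_of_isUnit_discr (E := L) β ⟨u, ?_⟩
    rw [hu]
    congr 1
    ext i j
    simp only [IgusaPlan.gram, Matrix.of_apply, hβ]
  have := hQ
  obtain ⟨-, hloc⟩ := IgusaReg.exists_notMem_mul_mem_map hred Q
  obtain ⟨w, hw, hwz⟩ := hloc z hz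
  refine ⟨w, hw, ?_⟩
  rw [hm, Ideal.map_span, Set.image_pair] at hwz
  exact hwz

/-- **LocEt**: the local étaleness statement, all leaves assembled. -/
theorem locEt : IgusaPlan.LocEtStatement.{u} :=
  IgusaPlan.locEt_of_leaves traceInt locFree IgusaDiscVLeaf.discVertStatement
    IgusaDiscHLeaf.discHorStatement locReg

end Fermat.Agent.S18.IgusaLocLeaves
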