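import Mathlib
import Fermat.Agent.S18.CoverLocRing
import Fermat.Agent.S18.CoverLocPi
import Fermat.Agent.S18.IgusaTop
import Fermat.Agent.S18.IgusaPlan
import Fermat.Agent.S18.IgusaLocLeaves
import Fermat.Agent.S18.TotTrace

/-!
# S18 team library, block [IGUSA]: the local étaleness statement at `R1 x c1`

OWNER: helper65 (only the owner edits this file).

Instantiation of `IgusaPlan.LocEtStatement` at the local ring `R1 x c1 ⊂ L` of the `x`-line
(`CoverLocDef`), with `T := L ⊗[Ky] F`:

* `vertHyp_of_vertInput` : `IgusaTop.VertInput` ⟹ `IgusaPlan.VertHyp L (L ⊗[Ky] F) (piR x c1 π) n`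
  (uses `trace_left` and `CoverLocPi.C_dvd_of_piR_dvd_ofA0`);
* `locGen` : `VertInput` + the horizontal hypothesis at every prime of `R1 x c1`
  ⟹ every maximal ideal of `integralClosure (R1 x c1) (L ⊗[Ky] F)` is locally generated by
  `(π, x − c1)` — exactly the hypothesis `hloc` of `IgusaRegAsm.leafReg_of_locGen`.

Consumes the landed `IgusaLocLeaves.locEt`, `TotTrace.finrank_left/trace_left`, `CoverLocRing`,
`CoverLocPi`; the horizontal hypothesis is the statement `HorGlueStatement` (proved in `HorGlue`).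
-/

set_option autoImplicit false

namespace Fermat.Agent.S18.IgusaRegLoc

open Polynomial TensorProduct Fermat.Agent.S18.CoverLocDef

/-- What `HorGlue` provides: the horizontal hypothesis of `LocEt` at every prime element of
`R1 x c1` not associated to `π`, at every admissible point `c1` over `y = c`. -/
def HorGlueStatement : Prop :=
  ∀ (O : Type) [CommRing O] [IsDomain O] [IsDiscreteValuationRing O] [CharZero O]
    [IsAlgClosed (IsLocalRing.ResidueField O)]
    (Ky F L : Type) [Field Ky] [Field F] [Field L]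
    [Algebra O[X] Ky] [IsFractionRing O[X] Ky]
    [Algebra Ky F] [Algebra O[X] F] [IsScalarTower O[X] Ky F] [FiniteDimensional Ky F]
    [Algebra Ky L] [Algebra O[X] L] [IsScalarTower O[X] Ky L]
    (x : L) (Num Den : O[X]) (π c : O) (φ : O →+* ℂ),
    Irreducible π → Function.Injective φ →
    IgusaTop.CoverDatum Ky x Num Den → IgusaTop.HorInput Ky F Num Den π c φ →
    ∀ c1 : O, π ∣ (Num - C c * Den).eval c1 → IsUnit (Den.eval c1) →
    ∀ p1 : R1 x c1, Prime p1 → ¬ Associated p1 (piR x c1 π) →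
      IgusaPlan.HorHypAt L (L ⊗[Ky] F) p1 (Module.finrank Ky F)

section

variable {O : Type} [CommRing O] [IsDomain O] [IsDiscreteValuationRing O]
  {Ky F L : Type} [Field Ky] [Field F] [Field L]
  [Algebra O[X] Ky]
  [Algebra Ky F] [Algebra O[X] F] [IsScalarTower O[X] Ky F] [FiniteDimensional Ky F]
  [Algebra Ky L] [Algebra O[X] L] [IsScalarTower O[X] Ky L]

/-- The vertical hypothesis of `LocEt` at `R1 x c1` from the vertical input `(S')`. -/
theorem vertHyp_of_vertInput
    (x : L) (Num Den : O[X]) (π : O) (hπ : Irreducible π)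
    (hcov : IgusaTop.CoverDatum Ky x Num Den) (hV : IgusaTop.VertInput Ky F π)
    (c1 : O) (hc1 : IsUnit (Den.eval c1)) :
    IgusaPlan.VertHyp L (L ⊗[Ky] F) (piR x c1 π) (Module.finrank Ky F) := by
  obtain ⟨e, d0, he, hd0, hπd0⟩ := hV
  refine ⟨fun i => (1 : L) ⊗ₜ[Ky] e i, fun i => ?_, ofA0 x c1 Num Den hcov.y_eq hc1 d0, ?_, ?_⟩
  · -- integrality
    have h1 : IsIntegral O[X] ((1 : L) ⊗ₜ[Ky] e i : L ⊗[Ky] F) :=
      (he i).map ((Algebra.TensorProduct.includeRight :
        F →ₐ[Ky] L ⊗[Ky] F).restrictScalars O[X])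
    exact isIntegral_R1_of_isIntegral x c1 Num Den hcov.y_eq hc1 h1
  · -- the Gram determinant
    have h2 : IgusaPlan.gram L (fun i => (1 : L) ⊗ₜ[Ky] e i) =
        (Matrix.of fun i j => Algebra.trace Ky F (e i * e j)).map (algebraMap Ky L) := by
      ext i j
      simp only [IgusaPlan.gram, Matrix.of_apply, Matrix.map_apply,
        Algebra.TensorProduct.tmul_mul_tmul, mul_one, TotTrace.trace_left]
    rw [h2, ← RingHom.mapMatrix_apply, ← RingHom.map_det, ← hd0,
      ← IsScalarTower.algebraMap_apply O[X] Ky L]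
    rfl
  · exact fun h => hπd0
      (CoverLocPi.C_dvd_of_piR_dvd_ofA0 x hcov.inj c1 π hπ Num Den hcov.y_eq hc1 hcov.lc
        hcov.deg d0 h)

/-- **Local generation at `R1 x c1`**: the hypothesis `hloc` of `IgusaRegAsm.leafReg_of_locGen`,
from `LocEt`, the vertical input and the horizontal hypothesis at the primes of `R1 x c1`. -/
theorem locGen
    (x : L) (Num Den : O[X]) (π : O) (hπ : Irreducible π)
    (hcov : IgusaTop.CoverDatum Ky x Num Den) (hV : IgusaTop.VertInput Ky F π)
    (c1 : O) (hc1 : IsUnit (Den.eval c1))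
    (hHor : ∀ p1 : R1 x c1, Prime p1 → ¬ Associated p1 (piR x c1 π) →
      IgusaPlan.HorHypAt L (L ⊗[Ky] F) p1 (Module.finrank Ky F))
    (Q1 : Ideal (integralClosure (R1 x c1) (L ⊗[Ky] F))) (hQ1 : Q1.IsMaximal) :
    ∀ z ∈ Q1, ∃ w, w ∉ Q1 ∧
      w * z ∈ Ideal.span
        {algebraMap (R1 x c1) (integralClosure (R1 x c1) (L ⊗[Ky] F)) (piR x c1 π),
          algebraMap (R1 x c1) (integralClosure (R1 x c1) (L ⊗[Ky] F)) (sR x c1)} := by
  have := CoverLocRing.isLocalRing_R1 x hcov.inj c1
  have := CoverLocRing.isNoetherianRing_R1 x hcov.inj c1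
  have := CoverLocRing.isIntegrallyClosed_R1 x hcov.inj c1
  have := CoverLocRing.isFractionRing_R1 x hcov.inj hcov.gen c1
  exact IgusaLocLeaves.locEt (piR x c1 π) (sR x c1) (CoverLocRing.maximalIdeal_R1 x hcov.inj c1 π hπ)
    (CoverLocRing.prime_piR x hcov.inj c1 π hπ) (CoverLocRing.not_piR_dvd_sR x hcov.inj c1 π hπ)
    (Module.finrank Ky F) TotTrace.finrank_left
    (vertHyp_of_vertInput x Num Den π hπ hcov hV c1 hc1) hHor Q1 hQ1

end

end Fermat.Agent.S18.IgusaRegLoc
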