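import Mathlib
import Fermat.Agent.S18.IgusaRegLoc
import Fermat.Agent.S18.IgusaRegAsm
import Fermat.Agent.S18.HorGlue

/-!
# S18 team library, block [IGUSA]: `regStatement : IgusaTop.RegStatement` (T6)

OWNER: helper65 (only the owner edits this file).

`CoverDatum + VertInput + HorInput ⟹ LeafReg`: every maximal ideal `Q` of
`B = integralClosure O[y] (L ⊗[Ky] F)` over `(π, y − c)` is locally generated by `π` and one
more element and has residue field `O/π`.

Assembly of
* `IgusaRegAsm.leafReg_of_locGen` (helper76): point `c1` of the `x`-line under `Q`, descent of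
  the local generation from `integralClosure (R1 x c1) (L ⊗[Ky] F)` to `B`, residue field;
* `IgusaRegLoc.locGen` (local étaleness `IgusaLocLeaves.locEt` at `R1 x c1`, vertical input);
* `HorGlue.horHypAt_of_horInput` (helper73): the horizontal hypothesis at the primes of `R1 x c1`.
-/

set_option autoImplicit false

namespace Fermat.Agent.S18.IgusaRegMain

open Polynomial TensorProduct Fermat.Agent.S18.CoverLocDef

/-- The horizontal glue in the `Prop` shape pinned in `IgusaRegLoc`. -/
theorem horGlue : IgusaRegLoc.HorGlueStatement := by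
  intro O _ _ _ _ _ Ky F L _ _ _ _ _ _ _ _ _ _ _ _ x Num Den π c φ hπ hφ hcov hH c1 h1 h2 p1
    hp1 hne
  exact HorGlue.horHypAt_of_horInput Ky F L x Num Den π c φ hπ hφ hcov hH c1 h1 h2 p1 hp1 hne

/-- **T6**: `CoverDatum + VertInput + HorInput ⟹ LeafReg`. -/
theorem regStatement : IgusaTop.RegStatement := by
  intro O _ _ _ _ _ Ky F L _ _ _ _ _ _ _ _ _ _ _ _ x Num Den π c φ hπ hφ hcov hV hH
  exact IgusaRegAsm.leafReg_of_locGen Ky F x Num Den π c hπ hcov.y_eq hcov.lc hcov.deg
    hcov.bezout
    (fun c1 h1 h2 Q1 hQ1 => IgusaRegLoc.locGen x Num Den π hπ hcov hV c1 h2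
      (fun p1 hp1 hne =>
        HorGlue.horHypAt_of_horInput Ky F L x Num Den π c φ hπ hφ hcov hH c1 h1 h2 p1 hp1 hne)
      Q1 hQ1)

end Fermat.Agent.S18.IgusaRegMain
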