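import Mathlib
import Fermat.Agent.S18.IgusaRegMain
import Fermat.Agent.S18.IgusaDescent

/-!
# S18 team library, block [IGUSA]: the abstract Igusa theorem `igusaAbs : IgusaTop.IgusaAbs`

OWNER: helper65 (only the owner edits this file).

`CoverDatum + VertInput + HorInput ⟹ Conclusion` (I3 at the points over `y = c`), from
`IgusaRegMain.regStatement` (T6) and `IgusaDescent.descentStatement` (T7, helper19).
-/

set_option autoImplicit false

namespace Fermat.Agent.S18.IgusaAbsMain

/-- **The abstract Igusa theorem.** -/
theorem igusaAbs : IgusaTop.IgusaAbs :=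
  IgusaTop.igusaAbs_of IgusaRegMain.regStatement IgusaDescent.descentStatement

end Fermat.Agent.S18.IgusaAbsMain
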