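import Mathlib

namespace Fermat.Agent.S18.ResAlg

open Polynomial

theorem exists_sub_mem_of_isIntegral {O E : Type*} [CommRing O] [IsLocalRing O]
    [IsAlgClosed (IsLocalRing.ResidueField O)] [Field E] [Algebra O E]
    (R : Subalgebra O E) (t : E) (ht : t ∈ R)
    (hint : ∀ x ∈ R, IsIntegral (Algebra.adjoin O {t}) x)
    (n : Ideal R) (hn : n.IsMaximal)
    (hπ : ∀ a ∈ IsLocalRing.maximalIdeal O, algebraMap O R a ∈ n) :
    ∃ c : O, (⟨t, ht⟩ : R) - algebraMap O R c ∈ n := by
  classical
  let _ : Field (R ⧸ n) := Ideal.Quotient.field n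
  have hSR : Algebra.adjoin O {t} ≤ R := Algebra.adjoin_le (Set.singleton_subset_iff.mpr ht)
  let q : R →ₐ[O] (R ⧸ n) := Ideal.Quotient.mkₐ O n
  let inc : Algebra.adjoin O {t} →ₐ[O] R := Subalgebra.inclusion hSR
  let g : Algebra.adjoin O {t} →ₐ[O] (R ⧸ n) := q.comp inc
  let tS : Algebra.adjoin O {t} := ⟨t, Algebra.subset_adjoin rfl⟩
  let tb : R ⧸ n := q ⟨t, ht⟩
  have htb : g tS = tb := rfl
  -- every element of the quotient is integral over the image of `g`
  have h1 : ∀ z : R ⧸ n, ∃ p : (Algebra.adjoin O {t})[X], p.Monic ∧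
      Polynomial.eval₂ (g : Algebra.adjoin O {t} →+* (R ⧸ n)) z p = 0 := by
    intro z
    obtain ⟨x, rfl⟩ := Ideal.Quotient.mk_surjective z
    obtain ⟨p, hp, hpx⟩ := hint x.1 x.2
    refine ⟨p, hp, ?_⟩
    have h0 : Polynomial.eval₂ (inc : Algebra.adjoin O {t} →+* R) x p = 0 := by
      apply Subtype.ext
      have h := Polynomial.hom_eval₂ p (inc : Algebra.adjoin O {t} →+* R)
        (R.val : R →+* E) x
      have hcomp : (R.val : R →+* E).comp (inc : Algebra.adjoin O {t} →+* R)
          = algebraMap (Algebra.adjoin O {t}) E := by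
        ext s
        rfl
      rw [hcomp] at h
      change (R.val : R →+* E) (Polynomial.eval₂ (inc : Algebra.adjoin O {t} →+* R) x p) = 0
      rw [h]
      exact hpx
    have h := Polynomial.hom_eval₂ p (inc : Algebra.adjoin O {t} →+* R)
      (q : R →+* (R ⧸ n)) x
    rw [h0, map_zero] at h
    exact h.symm
  -- the image of `g` is a field
  let B : Subalgebra O (R ⧸ n) := g.range
  have hBint : Algebra.IsIntegral B (R ⧸ n) := by
    refine ⟨fun z => ?_⟩
    obtain ⟨p, hp, hpz⟩ := h1 z
    refine ⟨p.map (g.rangeRestrict : Algebra.adjoin O {t} →+* B), hp.map _, ?_⟩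
    rw [Polynomial.eval₂_map]
    exact hpz
  have hBfield : IsField B :=
    isField_of_isIntegral_of_isField (R := B) (S := R ⧸ n) Subtype.val_injective
      (Field.toIsField (R ⧸ n))
  -- reduce to algebraicity of `tb` over the residue field
  let ψ : O →+* (R ⧸ n) := algebraMap O (R ⧸ n)
  have hψ : ∀ a : O, a ∈ IsLocalRing.maximalIdeal O → ψ a = 0 := by
    intro a ha
    exact Ideal.Quotient.eq_zero_iff_mem.mpr (hπ a ha)
  let ψk : IsLocalRing.ResidueField O →+* (R ⧸ n) :=
    Ideal.Quotient.lift (IsLocalRing.maximalIdeal O) ψ hψ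
  let _ : Algebra (IsLocalRing.ResidueField O) (R ⧸ n) := ψk.toAlgebra
  have hψk : ∀ c : O, ψk (IsLocalRing.residue O c) = q (algebraMap O R c) := fun c => rfl
  have key : ∃ cb : IsLocalRing.ResidueField O, ψk cb = tb := by
    by_cases h0 : tb = 0
    · exact ⟨0, by rw [map_zero, h0]⟩
    · have htB : (⟨tb, ⟨tS, htb⟩⟩ : B) ≠ 0 := by
        intro h
        exact h0 (congrArg Subtype.val h)
      obtain ⟨y, hy⟩ := hBfield.mul_inv_cancel htB
      obtain ⟨s, hs⟩ := y.2
      have hsmem : (s : E) ∈ (Polynomial.aeval (R := O) t).range := by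
        rw [← Algebra.adjoin_singleton_eq_range_aeval]
        exact s.2
      obtain ⟨f, hf⟩ := hsmem
      have hfs : Polynomial.aeval tS f = s := by
        apply Subtype.ext
        have h := Polynomial.aeval_algHom_apply (Algebra.adjoin O {t}).val tS f
        rw [← hf]
        exact h.symm
      have hgf : Polynomial.aeval tb f = (y : R ⧸ n) := by
        rw [← htb, Polynomial.aeval_algHom_apply g tS f, hfs]
        exact hs
      have hmul : tb * Polynomial.aeval tb f = 1 := by
        rw [hgf]
        exact congrArg Subtype.val hy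
      let G : O[X] := X * f - 1
      have hG0 : G.coeff 0 = -1 := by
        simp only [G, Polynomial.coeff_sub, Polynomial.coeff_X_mul_zero, Polynomial.coeff_one_zero,
          zero_sub]
      have hGt : Polynomial.aeval tb G = 0 := by
        simp only [G, map_sub, map_mul, Polynomial.aeval_X, map_one]
        rw [hmul, sub_self]
      let Gk : (IsLocalRing.ResidueField O)[X] := G.map (IsLocalRing.residue O)
      have hGk0 : Gk ≠ 0 := by
        intro h
        have hc : Gk.coeff 0 = -1 := by
          simp only [Gk, Polynomial.coeff_map, hG0, map_neg, map_one]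
        rw [h, Polynomial.coeff_zero] at hc
        exact one_ne_zero (neg_eq_zero.mp hc.symm)
      have hGkt : Polynomial.aeval tb Gk = 0 := by
        have hcomp : ψk.comp (IsLocalRing.residue O) = ψ := by
          ext c
          rfl
        change Polynomial.eval₂ ψk tb (G.map (IsLocalRing.residue O)) = 0
        rw [Polynomial.eval₂_map, hcomp]
        exact hGt
      have halg : IsAlgebraic (IsLocalRing.ResidueField O) tb := ⟨Gk, hGk0, hGkt⟩
      have hint' : IsIntegral (IsLocalRing.ResidueField O) tb := halg.isIntegral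
      have hdeg : (minpoly (IsLocalRing.ResidueField O) tb).degree = 1 :=
        IsAlgClosed.degree_eq_one_of_irreducible _ (minpoly.irreducible hint')
      obtain ⟨cb, hcb⟩ := minpoly.mem_range_of_degree_eq_one _ _ hdeg
      exact ⟨cb, hcb⟩
  obtain ⟨cb, hcb⟩ := key
  obtain ⟨c, rfl⟩ := IsLocalRing.residue_surjective cb
  refine ⟨c, ?_⟩
  rw [hψk] at hcb
  exact Ideal.Quotient.eq.mp hcb.symm

end Fermat.Agent.S18.ResAlg
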