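import Fermat.Agent.S18.ArithPlan
import Fermat.Agent.S18.BaseRes

namespace Fermat.Agent.S18.ResOK

open Fermat.Agent.S18.Arith

theorem isAlgClosed_residueField_OK (ℓ : ℕ) [Fact ℓ.Prime]
    (A : ValuationSubring Qb) (K : IntermediateField ℚ Qb) (hB : BaseFacts ℓ A K) :
    IsAlgClosed (IsLocalRing.ResidueField (OK A K)) := by
  have hAC : IsAlgClosed (IsLocalRing.ResidueField A) :=
    Fermat.Agent.S18.BaseRes.isAlgClosed_residueField_Qb A
  -- the residue map `O → k_A` is onto
  have hsurj : Function.Surjective (resO A K) := by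
    intro b
    obtain ⟨a, rfl⟩ := IsLocalRing.residue_surjective b
    obtain ⟨x, hx, hax⟩ := hB.res_surj a
    exact ⟨⟨x, ValuationSubring.mem_comap.mpr hx⟩, hax.symm⟩
  -- its kernel is contained in the maximal ideal of `O`
  have hker : ∀ y : OK A K, resO A K y = 0 → IsLocalRing.residue (OK A K) y = 0 := by
    intro y hy
    rw [IsLocalRing.residue_eq_zero_iff, IsLocalRing.mem_maximalIdeal, mem_nonunits_iff]
    intro hu
    exact (hu.map (resO A K)).ne_zero hy
  refine IsAlgClosed.of_exists_root _ fun p hp hirr => ?_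
  have hlift : p ∈ Polynomial.lifts (IsLocalRing.residue (OK A K)) :=
    (Polynomial.mem_lifts p).2 (Polynomial.map_surjective _ IsLocalRing.residue_surjective p)
  obtain ⟨P, hPmap, hPdeg, hPmonic⟩ := Polynomial.lifts_and_degree_eq_and_monic hlift hp
  have hdeg : (P.map (resO A K)).degree ≠ 0 := by
    rw [hPmonic.degree_map (resO A K), hPdeg]
    exact (Polynomial.degree_pos_of_irreducible hirr).ne'
  obtain ⟨b, hb⟩ := IsAlgClosed.exists_root (P.map (resO A K)) hdeg
  obtain ⟨x, rfl⟩ := hsurj b
  refine ⟨IsLocalRing.residue (OK A K) x, ?_⟩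
  rw [← hPmap, Polynomial.eval_map, Polynomial.eval₂_hom]
  apply hker
  rw [Polynomial.IsRoot, Polynomial.eval_map, Polynomial.eval₂_hom] at hb
  exact hb

end Fermat.Agent.S18.ResOK
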