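import Mathlib

/-!
# Transfer of the two-generator property between two glued charts

Two charts `R0 ∋ j` and `Rinf ∋ j⁻¹` inside a field `E`, glued along `j`.  A maximal ideal
`n` of `Rinf` at which `j⁻¹` does not vanish also lives on `R0`, and the two-generator
property of maximal ideals is transferred from `R0` to `Rinf`.
-/

namespace Fermat.Agent.S18.Transfer

variable {O E : Type*} [CommRing O] [Field E] [Algebra O E]

/-- Membership in an ideal of a subalgebra, as a predicate on the ambient field. -/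
def MemN (Rinf : Subalgebra O E) (n : Ideal Rinf) (x : E) : Prop :=
  ∃ hx : x ∈ Rinf, (⟨x, hx⟩ : Rinf) ∈ n

theorem memN_coe {Rinf : Subalgebra O E} {n : Ideal Rinf} {x : Rinf} (hx : x ∈ n) :
    MemN Rinf n (x : E) :=
  ⟨x.2, hx⟩

theorem memN_zero (Rinf : Subalgebra O E) (n : Ideal Rinf) : MemN Rinf n 0 :=
  ⟨Rinf.zero_mem, n.zero_mem⟩

theorem memN_add {Rinf : Subalgebra O E} {n : Ideal Rinf} {x y : E}
    (hx : MemN Rinf n x) (hy : MemN Rinf n y) : MemN Rinf n (x + y) := by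
  obtain ⟨hx1, hx2⟩ := hx
  obtain ⟨hy1, hy2⟩ := hy
  exact ⟨Rinf.add_mem hx1 hy1, n.add_mem hx2 hy2⟩

theorem memN_mul_left {Rinf : Subalgebra O E} {n : Ideal Rinf} {r x : E}
    (hr : r ∈ Rinf) (hx : MemN Rinf n x) : MemN Rinf n (r * x) := by
  obtain ⟨hx1, hx2⟩ := hx
  exact ⟨Rinf.mul_mem hr hx1, n.mul_mem_left ⟨r, hr⟩ hx2⟩

theorem memN_mul_right {Rinf : Subalgebra O E} {n : Ideal Rinf} {r x : E}
    (hx : MemN Rinf n x) (hr : r ∈ Rinf) : MemN Rinf n (x * r) := by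
  obtain ⟨hx1, hx2⟩ := hx
  exact ⟨Rinf.mul_mem hx1 hr, n.mul_mem_right ⟨r, hr⟩ hx2⟩

/-- The contraction of the ideal `n` of the chart `Rinf` to the chart `R0`. -/
def chartIdeal (R0 Rinf : Subalgebra O E) (j : E) (jinv_mem : j⁻¹ ∈ Rinf)
    (glue0 : ∀ x ∈ R0, ∃ n : ℕ, x * j⁻¹ ^ n ∈ Rinf) (n : Ideal Rinf) : Ideal R0 where
  carrier := {x : R0 | ∃ k : ℕ, MemN Rinf n ((x : E) * j⁻¹ ^ k)}
  zero_mem' := by
    refine ⟨0, ?_⟩
    have h : ((0 : R0) : E) * j⁻¹ ^ 0 = 0 := by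
      rw [Subalgebra.coe_zero, zero_mul]
    rw [h]
    exact memN_zero Rinf n
  add_mem' := by
    rintro x y ⟨k, hk⟩ ⟨l, hl⟩
    refine ⟨k + l, ?_⟩
    have h : ((x + y : R0) : E) * j⁻¹ ^ (k + l)
        = (x : E) * j⁻¹ ^ k * j⁻¹ ^ l + (y : E) * j⁻¹ ^ l * j⁻¹ ^ k := by
      rw [Subalgebra.coe_add]
      ring
    rw [h]
    exact memN_add (memN_mul_right hk (pow_mem jinv_mem l))
      (memN_mul_right hl (pow_mem jinv_mem k))
  smul_mem' := by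
    rintro r x ⟨k, hk⟩
    obtain ⟨a, ha⟩ := glue0 r r.2
    refine ⟨a + k, ?_⟩
    have h : ((r • x : R0) : E) * j⁻¹ ^ (a + k)
        = (r : E) * j⁻¹ ^ a * ((x : E) * j⁻¹ ^ k) := by
      rw [smul_eq_mul, Subalgebra.coe_mul]
      ring
    rw [h]
    exact memN_mul_left ha hk

theorem mem_chartIdeal {R0 Rinf : Subalgebra O E} {j : E} {jinv_mem : j⁻¹ ∈ Rinf}
    {glue0 : ∀ x ∈ R0, ∃ n : ℕ, x * j⁻¹ ^ n ∈ Rinf} {n : Ideal Rinf} (x : R0) :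
    x ∈ chartIdeal R0 Rinf j jinv_mem glue0 n ↔ ∃ k : ℕ, MemN Rinf n ((x : E) * j⁻¹ ^ k) :=
  Iff.rfl

theorem igusa_transfer {O E : Type*} [CommRing O] [Field E] [Algebra O E]
    (R0 Rinf : Subalgebra O E) (j : E) (π : O)
    (j_mem : j ∈ R0) (jinv_mem : j⁻¹ ∈ Rinf)
    (glue0 : ∀ x ∈ R0, ∃ n : ℕ, x * j⁻¹ ^ n ∈ Rinf)
    (glueInf : ∀ x ∈ Rinf, ∃ n : ℕ, x * j ^ n ∈ R0)
    (n : Ideal Rinf) (hn : n.IsMaximal) (hπ : algebraMap O Rinf π ∈ n)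
    (hj : (⟨j⁻¹, jinv_mem⟩ : Rinf) ∉ n)
    (c : O) (hc : (⟨j⁻¹, jinv_mem⟩ : Rinf) - algebraMap O Rinf c ∈ n)
    (h0 : ∀ n' : Ideal R0, n'.IsMaximal → algebraMap O R0 π ∈ n' →
      ∃ t ∈ n', ∀ x ∈ n', ∃ c : R0, c ∉ n' ∧ c * x ∈ Ideal.span {algebraMap O R0 π, t}) :
    ∃ t ∈ n, ∀ x ∈ n, ∃ c : Rinf, c ∉ n ∧ c * x ∈ Ideal.span {algebraMap O Rinf π, t} := by
  have _hjmem := j_mem
  have hprime : n.IsPrime := hn.isPrime
  have hj0 : j ≠ 0 := by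
    intro hzero
    apply hj
    have hz : (⟨j⁻¹, jinv_mem⟩ : Rinf) = 0 := by
      apply Subtype.ext
      show j⁻¹ = 0
      rw [hzero, inv_zero]
    rw [hz]
    exact n.zero_mem
  have hjj : ∀ m : ℕ, j ^ m * j⁻¹ ^ m = 1 := by
    intro m
    rw [← mul_pow, mul_inv_cancel₀ hj0, one_pow]
  -- powers of `j⁻¹` are not in `n`
  have hpow : ∀ m : ℕ, ¬ MemN Rinf n (j⁻¹ ^ m) := by
    intro m hm
    obtain ⟨h1, h2⟩ := hm
    have h3 : (⟨j⁻¹, jinv_mem⟩ : Rinf) ^ m ∈ n := by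
      have h4 : (⟨j⁻¹, jinv_mem⟩ : Rinf) ^ m = ⟨j⁻¹ ^ m, h1⟩ := by
        apply Subtype.ext
        rw [Subalgebra.coe_pow]
      rw [h4]
      exact h2
    exact hj (hprime.mem_of_pow_mem m h3)
  have hmem' : ∀ x : R0, x ∈ chartIdeal R0 Rinf j jinv_mem glue0 n ↔
      ∃ k : ℕ, MemN Rinf n ((x : E) * j⁻¹ ^ k) := fun x => Iff.rfl
  -- the uniformiser lies in the contracted ideal
  have hπ' : algebraMap O R0 π ∈ chartIdeal R0 Rinf j jinv_mem glue0 n := by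
    rw [hmem']
    refine ⟨0, ?_⟩
    have h : ((algebraMap O R0 π : R0) : E) * j⁻¹ ^ 0 = ((algebraMap O Rinf π : Rinf) : E) := by
      rw [pow_zero, mul_one, Subalgebra.coe_algebraMap, Subalgebra.coe_algebraMap]
    rw [h]
    exact memN_coe hπ
  -- the contracted ideal is proper
  have h1 : (1 : R0) ∉ chartIdeal R0 Rinf j jinv_mem glue0 n := by
    rw [hmem']
    rintro ⟨k, hk⟩
    apply hpow k
    have h : ((1 : R0) : E) * j⁻¹ ^ k = j⁻¹ ^ k := by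
      rw [Subalgebra.coe_one, one_mul]
    rw [h] at hk
    exact hk
  -- the contracted ideal is maximal
  have hmax : (chartIdeal R0 Rinf j jinv_mem glue0 n).IsMaximal := by
    rw [Ideal.isMaximal_iff]
    refine ⟨h1, ?_⟩
    intro J y hIJ hyI hyJ
    obtain ⟨k, hk⟩ := glue0 y y.2
    have ha : (⟨(y : E) * j⁻¹ ^ k, hk⟩ : Rinf) ∉ n := by
      intro h
      exact hyI ((hmem' y).2 ⟨k, hk, h⟩)
    obtain ⟨z, i, hi, hzi⟩ := hn.exists_inv ha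
    obtain ⟨l, hl⟩ := glueInf z z.2
    have hW : z * ⟨(y : E) * j⁻¹ ^ k, hk⟩ * (algebraMap O Rinf c) ^ (k + l)
        - (⟨j⁻¹, jinv_mem⟩ : Rinf) ^ (k + l) ∈ n := by
      obtain ⟨d, hd⟩ :=
        sub_dvd_pow_sub_pow (⟨j⁻¹, jinv_mem⟩ : Rinf) (algebraMap O Rinf c) (k + l)
      have hd' : (⟨j⁻¹, jinv_mem⟩ : Rinf) ^ (k + l) - (algebraMap O Rinf c) ^ (k + l) ∈ n := by
        rw [hd]
        exact n.mul_mem_right d hc
      have hza : z * ⟨(y : E) * j⁻¹ ^ k, hk⟩ = 1 - i := by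
        rw [← hzi]
        ring
      rw [hza]
      have hrw : (1 - i) * (algebraMap O Rinf c) ^ (k + l) - (⟨j⁻¹, jinv_mem⟩ : Rinf) ^ (k + l)
          = -((⟨j⁻¹, jinv_mem⟩ : Rinf) ^ (k + l) - (algebraMap O Rinf c) ^ (k + l))
            - i * (algebraMap O Rinf c) ^ (k + l) := by
        ring
      rw [hrw]
      exact n.sub_mem (n.neg_mem hd') (n.mul_mem_right _ hi)
    have hT : y * (⟨(z : E) * j ^ l, hl⟩ * (algebraMap O R0 c) ^ (k + l)) - 1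
        ∈ chartIdeal R0 Rinf j jinv_mem glue0 n := by
      rw [hmem']
      refine ⟨k + l, ?_⟩
      have h : ((y * (⟨(z : E) * j ^ l, hl⟩ * (algebraMap O R0 c) ^ (k + l)) - 1 : R0) : E)
            * j⁻¹ ^ (k + l)
          = ((z * ⟨(y : E) * j⁻¹ ^ k, hk⟩ * (algebraMap O Rinf c) ^ (k + l)
              - (⟨j⁻¹, jinv_mem⟩ : Rinf) ^ (k + l) : Rinf) : E) := by
        rw [Subalgebra.coe_sub, Subalgebra.coe_mul, Subalgebra.coe_mul, Subalgebra.coe_pow,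
          Subalgebra.coe_one, Subalgebra.coe_algebraMap, Subalgebra.coe_sub, Subalgebra.coe_mul,
          Subalgebra.coe_mul, Subalgebra.coe_pow, Subalgebra.coe_pow, Subalgebra.coe_algebraMap]
        show ((y : E) * ((z : E) * j ^ l * (algebraMap O E c) ^ (k + l)) - 1) * j⁻¹ ^ (k + l)
          = (z : E) * ((y : E) * j⁻¹ ^ k) * (algebraMap O E c) ^ (k + l) - j⁻¹ ^ (k + l)
        linear_combination ((y : E) * (z : E) * (algebraMap O E c) ^ (k + l) * j⁻¹ ^ k) * hjj l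
      rw [h]
      exact memN_coe hW
    have hT' := hIJ hT
    have h1eq : (1 : R0) = y * (⟨(z : E) * j ^ l, hl⟩ * (algebraMap O R0 c) ^ (k + l))
        - (y * (⟨(z : E) * j ^ l, hl⟩ * (algebraMap O R0 c) ^ (k + l)) - 1) := by
      ring
    rw [h1eq]
    exact J.sub_mem (J.mul_mem_right _ hyJ) hT'
  -- apply the hypothesis on the chart `R0`
  obtain ⟨t', ht', hgen⟩ := h0 (chartIdeal R0 Rinf j jinv_mem glue0 n) hmax hπ'
  obtain ⟨l0, ht1, ht2⟩ := (hmem' t').1 ht'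
  refine ⟨⟨(t' : E) * j⁻¹ ^ l0, ht1⟩, ht2, ?_⟩
  intro x hx
  obtain ⟨a, ha⟩ := glueInf x x.2
  have hX : (⟨(x : E) * j ^ a, ha⟩ : R0) ∈ chartIdeal R0 Rinf j jinv_mem glue0 n := by
    rw [hmem']
    refine ⟨a, ?_⟩
    have h : ((⟨(x : E) * j ^ a, ha⟩ : R0) : E) * j⁻¹ ^ a = (x : E) := by
      show (x : E) * j ^ a * j⁻¹ ^ a = (x : E)
      rw [mul_assoc, hjj a, mul_one]
    rw [h]
    exact memN_coe hx
  obtain ⟨c', hc', hspan⟩ := hgen _ hX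
  rw [Ideal.mem_span_pair] at hspan
  obtain ⟨p, s, hps⟩ := hspan
  obtain ⟨e, he⟩ := glue0 c' c'.2
  obtain ⟨f, hf⟩ := glue0 p p.2
  obtain ⟨g, hg⟩ := glue0 s s.2
  have hpsE : (p : E) * algebraMap O E π + (s : E) * (t' : E)
      = (c' : E) * ((x : E) * j ^ a) := by
    have h := congrArg (fun w : R0 => (w : E)) hps
    simp only [Subalgebra.coe_add, Subalgebra.coe_mul, Subalgebra.coe_algebraMap] at h
    exact h
  refine ⟨⟨(c' : E) * j⁻¹ ^ e, he⟩ * (⟨j⁻¹, jinv_mem⟩ : Rinf) ^ (f + g + l0), ?_, ?_⟩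
  · intro hcc
    rcases hprime.mem_or_mem hcc with h | h
    · exact hc' ((hmem' c').2 ⟨e, he, h⟩)
    · exact hj (hprime.mem_of_pow_mem _ h)
  · rw [Ideal.mem_span_pair]
    refine ⟨⟨(p : E) * j⁻¹ ^ f, hf⟩ * (⟨j⁻¹, jinv_mem⟩ : Rinf) ^ (a + e + g + l0),
      ⟨(s : E) * j⁻¹ ^ g, hg⟩ * (⟨j⁻¹, jinv_mem⟩ : Rinf) ^ (a + e + f), ?_⟩
    apply Subtype.ext
    rw [Subalgebra.coe_add, Subalgebra.coe_mul, Subalgebra.coe_mul, Subalgebra.coe_pow,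
      Subalgebra.coe_algebraMap, Subalgebra.coe_mul, Subalgebra.coe_mul, Subalgebra.coe_pow,
      Subalgebra.coe_mul, Subalgebra.coe_mul, Subalgebra.coe_pow]
    show (p : E) * j⁻¹ ^ f * j⁻¹ ^ (a + e + g + l0) * algebraMap O E π
        + (s : E) * j⁻¹ ^ g * j⁻¹ ^ (a + e + f) * ((t' : E) * j⁻¹ ^ l0)
      = (c' : E) * j⁻¹ ^ e * j⁻¹ ^ (f + g + l0) * (x : E)
    linear_combination (j⁻¹ ^ (a + e + f + g + l0)) * hpsE
      + ((c' : E) * (x : E) * j⁻¹ ^ (e + f + g + l0)) * hjj a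

end Fermat.Agent.S18.Transfer
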