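/-
S18 — IgusaTransfer.lean (helper29, [GLUE]): the chart-at-infinity transfer of the Igusa
statement.  The closed points of the special fibre of `Rinf` at which `j⁻¹` does not vanish lie
on the chart `R0`; hence `IgusaAt` for `Rinf` follows from `IgusaAt` for `R0` and the cusp case
(the maximal ideals of `Rinf` containing `j⁻¹`).

Abstract inputs: `Transfer.igusa_transfer`, `ResAlg.exists_sub_mem_of_isIntegral`,
`ResOK.isAlgClosed_residueField_OK`.
-/
import Fermat.Agent.S18.ArithPlan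
import Fermat.Agent.S18.Transfer
import Fermat.Agent.S18.ResAlg
import Fermat.Agent.S18.ResOK

set_option autoImplicit false

namespace Fermat.Agent.S18.IgusaTransfer

open Fermat.Agent.S18.Arith

/-- `IgusaAt` for the chart `Rinf`, from `IgusaAt` for `R0` and the cusp case. -/
theorem igusaAt_inf (N : ℕ) [NeZero N] (ℓ : ℕ) [Fact ℓ.Prime] (A : ValuationSubring Qb)
    (K : IntermediateField ℚ Qb) (hB : BaseFacts ℓ A K) (hM : ModelFacts N ℓ A K)
    (h0 : IgusaAt N A K (R0 N ℓ A K))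
    (hcusp : ∀ π : OK A K, Irreducible π → ∀ n : Ideal (Rinf N ℓ A K), n.IsMaximal →
      algebraMap (OK A K) (Rinf N ℓ A K) π ∈ n →
      (⟨(jK N K)⁻¹, hM.cInf.t_mem⟩ : Rinf N ℓ A K) ∈ n →
      ∃ t ∈ n, ∀ x ∈ n, ∃ c : Rinf N ℓ A K, c ∉ n ∧
        c * x ∈ Ideal.span {algebraMap (OK A K) (Rinf N ℓ A K) π, t}) :
    IgusaAt N A K (Rinf N ℓ A K) := by
  intro π hπ n hn hπn
  by_cases hj : (⟨(jK N K)⁻¹, hM.cInf.t_mem⟩ : Rinf N ℓ A K) ∈ n
  · exact hcusp π hπ n hn hπn hj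
  · have := hB.dvr
    have := ResOK.isAlgClosed_residueField_OK ℓ A K hB
    have hmax : ∀ a ∈ IsLocalRing.maximalIdeal (OK A K),
        algebraMap (OK A K) (Rinf N ℓ A K) a ∈ n := by
      intro a ha
      rw [hπ.maximalIdeal_eq, Ideal.mem_span_singleton'] at ha
      obtain ⟨b, rfl⟩ := ha
      rw [map_mul]
      exact n.mul_mem_left _ hπn
    obtain ⟨c, hc⟩ := ResAlg.exists_sub_mem_of_isIntegral (Rinf N ℓ A K) (jK N K)⁻¹
      hM.cInf.t_mem hM.cInf.integral n hn hmax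
    exact Transfer.igusa_transfer (R0 N ℓ A K) (Rinf N ℓ A K) (jK N K) π hM.c0.t_mem
      hM.cInf.t_mem hM.glue0 hM.glueInf n hn hπn hj c hc (h0 π hπ)

end Fermat.Agent.S18.IgusaTransfer
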