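import Mathlib
import Fermat.Agent.S18.IgusaTop
import Fermat.Agent.S18.KummerChart

/-!
# S18 : the Kummer cover as a `CoverDatum` (bridge (B-C) for the chart `y = 1/j`, `c = 0`)

`coverDatum`: for a domain `O` of characteristic zero containing a primitive `N`-th root of
unity, the Kummer cover `y = x ^ N` (field `CoverGen.CoverField (KummerChart.data O N hN)`,
coordinate `CoverGen.xc _`) is an `IgusaTop.CoverDatum` with `Num = X ^ N`, `Den = 1`.

`coverDatum_of_ratData`: the generic part — any `CoverGen.RatData` with unit leading
coefficient, a Bézout relation and `IsGalois` gives an `IgusaTop.CoverDatum`.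
-/

set_option autoImplicit false

namespace Fermat.Agent.S18.KummerDatum

open Polynomial
open Fermat.Agent.S18

universe u

variable {O : Type u} [CommRing O] [IsDomain O]

/-- Generic: a rational cover with unit leading coefficient of `Num`, `gcd(Num, Den) = 1` and
Galois cover field is a `CoverDatum`. -/
theorem coverDatum_of_ratData (d : CoverGen.RatData O) (hlc : IsUnit d.Num.leadingCoeff)
    (hbez : ∃ a b : O[X], a * d.Num + b * d.Den = 1)
    (hgal : IsGalois (FractionRing O[X]) (CoverGen.CoverField d)) :
    IgusaTop.CoverDatum (FractionRing O[X]) (CoverGen.xc d) d.Num d.Den where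
  inj := CoverGen.eval₂_injective d
  gen := CoverGen.exists_eval₂_div d
  y_eq := CoverGen.algebraMap_X_mul_eval₂ d
  lc := hlc
  deg := d.hdeg
  bezout := hbez
  finite := CoverGen.finiteDimensional d
  galois := hgal

/-- **(B-C) for the Kummer cover.** -/
theorem coverDatum [CharZero O] {N : ℕ} (hN : 0 < N) {ζ : O} (hζ : IsPrimitiveRoot ζ N) :
    IgusaTop.CoverDatum (FractionRing O[X]) (CoverGen.xc (KummerChart.data O N hN))
      (X ^ N : O[X]) (1 : O[X]) :=
  coverDatum_of_ratData (KummerChart.data O N hN) (KummerChart.isUnit_leadingCoeff_num O N hN)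
    (KummerChart.bezout O N hN) (KummerChart.isGalois hN hζ)

end Fermat.Agent.S18.KummerDatum
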