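/-
S18 block [IGUSA] A-cov (identities): the Legendre cover `λ ↦ j = 256 (λ²-λ+1)³ / (λ² (λ-1)²)` of the `j`-line,
over an arbitrary base ring.  We use the coordinate `c = j / 256` on the base, so that no
invertibility assumption is needed for the basic construction:
`legPoly A c = (X² - X + 1)³ - c X² (X - 1)²` is monic of degree `6`.
-/
import Mathlib

set_option autoImplicit false

noncomputable section

namespace Fermat.Agent.S18.Legendre

open Polynomial

/-! ### Elementwise identities -/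

section Identities

variable {R : Type*} [CommRing R]

/-- `256 (x² - x + 1)³`, the numerator of `j(λ)`. -/
def numE (x : R) : R := 256 * (x ^ 2 - x + 1) ^ 3

/-- `x² (x - 1)²`, the denominator of `j(λ)`. -/
def denE (x : R) : R := x ^ 2 * (x - 1) ^ 2

/-- `(x² - x + 1)³ - c x² (x-1)²`: the value of `legPoly` at `x`. -/
def legE (c x : R) : R := (x ^ 2 - x + 1) ^ 3 - c * (x ^ 2 * (x - 1) ^ 2)

theorem numE_sub_denE (c x : R) : numE x - 256 * c * denE x = 256 * legE c x := by
  unfold numE denE legE; ring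

theorem numE_one_sub (x : R) : numE (1 - x) = numE x := by unfold numE; ring

theorem denE_one_sub (x : R) : denE (1 - x) = denE x := by unfold denE; ring

theorem legE_one_sub (c x : R) : legE c (1 - x) = legE c x := by unfold legE; ring

theorem numE_inv {x y : R} (h : x * y = 1) : x ^ 6 * numE y = numE x := by
  have h1 : x ^ 2 * (y ^ 2 - y + 1) = x ^ 2 - x + 1 := by
    linear_combination (x * y + 1 - x) * h
  unfold numE
  calc x ^ 6 * (256 * (y ^ 2 - y + 1) ^ 3) = 256 * (x ^ 2 * (y ^ 2 - y + 1)) ^ 3 := by ring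
    _ = _ := by rw [h1]

theorem denE_inv {x y : R} (h : x * y = 1) : x ^ 6 * denE y = denE x := by
  have h1 : x ^ 2 * (y * (y - 1)) = 1 - x := by
    linear_combination (x * y + 1 - x) * h
  unfold denE
  calc x ^ 6 * (y ^ 2 * (y - 1) ^ 2) = x ^ 2 * (x ^ 2 * (y * (y - 1))) ^ 2 := by ring
    _ = _ := by rw [h1]; ring

theorem legE_inv {c x y : R} (h : x * y = 1) : x ^ 6 * legE c y = legE c x := by
  have h1 : x ^ 2 * (y ^ 2 - y + 1) = x ^ 2 - x + 1 := by
    linear_combination (x * y + 1 - x) * h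
  have h2 : x ^ 2 * (y * (y - 1)) = 1 - x := by
    linear_combination (x * y + 1 - x) * h
  unfold legE
  calc x ^ 6 * ((y ^ 2 - y + 1) ^ 3 - c * (y ^ 2 * (y - 1) ^ 2))
      = (x ^ 2 * (y ^ 2 - y + 1)) ^ 3 - c * (x ^ 2 * (x ^ 2 * (y * (y - 1))) ^ 2) := by ring
    _ = _ := by rw [h1, h2]; ring

/-- `j - 1728` on the `λ`-line. -/
theorem numE_sub_1728 (x : R) :
    numE x - 1728 * denE x = 64 * ((x + 1) * (x - 2) * (2 * x - 1)) ^ 2 := by
  unfold numE denE; ring

/-- The key identity `4 (x²-x+1)³ - 27 x² (x-1)² = ((x+1)(x-2)(2x-1))²`. -/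
theorem four_mul_cube_sub (x : R) :
    4 * (x ^ 2 - x + 1) ^ 3 - 27 * (x ^ 2 * (x - 1) ^ 2) = ((x + 1) * (x - 2) * (2 * x - 1)) ^ 2 := by
  ring

/-- The product formula `∏_γ (Y - γ x) = (Num(Y) - j(x) Den(Y)) / 256`, denominators cleared. -/
theorem prod_formula (x y : R) :
    (y - x) * (y - (1 - x)) * (x * y - 1) * ((1 - x) * y - 1) * (x * y - (x - 1)) *
        ((x - 1) * y - x) =
      (x ^ 2 - x + 1) ^ 3 * (y ^ 2 * (y - 1) ^ 2) - (x ^ 2 * (x - 1) ^ 2) * (y ^ 2 - y + 1) ^ 3 := by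
  ring

end Identities

/-! ### The polynomial and the algebra -/

section Poly

variable (A : Type*) [CommRing A] (c : A)

/-- The Legendre polynomial `(X² - X + 1)³ - c X² (X - 1)²` (`c = j / 256`). -/
def legPoly : A[X] := (X ^ 2 - X + 1) ^ 3 - C c * (X ^ 2 * (X - 1) ^ 2)

theorem legPoly_monic : (legPoly A c).Monic := by
  nontriviality A
  unfold legPoly
  monicity!

theorem legPoly_natDegree [Nontrivial A] : (legPoly A c).natDegree = 6 := by
  unfold legPoly
  compute_degree!

theorem eval₂_legPoly {B : Type*} [CommRing B] (f : A →+* B) (x : B) :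
    (legPoly A c).eval₂ f x = legE (f c) x := by
  simp [legPoly, legE, eval₂_sub, eval₂_mul, eval₂_pow, eval₂_add]

theorem aeval_legPoly {B : Type*} [CommRing B] [Algebra A B] (x : B) :
    aeval x (legPoly A c) = legE (algebraMap A B c) x := by
  rw [aeval_def, eval₂_legPoly]

theorem map_legPoly {B : Type*} [CommRing B] (f : A →+* B) :
    (legPoly A c).map f = legPoly B (f c) := by
  simp [legPoly, Polynomial.map_sub, Polynomial.map_mul, Polynomial.map_pow, Polynomial.map_add]

end Poly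

/-! ### The rational function `j = Num / Den` -/

section Cover

variable (R : Type*) [CommRing R]

/-- `Num = 256 (X² - X + 1)³`. -/
def numP : R[X] := 256 * (X ^ 2 - X + 1) ^ 3

/-- `Den = X² (X - 1)²`. -/
def denP : R[X] := X ^ 2 * (X - 1) ^ 2

variable {R}

@[simp] theorem eval_numP (x : R) : (numP R).eval x = numE x := by simp [numP, numE]

@[simp] theorem eval_denP (x : R) : (denP R).eval x = denE x := by simp [denP, denE]

@[simp] theorem map_numP {S : Type*} [CommRing S] (f : R →+* S) : (numP R).map f = numP S := by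
  simp [numP, Polynomial.map_mul, Polynomial.map_pow, Polynomial.map_sub, Polynomial.map_add]

@[simp] theorem map_denP {S : Type*} [CommRing S] (f : R →+* S) : (denP R).map f = denP S := by
  simp [denP, Polynomial.map_mul, Polynomial.map_pow, Polynomial.map_sub]

theorem eval₂_numP {S : Type*} [CommRing S] (f : R →+* S) (x : S) :
    (numP R).eval₂ f x = numE x := by
  rw [eval₂_eq_eval_map, map_numP, eval_numP]

theorem eval₂_denP {S : Type*} [CommRing S] (f : R →+* S) (x : S) :
    (denP R).eval₂ f x = denE x := by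
  rw [eval₂_eq_eval_map, map_denP, eval_denP]

variable (R)

theorem denP_monic : (denP R).Monic := by
  unfold denP
  exact (monic_X_pow 2).mul ((monic_X_sub_C (1 : R)).pow 2)

theorem natDegree_denP [Nontrivial R] : (denP R).natDegree = 4 := by
  unfold denP
  compute_degree!

theorem denP_ne_zero [Nontrivial R] : denP R ≠ 0 := (denP_monic R).ne_zero

theorem cube_monic : ((X ^ 2 - X + 1 : R[X]) ^ 3).Monic := by
  nontriviality R
  monicity!

theorem natDegree_cube [Nontrivial R] : ((X ^ 2 - X + 1 : R[X]) ^ 3).natDegree = 6 := by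
  compute_degree!

theorem numP_eq_C_mul : numP R = C 256 * (X ^ 2 - X + 1) ^ 3 := by
  unfold numP
  rw [map_ofNat]

theorem natDegree_numP (h : (256 : R) ≠ 0) : (numP R).natDegree = 6 := by
  have : Nontrivial R := ⟨⟨256, 0, h⟩⟩
  rw [numP_eq_C_mul, natDegree_C_mul_of_mul_ne_zero, natDegree_cube]
  rw [(cube_monic R).leadingCoeff, mul_one]
  exact h

theorem leadingCoeff_numP : (numP R).leadingCoeff = 256 := by
  nontriviality R
  rw [numP_eq_C_mul, leadingCoeff_mul_monic (cube_monic R), leadingCoeff_C]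

variable {R}

/-- (E0): `Num` and `Den` are comaximal as soon as `2` is invertible. -/
theorem bezout (h2 : IsUnit (2 : R)) : ∃ a b : R[X], a * numP R + b * denP R = 1 := by
  obtain ⟨u, hu⟩ := h2
  refine ⟨C ((↑u⁻¹ : R) ^ 8) * (1 - 3 * (X ^ 2 - X)),
    6 + 8 * (X ^ 2 - X) + 3 * (X ^ 2 - X) ^ 2, ?_⟩
  have h256 : (C ((↑u⁻¹ : R) ^ 8) : R[X]) * 256 = 1 := by
    have h1 : ((↑u⁻¹ : R) ^ 8) * 256 = 1 := by
      have : (256 : R) = (u : R) ^ 8 := by rw [hu]; norm_num
      rw [this, ← mul_pow, Units.inv_mul, one_pow]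
    rw [← map_ofNat (C : R →+* R[X]) 256, ← C_mul, h1, C_1]
  unfold numP denP
  linear_combination ((1 - 3 * (X ^ 2 - X)) * (X ^ 2 - X + 1) ^ 3) * h256

/-- The splitting of `Den(x) Num(Y) - Num(x) Den(Y)` over any field containing `x ≠ 0, 1`: its
roots are the six Möbius images of `x`. -/
theorem split_field {L : Type*} [Field L] (x : L) (hx0 : x ≠ 0) (hx1 : x ≠ 1) :
    C (denE x) * numP L - C (numE x) * denP L =
      C (256 * (x ^ 2 * (x - 1) ^ 2)) * ((X - C x) * ((X - C (1 - x)) * (X - C x⁻¹) *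
        (X - C (1 - x)⁻¹) * (X - C ((x - 1) / x)) * (X - C (x / (x - 1))))) := by
  have hx1' : x - 1 ≠ 0 := sub_ne_zero.mpr hx1
  have hx1'' : 1 - x ≠ 0 := sub_ne_zero.mpr (Ne.symm hx1)
  have h3 : (C x : L[X]) * (X - C x⁻¹) = C x * X - 1 := by
    rw [mul_sub, ← C_mul, mul_inv_cancel₀ hx0, C_1]
  have h4 : (1 - C x : L[X]) * (X - C (1 - x)⁻¹) = (1 - C x) * X - 1 := by
    rw [mul_sub, ← C_1, ← C_sub, ← C_mul, mul_inv_cancel₀ hx1'', C_1]
  have h5 : (C x : L[X]) * (X - C ((x - 1) / x)) = C x * X - (C x - 1) := by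
    rw [mul_sub, ← C_mul, mul_div_cancel₀ _ hx0, C_sub, C_1]
  have h6 : (C x - 1 : L[X]) * (X - C (x / (x - 1))) = (C x - 1) * X - C x := by
    rw [mul_sub, ← C_1, ← C_sub, ← C_mul, mul_div_cancel₀ _ hx1']
  have hpf := prod_formula (C x : L[X]) X
  have e1 : (C (x ^ 2 * (x - 1) ^ 2) : L[X]) = C x ^ 2 * (C x - 1) ^ 2 := by
    simp only [C_mul, C_pow, C_sub, C_1]
  have e2 : (C (256 * (x ^ 2 - x + 1) ^ 3) : L[X]) = 256 * (C x ^ 2 - C x + 1) ^ 3 := by
    simp only [C_mul, C_pow, C_sub, C_1, C_add, map_ofNat]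
  have e3 : (C (256 * (x ^ 2 * (x - 1) ^ 2)) : L[X]) = 256 * (C x ^ 2 * (C x - 1) ^ 2) := by
    simp only [C_mul, C_pow, C_sub, C_1, map_ofNat]
  have e4 : (C (1 - x) : L[X]) = 1 - C x := by simp only [C_sub, C_1]
  unfold numP denP numE denE
  rw [e1, e2, e3, e4]
  have step1 : (C x ^ 2 * (C x - 1) ^ 2 : L[X]) * (256 * (X ^ 2 - X + 1) ^ 3) -
        256 * (C x ^ 2 - C x + 1) ^ 3 * (X ^ 2 * (X - 1) ^ 2)
      = -256 * ((C x ^ 2 - C x + 1) ^ 3 * (X ^ 2 * (X - 1) ^ 2) -
          (C x ^ 2 * (C x - 1) ^ 2) * (X ^ 2 - X + 1) ^ 3) := by ring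
  rw [step1, ← hpf, ← h3, ← h4, ← h5, ← h6]
  generalize (X - C x⁻¹ : L[X]) = G3
  generalize (X - C (1 - x)⁻¹ : L[X]) = G4
  generalize (X - C ((x - 1) / x) : L[X]) = G5
  generalize (X - C (x / (x - 1)) : L[X]) = G6
  ring

end Cover

/-! ### (E3): local factorisations of `Num - a Den` -/

section LocalFactor

variable {K : Type*} [Field K]

theorem denE_ne_zero_iff {x0 : K} : denE x0 ≠ 0 ↔ x0 ≠ 0 ∧ x0 ≠ 1 := by
  unfold denE
  rw [mul_ne_zero_iff, pow_ne_zero_iff (by norm_num), pow_ne_zero_iff (by norm_num), sub_ne_zero]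

/-- `Num - a Den = 256 ∏ (X - rᵢ)`, `a = Num(x₀)/Den(x₀)`, `rᵢ` the six Möbius images of `x₀`. -/
theorem numP_sub_eq_prod (x0 : K) (hx0 : x0 ≠ 0) (hx1 : x0 ≠ 1) :
    numP K - C (numE x0 / denE x0) * denP K =
      (X - C x0) * (256 * ((X - C (1 - x0)) * (X - C x0⁻¹) * (X - C (1 - x0)⁻¹) *
        (X - C ((x0 - 1) / x0)) * (X - C (x0 / (x0 - 1))))) := by
  have hden : denE x0 ≠ 0 := denE_ne_zero_iff.mpr ⟨hx0, hx1⟩
  have hC : (C (denE x0) : K[X]) ≠ 0 := by rwa [Ne, C_eq_zero]
  apply mul_left_cancel₀ hC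
  have h := split_field x0 hx0 hx1
  have e3 : (C (256 * (x0 ^ 2 * (x0 - 1) ^ 2)) : K[X]) = 256 * C (denE x0) := by
    unfold denE; rw [C_mul, map_ofNat]
  calc C (denE x0) * (numP K - C (numE x0 / denE x0) * denP K)
      = C (denE x0) * numP K - C (numE x0) * denP K := by
        rw [mul_sub, ← mul_assoc, ← C_mul, mul_div_cancel₀ _ hden]
    _ = _ := by
        rw [h, e3]
        generalize ((X - C (1 - x0)) * (X - C x0⁻¹) * (X - C (1 - x0)⁻¹) *
          (X - C ((x0 - 1) / x0)) * (X - C (x0 / (x0 - 1))) : K[X]) = G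
        ring

theorem numE_div_eq_zero_iff (h2 : (2 : K) ≠ 0) {x0 : K} (hden : denE x0 ≠ 0) :
    numE x0 / denE x0 = 0 ↔ x0 ^ 2 - x0 + 1 = 0 := by
  have h256 : (256 : K) ≠ 0 := by
    have : (256 : K) = 2 ^ 8 := by norm_num
    rw [this]; exact pow_ne_zero 8 h2
  rw [div_eq_zero_iff, or_iff_left hden]
  unfold numE
  rw [mul_eq_zero, or_iff_right h256, pow_eq_zero_iff (by norm_num)]

theorem numE_div_eq_1728_iff (h2 : (2 : K) ≠ 0) {x0 : K} (hden : denE x0 ≠ 0) :
    numE x0 / denE x0 = 1728 ↔ (x0 + 1) * (x0 - 2) * (2 * x0 - 1) = 0 := by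
  have h64 : (64 : K) ≠ 0 := by
    have : (64 : K) = 2 ^ 6 := by norm_num
    rw [this]; exact pow_ne_zero 6 h2
  rw [div_eq_iff hden, ← sub_eq_zero, numE_sub_1728, mul_eq_zero, or_iff_right h64,
    pow_eq_zero_iff (by norm_num)]

/-- (E3) for the Legendre cover: `e = 3` over `j = 0`, `e = 2` over `j = 1728`, `e = 1` elsewhere. -/
theorem local_factor (h2 : (2 : K) ≠ 0) (h3 : (3 : K) ≠ 0) (e : K → ℕ) (he0 : e 0 = 3)
    (he1 : e 1728 = 2) (he : ∀ a, a ≠ 0 → a ≠ 1728 → e a = 1) (x0 : K)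
    (hden : (denP K).eval x0 ≠ 0) :
    ∃ g : K[X], numP K - C ((numP K).eval x0 / (denP K).eval x0) * denP K =
        (X - C x0) ^ e ((numP K).eval x0 / (denP K).eval x0) * g ∧ g.eval x0 ≠ 0 ∧
      0 < e ((numP K).eval x0 / (denP K).eval x0) := by
  rw [eval_denP] at hden
  rw [eval_numP, eval_denP]
  obtain ⟨hx0, hx1⟩ := denE_ne_zero_iff.mp hden
  have h256 : (256 : K) ≠ 0 := by
    have : (256 : K) = 2 ^ 8 := by norm_num
    rw [this]; exact pow_ne_zero 8 h2
  have h64 : (64 : K) ≠ 0 := by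
    have : (64 : K) = 2 ^ 6 := by norm_num
    rw [this]; exact pow_ne_zero 6 h2
  by_cases ha0 : numE x0 / denE x0 = 0
  · -- `j = 0`
    have hw := (numE_div_eq_zero_iff h2 hden).mp ha0
    rw [ha0, he0]
    refine ⟨256 * (X - C (1 - x0)) ^ 3, ?_, ?_, by norm_num⟩
    · have hq : (X - C x0) * (X - C (1 - x0)) = (X ^ 2 - X + 1 : K[X]) := by
        have hc : (C x0 : K[X]) * C (1 - x0) = 1 := by
          rw [← C_mul, ← C_1]; congr 1; linear_combination (-1 : K) * hw
        have hs : (C (1 - x0) : K[X]) = 1 - C x0 := by rw [C_sub, C_1]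
        rw [hs] at hc ⊢
        linear_combination hc
      rw [C_0, zero_mul, sub_zero]
      unfold numP
      rw [← hq]
      ring
    · rw [eval_mul, eval_pow, eval_sub, eval_X, eval_C, eval_ofNat]
      refine mul_ne_zero h256 (pow_ne_zero 3 ?_)
      intro h
      have h4 : (3 : K) = 0 := by linear_combination (4 : K) * hw - (2 * x0 - 1) * h
      exact h3 h4
  by_cases ha1 : numE x0 / denE x0 = 1728
  · -- `j = 1728`
    have ht := (numE_div_eq_1728_iff h2 hden).mp ha1
    rw [ha1, he1]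
    have hid : numP K - C 1728 * denP K = 64 * ((X + 1) * (X - 2) * (2 * X - 1)) ^ 2 := by
      unfold numP denP
      rw [map_ofNat]
      ring
    have h5184 : (5184 : K) ≠ 0 := by
      have : (5184 : K) = 2 ^ 6 * 3 ^ 4 := by norm_num
      rw [this]; exact mul_ne_zero (pow_ne_zero 6 h2) (pow_ne_zero 4 h3)
    rw [hid]
    rcases mul_eq_zero.mp ht with ht' | ht'
    · rcases mul_eq_zero.mp ht' with ht'' | ht''
      · -- `x0 = -1`
        have hx : x0 = -1 := by linear_combination ht''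
        subst hx
        refine ⟨64 * ((X - 2) * (2 * X - 1)) ^ 2, ?_, ?_, by norm_num⟩
        · rw [C_neg, C_1]; ring
        · simp only [eval_mul, eval_pow, eval_sub, eval_X, eval_ofNat, eval_one]
          refine ne_of_eq_of_ne (?_ : _ = (5184 : K)) h5184
          norm_num
      · -- `x0 = 2`
        have hx : x0 = 2 := by linear_combination ht''
        subst hx
        refine ⟨64 * ((X + 1) * (2 * X - 1)) ^ 2, ?_, ?_, by norm_num⟩
        · rw [map_ofNat]; ring
        · simp only [eval_mul, eval_pow, eval_sub, eval_add, eval_X, eval_ofNat, eval_one]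
          refine ne_of_eq_of_ne (?_ : _ = (5184 : K)) h5184
          norm_num
    · -- `2 x0 = 1`
      refine ⟨256 * ((X + 1) * (X - 2)) ^ 2, ?_, ?_, by norm_num⟩
      · have hc : (2 : K[X]) * C x0 = 1 := by
          rw [← map_ofNat (C : K →+* K[X]) 2, ← C_mul, ← C_1]; congr 1; linear_combination ht'
        have h2X : (2 * X - 1 : K[X]) = 2 * (X - C x0) := by linear_combination hc
        rw [h2X]
        ring
      · simp only [eval_mul, eval_pow, eval_sub, eval_add, eval_X, eval_ofNat, eval_one]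
        refine mul_ne_zero h256 (pow_ne_zero 2 ?_)
        intro h
        have h9 : (9 : K) = 0 := by
          linear_combination (-4 : K) * h + (2 * x0 - 1) * ht'
        have : (9 : K) = 3 ^ 2 := by norm_num
        rw [this] at h9
        exact h3 (pow_eq_zero_iff (by norm_num) |>.mp h9)
  · -- generic point
    rw [he _ ha0 ha1, pow_one]
    have hw : x0 ^ 2 - x0 + 1 ≠ 0 := fun h => ha0 ((numE_div_eq_zero_iff h2 hden).mpr h)
    have ht : (x0 + 1) * (x0 - 2) * (2 * x0 - 1) ≠ 0 :=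
      fun h => ha1 ((numE_div_eq_1728_iff h2 hden).mpr h)
    rw [mul_ne_zero_iff, mul_ne_zero_iff] at ht
    obtain ⟨⟨ht1, ht2⟩, ht3⟩ := ht
    have hx1' : x0 - 1 ≠ 0 := sub_ne_zero.mpr hx1
    have hx1'' : 1 - x0 ≠ 0 := sub_ne_zero.mpr (Ne.symm hx1)
    refine ⟨_, numP_sub_eq_prod x0 hx0 hx1, ?_, by norm_num⟩
    simp only [eval_mul, eval_sub, eval_X, eval_C, eval_ofNat]
    refine mul_ne_zero h256 (mul_ne_zero (mul_ne_zero (mul_ne_zero (mul_ne_zero ?_ ?_) ?_) ?_) ?_)
    · intro h; exact ht3 (by linear_combination h)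
    · intro h
      have h' : x0 * x0 = 1 := by
        have := sub_eq_zero.mp h
        nth_rewrite 2 [this]
        exact mul_inv_cancel₀ hx0
      exact (mul_ne_zero hx1' ht1) (by linear_combination h')
    · intro h
      have h' : x0 * (1 - x0) = 1 := by
        have := sub_eq_zero.mp h
        nth_rewrite 1 [this]
        exact inv_mul_cancel₀ hx1''
      exact hw (by linear_combination (-1 : K) * h')
    · intro h
      have h' : x0 * x0 = x0 - 1 := by
        have := sub_eq_zero.mp h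
        nth_rewrite 1 [this]
        exact div_mul_cancel₀ _ hx0
      exact hw (by linear_combination h')
    · intro h
      have h' : x0 * (x0 - 1) = x0 := by
        have := sub_eq_zero.mp h
        nth_rewrite 1 [this]
        exact div_mul_cancel₀ _ hx1'
      exact (mul_ne_zero hx0 ht2) (by linear_combination h')

end LocalFactor

end Fermat.Agent.S18.Legendre
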