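/-
S18 block [IGUSA] A-cov: the Legendre cover datum `j = 256 (x²-x+1)³ / (x² (x-1)²)` in the shape
of the assembly spec (cover field from `CoverGen`): (L1)–(L4), Galois, (E0), (E3).
-/
import Fermat.Agent.S18.CoverGen
import Fermat.Agent.S18.LegendreId

set_option autoImplicit false

noncomputable section

namespace Fermat.Agent.S18.Legendre

open Polynomial Fermat.Agent.S18.CoverGen

universe u

variable (O : Type u) [CommRing O] [IsDomain O] [CharZero O]

/-- The Legendre rational datum `Num = 256 (X²-X+1)³`, `Den = X² (X-1)²`. -/
def legData : RatData O where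
  Num := numP O
  Den := denP O
  hDen := denP_ne_zero O
  hdeg := by
    rw [natDegree_denP, natDegree_numP O (by norm_num)]
    norm_num

omit [IsDomain O] in
@[simp] theorem legData_Num : (legData O).Num = numP O := rfl

omit [IsDomain O] in
@[simp] theorem legData_Den : (legData O).Den = denP O := rfl

/-- The Legendre cover field `L = Frac O[x]` with `y ↦ j(x)`. -/
abbrev LegField : Type u := CoverField (legData O)

theorem ev_numP : ev (legData O) (numP O) = numE (xc (legData O)) := by
  unfold numP numE xc
  simp only [map_mul, map_pow, map_sub, map_add, map_one, map_ofNat]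

theorem ev_denP : ev (legData O) (denP O) = denE (xc (legData O)) := by
  unfold denP denE xc
  simp only [map_mul, map_pow, map_sub, map_one]

theorem xc_ne_zero : xc (legData O) ≠ 0 := by
  intro h
  have h1 : (X : O[X]) = 0 := ev_injective (legData O) (by rw [map_zero]; exact h)
  exact X_ne_zero h1

theorem xc_ne_one : xc (legData O) ≠ 1 := by
  intro h
  have h1 : (X : O[X]) = 1 := ev_injective (legData O) (by rw [map_one]; exact h)
  have h2 := congrArg (fun p : O[X] => p.coeff 1) h1
  simp [coeff_X, coeff_one] at h2

/-- `Num(Y) Den(x) - Num(x) Den(Y)` is `256 x²(x-1)²` times the product of the six linear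
factors attached to the Möbius images of `x`. -/
theorem splitPoly_eq :
    splitPoly (legData O) =
      C (256 * (xc (legData O) ^ 2 * (xc (legData O) - 1) ^ 2)) *
        ((X - C (xc (legData O))) * ((X - C (1 - xc (legData O))) * (X - C (xc (legData O))⁻¹) *
          (X - C (1 - xc (legData O))⁻¹) * (X - C ((xc (legData O) - 1) / xc (legData O))) *
          (X - C (xc (legData O) / (xc (legData O) - 1))))) := by
  unfold splitPoly
  rw [legData_Num, legData_Den, map_numP, map_denP, ev_numP, ev_denP]
  exact split_field (xc (legData O)) (xc_ne_zero O) (xc_ne_one O)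

theorem splits_splitPoly : (splitPoly (legData O)).Splits := by
  rw [splitPoly_eq]
  refine Splits.C_mul ?_ _
  refine Splits.mul (Splits.X_sub_C _) ?_
  exact ((((Splits.X_sub_C _).mul (Splits.X_sub_C _)).mul (Splits.X_sub_C _)).mul
    (Splits.X_sub_C _)).mul (Splits.X_sub_C _)

/-- The Legendre cover is Galois (with group the anharmonic group). -/
theorem isGalois : IsGalois (FractionRing O[X]) (LegField O) :=
  isGalois_of_splits (legData O) (splits_splitPoly O)

theorem finiteDimensional : FiniteDimensional (FractionRing O[X]) (LegField O) :=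
  CoverGen.finiteDimensional (legData O)

omit [IsDomain O] in
theorem isUnit_leadingCoeff_num (h2 : IsUnit (2 : O)) : IsUnit (legData O).Num.leadingCoeff := by
  rw [legData_Num, leadingCoeff_numP]
  have : (256 : O) = 2 ^ 8 := by norm_num
  rw [this]
  exact h2.pow 8

/-- (L4): the coordinate `x` is integral over `A0 = O[y]` as soon as `2` is a unit of `O`. -/
theorem isIntegral_xc (h2 : IsUnit (2 : O)) : IsIntegral O[X] (xc (legData O)) :=
  CoverGen.isIntegral_xc (legData O) (isUnit_leadingCoeff_num O h2)

omit [IsDomain O] in
/-- (E0) -/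
theorem exists_bezout (h2 : IsUnit (2 : O)) :
    ∃ a b : O[X], a * (legData O).Num + b * (legData O).Den = 1 :=
  bezout h2

/-- The ramification function of the `j`-line: `3` over `0`, `2` over `1728`, `1` elsewhere. -/
def eLeg (a : ℂ) : ℕ := if a = 0 then 3 else if a = 1728 then 2 else 1

theorem eLeg_zero : eLeg 0 = 3 := by simp [eLeg]

theorem eLeg_1728 : eLeg 1728 = 2 := by simp [eLeg]

theorem eLeg_of_ne {a : ℂ} (h0 : a ≠ 0) (h1 : a ≠ 1728) : eLeg a = 1 := by simp [eLeg, h0, h1]

/-- (E3) in the shape of the assembly spec, for an arbitrary ramification function `e` with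
`e 0 = 3`, `e 1728 = 2`, `e a = 1` otherwise. -/
theorem exists_local_factor (e : ℂ → ℕ) (he0 : e 0 = 3) (he1 : e 1728 = 2)
    (he : ∀ a, a ≠ 0 → a ≠ 1728 → e a = 1) (φ : O →+* ℂ) (x0 : ℂ)
    (hden : (((legData O).Den).map φ).eval x0 ≠ 0) :
    ∃ g : ℂ[X],
      ((legData O).Num).map φ -
          C ((((legData O).Num).map φ).eval x0 / (((legData O).Den).map φ).eval x0) *
            ((legData O).Den).map φ =
        (X - C x0) ^ e ((((legData O).Num).map φ).eval x0 / (((legData O).Den).map φ).eval x0) *
          g ∧
      g.eval x0 ≠ 0 ∧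
      0 < e ((((legData O).Num).map φ).eval x0 / (((legData O).Den).map φ).eval x0) := by
  rw [legData_Num, legData_Den, map_numP, map_denP] at *
  exact local_factor (by norm_num) (by norm_num) e he0 he1 he x0 hden

/-- (E3) with the ramification function `eLeg`. -/
theorem exists_local_factor_eLeg (φ : O →+* ℂ) (x0 : ℂ)
    (hden : (((legData O).Den).map φ).eval x0 ≠ 0) :
    ∃ g : ℂ[X],
      ((legData O).Num).map φ -
          C ((((legData O).Num).map φ).eval x0 / (((legData O).Den).map φ).eval x0) *
            ((legData O).Den).map φ =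
        (X - C x0) ^
            eLeg ((((legData O).Num).map φ).eval x0 / (((legData O).Den).map φ).eval x0) *
          g ∧
      g.eval x0 ≠ 0 ∧
      0 < eLeg ((((legData O).Num).map φ).eval x0 / (((legData O).Den).map φ).eval x0) :=
  exists_local_factor O eLeg eLeg_zero eLeg_1728 (fun _ h0 h1 => eLeg_of_ne h0 h1) φ x0 hden

end Fermat.Agent.S18.Legendre
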