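import Mathlib
import Fermat.Agent.S18.Legendre
import Fermat.Agent.S18.CoverDatumOf

/-!
# The `IgusaTop.CoverDatum` of the Legendre cover (`ℓ ≠ 2`)
-/

set_option autoImplicit false

open Polynomial

namespace Fermat.Agent.S18.LegendreDatum

open Fermat.Agent.S18 Fermat.Agent.S18.CoverGen

universe u

variable (O : Type u) [CommRing O] [IsDomain O] [CharZero O]

/-- The Legendre cover `y = 256 (x²−x+1)³ / (x² (x−1)²)` is a cover datum in the sense of
`IgusaTop` as soon as `2` is a unit of `O`. -/
theorem coverDatum (h2 : IsUnit (2 : O)) :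
    IgusaTop.CoverDatum (FractionRing O[X]) (xc (Legendre.legData O)) (Legendre.numP O)
      (Legendre.denP O) :=
  CoverDatumOf.coverDatum (Legendre.legData O) (Legendre.isUnit_leadingCoeff_num O h2)
    (Legendre.exists_bezout O h2) (Legendre.splits_splitPoly O)

omit [IsDomain O] [CharZero O] in
/-- The value of `Num − c·Den` at a point `c1` of the `x`-line. -/
theorem eval_sub (c c1 : O) :
    (Legendre.numP O - C c * Legendre.denP O).eval c1 =
      256 * (c1 ^ 2 - c1 + 1) ^ 3 - c * (c1 ^ 2 * (c1 - 1) ^ 2) := by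
  simp [Legendre.numP, Legendre.denP]

omit [IsDomain O] [CharZero O] in
theorem eval_denP (c1 : O) : (Legendre.denP O).eval c1 = c1 ^ 2 * (c1 - 1) ^ 2 := by
  simp [Legendre.denP]

end Fermat.Agent.S18.LegendreDatum
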