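import Mathlib
import Fermat.Agent.S18.HorBridge
import Fermat.Agent.S18.GaussRoot
import Fermat.Agent.S18.Legendre

/-!
# S18 : `HorInput` for the Legendre cover (bridge (B-H), chart `y = j`, `ℓ ≠ 2`, every `c`)

`horInput`: over a DVR `O` of characteristic zero with uniformizer `π` and an embedding
`φ : O → ℂ` with algebraic values, hypothesis (H) at every algebraic value `a` of `j` (with
ramification function `e 0 = 3`, `e 1728 = 2`, `e a = 1` otherwise) gives
`IgusaTop.HorInput Ky F Num Den π c φ` for `Num = 256 (X²-X+1)³`, `Den = X² (X-1)²`.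

The hypothesis `hH` is literally the output of `HorHyp.hypH_fin` (resp. `DegFK.hypH_FK_fin`)
for the `A0`-structure `y ↦ j`, with `e := HorHyp.eC`.
-/

set_option autoImplicit false

namespace Fermat.Agent.S18.LegendreHor

open Polynomial
open Fermat.Agent.S18

universe u

variable {O : Type u} [CommRing O] [IsDomain O] [IsDiscreteValuationRing O] [CharZero O]
  (Ky F : Type*) [Field Ky] [Field F] [Algebra Ky F] [Algebra O[X] F]

/-- The value `j(x₀)` at an algebraic point is algebraic. -/
theorem isAlgebraic_value {x0 : ℂ} (halg : IsAlgebraic ℚ x0) :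
    IsAlgebraic ℚ (Legendre.numE x0 / Legendre.denE x0) := by
  have hx : x0 ∈ algebraicClosure ℚ ℂ := mem_algebraicClosure_iff.mpr halg
  apply mem_algebraicClosure_iff.mp
  unfold Legendre.numE Legendre.denE
  exact div_mem (mul_mem (ofNat_mem _ 256)
    (pow_mem (add_mem (sub_mem (pow_mem hx 2) hx) (one_mem _)) 3))
    (mul_mem (pow_mem hx 2) (pow_mem (sub_mem hx (one_mem _)) 2))

/-- **(B-H) for the Legendre cover.** -/
theorem horInput {π : O} (hπ : Irreducible π) (c : O) (φ : O →+* ℂ)
    (hφ : Function.Injective φ) (hφalg : ∀ o : O, IsAlgebraic ℚ (φ o))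
    (e : ℂ → ℕ) (he0 : e 0 = 3) (he1 : e 1728 = 2) (he : ∀ a, a ≠ 0 → a ≠ 1728 → e a = 1)
    (hH : ∀ a : ℂ, IsAlgebraic ℚ a → ∃ T : PowerSeries ℂ, T.order = e a ∧
      ∃ ι : Fin (Module.finrank Ky F) → (F →+* LaurentSeries ℂ), Function.Injective ι ∧
        (∀ i (o : O), ι i (algebraMap O[X] F (C o)) = HahnSeries.C (φ o)) ∧
        ∀ i, ι i (algebraMap O[X] F X) = HahnSeries.ofPowerSeries ℤ ℂ (PowerSeries.C a + T)) :
    IgusaTop.HorInput Ky F (Legendre.numP O) (Legendre.denP O) π c φ := by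
  refine HorBridge.horInput_of_local Ky F (Legendre.numP O) (Legendre.denP O) π c φ e
    {a | IsAlgebraic ℚ a} ?_ (fun a ha => hH a ha)
  intro c1 _ hDen p hp hpπ hpc x0 hx0
  have hpmap : p.map φ ≠ 0 := (Polynomial.map_ne_zero_iff hφ).mpr hp.ne_zero
  have halg : IsAlgebraic ℚ x0 := HorBridge.isAlgebraic_of_root φ hφalg p hpmap x0 hx0
  have hden : ((Legendre.denP O).map φ).eval x0 ≠ 0 :=
    GaussRoot.eval_ne_zero_of_isUnit_eval hπ φ hφ hp hpπ hpc hDen x0 hx0
  refine ⟨((Legendre.numP O).map φ).eval x0 / ((Legendre.denP O).map φ).eval x0, ?_, hden, ?_⟩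
  · show IsAlgebraic ℚ _
    rw [Legendre.map_numP, Legendre.map_denP, Legendre.eval_numP, Legendre.eval_denP]
    exact isAlgebraic_value halg
  · exact Legendre.exists_local_factor O e he0 he1 he φ x0 hden

end Fermat.Agent.S18.LegendreHor
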