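import Mathlib
import Fermat.Agent.S18.IgusaInst
import Fermat.Agent.S18.IgusaAbsMain
import Fermat.Agent.S18.ResAlg
import Fermat.Agent.S18.ResOK
import Fermat.Agent.S18.HesseDatum
import Fermat.Agent.S18.LegendreDatum
import Fermat.Agent.S18.LegendreHor
import Fermat.Agent.S18.KummerDatum
import Fermat.Agent.S18.KummerHor
import Fermat.Agent.S18.HesseHor
import Fermat.Agent.S18.IgusaTransfer
import Fermat.Agent.S18.HorHyp
import Fermat.Agent.S18.ChartDeg
import Fermat.Agent.S18.ChartBase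
import Fermat.Agent.S18.ChartHorBase

/-!
# S18 team library, block [IGUSA] T8: `Arith.IgusaStatement`

OWNER: helper9.
-/

set_option autoImplicit false

noncomputable section

namespace Fermat.Agent.S18.Igusa

open Polynomial Fermat.Agent.S18.Arith Fermat.Agent.S18.IgusaInst Fermat.Agent.S18

variable (N : ℕ) [NeZero N] (ℓ : ℕ) [Fact ℓ.Prime]
  (A : ValuationSubring Qb) (K : IntermediateField ℚ Qb)

/-- The conclusion of (I3) at a maximal ideal `n` of a chart. -/
def GenAt (t : FK N K) (π : OK A K) (n : Ideal (chart N A K t)) : Prop :=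
  ∃ t' ∈ n, ∀ x ∈ n, ∃ u : chart N A K t, u ∉ n ∧
    u * x ∈ Ideal.span {algebraMap (OK A K) (chart N A K t) π, t'}

omit [NeZero N] in
/-- Reduction to the points `y = c`: every maximal ideal of the chart over `π` contains
`t - c` for some `c : O`. -/
theorem genAt_of_conclusion [IsDiscreteValuationRing (OK A K)]
    [IsAlgClosed (IsLocalRing.ResidueField (OK A K))] (t : FK N K) (π : OK A K)
    (hπ : Irreducible π) (n : Ideal (chart N A K t)) (hn : n.IsMaximal)
    (hπn : algebraMap (OK A K) (chart N A K t) π ∈ n)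
    (h : ∀ c : OK A K, (⟨t, Model.self_mem_chart N A K t⟩ : chart N A K t) -
        algebraMap (OK A K) (chart N A K t) c ∈ n → IgusaTop.Conclusion (ChartF N K t) π c) :
    GenAt N A K t π n := by
  have hmax : ∀ a ∈ IsLocalRing.maximalIdeal (OK A K), algebraMap (OK A K) (chart N A K t) a ∈ n := by
    intro a ha
    rw [hπ.maximalIdeal_eq, Ideal.mem_span_singleton] at ha
    obtain ⟨b, rfl⟩ := ha
    rw [map_mul]
    exact n.mul_mem_right _ hπn
  obtain ⟨c, hc⟩ := ResAlg.exists_sub_mem_of_isIntegral (chart N A K t) t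
    (Model.self_mem_chart N A K t) (fun x hx => hx) n hn hmax
  exact igusaAt_of_conclusion N A K t π c (h c hc) n hn hπn hc

/-! ### The two charts -/

section Charts

variable {N A K}
variable [IsDiscreteValuationRing (OK A K)] [IsAlgClosed (IsLocalRing.ResidueField (OK A K))]
  (φ : OK A K →+* ℂ) (hφ : Function.Injective φ) (hφalg : ∀ o : OK A K, IsAlgebraic ℚ (φ o))

include hφ hφalg

/-- Chart `j ≠ ∞` via the Hesse cover (needs `3` invertible and a primitive cube root of unity). -/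
theorem conclusion_fin_hesse
    [FaithfulSMul (OK A K)[X] (ChartF N K (jK N K))]
    [FiniteDimensional (FractionRing (OK A K)[X]) (ChartF N K (jK N K))]
    (π c : OK A K) (hπ : Irreducible π)
    (ω : OK A K) (hω : ω ^ 2 + ω + 1 = 0) (h3 : IsUnit (3 : OK A K))
    (hV : IgusaTop.VertInput (FractionRing (OK A K)[X]) (ChartF N K (jK N K)) π)
    (hH : ∀ a : ℂ, IsAlgebraic ℚ a → ∃ T : PowerSeries ℂ, T.order = HorHyp.eC a ∧
      ∃ ι : Fin (Module.finrank (FractionRing (OK A K)[X]) (ChartF N K (jK N K))) →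
          (ChartF N K (jK N K) →+* LaurentSeries ℂ), Function.Injective ι ∧
        (∀ i (o : OK A K), ι i (algebraMap (OK A K)[X] (ChartF N K (jK N K)) (C o)) =
          HahnSeries.C (φ o)) ∧
        ∀ i, ι i (algebraMap (OK A K)[X] (ChartF N K (jK N K)) X) =
          HahnSeries.ofPowerSeries ℤ ℂ (PowerSeries.C a + T)) :
    IgusaTop.Conclusion (ChartF N K (jK N K)) π c :=
  IgusaAbsMain.igusaAbs (OK A K) (FractionRing (OK A K)[X]) (ChartF N K (jK N K))
    (CoverGen.CoverField (Hesse.data (OK A K))) (CoverGen.xc (Hesse.data (OK A K)))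
    (Hesse.hNum (OK A K)) (Hesse.hDen (OK A K)) π c φ hπ hφ
    (HesseDatum.coverDatum (OK A K) ω hω h3) hV
    (HesseHor.horInput (FractionRing (OK A K)[X]) (ChartF N K (jK N K)) hπ c φ hφ hφalg
      HorHyp.eC HorHyp.eC_zero HorHyp.eC_1728 (fun a h0 h1 => HorHyp.eC_of_ne h0 h1) hH)

/-- Chart `j ≠ ∞` via the Legendre cover (needs `2` invertible). -/
theorem conclusion_fin_legendre
    [FaithfulSMul (OK A K)[X] (ChartF N K (jK N K))]
    [FiniteDimensional (FractionRing (OK A K)[X]) (ChartF N K (jK N K))]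
    (π c : OK A K) (hπ : Irreducible π) (h2 : IsUnit (2 : OK A K))
    (hV : IgusaTop.VertInput (FractionRing (OK A K)[X]) (ChartF N K (jK N K)) π)
    (hH : ∀ a : ℂ, IsAlgebraic ℚ a → ∃ T : PowerSeries ℂ, T.order = HorHyp.eC a ∧
      ∃ ι : Fin (Module.finrank (FractionRing (OK A K)[X]) (ChartF N K (jK N K))) →
          (ChartF N K (jK N K) →+* LaurentSeries ℂ), Function.Injective ι ∧
        (∀ i (o : OK A K), ι i (algebraMap (OK A K)[X] (ChartF N K (jK N K)) (C o)) =
          HahnSeries.C (φ o)) ∧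
        ∀ i, ι i (algebraMap (OK A K)[X] (ChartF N K (jK N K)) X) =
          HahnSeries.ofPowerSeries ℤ ℂ (PowerSeries.C a + T)) :
    IgusaTop.Conclusion (ChartF N K (jK N K)) π c :=
  IgusaAbsMain.igusaAbs (OK A K) (FractionRing (OK A K)[X]) (ChartF N K (jK N K))
    (CoverGen.CoverField (Legendre.legData (OK A K))) (CoverGen.xc (Legendre.legData (OK A K)))
    (Legendre.numP (OK A K)) (Legendre.denP (OK A K)) π c φ hπ hφ
    (LegendreDatum.coverDatum (OK A K) h2) hV
    (LegendreHor.horInput (FractionRing (OK A K)[X]) (ChartF N K (jK N K)) hπ c φ hφ hφalg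
      HorHyp.eC HorHyp.eC_zero HorHyp.eC_1728 (fun a h0 h1 => HorHyp.eC_of_ne h0 h1) hH)

/-- Chart `j ≠ 0` at the cusps (`j⁻¹ = 0`) via the Kummer cover. -/
theorem conclusion_inf_kummer
    [FaithfulSMul (OK A K)[X] (ChartF N K (jK N K)⁻¹)]
    [FiniteDimensional (FractionRing (OK A K)[X]) (ChartF N K (jK N K)⁻¹)]
    (π : OK A K) (hπ : Irreducible π) {M : ℕ} (hM : 0 < M) {ζ : OK A K} (hζ : IsPrimitiveRoot ζ M)
    (hV : IgusaTop.VertInput (FractionRing (OK A K)[X]) (ChartF N K (jK N K)⁻¹) π)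
    (hH0 : ∃ T : PowerSeries ℂ, T.order = M ∧
      ∃ ι : Fin (Module.finrank (FractionRing (OK A K)[X]) (ChartF N K (jK N K)⁻¹)) →
          (ChartF N K (jK N K)⁻¹ →+* LaurentSeries ℂ), Function.Injective ι ∧
        (∀ i (o : OK A K), ι i (algebraMap (OK A K)[X] (ChartF N K (jK N K)⁻¹) (C o)) =
          HahnSeries.C (φ o)) ∧
        ∀ i, ι i (algebraMap (OK A K)[X] (ChartF N K (jK N K)⁻¹) X) =
          HahnSeries.ofPowerSeries ℤ ℂ (PowerSeries.C 0 + T))
    (hH1 : ∀ a : ℂ, IsAlgebraic ℚ a → a ≠ 0 → 1728 * a ≠ 1 →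
      ∃ T : PowerSeries ℂ, T.order = 1 ∧
      ∃ ι : Fin (Module.finrank (FractionRing (OK A K)[X]) (ChartF N K (jK N K)⁻¹)) →
          (ChartF N K (jK N K)⁻¹ →+* LaurentSeries ℂ), Function.Injective ι ∧
        (∀ i (o : OK A K), ι i (algebraMap (OK A K)[X] (ChartF N K (jK N K)⁻¹) (C o)) =
          HahnSeries.C (φ o)) ∧
        ∀ i, ι i (algebraMap (OK A K)[X] (ChartF N K (jK N K)⁻¹) X) =
          HahnSeries.ofPowerSeries ℤ ℂ (PowerSeries.C a + T)) :
    IgusaTop.Conclusion (ChartF N K (jK N K)⁻¹) π 0 :=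
  IgusaAbsMain.igusaAbs (OK A K) (FractionRing (OK A K)[X]) (ChartF N K (jK N K)⁻¹)
    (CoverGen.CoverField (KummerChart.data (OK A K) M hM))
    (CoverGen.xc (KummerChart.data (OK A K) M hM)) (X ^ M) 1 π 0 φ hπ hφ
    (KummerDatum.coverDatum hM hζ) hV
    (KummerHor.horInput (FractionRing (OK A K)[X]) (ChartF N K (jK N K)⁻¹) hM hπ φ hφ hφalg
      hH0 hH1)

end Charts

/-! ### Assembly -/

/-- The shape of the vertical input (C3) for the two charts. -/
def VertStatement : Prop :=
  ∀ (A : ValuationSubring Qb) (K : IntermediateField ℚ Qb), BaseFacts ℓ A K →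
    A.LiesOverPrime ℓ → ∀ (t : FK N K), t = jK N K ∨ t = (jK N K)⁻¹ →
    ∀ [FaithfulSMul (OK A K)[X] (ChartF N K t)]
      [FiniteDimensional (FractionRing (OK A K)[X]) (ChartF N K t)],
      ChartFacts N A K (chart N A K t) t → ∀ π : OK A K, Irreducible π →
        IgusaTop.VertInput (FractionRing (OK A K)[X]) (ChartF N K t) π

/-- **[Igusa]** `Arith.IgusaStatement` from the vertical input. -/
theorem igusaStatement_of (hVert : VertStatement N ℓ) : Arith.IgusaStatement N ℓ := by
  intro hℓN A hA K hB hM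
  haveI := hB.dvr
  haveI := ResOK.isAlgClosed_residueField_OK ℓ A K hB
  haveI := ChartDeg.faithfulSMul_jK N A K
  haveI := ChartDeg.faithfulSMul_jKinv N A K
  haveI := (ChartDeg.finrank_chartF N A K (jK N K) (Or.inl rfl)).1
  haveI := (ChartDeg.finrank_chartF N A K (jK N K)⁻¹ (Or.inr rfl)).1
  have hφ := ChartBase.phiO_injective A K
  have hφalg := ChartBase.isAlgebraic_phiO A K
  have h0 : IgusaAt N A K (R0 N ℓ A K) := by
    intro π hπ n hn hπn
    have hV := hVert A K hB hA (jK N K) (Or.inl rfl) hM.c0 π hπ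
    refine genAt_of_conclusion N A K (jK N K) π hπ n hn hπn (fun c _ => ?_)
    by_cases h3 : ℓ = 3
    · have h2 : IsUnit (2 : OK A K) := by
        have := ChartBase.isUnit_natCast_OK ℓ A K hA 2 (by rw [h3]; decide)
        simpa using this
      exact conclusion_fin_legendre (ChartBase.phiO A K) hφ hφalg π c hπ h2 hV
        (ChartHorBase.hH_fin N A K)
    · obtain ⟨ω, hω⟩ := ChartBase.exists_omega_OK ℓ A K hB hA h3
      have h3u : IsUnit (3 : OK A K) := by
        have h : ¬ ℓ ∣ 3 := fun h =>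
          h3 ((Nat.prime_dvd_prime_iff_eq (Fact.out : ℓ.Prime) Nat.prime_three).mp h)
        have := ChartBase.isUnit_natCast_OK ℓ A K hA 3 h
        simpa using this
      exact conclusion_fin_hesse (ChartBase.phiO A K) hφ hφalg π c hπ ω hω h3u hV
        (ChartHorBase.hH_fin N A K)
  refine ⟨h0, IgusaTransfer.igusaAt_inf N ℓ A K hB hM h0 ?_⟩
  intro π hπ n hn hπn hj
  have hV := hVert A K hB hA (jK N K)⁻¹ (Or.inr rfl) hM.cInf π hπ
  obtain ⟨ζ, hζ⟩ := ChartBase.exists_primitiveRoot_OK ℓ A K hB hA N hℓN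
  have hconcl := conclusion_inf_kummer (ChartBase.phiO A K) hφ hφalg π hπ (NeZero.pos N) hζ hV
    (ChartHorBase.hH_inf0 N A K) (ChartHorBase.hH_inf1 N A K)
  refine igusaAt_of_conclusion N A K (jK N K)⁻¹ π 0 hconcl n hn hπn ?_
  rw [map_zero, sub_zero]
  exact hj

end Fermat.Agent.S18.Igusa
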