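import Mathlib
import Fermat.Agent.S18.Igusa
import Fermat.Agent.S18.ChartVert
import Fermat.Agent.S18.GRel

/-!
# S18 team library, block [IGUSA] T8: `Arith.IgusaStatement`, unconditional

OWNER: helper65 (only the owner edits this file).

`igusaStatement N ℓ : Arith.IgusaStatement N ℓ` — the arithmetic Igusa statement for both charts
of the model, with no hypothesis left: `Igusa.igusaStatement_of` (helper9, T8 assembly) applied
to the chart vertical input `ChartVert.vertInput_chart` (helper55, (C3)) and
`GRel.gRelStatement`.
-/

set_option autoImplicit false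

namespace Fermat.Agent.S18.IgusaStmt

open Fermat.Agent.S18.Arith

/-- The vertical input (C3) in the shape consumed by `Igusa.igusaStatement_of`. -/
theorem vertStatement (N : ℕ) [NeZero N] (ℓ : ℕ) [Fact ℓ.Prime] : Igusa.VertStatement N ℓ :=
  fun A K hB hA t ht _ _ hC π hπ =>
    ChartVert.vertInput_chart N ℓ A K GRel.gRelStatement hB hA t ht hC π hπ

/-- **[Igusa]** the arithmetic Igusa statement, unconditional. -/
theorem igusaStatement (N : ℕ) [NeZero N] (ℓ : ℕ) [Fact ℓ.Prime] : IgusaStatement N ℓ :=
  Igusa.igusaStatement_of N ℓ (vertStatement N ℓ)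

end Fermat.Agent.S18.IgusaStmt
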