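/-
S18, block [GRel-NF] (helper60): the `π`-adic normal form in the Gauss ring.

Let `O = A ∩ K` be a discrete valuation ring with uniformizer `π`.  Every nonzero quotient
`x = a / b` of two Laurent series with coefficients in `O` is `π ^ γ` times a unit of the Gauss
local ring `G_A`:  there are `γ : ℤ` and `y ≠ 0` with `GRel A (x * π ^ (-γ)) y`.
-/
import Fermat.Agent.S18.ModelPlan

set_option autoImplicit false

noncomputable section

namespace Fermat.Agent.S18.GRelNF

open ModularCurve HahnSeries Fermat.Agent.S18.Arith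

variable (A : ValuationSubring Qb)

/-- A Laurent series over `ℚ̄` with coefficients in `A` comes from a Laurent series over `A`. -/
theorem exists_lift_of_coeff_mem (x : LaurentSeries Qb) (h : ∀ n, x.coeff n ∈ A) :
    ∃ X : LaurentSeries A, coeffMap A.subtype X = x := by
  refine ⟨⟨fun n => ⟨x.coeff n, h n⟩, x.isPWO_support.mono ?_⟩, ?_⟩
  · intro n hn
    rw [Function.mem_support] at hn
    rw [HahnSeries.mem_support]
    intro h0
    exact hn (Subtype.ext h0)
  · ext n
    rfl

/-- Laurent series over the residue field lift to Laurent series over `A`. -/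
theorem exists_lift_residue (y : LaurentSeries (IsLocalRing.ResidueField A)) :
    ∃ Z : LaurentSeries A, coeffMap (IsLocalRing.residue A) Z = y := by
  classical
  have hs : ∀ c : IsLocalRing.ResidueField A, ∃ z : A,
      IsLocalRing.residue A z = c ∧ (c = 0 → z = 0) := by
    intro c
    by_cases hc : c = 0
    · exact ⟨0, by rw [hc, map_zero], fun _ => rfl⟩
    · obtain ⟨z, hz⟩ := IsLocalRing.residue_surjective c
      exact ⟨z, hz, fun h => absurd h hc⟩
  choose s hs1 hs2 using hs
  refine ⟨⟨fun n => s (y.coeff n), y.isPWO_support.mono ?_⟩, ?_⟩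
  · intro n hn
    rw [Function.mem_support] at hn
    rw [HahnSeries.mem_support]
    intro h0
    exact hn (hs2 _ h0)
  · ext n
    exact hs1 _

theorem coeffMap_subtype_injective :
    Function.Injective (coeffMap A.subtype : LaurentSeries A → LaurentSeries Qb) := by
  intro x y h
  ext n
  have := congrArg (fun z : LaurentSeries Qb => z.coeff n) h
  simpa using this

/-- quotients of `A`-integral series with nonzero reduction of the denominator lie in the Gauss
ring, with the expected reduction. -/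
theorem gRel_div (a b : LaurentSeries A) (hb : coeffMap (IsLocalRing.residue A) b ≠ 0) :
    GRel A (coeffMap A.subtype a / coeffMap A.subtype b)
      (coeffMap (IsLocalRing.residue A) a / coeffMap (IsLocalRing.residue A) b) := by
  obtain ⟨Z, hZ⟩ := exists_lift_residue A (coeffMap (IsLocalRing.residue A) b)⁻¹
  have hb0 : coeffMap A.subtype b ≠ 0 := by
    intro h
    apply hb
    have : b = 0 := coeffMap_subtype_injective A (by rw [h, map_zero])
    rw [this, map_zero]
  refine ⟨b * Z, a * Z, ?_, ?_, ?_⟩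
  · rw [map_mul, hZ, mul_inv_cancel₀ hb]
  · rw [map_mul, map_mul]
    field_simp
  · rw [map_mul, hZ, div_eq_mul_inv]

variable {A} in
/-- primitive part of a nonzero series with coefficients in the discrete valuation ring
`O = A ∩ K`. -/
theorem exists_primitive (K : IntermediateField ℚ Qb) [IsDiscreteValuationRing (OK A K)]
    (π : OK A K) (hπ : Irreducible π) (a : LaurentSeries Qb)
    (ha : ∀ n, ∃ c : OK A K, a.coeff n = ((c : K) : Qb)) (ha0 : a ≠ 0) :
    ∃ (α : ℕ) (a1 : LaurentSeries A), coeffMap (IsLocalRing.residue A) a1 ≠ 0 ∧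
      a = HahnSeries.C (((π : K) : Qb)) ^ α * coeffMap A.subtype a1 := by
  classical
  have hπ0 : (((π : K) : Qb)) ≠ 0 := by
    intro h
    apply hπ.ne_zero
    ext
    exact_mod_cast h
  -- the set of valuations of the nonzero coefficients
  let S : Set ℕ := {m | ∃ (n : ℤ) (u : (OK A K)ˣ), a.coeff n = ((((π ^ m * (u : OK A K) : OK A K)) : K) : Qb)}
  have hS : ∃ m, m ∈ S := by
    obtain ⟨n, hn⟩ : ∃ n, a.coeff n ≠ 0 := by
      by_contra hall
      push Not at hall
      exact ha0 (HahnSeries.ext (funext hall))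
    obtain ⟨c, hc⟩ := ha n
    have hc0 : c ≠ 0 := by
      rintro rfl
      exact hn (by rw [hc]; simp)
    obtain ⟨m, hm⟩ := IsDiscreteValuationRing.associated_pow_irreducible hc0 hπ
    obtain ⟨u, hu⟩ := hm.symm
    exact ⟨m, n, u, by rw [hc, ← hu]⟩
  let α := Nat.find hS
  obtain ⟨n0, u0, hn0⟩ : α ∈ S := Nat.find_spec hS
  -- all coefficients are divisible by `π ^ α` in `A`
  have hdiv : ∀ n, (((π : K) : Qb) ^ α)⁻¹ * a.coeff n ∈ A := by
    intro n
    by_cases hn : a.coeff n = 0
    · rw [hn, mul_zero]; exact A.zero_mem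
    obtain ⟨c, hc⟩ := ha n
    have hc0 : c ≠ 0 := by
      rintro rfl
      exact hn (by rw [hc]; simp)
    obtain ⟨m, hm⟩ := IsDiscreteValuationRing.associated_pow_irreducible hc0 hπ
    obtain ⟨u, hu⟩ := hm.symm
    have hmS : m ∈ S := ⟨n, u, by rw [hc, ← hu]⟩
    have hαm : α ≤ m := Nat.find_min' hS hmS
    obtain ⟨d, rfl⟩ := Nat.exists_eq_add_of_le hαm
    have h1 : (((π : K) : Qb) ^ α)⁻¹ * a.coeff n = ((((π ^ d * (u : OK A K) : OK A K)) : K) : Qb) := by
      rw [hc, ← hu]
      push_cast
      field_simp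
      ring
    rw [h1]
    exact (π ^ d * (u : OK A K) : OK A K).2
  obtain ⟨a1, ha1⟩ := exists_lift_of_coeff_mem A (HahnSeries.C ((((π : K) : Qb) ^ α)⁻¹) * a)
    (fun n => by
      rw [HahnSeries.C_mul_eq_smul, HahnSeries.coeff_smul, smul_eq_mul]
      exact hdiv n)
  refine ⟨α, a1, ?_, ?_⟩
  · -- the coefficient at `n0` is a unit
    intro h0
    have h1 : IsLocalRing.residue A (a1.coeff n0) = 0 := by
      have := congrArg (fun z : LaurentSeries (IsLocalRing.ResidueField A) => z.coeff n0) h0
      simpa using this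
    have h2 : ((a1.coeff n0 : A) : Qb) = (((u0 : OK A K) : K) : Qb) := by
      have := congrArg (fun z : LaurentSeries Qb => z.coeff n0) ha1
      simp only [coeffMap_coeff, HahnSeries.C_mul_eq_smul, HahnSeries.coeff_smul, smul_eq_mul,
        ValuationSubring.subtype_apply] at this
      rw [this, hn0]
      push_cast
      field_simp
    -- `u0` is a unit of `A`
    have h3 : IsUnit (a1.coeff n0) := by
      have hu1 : ((((u0⁻¹ : (OK A K)ˣ) : OK A K) : K) : Qb) ∈ A :=
        ((u0⁻¹ : (OK A K)ˣ) : OK A K).2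
      refine IsUnit.of_mul_eq_one ⟨_, hu1⟩ (Subtype.ext ?_)
      show ((a1.coeff n0 : A) : Qb) * ((((u0⁻¹ : (OK A K)ˣ) : OK A K) : K) : Qb) = 1
      rw [h2]
      have h4 : ((u0 : OK A K) * ((u0⁻¹ : (OK A K)ˣ) : OK A K) : OK A K) = 1 := Units.mul_inv u0
      have h5 : ((((u0 : OK A K) * ((u0⁻¹ : (OK A K)ˣ) : OK A K) : OK A K) : K) : Qb) = 1 := by
        rw [h4]; rfl
      exact_mod_cast h5
    exact (IsLocalRing.residue_ne_zero_iff_isUnit _).mpr h3 h1
  · rw [ha1, ← map_pow, ← mul_assoc, ← map_mul, mul_inv_cancel₀ (pow_ne_zero _ hπ0), map_one,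
      one_mul]

/-- **[GRel-NF]** `π`-adic normal form: a nonzero quotient of two Laurent series with
coefficients in the discrete valuation ring `O = A ∩ K` is `π ^ γ` times a unit of the Gauss
ring. -/
theorem gRel_normalForm (K : IntermediateField ℚ Qb) [IsDiscreteValuationRing (OK A K)]
    (π : OK A K) (hπ : Irreducible π) (x a b : LaurentSeries Qb)
    (ha : ∀ n, ∃ c : OK A K, a.coeff n = ((c : K) : Qb))
    (hb : ∀ n, ∃ c : OK A K, b.coeff n = ((c : K) : Qb))
    (hb0 : b ≠ 0) (hx0 : x ≠ 0) (hxb : x * b = a) :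
    ∃ (γ : ℤ) (y : LaurentSeries (IsLocalRing.ResidueField A)), y ≠ 0 ∧
      GRel A (x * HahnSeries.C (((π : K) : Qb)) ^ (-γ)) y := by
  have hπ0 : (((π : K) : Qb)) ≠ 0 := by
    intro h
    apply hπ.ne_zero
    ext
    exact_mod_cast h
  have hC0 : (HahnSeries.C (((π : K) : Qb)) : LaurentSeries Qb) ≠ 0 := by
    intro h
    apply hπ0
    have := congrArg (fun z : LaurentSeries Qb => z.coeff 0) h
    simpa using this
  have ha0 : a ≠ 0 := by
    rw [← hxb]
    exact mul_ne_zero hx0 hb0
  obtain ⟨α, a1, ha1, rfl⟩ := exists_primitive K π hπ a ha ha0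
  obtain ⟨β, b1, hb1, rfl⟩ := exists_primitive K π hπ b hb hb0
  have hb1L : coeffMap A.subtype b1 ≠ 0 := by
    intro h
    apply hb1
    have : b1 = 0 := coeffMap_subtype_injective A (by rw [h, map_zero])
    rw [this, map_zero]
  refine ⟨(α : ℤ) - β, coeffMap (IsLocalRing.residue A) a1 / coeffMap (IsLocalRing.residue A) b1,
    div_ne_zero ha1 hb1, ?_⟩
  have hx : x * HahnSeries.C (((π : K) : Qb)) ^ (-((α : ℤ) - β)) =
      coeffMap A.subtype a1 / coeffMap A.subtype b1 := by
    rw [eq_div_iff hb1L]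
    have h1 : x * HahnSeries.C (((π : K) : Qb)) ^ (-((α : ℤ) - β)) * coeffMap A.subtype b1 =
        (x * (HahnSeries.C (((π : K) : Qb)) ^ β * coeffMap A.subtype b1)) *
          (HahnSeries.C (((π : K) : Qb)) ^ α)⁻¹ := by
      rw [neg_sub, zpow_sub₀ hC0, zpow_natCast, zpow_natCast]
      field_simp
    rw [h1, hxb]
    field_simp
  rw [hx]
  exact gRel_div A a1 b1 hb1

/-- **[GRel-NF]**, in the exact shape of `ModelPlan.lean`. -/
theorem gRelNFStatement : ModelPlan.GRelNFStatement := by
  intro A K hdvr π hπ x a b ha0 hb0 hxb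
  have := hdvr
  have hinc : Function.Injective (incO A K) := by
    intro c d h
    exact Subtype.ext (Subtype.ext h)
  have hinj : Function.Injective (coeffMap (incO A K) : LaurentSeries (OK A K) → LaurentSeries Qb) := by
    intro c d h
    refine HahnSeries.ext (funext fun n => hinc ?_)
    exact congrArg (fun z : LaurentSeries Qb => z.coeff n) h
  have haL : coeffMap (incO A K) a ≠ 0 := fun h => ha0 (hinj (by rw [h, map_zero]))
  have hbL : coeffMap (incO A K) b ≠ 0 := fun h => hb0 (hinj (by rw [h, map_zero]))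
  have hx0 : x ≠ 0 := by
    rintro rfl
    rw [zero_mul] at hxb
    exact haL hxb.symm
  exact gRel_normalForm A K π hπ x (coeffMap (incO A K) a) (coeffMap (incO A K) b)
    (fun n => ⟨a.coeff n, rfl⟩) (fun n => ⟨b.coeff n, rfl⟩) hbL hx0 hxb

end Fermat.Agent.S18.GRelNF
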