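/-
S18 — ModelBasicCore.lean (helper10): block [Basic] of [Model], chart side.

For `O = A ∩ K`, `F_K = K · ℚ(j(q^d) : d ∣ N)` and the charts
`R0 = integral closure of O[j]`, `Rinf = integral closure of O[j⁻¹]` (in `F_K`):

* `jK_ne_zero`            `j ≠ 0`;
* `ratEmb_jd_mem_R0`      every `j(q^d)`, `d ∣ N`, lies in `R0` (modular equations, `S28`);
* `isAlgebraic_FK`        `F_K` is algebraic over `O[j]`;
* `frac0`, `fracInf`      `F_K = Frac R0 = Frac Rinf`;
* `glue0`, `glueInf`      `R0[j⁻¹] = Rinf[j]`;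
* `basicFacts_of`         `ModelPlan.BasicFacts` from its two coefficient-side fields
                          `qfrac`, `jint` (owner: `ModelQFrac.lean`).
-/
import Fermat.Agent.S18.ModelPlan
import Fermat.Agent.S28.HeckeMain
import Fermat.Agent.S28.TowerDefs

set_option autoImplicit false

noncomputable section

namespace Fermat.Agent.S18.ModelBasicCore

open ModularCurve ModularCurve.IgusaScheme HahnSeries Polynomial Fermat.Agent.S18.Arith

/-! ### Generic gluing lemma: integrality over `R[t]` versus `R[t⁻¹]` -/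

section GlueGen

variable {R B : Type*} [CommRing R] [Field B] [Algebra R B]

theorem exists_pow_mul_mem_adjoin_gen {S : Set B} {s : B} (hs : s ∈ S) (hs0 : s ≠ 0) {x : B}
    (hx : x ∈ Algebra.adjoin R (insert s⁻¹ S)) : ∃ n : ℕ, s ^ n * x ∈ Algebra.adjoin R S := by
  have hsA : s ∈ Algebra.adjoin R S := Algebra.subset_adjoin hs
  induction hx using Algebra.adjoin_induction with
  | mem y hy =>
    rcases hy with rfl | hy
    · exact ⟨1, by rw [pow_one, mul_inv_cancel₀ hs0]; exact one_mem _⟩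
    · exact ⟨0, by rw [pow_zero, one_mul]; exact Algebra.subset_adjoin hy⟩
  | algebraMap a => exact ⟨0, by rw [pow_zero, one_mul]; exact Subalgebra.algebraMap_mem _ a⟩
  | add y z _ _ hy hz =>
    obtain ⟨m, hm⟩ := hy
    obtain ⟨n, hn⟩ := hz
    refine ⟨m + n, ?_⟩
    have : s ^ (m + n) * (y + z) = s ^ n * (s ^ m * y) + s ^ m * (s ^ n * z) := by ring
    rw [this]
    exact add_mem (mul_mem (pow_mem hsA n) hm) (mul_mem (pow_mem hsA m) hn)
  | mul y z _ _ hy hz =>
    obtain ⟨m, hm⟩ := hy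
    obtain ⟨n, hn⟩ := hz
    refine ⟨m + n, ?_⟩
    have : s ^ (m + n) * (y * z) = (s ^ m * y) * (s ^ n * z) := by ring
    rw [this]
    exact mul_mem hm hn

/-- If `x` is integral over `R[s⁻¹, S]` with `s ∈ S`, then `s ^ n * x` is integral over `R[S]` for
some `n`. -/
theorem exists_pow_mul_isIntegral_gen {S : Set B} {s : B} (hs : s ∈ S) (hs0 : s ≠ 0) {x : B}
    (hx : IsIntegral (Algebra.adjoin R (insert s⁻¹ S)) x) :
    ∃ n : ℕ, IsIntegral (Algebra.adjoin R S) (s ^ n * x) := by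
  classical
  obtain ⟨p, hmonic, hroot⟩ := hx
  have hcoeff : ∀ i, ∃ n : ℕ, s ^ n * (p.coeff i : B) ∈ Algebra.adjoin R S :=
    fun i => exists_pow_mul_mem_adjoin_gen hs hs0 (p.coeff i).2
  choose n hn using hcoeff
  set M : ℕ := ∑ i ∈ Finset.range (p.natDegree + 1), n i with hM
  have hnM : ∀ i ≤ p.natDegree, n i ≤ M := fun i hi =>
    Finset.single_le_sum (f := n) (fun _ _ => Nat.zero_le _)
      (Finset.mem_range.mpr (Nat.lt_succ_of_le hi))
  set q : B[X] := (p.map (algebraMap (Algebra.adjoin R (insert s⁻¹ S)) B)).scaleRoots (s ^ M)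
    with hq
  have hqmonic : q.Monic := (Polynomial.monic_scaleRoots_iff _).mpr (hmonic.map _)
  have hqroot : q.eval (s ^ M * x) = 0 := by
    rw [hq, Polynomial.scaleRoots_eval_mul, Polynomial.eval_map, hroot, mul_zero]
  have hqcoeff : ∀ i, q.coeff i ∈ Algebra.adjoin R S := by
    intro i
    rw [hq, Polynomial.coeff_scaleRoots, Polynomial.coeff_map, hmonic.natDegree_map]
    by_cases hi : i < p.natDegree
    · have hle : n i ≤ M * (p.natDegree - i) := by
        calc n i ≤ M := hnM i hi.le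
          _ = M * 1 := (mul_one M).symm
          _ ≤ M * (p.natDegree - i) := Nat.mul_le_mul_left M (Nat.one_le_iff_ne_zero.mpr (by omega))
      obtain ⟨k, hk⟩ := Nat.exists_eq_add_of_le hle
      have : (s ^ M) ^ (p.natDegree - i) = s ^ k * s ^ n i := by
        rw [← pow_mul, hk, _root_.pow_add, mul_comm]
      rw [this, Subalgebra.algebraMap_def, Algebra.algebraMap_self_apply,
        show (p.coeff i : B) * (s ^ k * s ^ n i) = s ^ k * (s ^ n i * (p.coeff i : B)) by ring]
      exact mul_mem (pow_mem (Algebra.subset_adjoin hs) k) (hn i)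
    · rcases (not_lt.mp hi).lt_or_eq with hlt | heq
      · rw [Polynomial.coeff_eq_zero_of_natDegree_lt hlt, map_zero, zero_mul]
        exact zero_mem _
      · rw [← heq, hmonic.coeff_natDegree, map_one, one_mul, Nat.sub_self, pow_zero]
        exact one_mem _
  have hlifts : q ∈ Polynomial.lifts (algebraMap (Algebra.adjoin R S) B) :=
    (Polynomial.lifts_iff_coeff_lifts q).mpr fun i => ⟨⟨q.coeff i, hqcoeff i⟩, rfl⟩
  obtain ⟨q', hq'q, -, hq'monic⟩ := Polynomial.lifts_and_natDegree_eq_and_monic hlifts hqmonic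
  refine ⟨M, ⟨q', hq'monic, ?_⟩⟩
  rw [Polynomial.eval₂_eq_eval_map, hq'q, hqroot]

/-- `x` integral over `R[t]` ⇒ `t⁻¹ ^ n * x` integral over `R[t⁻¹]` for some `n`. -/
theorem exists_inv_pow_mul_isIntegral {t : B} (ht : t ≠ 0) {x : B}
    (hx : IsIntegral (Algebra.adjoin R {t}) x) :
    ∃ n : ℕ, IsIntegral (Algebra.adjoin R {t⁻¹}) (t⁻¹ ^ n * x) := by
  refine exists_pow_mul_isIntegral_gen (S := {t⁻¹}) (Set.mem_singleton _) (inv_ne_zero ht) ?_
  rw [inv_inv]
  exact hx.map_of_comp_eq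
    (Subalgebra.inclusion (Algebra.adjoin_mono (by simp))).toRingHom (RingHom.id B)
    (by ext; rfl)

end GlueGen

/-! ### Integrality of the `j(q^d)` over any ring over which `j` is integral -/

/-- Let `ι : E → B((q))` be an injective ring homomorphism whose image contains all `j(q^d)`,
`d ∣ N`.  If the preimage of `j` is integral over `R`, so is the preimage of every `j(q^d)`,
`d ∣ N`: iterate the modular equations `Φ_r(j(q^(e r)), j(q^e)) = 0`. -/
theorem isIntegral_of_eq_jd {E R B : Type*} [CommRing E] [CommRing R] [Algebra R E] [CommRing B]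
    (ι : E →+* LaurentSeries B) (hι : Function.Injective ι) (N : ℕ)
    (hex : ∀ d : ℕ, d ∣ N → d ≠ 0 → ∃ z : E, ι z = S28.jd B d)
    (h1 : ∀ z : E, ι z = S28.jd B 1 → IsIntegral R z) :
    ∀ d : ℕ, d ∣ N → d ≠ 0 → ∀ z : E, ι z = S28.jd B d → IsIntegral R z := by
  intro d
  induction d using Nat.strong_induction_on with
  | _ d ih =>
    intro hdN hd z hz
    rcases eq_or_ne d 1 with rfl | hd1
    · exact h1 z hz
    · have hr : (Nat.minFac d).Prime := Nat.minFac_prime hd1
      obtain ⟨d', hd'⟩ := Nat.minFac_dvd d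
      have hd'0 : d' ≠ 0 := by
        rintro rfl
        exact hd (by rw [hd', mul_zero])
      have hd'lt : d' < d := by
        have h2 : 2 ≤ Nat.minFac d := hr.two_le
        have hpos : 0 < d' := Nat.pos_of_ne_zero hd'0
        calc d' = 1 * d' := (one_mul d').symm
          _ < Nat.minFac d * d' := Nat.mul_lt_mul_of_pos_right (by omega) hpos
          _ = d := hd'.symm
      have hd'N : d' ∣ N := (Dvd.intro_left _ hd'.symm).trans hdN
      obtain ⟨hdat⟩ := S28.exists_heckeData _ hr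
      obtain ⟨z', hz'⟩ := hex d' hd'N hd'0
      have ih' : IsIntegral R z' := ih d' hd'lt hd'N hd'0 z' hz'
      have hroot : (S28.PhiAt hdat.Φ z').eval z = 0 := by
        apply hι
        rw [S28.map_eval_PhiAt, hz, hz', map_zero]
        have := hdat.root_jd B hr.ne_zero d' hd'0
        rwa [mul_comm d' (Nat.minFac d), ← hd'] at this
      -- work over the integral closure
      let C := integralClosure R E
      let y' : C := ⟨z', ih'⟩
      have hint : IsIntegral C z := by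
        refine ⟨S28.PhiAt hdat.Φ y', S28.PhiAt_monic hdat.monic _, ?_⟩
        rw [← Polynomial.eval_map, S28.PhiAt_map]
        exact hroot
      have h2 : z ∈ integralClosure C E := hint
      rw [integralClosure_idem] at h2
      obtain ⟨w, hw⟩ := Algebra.mem_bot.mp h2
      rw [← hw]
      exact w.2

/-! ### The setting `O ⊂ K`, `F_K`, `R0`, `Rinf` -/

section Setting

variable (N : ℕ) [NeZero N] (ℓ : ℕ) [Fact ℓ.Prime]
variable (A : ValuationSubring Qb) (K : IntermediateField ℚ Qb)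

omit [NeZero N] in
theorem coe_ratEmb (x : modularFunctionFieldFull N) :
    ((ratEmb N K x : FK N K) : LaurentSeries Qb) = coeffEmb Qb (x : LaurentSeries ℚ) := rfl

omit [NeZero N] in
theorem coe_constK (c : K) :
    ((constK N K c : FK N K) : LaurentSeries Qb) = HahnSeries.C (c : Qb) := rfl

theorem coe_jK : ((jK N K : FK N K) : LaurentSeries Qb) = S28.jd Qb 1 := by
  rw [S28.jd_one]
  show coeffEmb Qb jq = jqModC Qb
  rw [← jqModC_rat, coeffEmb, coeffMap_jqModC]

/-- `j ≠ 0` in `F_K`. -/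
theorem jK_ne_zero : jK N K ≠ 0 :=
  (map_ne_zero (ratEmb N K)).mpr (jFull_ne_zero N)

omit [NeZero N] in
/-- `j(q^d) ∈ F_ℚ(N)` for `d ∣ N`, in `S28.jd` form. -/
theorem jd_mem_fullQ {d : ℕ} (hd : d ∣ N) (hd0 : d ≠ 0) :
    S28.jd ℚ d ∈ modularFunctionFieldFull N := by
  have : NeZero d := ⟨hd0⟩
  rw [S28.jd_rat]
  exact jqd_mem_full N hd

omit [NeZero N] in
theorem coe_ratEmb_jd {d : ℕ} (hd : d ∣ N) (hd0 : d ≠ 0) :
    ((ratEmb N K ⟨S28.jd ℚ d, jd_mem_fullQ N hd hd0⟩ : FK N K) : LaurentSeries Qb) =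
      S28.jd Qb d := by
  rw [coe_ratEmb]
  exact S28.coeffMap_jd (algebraMap ℚ Qb) d

theorem jK_mem_adjoin : jK N K ∈ Algebra.adjoin (OK A K) {jK N K} :=
  Algebra.subset_adjoin (Set.mem_singleton _)

/-- `j ∈ R0`. -/
theorem jK_mem_R0 : jK N K ∈ R0 N ℓ A K :=
  (mem_chart_iff N A K).mpr
    (isIntegral_algebraMap (x := (⟨jK N K, jK_mem_adjoin N A K⟩ :
      Algebra.adjoin (OK A K) {jK N K})))

/-- `j⁻¹ ∈ Rinf`. -/
theorem jK_inv_mem_Rinf : (jK N K)⁻¹ ∈ Rinf N ℓ A K :=
  (mem_chart_iff N A K).mpr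
    (isIntegral_algebraMap (x := (⟨(jK N K)⁻¹, Algebra.subset_adjoin (Set.mem_singleton _)⟩ :
      Algebra.adjoin (OK A K) {(jK N K)⁻¹})))

/-- Every `j(q^d)`, `d ∣ N`, is integral over `O[j]`. -/
theorem isIntegral_of_coe_eq_jd {d : ℕ} (hd : d ∣ N) (hd0 : d ≠ 0) (z : FK N K)
    (hz : (z : LaurentSeries Qb) = S28.jd Qb d) :
    IsIntegral (Algebra.adjoin (OK A K) {jK N K}) z := by
  refine isIntegral_of_eq_jd (R := Algebra.adjoin (OK A K) {jK N K}) (FK N K).subtype
    Subtype.val_injective N ?_ ?_ d hd hd0 z hz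
  · intro e he he0
    exact ⟨ratEmb N K ⟨S28.jd ℚ e, jd_mem_fullQ N he he0⟩, coe_ratEmb_jd N K he he0⟩
  · intro w hw
    have hw' : w = jK N K := Subtype.ext (hw.trans (coe_jK N K).symm)
    rw [hw']
    exact isIntegral_algebraMap (x := (⟨jK N K, jK_mem_adjoin N A K⟩ :
      Algebra.adjoin (OK A K) {jK N K}))

/-- Every `j(q^d)`, `d ∣ N`, lies in `R0`. -/
theorem ratEmb_jd_mem_R0 {d : ℕ} (hd : d ∣ N) (hd0 : d ≠ 0) :
    ratEmb N K ⟨S28.jd ℚ d, jd_mem_fullQ N hd hd0⟩ ∈ R0 N ℓ A K :=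
  (mem_chart_iff N A K).mpr
    (isIntegral_of_coe_eq_jd N A K hd hd0 _ (coe_ratEmb_jd N K hd hd0))

/-! ### `F_K` is algebraic over `O[j]` -/

/-- The subfield of `F_K` of elements algebraic over `O[j]`. -/
def algSub : Subfield (FK N K) where
  carrier := {z | IsAlgebraic (Algebra.adjoin (OK A K) {jK N K}) z}
  mul_mem' ha hb := ha.mul hb
  one_mem' := isAlgebraic_one
  add_mem' ha hb := ha.add hb
  zero_mem' := isAlgebraic_zero
  neg_mem' ha := ha.neg
  inv_mem' _ ha := ha.inv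

theorem mem_algSub {z : FK N K} :
    z ∈ algSub N A K ↔ IsAlgebraic (Algebra.adjoin (OK A K) {jK N K}) z := Iff.rfl

/-- Constants are algebraic over `O[j]` (`K = Frac O`). -/
theorem constK_mem_algSub (c : K) : constK N K c ∈ algSub N A K := by
  rw [mem_algSub]
  have key : ∀ c' : OK A K,
      IsAlgebraic (Algebra.adjoin (OK A K) {jK N K}) (constK N K (c' : K)) := by
    intro c'
    have h : constK N K (c' : K) =
        algebraMap (Algebra.adjoin (OK A K) {jK N K}) (FK N K)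
          (algebraMap (OK A K) (Algebra.adjoin (OK A K) {jK N K}) c') := rfl
    rw [h]
    exact isAlgebraic_algebraMap _
  rcases A.mem_or_inv_mem (c : Qb) with h | h
  · exact key ⟨c, h⟩
  · have h' : ((c⁻¹ : K) : Qb) ∈ A := by
      simpa using h
    have h2 := key ⟨c⁻¹, h'⟩
    rw [show constK N K ((⟨c⁻¹, h'⟩ : OK A K) : K) = (constK N K c)⁻¹ from map_inv₀ _ c] at h2
    exact IsAlgebraic.inv_iff.mp h2

/-- The rational function field is algebraic over `O[j]`. -/
theorem ratEmb_mem_algSub (y : modularFunctionFieldFull N) : ratEmb N K y ∈ algSub N A K := by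
  have hle : (modularFunctionFieldFull N).toSubfield ≤
      ((algSub N A K).comap (ratEmb N K)).map (modularFunctionFieldFull N).toSubfield.subtype := by
    have hgen : (modularFunctionFieldFull N).toSubfield =
        Subfield.closure (Set.range (algebraMap ℚ (LaurentSeries ℚ)) ∪ divisorExpansions N) :=
      IntermediateField.adjoin_toSubfield ℚ (divisorExpansions N)
    refine le_trans (le_of_eq hgen) (Subfield.closure_le.mpr (Set.union_subset ?_ ?_))
    · rintro _ ⟨r, rfl⟩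
      refine ⟨algebraMap ℚ (modularFunctionFieldFull N) r, ?_,
        RingHom.congr_fun (Subsingleton.elim
          ((modularFunctionFieldFull N).toSubfield.subtype.comp
            (algebraMap ℚ (modularFunctionFieldFull N)))
          (algebraMap ℚ (LaurentSeries ℚ))) r⟩
      show ratEmb N K (algebraMap ℚ (modularFunctionFieldFull N) r) ∈ algSub N A K
      have h : ratEmb N K (algebraMap ℚ (modularFunctionFieldFull N) r) =
          constK N K (algebraMap ℚ K r) :=
        RingHom.congr_fun (Subsingleton.elim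
          ((ratEmb N K).comp (algebraMap ℚ (modularFunctionFieldFull N)))
          ((constK N K).comp (algebraMap ℚ K))) r
      rw [h]
      exact constK_mem_algSub N A K _
    · rintro _ ⟨d, hne, hd, rfl⟩
      have := hne
      refine ⟨⟨qExpand ℚ d jq, jqd_mem_full N hd⟩, ?_, rfl⟩
      show ratEmb N K ⟨qExpand ℚ d jq, jqd_mem_full N hd⟩ ∈ algSub N A K
      rw [mem_algSub]
      refine (isIntegral_of_coe_eq_jd N A K hd (NeZero.ne d) _ ?_).isAlgebraic
      rw [coe_ratEmb]
      show coeffEmb Qb (qExpand ℚ d jq) = S28.jd Qb d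
      rw [← S28.jd_rat]
      exact S28.coeffMap_jd (algebraMap ℚ Qb) d
  obtain ⟨z, hz, hzy⟩ := hle y.2
  have : z = y := Subtype.ext hzy
  rw [← this]
  exact hz

/-- `F_K` is algebraic over `O[j]`. -/
theorem isAlgebraic_FK (x : FK N K) : IsAlgebraic (Algebra.adjoin (OK A K) {jK N K}) x := by
  have hle : FK N K ≤ (algSub N A K).map (FK N K).subtype := by
    refine Subfield.closure_le.mpr (Set.union_subset ?_ ?_)
    · rintro _ ⟨c, rfl⟩
      exact ⟨constK N K c, constK_mem_algSub N A K c, rfl⟩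
    · rintro _ ⟨y, rfl⟩
      exact ⟨ratEmb N K y, ratEmb_mem_algSub N A K y, rfl⟩
  obtain ⟨z, hz, hzx⟩ := hle x.2
  have : z = x := Subtype.ext hzx
  rw [← this]
  exact hz

/-! ### Fractions and gluing -/

/-- `F_K = Frac R0`. -/
theorem frac0 (x : FK N K) :
    ∃ a ∈ R0 N ℓ A K, ∃ b ∈ R0 N ℓ A K, b ≠ 0 ∧ x * b = a := by
  obtain ⟨y, hy0, hy⟩ := (isAlgebraic_FK N A K x).exists_integral_multiple
  refine ⟨y • x, (mem_chart_iff N A K).mpr hy,
    algebraMap (Algebra.adjoin (OK A K) {jK N K}) (FK N K) y,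
    (mem_chart_iff N A K).mpr isIntegral_algebraMap, ?_, ?_⟩
  · intro h
    exact hy0 (Subtype.ext h)
  · rw [mul_comm, Algebra.smul_def]

/-- `R0 ⊆ Rinf[j]`. -/
theorem glue0 (x : FK N K) (hx : x ∈ R0 N ℓ A K) :
    ∃ n : ℕ, x * (jK N K)⁻¹ ^ n ∈ Rinf N ℓ A K := by
  obtain ⟨n, hn⟩ := exists_inv_pow_mul_isIntegral (R := OK A K) (jK_ne_zero N K)
    ((mem_chart_iff N A K).mp hx)
  exact ⟨n, (mem_chart_iff N A K).mpr (by rw [mul_comm]; exact hn)⟩

/-- `Rinf ⊆ R0[j⁻¹]`. -/
theorem glueInf (x : FK N K) (hx : x ∈ Rinf N ℓ A K) :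
    ∃ n : ℕ, x * (jK N K) ^ n ∈ R0 N ℓ A K := by
  obtain ⟨n, hn⟩ := exists_inv_pow_mul_isIntegral (R := OK A K) (inv_ne_zero (jK_ne_zero N K))
    ((mem_chart_iff N A K).mp hx)
  rw [inv_inv] at hn
  exact ⟨n, (mem_chart_iff N A K).mpr (by rw [mul_comm]; exact hn)⟩

/-- `F_K = Frac Rinf`. -/
theorem fracInf (x : FK N K) :
    ∃ a ∈ Rinf N ℓ A K, ∃ b ∈ Rinf N ℓ A K, b ≠ 0 ∧ x * b = a := by
  obtain ⟨a, ha, b, hb, hb0, hab⟩ := frac0 N ℓ A K x
  obtain ⟨n, hn⟩ := glue0 N ℓ A K a ha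
  obtain ⟨m, hm⟩ := glue0 N ℓ A K b hb
  have hj : (jK N K)⁻¹ ∈ Rinf N ℓ A K := jK_inv_mem_Rinf N ℓ A K
  refine ⟨a * (jK N K)⁻¹ ^ n * (jK N K)⁻¹ ^ m, mul_mem hn (pow_mem hj m),
    b * (jK N K)⁻¹ ^ m * (jK N K)⁻¹ ^ n, mul_mem hm (pow_mem hj n), ?_, ?_⟩
  · exact mul_ne_zero (mul_ne_zero hb0 (pow_ne_zero _ (inv_ne_zero (jK_ne_zero N K))))
      (pow_ne_zero _ (inv_ne_zero (jK_ne_zero N K)))
  · rw [← hab]
    ring

/-- **[Basic]** from its coefficient-side fields `qfrac`, `jint`. -/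
theorem basicFacts_of
    (hq : ∀ x : FK N K, ∃ a b : LaurentSeries (OK A K), b ≠ 0 ∧
      ((x : FK N K) : LaurentSeries Qb) * coeffMap (incO A K) b = coeffMap (incO A K) a)
    (hj : ∃ J Jinv : LaurentSeries (OK A K),
      coeffMap (incO A K) J = ((jK N K : FK N K) : LaurentSeries Qb) ∧
      coeffMap (incO A K) Jinv = (((jK N K)⁻¹ : FK N K) : LaurentSeries Qb)) :
    ModelPlan.BasicFacts N ℓ A K where
  j_ne := jK_ne_zero N K
  frac0 := frac0 N ℓ A K
  fracInf := fracInf N ℓ A K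
  glue0 := glue0 N ℓ A K
  glueInf := glueInf N ℓ A K
  qfrac := hq
  jint := hj

end Setting

end Fermat.Agent.S18.ModelBasicCore
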