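/-
S18 — ModelQFrac.lean (helper7): the coefficient side of block [Basic] of the arithmetic half.

* `qfrac` : every element of `F_K` is a quotient of two Laurent series with coefficients in
  `O = A ∩ K` (field `qfrac` of `ModelPlan.BasicFacts`);
* `jint`  : `j` and `j⁻¹` have `q`-expansions with coefficients in `O` (field `jint`).
-/
import Fermat.Agent.S18.ModelPlan
import Fermat.Agent.S28.Defs

set_option autoImplicit false

noncomputable section

namespace Fermat.Agent.S18.ModelQFrac

open ModularCurve ModularCurve.IgusaScheme HahnSeries Fermat.Agent.S18.Arith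
  Fermat.Agent.S18.ModelPlan Fermat.Agent.S28

/-! ### The inverse of `j` over any ring -/

section JInv

variable (R : Type*) [CommRing R]

/-- `j⁻¹` as a Laurent series over `R`. -/
def jInvL : LaurentSeries R :=
  HahnSeries.single (1 : ℤ) 1 *
    HahnSeries.ofPowerSeries ℤ R ((jNum.invOfUnit 1).map (Int.castRingHom R))

theorem jqModC_mul_jInvL : jqModC R * jInvL R = 1 := by
  have h1 : jNum * jNum.invOfUnit 1 = 1 :=
    PowerSeries.mul_invOfUnit jNum 1 (by rw [constantCoeff_jNum, Units.val_one])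
  have h2 : jNum.map (Int.castRingHom R) * (jNum.invOfUnit 1).map (Int.castRingHom R) = 1 := by
    rw [← map_mul, h1, map_one]
  rw [jqModC, jInvL, mul_mul_mul_comm, HahnSeries.single_mul_single, ← map_mul, h2, map_one,
    mul_one, mul_one]
  rfl

variable {R} in
theorem coeffMap_jInvL {S : Type*} [CommRing S] (f : R →+* S) :
    coeffMap f (jInvL R) = jInvL S := by
  rw [jInvL, map_mul, coeffMap_single, map_one, coeffMap_ofPowerSeries,
    ← RingHom.comp_apply (PowerSeries.map f) (PowerSeries.map (Int.castRingHom R)),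
    ← PowerSeries.map_comp, RingHom.ext_int (f.comp (Int.castRingHom R)) (Int.castRingHom S)]
  rfl

end JInv

variable (N : ℕ) [NeZero N] (A : ValuationSubring Qb) (K : IntermediateField ℚ Qb)

theorem incO_injective : Function.Injective (incO A K) := by
  intro x y h
  apply Subtype.ext
  exact (algebraMap K Qb).injective h

theorem coeffMap_incO_injective :
    Function.Injective (coeffMap (incO A K) : LaurentSeries (OK A K) → LaurentSeries Qb) := by
  intro X Y h
  refine HahnSeries.ext (funext fun n => ?_)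
  have h1 := congrArg (fun z : LaurentSeries Qb => z.coeff n) h
  exact incO_injective A K (by simpa using h1)

/-- The field of fractions of `O((q))` inside `ℚ̄((q))`. -/
def fracO : Subfield (LaurentSeries Qb) where
  carrier := {x | ∃ a b : LaurentSeries (OK A K), b ≠ 0 ∧
    x * coeffMap (incO A K) b = coeffMap (incO A K) a}
  mul_mem' := by
    rintro x x' ⟨a, b, hb, h⟩ ⟨a', b', hb', h'⟩
    refine ⟨a * a', b * b', mul_ne_zero hb hb', ?_⟩
    rw [map_mul, map_mul, ← h, ← h']
    ring
  one_mem' := ⟨1, 1, one_ne_zero, by rw [map_one, mul_one]⟩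
  add_mem' := by
    rintro x x' ⟨a, b, hb, h⟩ ⟨a', b', hb', h'⟩
    refine ⟨a * b' + a' * b, b * b', mul_ne_zero hb hb', ?_⟩
    rw [map_add, map_mul, map_mul, map_mul, ← h, ← h']
    ring
  zero_mem' := ⟨0, 1, one_ne_zero, by rw [map_zero, zero_mul]⟩
  neg_mem' := by
    rintro x ⟨a, b, hb, h⟩
    exact ⟨-a, b, hb, by rw [map_neg, ← h, neg_mul]⟩
  inv_mem' := by
    rintro x ⟨a, b, hb, h⟩
    by_cases hx : x = 0
    · exact ⟨0, 1, one_ne_zero, by rw [hx, inv_zero, map_zero, zero_mul]⟩
    · have ha : a ≠ 0 := by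
        rintro rfl
        rw [map_zero] at h
        rcases mul_eq_zero.mp h with h0 | h0
        · exact hx h0
        · exact hb (coeffMap_incO_injective A K (h0.trans (map_zero _).symm))
      exact ⟨b, a, ha, by rw [← h, ← mul_assoc, inv_mul_cancel₀ hx, one_mul]⟩

theorem mem_fracO_iff {x : LaurentSeries Qb} :
    x ∈ fracO A K ↔ ∃ a b : LaurentSeries (OK A K), b ≠ 0 ∧
      x * coeffMap (incO A K) b = coeffMap (incO A K) a := Iff.rfl

/-- Series with coefficients in `O` lie in `fracO`. -/
theorem coeffMap_mem_fracO (X : LaurentSeries (OK A K)) : coeffMap (incO A K) X ∈ fracO A K :=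
  ⟨X, 1, one_ne_zero, by rw [map_one, mul_one]⟩

/-- Constants of `K` lie in `fracO`. -/
theorem C_mem_fracO (c : K) : (HahnSeries.C (c : Qb) : LaurentSeries Qb) ∈ fracO A K := by
  rcases (OK A K).mem_or_inv_mem c with h | h
  · have h1 : coeffMap (incO A K) (HahnSeries.C (⟨c, h⟩ : OK A K))
        = (HahnSeries.C (c : Qb) : LaurentSeries Qb) := by
      rw [HahnSeries.C_apply, coeffMap_single]
      rfl
    rw [← h1]
    exact coeffMap_mem_fracO A K _
  · have h1 : coeffMap (incO A K) (HahnSeries.C (⟨c⁻¹, h⟩ : OK A K))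
        = (HahnSeries.C (c : Qb) : LaurentSeries Qb)⁻¹ := by
      rw [HahnSeries.C_apply, coeffMap_single, ← map_inv₀]
      rfl
    have h2 := (fracO A K).inv_mem (coeffMap_mem_fracO A K (HahnSeries.C (⟨c⁻¹, h⟩ : OK A K)))
    rwa [h1, inv_inv] at h2

omit [NeZero N] in
/-- `q`-expansions of elements of `F_ℚ(N)` lie in `fracO`. -/
theorem coeffEmb_mem_fracO {x : LaurentSeries ℚ} (hx : x ∈ modularFunctionFieldFull N) :
    coeffEmb Qb x ∈ fracO A K := by
  have h1 : x ∈ Subfield.closure
      (Set.range (algebraMap ℚ (LaurentSeries ℚ)) ∪ divisorExpansions N) := hx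
  have h2 : Subfield.closure (Set.range (algebraMap ℚ (LaurentSeries ℚ)) ∪ divisorExpansions N)
      ≤ (fracO A K).comap (coeffEmb Qb) := by
    rw [Subfield.closure_le]
    rintro y (⟨c, rfl⟩ | ⟨d, hd, -, rfl⟩)
    · change coeffEmb Qb (algebraMap ℚ (LaurentSeries ℚ) c) ∈ fracO A K
      have h3 : coeffEmb Qb (algebraMap ℚ (LaurentSeries ℚ) c)
          = (HahnSeries.C (((algebraMap ℚ K c : K)) : Qb) : LaurentSeries Qb) := by
        rw [algebraMap_apply_eq_single, coeffEmb, coeffMap_single, HahnSeries.C_apply]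
        rfl
      rw [h3]
      exact C_mem_fracO A K _
    · change coeffEmb Qb (qExpand ℚ d jq) ∈ fracO A K
      have h3 : coeffEmb Qb (qExpand ℚ d jq) = coeffMap (incO A K) (jd (OK A K) d) := by
        rw [coeffMap_jd, ← jd_rat, coeffEmb, coeffMap_jd]
      rw [h3]
      exact coeffMap_mem_fracO A K _
  exact h2 h1

omit [NeZero N] in
theorem FK_le_fracO : FK N K ≤ fracO A K := by
  rw [FK, Subfield.closure_le]
  rintro y (⟨c, rfl⟩ | ⟨x, rfl⟩)
  · exact C_mem_fracO A K c
  · exact coeffEmb_mem_fracO N A K x.2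

/-- **[Basic].qfrac** every element of `F_K` is a quotient of two Laurent series with
coefficients in `O`. -/
theorem qfrac (N : ℕ) [NeZero N] (A : ValuationSubring Qb) (K : IntermediateField ℚ Qb) :
    ∀ x : FK N K, ∃ a b : LaurentSeries (OK A K), b ≠ 0 ∧
      ((x : FK N K) : LaurentSeries Qb) * coeffMap (incO A K) b = coeffMap (incO A K) a :=
  fun x => FK_le_fracO N A K x.2

/-- The `q`-expansion of `j ∈ F_K`. -/
theorem coe_jK : ((jK N K : FK N K) : LaurentSeries Qb) = jqModC Qb := by
  change coeffEmb Qb jq = jqModC Qb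
  rw [← jqModC_rat, coeffEmb, coeffMap_jqModC]

/-- **[Basic].jint** `j` and `j⁻¹` have `q`-expansions with coefficients in `O`. -/
theorem jint (N : ℕ) [NeZero N] (A : ValuationSubring Qb) (K : IntermediateField ℚ Qb) :
    ∃ J Jinv : LaurentSeries (OK A K),
      coeffMap (incO A K) J = ((jK N K : FK N K) : LaurentSeries Qb) ∧
      coeffMap (incO A K) Jinv = (((jK N K)⁻¹ : FK N K) : LaurentSeries Qb) := by
  refine ⟨jqModC (OK A K), jInvL (OK A K), ?_, ?_⟩
  · rw [coe_jK, coeffMap_jqModC]
  · change coeffMap (incO A K) (jInvL (OK A K)) = ((jK N K : FK N K) : LaurentSeries Qb)⁻¹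
    rw [coe_jK, coeffMap_jInvL]
    exact eq_inv_of_mul_eq_one_right (jqModC_mul_jInvL Qb)

end Fermat.Agent.S18.ModelQFrac
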