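/-
S18 — ModelBasic.lean (helper10): block [Basic] of [Model]:
`basicStatement N ℓ : ModelPlan.BasicStatement N ℓ`.

Chart side (`j ≠ 0`, fractions, gluing): `ModelBasicCore.lean`.
Coefficient side (`qfrac`, `jint`): `ModelQFrac.lean` (helper7).
-/
import Fermat.Agent.S18.ModelBasicCore
import Fermat.Agent.S18.ModelQFrac

set_option autoImplicit false

namespace Fermat.Agent.S18.ModelBasic

open Fermat.Agent.S18.Arith

/-- **[Basic]** elementary facts on `F_K` and the two charts, for every `A` and `K`. -/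
theorem basicFacts (N : ℕ) [NeZero N] (ℓ : ℕ) [Fact ℓ.Prime] (A : ValuationSubring Qb)
    (K : IntermediateField ℚ Qb) : ModelPlan.BasicFacts N ℓ A K :=
  ModelBasicCore.basicFacts_of N ℓ A K (ModelQFrac.qfrac N A K) (ModelQFrac.jint N A K)

/-- **[Basic]**. -/
theorem basicStatement (N : ℕ) [NeZero N] (ℓ : ℕ) [Fact ℓ.Prime] : ModelPlan.BasicStatement N ℓ :=
  fun A K => basicFacts N ℓ A K

end Fermat.Agent.S18.ModelBasic
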