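/-
S18, block [Model], sub-leaf [Fin] (owner: helper14): the charts `R0`, `Rinf` (integral closures
of `O[j]`, `O[j⁻¹]` in `F_K`) are contained in finitely generated `O[j]`-, resp.
`O[j⁻¹]`-submodules of `F_K`.

* abstract core (Mathlib only): `isIntegrallyClosed_adjoin_of_transcendental` (`O[t] ≅ O[X]` is
  integrally closed) and `exists_finset_span_of_isIntegral` (trace-dual basis bound for the
  integral closure in a finite separable extension of `Frac A`);
* `transcendental_jK`, `transcendental_jK_inv`, `aeval_jK_injective`, `aeval_jK_inv_injective`: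
  `j`, `j⁻¹` are transcendental over `O = A ∩ K`;
* `gens`, `gens_finite`, `mem_closure_gens`: `F_K` is generated as a field by `O[t]` and the
  finitely many `j(q^d)`, `d ∣ N`;
* `fin_chart`, `finStatement` : `ModelPlan.FinStatement N ℓ` from `ModelPlan.BasicStatement N ℓ`
  (only `frac0`, `fracInf` are used: `F_K` is algebraic over `O[j]`, `O[j⁻¹]`).
-/
import Mathlib
import Fermat.Agent.S18.ModelPlan
import Fermat.Agent.S24.TranscJ

set_option autoImplicit false

noncomputable section

namespace Fermat.Agent.S18.ModelFin

open ModularCurve ModularCurve.IgusaScheme HahnSeries Fermat.Agent.S18.Arith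
open Fermat.Agent.S18.ModelPlan Polynomial

section Abstract

variable {O E : Type*} [CommRing O] [IsDomain O] [IsIntegrallyClosed O] [Field E] [Algebra O E]

/-- `O[t]` is integrally closed for `t` transcendental over an integrally closed domain `O`. -/
theorem isIntegrallyClosed_adjoin_of_transcendental (t : E) (ht : Transcendental O t) :
    IsIntegrallyClosed (Algebra.adjoin O {t}) := by
  have hinj : Function.Injective (aeval (R := O) t) := transcendental_iff_injective.1 ht
  let e1 : O[X] ≃ₐ[O] (aeval (R := O) t).range := AlgEquiv.ofInjective _ hinj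
  have h2 : (aeval (R := O) t).range = Algebra.adjoin O {t} :=
    (Algebra.adjoin_singleton_eq_range_aeval O t).symm
  let e2 : O[X] ≃ₐ[O] Algebra.adjoin O {t} := e1.trans (Subalgebra.equivOfEq _ _ h2)
  exact IsIntegrallyClosed.of_equiv e2.toRingEquiv


/-- **Abstract finiteness of an integral closure.** Let `A` be an integrally closed subalgebra of
a field `E` of characteristic zero such that `E` is algebraic over `A` and generated as a field
by `A` and a finite set.  Then the integral closure of `A` in `E` is contained in a finitely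
generated `A`-submodule of `E`. -/
theorem exists_finset_span_of_isIntegral [CharZero E] (A : Subalgebra O E)
    [IsIntegrallyClosed A]
    (halg : ∀ x : E, IsAlgebraic A x)
    (s₀ : Finset E) (hgen : ∀ x : E, x ∈ Subfield.closure ((A : Set E) ∪ (s₀ : Set E))) :
    ∃ s : Finset E, ∀ x : E, IsIntegral A x → x ∈ Submodule.span A (s : Set E) := by
  classical
  let _ : Algebra (FractionRing A) E := FractionRing.liftAlgebra A E
  have : IsScalarTower A (FractionRing A) E := FractionRing.isScalarTower_liftAlgebra A E
  have hint : ∀ x : E, IsIntegral (FractionRing A) x := fun x =>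
    ((IsFractionRing.isAlgebraic_iff A (FractionRing A) E).1 (halg x)).isIntegral
  have htop : IntermediateField.adjoin (FractionRing A) (s₀ : Set E) = ⊤ := by
    rw [eq_top_iff]
    intro x _
    have hle : Subfield.closure ((A : Set E) ∪ (s₀ : Set E)) ≤
        (IntermediateField.adjoin (FractionRing A) (s₀ : Set E)).toSubfield := by
      rw [Subfield.closure_le]
      rintro y (hy | hy)
      · have h1 : y = algebraMap (FractionRing A) E (algebraMap A (FractionRing A) ⟨y, hy⟩) := by
          rw [← IsScalarTower.algebraMap_apply]; rfl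
        rw [h1]
        exact IntermediateField.algebraMap_mem _ _
      · exact IntermediateField.subset_adjoin _ _ hy
    exact hle (hgen x)
  have hfd0 : FiniteDimensional (FractionRing A)
      (IntermediateField.adjoin (FractionRing A) (s₀ : Set E)) :=
    IntermediateField.finiteDimensional_adjoin fun x _ => hint x
  have hfd : FiniteDimensional (FractionRing A) E :=
    Module.Finite.of_surjective
      (IntermediateField.val (IntermediateField.adjoin (FractionRing A) (s₀ : Set E))).toLinearMap
      (fun x => ⟨⟨x, by rw [htop]; trivial⟩, rfl⟩)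
  have hchar : CharZero (FractionRing A) := by
    have hA : CharZero A := by
      refine ⟨fun m n hmn => ?_⟩
      have := congrArg (fun a : A => (a : E)) hmn
      simpa using this
    exact IsFractionRing.charZero A
  obtain ⟨ι, b, hb⟩ := FiniteDimensional.exists_is_basis_integral A (FractionRing A) E
  have hle := integralClosure_le_span_dualBasis (A := A) (K := FractionRing A) (L := E) b hb
  refine ⟨Finset.univ.image ((Algebra.traceForm (FractionRing A) E).dualBasis
    (traceForm_nondegenerate (FractionRing A) E) b), fun x hx => ?_⟩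
  have h1 : x ∈ Subalgebra.toSubmodule (integralClosure A E) := hx
  have h2 := hle h1
  rw [Finset.coe_image, Finset.coe_univ, Set.image_univ]
  exact h2


end Abstract

section Concrete

variable (N : ℕ) [NeZero N] (A : ValuationSubring Qb) (K : IntermediateField ℚ Qb)

theorem coe_algebraMap_OK (c : OK A K) :
    ((algebraMap (OK A K) (FK N K) c : FK N K) : LaurentSeries Qb) =
      (HahnSeries.C (incO A K c) : LaurentSeries Qb) := rfl

theorem coe_jK : ((jK N K : FK N K) : LaurentSeries Qb) = coeffEmb Qb jq := rfl

theorem incO_injective : Function.Injective (incO A K) := by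
  intro x y h
  have h1 : ((x : K) : Qb) = ((y : K) : Qb) := h
  exact Subtype.ext (Subtype.ext h1)

/-- Evaluation of polynomials over `O` at `j`, computed in `ℚ̄((q))`. -/
theorem coe_aeval_jK (P : Polynomial (OK A K)) :
    ((Polynomial.aeval (jK N K) P : FK N K) : LaurentSeries Qb) =
      Polynomial.aeval (coeffEmb Qb jq) (P.map (incO A K)) := by
  have h1 := Polynomial.hom_eval₂ P (algebraMap (OK A K) (FK N K)) (FK N K).subtype (jK N K)
  rw [Polynomial.aeval_def, Polynomial.aeval_def, Polynomial.eval₂_map]
  have h2 : (FK N K).subtype.comp (algebraMap (OK A K) (FK N K)) =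
      (algebraMap Qb (LaurentSeries Qb)).comp (incO A K) := by
    ext c : 1
    show (HahnSeries.C (incO A K c) : LaurentSeries Qb) = algebraMap Qb (LaurentSeries Qb) (incO A K c)
    rw [algebraMap_laurentSeries_eq_single]
    rfl
  rw [h2] at h1
  exact h1

/-- `j` is transcendental over `O`. -/
theorem transcendental_jK : Transcendental (OK A K) (jK N K) := by
  rintro ⟨P, hP0, hP⟩
  have h1 := coe_aeval_jK N A K P
  rw [hP] at h1
  have h2 : Polynomial.aeval (coeffEmb Qb jq) (P.map (incO A K)) = 0 := h1.symm
  have h3 : P.map (incO A K) ≠ 0 :=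
    (Polynomial.map_ne_zero_iff (incO_injective A K)).2 hP0
  exact Fermat.Agent.S24.transcendental_coeffEmb_jq Qb ⟨_, h3, h2⟩

theorem transcendental_jK_inv : Transcendental (OK A K) (jK N K)⁻¹ := fun h =>
  transcendental_jK N A K (IsAlgebraic.inv_iff.1 h)

theorem aeval_jK_injective :
    Function.Injective (Polynomial.aeval (R := OK A K) (jK N K)) :=
  transcendental_iff_injective.1 (transcendental_jK N A K)

theorem aeval_jK_inv_injective :
    Function.Injective (Polynomial.aeval (R := OK A K) (jK N K)⁻¹) :=
  transcendental_iff_injective.1 (transcendental_jK_inv N A K)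

/-! ### Generation of `F_K` -/

/-- The generators `j(q^d)`, `d ∣ N`, of `F_K`. -/
def gens : Set (FK N K) :=
  {x | ∃ f : modularFunctionFieldFull N,
    (f : LaurentSeries ℚ) ∈ divisorExpansions N ∧ x = ratEmb N K f}

theorem divisorExpansions_finite : (divisorExpansions N).Finite := by
  classical
  let g : ℕ → LaurentSeries ℚ := fun d =>
    if h : d = 0 then 0 else haveI : NeZero d := ⟨h⟩; qExpand ℚ d jq
  refine Set.Finite.subset ((N.divisors : Set ℕ).toFinite.image g) ?_
  rintro x ⟨d, hne, hd, rfl⟩
  refine ⟨d, ?_, ?_⟩
  · simp only [Finset.mem_coe, Nat.mem_divisors]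
    exact ⟨hd, NeZero.ne N⟩
  · simp only [g]
    rw [dif_neg (NeZero.ne d)]

theorem gens_finite : (gens N K).Finite := by
  have h1 : {f : modularFunctionFieldFull N | (f : LaurentSeries ℚ) ∈ divisorExpansions N}.Finite :=
    (divisorExpansions_finite N).preimage Subtype.val_injective.injOn
  refine Set.Finite.subset (h1.image (ratEmb N K)) ?_
  rintro x ⟨f, hf, rfl⟩
  exact ⟨f, hf, rfl⟩

/-- `F_K` is generated, as a field, by `O[t]` (any `t`) and the finitely many `j(q^d)`. -/
theorem mem_closure_gens (t : FK N K) (x : FK N K) :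
    x ∈ Subfield.closure (((Algebra.adjoin (OK A K) {t} : Subalgebra (OK A K) (FK N K)) :
      Set (FK N K)) ∪ gens N K) := by
  set T : Subfield (FK N K) := Subfield.closure
    (((Algebra.adjoin (OK A K) {t} : Subalgebra (OK A K) (FK N K)) : Set (FK N K)) ∪ gens N K)
    with hT
  -- constants of `O`
  have hO : ∀ c : OK A K, algebraMap (OK A K) (FK N K) c ∈ T := fun c =>
    Subfield.subset_closure (Or.inl (Subalgebra.algebraMap_mem _ c))
  -- constants of `K`
  have hK : ∀ c : K, constK N K c ∈ T := by
    intro c
    rcases (OK A K).mem_or_inv_mem c with hc | hc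
    · exact hO ⟨c, hc⟩
    · have h1 : constK N K c = (constK N K c⁻¹)⁻¹ := by rw [map_inv₀, inv_inv]
      rw [h1]
      exact T.inv_mem (hO ⟨c⁻¹, hc⟩)
  -- the rational function field
  have hF : ∀ (y : LaurentSeries ℚ) (hy : y ∈ modularFunctionFieldFull N),
      ratEmb N K ⟨y, hy⟩ ∈ T := by
    intro y hy
    induction hy using IntermediateField.adjoin_induction with
    | mem y hy => exact Subfield.subset_closure (Or.inr ⟨⟨y, _⟩, hy, rfl⟩)
    | algebraMap r =>
      have h1 : (⟨algebraMap ℚ (LaurentSeries ℚ) r, IntermediateField.algebraMap_mem _ r⟩ :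
          modularFunctionFieldFull N) = ((r : ℚ) : modularFunctionFieldFull N) := by
        apply Subtype.ext
        show algebraMap ℚ (LaurentSeries ℚ) r = (((r : ℚ) : modularFunctionFieldFull N) : LaurentSeries ℚ)
        rw [eq_ratCast]
        rfl
      rw [h1, map_ratCast]
      exact SubfieldClass.ratCast_mem T r
    | add y z hy hz ihy ihz =>
      have h1 : (⟨y + z, add_mem hy hz⟩ : modularFunctionFieldFull N) = ⟨y, hy⟩ + ⟨z, hz⟩ := rfl
      rw [h1, map_add]
      exact T.add_mem ihy ihz
    | inv y hy ihy =>
      have h1 : (⟨y⁻¹, inv_mem hy⟩ : modularFunctionFieldFull N) = (⟨y, hy⟩)⁻¹ := rfl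
      rw [h1, map_inv₀]
      exact T.inv_mem ihy
    | mul y z hy hz ihy ihz =>
      have h1 : (⟨y * z, mul_mem hy hz⟩ : modularFunctionFieldFull N) = ⟨y, hy⟩ * ⟨z, hz⟩ := rfl
      rw [h1, map_mul]
      exact T.mul_mem ihy ihz
  have hle : FK N K ≤ T.map (FK N K).subtype := by
    unfold FK
    rw [Subfield.closure_le]
    rintro y (⟨c, rfl⟩ | ⟨f, rfl⟩)
    · exact ⟨constK N K c, hK c, rfl⟩
    · exact ⟨ratEmb N K f, hF f.1 f.2, rfl⟩
  obtain ⟨y, hy, hyx⟩ := hle x.2
  have h1 : y = x := Subtype.ext hyx
  rw [← h1]
  exact hy

/-! ### The finiteness statement -/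

theorem charZero_FK : CharZero (FK N K) :=
  charZero_of_injective_ringHom ((constK N K).comp (algebraMap ℚ K)).injective

/-- Finiteness of a chart with a transcendental coordinate `t` over which `F_K` is algebraic. -/
theorem fin_chart (t : FK N K) (ht : Transcendental (OK A K) t)
    (halg : ∀ x : FK N K, IsAlgebraic (Algebra.adjoin (OK A K) {t}) x) :
    ∃ s : Finset (FK N K), (chart N A K t : Set (FK N K)) ⊆
      Submodule.span (Algebra.adjoin (OK A K) {t}) (s : Set (FK N K)) := by
  classical
  have hchar := charZero_FK N K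
  have hic : IsIntegrallyClosed (Algebra.adjoin (OK A K) {t}) :=
    isIntegrallyClosed_adjoin_of_transcendental t ht
  obtain ⟨s, hs⟩ := exists_finset_span_of_isIntegral (Algebra.adjoin (OK A K) {t}) halg
    (gens_finite N K).toFinset (fun x => by
      rw [Set.Finite.coe_toFinset]
      exact mem_closure_gens N A K t x)
  exact ⟨s, fun x hx => hs x hx⟩

/-- A quotient of two elements integral over a domain is algebraic over it. -/
theorem isAlgebraic_of_frac {R E : Type*} [CommRing R] [IsDomain R] [Field E] [Algebra R E]
    {x a b : E} (ha : IsIntegral R a) (hb : IsIntegral R b) (hb0 : b ≠ 0) (h : x * b = a) :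
    IsAlgebraic R x := by
  have h1 : x = a * b⁻¹ := by
    rw [← h, mul_assoc, mul_inv_cancel₀ hb0, mul_one]
  rw [h1]
  exact ha.isAlgebraic.mul hb.isAlgebraic.inv

/-- **[Fin]** the charts are finite over `O[j]`, resp. `O[j⁻¹]`. -/
theorem finStatement (ℓ : ℕ) [Fact ℓ.Prime] (hbasic : BasicStatement N ℓ) :
    FinStatement N ℓ := by
  intro A K _
  have hb := hbasic A K
  refine ⟨fin_chart N A K (jK N K) (transcendental_jK N A K) fun x => ?_,
    fin_chart N A K (jK N K)⁻¹ (transcendental_jK_inv N A K) fun x => ?_⟩
  · obtain ⟨a, ha, b, hb', hb0, hab⟩ := hb.frac0 x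
    exact isAlgebraic_of_frac ha hb' hb0 hab
  · obtain ⟨a, ha, b, hb', hb0, hab⟩ := hb.fracInf x
    exact isAlgebraic_of_frac ha hb' hb0 hab


end Concrete

end Fermat.Agent.S18.ModelFin
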