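import Fermat.Agent.S18.ModelPlan

/-!
# S18, [Model] cut-out (R-inf): transfer of the `q`-expansion denominators to the chart at `∞`

If `c(j) · x ∈ R0` for a polynomial `c` over `O` with nonzero reduction, then
`c'(j⁻¹) · x ∈ Rinf` for a polynomial `c'` over `O` with nonzero reduction: multiply by a power
of `j⁻¹` (gluing) and reverse `c`.
-/

set_option autoImplicit false

namespace Fermat.Agent.S18.QExpInf

open Polynomial Fermat.Agent.S18.Arith

/-- Reversing a polynomial keeps "nonzero after mapping". -/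
theorem map_reverse_ne_zero {R S : Type*} [Semiring R] [Semiring S] (f : R →+* S)
    (c : R[X]) (hc : c.map f ≠ 0) : c.reverse.map f ≠ 0 := by
  intro h0
  apply hc
  ext i
  rw [coeff_map, coeff_zero]
  by_cases hi : i ≤ c.natDegree
  · have h1 := congrArg (fun p : S[X] => p.coeff (c.natDegree - i)) h0
    simp only [coeff_map, coeff_zero, coeff_reverse] at h1
    rwa [revAt_le (Nat.sub_le _ _), Nat.sub_sub_self hi] at h1
  · rw [coeff_eq_zero_of_natDegree_lt (not_le.mp hi), map_zero]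

/-- **(R-inf)** -/
theorem qExp_inf (N : ℕ) [NeZero N] (ℓ : ℕ) [Fact ℓ.Prime] (A : ValuationSubring Qb)
    (K : IntermediateField ℚ Qb)
    (hglue : ∀ x ∈ R0 N ℓ A K, ∃ n : ℕ, x * (jK N K)⁻¹ ^ n ∈ Rinf N ℓ A K)
    (hj : jK N K ≠ 0) (x : FK N K) (c : Polynomial (OK A K)) (hc : c.map (resO A K) ≠ 0)
    (h : Polynomial.aeval (jK N K) c * x ∈ R0 N ℓ A K) :
    ∃ c' : Polynomial (OK A K), c'.map (resO A K) ≠ 0 ∧
      Polynomial.aeval (jK N K)⁻¹ c' * x ∈ Rinf N ℓ A K := by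
  obtain ⟨n, hn⟩ := hglue _ h
  -- `j⁻¹ ∈ Rinf`
  have hjinv : (jK N K)⁻¹ ∈ Rinf N ℓ A K := by
    change IsIntegral (Algebra.adjoin (OK A K) {(jK N K)⁻¹}) (jK N K)⁻¹
    exact isIntegral_algebraMap
      (x := (⟨(jK N K)⁻¹, Algebra.subset_adjoin (Set.mem_singleton _)⟩ :
        Algebra.adjoin (OK A K) {(jK N K)⁻¹}))
  -- reversal
  have hrev : Polynomial.aeval (jK N K)⁻¹ c.reverse * (jK N K) ^ c.natDegree =
      Polynomial.aeval (jK N K) c := by
    let _ : Invertible (jK N K) := invertibleOfNonzero hj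
    have h1 := eval₂_reverse_mul_pow (algebraMap (OK A K) (FK N K)) (jK N K) c
    rw [invOf_eq_inv] at h1
    exact h1
  refine ⟨X ^ n * c.reverse, ?_, ?_⟩
  · rw [Polynomial.map_mul, Polynomial.map_pow, map_X]
    exact mul_ne_zero (pow_ne_zero n X_ne_zero) (map_reverse_ne_zero _ c hc)
  · have h2 : Polynomial.aeval (jK N K)⁻¹ (X ^ n * c.reverse) * x =
        Polynomial.aeval (jK N K) c * x * (jK N K)⁻¹ ^ n * (jK N K)⁻¹ ^ c.natDegree := by
      rw [map_mul, map_pow, aeval_X, ← hrev]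
      have h3 : (jK N K) ^ c.natDegree * (jK N K)⁻¹ ^ c.natDegree = 1 := by
        rw [← mul_pow, mul_inv_cancel₀ hj, one_pow]
      linear_combination (-(Polynomial.aeval (jK N K)⁻¹ c.reverse * x * (jK N K)⁻¹ ^ n)) * h3
    rw [h2]
    exact (Rinf N ℓ A K).mul_mem hn ((Rinf N ℓ A K).pow_mem hjinv _)

end Fermat.Agent.S18.QExpInf
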