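/-
S18 — ModelRed.lean (helper93): block [Red] of [Model] (ModelPlan v2).

`redOStatement : GRelStatement → GRelNFStatement → BasicStatement N ℓ → QExpStatement N ℓ →
  RedOStatement N ℓ`.

For a chart `R = chart N A K t` (`t = j` or `j⁻¹`), the integral closure of `O[t]` in `F_K`:
* every element of `F_K` is `π ^ γ` times a unit of the Gauss ring (`qfrac` + [GRel-NF]); hence the
  Gauss ring cuts out a valuation subring `gaussV` of `F_K`; it contains `O[t]`, so it contains
  the integral closure `R` (valuation rings are integrally closed): `exists_gRel_of_mem_chart`;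
* `ρ : R → k((q))` is Gauss reduction, chosen by `GRelFacts.unique` (`exists_rho`);
* `ker ρ = 𝔪_O R`: if `ρ x = 0` then `x / π` is in the Gauss ring, so `c(t) · x / π ∈ R` for some
  `c ∈ O[X]` with `c mod 𝔪 ≠ 0` ([QExp]); `π`-saturation of the integral closure of the polynomial
  ring `O[t]` (`PolyIntCl.exists_integral_mul_eq`, `t` transcendental) gives `x ∈ π R`;
* the range of `ρ` lies in `F_k` by [QExp].
-/
import Mathlib
import Fermat.Agent.S18.ModelPlan
import Fermat.Agent.S18.PolyIntCl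
import Fermat.Agent.S18.QExpInf
import Fermat.Agent.S24.TranscJ

set_option autoImplicit false

noncomputable section

namespace Fermat.Agent.S18.ModelRed

open ModularCurve ModularCurve.IgusaScheme AlgebraicCurve HahnSeries Fermat.Agent.S18.Arith
open Fermat.Agent.S18.ModelPlan

/-! ### Calculus of `GRel` -/

section Calculus

variable {A : ValuationSubring Qb}

theorem gRel_zero (hG : GRelFacts A) : GRel A 0 0 := by
  have h := hG.of_int 0
  rwa [map_zero, map_zero] at h

theorem gRel_one (hG : GRelFacts A) : GRel A 1 1 := by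
  have h := hG.of_int 1
  rwa [map_one, map_one] at h

theorem gRel_pow (hG : GRelFacts A) {x : LaurentSeries Qb}
    {y : LaurentSeries (IsLocalRing.ResidueField A)} (h : GRel A x y) (n : ℕ) :
    GRel A (x ^ n) (y ^ n) := by
  induction n with
  | zero => rw [pow_zero, pow_zero]; exact gRel_one hG
  | succ n ih => rw [pow_succ, pow_succ]; exact hG.mul _ _ _ _ ih h

variable (K : IntermediateField ℚ Qb)

theorem gRel_const (hG : GRelFacts A) (c : OK A K) :
    GRel A (C (incO A K c) : LaurentSeries Qb) (C (resO A K c)) := by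
  have h := hG.of_int (C (⟨incO A K c, c.2⟩ : A))
  have h1 : coeffMap A.subtype (C (⟨incO A K c, c.2⟩ : A)) = (C (incO A K c) : LaurentSeries Qb) :=
    coeffMap_single _ _ _
  have h2 : coeffMap (IsLocalRing.residue A) (C (⟨incO A K c, c.2⟩ : A)) =
      (C (resO A K c) : LaurentSeries (IsLocalRing.ResidueField A)) :=
    coeffMap_single _ _ _
  rwa [h1, h2] at h

theorem incO_injective : Function.Injective (incO A K) := by
  intro a b h
  exact Subtype.ext ((algebraMap K Qb).injective h)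

theorem resO_eq_zero_of_not_isUnit (c : OK A K) (hc : ¬ IsUnit c) : resO A K c = 0 := by
  show IsLocalRing.residue A ⟨incO A K c, c.2⟩ = 0
  rw [IsLocalRing.residue_eq_zero_iff]
  intro hu
  apply hc
  obtain ⟨b, hb⟩ := isUnit_iff_exists_inv.mp hu
  have hb' : incO A K c * (b : Qb) = 1 := congrArg Subtype.val hb
  have hc0 : (c : K) ≠ 0 := by
    intro h0
    have : incO A K c = 0 := by
      show algebraMap K Qb (c : K) = 0
      rw [h0, map_zero]
    rw [this, zero_mul] at hb'
    exact zero_ne_one hb'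
  have hinv : algebraMap K Qb ((c : K)⁻¹) = (b : Qb) := by
    rw [map_inv₀]
    exact inv_eq_of_mul_eq_one_right hb'
  have hmem : ((c : K)⁻¹) ∈ OK A K := by
    show algebraMap K Qb ((c : K)⁻¹) ∈ A
    rw [hinv]
    exact b.2
  exact isUnit_iff_exists_inv.mpr ⟨⟨(c : K)⁻¹, hmem⟩, Subtype.ext (mul_inv_cancel₀ hc0)⟩

end Calculus

/-! ### Normal form, dichotomy -/

section NF

variable {A : ValuationSubring Qb} {K : IntermediateField ℚ Qb}

theorem coeffMap_injective {R S : Type*} [CommRing R] [CommRing S] (f : R →+* S)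
    (hf : Function.Injective f) : Function.Injective (coeffMap f) := by
  intro a b h
  ext k
  apply hf
  have h' := congrArg (fun z : LaurentSeries S => z.coeff k) h
  simpa using h'

theorem gRel_pi (hG : GRelFacts A) (π : OK A K) (hπ : ¬ IsUnit π) :
    GRel A (C (incO A K π) : LaurentSeries Qb) 0 := by
  have h := gRel_const K hG π
  rwa [resO_eq_zero_of_not_isUnit K π hπ, map_zero] at h

theorem C_incO_ne_zero (π : OK A K) (hπ : π ≠ 0) : (C (incO A K π) : LaurentSeries Qb) ≠ 0 := by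
  intro h
  apply hπ
  apply incO_injective K
  rw [map_zero]
  apply HahnSeries.C_injective (Γ := ℤ)
  rw [h, map_zero]

theorem gRel_coeffMap_incO (hG : GRelFacts A) (X : LaurentSeries (OK A K)) :
    ∃ y, GRel A (coeffMap (incO A K) X) y := by
  have h := hG.of_int (coeffMap ((incO A K).codRestrict A.toSubring (fun x => x.2)) X)
  rw [coeffMap_coeffMap] at h
  exact ⟨_, h⟩

/-- Dichotomy from the normal form: `x ∈ G` or `x⁻¹ ∈ 𝔪_G`. -/
theorem dich (hG : GRelFacts A) (π : OK A K) (hπu : ¬ IsUnit π) (hπ0 : π ≠ 0)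
    (x : LaurentSeries Qb)
    (hnf : ∃ (γ : ℤ) (y : LaurentSeries (IsLocalRing.ResidueField A)), y ≠ 0 ∧
      GRel A (x * (C (incO A K π) : LaurentSeries Qb) ^ (-γ)) y) :
    (∃ y, GRel A x y) ∨ GRel A x⁻¹ 0 := by
  obtain ⟨γ, y, hy, h⟩ := hnf
  have hP0 : (C (incO A K π) : LaurentSeries Qb) ≠ 0 := C_incO_ne_zero π hπ0
  have hPG : GRel A (C (incO A K π) : LaurentSeries Qb) 0 := gRel_pi hG π hπu
  generalize (C (incO A K π) : LaurentSeries Qb) = P at h hP0 hPG
  obtain ⟨m, rfl | rfl⟩ := Int.eq_nat_or_neg γ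
  · left
    refine ⟨y * 0 ^ m, ?_⟩
    have h2 := hG.mul _ _ _ _ h (gRel_pow hG hPG m)
    have hx : x * P ^ (-(m : ℤ)) * P ^ m = x := by
      rw [zpow_neg, zpow_natCast, mul_assoc, inv_mul_cancel₀ (pow_ne_zero m hP0), mul_one]
    rwa [hx] at h2
  · rw [neg_neg, zpow_natCast] at h
    rcases Nat.eq_zero_or_pos m with rfl | hm
    · left
      rw [pow_zero, mul_one] at h
      exact ⟨y, h⟩
    · right
      have h1 := hG.inv _ _ h hy
      have h2 := hG.mul _ _ _ _ h1 (gRel_pow hG hPG m)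
      have hx : (x * P ^ m)⁻¹ * P ^ m = x⁻¹ := by
        rw [mul_inv, mul_assoc, inv_mul_cancel₀ (pow_ne_zero m hP0), mul_one]
      rw [hx, zero_pow hm.ne', mul_zero] at h2
      exact h2

/-- If `x` has reduction `0`, then `x / π` still lies in the Gauss ring. -/
theorem gRel_div_pi (hG : GRelFacts A) (π : OK A K) (hπu : ¬ IsUnit π) (hπ0 : π ≠ 0)
    (x : LaurentSeries Qb) (hx0 : GRel A x 0)
    (hnf : ∃ (γ : ℤ) (y : LaurentSeries (IsLocalRing.ResidueField A)), y ≠ 0 ∧
      GRel A (x * (C (incO A K π) : LaurentSeries Qb) ^ (-γ)) y) :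
    ∃ y, GRel A (x * (C (incO A K π) : LaurentSeries Qb)⁻¹) y := by
  obtain ⟨γ, y, hy, h⟩ := hnf
  have hP0 : (C (incO A K π) : LaurentSeries Qb) ≠ 0 := C_incO_ne_zero π hπ0
  have hPG : GRel A (C (incO A K π) : LaurentSeries Qb) 0 := gRel_pi hG π hπu
  generalize (C (incO A K π) : LaurentSeries Qb) = P at h hP0 hPG ⊢
  obtain ⟨m, rfl | rfl⟩ := Int.eq_nat_or_neg γ
  · rcases Nat.eq_zero_or_pos m with rfl | hm
    · exfalso
      rw [Nat.cast_zero, neg_zero, zpow_zero, mul_one] at h
      exact hy (hG.unique _ _ _ h hx0)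
    · obtain ⟨k, rfl⟩ := Nat.exists_eq_succ_of_ne_zero hm.ne'
      refine ⟨y * 0 ^ k, ?_⟩
      have h2 := hG.mul _ _ _ _ h (gRel_pow hG hPG k)
      have hx : x * P ^ (-((k + 1 : ℕ) : ℤ)) * P ^ k = x * P⁻¹ := by
        rw [zpow_neg, zpow_natCast, pow_succ, mul_inv, mul_assoc, mul_assoc, mul_comm P⁻¹,
          ← mul_assoc (P ^ k)⁻¹, inv_mul_cancel₀ (pow_ne_zero k hP0), one_mul]
      rwa [hx] at h2
  · exfalso
    rw [neg_neg, zpow_natCast] at h
    have h2 := hG.mul _ _ _ _ hx0 (gRel_pow hG hPG m)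
    rw [zero_mul] at h2
    exact hy (hG.unique _ _ _ h h2)

end NF

/-! ### The Gauss valuation subring of `F_K`; charts lie in it -/

section Val

/-- An element integral over a subalgebra contained in a valuation subring lies in the valuation
subring. -/
theorem mem_valuationSubring_of_isIntegral {O F : Type*} [CommRing O] [Field F] [Algebra O F]
    (V : ValuationSubring F) (S : Subalgebra O F) (hS : ∀ z ∈ S, z ∈ V) (x : F)
    (hx : IsIntegral S x) : x ∈ V := by
  obtain ⟨p, hp, hpx⟩ := hx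
  let f : S →+* V :=
    { toFun := fun z => ⟨z.1, hS z.1 z.2⟩
      map_one' := rfl
      map_mul' := fun _ _ => rfl
      map_zero' := rfl
      map_add' := fun _ _ => rfl }
  have hint : IsIntegral V x := by
    refine ⟨p.map f, hp.map f, ?_⟩
    rw [Polynomial.eval₂_map]
    exact hpx
  obtain ⟨y, hy⟩ := IsIntegrallyClosed.isIntegral_iff.mp hint
  rw [← hy]
  exact y.2

variable (N : ℕ) {A : ValuationSubring Qb} {K : IntermediateField ℚ Qb}

/-- The Gauss valuation subring of `F_K`. -/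
def gaussV (hG : GRelFacts A)
    (hd : ∀ x : FK N K, x ≠ 0 → (∃ y, GRel A ((x : FK N K) : LaurentSeries Qb) y) ∨
      GRel A (((x : FK N K) : LaurentSeries Qb))⁻¹ 0) : ValuationSubring (FK N K) where
  carrier := {x | ∃ y, GRel A ((x : FK N K) : LaurentSeries Qb) y}
  mul_mem' := by
    rintro a b ⟨y, hy⟩ ⟨y', hy'⟩
    exact ⟨y * y', hG.mul _ _ _ _ hy hy'⟩
  one_mem' := ⟨1, gRel_one hG⟩
  add_mem' := by
    rintro a b ⟨y, hy⟩ ⟨y', hy'⟩
    exact ⟨y + y', hG.add _ _ _ _ hy hy'⟩
  zero_mem' := ⟨0, gRel_zero hG⟩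
  neg_mem' := by
    rintro a ⟨y, hy⟩
    exact ⟨-y, hG.neg _ _ hy⟩
  mem_or_inv_mem' := by
    intro x
    by_cases hx : x = 0
    · left
      rw [hx]
      exact ⟨0, gRel_zero hG⟩
    · rcases hd x hx with h | h
      · left
        exact h
      · right
        exact ⟨0, h⟩

theorem mem_gaussV_iff (hG : GRelFacts A)
    (hd : ∀ x : FK N K, x ≠ 0 → (∃ y, GRel A ((x : FK N K) : LaurentSeries Qb) y) ∨
      GRel A (((x : FK N K) : LaurentSeries Qb))⁻¹ 0) (x : FK N K) :
    x ∈ gaussV N hG hd ↔ ∃ y, GRel A ((x : FK N K) : LaurentSeries Qb) y := Iff.rfl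

/-- Elements of a chart whose coordinate lies in the Gauss ring lie in the Gauss ring. -/
theorem exists_gRel_of_mem_chart (hG : GRelFacts A)
    (hd : ∀ x : FK N K, x ≠ 0 → (∃ y, GRel A ((x : FK N K) : LaurentSeries Qb) y) ∨
      GRel A (((x : FK N K) : LaurentSeries Qb))⁻¹ 0)
    (t : FK N K) (ht : ∃ y, GRel A ((t : FK N K) : LaurentSeries Qb) y) (x : FK N K)
    (hx : x ∈ chart N A K t) : ∃ y, GRel A ((x : FK N K) : LaurentSeries Qb) y := by
  have hS : ∀ z ∈ Algebra.adjoin (OK A K) {t}, z ∈ gaussV N hG hd := by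
    intro z hz
    induction hz using Algebra.adjoin_induction with
    | mem z hz =>
      rw [Set.mem_singleton_iff] at hz
      rw [hz]
      exact ht
    | algebraMap c => exact ⟨_, gRel_const K hG c⟩
    | add a b _ _ ha hb => exact (gaussV N hG hd).add_mem _ _ ha hb
    | mul a b _ _ ha hb => exact (gaussV N hG hd).mul_mem _ _ ha hb
  exact mem_valuationSubring_of_isIntegral (gaussV N hG hd) _ hS x hx

/-- The reduction map on a subalgebra contained in the Gauss ring. -/
theorem exists_rho (hG : GRelFacts A) (R : Subalgebra (OK A K) (FK N K))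
    (hR : ∀ x ∈ R, ∃ y, GRel A ((x : FK N K) : LaurentSeries Qb) y) :
    ∃ ρ : R →+* LaurentSeries (IsLocalRing.ResidueField A),
      ∀ x : R, GRel A ((x : FK N K) : LaurentSeries Qb) (ρ x) := by
  classical
  have hspec : ∀ x : R, GRel A ((x : FK N K) : LaurentSeries Qb)
      (Classical.choose (hR x.1 x.2)) := fun x => Classical.choose_spec (hR x.1 x.2)
  refine ⟨{ toFun := fun x => Classical.choose (hR x.1 x.2)
            map_one' := ?_
            map_mul' := ?_
            map_zero' := ?_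
            map_add' := ?_ }, hspec⟩
  · exact hG.unique _ _ _ (hspec 1) (gRel_one hG)
  · intro a b
    exact hG.unique _ _ _ (hspec (a * b)) (hG.mul _ _ _ _ (hspec a) (hspec b))
  · exact hG.unique _ _ _ (hspec 0) (gRel_zero hG)
  · intro a b
    exact hG.unique _ _ _ (hspec (a + b)) (hG.add _ _ _ _ (hspec a) (hspec b))

end Val

/-! ### Transcendence of `j` over `O` -/

section Transc

variable (N : ℕ) [NeZero N] (A : ValuationSubring Qb) (K : IntermediateField ℚ Qb)

theorem transcendental_jK : Transcendental (OK A K) (jK N K) := by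
  rw [transcendental_iff]
  intro p hp
  have htr := Fermat.Agent.S24.transcendental_coeffEmb_jq Qb
  have hcomp : (FK N K).subtype.comp (algebraMap (OK A K) (FK N K)) =
      (algebraMap Qb (LaurentSeries Qb)).comp (incO A K) := by
    ext c : 1
    exact (algebraMap_laurentSeries_eq_single Qb (incO A K c)).symm
  have key : ((Polynomial.aeval (jK N K) p : FK N K) : LaurentSeries Qb) =
      Polynomial.aeval (coeffEmb Qb jq) (p.map (incO A K)) := by
    rw [Polynomial.aeval_def, Polynomial.aeval_def, Polynomial.eval₂_map, ← hcomp]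
    exact Polynomial.hom_eval₂ p (algebraMap (OK A K) (FK N K)) (FK N K).subtype (jK N K)
  rw [hp] at key
  have h0 : p.map (incO A K) = 0 := (transcendental_iff.mp htr) _ key.symm
  exact Polynomial.map_injective _ (incO_injective K) (by rw [h0, Polynomial.map_zero])

theorem transcendental_jK_inv : Transcendental (OK A K) (jK N K)⁻¹ :=
  fun h => transcendental_jK N A K (IsAlgebraic.inv_iff.mp h)

end Transc

/-! ### Kernel of the reduction map, and the chart statement -/

section Ker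

variable (N : ℕ) [NeZero N] {A : ValuationSubring Qb} {K : IntermediateField ℚ Qb}

theorem exists_nf (ℓ : ℕ) [Fact ℓ.Prime] (hNF : GRelNFStatement) (hbasic : BasicFacts N ℓ A K)
    (hdvr : IsDiscreteValuationRing (OK A K)) (π : OK A K) (hπ : Irreducible π) (x : FK N K)
    (hx : x ≠ 0) :
    ∃ (γ : ℤ) (y : LaurentSeries (IsLocalRing.ResidueField A)), y ≠ 0 ∧
      GRel A (((x : FK N K) : LaurentSeries Qb) *
        (C (incO A K π) : LaurentSeries Qb) ^ (-γ)) y := by
  obtain ⟨a, b, hb, hab⟩ := hbasic.qfrac x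
  refine hNF A K hdvr π hπ _ a b ?_ hb hab
  rintro rfl
  rw [map_zero] at hab
  rcases mul_eq_zero.mp hab with h | h
  · exact hx (Subtype.ext h)
  · exact hb (coeffMap_injective _ (incO_injective K) (by rw [h, map_zero]))

omit [NeZero N] in
theorem ker_rho_eq (hG : GRelFacts A) (hdvr : IsDiscreteValuationRing (OK A K)) (π : OK A K)
    (hπ : Irreducible π)
    (hnf : ∀ x : FK N K, x ≠ 0 →
      ∃ (γ : ℤ) (y : LaurentSeries (IsLocalRing.ResidueField A)), y ≠ 0 ∧
        GRel A (((x : FK N K) : LaurentSeries Qb) *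
          (C (incO A K π) : LaurentSeries Qb) ^ (-γ)) y)
    (t : FK N K) (htr : Transcendental (OK A K) t)
    (hQ : ∀ x₁ : FK N K, (∃ y, GRel A ((x₁ : FK N K) : LaurentSeries Qb) y) →
      ∃ c : Polynomial (OK A K), c.map (resO A K) ≠ 0 ∧
        Polynomial.aeval t c * x₁ ∈ chart N A K t)
    (ρ : chart N A K t →+* LaurentSeries (IsLocalRing.ResidueField A))
    (hρ : ∀ x : chart N A K t, GRel A ((x : FK N K) : LaurentSeries Qb) (ρ x)) :
    RingHom.ker ρ = piIdeal N A K (chart N A K t) := by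
  have hπu : ¬ IsUnit π := hπ.not_isUnit
  have hπ0 : π ≠ 0 := hπ.ne_zero
  apply le_antisymm
  · intro x hx
    rw [RingHom.mem_ker] at hx
    by_cases hx0 : x = 0
    · rw [hx0]
      exact Ideal.zero_mem _
    have hx0' : (x : FK N K) ≠ 0 := fun h => hx0 (Subtype.ext h)
    have hxG : GRel A (((x : FK N K) : FK N K) : LaurentSeries Qb) 0 := hx ▸ hρ x
    obtain ⟨y₁, hy₁⟩ := gRel_div_pi hG π hπu hπ0 _ hxG (hnf _ hx0')
    have hx₁G : ∃ y, GRel A ((((x : FK N K) * (algebraMap (OK A K) (FK N K) π)⁻¹ : FK N K) :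
        FK N K) : LaurentSeries Qb) y := ⟨y₁, hy₁⟩
    obtain ⟨c, hc, hcx⟩ := hQ _ hx₁G
    have hπF : algebraMap (OK A K) (FK N K) π ≠ 0 := by
      intro h
      apply C_incO_ne_zero π hπ0
      exact congrArg Subtype.val h
    have hrel : Polynomial.aeval t c * (x : FK N K) = algebraMap (OK A K) (FK N K) π *
        (Polynomial.aeval t c * ((x : FK N K) * (algebraMap (OK A K) (FK N K) π)⁻¹)) := by
      field_simp
    have hcπ : ¬ Polynomial.C π ∣ c := by
      rintro ⟨c', rfl⟩
      apply hc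
      rw [Polynomial.map_mul, Polynomial.map_C, resO_eq_zero_of_not_isUnit K π hπu, map_zero,
        zero_mul]
    obtain ⟨u, hu, hxu⟩ := PolyIntCl.exists_integral_mul_eq t htr π hπ.prime c hcπ
      (x : FK N K) _ x.2 hcx hrel
    have hxeq : x = algebraMap (OK A K) (chart N A K t) π * ⟨u, hu⟩ := Subtype.ext hxu
    rw [hxeq]
    exact Ideal.mul_mem_right _ _ (Ideal.mem_map_of_mem _
      ((IsLocalRing.mem_maximalIdeal π).mpr hπu))
  · rw [piIdeal, Ideal.map_le_iff_le_comap]
    intro c hc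
    rw [Ideal.mem_comap, RingHom.mem_ker]
    have hcu : ¬ IsUnit c := (IsLocalRing.mem_maximalIdeal c).mp hc
    have h1 := hρ (algebraMap (OK A K) (chart N A K t) c)
    have h2 := gRel_const K hG c
    rw [resO_eq_zero_of_not_isUnit K c hcu, map_zero] at h2
    exact hG.unique _ _ _ h1 h2

omit [NeZero N] in
/-- **[Red] for one chart** with coordinate `t`. -/
theorem redOAt_chart (hG : GRelFacts A) (hdvr : IsDiscreteValuationRing (OK A K)) (π : OK A K)
    (hπ : Irreducible π)
    (hnf : ∀ x : FK N K, x ≠ 0 →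
      ∃ (γ : ℤ) (y : LaurentSeries (IsLocalRing.ResidueField A)), y ≠ 0 ∧
        GRel A (((x : FK N K) : LaurentSeries Qb) *
          (C (incO A K π) : LaurentSeries Qb) ^ (-γ)) y)
    (t : FK N K) (ht : ∃ y, GRel A ((t : FK N K) : LaurentSeries Qb) y)
    (htr : Transcendental (OK A K) t)
    (hQ : ∀ (x₁ : FK N K) (y : LaurentSeries (IsLocalRing.ResidueField A)),
      GRel A ((x₁ : FK N K) : LaurentSeries Qb) y →
      (∃ c : Polynomial (OK A K), c.map (resO A K) ≠ 0 ∧
        Polynomial.aeval t c * x₁ ∈ chart N A K t) ∧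
      y ∈ modularFunctionFieldFullC (IsLocalRing.ResidueField A) N) :
    RedOAt N A K (chart N A K t) := by
  have hd : ∀ x : FK N K, x ≠ 0 → (∃ y, GRel A ((x : FK N K) : LaurentSeries Qb) y) ∨
      GRel A (((x : FK N K) : LaurentSeries Qb))⁻¹ 0 :=
    fun x hx => dich hG π hπ.not_isUnit hπ.ne_zero _ (hnf x hx)
  obtain ⟨ρ, hρ⟩ := exists_rho N hG (chart N A K t)
    (fun x hx => exists_gRel_of_mem_chart N hG hd t ht x hx)
  refine ⟨ρ, hρ, ?_, fun x => (hQ _ _ (hρ x)).2⟩
  exact ker_rho_eq N hG hdvr π hπ hnf t htr (fun x₁ ⟨y, hy⟩ => (hQ x₁ y hy).1) ρ hρ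

/-- **[Red]**, modulo the transfer of [QExp] to the chart at infinity. -/
theorem redOStatement_of_inf (ℓ : ℕ) [Fact ℓ.Prime] (hG : GRelStatement) (hNF : GRelNFStatement)
    (hbasic : BasicStatement N ℓ) (hq : QExpStatement N ℓ)
    (hinf : ∀ (A : ValuationSubring Qb) (K : IntermediateField ℚ Qb),
      (∀ x ∈ R0 N ℓ A K, ∃ n : ℕ, x * (jK N K)⁻¹ ^ n ∈ Rinf N ℓ A K) → jK N K ≠ 0 →
      ∀ (x : FK N K) (c : Polynomial (OK A K)), c.map (resO A K) ≠ 0 →
        Polynomial.aeval (jK N K) c * x ∈ R0 N ℓ A K →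
        ∃ c' : Polynomial (OK A K), c'.map (resO A K) ≠ 0 ∧
          Polynomial.aeval (jK N K)⁻¹ c' * x ∈ Rinf N ℓ A K) :
    RedOStatement N ℓ := by
  intro hℓN A hA K hB
  have hGA := hG A
  have hbas := hbasic A K
  have hdvr := hB.dvr
  obtain ⟨π, hπ⟩ := IsDiscreteValuationRing.exists_irreducible (OK A K)
  have hnf : ∀ x : FK N K, x ≠ 0 →
      ∃ (γ : ℤ) (y : LaurentSeries (IsLocalRing.ResidueField A)), y ≠ 0 ∧
        GRel A (((x : FK N K) : LaurentSeries Qb) *
          (C (incO A K π) : LaurentSeries Qb) ^ (-γ)) y :=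
    fun x hx => exists_nf N ℓ hNF hbas hdvr π hπ x hx
  obtain ⟨J, Jinv, hJ, hJinv⟩ := hbas.jint
  have hjG : ∃ y, GRel A ((jK N K : FK N K) : LaurentSeries Qb) y :=
    hJ ▸ gRel_coeffMap_incO hGA J
  have hjinvG : ∃ y, GRel A (((jK N K)⁻¹ : FK N K) : LaurentSeries Qb) y :=
    hJinv ▸ gRel_coeffMap_incO hGA Jinv
  have hq' := hq hℓN A hA K hB
  refine ⟨redOAt_chart N hGA hdvr π hπ hnf (jK N K) hjG (transcendental_jK N A K)
    (fun x y h => hq' x y h), redOAt_chart N hGA hdvr π hπ hnf (jK N K)⁻¹ hjinvG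
    (transcendental_jK_inv N A K) (fun x y h => ?_)⟩
  obtain ⟨⟨c, hc, hcx⟩, hy⟩ := hq' x y h
  exact ⟨hinf A K hbas.glue0 hbas.j_ne x c hc hcx, hy⟩

/-- **[Red]** (`ModelPlan.RedOStatement`): reduction data on the two charts. -/
theorem redOStatement (ℓ : ℕ) [Fact ℓ.Prime] (hG : GRelStatement) (hNF : GRelNFStatement)
    (hbasic : BasicStatement N ℓ) (hq : QExpStatement N ℓ) : RedOStatement N ℓ :=
  redOStatement_of_inf N ℓ hG hNF hbasic hq (fun A K => QExpInf.qExp_inf N ℓ A K)

end Ker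

end Fermat.Agent.S18.ModelRed
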