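/-
S18 — ModelAsm.lean (helper42): block [Model] from its last leaf [QExp];
the leaves [GRel], [GRel-NF], [Basic], [Fin], [Red] are plugged in from their landed files.
-/
import Fermat.Agent.S18.Model
import Fermat.Agent.S18.GRel
import Fermat.Agent.S18.GRelNF
import Fermat.Agent.S18.ModelBasic
import Fermat.Agent.S18.ModelFin
import Fermat.Agent.S18.ModelRed

set_option autoImplicit false

namespace Fermat.Agent.S18.ModelAsm

open Fermat.Agent.S18.Arith Fermat.Agent.S18.ModelPlan

/-- **[Model]** from [Basic] and [QExp]. -/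
theorem modelStatement_of_basic_qExp (N : ℕ) [NeZero N] (ℓ : ℕ) [Fact ℓ.Prime]
    (hbasic : BasicStatement N ℓ) (hq : QExpStatement N ℓ) : ModelStatement N ℓ :=
  Model.modelStatement_of_leaves N ℓ hbasic (ModelFin.finStatement N ℓ hbasic)
    (ModelRed.redOStatement N ℓ GRel.gRelStatement GRelNF.gRelNFStatement hbasic hq)

/-- **[Model]** from [QExp] (in the shape exported by `QExp.lean`). -/
theorem modelStatement_of_qExp (N : ℕ) [NeZero N] (ℓ : ℕ) [Fact ℓ.Prime]
    (hq : GRelStatement → GRelNFStatement → BasicStatement N ℓ → QExpStatement N ℓ) :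
    ModelStatement N ℓ :=
  modelStatement_of_basic_qExp N ℓ (ModelBasic.basicStatement N ℓ)
    (hq GRel.gRelStatement GRelNF.gRelNFStatement (ModelBasic.basicStatement N ℓ))

end Fermat.Agent.S18.ModelAsm
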