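/-
S18, block [ARITH]/[QExp] (helper69): shared definitions for the instantiation of the abstract
core `QExpCore.Data`.

* `gRing A hG ⊂ ℚ̄((q))`   the Gauss local ring `{x | ∃ y, GRel A x y}`;
* `red A x`               the Gauss reduction (`0` outside the Gauss ring);
* `ι`, `ιbar`             constants `O → ℚ̄((q))`, `O → k((q))`;
* `jΩ`                    the `q`-expansion of `j` in `ℚ̄((q))`;
* `B0 = O[j]`             as a subring of `ℚ̄((q))`;
* `SN N S = S ∩ F_ℚ(N)`, `κ`, `κbar`, `T0`   for a subring `S ⊂ ℚ((q))` (the S28 tower ring).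
-/
import Fermat.Agent.S18.ModelPlan
import Fermat.Agent.S28.BasePair

set_option autoImplicit false
set_option linter.unusedSectionVars false

noncomputable section

namespace Fermat.Agent.S18.QExpDefs

open ModularCurve ModularCurve.IgusaScheme HahnSeries Polynomial
open Fermat.Agent.S18.Arith Fermat.Agent.S18.ModelPlan

/-! ### The Gauss ring and the Gauss reduction -/

section Gauss

variable (A : ValuationSubring Qb)

/-- The Gauss reduction of `x ∈ ℚ̄((q))` (`0` if `x` is not Gauss-integral). -/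
def red (x : LaurentSeries Qb) : LaurentSeries (IsLocalRing.ResidueField A) := by
  classical
  exact if h : ∃ y, GRel A x y then h.choose else 0

variable {A}

theorem red_eq (hG : GRelFacts A) {x : LaurentSeries Qb}
    {y : LaurentSeries (IsLocalRing.ResidueField A)} (h : GRel A x y) : red A x = y := by
  classical
  have hex : ∃ y, GRel A x y := ⟨y, h⟩
  unfold red
  rw [dif_pos hex]
  exact hG.unique x _ _ hex.choose_spec h

theorem gRel_zero (hG : GRelFacts A) : GRel A 0 0 := by
  have h := hG.of_int 0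
  rwa [map_zero, map_zero] at h

theorem gRel_one (hG : GRelFacts A) : GRel A 1 1 := by
  have h := hG.of_int 1
  rwa [map_one, map_one] at h

variable (A) in
/-- The Gauss local ring `G_A ⊂ ℚ̄((q))`. -/
def gRing (hG : GRelFacts A) : Subring (LaurentSeries Qb) where
  carrier := {x | ∃ y, GRel A x y}
  mul_mem' := by
    rintro x x' ⟨y, h⟩ ⟨y', h'⟩
    exact ⟨_, hG.mul x x' y y' h h'⟩
  one_mem' := ⟨1, gRel_one hG⟩
  add_mem' := by
    rintro x x' ⟨y, h⟩ ⟨y', h'⟩
    exact ⟨_, hG.add x x' y y' h h'⟩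
  zero_mem' := ⟨0, gRel_zero hG⟩
  neg_mem' := by
    rintro x ⟨y, h⟩
    exact ⟨_, hG.neg x y h⟩

theorem mem_gRing (hG : GRelFacts A) {x : LaurentSeries Qb} :
    x ∈ gRing A hG ↔ ∃ y, GRel A x y := Iff.rfl

theorem gRel_red (hG : GRelFacts A) {x : LaurentSeries Qb} (hx : x ∈ gRing A hG) :
    GRel A x (red A x) := by
  obtain ⟨y, h⟩ := hx
  rw [red_eq hG h]
  exact h

theorem red_zero (hG : GRelFacts A) : red A 0 = 0 := red_eq hG (gRel_zero hG)

theorem red_one (hG : GRelFacts A) : red A 1 = 1 := red_eq hG (gRel_one hG)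

theorem red_add (hG : GRelFacts A) {x x' : LaurentSeries Qb} (hx : x ∈ gRing A hG)
    (hx' : x' ∈ gRing A hG) : red A (x + x') = red A x + red A x' :=
  red_eq hG (hG.add _ _ _ _ (gRel_red hG hx) (gRel_red hG hx'))

theorem red_mul (hG : GRelFacts A) {x x' : LaurentSeries Qb} (hx : x ∈ gRing A hG)
    (hx' : x' ∈ gRing A hG) : red A (x * x') = red A x * red A x' :=
  red_eq hG (hG.mul _ _ _ _ (gRel_red hG hx) (gRel_red hG hx'))

theorem gRel_pow (hG : GRelFacts A) {x : LaurentSeries Qb}
    {y : LaurentSeries (IsLocalRing.ResidueField A)} (h : GRel A x y) (n : ℕ) :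
    GRel A (x ^ n) (y ^ n) := by
  induction n with
  | zero => rw [pow_zero, pow_zero]; exact gRel_one hG
  | succ n ih => rw [pow_succ, pow_succ]; exact hG.mul _ _ _ _ ih h

end Gauss

/-! ### Constants, `j`, and `B0 = O[j]` -/

section Base

variable (A : ValuationSubring Qb) (K : IntermediateField ℚ Qb)

/-- Constants `O → ℚ̄((q))`. -/
def ι : OK A K →+* LaurentSeries Qb :=
  (HahnSeries.C : Qb →+* LaurentSeries Qb).comp (incO A K)

/-- Reduced constants `O → k((q))`. -/
def ιbar : OK A K →+* LaurentSeries (IsLocalRing.ResidueField A) :=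
  (HahnSeries.C : IsLocalRing.ResidueField A →+* LaurentSeries (IsLocalRing.ResidueField A)).comp
    (resO A K)

theorem ι_apply (o : OK A K) : ι A K o = HahnSeries.C (incO A K o) := rfl

theorem ιbar_apply (o : OK A K) : ιbar A K o = HahnSeries.C (resO A K o) := rfl

theorem ι_injective : Function.Injective (ι A K) := by
  intro o o' h
  have h1 : incO A K o = incO A K o' := HahnSeries.C_injective h
  have h2 : ((o : K) : Qb) = ((o' : K) : Qb) := h1
  exact Subtype.ext (Subtype.ext h2)

variable {A K} in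
theorem gRel_ι (hG : GRelFacts A) (o : OK A K) : GRel A (ι A K o) (ιbar A K o) := by
  have h := hG.of_int (HahnSeries.C (⟨incO A K o, o.2⟩ : A))
  have e1 : coeffMap A.subtype (HahnSeries.C (⟨incO A K o, o.2⟩ : A)) = ι A K o := by
    rw [ι_apply, HahnSeries.C_apply, HahnSeries.C_apply, coeffMap_single]
    rfl
  have e2 : coeffMap (IsLocalRing.residue A) (HahnSeries.C (⟨incO A K o, o.2⟩ : A)) =
      ιbar A K o := by
    rw [ιbar_apply, HahnSeries.C_apply, HahnSeries.C_apply, coeffMap_single]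
    rfl
  rwa [e1, e2] at h

/-- The `q`-expansion of `j` in `ℚ̄((q))`. -/
def jΩ : LaurentSeries Qb := coeffEmb Qb jq

theorem jΩ_eq : jΩ = jqModC Qb := by
  rw [jΩ, coeffEmb, ← jqModC_rat, coeffMap_jqModC]

variable {A} in
theorem gRel_jΩ (hG : GRelFacts A) : GRel A jΩ (jqModC (IsLocalRing.ResidueField A)) := by
  have h := hG.of_int (jqModC A)
  rwa [coeffMap_jqModC, coeffMap_jqModC, ← jΩ_eq] at h

/-- Evaluation at `j`: `O[X] → ℚ̄((q))`. -/
def ev : Polynomial (OK A K) →+* LaurentSeries Qb := Polynomial.eval₂RingHom (ι A K) jΩ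

/-- Evaluation at `j̄`: `O[X] → k((q))`. -/
def evbar : Polynomial (OK A K) →+* LaurentSeries (IsLocalRing.ResidueField A) :=
  Polynomial.eval₂RingHom (ιbar A K) (jqModC (IsLocalRing.ResidueField A))

theorem ev_apply (c : Polynomial (OK A K)) : ev A K c = c.eval₂ (ι A K) jΩ := rfl

theorem evbar_apply (c : Polynomial (OK A K)) :
    evbar A K c = c.eval₂ (ιbar A K) (jqModC (IsLocalRing.ResidueField A)) := rfl

/-- `B0 = O[j]` as a subring of `ℚ̄((q))`. -/
def B0 : Subring (LaurentSeries Qb) := (ev A K).range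

theorem ev_mem_B0 (c : Polynomial (OK A K)) : ev A K c ∈ B0 A K := ⟨c, rfl⟩

theorem mem_B0_iff {x : LaurentSeries Qb} : x ∈ B0 A K ↔ ∃ c : Polynomial (OK A K), ev A K c = x :=
  Iff.rfl

variable {A K} in
theorem gRel_ev (hG : GRelFacts A) (c : Polynomial (OK A K)) :
    GRel A (ev A K c) (evbar A K c) := by
  induction c using Polynomial.induction_on' with
  | add p q hp hq =>
    rw [map_add, map_add]
    exact hG.add _ _ _ _ hp hq
  | monomial n a =>
    rw [ev_apply, evbar_apply, Polynomial.eval₂_monomial, Polynomial.eval₂_monomial]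
    exact hG.mul _ _ _ _ (gRel_ι hG a) (gRel_pow hG (gRel_jΩ hG) n)

variable {A K} in
theorem B0_le_gRing (hG : GRelFacts A) : B0 A K ≤ gRing A hG := by
  rintro x ⟨c, rfl⟩
  exact ⟨_, gRel_ev hG c⟩

variable {A K} in
theorem red_ev (hG : GRelFacts A) (c : Polynomial (OK A K)) :
    red A (ev A K c) = evbar A K c := red_eq hG (gRel_ev hG c)

theorem evbar_eq (c : Polynomial (OK A K)) :
    evbar A K c = (c.map (resO A K)).eval₂ HahnSeries.C (jqModC (IsLocalRing.ResidueField A)) := by
  rw [evbar_apply, Polynomial.eval₂_map]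
  rfl

/-- `j̄` is transcendental over `k`: the reduction of `c(j)` vanishes iff `c mod 𝔪 = 0`. -/
theorem evbar_eq_zero_iff (c : Polynomial (OK A K)) :
    evbar A K c = 0 ↔ c.map (resO A K) = 0 := by
  rw [evbar_eq]
  constructor
  · intro h
    have h1 := Fermat.Agent.S28.BasePair.coeff_eval₂_C_jqModC (IsLocalRing.ResidueField A)
      (c.map (resO A K))
    rw [h, HahnSeries.coeff_zero] at h1
    exact Polynomial.leadingCoeff_eq_zero.mp h1.symm
  · intro h
    rw [h, Polynomial.eval₂_zero]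

end Base

/-! ### The tower ring -/

section Tower

variable (A : ValuationSubring Qb) (K : IntermediateField ℚ Qb)
variable (N : ℕ) [NeZero N] (ℓ : ℕ) [Fact ℓ.Prime]
variable (S : Subring (LaurentSeries ℚ))

/-- `S_N = S ∩ F_ℚ(N)`. -/
def SN : Subring (LaurentSeries ℚ) := S ⊓ (modularFunctionFieldFull N).toSubring

theorem mem_SN {s : LaurentSeries ℚ} : s ∈ SN N S ↔ s ∈ S ∧ s ∈ modularFunctionFieldFull N :=
  Iff.rfl

/-- `S_N → ℚ̄((q))`. -/
def κ : ↥(SN N S) →+* LaurentSeries Qb := (coeffEmb Qb).comp (SN N S).subtype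

theorem κ_apply (s : ↥(SN N S)) : κ N S s = coeffEmb Qb (s : LaurentSeries ℚ) := rfl

variable {S} in
/-- The restriction of `ρ` to `S_N`. -/
def ρN (ρ : ↥S →+* LaurentSeries (ZMod ℓ)) : ↥(SN N S) →+* LaurentSeries (ZMod ℓ) :=
  ρ.comp (Subring.inclusion inf_le_left)

variable {S} in
theorem ρN_apply (ρ : ↥S →+* LaurentSeries (ZMod ℓ)) (s : ↥(SN N S)) :
    ρN N ℓ ρ s = ρ ⟨(s : LaurentSeries ℚ), s.2.1⟩ := rfl

variable {S} in
/-- The reduction on `S_N`, with values in `k((q))`. -/
def κbar (φ : ZMod ℓ →+* IsLocalRing.ResidueField A) (ρ : ↥S →+* LaurentSeries (ZMod ℓ)) :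
    ↥(SN N S) →+* LaurentSeries (IsLocalRing.ResidueField A) :=
  (coeffMap φ).comp (ρN N ℓ ρ)

variable {S} in
theorem κbar_apply (φ : ZMod ℓ →+* IsLocalRing.ResidueField A)
    (ρ : ↥S →+* LaurentSeries (ZMod ℓ)) (s : ↥(SN N S)) :
    κbar A N ℓ φ ρ s = coeffMap φ (ρ ⟨(s : LaurentSeries ℚ), s.2.1⟩) := rfl

/-- `T0`: the subring of `ℚ̄((q))` generated by the constants of `O` and by `S_N`. -/
def T0 : Subring (LaurentSeries Qb) := Subring.closure (Set.range (ι A K) ∪ Set.range (κ N S))

end Tower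

end Fermat.Agent.S18.QExpDefs
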