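/-
S18, block [QExp], piece (B) (helper60): the `π`-adic bound on `T0`
(field `bound` of the abstract core `QExpCore.Data`).
-/
import Fermat.Agent.S18.QExpDefs

set_option autoImplicit false
set_option linter.unusedSectionVars false

noncomputable section

namespace Fermat.Agent.S18.QExpBound

open ModularCurve ModularCurve.IgusaScheme HahnSeries Fermat.Agent.S18.Arith
  Fermat.Agent.S18.ModelPlan Fermat.Agent.S18.QExpDefs

variable (N : ℕ) [NeZero N] (ℓ : ℕ) [Fact ℓ.Prime] (A : ValuationSubring Qb)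
  (K : IntermediateField ℚ Qb)

/-- `T0 ⊆ F_K`. -/
theorem T0_le_FK (S : Subring (LaurentSeries ℚ)) : T0 A K N S ≤ (FK N K).toSubring := by
  show Subring.closure _ ≤ _
  rw [Subring.closure_le]
  rintro y (⟨o, rfl⟩ | ⟨s, rfl⟩)
  · exact Subfield.subset_closure (Or.inl ⟨(o : K), rfl⟩)
  · exact Subfield.subset_closure (Or.inr ⟨⟨(s : LaurentSeries ℚ), s.2.2⟩, rfl⟩)

/-- The coefficientwise inclusion `O((q)) → ℚ̄((q))` is injective. -/
theorem coeffMap_incO_injective : Function.Injective (coeffMap (incO A K)) := by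
  intro a b h
  refine HahnSeries.ext ?_
  funext k
  have h' : incO A K (a.coeff k) = incO A K (b.coeff k) :=
    congrArg (fun z : LaurentSeries Qb => z.coeff k) h
  have h2 : (((a.coeff k : OK A K) : K) : Qb) = (((b.coeff k : OK A K) : K) : Qb) := h'
  exact Subtype.ext (Subtype.ext h2)

/-- **(B)** The `π`-adic bound on `T0`: a nonzero `t ∈ T0` is not divisible in the Gauss ring by
arbitrarily high powers of the uniformiser. -/
theorem bound_T0 (hG : GRelFacts A) (hNF : GRelNFStatement)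
    (hdvr : IsDiscreteValuationRing (OK A K)) (ϖ : OK A K) (hϖ : Irreducible ϖ)
    (hϖ0 : resO A K ϖ = 0)
    (hq : ∀ x : FK N K, ∃ a b : LaurentSeries (OK A K), b ≠ 0 ∧
      ((x : FK N K) : LaurentSeries Qb) * coeffMap (incO A K) b = coeffMap (incO A K) a)
    (S : Subring (LaurentSeries ℚ)) :
    ∀ t ∈ T0 A K N S, t ≠ 0 → ∃ γ : ℕ, ∀ t' ∈ gRing A hG, t ≠ ι A K ϖ ^ (γ + 1) * t' := by
  intro t ht ht0
  have htF : t ∈ FK N K := T0_le_FK N A K S ht
  obtain ⟨a, b, hb, hab⟩ := hq ⟨t, htF⟩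
  have hab' : t * coeffMap (incO A K) b = coeffMap (incO A K) a := hab
  have hb' : coeffMap (incO A K) b ≠ 0 := by
    intro h
    exact hb (coeffMap_incO_injective A K (by rw [h, map_zero]))
  have ha : a ≠ 0 := by
    rintro rfl
    rw [map_zero] at hab'
    exact (mul_ne_zero ht0 hb') hab'
  obtain ⟨γ0, y, hy, hrel⟩ := hNF A K hdvr ϖ hϖ t a b ha hb hab'
  have hrel' : GRel A (t * ι A K ϖ ^ (-γ0)) y := hrel
  have hι0 : ι A K ϖ ≠ 0 := by
    intro h
    exact hϖ.ne_zero (ι_injective A K (by rw [h, map_zero]))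
  have hιbar : ιbar A K ϖ = 0 := by
    rw [ιbar_apply, hϖ0, map_zero]
  refine ⟨γ0.toNat, ?_⟩
  intro t' ht' heq
  obtain ⟨y', hy'⟩ := ht'
  have hle : γ0 ≤ (γ0.toNat : ℤ) := Int.self_le_toNat γ0
  obtain ⟨e, he⟩ : ∃ e : ℕ, (e : ℤ) = (γ0.toNat : ℤ) - γ0 :=
    ⟨((γ0.toNat : ℤ) - γ0).toNat, Int.toNat_of_nonneg (by omega)⟩
  have hpow : t * ι A K ϖ ^ (-γ0) = ι A K ϖ ^ (e + 1) * t' := by
    rw [heq]
    have h1 : ι A K ϖ ^ (γ0.toNat + 1) * ι A K ϖ ^ (-γ0) = ι A K ϖ ^ (e + 1) := by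
      rw [← zpow_natCast (ι A K ϖ) (γ0.toNat + 1), ← zpow_natCast (ι A K ϖ) (e + 1),
        ← zpow_add₀ hι0]
      congr 1
      push_cast
      omega
    rw [← h1]
    ring
  have h2 : GRel A (ι A K ϖ ^ (e + 1) * t') (ιbar A K ϖ ^ (e + 1) * y') :=
    hG.mul _ _ _ _ (gRel_pow hG (gRel_ι hG ϖ) (e + 1)) hy'
  rw [← hpow, hιbar, zero_pow (Nat.succ_ne_zero e), zero_mul] at h2
  exact hy (hG.unique _ _ _ hrel' h2)

end Fermat.Agent.S18.QExpBound
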