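/-
S18 — QExpAux.lean (helper18): four independent Mathlib-only auxiliary lemmas for the [ARITH]
leaf [QExp] (owner helper69; exact shapes requested by him).

* (C1) `exists_primitive_poly` : over a DVR, a nonzero polynomial is a power of the uniformizer
  times a polynomial with nonzero reduction.
* (C2) `isIntegralElem_of_isIntegral_range` : integral over the range of a ring hom ⟹ integral
  element for that hom.
* (C3) `isIntegral_adjoin_of_isIntegralElem` : transfer of integrality to `Algebra.adjoin O {t}`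
  through an injective ring hom.
* (C4) `exists_mul_isIntegral_of_mem_closure` : the elements `t` admitting a "denominator" `c ∈ B0`
  with `r c ≠ 0` and `c * t` integral over `B0` form a subring.
-/
import Mathlib

set_option autoImplicit false

namespace Fermat.Agent.S18.QExpAux

open Polynomial

/-- Auxiliary descent for (C1), by induction on the valuation of a nonzero coefficient. -/
theorem exists_primitive_poly_aux {O k : Type*} [CommRing O] [IsDomain O]
    [IsDiscreteValuationRing O] [Field k] (res : O →+* k)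
    (hres : ∀ o : O, res o = 0 → o ∈ IsLocalRing.maximalIdeal O) (ϖ : O) (hϖ : Irreducible ϖ) :
    ∀ (m : ℕ) (c : Polynomial O) (i : ℕ), Associated (c.coeff i) (ϖ ^ m) →
      ∃ (e : ℕ) (c' : Polynomial O), c = Polynomial.C ϖ ^ e * c' ∧ c'.map res ≠ 0 := by
  intro m
  induction m with
  | zero =>
    intro c i hi
    refine ⟨0, c, by simp, ?_⟩
    intro h0
    have h1 : res (c.coeff i) = 0 := by
      rw [← Polynomial.coeff_map, h0, Polynomial.coeff_zero]
    have h2 := hres _ h1
    rw [pow_zero] at hi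
    have hu : IsUnit (c.coeff i) := hi.symm.isUnit (isUnit_one)
    exact (IsLocalRing.mem_maximalIdeal _).mp h2 hu
  | succ m ih =>
    intro c i hi
    by_cases h0 : c.map res = 0
    · have hdvd : Polynomial.C ϖ ∣ c := by
        rw [Polynomial.C_dvd_iff_dvd_coeff]
        intro j
        have h1 : res (c.coeff j) = 0 := by
          rw [← Polynomial.coeff_map, h0, Polynomial.coeff_zero]
        have h2 := hres _ h1
        rw [hϖ.maximalIdeal_eq, Ideal.mem_span_singleton] at h2
        exact h2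
      obtain ⟨c₁, rfl⟩ := hdvd
      have hi' : Associated (ϖ * c₁.coeff i) (ϖ * ϖ ^ m) := by
        rwa [Polynomial.coeff_C_mul, pow_succ'] at hi
      have hi'' : Associated (c₁.coeff i) (ϖ ^ m) :=
        hi'.of_mul_left (Associated.refl ϖ) hϖ.ne_zero
      obtain ⟨e, c', hc', hne⟩ := ih c₁ i hi''
      exact ⟨e + 1, c', by rw [hc', pow_succ']; ring, hne⟩
    · exact ⟨0, c, by simp, h0⟩

/-- **(C1)** Over a discrete valuation ring with uniformizer `ϖ`, every nonzero polynomial is
`ϖ ^ e` times a polynomial with nonzero reduction. -/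
theorem exists_primitive_poly {O k : Type*} [CommRing O] [IsDomain O] [IsDiscreteValuationRing O]
    [Field k] (res : O →+* k) (hres : ∀ o : O, res o = 0 → o ∈ IsLocalRing.maximalIdeal O)
    (ϖ : O) (hϖ : Irreducible ϖ) (c : Polynomial O) (hc : c ≠ 0) :
    ∃ (e : ℕ) (c' : Polynomial O), c = Polynomial.C ϖ ^ e * c' ∧ c'.map res ≠ 0 := by
  obtain ⟨i, hi⟩ : ∃ i, c.coeff i ≠ 0 := by
    by_contra h
    exact hc (Polynomial.ext fun i => by
      rw [Polynomial.coeff_zero]
      by_contra hi
      exact h ⟨i, hi⟩)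
  obtain ⟨m, hm⟩ := IsDiscreteValuationRing.associated_pow_irreducible hi hϖ
  exact exists_primitive_poly_aux res hres ϖ hϖ m c i hm

/-- **(C2)** Integral over the range of a ring homomorphism ⟹ integral element for it. -/
theorem isIntegralElem_of_isIntegral_range {P Ω : Type*} [CommRing P] [CommRing Ω] (f : P →+* Ω)
    (z : Ω) (h : IsIntegral ↥f.range z) : f.IsIntegralElem z := by
  rcases subsingleton_or_nontrivial Ω with hΩ | hΩ
  · exact ⟨1, Polynomial.monic_one, Subsingleton.elim _ _⟩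
  obtain ⟨q, hq, hqz⟩ := h
  have hlift : q ∈ Polynomial.lifts f.rangeRestrict :=
    (Polynomial.mem_lifts q).mpr
      (Polynomial.map_surjective f.rangeRestrict f.rangeRestrict_surjective q)
  obtain ⟨p, hpq, -, hp⟩ := Polynomial.lifts_and_degree_eq_and_monic hlift hq
  refine ⟨p, hp, ?_⟩
  rw [← hpq, Polynomial.eval₂_map] at hqz
  exact hqz

/-- **(C3)** Transfer of integrality to `Algebra.adjoin O {t}` through an injective ring hom. -/
theorem isIntegral_adjoin_of_isIntegralElem {O E Ω : Type*} [CommRing O] [CommRing E] [CommRing Ω]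
    [Algebra O E] (g : E →+* Ω) (hg : Function.Injective g) (t w : E)
    (h : (g.comp (Polynomial.aeval t : Polynomial O →ₐ[O] E).toRingHom).IsIntegralElem (g w)) :
    IsIntegral (Algebra.adjoin O {t}) w := by
  obtain ⟨p, hp, hpw⟩ := h
  -- the map `O[X] → O[t]`
  let ψ : Polynomial O →ₐ[O] ↥(Algebra.adjoin O {t}) :=
    (Polynomial.aeval t : Polynomial O →ₐ[O] E).codRestrict (Algebra.adjoin O {t})
      (fun q => Polynomial.aeval_mem_adjoin_singleton O t)
  have hψ : (algebraMap ↥(Algebra.adjoin O {t}) E).comp ψ.toRingHom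
      = (Polynomial.aeval t : Polynomial O →ₐ[O] E).toRingHom := by
    ext <;> rfl
  refine ⟨p.map ψ.toRingHom, hp.map _, ?_⟩
  rw [Polynomial.eval₂_map, hψ]
  apply hg
  rw [Polynomial.hom_eval₂, map_zero]
  exact hpw

/-- **(C4)** The elements `t` with a denominator `c ∈ B0`, `r c ≠ 0`, `c * t` integral over `B0`,
form a subring. -/
theorem exists_mul_isIntegral_of_mem_closure {Ω Λ : Type*} [Field Ω] [Field Λ] (G B0 : Subring Ω)
    (r : Ω → Λ) (hB0G : B0 ≤ G) (r_one : r 1 = 1)
    (r_mul : ∀ x ∈ G, ∀ y ∈ G, r (x * y) = r x * r y) (s : Set Ω)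
    (hs : ∀ t ∈ s, ∃ c ∈ B0, r c ≠ 0 ∧ IsIntegral ↥B0 (c * t)) :
    ∀ t ∈ Subring.closure s, ∃ c ∈ B0, r c ≠ 0 ∧ IsIntegral ↥B0 (c * t) := by
  have hint : ∀ c ∈ B0, IsIntegral ↥B0 (c : Ω) := fun c hc =>
    isIntegral_algebraMap (R := ↥B0) (A := Ω) (x := ⟨c, hc⟩)
  intro t ht
  induction ht using Subring.closure_induction with
  | mem x hx => exact hs x hx
  | zero =>
    refine ⟨1, B0.one_mem, by rw [r_one]; exact one_ne_zero, ?_⟩
    rw [mul_zero]; exact isIntegral_zero
  | one =>
    refine ⟨1, B0.one_mem, by rw [r_one]; exact one_ne_zero, ?_⟩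
    rw [mul_one]; exact isIntegral_one
  | add x y _ _ ihx ihy =>
    obtain ⟨c1, hc1, hr1, hi1⟩ := ihx
    obtain ⟨c2, hc2, hr2, hi2⟩ := ihy
    refine ⟨c1 * c2, B0.mul_mem hc1 hc2, ?_, ?_⟩
    · rw [r_mul c1 (hB0G hc1) c2 (hB0G hc2)]
      exact mul_ne_zero hr1 hr2
    · have e : c1 * c2 * (x + y) = c2 * (c1 * x) + c1 * (c2 * y) := by ring
      rw [e]
      exact ((hint c2 hc2).mul hi1).add ((hint c1 hc1).mul hi2)
  | neg x _ ihx =>
    obtain ⟨c1, hc1, hr1, hi1⟩ := ihx
    refine ⟨c1, hc1, hr1, ?_⟩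
    rw [mul_neg]
    exact hi1.neg
  | mul x y _ _ ihx ihy =>
    obtain ⟨c1, hc1, hr1, hi1⟩ := ihx
    obtain ⟨c2, hc2, hr2, hi2⟩ := ihy
    refine ⟨c1 * c2, B0.mul_mem hc1 hc2, ?_, ?_⟩
    · rw [r_mul c1 (hB0G hc1) c2 (hB0G hc2)]
      exact mul_ne_zero hr1 hr2
    · have e : c1 * c2 * (x * y) = (c1 * x) * (c2 * y) := by ring
      rw [e]
      exact hi1.mul hi2

end Fermat.Agent.S18.QExpAux
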