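/-
S18 — QExpCont.lean (helper18): piece (C) of the [ARITH] leaf [QExp] (owner helper69):
the kernel of `resO`, the uniformizer divides `ℓ`, and the content factorisation on `B0 = O[j]`.
-/
import Fermat.Agent.S18.QExpDefs
import Fermat.Agent.S18.QExpAux

set_option autoImplicit false
set_option linter.unusedSectionVars false

namespace Fermat.Agent.S18.QExpCont

open ModularCurve ModularCurve.IgusaScheme HahnSeries Fermat.Agent.S18.Arith
  Fermat.Agent.S18.ModelPlan Fermat.Agent.S18.QExpDefs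

variable (N : ℕ) [NeZero N] (ℓ : ℕ) [Fact ℓ.Prime] (A : ValuationSubring Qb)
  (K : IntermediateField ℚ Qb)

/-- The ring hom `O = A ∩ K → A`. -/
noncomputable def toA : OK A K →+* A := (incO A K).codRestrict A.toSubring (fun x => x.2)

theorem resO_eq : resO A K = (IsLocalRing.residue A).comp (toA A K) := rfl

theorem coe_toA (o : OK A K) : ((toA A K o : A) : Qb) = algebraMap K Qb (o : K) := rfl

/-- The kernel of `resO` is the maximal ideal of `O`. -/
theorem resO_eq_zero_iff (o : OK A K) :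
    resO A K o = 0 ↔ o ∈ IsLocalRing.maximalIdeal (OK A K) := by
  rw [resO_eq, RingHom.comp_apply, IsLocalRing.residue_eq_zero_iff, IsLocalRing.mem_maximalIdeal,
    IsLocalRing.mem_maximalIdeal, mem_nonunits_iff, mem_nonunits_iff, not_iff_not]
  constructor
  · intro hu
    obtain ⟨b, hb⟩ := isUnit_iff_exists_inv.mp hu
    have hb' : algebraMap K Qb (o : K) * (b : Qb) = 1 :=
      congrArg (fun x : A => (x : Qb)) hb
    have ho0 : (o : K) ≠ 0 := by
      intro h0
      rw [h0, map_zero, zero_mul] at hb'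
      exact zero_ne_one hb'
    have hbeq : (b : Qb) = algebraMap K Qb ((o : K)⁻¹) := by
      rw [map_inv₀]
      exact eq_inv_of_mul_eq_one_right hb'
    have hmem : (o : K)⁻¹ ∈ OK A K := by
      change algebraMap K Qb ((o : K)⁻¹) ∈ A
      rw [← hbeq]
      exact b.2
    exact isUnit_iff_exists_inv.mpr ⟨⟨(o : K)⁻¹, hmem⟩, Subtype.ext (mul_inv_cancel₀ ho0)⟩
  · intro hu
    exact hu.map (toA A K)

theorem exists_eq_mul_of_resO_eq_zero (hdvr : IsDiscreteValuationRing (OK A K)) (ϖ : OK A K)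
    (hϖ : Irreducible ϖ) (o : OK A K) (h : resO A K o = 0) : ∃ o', o = ϖ * o' := by
  have h1 := (resO_eq_zero_iff A K o).mp h
  rw [hϖ.maximalIdeal_eq, Ideal.mem_span_singleton] at h1
  exact h1

theorem resO_natCast (hA : A.LiesOverPrime ℓ) : resO A K (ℓ : OK A K) = 0 := by
  rw [resO_eq, RingHom.comp_apply, map_natCast, IsLocalRing.residue_eq_zero_iff,
    ValuationSubring.valuation_lt_one_iff]
  have h : A.valuation (ℓ : Qb) < 1 := hA
  simpa using h

theorem exists_natCast_eq_mul (hA : A.LiesOverPrime ℓ) (hdvr : IsDiscreteValuationRing (OK A K))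
    (ϖ : OK A K) (hϖ : Irreducible ϖ) : ∃ w : OK A K, (ℓ : OK A K) = ϖ * w :=
  exists_eq_mul_of_resO_eq_zero A K hdvr ϖ hϖ _ (resO_natCast ℓ A K hA)

/-- Content factorisation on `B0 = O[j]`: a nonzero element is a power of the uniformizer times
an element with nonzero Gauss reduction. -/
theorem cont_B0 (hG : GRelFacts A) (hdvr : IsDiscreteValuationRing (OK A K)) (ϖ : OK A K)
    (hϖ : Irreducible ϖ) :
    ∀ a ∈ B0 A K, a ≠ 0 → ∃ (e : ℕ) (a' : LaurentSeries Qb),
      a' ∈ B0 A K ∧ a = ι A K ϖ ^ e * a' ∧ red A a' ≠ 0 := by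
  rintro a ⟨c, rfl⟩ ha
  have hc : c ≠ 0 := by
    rintro rfl
    exact ha (map_zero _)
  obtain ⟨e, c', hcc', hc'⟩ := QExpAux.exists_primitive_poly (resO A K)
    (fun o ho => (resO_eq_zero_iff A K o).mp ho) ϖ hϖ c hc
  refine ⟨e, ev A K c', ev_mem_B0 A K c', ?_, ?_⟩
  · have hC : ev A K (Polynomial.C ϖ) = ι A K ϖ := by
      rw [ev_apply, Polynomial.eval₂_C]
    rw [hcc', map_mul, map_pow, hC]
  · rw [red_ev hG c']
    intro h0
    exact hc' ((evbar_eq_zero_iff A K c').mp h0)

end Fermat.Agent.S18.QExpCont
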