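/-
S18, block [ARITH]/[QExp] (helper69): the abstract core of the `q`-expansion principle over `O`.

Setting: a field `Ω`, a subring `G` ("Gauss local ring") with a multiplicative reduction
`r : Ω → Λ` on it, a base ring `B0 ⊆ G` (`= O[j]`), an element `π ∈ B0` with `r π = 0`, and a
subring `B0 ⊆ T0 ⊆ G` such that
* every nonzero element of `B0` is `π ^ e` times an element of `B0` with nonzero reduction,
* every element of `T0` becomes integral over `B0` after multiplication by an element of `B0`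
  with nonzero reduction,
* an element of `T0` with zero reduction is divisible by `π` inside `T0`,
* no nonzero element of `T0` is divisible by all powers of `π` inside `G`.
Conclusion: every `x ∈ G` which is a quotient of two elements of `T0` becomes integral over `B0`
after multiplication by an element of `B0` with nonzero reduction, and is a quotient `a' / b'`
with `a', b' ∈ T0`, `r b' ≠ 0`.
-/
import Mathlib

set_option autoImplicit false

namespace Fermat.Agent.S18.QExpCore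

open Polynomial

variable {Ω Λ : Type*} [Field Ω] [Field Λ]

/-- The abstract hypotheses. -/
structure Data (G B0 T0 : Subring Ω) (r : Ω → Λ) (π : Ω) : Prop where
  hB0T0 : B0 ≤ T0
  hT0G : T0 ≤ G
  hπ : π ∈ B0
  hπ0 : π ≠ 0
  r_pi : r π = 0
  r_zero : r 0 = 0
  r_one : r 1 = 1
  r_mul : ∀ x ∈ G, ∀ y ∈ G, r (x * y) = r x * r y
  /-- content factorisation in `B0` -/
  cont : ∀ a ∈ B0, a ≠ 0 → ∃ (e : ℕ) (a' : Ω), a' ∈ B0 ∧ a = π ^ e * a' ∧ r a' ≠ 0
  /-- elements of `T0` are integral over `B0` up to a denominator with nonzero reduction -/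
  int : ∀ t ∈ T0, ∃ c ∈ B0, r c ≠ 0 ∧ IsIntegral ↥B0 (c * t)
  /-- an element of `T0` with zero reduction is divisible by `π` in `T0` -/
  div : ∀ t ∈ T0, r t = 0 → ∃ t' ∈ T0, t = π * t'
  /-- `π`-adic separatedness -/
  bound : ∀ t ∈ T0, t ≠ 0 → ∃ γ : ℕ, ∀ t' ∈ G, t ≠ π ^ (γ + 1) * t'

variable {G B0 T0 : Subring Ω} {r : Ω → Λ} {π : Ω}

namespace Data

variable (D : Data G B0 T0 r π)
include D

theorem pi_mem_T0 : π ∈ T0 := D.hB0T0 D.hπ

theorem pi_mem_G : π ∈ G := D.hT0G D.pi_mem_T0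

theorem r_pi_mul {x : Ω} (hx : x ∈ G) : r (π * x) = 0 := by
  rw [D.r_mul π D.pi_mem_G x hx, D.r_pi, zero_mul]

theorem r_pi_pow_mul {x : Ω} (hx : x ∈ G) (k : ℕ) : r (π ^ (k + 1) * x) = 0 := by
  rw [pow_succ', mul_assoc]
  exact D.r_pi_mul (G.mul_mem (G.pow_mem D.pi_mem_G k) hx)

/-- Normal form in `T0`: `t = π ^ m * t'` with `r t' ≠ 0`. -/
theorem nf {t : Ω} (ht : t ∈ T0) (ht0 : t ≠ 0) :
    ∃ (m : ℕ) (t' : Ω), t' ∈ T0 ∧ t = π ^ m * t' ∧ r t' ≠ 0 := by
  obtain ⟨γ, hγ⟩ := D.bound t ht ht0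
  -- induction: for every `m ≤ γ + 1` either we are done or `t = π ^ m * t'` with `t' ∈ T0`
  have key : ∀ m : ℕ, m ≤ γ + 1 →
      (∃ (m' : ℕ) (t' : Ω), t' ∈ T0 ∧ t = π ^ m' * t' ∧ r t' ≠ 0) ∨
        ∃ t' ∈ T0, t = π ^ m * t' := by
    intro m
    induction m with
    | zero => intro _; exact Or.inr ⟨t, ht, by rw [pow_zero, one_mul]⟩
    | succ m ih =>
      intro hm
      rcases ih (by omega) with h | ⟨t', ht', htt'⟩
      · exact Or.inl h
      · by_cases hr : r t' = 0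
        · obtain ⟨t'', ht'', h⟩ := D.div t' ht' hr
          exact Or.inr ⟨t'', ht'', by rw [htt', h, pow_succ, mul_assoc]⟩
        · exact Or.inl ⟨m, t', ht', htt', hr⟩
  rcases key (γ + 1) le_rfl with h | ⟨t', ht', htt'⟩
  · exact h
  · exact absurd htt' (hγ t' (D.hT0G ht'))

omit D in
/-- Polynomial expressions with coefficients in `B0`, evaluated at a point of `T0 ≥ B0`. -/
theorem eval₂_mem {B0 T0 : Subring Ω} (h : B0 ≤ T0) {y : Ω} (hy : y ∈ T0) (p : Polynomial ↥B0) :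
    p.eval₂ (algebraMap ↥B0 Ω) y ∈ T0 := by
  rw [Polynomial.eval₂_eq_sum_range]
  exact Subring.sum_mem _ fun i _ => Subring.mul_mem _ (h (p.coeff i).2) (Subring.pow_mem _ hy i)

omit D in
/-- A nonzero integral element is a root of a monic polynomial with nonzero constant term. -/
theorem exists_monic_coeff_zero_ne {B0 : Subring Ω} {β : Ω} (hβ0 : β ≠ 0)
    (hβ : IsIntegral ↥B0 β) :
    ∃ p : Polynomial ↥B0, p.Monic ∧ p.eval₂ (algebraMap ↥B0 Ω) β = 0 ∧ p.coeff 0 ≠ 0 := by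
  obtain ⟨p, hp, hpβ⟩ := hβ
  have key : ∀ n : ℕ, ∀ p : Polynomial ↥B0, p.natDegree = n → p.Monic →
      p.eval₂ (algebraMap ↥B0 Ω) β = 0 →
      ∃ p : Polynomial ↥B0, p.Monic ∧ p.eval₂ (algebraMap ↥B0 Ω) β = 0 ∧ p.coeff 0 ≠ 0 := by
    intro n
    induction n using Nat.strong_induction_on with
    | _ n ih =>
      intro p hn hp hpβ
      by_cases h0 : p.coeff 0 = 0
      · obtain ⟨q, hq⟩ := Polynomial.X_dvd_iff.mpr h0
        have hqm : q.Monic := by
          have h1 : (X * q : Polynomial ↥B0).Monic := hq ▸ hp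
          exact Polynomial.Monic.of_mul_monic_left Polynomial.monic_X h1
        have hqβ : q.eval₂ (algebraMap ↥B0 Ω) β = 0 := by
          rw [hq, Polynomial.eval₂_mul, Polynomial.eval₂_X] at hpβ
          exact (mul_eq_zero.mp hpβ).resolve_left hβ0
        have hdeg : q.natDegree < n := by
          rw [← hn, hq, Polynomial.natDegree_X_mul hqm.ne_zero]
          omega
        exact ih _ hdeg q rfl hqm hqβ
      · exact ⟨p, hp, hpβ, h0⟩
  exact key _ p rfl hp hpβ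

/-- Step (Q4): an element of `T0` with nonzero reduction divides, inside `T0`, an element of `B0`
with nonzero reduction. -/
theorem exists_mul_eq {b : Ω} (hb : b ∈ T0) (hrb : r b ≠ 0) :
    ∃ c ∈ B0, r c ≠ 0 ∧ ∃ t ∈ T0, b * t = c := by
  obtain ⟨c1, hc1, hrc1, hint⟩ := D.int b hb
  set β := c1 * b with hβ
  have hβT : β ∈ T0 := T0.mul_mem (D.hB0T0 hc1) hb
  have hrβ : r β ≠ 0 := by
    rw [hβ, D.r_mul c1 (D.hT0G (D.hB0T0 hc1)) b (D.hT0G hb)]
    exact mul_ne_zero hrc1 hrb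
  have hβ0 : β ≠ 0 := fun h => hrβ (by rw [h, D.r_zero])
  obtain ⟨p, hp, hpβ, hp0⟩ := exists_monic_coeff_zero_ne hβ0 hint
  -- `β * t0 = a0`
  have hdiv := Polynomial.divX_mul_X_add p
  have heq : p.divX.eval₂ (algebraMap ↥B0 Ω) β * β + ((p.coeff 0 : ↥B0) : Ω) = 0 := by
    have h := congrArg (Polynomial.eval₂ (algebraMap ↥B0 Ω) β) hdiv
    rw [Polynomial.eval₂_add, Polynomial.eval₂_mul, Polynomial.eval₂_X, Polynomial.eval₂_C,
      hpβ] at h
    exact h
  set a0 : Ω := ((p.coeff 0 : ↥B0) : Ω) with ha0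
  have ha0B : a0 ∈ B0 := (p.coeff 0).2
  have ha00 : a0 ≠ 0 := by
    intro h
    apply hp0
    exact Subtype.ext h
  set t0 : Ω := -(p.divX.eval₂ (algebraMap ↥B0 Ω) β) with ht0
  have ht0T : t0 ∈ T0 := T0.neg_mem (eval₂_mem D.hB0T0 hβT _)
  have hβt0 : β * t0 = a0 := by
    rw [ht0]
    linear_combination -heq
  obtain ⟨e, a', ha'B, ha0e, hra'⟩ := D.cont a0 ha0B ha00
  -- descend the power of `π`
  have key : ∀ e : ℕ, ∀ t ∈ T0, β * t = π ^ e * a' → ∃ t ∈ T0, β * t = a' := by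
    intro e
    induction e with
    | zero => intro t ht h; exact ⟨t, ht, by rw [h, pow_zero, one_mul]⟩
    | succ e ih =>
      intro t ht h
      have hr0 : r (β * t) = 0 := by
        rw [h]
        exact D.r_pi_pow_mul (D.hT0G (D.hB0T0 ha'B)) e
      rw [D.r_mul β (D.hT0G hβT) t (D.hT0G ht)] at hr0
      have hrt : r t = 0 := (mul_eq_zero.mp hr0).resolve_left hrβ
      obtain ⟨t', ht', htt'⟩ := D.div t ht hrt
      refine ih t' ht' ?_
      have h2 : π * (β * t') = π * (π ^ e * a') := by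
        rw [← mul_assoc π (π ^ e), ← pow_succ', ← h, htt']
        ring
      exact mul_left_cancel₀ D.hπ0 h2
  obtain ⟨t, ht, hβt⟩ := key e t0 ht0T (by rw [hβt0, ha0e])
  refine ⟨a', ha'B, hra', c1 * t, T0.mul_mem (D.hB0T0 hc1) ht, ?_⟩
  rw [← hβt, hβ]
  ring

/-- Step (Q3): a quotient of two elements of `T0` lying in `G` is a quotient with denominator
of nonzero reduction. -/
theorem exists_quot {x : Ω} (hxG : x ∈ G) {a b : Ω} (ha : a ∈ T0) (hb : b ∈ T0) (hb0 : b ≠ 0)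
    (hx : x * b = a) : ∃ a' ∈ T0, ∃ b' ∈ T0, r b' ≠ 0 ∧ x * b' = a' := by
  by_cases ha0 : a = 0
  · have hx0 : x = 0 := by
      rw [ha0] at hx
      exact (mul_eq_zero.mp hx).resolve_right hb0
    refine ⟨0, T0.zero_mem, 1, T0.one_mem, ?_, by rw [hx0, zero_mul]⟩
    rw [D.r_one]
    exact one_ne_zero
  obtain ⟨n, a1, ha1, han, hra1⟩ := D.nf ha ha0
  obtain ⟨m, b1, hb1, hbm, hrb1⟩ := D.nf hb hb0
  have hπm : π ^ m ≠ 0 := pow_ne_zero m D.hπ0
  have hπn : π ^ n ≠ 0 := pow_ne_zero n D.hπ0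
  rcases le_or_gt m n with hmn | hmn
  · obtain ⟨k, rfl⟩ : ∃ k, n = m + k := ⟨n - m, by omega⟩
    refine ⟨π ^ k * a1, T0.mul_mem (T0.pow_mem D.pi_mem_T0 _) ha1, b1, hb1, hrb1, ?_⟩
    have h : π ^ m * (x * b1) = π ^ m * (π ^ k * a1) :=
      calc π ^ m * (x * b1) = x * (π ^ m * b1) := by ring
        _ = a := by rw [← hbm, hx]
        _ = π ^ (m + k) * a1 := han
        _ = π ^ m * (π ^ k * a1) := by ring
    exact mul_left_cancel₀ hπm h
  · exfalso
    apply hra1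
    obtain ⟨k, rfl⟩ : ∃ k, m = n + (k + 1) := ⟨m - n - 1, by omega⟩
    have h : π ^ n * a1 = π ^ n * (π ^ (k + 1) * (x * b1)) :=
      calc π ^ n * a1 = a := han.symm
        _ = x * (π ^ (n + (k + 1)) * b1) := by rw [← hbm, hx]
        _ = π ^ n * (π ^ (k + 1) * (x * b1)) := by ring
    rw [mul_left_cancel₀ hπn h]
    exact D.r_pi_pow_mul (G.mul_mem hxG (D.hT0G hb1)) _

/-- **Main theorem of the abstract core.** -/
theorem main {x : Ω} (hxG : x ∈ G) {a b : Ω} (ha : a ∈ T0) (hb : b ∈ T0) (hb0 : b ≠ 0)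
    (hx : x * b = a) :
    (∃ c ∈ B0, r c ≠ 0 ∧ IsIntegral ↥B0 (c * x)) ∧
      ∃ a' ∈ T0, ∃ b' ∈ T0, r b' ≠ 0 ∧ x * b' = a' := by
  obtain ⟨a', ha', b', hb', hrb', hxb'⟩ := D.exists_quot hxG ha hb hb0 hx
  refine ⟨?_, a', ha', b', hb', hrb', hxb'⟩
  obtain ⟨c, hc, hrc, t, ht, hbt⟩ := D.exists_mul_eq hb' hrb'
  obtain ⟨c2, hc2, hrc2, hint⟩ := D.int (a' * t) (T0.mul_mem ha' ht)
  refine ⟨c2 * c, B0.mul_mem hc2 hc, ?_, ?_⟩
  · rw [D.r_mul c2 (D.hT0G (D.hB0T0 hc2)) c (D.hT0G (D.hB0T0 hc))]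
    exact mul_ne_zero hrc2 hrc
  · have h : c2 * c * x = c2 * (a' * t) := by
      rw [← hbt, ← hxb']
      ring
    rw [h]
    exact hint

end Data

end Fermat.Agent.S18.QExpCore
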