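/-
S18, block [QExp], sub-lemmas (F) (helper60).

* `coeffMap_mem_fullC`: functoriality of the modular function field `F_k(N) ⊆ k((q))` in the
  coefficient field.
-/
import Fermat.Agent.S18.ModelPlan

set_option autoImplicit false

noncomputable section

namespace Fermat.Agent.S18.QExpFrac

open ModularCurve HahnSeries

/-- **Functoriality of `F_k(N)` in the coefficient field**: a homomorphism of fields `φ : F → k`
maps `F_F(N) = F(j(q^d) : d ∣ N)` into `F_k(N)` (coefficientwise). -/
theorem coeffMap_mem_fullC {F k : Type*} [Field F] [Field k] (φ : F →+* k) (N : ℕ) [NeZero N]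
    {x : LaurentSeries F} (hx : x ∈ modularFunctionFieldFullC F N) :
    coeffMap φ x ∈ modularFunctionFieldFullC k N := by
  have key : (modularFunctionFieldFullC F N).toSubfield ≤
      (modularFunctionFieldFullC k N).toSubfield.comap (coeffMap φ) := by
    show Subfield.closure _ ≤ _
    rw [Subfield.closure_le]
    rintro y (⟨c, rfl⟩ | ⟨d, hd, hdN, rfl⟩)
    · show coeffMap φ (algebraMap F (LaurentSeries F) c) ∈ modularFunctionFieldFullC k N
      rw [algebraMap_laurentSeries_eq_single, coeffMap_single,
        ← algebraMap_laurentSeries_eq_single]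
      exact (modularFunctionFieldFullC k N).algebraMap_mem _
    · have := hd
      show coeffMap φ (qExpand F d (jqModC F)) ∈ modularFunctionFieldFullC k N
      rw [coeffMap_qExpand, coeffMap_jqModC]
      exact jqModCd_mem_full k N hdN
  exact key hx

/-- **(U)** Let `D` be a local ring, `T` an integral `D`-algebra and `π` an element of the
maximal ideal of `D` generating a maximal ideal of `T`.  Then `T` is local with maximal ideal
`(π)`: every element outside `(π)` is a unit. -/
theorem isUnit_of_notMem_span {D T : Type*} [CommRing D] [IsLocalRing D] [CommRing T]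
    [Algebra D T] [Algebra.IsIntegral D T] (π : D) (hπ : π ∈ IsLocalRing.maximalIdeal D)
    (hmax : (Ideal.span {algebraMap D T π}).IsMaximal) (b : T)
    (hb : b ∉ Ideal.span {algebraMap D T π}) : IsUnit b := by
  by_contra hu
  obtain ⟨M, hM, hbM⟩ := Ideal.exists_le_maximal (Ideal.span {b})
    (by rwa [Ne, Ideal.span_singleton_eq_top])
  have hcomap : (M.comap (algebraMap D T)).IsMaximal :=
    Ideal.isMaximal_comap_of_isIntegral_of_isMaximal M
  have hπM : algebraMap D T π ∈ M := by
    have : π ∈ M.comap (algebraMap D T) := by
      rw [IsLocalRing.eq_maximalIdeal hcomap]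
      exact hπ
    exact this
  have hle : Ideal.span {algebraMap D T π} ≤ M := by
    rw [Ideal.span_singleton_le_iff_mem]
    exact hπM
  have heq : Ideal.span {algebraMap D T π} = M := hmax.eq_of_le hM.ne_top hle
  apply hb
  rw [heq]
  exact hbM (Ideal.mem_span_singleton_self b)

end Fermat.Agent.S18.QExpFrac
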