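/-
S18, block [ARITH]/[QExp] (helper69): the `div` field of the `QExpCore.Data` instance and the
reduction of `T0`.

* `gRel_val`      the Gauss reduction of a formal sum `Σ ι(o_i) κ(s_i)` is `Σ ιbar(o_i) κbar(s_i)`;
* `T0_le_gRing`   `T0` lies in the Gauss ring;
* `div_T0`        an element of `T0` with zero reduction is divisible by `π` in `T0`;
* `red_mem_fullC` the reduction of `T0` lies in `F_k(N)`.
-/
import Fermat.Agent.S18.QExpDefs
import Fermat.Agent.S18.QExpDiv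
import Fermat.Agent.S18.QExpFrac
import Fermat.Agent.S28.GoodPair

set_option autoImplicit false
set_option linter.unusedSectionVars false
noncomputable section
namespace Fermat.Agent.S18.QExpDivT

open ModularCurve ModularCurve.IgusaScheme HahnSeries
open Fermat.Agent.S18.Arith Fermat.Agent.S18.ModelPlan Fermat.Agent.S18.QExpDefs

variable (N : ℕ) [NeZero N] (ℓ : ℕ) [Fact ℓ.Prime]
variable (A : ValuationSubring Qb) (K : IntermediateField ℚ Qb)

theorem gRel_val (hG : GRelFacts A) (φ : ZMod ℓ →+* IsLocalRing.ResidueField A)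
    {S : Subring (LaurentSeries ℚ)} {ρ : ↥S →+* LaurentSeries (ZMod ℓ)}
    (hcompat : ∀ (s : LaurentSeries ℚ) (hs : s ∈ S), s ∈ modularFunctionFieldFull N →
      GRel A (coeffEmb Qb s) (coeffMap φ (ρ ⟨s, hs⟩)))
    (l : List (OK A K × ↥(SN N S))) :
    GRel A (QExpDiv.val (ι A K) (κ N S) l) (QExpDiv.val (ιbar A K) (κbar A N ℓ φ ρ) l) := by
  induction l with
  | nil =>
    rw [QExpDiv.val_nil, QExpDiv.val_nil]
    exact gRel_zero hG
  | cons p l ih =>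
    rw [QExpDiv.val_cons, QExpDiv.val_cons]
    exact hG.add _ _ _ _ (hG.mul _ _ _ _ (gRel_ι hG p.1) (hcompat _ p.2.2.1 p.2.2.2)) ih

theorem T0_le_gRing (hG : GRelFacts A) (φ : ZMod ℓ →+* IsLocalRing.ResidueField A)
    {S : Subring (LaurentSeries ℚ)} {ρ : ↥S →+* LaurentSeries (ZMod ℓ)}
    (hcompat : ∀ (s : LaurentSeries ℚ) (hs : s ∈ S), s ∈ modularFunctionFieldFull N →
      GRel A (coeffEmb Qb s) (coeffMap φ (ρ ⟨s, hs⟩))) :
    T0 A K N S ≤ gRing A hG := by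
  intro t ht
  obtain ⟨l, rfl⟩ := (QExpDiv.mem_T0_iff (ι A K) (κ N S) t).mp ht
  exact ⟨_, gRel_val N ℓ A K hG φ hcompat l⟩

theorem div_T0 (hG : GRelFacts A) (φ : ZMod ℓ →+* IsLocalRing.ResidueField A)
    {S : Subring (LaurentSeries ℚ)} {ρ : ↥S →+* LaurentSeries (ZMod ℓ)}
    (hg : Fermat.Agent.S28.GoodPair ℓ S ρ)
    (hcompat : ∀ (s : LaurentSeries ℚ) (hs : s ∈ S), s ∈ modularFunctionFieldFull N →
      GRel A (coeffEmb Qb s) (coeffMap φ (ρ ⟨s, hs⟩)))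
    (ϖ : OK A K) (hres : ∀ o : OK A K, resO A K o = 0 → ∃ o', o = ϖ * o')
    (hℓ : ∃ w : OK A K, (ℓ : OK A K) = ϖ * w) :
    ∀ t ∈ T0 A K N S, red A t = 0 → ∃ t' ∈ T0 A K N S, t = ι A K ϖ * t' := by
  intro t ht hrt
  obtain ⟨l, rfl⟩ := (QExpDiv.mem_T0_iff (ι A K) (κ N S) t).mp ht
  have hr : QExpDiv.val (ιbar A K) (κbar A N ℓ φ ρ) l = 0 := by
    rw [← red_eq hG (gRel_val N ℓ A K hG φ hcompat l)]
    exact hrt
  have hρ : ∀ s : ↥(SN N S), ρN N ℓ ρ s = 0 → ∃ s', s = (ℓ : ↥(SN N S)) * s' := by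
    intro s hs
    obtain ⟨s'', hs''⟩ := (hg.map_eq_zero_iff _).mp hs
    have h1 : (s : LaurentSeries ℚ) = (ℓ : LaurentSeries ℚ) * (s'' : LaurentSeries ℚ) := by
      have := congrArg (fun z : ↥S => (z : LaurentSeries ℚ)) hs''
      simp only [Subring.coe_mul, Subring.coe_natCast] at this
      exact this
    have hℓ0 : (ℓ : LaurentSeries ℚ) ≠ 0 := hg.ell_ne_zero
    have h2 : (s'' : LaurentSeries ℚ) ∈ modularFunctionFieldFull N := by
      have h3 : (s'' : LaurentSeries ℚ) = (ℓ : LaurentSeries ℚ)⁻¹ * (s : LaurentSeries ℚ) := by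
        rw [h1, ← mul_assoc, inv_mul_cancel₀ hℓ0, one_mul]
      rw [h3]
      exact mul_mem (inv_mem (natCast_mem _ ℓ)) s.2.2
    refine ⟨⟨s'', s''.2, h2⟩, ?_⟩
    apply Subtype.ext
    simpa using h1
  obtain ⟨l', hl'⟩ := QExpDiv.exists_eq_mul_of_red_eq_zero ℓ φ (ι A K) (κ N S) (resO A K)
    (ρN N ℓ ρ) ϖ hres hρ hℓ l hr
  exact ⟨_, QExpDiv.val_mem_T0 (ι A K) (κ N S) l', hl'⟩

theorem red_mem_fullC (hG : GRelFacts A) (φ : ZMod ℓ →+* IsLocalRing.ResidueField A)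
    {S : Subring (LaurentSeries ℚ)} {ρ : ↥S →+* LaurentSeries (ZMod ℓ)}
    (hr : Set.range ρ ⊆ (modularFunctionFieldFullC (ZMod ℓ) N : Set (LaurentSeries (ZMod ℓ))))
    (hcompat : ∀ (s : LaurentSeries ℚ) (hs : s ∈ S), s ∈ modularFunctionFieldFull N →
      GRel A (coeffEmb Qb s) (coeffMap φ (ρ ⟨s, hs⟩))) :
    ∀ t ∈ T0 A K N S, red A t ∈ modularFunctionFieldFullC (IsLocalRing.ResidueField A) N := by
  intro t ht
  obtain ⟨l, rfl⟩ := (QExpDiv.mem_T0_iff (ι A K) (κ N S) t).mp ht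
  rw [red_eq hG (gRel_val N ℓ A K hG φ hcompat l)]
  induction l with
  | nil =>
    rw [QExpDiv.val_nil]
    exact zero_mem _
  | cons p l ih =>
    rw [QExpDiv.val_cons]
    refine add_mem (mul_mem ?_ ?_) (ih ((QExpDiv.mem_T0_iff _ _ _).mpr ⟨l, rfl⟩))
    · rw [ιbar_apply, HahnSeries.C_apply, ← algebraMap_laurentSeries_eq_single]
      exact (modularFunctionFieldFullC (IsLocalRing.ResidueField A) N).algebraMap_mem _
    · rw [κbar_apply]
      exact QExpFrac.coeffMap_mem_fullC φ N (hr ⟨_, rfl⟩)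

end Fermat.Agent.S18.QExpDivT
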