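/-
S18, block [QExp], sub-lemmas (F2), (F3) (helper60) for the instantiation `QExp.lean`.

* `exists_frac_of_mem_FK`: every element of `F_K` is a fraction of elements of any subring `T`
  of `ℚ̄((q))` containing the constants of `O = A ∩ K` and the image of `S ∩ F_ℚ(N)`.
* `exists_isIntegralElem_mul`: clearing denominators of an integral equation over the Gauss
  valuation ring `ℤ[j]_(ℓ)`.
-/
import Fermat.Agent.S18.ArithPlan
import Fermat.Agent.S28.KerEll

set_option autoImplicit false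
set_option linter.style.haveILetI false

noncomputable section

namespace Fermat.Agent.S18.QExpFracB

open ModularCurve HahnSeries Fermat.Agent.S18.Arith

/-- **(F2)** Every element of `F_K = K · F_ℚ(N)` is a fraction `a / b` of elements of a subring
`T ⊆ ℚ̄((q))` which contains the constants of `O = A ∩ K` and the coefficient embedding of
`S ∩ F_ℚ(N)`, where `S` is a subring of `ℚ((q))` containing all `j(q^d)`, `d ∣ N`. -/
theorem exists_frac_of_mem_FK (N : ℕ) [NeZero N] (A : ValuationSubring Qb)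
    (K : IntermediateField ℚ Qb) {S : Subring (LaurentSeries ℚ)}
    (hj : ∀ d : ℕ, d ∣ N → Fermat.Agent.S28.jd ℚ d ∈ S) (T : Subring (LaurentSeries Qb))
    (hO : ∀ o : OK A K, (HahnSeries.C (incO A K o) : LaurentSeries Qb) ∈ T)
    (hS : ∀ s ∈ S, s ∈ modularFunctionFieldFull N → coeffEmb Qb s ∈ T)
    (x : LaurentSeries Qb) (hx : x ∈ FK N K) :
    ∃ a ∈ T, ∃ b ∈ T, b ≠ 0 ∧ x * b = a := by
  have hQ : (modularFunctionFieldFull N).toSubfield ≤
      (Subfield.closure (T : Set (LaurentSeries Qb))).comap (coeffEmb Qb) := by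
    show Subfield.closure _ ≤ _
    rw [Subfield.closure_le]
    rintro y (⟨c, rfl⟩ | ⟨d, hd, hdN, rfl⟩)
    · show coeffEmb Qb (algebraMap ℚ (LaurentSeries ℚ) c) ∈ Subfield.closure _
      rw [eq_ratCast, map_ratCast]
      exact SubfieldClass.ratCast_mem _ c
    · haveI := hd
      show coeffEmb Qb (qExpand ℚ d jq) ∈ Subfield.closure _
      apply Subfield.subset_closure
      have h1 : Fermat.Agent.S28.jd ℚ d ∈ S := hj d hdN
      rw [Fermat.Agent.S28.jd_rat] at h1
      exact hS _ h1 (jqd_mem_full N hdN)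
  have hle : FK N K ≤ Subfield.closure (T : Set (LaurentSeries Qb)) := by
    show Subfield.closure _ ≤ _
    rw [Subfield.closure_le]
    rintro y (⟨c, rfl⟩ | ⟨f, rfl⟩)
    · rcases (OK A K).mem_or_inv_mem c with hc | hc
      · exact Subfield.subset_closure (hO ⟨c, hc⟩)
      · have h1 : (HahnSeries.C ((c⁻¹ : K) : Qb) : LaurentSeries Qb) ∈
            Subfield.closure (T : Set (LaurentSeries Qb)) :=
          Subfield.subset_closure (hO ⟨c⁻¹, hc⟩)
        have h2 := inv_mem h1
        have h3 : ((c⁻¹ : K) : Qb) = ((c : K) : Qb)⁻¹ := rfl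
        rw [h3, map_inv₀, inv_inv] at h2
        exact h2
    · exact hQ f.2
  obtain ⟨a, ha, b, hb, rfl⟩ := Subfield.mem_closure_iff.mp (hle hx)
  rw [Subring.closure_eq] at ha hb
  by_cases hb0 : b = 0
  · exact ⟨0, zero_mem _, 1, one_mem _, one_ne_zero, by rw [hb0, div_zero, zero_mul]⟩
  · exact ⟨a, ha, b, hb, hb0, div_mul_cancel₀ a hb0⟩

/-- **(F3)** Clearing denominators over the Gauss valuation ring `R0 ℓ = ℤ[j]_(ℓ)`: if `s` is
integral over `R0 ℓ`, then `b(j) · s` is integral over `ℤ[j]` for some `b ∈ ℤ[X]` which is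
nonzero mod `ℓ`. -/
theorem exists_isIntegralElem_mul (ℓ : ℕ) [Fact ℓ.Prime] {S : Subring (LaurentSeries ℚ)}
    (hint : ∀ s ∈ S, IsIntegral ↥(Fermat.Agent.S28.R0 ℓ) s) (s : LaurentSeries ℚ) (hs : s ∈ S) :
    ∃ b : Polynomial ℤ, b.map (Int.castRingHom (ZMod ℓ)) ≠ 0 ∧
      (Fermat.Agent.S28.kerEllEv jq).IsIntegralElem (Fermat.Agent.S28.kerEllEv jq b * s) := by
  have hB := Fermat.Agent.S28.kerEllBase_jq ℓ
  let f : Polynomial ℤ →+* LaurentSeries ℚ := Fermat.Agent.S28.kerEllEv jq
  let V : Subring (LaurentSeries ℚ) := Fermat.Agent.S28.R0 ℓ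
  let g : Polynomial ℤ →+* V := f.codRestrict V hB.aeval_mem
  letI algV : Algebra (Polynomial ℤ) V := g.toAlgebra
  letI algΩ : Algebra (Polynomial ℤ) (LaurentSeries ℚ) := f.toAlgebra
  haveI : IsScalarTower (Polynomial ℤ) V (LaurentSeries ℚ) :=
    IsScalarTower.of_algebraMap_eq (fun _ => rfl)
  let M : Submonoid (Polynomial ℤ) :=
    (nonZeroDivisors (Polynomial (ZMod ℓ))).comap
      (Polynomial.mapRingHom (Int.castRingHom (ZMod ℓ)))
  have hM : ∀ b : Polynomial ℤ, b ∈ M ↔ b.map (Int.castRingHom (ZMod ℓ)) ≠ 0 := by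
    intro b
    show Polynomial.mapRingHom (Int.castRingHom (ZMod ℓ)) b ∈ nonZeroDivisors _ ↔ _
    rw [mem_nonZeroDivisors_iff_ne_zero, Polynomial.coe_mapRingHom]
  haveI : IsLocalization M V := by
    refine ⟨?_, ?_, ?_⟩
    · rintro ⟨b, hb⟩
      have hb' := (hM b).mp hb
      have hb0 : f b ≠ 0 := by
        intro h0
        have : b = 0 := hB.inj (by rw [map_zero]; exact h0)
        exact hb' (by rw [this, Polynomial.map_zero])
      refine IsUnit.of_mul_eq_one (⟨(f b)⁻¹, hB.inv_mem b hb'⟩ : V) ?_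
      apply Subtype.ext
      show f b * (f b)⁻¹ = 1
      exact mul_inv_cancel₀ hb0
    · intro z
      obtain ⟨a, b, hb, hab⟩ := hB.frac z.1 z.2
      refine ⟨(a, ⟨b, (hM b).mpr hb⟩), ?_⟩
      apply Subtype.ext
      exact hab
    · intro x y hxy
      refine ⟨1, ?_⟩
      have h1 : f x = f y := congrArg Subtype.val hxy
      rw [hB.inj h1]
  obtain ⟨m, hm⟩ := IsIntegral.exists_multiple_integral_of_isLocalization M s (hint s hs)
  refine ⟨m, (hM m).mp m.2, ?_⟩
  rw [Submonoid.smul_def, Algebra.smul_def] at hm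
  exact hm

end Fermat.Agent.S18.QExpFracB
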