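/-
S18, block [ARITH]/[QExp], piece (I) (helper34) for the instantiation `QExp.lean` (helper69).

* `int_T0`: every element `t` of the ring `T0` generated by the constants of `O = A ∩ K` and by
  `S ∩ F_ℚ(N)` (where `S ⊂ ℚ((q))` is integral over the Gauss valuation ring `ℤ[j]_(ℓ)`) has a
  denominator `c ∈ B0 = O[j]` with nonzero Gauss reduction such that `c * t` is integral over
  `B0`.
-/
import Fermat.Agent.S18.QExpDefs
import Fermat.Agent.S18.QExpAux
import Fermat.Agent.S18.QExpFracB

set_option autoImplicit false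
set_option linter.unusedSectionVars false

noncomputable section

namespace Fermat.Agent.S18.QExpInt

open ModularCurve ModularCurve.IgusaScheme HahnSeries Fermat.Agent.S18.Arith
  Fermat.Agent.S18.ModelPlan Fermat.Agent.S18.QExpDefs

variable (N : ℕ) [NeZero N] (ℓ : ℕ) [Fact ℓ.Prime] (A : ValuationSubring Qb)
  (K : IntermediateField ℚ Qb)

/-- The integral evaluation `ℤ[X] → ℚ((q))` at `j`, followed by the coefficient embedding, is the
evaluation `O[X] → ℚ̄((q))` at `j` after the base change `ℤ[X] → O[X]`. -/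
theorem coeffEmb_comp_kerEllEv :
    (coeffEmb Qb).comp (Fermat.Agent.S28.kerEllEv jq) =
      (ev A K).comp (Polynomial.mapRingHom (Int.castRingHom (OK A K))) := by
  apply Polynomial.ringHom_ext
  · intro a
    exact RingHom.congr_fun (RingHom.ext_int
      (((coeffEmb Qb).comp (Fermat.Agent.S28.kerEllEv jq)).comp Polynomial.C)
      (((ev A K).comp (Polynomial.mapRingHom (Int.castRingHom (OK A K)))).comp Polynomial.C)) a
  · show coeffEmb Qb (Fermat.Agent.S28.kerEllEv jq Polynomial.X) =
      ev A K (Polynomial.map (Int.castRingHom (OK A K)) Polynomial.X)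
    rw [Fermat.Agent.S28.kerEllEv_X, Polynomial.map_X, ev_apply, Polynomial.eval₂_X]
    rfl

/-- Elements of `B0` are integral over `B0`. -/
theorem isIntegral_of_mem_B0 {x : LaurentSeries Qb} (hx : x ∈ B0 A K) :
    IsIntegral ↥(B0 A K) x :=
  isIntegral_algebraMap (R := ↥(B0 A K)) (A := LaurentSeries Qb) (x := ⟨x, hx⟩)

/-- Integral elements for `ev ∘ (ℤ[X] → O[X])` are integral over `B0 = range ev`. -/
theorem isIntegral_B0_of_isIntegralElem {z : LaurentSeries Qb}
    (h : ((ev A K).comp (Polynomial.mapRingHom (Int.castRingHom (OK A K)))).IsIntegralElem z) :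
    IsIntegral ↥(B0 A K) z := by
  obtain ⟨p, hp, hpz⟩ := h
  let g : Polynomial ℤ →+* ↥(B0 A K) :=
    (ev A K).rangeRestrict.comp (Polynomial.mapRingHom (Int.castRingHom (OK A K)))
  have hg : (algebraMap ↥(B0 A K) (LaurentSeries Qb)).comp g =
      (ev A K).comp (Polynomial.mapRingHom (Int.castRingHom (OK A K))) :=
    RingHom.ext fun _ => rfl
  refine ⟨p.map g, hp.map _, ?_⟩
  rw [Polynomial.eval₂_map, hg]
  exact hpz

/-- **(I)** Every `t ∈ T0` has a denominator `c ∈ B0 = O[j]` with nonzero Gauss reduction such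
that `c * t` is integral over `B0`. -/
theorem int_T0 (hG : GRelFacts A) (φ : ZMod ℓ →+* IsLocalRing.ResidueField A)
    {S : Subring (LaurentSeries ℚ)}
    (hint : ∀ s ∈ S, IsIntegral ↥(Fermat.Agent.S28.R0 ℓ) s) :
    ∀ t ∈ T0 A K N S, ∃ c ∈ B0 A K, red A c ≠ 0 ∧ IsIntegral ↥(B0 A K) (c * t) := by
  have hone : red A (1 : LaurentSeries Qb) ≠ 0 := by
    rw [red_one hG]
    exact one_ne_zero
  refine QExpAux.exists_mul_isIntegral_of_mem_closure (gRing A hG) (B0 A K) (red A)
    (B0_le_gRing hG) (red_one hG) (fun x hx y hy => red_mul hG hx hy)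
    (Set.range (ι A K) ∪ Set.range (κ N S)) ?_
  rintro t (⟨o, rfl⟩ | ⟨s, rfl⟩)
  · -- a constant of `O`
    refine ⟨1, (B0 A K).one_mem, hone, ?_⟩
    rw [one_mul]
    apply isIntegral_of_mem_B0
    refine ⟨Polynomial.C o, ?_⟩
    rw [ev_apply, Polynomial.eval₂_C]
  · -- an element of `S ∩ F_ℚ(N)`
    obtain ⟨b, hb, hbs⟩ := QExpFracB.exists_isIntegralElem_mul ℓ hint (s : LaurentSeries ℚ) s.2.1
    refine ⟨ev A K (b.map (Int.castRingHom (OK A K))), ev_mem_B0 A K _, ?_, ?_⟩
    · rw [red_ev hG, Ne, evbar_eq_zero_iff, Polynomial.map_map]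
      intro h0
      have e : (resO A K).comp (Int.castRingHom (OK A K)) =
          φ.comp (Int.castRingHom (ZMod ℓ)) := RingHom.ext_int _ _
      rw [e, ← Polynomial.map_map] at h0
      apply hb
      apply Polynomial.map_injective φ φ.injective
      rw [h0, Polynomial.map_zero]
    · apply isIntegral_B0_of_isIntegralElem
      obtain ⟨p, hp, hpz⟩ := hbs
      refine ⟨p, hp, ?_⟩
      have h1 := congrArg (coeffEmb Qb) hpz
      rw [Polynomial.hom_eval₂, map_zero, map_mul, coeffEmb_comp_kerEllEv A K] at h1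
      have h2 : coeffEmb Qb (Fermat.Agent.S28.kerEllEv jq b) =
          ev A K (b.map (Int.castRingHom (OK A K))) :=
        RingHom.congr_fun (coeffEmb_comp_kerEllEv A K) b
      rw [h2] at h1
      exact h1

end Fermat.Agent.S18.QExpInt
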