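/-
S18, block [ARITH]/[QExp], piece (Tr) (helper7): transfer of integrality over `B0 = O[j] ⊂ ℚ̄((q))`
to membership in the chart `R0 ⊂ F_K`.
-/
import Fermat.Agent.S18.QExpDefs
import Fermat.Agent.S18.QExpAux

set_option autoImplicit false

noncomputable section

namespace Fermat.Agent.S18.QExpTransfer

open ModularCurve ModularCurve.IgusaScheme HahnSeries Fermat.Agent.S18.Arith
  Fermat.Agent.S18.ModelPlan Fermat.Agent.S18.QExpDefs

variable (N : ℕ) [NeZero N] (ℓ : ℕ) [Fact ℓ.Prime] (A : ValuationSubring Qb)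
  (K : IntermediateField ℚ Qb)

/-- Evaluation at `jK` inside `F_K`, followed by the inclusion `F_K ⊂ ℚ̄((q))`, is `ev`. -/
theorem subtype_comp_aeval :
    (FK N K).subtype.comp
        (Polynomial.aeval (jK N K) : Polynomial (OK A K) →ₐ[OK A K] FK N K).toRingHom
      = ev A K := by
  apply Polynomial.ringHom_ext
  · intro o
    have h1 : (FK N K).subtype.comp
        (Polynomial.aeval (jK N K) : Polynomial (OK A K) →ₐ[OK A K] FK N K).toRingHom
          (Polynomial.C o) = ι A K o := by
      change ((Polynomial.aeval (jK N K) (Polynomial.C o) : FK N K) : LaurentSeries Qb) = ι A K o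
      rw [Polynomial.aeval_C]
      rfl
    rw [h1, ev, Polynomial.coe_eval₂RingHom, Polynomial.eval₂_C]
  · have h1 : (FK N K).subtype.comp
        (Polynomial.aeval (jK N K) : Polynomial (OK A K) →ₐ[OK A K] FK N K).toRingHom
          Polynomial.X = jΩ := by
      change ((Polynomial.aeval (jK N K) (Polynomial.X : Polynomial (OK A K)) : FK N K) :
        LaurentSeries Qb) = jΩ
      rw [Polynomial.aeval_X]
      rfl
    rw [h1, ev, Polynomial.coe_eval₂RingHom, Polynomial.eval₂_X]

theorem coe_aeval_jK (c : Polynomial (OK A K)) :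
    ((Polynomial.aeval (jK N K) c : FK N K) : LaurentSeries Qb) = ev A K c :=
  congrArg (fun f : Polynomial (OK A K) →+* LaurentSeries Qb => f c) (subtype_comp_aeval N A K)

/-- **(Tr)** an element `c(j) · x` of `F_K` that is integral over `B0 = O[j] ⊂ ℚ̄((q))` lies in the
chart `R0`. -/
theorem mem_R0_of_isIntegral_B0 (c : Polynomial (OK A K)) (x : FK N K)
    (h : IsIntegral ↥(B0 A K) (ev A K c * (x : LaurentSeries Qb))) :
    Polynomial.aeval (jK N K) c * x ∈ R0 N ℓ A K := by
  have h1 : (ev A K).IsIntegralElem (ev A K c * (x : LaurentSeries Qb)) :=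
    Fermat.Agent.S18.QExpAux.isIntegralElem_of_isIntegral_range (ev A K) _ h
  change IsIntegral (Algebra.adjoin (OK A K) {jK N K}) (Polynomial.aeval (jK N K) c * x)
  apply Fermat.Agent.S18.QExpAux.isIntegral_adjoin_of_isIntegralElem (FK N K).subtype
    Subtype.val_injective (jK N K)
  rw [subtype_comp_aeval]
  have h2 : (FK N K).subtype (Polynomial.aeval (jK N K) c * x)
      = ev A K c * (x : LaurentSeries Qb) := by
    rw [map_mul]
    change ((Polynomial.aeval (jK N K) c : FK N K) : LaurentSeries Qb) * (x : LaurentSeries Qb) = _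
    rw [coe_aeval_jK]
  rw [h2]
  exact h1

end Fermat.Agent.S18.QExpTransfer
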