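/-
S18 / [ARITH] / [Model] — RedQCompat.lean (owner: helper34).

Compatibility of the S28 tower with Gauss reduction.

Let `(S, ρ)` be a good pair of the S28 tower (`S ⊆ ℚ((q))`, `ρ : S → 𝔽_ℓ((q))`, `ker ρ = ℓ S`,
`S` integral over the Gauss valuation ring `R0 ℓ` of `ℚ(j)`, `ρ (j(q^d)) = j̄(q^d)` for `d ∣ N`,
`range ρ ⊆ 𝔽_ℓ(j̄(q^d) : d ∣ N)`).  Then every `s ∈ S ∩ ℚ(j(q^d) : d ∣ N)` is Gauss-integral
(`∈ G_A`) and its Gauss reduction is the base change of `ρ s`: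

  `GRel A (coeffEmb Qb s) (coeffMap φ (ρ s))`.

Only the calculus `GRelFacts A` of the relation `GRel` is used (no valuation dichotomy leaf:
the dichotomy for quotients of integer Laurent series is proved here).
-/
import Fermat.Agent.S18.ModelPlan
import Fermat.Agent.S28.KerEllIncl
import Fermat.Agent.S28.Tower
import Fermat.Agent.S28.CharL
import Fermat.Agent.S28.HeckeMain

set_option autoImplicit false

noncomputable section

namespace Fermat.Agent.S18.RedQCompat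

open ModularCurve ModularCurve.IgusaScheme HahnSeries Polynomial
open Fermat.Agent.S18.Arith Fermat.Agent.S28

/-! ### Coefficient maps -/

theorem coeffMap_injective {R S : Type*} [CommRing R] [CommRing S] (f : R →+* S)
    (hf : Function.Injective f) : Function.Injective (coeffMap f) := by
  intro x y h
  ext n
  apply hf
  have h1 := congrArg (fun z : LaurentSeries S => z.coeff n) h
  simpa using h1

/-- `ℤ((q)) → ℚ((q))`. -/
abbrev cQ : LaurentSeries ℤ →+* LaurentSeries ℚ := coeffMap (Int.castRingHom ℚ)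

theorem cQ_injective : Function.Injective cQ :=
  coeffMap_injective _ (RingHom.injective_int (Int.castRingHom ℚ))

/-- `ℤ((q)) → 𝔽_ℓ((q))`. -/
abbrev rL (ℓ : ℕ) : LaurentSeries ℤ →+* LaurentSeries (ZMod ℓ) :=
  coeffMap (Int.castRingHom (ZMod ℓ))

/-! ### Primitive parts in `ℤ((q))` -/

/-- Coefficientwise division by `ℓ`. -/
def divL (ℓ : ℕ) (a : LaurentSeries ℤ) : LaurentSeries ℤ :=
  a.map (⟨fun c : ℤ => c / (ℓ : ℤ), by simp⟩ : ZeroHom ℤ ℤ)

theorem divL_coeff (ℓ : ℕ) (a : LaurentSeries ℤ) (n : ℤ) :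
    (divL ℓ a).coeff n = a.coeff n / (ℓ : ℤ) := rfl

theorem natCast_mul_coeff {R : Type*} [CommRing R] (m : ℕ) (a : LaurentSeries R) (n : ℤ) :
    ((m : LaurentSeries R) * a).coeff n = (m : R) * a.coeff n := by
  have h : (m : LaurentSeries R) = HahnSeries.C (m : R) := by
    rw [map_natCast]
  rw [h, HahnSeries.C_mul_eq_smul, HahnSeries.coeff_smul, smul_eq_mul]

theorem eq_mul_divL (ℓ : ℕ) (a : LaurentSeries ℤ) (h : ∀ n, (ℓ : ℤ) ∣ a.coeff n) :
    a = (ℓ : LaurentSeries ℤ) * divL ℓ a := by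
  ext n
  rw [natCast_mul_coeff, divL_coeff]
  exact (Int.mul_ediv_cancel' (h n)).symm

/-- A nonzero integer Laurent series is `ℓ ^ α` times a series which is nonzero mod `ℓ`. -/
theorem exists_primitive (ℓ : ℕ) [Fact ℓ.Prime] (a : LaurentSeries ℤ) (ha : a ≠ 0) :
    ∃ (α : ℕ) (a' : LaurentSeries ℤ), a = (ℓ : LaurentSeries ℤ) ^ α * a' ∧ rL ℓ a' ≠ 0 := by
  have hℓ2 : 2 ≤ ℓ := (Fact.out : ℓ.Prime).two_le
  obtain ⟨n0, hn0⟩ : ∃ n0, a.coeff n0 ≠ 0 := by
    by_contra hcon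
    push Not at hcon
    exact ha (HahnSeries.ext (funext hcon))
  have key : ∀ m : ℕ, ∀ a : LaurentSeries ℤ, (a.coeff n0).natAbs = m → a.coeff n0 ≠ 0 →
      ∃ (α : ℕ) (a' : LaurentSeries ℤ), a = (ℓ : LaurentSeries ℤ) ^ α * a' ∧ rL ℓ a' ≠ 0 := by
    intro m
    induction m using Nat.strong_induction_on with
    | _ m ih =>
      intro a hm ha0
      by_cases hr : rL ℓ a = 0
      · have hdvd : ∀ n, (ℓ : ℤ) ∣ a.coeff n := by
          intro n
          have h1 := congrArg (fun z : LaurentSeries (ZMod ℓ) => z.coeff n) hr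
          simp only [coeffMap_coeff, HahnSeries.coeff_zero, eq_intCast] at h1
          exact (ZMod.intCast_zmod_eq_zero_iff_dvd _ _).mp h1
        have hmul := eq_mul_divL ℓ a hdvd
        have hc : a.coeff n0 = (ℓ : ℤ) * (divL ℓ a).coeff n0 := by
          rw [divL_coeff]
          exact (Int.mul_ediv_cancel' (hdvd n0)).symm
        have hd0 : (divL ℓ a).coeff n0 ≠ 0 := by
          intro h0
          rw [h0, mul_zero] at hc
          exact ha0 hc
        have hlt : ((divL ℓ a).coeff n0).natAbs < m := by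
          rw [← hm, hc, Int.natAbs_mul, Int.natAbs_natCast]
          have hpos : 0 < ((divL ℓ a).coeff n0).natAbs := Int.natAbs_pos.mpr hd0
          nlinarith
        obtain ⟨α, a', ha', hra'⟩ := ih _ hlt (divL ℓ a) rfl hd0
        refine ⟨α + 1, a', ?_, hra'⟩
        rw [hmul, ha', pow_succ]
        ring
      · exact ⟨0, a, by simp, hr⟩
  exact key _ a rfl hn0

/-! ### Base change of coefficients to the residue field -/

section Prelim

variable (A : ValuationSubring Qb) (ℓ : ℕ) [Fact ℓ.Prime]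
variable (φ : ZMod ℓ →+* IsLocalRing.ResidueField A)

theorem coeffMap_int_eq (X : LaurentSeries ℤ) :
    coeffMap (Int.castRingHom (IsLocalRing.ResidueField A)) X = coeffMap φ (rL ℓ X) := by
  rw [rL, coeffMap_coeffMap]
  exact coeffMap_congr (RingHom.ext_int _ _) X

theorem coeffMap_phi_injective : Function.Injective (coeffMap φ) :=
  coeffMap_injective φ φ.injective

include φ in
theorem natCast_ell_eq_zero : ((ℓ : ℕ) : LaurentSeries (IsLocalRing.ResidueField A)) = 0 := by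
  have h : ((ℓ : ℕ) : LaurentSeries (IsLocalRing.ResidueField A)) =
      coeffMap φ ((ℓ : ℕ) : LaurentSeries (ZMod ℓ)) := by
    rw [map_natCast]
  rw [h, BasePair.natCast_L_eq_zero, map_zero]

/-- `aeval jq p` for an integer polynomial is the image of an integer series. -/
theorem aeval_jq_eq (p : ℤ[X]) :
    aeval jq p = cQ (p.eval₂ (Int.castRingHom (LaurentSeries ℤ)) (jqModC ℤ)) := by
  rw [BasePair.aeval_eq_eval₂_intCast, Polynomial.hom_eval₂]
  have e1 : cQ.comp (Int.castRingHom (LaurentSeries ℤ)) = Int.castRingHom (LaurentSeries ℚ) :=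
    RingHom.ext_int _ _
  have e2 : cQ (jqModC ℤ) = jq := by
    rw [cQ, coeffMap_jqModC]
    rfl
  rw [e1, e2]

theorem rL_eval₂_jq (p : ℤ[X]) :
    rL ℓ (p.eval₂ (Int.castRingHom (LaurentSeries ℤ)) (jqModC ℤ)) =
      p.eval₂ (Int.castRingHom (LaurentSeries (ZMod ℓ))) (jqModC (ZMod ℓ)) := by
  rw [Polynomial.hom_eval₂]
  have e1 : (rL ℓ).comp (Int.castRingHom (LaurentSeries ℤ)) =
      Int.castRingHom (LaurentSeries (ZMod ℓ)) := RingHom.ext_int _ _
  have e2 : rL ℓ (jqModC ℤ) = jqModC (ZMod ℓ) := by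
    rw [rL, coeffMap_jqModC]
  rw [e1, e2]

end Prelim

/-! ### The Gauss ring inside `ℚ((q))` -/

section GaussRing

variable (A : ValuationSubring Qb) (hG : ModelPlan.GRelFacts A)
include hG

/-- The Gauss local ring `G_A`, pulled back to `ℚ((q))`. -/
def gRing : Subring (LaurentSeries ℚ) where
  carrier := {x | ∃ y, GRel A (coeffEmb Qb x) y}
  mul_mem' := by
    rintro x x' ⟨y, hy⟩ ⟨y', hy'⟩
    exact ⟨y * y', by rw [map_mul]; exact hG.mul _ _ _ _ hy hy'⟩
  one_mem' := ⟨1, by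
    have h := hG.of_int 1
    rw [map_one, map_one] at h
    rw [map_one]
    exact h⟩
  add_mem' := by
    rintro x x' ⟨y, hy⟩ ⟨y', hy'⟩
    exact ⟨y + y', by rw [map_add]; exact hG.add _ _ _ _ hy hy'⟩
  zero_mem' := ⟨0, by
    have h := hG.of_int 0
    rw [map_zero, map_zero] at h
    rw [map_zero]
    exact h⟩
  neg_mem' := by
    rintro x ⟨y, hy⟩
    exact ⟨-y, by rw [map_neg]; exact hG.neg _ _ hy⟩

theorem mem_gRing {x : LaurentSeries ℚ} :
    x ∈ gRing A hG ↔ ∃ y, GRel A (coeffEmb Qb x) y := Iff.rfl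

theorem gRel_choose (x : ↥(gRing A hG)) :
    GRel A (coeffEmb Qb (x : LaurentSeries ℚ)) (Classical.choose x.2) :=
  Classical.choose_spec x.2

/-- Gauss reduction `G_A ∩ ℚ((q)) → k((q))`. -/
def gRed : ↥(gRing A hG) →+* LaurentSeries (IsLocalRing.ResidueField A) where
  toFun x := Classical.choose x.2
  map_one' := by
    refine hG.unique _ _ _ (gRel_choose A hG 1) ?_
    have h := hG.of_int 1
    rw [map_one, map_one] at h
    rw [Subring.coe_one, map_one]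
    exact h
  map_mul' x y := by
    refine hG.unique _ _ _ (gRel_choose A hG (x * y)) ?_
    rw [Subring.coe_mul, map_mul]
    exact hG.mul _ _ _ _ (gRel_choose A hG x) (gRel_choose A hG y)
  map_zero' := by
    refine hG.unique _ _ _ (gRel_choose A hG 0) ?_
    have h := hG.of_int 0
    rw [map_zero, map_zero] at h
    rw [Subring.coe_zero, map_zero]
    exact h
  map_add' x y := by
    refine hG.unique _ _ _ (gRel_choose A hG (x + y)) ?_
    rw [Subring.coe_add, map_add]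
    exact hG.add _ _ _ _ (gRel_choose A hG x) (gRel_choose A hG y)

theorem gRel_gRed (x : ↥(gRing A hG)) :
    GRel A (coeffEmb Qb (x : LaurentSeries ℚ)) (gRed A hG x) :=
  Classical.choose_spec x.2

theorem gRed_eq_of_gRel {x : LaurentSeries ℚ} (hx : x ∈ gRing A hG)
    {y : LaurentSeries (IsLocalRing.ResidueField A)} (h : GRel A (coeffEmb Qb x) y) :
    gRed A hG ⟨x, hx⟩ = y :=
  hG.unique _ _ _ (gRel_gRed A hG ⟨x, hx⟩) h

/-- Integer series are Gauss-integral, with the obvious reduction. -/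
theorem gRel_int (X : LaurentSeries ℤ) :
    GRel A (coeffEmb Qb (cQ X))
      (coeffMap (Int.castRingHom (IsLocalRing.ResidueField A)) X) := by
  have h := hG.of_int (coeffMap (Int.castRingHom A) X)
  rw [coeffMap_coeffMap, coeffMap_coeffMap] at h
  have e1 : (A.subtype).comp (Int.castRingHom A) =
      (algebraMap ℚ Qb).comp (Int.castRingHom ℚ) := RingHom.ext_int _ _
  have e2 : (IsLocalRing.residue A).comp (Int.castRingHom A) =
      Int.castRingHom (IsLocalRing.ResidueField A) := RingHom.ext_int _ _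
  rw [e1, e2] at h
  rw [coeffEmb, cQ, coeffMap_coeffMap]
  exact h

theorem cQ_mem_gRing (X : LaurentSeries ℤ) : cQ X ∈ gRing A hG := ⟨_, gRel_int A hG X⟩

theorem gRed_cQ (X : LaurentSeries ℤ) :
    gRed A hG ⟨cQ X, cQ_mem_gRing A hG X⟩ =
      coeffMap (Int.castRingHom (IsLocalRing.ResidueField A)) X :=
  gRed_eq_of_gRel A hG _ (gRel_int A hG X)

/-- Elements with nonzero reduction are units of the Gauss ring. -/
theorem inv_mem_gRing {x : LaurentSeries ℚ} (hx : x ∈ gRing A hG)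
    (h : gRed A hG ⟨x, hx⟩ ≠ 0) : x⁻¹ ∈ gRing A hG := by
  refine ⟨(gRed A hG ⟨x, hx⟩)⁻¹, ?_⟩
  rw [map_inv₀]
  exact hG.inv _ _ (gRel_gRed A hG ⟨x, hx⟩) h

variable (ℓ : ℕ) [Fact ℓ.Prime] (φ : ZMod ℓ →+* IsLocalRing.ResidueField A)
include φ

/-- Primitive integer series are units of the Gauss ring. -/
theorem inv_cQ_mem_gRing (X : LaurentSeries ℤ) (hX : rL ℓ X ≠ 0) : (cQ X)⁻¹ ∈ gRing A hG := by
  refine inv_mem_gRing A hG (cQ_mem_gRing A hG X) ?_
  rw [gRed_cQ, coeffMap_int_eq A ℓ φ]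
  exact fun h => hX (coeffMap_phi_injective A ℓ φ (by rw [h, map_zero]))

/-- **Dichotomy** for quotients of integer Laurent series. -/
theorem div_mem_or_inv_mem (a b : LaurentSeries ℤ) (hb : b ≠ 0) :
    cQ a / cQ b ∈ gRing A hG ∨ (cQ a / cQ b)⁻¹ ∈ gRing A hG := by
  by_cases ha : a = 0
  · left
    rw [ha, map_zero, zero_div]
    exact (gRing A hG).zero_mem
  obtain ⟨α, a', rfl, ha'⟩ := exists_primitive ℓ a ha
  obtain ⟨β, b', rfl, hb'⟩ := exists_primitive ℓ b hb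
  have hℓ0 : ((ℓ : ℕ) : LaurentSeries ℚ) ≠ 0 := (goodPair_R0 ℓ).ell_ne_zero
  have hℓG : ((ℓ : ℕ) : LaurentSeries ℚ) ∈ gRing A hG := natCast_mem _ ℓ
  have ha0 : cQ a' ≠ 0 := by
    intro h
    apply ha'
    have : a' = 0 := cQ_injective (by rw [h, map_zero])
    rw [this, map_zero]
  have hb0 : cQ b' ≠ 0 := by
    intro h
    apply hb'
    have : b' = 0 := cQ_injective (by rw [h, map_zero])
    rw [this, map_zero]
  have hca : cQ ((ℓ : LaurentSeries ℤ) ^ α * a') = (ℓ : LaurentSeries ℚ) ^ α * cQ a' := by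
    rw [map_mul, map_pow, map_natCast]
  have hcb : cQ ((ℓ : LaurentSeries ℤ) ^ β * b') = (ℓ : LaurentSeries ℚ) ^ β * cQ b' := by
    rw [map_mul, map_pow, map_natCast]
  rw [hca, hcb]
  rcases le_total β α with h | h
  · left
    obtain ⟨γ, rfl⟩ := Nat.exists_eq_add_of_le h
    have e : (ℓ : LaurentSeries ℚ) ^ (β + γ) * cQ a' / ((ℓ : LaurentSeries ℚ) ^ β * cQ b') =
        (ℓ : LaurentSeries ℚ) ^ γ * cQ a' * (cQ b')⁻¹ := by
      rw [_root_.pow_add]
      field_simp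
    rw [e]
    exact Subring.mul_mem _ (Subring.mul_mem _ (Subring.pow_mem _ hℓG γ) (cQ_mem_gRing A hG a'))
      (inv_cQ_mem_gRing A hG ℓ φ b' hb')
  · right
    obtain ⟨γ, rfl⟩ := Nat.exists_eq_add_of_le h
    have e : ((ℓ : LaurentSeries ℚ) ^ α * cQ a' / ((ℓ : LaurentSeries ℚ) ^ (α + γ) * cQ b'))⁻¹ =
        (ℓ : LaurentSeries ℚ) ^ γ * cQ b' * (cQ a')⁻¹ := by
      rw [_root_.pow_add]
      field_simp
    rw [e]
    exact Subring.mul_mem _ (Subring.mul_mem _ (Subring.pow_mem _ hℓG γ) (cQ_mem_gRing A hG b'))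
      (inv_cQ_mem_gRing A hG ℓ φ a' ha')

/-- The Gauss valuation ring of `ℚ(j)` lies in the Gauss ring. -/
theorem R0_le_gRing : S28.R0 ℓ ≤ gRing A hG := by
  intro x hx
  obtain ⟨a, b, hb, hab⟩ := S28.R0_fraction ℓ hx
  have hb0 : aeval jq b ≠ 0 := by
    rw [← BasePair.evΩ_apply]
    refine BasePair.evΩ_ne_zero ?_
    rintro rfl
    exact hb (Polynomial.map_zero _)
  have hx' : x = aeval jq a * (aeval jq b)⁻¹ := by
    rw [← hab, mul_assoc, mul_inv_cancel₀ hb0, mul_one]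
  rw [hx', aeval_jq_eq a, aeval_jq_eq b]
  refine Subring.mul_mem _ (cQ_mem_gRing A hG _) (inv_cQ_mem_gRing A hG ℓ φ _ ?_)
  rw [rL_eval₂_jq]
  exact BasePair.eval₂_intCast_jqModC_ne_zero (ZMod ℓ) hb

end GaussRing

/-! ### Quotient representations -/

section Frac

variable (N : ℕ) [NeZero N]

/-- Elements of `ℚ(j(q^d) : d ∣ N)` are quotients of integer Laurent series. -/
theorem exists_int_frac (x : LaurentSeries ℚ) (hx : x ∈ modularFunctionFieldFull N) :
    ∃ a b : LaurentSeries ℤ, b ≠ 0 ∧ x = cQ a / cQ b := by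
  have hj : ∀ d : ℕ, d ∣ N → jd ℚ d ∈ cQ.range := fun d _ => ⟨jd ℤ d, coeffMap_jd _ d⟩
  obtain ⟨a, b, hb, hab⟩ := full_le_frac N hj ⟨x, hx⟩
  obtain ⟨a0, ha0⟩ := a.2
  obtain ⟨b0, hb0⟩ := b.2
  refine ⟨a0, b0, ?_, ?_⟩
  · rintro rfl
    apply hb
    apply Subtype.ext
    rw [← hb0, map_zero]
    rfl
  · rw [ha0, hb0]
    exact hab

/-- The subring `ℤ[j(q^d) : d ∣ N]` of `ℤ((q))`. -/
def jRing : Subring (LaurentSeries ℤ) :=
  Subring.closure {X | ∃ d : ℕ, d ∣ N ∧ X = jd ℤ d}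

variable (ℓ : ℕ) [Fact ℓ.Prime]

omit [NeZero N] in
/-- Elements of `𝔽_ℓ(j̄(q^d) : d ∣ N)` are quotients of reductions of elements of
`ℤ[j(q^d) : d ∣ N]`. -/
theorem exists_frac_modL (z : LaurentSeries (ZMod ℓ))
    (hz : z ∈ modularFunctionFieldFullC (ZMod ℓ) N) :
    ∃ C D : LaurentSeries ℤ, C ∈ jRing N ∧ D ∈ jRing N ∧ rL ℓ D ≠ 0 ∧ z * rL ℓ D = rL ℓ C := by
  have hle : (modularFunctionFieldFullC (ZMod ℓ) N).toSubfield ≤
      Subfield.closure (((jRing N).map (rL ℓ) : Subring (LaurentSeries (ZMod ℓ))) :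
        Set (LaurentSeries (ZMod ℓ))) := by
    rw [modularFunctionFieldFullC, IntermediateField.adjoin_toSubfield]
    refine Subfield.closure_le.mpr (Set.union_subset ?_ ?_)
    · rintro _ ⟨c, rfl⟩
      have hc : algebraMap (ZMod ℓ) (LaurentSeries (ZMod ℓ)) c =
          ((c.val : ℕ) : LaurentSeries (ZMod ℓ)) := by
        conv_lhs => rw [← ZMod.natCast_zmod_val c]
        rw [map_natCast]
      rw [hc]
      exact natCast_mem _ _
    · rintro _ ⟨d, hne, hd, rfl⟩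
      have := hne
      rw [← jd_eq]
      exact Subfield.subset_closure
        ⟨jd ℤ d, Subring.subset_closure ⟨d, hd, rfl⟩, coeffMap_jd _ d⟩
  have hz' : z ∈ Subfield.closure (((jRing N).map (rL ℓ) : Subring (LaurentSeries (ZMod ℓ))) :
      Set (LaurentSeries (ZMod ℓ))) := hle hz
  obtain ⟨y, hy, w, hw, hyw⟩ := Subfield.mem_closure_iff.mp hz'
  rw [Subring.closure_eq] at hy hw
  obtain ⟨C, hC, rfl⟩ := hy
  obtain ⟨D, hD, rfl⟩ := hw
  by_cases hD0 : rL ℓ D = 0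
  · refine ⟨0, 1, Subring.zero_mem _, Subring.one_mem _, ?_, ?_⟩
    · rw [map_one]
      exact one_ne_zero
    · rw [← hyw, hD0, div_zero, zero_mul, map_zero]
  · exact ⟨C, D, hC, hD, hD0, by rw [← hyw, div_mul_cancel₀ _ hD0]⟩

end Frac

/-! ### The tower -/

section Tower

variable (N : ℕ) [NeZero N] (ℓ : ℕ) [Fact ℓ.Prime]
variable (A : ValuationSubring Qb) (hG : ModelPlan.GRelFacts A)
variable (φ : ZMod ℓ →+* IsLocalRing.ResidueField A)
variable {S : Subring (LaurentSeries ℚ)} {ρ : ↥S →+* LaurentSeries (ZMod ℓ)}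
include hG φ

omit hG φ in
/-- On `ℤ[j(q^d) : d ∣ N]` the map `ρ` is reduction mod `ℓ`. -/
theorem jRing_facts
    (hj : ∀ d, d ∣ N → ∃ h : jd ℚ d ∈ S, ρ ⟨jd ℚ d, h⟩ = jd (ZMod ℓ) d)
    (X : LaurentSeries ℤ) (hX : X ∈ jRing N) :
    cQ X ∈ modularFunctionFieldFull N ∧
      ∃ t : ↥S, (t : LaurentSeries ℚ) = cQ X ∧ ρ t = rL ℓ X := by
  induction hX using Subring.closure_induction with
  | mem X hX =>
    obtain ⟨d, hd, rfl⟩ := hX
    have hd0 : d ≠ 0 := fun h => NeZero.ne N (Nat.eq_zero_of_zero_dvd (h ▸ hd))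
    have : NeZero d := ⟨hd0⟩
    have e : cQ (jd ℤ d) = jd ℚ d := coeffMap_jd _ d
    obtain ⟨h, hρ⟩ := hj d hd
    refine ⟨?_, ⟨jd ℚ d, h⟩, e.symm, ?_⟩
    · rw [e, jd_rat]
      exact jqd_mem_full N hd
    · rw [hρ]
      exact (coeffMap_jd _ d).symm
  | zero =>
    exact ⟨by rw [map_zero]; exact zero_mem _, 0, by rw [map_zero]; rfl, by rw [map_zero, map_zero]⟩
  | one =>
    exact ⟨by rw [map_one]; exact one_mem _, 1, by rw [map_one]; rfl, by rw [map_one, map_one]⟩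
  | add X Y _ _ hx hy =>
    obtain ⟨hxF, tx, htx, hρx⟩ := hx
    obtain ⟨hyF, ty, hty, hρy⟩ := hy
    exact ⟨by rw [map_add]; exact add_mem hxF hyF, tx + ty,
      by rw [Subring.coe_add, htx, hty, map_add], by rw [map_add, hρx, hρy, map_add]⟩
  | neg X _ hx =>
    obtain ⟨hxF, tx, htx, hρx⟩ := hx
    exact ⟨by rw [map_neg]; exact neg_mem hxF, -tx,
      by rw [Subring.coe_neg, htx, map_neg], by rw [map_neg, hρx, map_neg]⟩
  | mul X Y _ _ hx hy =>
    obtain ⟨hxF, tx, htx, hρx⟩ := hx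
    obtain ⟨hyF, ty, hty, hρy⟩ := hy
    exact ⟨by rw [map_mul]; exact mul_mem hxF hyF, tx * ty,
      by rw [Subring.coe_mul, htx, hty, map_mul], by rw [map_mul, hρx, hρy, map_mul]⟩

/-- **Step (A)**: the part of the tower ring inside `ℚ(j(q^d) : d ∣ N)` lies in the Gauss
ring. -/
theorem mem_gRing_of_tower (hint : ∀ s ∈ S, IsIntegral ↥(S28.R0 ℓ) s)
    (s : LaurentSeries ℚ) (hs : s ∈ S) (hsF : s ∈ modularFunctionFieldFull N) :
    s ∈ gRing A hG := by
  obtain ⟨a, b, hb, rfl⟩ := exists_int_frac N s hsF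
  rcases div_mem_or_inv_mem A hG ℓ φ a b hb with h | h
  · exact h
  · refine mem_of_isIntegral_of_inv_mem ?_ h
    have hle : S28.R0 ℓ ≤ gRing A hG := R0_le_gRing A hG ℓ φ
    let _ : Algebra ↥(S28.R0 ℓ) ↥(gRing A hG) := (Subring.inclusion hle).toAlgebra
    have : IsScalarTower ↥(S28.R0 ℓ) ↥(gRing A hG) (LaurentSeries ℚ) :=
      IsScalarTower.of_algebraMap_eq fun _ => rfl
    exact IsIntegral.tower_top (hint _ hs)

/-- **Step (B)**: on that part, Gauss reduction is the base change of `ρ`. -/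
theorem gRed_eq_of_tower (hg : GoodPair ℓ S ρ)
    (hint : ∀ s ∈ S, IsIntegral ↥(S28.R0 ℓ) s)
    (hj : ∀ d, d ∣ N → ∃ h : jd ℚ d ∈ S, ρ ⟨jd ℚ d, h⟩ = jd (ZMod ℓ) d)
    (hr : Set.range ρ ⊆
      (modularFunctionFieldFullC (ZMod ℓ) N : Set (LaurentSeries (ZMod ℓ))))
    (s : LaurentSeries ℚ) (hs : s ∈ S) (hsF : s ∈ modularFunctionFieldFull N)
    (hsG : s ∈ gRing A hG) :
    gRed A hG ⟨s, hsG⟩ = coeffMap φ (ρ ⟨s, hs⟩) := by
  have hz : ρ ⟨s, hs⟩ ∈ modularFunctionFieldFullC (ZMod ℓ) N := hr ⟨_, rfl⟩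
  obtain ⟨C, D, hC, hD, hD0, hzD⟩ := exists_frac_modL N ℓ _ hz
  obtain ⟨hCF, tC, htC, hρC⟩ := jRing_facts N ℓ hj C hC
  obtain ⟨hDF, tD, htD, hρD⟩ := jRing_facts N ℓ hj D hD
  have hρe : ρ (⟨s, hs⟩ * tD - tC) = 0 := by
    rw [map_sub, map_mul, hρC, hρD, hzD, sub_self]
  obtain ⟨s', hs'⟩ := (hg.map_eq_zero_iff _).mp hρe
  have hℓ0 : ((ℓ : ℕ) : LaurentSeries ℚ) ≠ 0 := (goodPair_R0 ℓ).ell_ne_zero
  have hrel : s * cQ D - cQ C = (ℓ : LaurentSeries ℚ) * (s' : LaurentSeries ℚ) := by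
    have h1 := congrArg (fun t : ↥S => (t : LaurentSeries ℚ)) hs'
    simp only [AddSubgroupClass.coe_sub, Subring.coe_mul, Subring.coe_natCast] at h1
    rw [← htD, ← htC]
    exact h1
  have hs'F : (s' : LaurentSeries ℚ) ∈ modularFunctionFieldFull N := by
    have h2 : (s' : LaurentSeries ℚ) = ((ℓ : ℕ) : LaurentSeries ℚ)⁻¹ * (s * cQ D - cQ C) := by
      rw [hrel, ← mul_assoc, inv_mul_cancel₀ hℓ0, one_mul]
    rw [h2]
    exact mul_mem (inv_mem (natCast_mem _ ℓ)) (sub_mem (mul_mem hsF hDF) hCF)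
  have hs'G : (s' : LaurentSeries ℚ) ∈ gRing A hG :=
    mem_gRing_of_tower N ℓ A hG φ hint _ s'.2 hs'F
  have hrelG : (⟨s, hsG⟩ : ↥(gRing A hG)) * ⟨cQ D, cQ_mem_gRing A hG D⟩ -
      ⟨cQ C, cQ_mem_gRing A hG C⟩ = ((ℓ : ℕ) : ↥(gRing A hG)) * ⟨s', hs'G⟩ := by
    apply Subtype.ext
    simp only [AddSubgroupClass.coe_sub, Subring.coe_mul, Subring.coe_natCast]
    exact hrel
  have h3 := congrArg (gRed A hG) hrelG
  rw [map_sub, map_mul, map_mul, map_natCast, natCast_ell_eq_zero A ℓ φ, zero_mul, gRed_cQ,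
    gRed_cQ, coeffMap_int_eq A ℓ φ, coeffMap_int_eq A ℓ φ, ← hzD, map_mul, sub_eq_zero] at h3
  refine mul_right_cancel₀ ?_ h3
  exact fun h => hD0 (coeffMap_phi_injective A ℓ φ (by rw [h, map_zero]))

set_option linter.unusedVariables false in
/-- **Compatibility of the tower with Gauss reduction.**  For a good pair `(S, ρ)` of the S28
tower, every `s ∈ S ∩ ℚ(j(q^d) : d ∣ N)` is Gauss-integral with Gauss reduction the base change
of `ρ s`.  (The hypotheses `hA`, `h0` are not used; they are kept so that the statement matches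
the data of `S28.TowerState` verbatim.) -/
theorem gRel_of_tower (hA : A.LiesOverPrime ℓ) (hg : GoodPair ℓ S ρ) (h0 : S28.R0 ℓ ≤ S)
    (hint : ∀ s ∈ S, IsIntegral ↥(S28.R0 ℓ) s)
    (hj : ∀ d, d ∣ N → ∃ h : jd ℚ d ∈ S, ρ ⟨jd ℚ d, h⟩ = jd (ZMod ℓ) d)
    (hr : Set.range ρ ⊆
      (modularFunctionFieldFullC (ZMod ℓ) N : Set (LaurentSeries (ZMod ℓ))))
    (s : LaurentSeries ℚ) (hs : s ∈ S) (hsF : s ∈ modularFunctionFieldFull N) :
    GRel A (coeffEmb Qb s) (coeffMap φ (ρ ⟨s, hs⟩)) := by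
  have hsG : s ∈ gRing A hG := mem_gRing_of_tower N ℓ A hG φ hint s hs hsF
  have h := gRel_gRed A hG ⟨s, hsG⟩
  rw [gRed_eq_of_tower N ℓ A hG φ hg hint hj hr s hs hsF hsG] at h
  exact h

/-- The top of the S28 tower, with its compatibility with Gauss reduction. -/
theorem exists_tower_gRel (hℓN : ¬ ℓ ∣ N) :
    ∃ (S : Subring (LaurentSeries ℚ)) (ρ : ↥S →+* LaurentSeries (ZMod ℓ)),
      GoodPair ℓ S ρ ∧ S28.R0 ℓ ≤ S ∧ (∀ s ∈ S, IsIntegral ↥(S28.R0 ℓ) s) ∧
      (∀ d, d ∣ N → ∃ h : jd ℚ d ∈ S, ρ ⟨jd ℚ d, h⟩ = jd (ZMod ℓ) d) ∧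
      Set.range ρ ⊆ (modularFunctionFieldFullC (ZMod ℓ) N : Set (LaurentSeries (ZMod ℓ))) ∧
      ∀ (s : LaurentSeries ℚ) (hs : s ∈ S), s ∈ modularFunctionFieldFull N →
        GRel A (coeffEmb Qb s) (coeffMap φ (ρ ⟨s, hs⟩)) := by
  have hE : ∀ r : ℕ, r.Prime → Nonempty (HeckeData r) := fun r hr => exists_heckeData r hr
  obtain ⟨S, ρ, hg, h0, hint, hj, hr⟩ := towerState_top ℓ (charLInputs ℓ hE) N (NeZero.ne N) hℓN
    (fun p hp _ => (hE p hp).some)
  refine ⟨S, ρ, hg, h0, hint, fun d hd => hj d hd, hr, fun s hs hsF => ?_⟩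
  have hsG : s ∈ gRing A hG := mem_gRing_of_tower N ℓ A hG φ hint s hs hsF
  have h := gRel_gRed A hG ⟨s, hsG⟩
  rw [gRed_eq_of_tower N ℓ A hG φ hg hint (fun d hd => hj d hd) hr s hs hsF hsG] at h
  exact h

end Tower

end Fermat.Agent.S18.RedQCompat
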