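/-
S18, block [ARITH]/[QExp] (helper69): the `q`-expansion principle over `O = A ∩ K`.

`qExpStatement`: an element `x` of `F_K` lying in the Gauss local ring of `A` becomes integral
over `O[j]` after multiplication by `c(j)` for a polynomial `c ∈ O[X]` with nonzero reduction,
and its Gauss reduction lies in `F_k(N)`.

Assembly of the abstract core `QExpCore.Data.main` for
`Ω = ℚ̄((q))`, `G =` Gauss ring, `B0 = O[j]`, `T0 =` the subring generated by the constants of `O`
and by `S ∩ F_ℚ(N)`, `(S, ρ)` the top pair of the S28 tower (`RedQCompat.exists_tower_gRel`).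
Fields of the `Data` instance: `QExpCont` (content), `QExpInt` (integrality), `QExpDivT`
(divisibility by `π`), `QExpBound` (`π`-adic separatedness).
-/
import Fermat.Agent.S18.QExpDefs
import Fermat.Agent.S18.QExpCore
import Fermat.Agent.S18.QExpFracB
import Fermat.Agent.S18.RedQCompat
import Fermat.Agent.S18.QExpCont
import Fermat.Agent.S18.QExpBound
import Fermat.Agent.S18.QExpInt
import Fermat.Agent.S18.QExpDivT
import Fermat.Agent.S18.QExpTransfer
import Fermat.Agent.S18.BaseRes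

set_option autoImplicit false

noncomputable section

namespace Fermat.Agent.S18.QExp

open ModularCurve ModularCurve.IgusaScheme HahnSeries
open Fermat.Agent.S18.Arith Fermat.Agent.S18.ModelPlan Fermat.Agent.S18.QExpDefs

/-- `B0 = O[j]` is contained in `T0` as soon as `j ∈ S`. -/
theorem B0_le_T0 (N : ℕ) [NeZero N] (A : ValuationSubring Qb) (K : IntermediateField ℚ Qb)
    (S : Subring (LaurentSeries ℚ)) (hjS : jq ∈ S) : B0 A K ≤ T0 A K N S := by
  have hι : ∀ o : OK A K, ι A K o ∈ T0 A K N S := fun o =>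
    Subring.subset_closure (Or.inl ⟨o, rfl⟩)
  have hjF : jq ∈ modularFunctionFieldFull N := (jFull N).2
  have hj : jΩ ∈ T0 A K N S :=
    Subring.subset_closure (Or.inr ⟨⟨jq, hjS, hjF⟩, rfl⟩)
  rintro x ⟨c, rfl⟩
  rw [ev_apply, Polynomial.eval₂_eq_sum_range]
  exact Subring.sum_mem _ fun i _ => Subring.mul_mem _ (hι _) (Subring.pow_mem _ hj i)

/-- **[QExp]** the `q`-expansion principle over `O`. -/
theorem qExpStatement (N : ℕ) [NeZero N] (ℓ : ℕ) [Fact ℓ.Prime] (hG : GRelStatement)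
    (hNF : GRelNFStatement) (hbasic : BasicStatement N ℓ) : QExpStatement N ℓ := by
  intro hℓN A hA K hB x y hxy
  have hGA : GRelFacts A := hG A
  have : CharP (IsLocalRing.ResidueField A) ℓ := BaseRes.charP_residueField ℓ A hA
  let φ : ZMod ℓ →+* IsLocalRing.ResidueField A := ZMod.castHom (dvd_refl ℓ) _
  obtain ⟨S, ρ, hg, h0, hint, hj, hr, hcompat⟩ :=
    RedQCompat.exists_tower_gRel N ℓ A hGA φ hℓN
  have hdvr : IsDiscreteValuationRing (OK A K) := hB.dvr
  obtain ⟨ϖ, hϖ⟩ := IsDiscreteValuationRing.exists_irreducible (OK A K)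
  have hres : ∀ o : OK A K, resO A K o = 0 → ∃ o', o = ϖ * o' :=
    QExpCont.exists_eq_mul_of_resO_eq_zero A K hdvr ϖ hϖ
  have hℓ : ∃ w : OK A K, (ℓ : OK A K) = ϖ * w :=
    QExpCont.exists_natCast_eq_mul ℓ A K hA hdvr ϖ hϖ
  have hϖ0 : resO A K ϖ = 0 := by
    rw [QExpCont.resO_eq_zero_iff, hϖ.maximalIdeal_eq]
    exact Ideal.mem_span_singleton_self ϖ
  have hjS : ∀ d : ℕ, d ∣ N → Fermat.Agent.S28.jd ℚ d ∈ S := fun d hd => (hj d hd).1
  have hjqS : jq ∈ S := by
    have h := hjS 1 (one_dvd N)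
    rwa [Fermat.Agent.S28.jd_rat_one] at h
  have hT0G : T0 A K N S ≤ gRing A hGA := QExpDivT.T0_le_gRing N ℓ A K hGA φ hcompat
  have hB0T0 : B0 A K ≤ T0 A K N S := B0_le_T0 N A K S hjqS
  have D : QExpCore.Data (gRing A hGA) (B0 A K) (T0 A K N S) (red A) (ι A K ϖ) :=
    { hB0T0 := hB0T0
      hT0G := hT0G
      hπ := ⟨Polynomial.C ϖ, by rw [ev_apply, Polynomial.eval₂_C]⟩
      hπ0 := fun h => hϖ.ne_zero (ι_injective A K (by rw [h, map_zero]))
      r_pi := by rw [red_eq hGA (gRel_ι hGA ϖ), ιbar_apply, hϖ0, map_zero]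
      r_zero := red_zero hGA
      r_one := red_one hGA
      r_mul := fun x hx y hy => red_mul hGA hx hy
      cont := QExpCont.cont_B0 A K hGA hdvr ϖ hϖ
      int := QExpInt.int_T0 N ℓ A K hGA φ hint
      div := QExpDivT.div_T0 N ℓ A K hGA φ hg hcompat ϖ hres hℓ
      bound := QExpBound.bound_T0 N A K hGA hNF hdvr ϖ hϖ hϖ0 (hbasic A K).qfrac S }
  have hO : ∀ o : OK A K, (HahnSeries.C (incO A K o) : LaurentSeries Qb) ∈ T0 A K N S :=
    fun o => Subring.subset_closure (Or.inl ⟨o, rfl⟩)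
  have hS : ∀ s ∈ S, s ∈ modularFunctionFieldFull N → coeffEmb Qb s ∈ T0 A K N S :=
    fun s hs hsF => Subring.subset_closure (Or.inr ⟨⟨s, hs, hsF⟩, rfl⟩)
  obtain ⟨a, ha, b, hb, hb0, hxab⟩ :=
    QExpFracB.exists_frac_of_mem_FK N A K hjS (T0 A K N S) hO hS (x : LaurentSeries Qb) x.2
  have hxG : (x : LaurentSeries Qb) ∈ gRing A hGA := ⟨y, hxy⟩
  obtain ⟨⟨c, hc, hrc, hcint⟩, a', ha', b', hb', hrb', hxb'⟩ := D.main hxG ha hb hb0 hxab
  refine ⟨?_, ?_⟩
  · obtain ⟨cp, rfl⟩ := hc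
    refine ⟨cp, ?_, QExpTransfer.mem_R0_of_isIntegral_B0 N ℓ A K cp x hcint⟩
    intro h0
    apply hrc
    rw [red_ev hGA, (evbar_eq_zero_iff A K cp).mpr h0]
  · have hy : red A (x : LaurentSeries Qb) = y := red_eq hGA hxy
    have h1 : red A ((x : LaurentSeries Qb) * b') = y * red A b' := by
      rw [red_mul hGA hxG (hT0G hb'), hy]
    rw [hxb'] at h1
    have h2 : y = red A a' * (red A b')⁻¹ := by
      rw [h1, mul_assoc, mul_inv_cancel₀ hrb', mul_one]
    rw [h2]
    exact mul_mem (QExpDivT.red_mem_fullC N ℓ A K hGA φ hr hcompat a' ha')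
      (inv_mem (QExpDivT.red_mem_fullC N ℓ A K hGA φ hr hcompat b' hb'))

end Fermat.Agent.S18.QExp
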