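import Mathlib

/-!
# S18 / [Base], unramified core : `K = K₁(μ_n : ℓ ∤ n)` is unramified over `K₁` at `A`

`A` is a valuation subring of `Qbar = AlgebraicClosure ℚ` with `ℓ ∈ 𝔪_A`, `K₁ ⊂ Qbar` a number
field, `K := K₁ ⊔ ℚ(ζ : ζ ^ n = 1, ℓ ∤ n)`.

* `exists_uniformizer` : there is `π ∈ K₁ ∩ 𝔪_A` such that every nonzero `x ∈ K` is
  `π ^ (-k)` times a unit of `A`.

Tools (reusable): the prime `placeOf A ι` of a number field `N` (with `ι : N →+* L`) cut out
by a valuation subring `A` of `L`, with the dictionary `valuation_le_one_iff`,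
`valuation_lt_one_iff`, `valuation_eq_one_iff'`; and the fact that `F(ζ)/F`, `ζ ^ n = 1`, is
unramified at the primes at which `n` is a unit (`ramificationIdx'_eq_one_of_root_of_unity`,
`valuation_algebraMap_eq`).
-/

set_option autoImplicit false

namespace Fermat.Agent.S18.BaseUnr

open IsDedekindDomain NumberField

local notation "Qbar" => AlgebraicClosure ℚ

/-! ## Valuation subrings: generalities -/

section ValSub

variable {L : Type*} [Field L] (A : ValuationSubring L)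

/-- Elements integral over `ℤ` lie in every valuation subring. -/
theorem mem_of_isIntegral {x : L} (hx : IsIntegral ℤ x) : x ∈ A := by
  have h : IsIntegral A x := hx.tower_top
  obtain ⟨y, rfl⟩ := IsIntegrallyClosed.isIntegral_iff.mp h
  exact y.2

theorem mem_nonunits_iff_valuation_lt_one {x : L} : x ∈ A.nonunits ↔ A.valuation x < 1 := by
  constructor
  · intro h
    obtain ⟨hx, hm⟩ := ValuationSubring.mem_nonunits_iff_exists_mem_maximalIdeal.mp h
    exact (A.valuation_lt_one_iff ⟨x, hx⟩).mp hm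
  · intro h
    have hx : x ∈ A := (A.valuation_le_one_iff x).mp h.le
    exact ValuationSubring.mem_nonunits_iff_exists_mem_maximalIdeal.mpr
      ⟨hx, (A.valuation_lt_one_iff ⟨x, hx⟩).mpr h⟩

/-- `x ≠ 0` is a unit of `A` iff `x ∈ A` and `x⁻¹ ∈ A`. -/
theorem valuation_eq_one_iff {x : L} (hx : x ≠ 0) : A.valuation x = 1 ↔ x ∈ A ∧ x⁻¹ ∈ A := by
  constructor
  · intro h
    refine ⟨(A.valuation_le_one_iff x).mp h.le, (A.valuation_le_one_iff x⁻¹).mp ?_⟩
    rw [map_inv₀, h, inv_one]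
  · rintro ⟨h1, h2⟩
    have h1' := (A.valuation_le_one_iff x).mpr h1
    have h2' := (A.valuation_le_one_iff x⁻¹).mpr h2
    rw [map_inv₀] at h2'
    have hv0 : A.valuation x ≠ 0 := (Valuation.ne_zero_iff _).mpr hx
    have h3 : 1 ≤ A.valuation x := by
      by_contra hlt
      push Not at hlt
      have : 1 < (A.valuation x)⁻¹ := (one_lt_inv₀ (zero_lt_iff.mpr hv0)).mpr hlt
      exact absurd h2' (not_le.mpr this)
    exact le_antisymm h1' h3

end ValSub

/-! ## The prime of a number field cut out by a valuation subring of `Qbar` -/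

section Place

variable {L : Type*} [Field L] (A : ValuationSubring L)
variable {N : Type*} [Field N] [NumberField N] (ι : N →+* L)

/-- The ring homomorphism `𝓞 N → A` induced by `ι : N →+* L`. -/
noncomputable def intHom : 𝓞 N →+* A :=
  (ι.comp (algebraMap (𝓞 N) N)).codRestrict A.toSubring fun x =>
    mem_of_isIntegral A (map_isIntegral_int ι (RingOfIntegers.isIntegral_coe x))

omit [NumberField N] in
@[simp] theorem coe_intHom (x : 𝓞 N) : ((intHom A ι x : A) : L) = ι (x : N) := rfl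

/-- The prime of `𝓞 N` below the maximal ideal of `A` (for `ℓ ∈ 𝔪_A`, `ℓ ≠ 0`). -/
noncomputable def placeOf {ℓ : ℕ} (hℓ : ℓ ≠ 0) (hA : (ℓ : L) ∈ A.nonunits) :
    HeightOneSpectrum (𝓞 N) where
  asIdeal := (IsLocalRing.maximalIdeal A).comap (intHom A ι)
  isPrime := Ideal.comap_isPrime _ _
  ne_bot := by
    intro h
    have hmem : (ℓ : 𝓞 N) ∈ (IsLocalRing.maximalIdeal A).comap (intHom A ι) := by
      rw [Ideal.mem_comap]
      obtain ⟨h1, h2⟩ := ValuationSubring.mem_nonunits_iff_exists_mem_maximalIdeal.mp hA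
      have : intHom A ι (ℓ : 𝓞 N) = ⟨(ℓ : L), h1⟩ := by
        apply Subtype.ext
        simp
      rw [this]
      exact h2
    rw [h, Ideal.mem_bot] at hmem
    exact hℓ (by exact_mod_cast hmem)

variable {ℓ : ℕ} (hℓ : ℓ ≠ 0) (hA : (ℓ : L) ∈ A.nonunits)

theorem mem_placeOf_iff (x : 𝓞 N) :
    x ∈ (placeOf A ι hℓ hA).asIdeal ↔ ι (x : N) ∈ A.nonunits := by
  change intHom A ι x ∈ IsLocalRing.maximalIdeal A ↔ _
  rw [ValuationSubring.mem_nonunits_iff_exists_mem_maximalIdeal]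
  constructor
  · intro h
    exact ⟨(intHom A ι x).2, h⟩
  · rintro ⟨h1, h2⟩
    exact h2

theorem valuation_coe_lt_one_iff (x : 𝓞 N) :
    (placeOf A ι hℓ hA).valuation N (x : N) < 1 ↔ A.valuation (ι (x : N)) < 1 := by
  rw [HeightOneSpectrum.valuation_lt_one_iff_mem, mem_placeOf_iff,
    mem_nonunits_iff_valuation_lt_one]

theorem valuation_coe_eq_one_iff (x : 𝓞 N) :
    (placeOf A ι hℓ hA).valuation N (x : N) = 1 ↔ A.valuation (ι (x : N)) = 1 := by
  have h1 : (placeOf A ι hℓ hA).valuation N (x : N) ≤ 1 := HeightOneSpectrum.valuation_le_one _ x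
  have h2 : A.valuation (ι (x : N)) ≤ 1 :=
    (A.valuation_le_one_iff _).mpr (intHom A ι x).2
  constructor
  · intro h
    refine le_antisymm h2 (not_lt.mp fun hlt => ?_)
    have h3 := (valuation_coe_lt_one_iff A ι hℓ hA x).mpr hlt
    rw [h] at h3
    exact lt_irrefl _ h3
  · intro h
    refine le_antisymm h1 (not_lt.mp fun hlt => ?_)
    have h3 := (valuation_coe_lt_one_iff A ι hℓ hA x).mp hlt
    rw [h] at h3
    exact lt_irrefl _ h3

theorem valuation_le_one_of_le_one {x : N} (hx : (placeOf A ι hℓ hA).valuation N x ≤ 1) :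
    A.valuation (ι x) ≤ 1 := by
  obtain ⟨n, ⟨d, hd⟩, hnd⟩ :=
    (placeOf A ι hℓ hA).exists_primeCompl_mul_eq_of_integer x hx
  have hd1 : (placeOf A ι hℓ hA).valuation N (algebraMap (𝓞 N) N d) = 1 := by
    rw [HeightOneSpectrum.valuation_of_algebraMap]
    exact ((placeOf A ι hℓ hA).intValuation_eq_one_iff_mem_primeCompl d).mpr hd
  have hd2 : A.valuation (ι (d : N)) = 1 := (valuation_coe_eq_one_iff A ι hℓ hA d).mp hd1
  have hn2 : A.valuation (ι (n : N)) ≤ 1 := (A.valuation_le_one_iff _).mpr (intHom A ι n).2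
  have h := congrArg (fun y => A.valuation (ι y)) hnd
  simp only [map_mul, hd2, mul_one] at h
  rw [h]
  exact hn2

theorem valuation_lt_one_of_lt_one {x : N} (hx : (placeOf A ι hℓ hA).valuation N x < 1) :
    A.valuation (ι x) < 1 := by
  obtain ⟨n, ⟨d, hd⟩, hnd⟩ :=
    (placeOf A ι hℓ hA).exists_primeCompl_mul_eq_of_integer x hx.le
  have hd1 : (placeOf A ι hℓ hA).valuation N (algebraMap (𝓞 N) N d) = 1 := by
    rw [HeightOneSpectrum.valuation_of_algebraMap]
    exact ((placeOf A ι hℓ hA).intValuation_eq_one_iff_mem_primeCompl d).mpr hd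
  have hd2 : A.valuation (ι (d : N)) = 1 := (valuation_coe_eq_one_iff A ι hℓ hA d).mp hd1
  have hnd' : x * algebraMap (𝓞 N) N d = algebraMap (𝓞 N) N n := hnd
  have hn1 : (placeOf A ι hℓ hA).valuation N (algebraMap (𝓞 N) N n) < 1 := by
    rw [← hnd', map_mul, hd1, mul_one]
    exact hx
  have hn2 : A.valuation (ι (n : N)) < 1 := (valuation_coe_lt_one_iff A ι hℓ hA n).mp hn1
  have h := congrArg (fun y => A.valuation (ι y)) hnd
  simp only [map_mul, hd2, mul_one] at h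
  rw [h]
  exact hn2

theorem valuation_le_one_iff (x : N) :
    (placeOf A ι hℓ hA).valuation N x ≤ 1 ↔ A.valuation (ι x) ≤ 1 := by
  refine ⟨valuation_le_one_of_le_one A ι hℓ hA, fun h => ?_⟩
  by_contra hcon
  push Not at hcon
  have hx0 : x ≠ 0 := by
    rintro rfl
    simp at hcon
  have h1 : (placeOf A ι hℓ hA).valuation N x⁻¹ < 1 := by
    rw [map_inv₀]
    exact inv_lt_one_of_one_lt₀ hcon
  have h2 := valuation_lt_one_of_lt_one A ι hℓ hA h1
  rw [map_inv₀, map_inv₀] at h2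
  have h3 : A.valuation (ι x) ≠ 0 := (Valuation.ne_zero_iff _).mpr ((map_ne_zero ι).mpr hx0)
  have h4 : 1 < A.valuation (ι x) := (inv_lt_one₀ (zero_lt_iff.mpr h3)).mp h2
  exact absurd h (not_le.mpr h4)

theorem valuation_lt_one_iff (x : N) :
    (placeOf A ι hℓ hA).valuation N x < 1 ↔ A.valuation (ι x) < 1 := by
  refine ⟨valuation_lt_one_of_lt_one A ι hℓ hA, fun h => ?_⟩
  by_contra hcon
  push Not at hcon
  have hx0 : x ≠ 0 := by
    rintro rfl
    simp at hcon
  have h1 : (placeOf A ι hℓ hA).valuation N x⁻¹ ≤ 1 := by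
    rw [map_inv₀]
    exact inv_le_one_of_one_le₀ hcon
  have h2 := valuation_le_one_of_le_one A ι hℓ hA h1
  rw [map_inv₀, map_inv₀] at h2
  have h3 : A.valuation (ι x) ≠ 0 := (Valuation.ne_zero_iff _).mpr ((map_ne_zero ι).mpr hx0)
  have h4 : 1 ≤ A.valuation (ι x) := (inv_le_one₀ (zero_lt_iff.mpr h3)).mp h2
  exact absurd h (not_lt.mpr h4)

theorem valuation_eq_one_iff' (x : N) :
    (placeOf A ι hℓ hA).valuation N x = 1 ↔ A.valuation (ι x) = 1 := by
  constructor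
  · intro h
    refine le_antisymm ((valuation_le_one_iff A ι hℓ hA x).mp h.le) (not_lt.mp fun hlt => ?_)
    have h3 := (valuation_lt_one_iff A ι hℓ hA x).mpr hlt
    rw [h] at h3
    exact lt_irrefl _ h3
  · intro h
    refine le_antisymm ((valuation_le_one_iff A ι hℓ hA x).mpr h.le) (not_lt.mp fun hlt => ?_)
    have h3 := (valuation_lt_one_iff A ι hℓ hA x).mp hlt
    rw [h] at h3
    exact lt_irrefl _ h3

end Place

/-! ## Cyclotomic extensions are unramified away from `n` -/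

section Unram

variable {F N : Type*} [Field F] [NumberField F] [Field N] [NumberField N] [Algebra F N]

/-- In a Galois extension of number fields the ramification index is the order of the inertia
group. -/
theorem ramificationIdx'_eq_card_inertia [IsGalois F N] (v : HeightOneSpectrum (𝓞 F))
    (w : HeightOneSpectrum (𝓞 N)) (hw : w.asIdeal.comap (algebraMap (𝓞 F) (𝓞 N)) = v.asIdeal) :
    v.asIdeal.ramificationIdx' w.asIdeal = Nat.card (w.asIdeal.inertia (N ≃ₐ[F] N)) := by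
  have : w.asIdeal.LiesOver v.asIdeal := ⟨hw.symm⟩
  have : IsGaloisGroup (N ≃ₐ[F] N) (𝓞 F) (𝓞 N) :=
    IsGaloisGroup.of_isFractionRing (N ≃ₐ[F] N) (𝓞 F) (𝓞 N) F N
  rw [Ideal.ramificationIdx'_eq_ramificationIdx v.asIdeal w.asIdeal v.ne_bot,
    ← Ideal.ramificationIdxIn_eq_ramificationIdx v.asIdeal w.asIdeal (N ≃ₐ[F] N)]
  exact (Ideal.card_inertia_eq_ramificationIdxIn v.asIdeal w.asIdeal).symm

omit [NumberField F] [Algebra F N] in
/-- A root of unity has valuation one. -/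
theorem valuation_eq_one_of_pow_eq_one (w : HeightOneSpectrum (𝓞 N)) {ξ : N} {n : ℕ}
    (hn : n ≠ 0) (hξ : ξ ^ n = 1) : w.valuation N ξ = 1 := by
  have h : w.valuation N ξ ^ n = 1 := by rw [← map_pow, hξ, map_one]
  exact (pow_eq_one_iff_left hn).mp h

omit [NumberField F] [Algebra F N] in
theorem valuation_natCast_le_one (w : HeightOneSpectrum (𝓞 N)) (d : ℕ) :
    w.valuation N (d : N) ≤ 1 := by
  have h : (d : N) = algebraMap (𝓞 N) N (d : 𝓞 N) := by simp
  rw [h]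
  exact HeightOneSpectrum.valuation_le_one w _

omit [NumberField F] [Algebra F N] in
/-- `1 - ξ` is a `w`-unit for a root of unity `ξ ≠ 1` of order dividing a `w`-unit `n`. -/
theorem valuation_one_sub_eq_one (w : HeightOneSpectrum (𝓞 N)) {n : ℕ}
    (hn : w.valuation N (n : N) = 1) {ξ : N} (hξ : ξ ^ n = 1) (hξ1 : ξ ≠ 1) :
    w.valuation N (1 - ξ) = 1 := by
  have hn0 : n ≠ 0 := by
    rintro rfl
    simp at hn
  have hd : orderOf ξ ∣ n := orderOf_dvd_of_pow_eq_one hξ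
  have hd0 : orderOf ξ ≠ 0 := fun h => hn0 (by rw [h, zero_dvd_iff] at hd; exact hd)
  have hd1 : orderOf ξ ≠ 1 := fun h => hξ1 (orderOf_eq_one_iff.mp h)
  have hprim : IsPrimitiveRoot ξ (orderOf ξ) := IsPrimitiveRoot.orderOf ξ
  obtain ⟨m, hm⟩ : ∃ m, orderOf ξ = m + 1 := ⟨orderOf ξ - 1, by omega⟩
  have hm1 : 1 ≤ m := by omega
  rw [hm] at hprim hd
  have hone : w.valuation N ξ = 1 := valuation_eq_one_of_pow_eq_one w hn0 hξ
  have hle : ∀ k : ℕ, w.valuation N (1 - ξ ^ k) ≤ 1 := by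
    intro k
    refine (Valuation.map_sub _ _ _).trans ?_
    simp [hone]
  -- the order is a `w`-unit
  have hdval : 1 ≤ w.valuation N ((m + 1 : ℕ) : N) := by
    obtain ⟨c, hc⟩ := hd
    have h1 : w.valuation N ((m + 1 : ℕ) : N) * w.valuation N (c : N) = 1 := by
      rw [← map_mul, ← Nat.cast_mul, ← hc, hn]
    calc (1 : WithZero (Multiplicative ℤ))
        = w.valuation N ((m + 1 : ℕ) : N) * w.valuation N (c : N) := h1.symm
      _ ≤ w.valuation N ((m + 1 : ℕ) : N) * 1 := by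
          gcongr
          exact valuation_natCast_le_one w c
      _ = w.valuation N ((m + 1 : ℕ) : N) := mul_one _
  have hprod := hprim.prod_one_sub_pow_eq_order
  have hsplit : ∏ k ∈ Finset.range m, (1 - ξ ^ (k + 1)) =
      (1 - ξ) * ∏ k ∈ Finset.range (m - 1), (1 - ξ ^ (k + 1 + 1)) := by
    obtain ⟨m', rfl⟩ : ∃ m', m = m' + 1 := ⟨m - 1, by omega⟩
    rw [Finset.prod_range_succ']
    simp [mul_comm]
  have hval : w.valuation N ((m + 1 : ℕ) : N) ≤ w.valuation N (1 - ξ) := by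
    have h1 : ((m + 1 : ℕ) : N) = (1 - ξ) * ∏ k ∈ Finset.range (m - 1), (1 - ξ ^ (k + 1 + 1)) := by
      rw [← hsplit, hprod]
      push_cast
      ring
    rw [h1, map_mul, map_prod]
    have h2 : ∏ k ∈ Finset.range (m - 1), w.valuation N (1 - ξ ^ (k + 1 + 1)) ≤ 1 :=
      Finset.prod_le_one' fun k _ => hle _
    calc w.valuation N (1 - ξ) * ∏ k ∈ Finset.range (m - 1), w.valuation N (1 - ξ ^ (k + 1 + 1))
        ≤ w.valuation N (1 - ξ) * 1 := by gcongr
      _ = w.valuation N (1 - ξ) := mul_one _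
  have h1 := hle 1
  rw [pow_one] at h1
  exact le_antisymm h1 (hdval.trans hval)

/-- `F(ζ)/F`, `ζ ^ n = 1`, is unramified at the primes `w` at which `n` is a unit. -/
theorem ramificationIdx'_eq_one_of_root_of_unity [IsGalois F N] {n : ℕ} {ζ : N}
    (hζ : ζ ^ n = 1) (hgen : ∀ σ : N ≃ₐ[F] N, σ ζ = ζ → σ = 1)
    (v : HeightOneSpectrum (𝓞 F)) (w : HeightOneSpectrum (𝓞 N))
    (hw : w.asIdeal.comap (algebraMap (𝓞 F) (𝓞 N)) = v.asIdeal)
    (hn : w.valuation N (n : N) = 1) :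
    v.asIdeal.ramificationIdx' w.asIdeal = 1 := by
  have hn0 : n ≠ 0 := by
    rintro rfl
    simp at hn
  rw [ramificationIdx'_eq_card_inertia v w hw, Subgroup.card_eq_one, Subgroup.eq_bot_iff_forall]
  intro σ hσ
  apply hgen
  by_contra hne
  have hint : IsIntegral ℤ ζ :=
    IsIntegral.of_pow (Nat.pos_of_ne_zero hn0) (by rw [hζ]; exact isIntegral_one)
  have hζ0 : ζ ≠ 0 := by
    rintro rfl
    rw [zero_pow hn0] at hζ
    exact zero_ne_one hζ
  obtain ⟨ζ', hζ'⟩ : ∃ ζ' : 𝓞 N, algebraMap (𝓞 N) N ζ' = ζ := ⟨⟨ζ, hint⟩, rfl⟩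
  have h1 : w.valuation N (algebraMap (𝓞 N) N (σ • ζ' - ζ')) < 1 :=
    (w.valuation_lt_one_iff_mem _).mpr (hσ ζ')
  have h2 : algebraMap (𝓞 N) N (σ • ζ' - ζ') = σ ζ - ζ := by
    have h3 : algebraMap (𝓞 N) N (σ • ζ') = σ • algebraMap (𝓞 N) N ζ' :=
      algebraMap.coe_smul' σ ζ' N
    rw [map_sub, h3, hζ']
    rfl
  rw [h2] at h1
  have hξ : (σ ζ / ζ) ^ n = 1 := by
    rw [div_pow, ← map_pow, hζ, map_one, div_one]
  have hξ1 : σ ζ / ζ ≠ 1 := fun h => hne ((div_eq_one_iff_eq hζ0).mp h)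
  have h3 := valuation_one_sub_eq_one w hn hξ hξ1
  have h4 : σ ζ - ζ = -(ζ * (1 - σ ζ / ζ)) := by
    field_simp
    ring
  rw [h4, Valuation.map_neg, map_mul, h3, mul_one,
    valuation_eq_one_of_pow_eq_one w hn0 hζ] at h1
  exact lt_irrefl _ h1

/-- `F(ζ)/F`, `ζ ^ n = 1`, is unramified at the primes `w` at which `n` is a unit:
valuation form. -/
theorem valuation_algebraMap_eq [IsGalois F N] {n : ℕ} {ζ : N}
    (hζ : ζ ^ n = 1) (hgen : ∀ σ : N ≃ₐ[F] N, σ ζ = ζ → σ = 1)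
    (v : HeightOneSpectrum (𝓞 F)) (w : HeightOneSpectrum (𝓞 N))
    (hw : w.asIdeal.comap (algebraMap (𝓞 F) (𝓞 N)) = v.asIdeal)
    (hn : w.valuation N (n : N) = 1) (c : F) :
    w.valuation N (algebraMap F N c) = v.valuation F c := by
  have : w.asIdeal.LiesOver v.asIdeal := ⟨hw.symm⟩
  have h := HeightOneSpectrum.valuation_liesOver N v w c
  rw [ramificationIdx'_eq_one_of_root_of_unity hζ hgen v w hw hn, pow_one] at h
  exact h.symm

end Unram

/-! ## The base field `K = K₁(μ_n : ℓ ∤ n)` -/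

section QbarBase

theorem isIntegral_rat_Qbar : Algebra.IsIntegral ℚ Qbar := by
  have : Algebra.IsAlgebraic ℚ Qbar := AlgebraicClosure.isAlgebraic ℚ
  exact Algebra.IsAlgebraic.isIntegral

variable (A : ValuationSubring Qbar) {ℓ : ℕ}

/-- An integer prime to `ℓ` is a unit of `A`. -/
theorem valuation_natCast_eq_one (hℓ : ℓ.Prime) (hA : (ℓ : Qbar) ∈ A.nonunits) {n : ℕ}
    (hn : ¬ ℓ ∣ n) : A.valuation (n : Qbar) = 1 := by
  have hle : A.valuation (n : Qbar) ≤ 1 :=
    (A.valuation_le_one_iff _).mpr (natCast_mem A n)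
  refine le_antisymm hle (not_lt.mp fun hlt => ?_)
  have hcop : IsCoprime (n : ℤ) (ℓ : ℤ) :=
    Nat.isCoprime_iff_coprime.mpr ((Nat.Prime.coprime_iff_not_dvd hℓ).mpr hn).symm
  obtain ⟨a, b, hab⟩ := hcop
  have h1 : ((a : Qbar) * n + b * ℓ) = 1 := by exact_mod_cast congrArg (Int.cast : ℤ → Qbar) hab
  have ha : A.valuation (a : Qbar) ≤ 1 :=
    (A.valuation_le_one_iff _).mpr (intCast_mem A _)
  have hb : A.valuation (b : Qbar) ≤ 1 :=
    (A.valuation_le_one_iff _).mpr (intCast_mem A _)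
  have hℓ' : A.valuation (ℓ : Qbar) < 1 := (mem_nonunits_iff_valuation_lt_one A).mp hA
  have h2 : A.valuation ((a : Qbar) * n + b * ℓ) < 1 := by
    refine lt_of_le_of_lt (Valuation.map_add _ _ _) (max_lt ?_ ?_)
    · rw [map_mul]
      exact lt_of_le_of_lt (mul_le_of_le_one_left' ha) hlt
    · rw [map_mul]
      exact lt_of_le_of_lt (mul_le_of_le_one_left' hb) hℓ'
  rw [h1, map_one] at h2
  exact lt_irrefl _ h2

/-- Every element of the base field lies in `K₁(ζ)` for a single primitive root of unity `ζ`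
of order prime to `ℓ`. -/
theorem exists_primitiveRoot_mem_adjoin (hℓ : ℓ.Prime) (K1 : IntermediateField ℚ Qbar)
    {x : Qbar}
    (hx : x ∈ K1 ⊔ IntermediateField.adjoin ℚ {ζ : Qbar | ∃ n : ℕ, ¬ ℓ ∣ n ∧ ζ ^ n = 1}) :
    ∃ (n : ℕ) (ζ : Qbar), n ≠ 0 ∧ ¬ ℓ ∣ n ∧ IsPrimitiveRoot ζ n ∧
      x ∈ IntermediateField.adjoin ↥K1 {ζ} := by
  classical
  have hle0 : K1 ⊔ IntermediateField.adjoin ℚ {ζ : Qbar | ∃ n : ℕ, ¬ ℓ ∣ n ∧ ζ ^ n = 1} ≤
      IntermediateField.adjoin ℚ
        ((K1 : Set Qbar) ∪ {ζ : Qbar | ∃ n : ℕ, ¬ ℓ ∣ n ∧ ζ ^ n = 1}) :=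
    sup_le (fun y hy => IntermediateField.subset_adjoin ℚ _ (Or.inl hy))
      (IntermediateField.adjoin.mono ℚ _ _ Set.subset_union_right)
  obtain ⟨T, hTsub, hxT⟩ := IntermediateField.exists_finset_of_mem_adjoin (hle0 hx)
  have hn : ∃ n : ℕ, n ≠ 0 ∧ ¬ ℓ ∣ n ∧ ∀ t ∈ T, t ∈ K1 ∨ t ^ n = 1 := by
    clear hxT
    induction T using Finset.induction_on with
    | empty => exact ⟨1, one_ne_zero, hℓ.not_dvd_one, by simp⟩
    | insert a T ha ih =>
      obtain ⟨n, hn0, hn1, hn2⟩ :=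
        ih (fun t ht => hTsub (Finset.mem_coe.mpr (Finset.mem_insert_of_mem ht)))
      rcases hTsub (Finset.mem_coe.mpr (Finset.mem_insert_self a T)) with h | ⟨m, hm1, hm2⟩
      on_goal 2 => have hm0 : m ≠ 0 := fun h0 => hm1 (h0 ▸ dvd_zero ℓ)
      · refine ⟨n, hn0, hn1, fun t ht => ?_⟩
        rcases Finset.mem_insert.mp ht with rfl | ht
        · exact Or.inl h
        · exact hn2 t ht
      · refine ⟨n * m, mul_ne_zero hn0 hm0,
          fun hd => (hℓ.dvd_mul.mp hd).elim hn1 hm1, fun t ht => ?_⟩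
        rcases Finset.mem_insert.mp ht with rfl | ht
        · right
          rw [mul_comm, pow_mul, hm2, one_pow]
        · rcases hn2 t ht with h | h
          · exact Or.inl h
          · right
            rw [pow_mul, h, one_pow]
  obtain ⟨n, hn0, hn1, hn2⟩ := hn
  have : NeZero n := ⟨hn0⟩
  obtain ⟨ζ, hζ⟩ := HasEnoughRootsOfUnity.exists_primitiveRoot Qbar n
  refine ⟨n, ζ, hn0, hn1, hζ, ?_⟩
  have hle : IntermediateField.adjoin ℚ (↑T : Set Qbar) ≤
      (IntermediateField.adjoin ↥K1 {ζ}).restrictScalars ℚ := by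
    rw [IntermediateField.adjoin_le_iff]
    intro t ht
    rw [SetLike.mem_coe, IntermediateField.mem_restrictScalars]
    rcases hn2 t (Finset.mem_coe.mp ht) with h | h
    · exact (IntermediateField.adjoin ↥K1 {ζ}).algebraMap_mem ⟨t, h⟩
    · obtain ⟨i, -, rfl⟩ := hζ.eq_pow_of_pow_eq_one h
      exact pow_mem (IntermediateField.mem_adjoin_simple_self ↥K1 ζ) i
  exact (IntermediateField.mem_restrictScalars ℚ).mp (hle hxT)

/-- **[Base] (B1)**: `K = K₁(μ_n : ℓ ∤ n)` is unramified over `K₁` at `A`: a uniformizer `π` of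
`A ∩ K₁` is a uniformizer of `A ∩ K`. -/
theorem exists_uniformizer (hℓ : ℓ.Prime) (hA : (ℓ : Qbar) ∈ A.nonunits)
    (K1 : IntermediateField ℚ Qbar) [FiniteDimensional ℚ K1] :
    ∃ π : Qbar, π ∈ K1 ∧ π ≠ 0 ∧ π ∈ A.nonunits ∧
      ∀ x ∈ K1 ⊔ IntermediateField.adjoin ℚ {ζ : Qbar | ∃ n : ℕ, ¬ ℓ ∣ n ∧ ζ ^ n = 1}, x ≠ 0 →
        ∃ k : ℤ, x * π ^ k ∈ A ∧ (x * π ^ k)⁻¹ ∈ A := by
  have : NumberField ↥K1 := ⟨⟩
  obtain ⟨πF, hπF⟩ :=
    (placeOf A (algebraMap ↥K1 Qbar) hℓ.ne_zero hA).valuation_exists_uniformizer ↥K1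
  have hπ0 : πF ≠ 0 := by
    rintro rfl
    rw [map_zero] at hπF
    exact WithZero.exp_ne_zero hπF.symm
  refine ⟨algebraMap ↥K1 Qbar πF, πF.2, (map_ne_zero _).mpr hπ0, ?_, ?_⟩
  · rw [mem_nonunits_iff_valuation_lt_one]
    apply (valuation_lt_one_iff A _ hℓ.ne_zero hA πF).mp
    rw [hπF, ← WithZero.exp_zero, WithZero.exp_lt_exp]
    norm_num
  · intro x hx hx0
    obtain ⟨n, ζ, hn0, hn1, hζ, hxζ⟩ := exists_primitiveRoot_mem_adjoin hℓ K1 hx
    have : NeZero n := ⟨hn0⟩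
    have h1 : Algebra.IsIntegral ℚ Qbar := isIntegral_rat_Qbar
    have : Algebra.IsIntegral ↥K1 Qbar := Algebra.IsIntegral.tower_top (R := ℚ)
    have hint : IsIntegral ↥K1 ζ := Algebra.IsIntegral.isIntegral ζ
    have hcyc : IsCyclotomicExtension {n} ↥K1 ↥(IntermediateField.adjoin ↥K1 {ζ}) :=
      hζ.intermediateField_adjoin_isCyclotomicExtension ↥K1
    have hgal : IsGalois ↥K1 ↥(IntermediateField.adjoin ↥K1 {ζ}) :=
      IsCyclotomicExtension.isGalois {n} ↥K1 _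
    have hfd : FiniteDimensional ↥K1 ↥(IntermediateField.adjoin ↥K1 {ζ}) :=
      IntermediateField.adjoin.finiteDimensional hint
    have hfdQ : FiniteDimensional ℚ ↥(IntermediateField.adjoin ↥K1 {ζ}) :=
      Module.Finite.trans ↥K1 _
    have hnf : NumberField ↥(IntermediateField.adjoin ↥K1 {ζ}) := ⟨⟩
    have hwv : (placeOf A (algebraMap ↥(IntermediateField.adjoin ↥K1 {ζ}) Qbar) hℓ.ne_zero
        hA).asIdeal.comap (algebraMap (𝓞 ↥K1) (𝓞 ↥(IntermediateField.adjoin ↥K1 {ζ}))) =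
        (placeOf A (algebraMap ↥K1 Qbar) hℓ.ne_zero hA).asIdeal := by
      ext y
      rw [Ideal.mem_comap, mem_placeOf_iff, mem_placeOf_iff]
      rfl
    -- `ζ` generates, `n` is a unit
    have hζ' : (IntermediateField.AdjoinSimple.gen ↥K1 ζ) ^ n = 1 :=
      Subtype.ext (by simpa using hζ.pow_eq_one)
    have hgen : ∀ σ : ↥(IntermediateField.adjoin ↥K1 {ζ}) ≃ₐ[↥K1]
        ↥(IntermediateField.adjoin ↥K1 {ζ}),
        σ (IntermediateField.AdjoinSimple.gen ↥K1 ζ) = IntermediateField.AdjoinSimple.gen ↥K1 ζ →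
        σ = 1 := by
      intro σ hσ
      have h2 : (σ : ↥(IntermediateField.adjoin ↥K1 {ζ}) →ₐ[↥K1]
          ↥(IntermediateField.adjoin ↥K1 {ζ})) = AlgHom.id _ _ := by
        apply (IntermediateField.adjoin.powerBasis hint).algHom_ext
        rw [IntermediateField.adjoin.powerBasis_gen]
        exact hσ
      ext y
      exact congrArg Subtype.val (DFunLike.congr_fun h2 y)
    have hnw : (placeOf A (algebraMap ↥(IntermediateField.adjoin ↥K1 {ζ}) Qbar) hℓ.ne_zero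
        hA).valuation ↥(IntermediateField.adjoin ↥K1 {ζ})
        ((n : ℕ) : ↥(IntermediateField.adjoin ↥K1 {ζ})) = 1 := by
      rw [valuation_eq_one_iff', map_natCast]
      exact valuation_natCast_eq_one A hℓ hA hn1
    have hπw : (placeOf A (algebraMap ↥(IntermediateField.adjoin ↥K1 {ζ}) Qbar) hℓ.ne_zero
        hA).valuation ↥(IntermediateField.adjoin ↥K1 {ζ})
        (algebraMap ↥K1 ↥(IntermediateField.adjoin ↥K1 {ζ}) πF) = WithZero.exp (-1 : ℤ) := by
      rw [valuation_algebraMap_eq hζ' hgen _ _ hwv hnw, hπF]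
    -- the element `x` in `K₁(ζ)`
    have hx'0 : (⟨x, hxζ⟩ : ↥(IntermediateField.adjoin ↥K1 {ζ})) ≠ 0 :=
      fun h => hx0 (congrArg Subtype.val h)
    have hval0 : (placeOf A (algebraMap ↥(IntermediateField.adjoin ↥K1 {ζ}) Qbar) hℓ.ne_zero
        hA).valuation ↥(IntermediateField.adjoin ↥K1 {ζ}) ⟨x, hxζ⟩ ≠ 0 :=
      (Valuation.ne_zero_iff _).mpr hx'0
    refine ⟨WithZero.log ((placeOf A (algebraMap ↥(IntermediateField.adjoin ↥K1 {ζ}) Qbar)
      hℓ.ne_zero hA).valuation ↥(IntermediateField.adjoin ↥K1 {ζ}) ⟨x, hxζ⟩), ?_⟩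
    have hone : (placeOf A (algebraMap ↥(IntermediateField.adjoin ↥K1 {ζ}) Qbar) hℓ.ne_zero
        hA).valuation ↥(IntermediateField.adjoin ↥K1 {ζ})
        (⟨x, hxζ⟩ * (algebraMap ↥K1 ↥(IntermediateField.adjoin ↥K1 {ζ}) πF) ^
          WithZero.log ((placeOf A (algebraMap ↥(IntermediateField.adjoin ↥K1 {ζ}) Qbar)
            hℓ.ne_zero hA).valuation ↥(IntermediateField.adjoin ↥K1 {ζ}) ⟨x, hxζ⟩)) = 1 := by
      rw [map_mul, map_zpow₀, hπw, ← WithZero.exp_zsmul]
      conv_lhs => rw [← WithZero.exp_log hval0]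
      rw [← WithZero.exp_add, ← WithZero.exp_zero]
      congr 1
      simp
    rw [valuation_eq_one_iff'] at hone
    have hne : x * (algebraMap ↥K1 Qbar πF) ^
        WithZero.log ((placeOf A (algebraMap ↥(IntermediateField.adjoin ↥K1 {ζ}) Qbar)
          hℓ.ne_zero hA).valuation ↥(IntermediateField.adjoin ↥K1 {ζ}) ⟨x, hxζ⟩) ≠ 0 :=
      mul_ne_zero hx0 (zpow_ne_zero _ ((map_ne_zero _).mpr hπ0))
    rw [← valuation_eq_one_iff A hne]
    rw [map_mul, map_zpow₀] at hone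
    exact hone

end QbarBase

end Fermat.Agent.S18.BaseUnr
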