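/-
T4 / S18, block [Base] (owner: helper30).  Proves `Arith.BaseStatement ℓ`:
for every finite set `S` of constants there is an intermediate field `K ∋ S` of `ℚ̄/ℚ`, namely
`K = K₁(μ_n : ℓ ∤ n)` with `K₁ = ℚ(S)`, such that `O = A ∩ K` is a discrete valuation ring,
`O → k = ResidueField A` is onto and `K` contains the roots of unity of order prime to `ℓ`.

Inputs: `BaseUnr.exists_uniformizer` (helper13: `K/K₁` is unramified at `A`) and
`BaseRes.exists_mem_sub_mem_nonunits` (helper14: residues are roots of unity).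
-/
import Mathlib
import Fermat.Agent.S18.ArithPlan
import Fermat.Agent.S18.BaseRes
import Fermat.Agent.S18.BaseUnr

set_option autoImplicit false

noncomputable section

namespace Fermat.Agent.S18.Base

open Fermat.Agent.S18.Arith

/-- The coefficient field `K = K₁(μ_n : ℓ ∤ n)`. -/
def baseField (ℓ : ℕ) (K1 : IntermediateField ℚ Qb) : IntermediateField ℚ Qb :=
  K1 ⊔ IntermediateField.adjoin ℚ {ζ : Qb | ∃ n : ℕ, ¬ ℓ ∣ n ∧ ζ ^ n = 1}

theorem le_baseField (ℓ : ℕ) (K1 : IntermediateField ℚ Qb) : K1 ≤ baseField ℓ K1 :=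
  le_sup_left

theorem rootOfUnity_mem_baseField {ℓ : ℕ} (K1 : IntermediateField ℚ Qb) {n : ℕ} (hn : ¬ ℓ ∣ n)
    {ζ : Qb} (hζ : ζ ^ n = 1) : ζ ∈ baseField ℓ K1 :=
  (le_sup_right : _ ≤ baseField ℓ K1) (IntermediateField.subset_adjoin ℚ _ ⟨n, hn, hζ⟩)

theorem mem_OK_iff (A : ValuationSubring Qb) (K : IntermediateField ℚ Qb) (x : K) :
    x ∈ OK A K ↔ (x : Qb) ∈ A := Iff.rfl

/-- **DVR criterion.**  If `π ∈ K` is a nonunit of `A` such that every nonzero element of `K`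
is a power of `π` times a unit of `A`, then `O = A ∩ K` is a discrete valuation ring with
uniformizer `π`. -/
theorem exists_irreducible_and_forall_associated (A : ValuationSubring Qb)
    (K : IntermediateField ℚ Qb) (π : K) (hπ0 : π ≠ 0) (hπ : (π : Qb) ∈ A.nonunits)
    (hU : ∀ x : K, x ≠ 0 →
      ∃ k : ℤ, ((x * π ^ k : K) : Qb) ∈ A ∧ (((x * π ^ k : K) : Qb))⁻¹ ∈ A) :
    ∃ p : OK A K, (p : K) = π ∧ Irreducible p ∧
      ∀ x : OK A K, x ≠ 0 → ∃ n : ℕ, ∃ u : (OK A K)ˣ, p ^ n * u = x := by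
  have hγ1 : A.valuation (π : Qb) < 1 := (A.mem_nonunits_iff).1 hπ
  have hπQ : (π : Qb) ≠ 0 := fun h => hπ0 (Subtype.ext h)
  have hγ0 : 0 < A.valuation (π : Qb) := (Valuation.pos_iff _).2 hπQ
  have hπO : π ∈ OK A K := (A.valuation_le_one_iff _).1 hγ1.le
  -- the factorisation
  have claim : ∀ x : OK A K, x ≠ 0 →
      ∃ n : ℕ, ∃ u : (OK A K)ˣ, (⟨π, hπO⟩ : OK A K) ^ n * u = x := by
    intro x hx
    have hxK : (x : K) ≠ 0 := fun h => hx (Subtype.ext h)
    obtain ⟨k, hk1, hk2⟩ := hU x hxK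
    have hy0 : (x : K) * π ^ k ≠ 0 := mul_ne_zero hxK (zpow_ne_zero _ hπ0)
    have hy0' : (((x : K) * π ^ k : K) : Qb) ≠ 0 := fun h => hy0 (Subtype.ext h)
    have hv1 : A.valuation (((x : K) * π ^ k : K) : Qb) = 1 :=
      (BaseUnr.valuation_eq_one_iff A hy0').2 ⟨hk1, hk2⟩
    have hvx : A.valuation ((x : K) : Qb) = A.valuation (π : Qb) ^ (-k) := by
      have h1 : A.valuation ((x : K) : Qb) * A.valuation (π : Qb) ^ k = 1 := by
        rw [← hv1]
        have hc : (((x : K) * π ^ k : K) : Qb) = ((x : K) : Qb) * (π : Qb) ^ k := by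
          show algebraMap K Qb ((x : K) * π ^ k) = algebraMap K Qb (x : K) * (algebraMap K Qb π) ^ k
          rw [map_mul, map_zpow₀]
        rw [hc, map_mul, map_zpow₀]
      rw [zpow_neg]
      exact eq_inv_of_mul_eq_one_left h1
    have hk : 0 ≤ -k := by
      have hx1 : A.valuation ((x : K) : Qb) ≤ 1 := (A.valuation_le_one_iff _).2 x.2
      rw [hvx] at hx1
      exact (zpow_le_one_iff_right_of_lt_one₀ hγ0 hγ1).1 hx1
    have hinvK : (((((x : K) * π ^ k)⁻¹ : K)) : Qb) ∈ A := by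
      push_cast
      push_cast at hk2
      exact hk2
    refine ⟨(-k).toNat, ⟨⟨(x : K) * π ^ k, hk1⟩, ⟨((x : K) * π ^ k)⁻¹, hinvK⟩, ?_, ?_⟩, ?_⟩
    · exact Subtype.ext (mul_inv_cancel₀ hy0)
    · exact Subtype.ext (inv_mul_cancel₀ hy0)
    · apply Subtype.ext
      show π ^ (-k).toNat * ((x : K) * π ^ k) = (x : K)
      have h2 : π ^ (-k).toNat = π ^ (-k) := by
        rw [← zpow_natCast, Int.toNat_of_nonneg hk]
      rw [h2, mul_comm, mul_assoc, ← zpow_add₀ hπ0, add_neg_cancel, zpow_zero, mul_one]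
  -- nonunits have valuation `≤ v(π)`
  have hval_unit : ∀ u : (OK A K)ˣ, A.valuation (((u : OK A K) : K) : Qb) = 1 := by
    intro u
    have h1 : A.valuation ((((u : OK A K) : K) : Qb)) ≤ 1 :=
      (A.valuation_le_one_iff _).2 (u : OK A K).2
    have h2 : A.valuation ((((u⁻¹ : (OK A K)ˣ) : OK A K) : K) : Qb) ≤ 1 :=
      (A.valuation_le_one_iff _).2 ((u⁻¹ : (OK A K)ˣ) : OK A K).2
    have h3 : A.valuation ((((u : OK A K) : K) : Qb)) *
        A.valuation ((((u⁻¹ : (OK A K)ˣ) : OK A K) : K) : Qb) = 1 := by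
      rw [← map_mul]
      have : ((((u : OK A K) : K) : Qb)) * ((((u⁻¹ : (OK A K)ˣ) : OK A K) : K) : Qb) = 1 := by
        have h4 : ((((u : OK A K) * ((u⁻¹ : (OK A K)ˣ) : OK A K) : OK A K) : K) : Qb) = 1 := by
          rw [Units.mul_inv]; rfl
        exact h4
      rw [this, map_one]
    refine le_antisymm h1 ?_
    calc (1 : A.ValueGroup) = _ := h3.symm
      _ ≤ A.valuation ((((u : OK A K) : K) : Qb)) * 1 := mul_le_mul' le_rfl h2
      _ = _ := mul_one _
  have hnonunit : ∀ x : OK A K, ¬ IsUnit x →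
      A.valuation ((x : K) : Qb) ≤ A.valuation (π : Qb) := by
    intro x hx
    by_cases hx0 : x = 0
    · rw [hx0]; simp
    obtain ⟨n, u, hnu⟩ := claim x hx0
    have hn : n ≠ 0 := by
      rintro rfl
      rw [pow_zero, one_mul] at hnu
      exact hx (hnu ▸ u.isUnit)
    have h1 : A.valuation ((x : K) : Qb) = A.valuation (π : Qb) ^ n := by
      rw [← hnu]
      push_cast
      rw [map_mul, map_pow, hval_unit u, mul_one]
    rw [h1]
    exact pow_le_of_le_one hγ0.le hγ1.le hn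
  refine ⟨⟨π, hπO⟩, rfl, ?_, claim⟩
  rw [irreducible_iff]
  constructor
  · intro hu
    obtain ⟨u, hu⟩ := hu
    have := hval_unit u
    rw [hu] at this
    exact absurd this hγ1.ne
  · intro a b hab
    by_contra hcon
    rw [not_or] at hcon
    have ha := hnonunit a hcon.1
    have hb := hnonunit b hcon.2
    have h1 : A.valuation (π : Qb) = A.valuation ((a : K) : Qb) * A.valuation ((b : K) : Qb) := by
      rw [← map_mul]
      have h2 := congrArg (fun z : OK A K => ((z : K) : Qb)) hab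
      simp only at h2
      rw [h2]
      push_cast
      rfl
    have h3 : A.valuation (π : Qb) ≤ A.valuation (π : Qb) * A.valuation (π : Qb) := by
      calc A.valuation (π : Qb) = _ := h1
        _ ≤ _ := mul_le_mul' ha hb
    have h4 : A.valuation (π : Qb) * A.valuation (π : Qb) < A.valuation (π : Qb) * 1 :=
      mul_lt_mul_of_pos_left hγ1 hγ0
    rw [mul_one] at h4
    exact absurd (lt_of_le_of_lt h3 h4) (lt_irrefl _)

/-- `O = A ∩ K` is a discrete valuation ring as soon as `K` has a uniformizer for `A`. -/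
theorem isDiscreteValuationRing_OK (A : ValuationSubring Qb)
    (K : IntermediateField ℚ Qb) (π : K) (hπ0 : π ≠ 0) (hπ : (π : Qb) ∈ A.nonunits)
    (hU : ∀ x : K, x ≠ 0 →
      ∃ k : ℤ, ((x * π ^ k : K) : Qb) ∈ A ∧ (((x * π ^ k : K) : Qb))⁻¹ ∈ A) :
    IsDiscreteValuationRing (OK A K) := by
  obtain ⟨p, -, hp, hfac⟩ := exists_irreducible_and_forall_associated A K π hπ0 hπ hU
  exact IsDiscreteValuationRing.ofHasUnitMulPowIrreducibleFactorization
    ⟨p, hp, fun {x} hx => hfac x hx⟩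

/-- **(B1)** `K = K₁(μ_n : ℓ ∤ n)` has a uniformizer for `A` lying in `K₁`. -/
theorem exists_uniformizer (A : ValuationSubring Qb) {ℓ : ℕ} (hℓ : ℓ.Prime)
    (hA : A.LiesOverPrime ℓ) (K1 : IntermediateField ℚ Qb) [FiniteDimensional ℚ K1] :
    ∃ π : baseField ℓ K1, (π : Qb) ∈ K1 ∧ π ≠ 0 ∧ (π : Qb) ∈ A.nonunits ∧
      ∀ x : baseField ℓ K1, x ≠ 0 →
        ∃ k : ℤ, ((x * π ^ k : baseField ℓ K1) : Qb) ∈ A ∧
          (((x * π ^ k : baseField ℓ K1) : Qb))⁻¹ ∈ A := by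
  obtain ⟨π, hπK, hπ0, hπA, hU⟩ := BaseUnr.exists_uniformizer A hℓ hA K1
  refine ⟨⟨π, le_baseField ℓ K1 hπK⟩, hπK, fun h => hπ0 (congrArg Subtype.val h), hπA, ?_⟩
  intro x hx
  obtain ⟨k, hk1, hk2⟩ := hU (x : Qb) x.2 (fun h => hx (Subtype.ext h))
  have hc : ((x * (⟨π, le_baseField ℓ K1 hπK⟩ : baseField ℓ K1) ^ k : baseField ℓ K1) : Qb)
      = (x : Qb) * π ^ k := by
    show algebraMap (baseField ℓ K1) Qb (x * (⟨π, le_baseField ℓ K1 hπK⟩ : baseField ℓ K1) ^ k)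
      = (x : Qb) * π ^ k
    rw [map_mul, map_zpow₀]
    rfl
  refine ⟨k, ?_, ?_⟩
  · rw [hc]; exact hk1
  · rw [hc]; exact hk2

/-- **[Base]** for `K = K₁(μ_n : ℓ ∤ n)` with `K₁/ℚ` finite. -/
theorem baseFacts (A : ValuationSubring Qb) (ℓ : ℕ) [hℓ : Fact ℓ.Prime]
    (hA : A.LiesOverPrime ℓ) (K1 : IntermediateField ℚ Qb) [FiniteDimensional ℚ K1] :
    BaseFacts ℓ A (baseField ℓ K1) := by
  obtain ⟨π, -, hπ0, hπA, hU⟩ := exists_uniformizer A hℓ.out hA K1
  refine ⟨isDiscreteValuationRing_OK A _ π hπ0 hπA hU, ?_, ?_⟩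
  · intro a
    obtain ⟨b, hb, hab⟩ := BaseRes.exists_mem_sub_mem_nonunits ℓ A hA (baseField ℓ K1)
      (fun n ζ hn hζ => rootOfUnity_mem_baseField K1 hn hζ) (a : Qb) a.2
    refine ⟨b, hb, ?_⟩
    rw [← sub_eq_zero, ← map_sub, IsLocalRing.residue_eq_zero_iff,
      ← ValuationSubring.coe_mem_nonunits_iff]
    exact hab
  · intro n ζ hn hζ
    exact rootOfUnity_mem_baseField K1 hn hζ

/-- A uniformizer of `O = A ∩ K₁(μ_n : ℓ ∤ n)` can be taken in `K₁`. -/
theorem exists_irreducible_OK (A : ValuationSubring Qb) {ℓ : ℕ} (hℓ : ℓ.Prime)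
    (hA : A.LiesOverPrime ℓ) (K1 : IntermediateField ℚ Qb) [FiniteDimensional ℚ K1] :
    ∃ p : OK A (baseField ℓ K1), Irreducible p ∧ ((p : baseField ℓ K1) : Qb) ∈ K1 ∧
      ∀ x : OK A (baseField ℓ K1), x ≠ 0 →
        ∃ n : ℕ, ∃ u : (OK A (baseField ℓ K1))ˣ, p ^ n * u = x := by
  obtain ⟨π, hπK, hπ0, hπA, hU⟩ := exists_uniformizer A hℓ hA K1
  obtain ⟨p, hpπ, hp, hfac⟩ := exists_irreducible_and_forall_associated A _ π hπ0 hπA hU
  exact ⟨p, hp, by rw [hpπ]; exact hπK, hfac⟩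

/-- **[Base]** `Arith.BaseStatement`. -/
theorem baseStatement (ℓ : ℕ) [Fact ℓ.Prime] : BaseStatement ℓ := by
  intro A hA S
  have hfin : FiniteDimensional ℚ (IntermediateField.adjoin ℚ (S : Set Qb)) :=
    IntermediateField.finiteDimensional_adjoin
      (fun x _ => (AlgebraicClosure.isAlgebraic ℚ).isIntegral.isIntegral x)
  refine ⟨baseField ℓ (IntermediateField.adjoin ℚ (S : Set Qb)), ?_, baseFacts A ℓ hA _⟩
  intro x hx
  exact le_baseField ℓ _ (IntermediateField.subset_adjoin ℚ _ hx)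

end Fermat.Agent.S18.Base
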