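/-
S18 — CechSep.lean (helper54): block [Cech] (d) of blueprint v1 — finiteness of
`H = Lm/(L0 + L∞)` over the base and its `π`-adic separatedness (the hypothesis `hsep` of
`CechRoot.exists_common_root`).  Place-free, model-free, Mathlib only.
-/
import Mathlib

set_option autoImplicit false

namespace Fermat.Agent.S18.CechSep

variable {O F : Type*} [CommRing O] [CommRing F] [Algebra O F]

/-- **Finiteness of `H¹`.**  `t` a unit of `F` (`t = j`); `L0 ⊇ O[t]·T` (`T` finite),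
`Li` stable under `t⁻¹` and containing `t⁻¹^a g` for suitable `a` (`g ∈ T`), every element of
`Lm` an `O`-combination of the `t^n g` (`n ∈ ℤ`, `g ∈ T`).  Then `Lm ≤ L0 + Li + G` with `G` a
finitely generated `O`-module spanned by some of the `t⁻¹^n g`. -/
theorem exists_fg_le_sup (t : Fˣ) (L0 Li Lm : Submodule O F) (T : Finset F)
    (hT : ∀ g ∈ T, ∀ n : ℕ, (t : F) ^ n * g ∈ L0)
    (hLi' : ∀ x ∈ Li, ((t⁻¹ : Fˣ) : F) * x ∈ Li)
    (hTi : ∀ g ∈ T, ∃ a : ℕ, ((t⁻¹ : Fˣ) : F) ^ a * g ∈ Li)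
    (hLm : ∀ x ∈ Lm, x ∈ Submodule.span O {y | ∃ g ∈ T, ∃ n : ℤ, y = ((t ^ n : Fˣ) : F) * g})
    (hLm' : ∀ g ∈ T, ∀ n : ℤ, ((t ^ n : Fˣ) : F) * g ∈ Lm) :
    ∃ G : Submodule O F, G.FG ∧ G ≤ Lm ∧ Lm ≤ L0 ⊔ Li ⊔ G := by
  classical
  choose! a ha using hTi
  have hLipow : ∀ (k : ℕ), ∀ x ∈ Li, ((t⁻¹ : Fˣ) : F) ^ k * x ∈ Li := by
    intro k
    induction k with
    | zero => intro x hx; simpa using hx
    | succ k ih =>
      intro x hx
      rw [pow_succ, mul_assoc]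
      exact ih _ (hLi' x hx)
  set G0 : Set F := ⋃ g ∈ (T : Set F), (fun n : ℕ => ((t⁻¹ : Fˣ) : F) ^ n * g) '' (Finset.range (a g))
    with hG0
  have hG0fin : G0.Finite :=
    Set.Finite.biUnion T.finite_toSet fun g _ => Set.Finite.image _ (Finset.finite_toSet _)
  refine ⟨Submodule.span O G0, Submodule.fg_span hG0fin, ?_, ?_⟩
  · refine Submodule.span_le.mpr ?_
    intro y hy
    rw [hG0] at hy
    obtain ⟨g, hg, hy⟩ := Set.mem_iUnion₂.mp hy
    obtain ⟨n, -, rfl⟩ := hy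
    have h := hLm' g (Finset.mem_coe.mp hg) (-(n : ℤ))
    rwa [zpow_neg, zpow_natCast, ← inv_pow, Units.val_pow_eq_pow_val] at h
  · intro x hx
    refine Submodule.span_le.mpr ?_ (hLm x hx)
    rintro y ⟨g, hg, n, rfl⟩
    obtain ⟨k, rfl | rfl⟩ := Int.eq_nat_or_neg n
    · rw [zpow_natCast, Units.val_pow_eq_pow_val]
      exact Submodule.mem_sup_left (Submodule.mem_sup_left (hT g hg k))
    · rw [zpow_neg, zpow_natCast, ← inv_pow, Units.val_pow_eq_pow_val]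
      rcases Nat.lt_or_ge k (a g) with hk | hk
      · refine Submodule.mem_sup_right (Submodule.subset_span ?_)
        rw [hG0]
        exact Set.mem_biUnion (Finset.mem_coe.mpr hg)
          ⟨k, Finset.mem_coe.mpr (Finset.mem_range.mpr hk), rfl⟩
      · refine Submodule.mem_sup_left (Submodule.mem_sup_right ?_)
        have h1 : ((t⁻¹ : Fˣ) : F) ^ k * g
            = ((t⁻¹ : Fˣ) : F) ^ (k - a g) * (((t⁻¹ : Fˣ) : F) ^ a g * g) := by
          rw [← mul_assoc, ← pow_add]; congr 2; omega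
        rw [h1]
        exact hLipow _ _ (ha g hg)

/-- **Separatedness from finiteness** (abstract form): if `Lm ≤ P + G` with `G ≤ Lm` finitely
generated and `P ≤ Lm`, over a noetherian local ring with `π` in the maximal ideal, then
`x ∈ P + π^n Lm` for all `n` implies `x ∈ P`. -/
theorem mem_of_forall_mem_sup_smul [IsNoetherianRing O] [IsLocalRing O] (π : O)
    (hπ : π ∈ IsLocalRing.maximalIdeal O) (P Lm G : Submodule O F) (hP : P ≤ Lm) (hG : G.FG)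
    (hGLm : G ≤ Lm) (hLm : Lm ≤ P ⊔ G) (x : F) (hx : x ∈ Lm)
    (h : ∀ n : ℕ, ∃ u ∈ P, ∃ y ∈ Lm, x = u + π ^ n • y) : x ∈ P := by
  -- the quotient `H = Lm / (P ∩ Lm)`
  set P' : Submodule O Lm := P.comap Lm.subtype with hP'
  have hfinG : Module.Finite O G := Module.Finite.iff_fg.mpr hG
  let f : G →ₗ[O] (Lm ⧸ P') := P'.mkQ.comp (Submodule.inclusion hGLm)
  have hsurj : Function.Surjective f := by
    intro q
    obtain ⟨⟨y, hy⟩, rfl⟩ := Submodule.mkQ_surjective P' q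
    obtain ⟨u, hu, g, hg, rfl⟩ := Submodule.mem_sup.mp (hLm hy)
    refine ⟨⟨g, hg⟩, ?_⟩
    change P'.mkQ (Submodule.inclusion hGLm ⟨g, hg⟩) = P'.mkQ ⟨u + g, hy⟩
    rw [← sub_eq_zero, ← map_sub, Submodule.mkQ_apply, Submodule.Quotient.mk_eq_zero, hP',
      Submodule.mem_comap]
    have : Lm.subtype (Submodule.inclusion hGLm ⟨g, hg⟩ - ⟨u + g, hy⟩) = -u := by
      simp
    rw [this]
    exact P.neg_mem hu
  have hfinQ : Module.Finite O (Lm ⧸ P') := Module.Finite.of_surjective f hsurj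
  have hI : Ideal.span {π} ≠ (⊤ : Ideal O) := by
    intro htop
    rw [Ideal.span_singleton_eq_top] at htop
    exact hπ htop
  have hkrull := Ideal.iInf_pow_smul_eq_bot_of_isLocalRing (M := Lm ⧸ P') (Ideal.span {π}) hI
  have hzero : P'.mkQ ⟨x, hx⟩ = 0 := by
    have hmem : P'.mkQ ⟨x, hx⟩ ∈ (⨅ i : ℕ, Ideal.span {π} ^ i • ⊤ : Submodule O (Lm ⧸ P')) := by
      rw [Submodule.mem_iInf]
      intro n
      obtain ⟨u, hu, y, hy, hxy⟩ := h n
      have h1 : (⟨x, hx⟩ : Lm) = ⟨u, hP hu⟩ + π ^ n • ⟨y, hy⟩ := Subtype.ext hxy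
      have h2 : P'.mkQ ⟨u, hP hu⟩ = 0 := by
        rw [Submodule.mkQ_apply, Submodule.Quotient.mk_eq_zero, hP', Submodule.mem_comap]
        exact hu
      rw [h1, map_add, h2, zero_add, map_smul]
      exact Submodule.smul_mem_smul (Ideal.pow_mem_pow (Ideal.mem_span_singleton_self π) n)
        Submodule.mem_top
    rw [hkrull] at hmem
    exact (Submodule.mem_bot O).mp hmem
  rw [Submodule.mkQ_apply, Submodule.Quotient.mk_eq_zero, hP', Submodule.mem_comap] at hzero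
  exact hzero

/-- **Block [Cech] (d)**: the hypothesis `hsep` of `CechRoot.exists_common_root`. -/
theorem sep_of_fg [IsNoetherianRing O] [IsLocalRing O] (π : O)
    (hπ : π ∈ IsLocalRing.maximalIdeal O) (t : Fˣ) (L0 Li Lm : Submodule O F) (hL0 : L0 ≤ Lm)
    (hLi : Li ≤ Lm) (T : Finset F) (hT : ∀ g ∈ T, ∀ n : ℕ, (t : F) ^ n * g ∈ L0)
    (hLi' : ∀ x ∈ Li, ((t⁻¹ : Fˣ) : F) * x ∈ Li)
    (hTi : ∀ g ∈ T, ∃ a : ℕ, ((t⁻¹ : Fˣ) : F) ^ a * g ∈ Li)
    (hLm : ∀ x ∈ Lm, x ∈ Submodule.span O {y | ∃ g ∈ T, ∃ n : ℤ, y = ((t ^ n : Fˣ) : F) * g})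
    (hLm' : ∀ g ∈ T, ∀ n : ℤ, ((t ^ n : Fˣ) : F) * g ∈ Lm) :
    ∀ x ∈ Lm, (∀ n : ℕ, ∃ y0 ∈ L0, ∃ yi ∈ Li, ∃ ym ∈ Lm,
        x = y0 + yi + algebraMap O F π ^ n * ym) → ∃ y0 ∈ L0, ∃ yi ∈ Li, x = y0 + yi := by
  obtain ⟨G, hG, hGLm, hLmG⟩ := exists_fg_le_sup t L0 Li Lm T hT hLi' hTi hLm hLm'
  intro x hx h
  have hmem : x ∈ L0 ⊔ Li := by
    refine mem_of_forall_mem_sup_smul π hπ (L0 ⊔ Li) Lm G (sup_le hL0 hLi) hG hGLm hLmG x hx ?_
    intro n
    obtain ⟨y0, hy0, yi, hyi, ym, hym, hxy⟩ := h n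
    refine ⟨y0 + yi, Submodule.add_mem_sup hy0 hyi, ym, hym, ?_⟩
    rw [hxy, Algebra.smul_def, map_pow]
  obtain ⟨y0, hy0, yi, hyi, rfl⟩ := Submodule.mem_sup.mp hmem
  exact ⟨y0, hy0, yi, hyi, rfl⟩

end Fermat.Agent.S18.CechSep
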