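import Fermat.Agent.S18.CechPlan

/-!
# S18, block [Cech], leaf [Cech-L] : basic facts on the modules `L(R) = {h : w h^m ∈ R}`
-/

set_option autoImplicit false

namespace Fermat.Agent.S18.CechL

open Fermat.Agent.S18.CechPlan

variable {O : Type*} [CommRing O] [IsDomain O] [IsDiscreteValuationRing O]
  {E : Type*} [Field E] [Algebra O E] (S : Setting O E)

theorem m_pos : 0 < S.m := by
  rcases Nat.eq_zero_or_pos S.m with h | h
  · have := S.hm
    rw [h, Nat.cast_zero] at this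
    exact absurd this not_isUnit_zero
  · exact h

theorem pi_ne_zero : algebraMap O E S.π ≠ 0 := by
  intro h
  exact S.irr.ne_zero (S.inj (by rw [h, map_zero]))

theorem one_mem_Rm (hR : S.LeafR) : (1 : E) ∈ S.Rm := hR.of_R0 1 S.R0.one_mem

theorem zero_mem_Rm (hR : S.LeafR) : (0 : E) ∈ S.Rm := hR.of_R0 0 S.R0.zero_mem

theorem pi_mem_R0 : algebraMap O E S.π ∈ S.R0 := S.R0.algebraMap_mem S.π

theorem pi_mem_Rinf : algebraMap O E S.π ∈ S.Rinf := S.Rinf.algebraMap_mem S.π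

theorem pi_mem_Rm (hR : S.LeafR) : algebraMap O E S.π ∈ S.Rm := hR.of_R0 _ (pi_mem_R0 S)

/-- Elements of `R0` outside `π R0` are outside `π Rm`. -/
theorem not_piDvd_Rm_of (hR : S.LeafR) (s : S.R0)
    (hs : s ∉ Ideal.span {algebraMap O S.R0 S.π}) : ¬ S.PiDvd S.Rm (s : E) := by
  intro h
  obtain ⟨z, hz, hsz⟩ := hR.desc0 _ s.2 h
  apply hs
  rw [Ideal.mem_span_singleton]
  refine ⟨⟨z, hz⟩, ?_⟩
  apply Subtype.ext
  simpa using hsz

theorem w_sub_one (hR : S.LeafR) : S.PiDvd S.V (S.w - 1) := by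
  obtain ⟨s, hs, r, hr⟩ := S.hw
  have hs0 : (s : E) ≠ 0 := by
    intro h0
    apply hs
    have : s = 0 := Subtype.ext (by simpa using h0)
    rw [this]
    exact Ideal.zero_mem _
  refine ⟨(r : E) / (s : E), ⟨(s : E), hR.of_R0 _ s.2, not_piDvd_Rm_of S hR s hs, ?_⟩, ?_⟩
  · rw [mul_div_cancel₀ _ hs0]
    exact hR.of_R0 _ r.2
  · field_simp
    linear_combination hr

theorem one_mem_V (hR : S.LeafR) (hV : S.LeafV) : (1 : E) ∈ S.V := hV.of_Rm 1 (one_mem_Rm S hR)

theorem pi_mem_V (hR : S.LeafR) (hV : S.LeafV) : algebraMap O E S.π ∈ S.V :=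
  hV.of_Rm _ (pi_mem_Rm S hR)

theorem w_mem (hR : S.LeafR) (hV : S.LeafV) : S.w ∈ S.V := by
  obtain ⟨z, hz, hwz⟩ := w_sub_one S hR
  have : S.w = 1 + algebraMap O E S.π * z := by linear_combination hwz
  rw [this]
  exact hV.add_mem _ (one_mem_V S hR hV) _ (hV.mul_mem _ (pi_mem_V S hR hV) _ hz)

theorem w_inv_mem (hR : S.LeafR) (hV : S.LeafV) : S.w⁻¹ ∈ S.V := by
  refine hV.inv_mem _ (w_mem S hR hV) ?_
  rintro ⟨z, hz, hwz⟩
  obtain ⟨z', hz', hwz'⟩ := w_sub_one S hR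
  apply hV.one_not
  refine ⟨z + -z', hV.add_mem _ hz _ (hV.neg_mem _ hz'), ?_⟩
  linear_combination hwz - hwz'

/-- Abstract product lemma for a multiplicatively closed, `m`-root closed subset. -/
theorem prod_mem_of (R : Set E) (h1 : (1 : E) ∈ R) (hmul : ∀ x ∈ R, ∀ y ∈ R, x * y ∈ R)
    (hroot : ∀ x : E, x ^ S.m ∈ R → x ∈ R) (y : Fin S.m → E) (hy : ∀ i, y i ∈ S.L R) :
    S.w * ∏ i, y i ∈ R := by
  apply hroot
  have h : (S.w * ∏ i, y i) ^ S.m = ∏ i, (S.w * y i ^ S.m) := by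
    rw [mul_pow, Finset.prod_mul_distrib, Finset.prod_const, Finset.card_univ, Fintype.card_fin,
      Finset.prod_pow]
  rw [h]
  have key : ∀ s : Finset (Fin S.m), ∏ i ∈ s, (S.w * y i ^ S.m) ∈ R := by
    intro s
    induction s using Finset.induction_on with
    | empty => simpa using h1
    | insert a s ha ih =>
      rw [Finset.prod_insert ha]
      exact hmul _ (hy a) _ ih
  exact key _

/-- Mixed monomials `w x^i y^(m-i)` lie in `R`. -/
theorem mixed_mem_of (R : Set E) (h1 : (1 : E) ∈ R) (hmul : ∀ x ∈ R, ∀ y ∈ R, x * y ∈ R)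
    (hroot : ∀ x : E, x ^ S.m ∈ R → x ∈ R) {x y : E} (hx : x ∈ S.L R) (hy : y ∈ S.L R)
    (i : ℕ) (hi : i ≤ S.m) : S.w * (x ^ i * y ^ (S.m - i)) ∈ R := by
  have h := prod_mem_of S R h1 hmul hroot (fun k : Fin S.m => if (k : ℕ) < i then x else y)
    (fun k => by split_ifs <;> assumption)
  have h2 : ∏ k : Fin S.m, (if (k : ℕ) < i then x else y) = x ^ i * y ^ (S.m - i) := by
    rw [Fin.prod_univ_eq_prod_range (fun k => if k < i then x else y) S.m,
      Finset.prod_ite, Finset.prod_const, Finset.prod_const]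
    congr 2
    · have : (Finset.range S.m).filter (fun k => k < i) = Finset.range i := by
        ext k
        simp only [Finset.mem_filter, Finset.mem_range]
        omega
      rw [this, Finset.card_range]
    · have : (Finset.range S.m).filter (fun k => ¬ k < i) = Finset.Ico i S.m := by
        ext k
        simp only [Finset.mem_filter, Finset.mem_range, not_lt, Finset.mem_Ico]
        tauto
      rw [this, Nat.card_Ico]
  rw [h2] at h
  exact h

theorem nsmul_mem_of (R : Set E) (h0 : (0 : E) ∈ R) (hadd : ∀ x ∈ R, ∀ y ∈ R, x + y ∈ R)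
    (n : ℕ) {x : E} (hx : x ∈ R) : (n : E) * x ∈ R := by
  induction n with
  | zero => simpa using h0
  | succ k ih =>
    have : ((k + 1 : ℕ) : E) * x = (k : E) * x + x := by push_cast; ring
    rw [this]
    exact hadd _ ih _ hx

theorem add_mem_of (R : Set E) (h0 : (0 : E) ∈ R) (h1 : (1 : E) ∈ R)
    (hadd : ∀ x ∈ R, ∀ y ∈ R, x + y ∈ R) (hmul : ∀ x ∈ R, ∀ y ∈ R, x * y ∈ R)
    (hroot : ∀ x : E, x ^ S.m ∈ R → x ∈ R) {x y : E} (hx : x ∈ S.L R) (hy : y ∈ S.L R) :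
    x + y ∈ S.L R := by
  show S.w * (x + y) ^ S.m ∈ R
  rw [add_pow, Finset.mul_sum]
  have key : ∀ s : Finset ℕ, (∀ i ∈ s, i ≤ S.m) →
      ∑ i ∈ s, S.w * (x ^ i * y ^ (S.m - i) * (S.m.choose i : E)) ∈ R := by
    intro s
    induction s using Finset.induction_on with
    | empty => intro _; simpa using h0
    | insert a s ha ih =>
      intro hs
      rw [Finset.sum_insert ha]
      refine hadd _ ?_ _ (ih fun i hi => hs i (Finset.mem_insert_of_mem hi))
      have h3 := nsmul_mem_of R h0 hadd (S.m.choose a)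
        (mixed_mem_of S R h1 hmul hroot hx hy a (hs a (Finset.mem_insert_self _ _)))
      have h4 : S.w * (x ^ a * y ^ (S.m - a) * (S.m.choose a : E)) =
          (S.m.choose a : E) * (S.w * (x ^ a * y ^ (S.m - a))) := by ring
      rw [h4]
      exact h3
  exact key _ fun i hi => Nat.lt_succ_iff.mp (Finset.mem_range.mp hi)

theorem smul_mem_of (R : Set E) (hmul : ∀ x ∈ R, ∀ y ∈ R, x * y ∈ R) (h1 : (1 : E) ∈ R)
    {r y : E} (hr : r ∈ R) (hy : y ∈ S.L R) : r * y ∈ S.L R := by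
  show S.w * (r * y) ^ S.m ∈ R
  have : S.w * (r * y) ^ S.m = r ^ S.m * (S.w * y ^ S.m) := by ring
  rw [this]
  have hpow : ∀ n : ℕ, r ^ n ∈ R := by
    intro n
    induction n with
    | zero => simpa using h1
    | succ k ih => rw [pow_succ]; exact hmul _ ih _ hr
  exact hmul _ (hpow _) _ hy

theorem subV (hR : S.LeafR) (hV : S.LeafV) {y : E} (hy : y ∈ S.L S.Rm) : y ∈ S.V := by
  apply hV.root
  have h : y ^ S.m = S.w⁻¹ * (S.w * y ^ S.m) := by
    have hw0 : S.w ≠ 0 := by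
      intro h0
      have := w_inv_mem S hR hV
      obtain ⟨z', hz', hwz'⟩ := w_sub_one S hR
      apply hV.one_not
      refine ⟨-z', hV.neg_mem _ hz', ?_⟩
      rw [h0] at hwz'
      linear_combination -hwz'
    field_simp
  rw [h]
  exact hV.mul_mem _ (w_inv_mem S hR hV) _ (hV.of_Rm _ hy)

/-- `t ∈ V`, `π^k t ∈ Rm` ⟹ `t ∈ Rm`. -/
theorem mem_Rm_of_pow_mul (hV : S.LeafV) (k : ℕ) {t : E} (ht : t ∈ S.V)
    (h : algebraMap O E S.π ^ k * t ∈ S.Rm) (hπV : algebraMap O E S.π ∈ S.V) : t ∈ S.Rm := by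
  induction k generalizing t with
  | zero => simpa using h
  | succ k ih =>
    have h1 : algebraMap O E S.π ^ (k + 1) * t = algebraMap O E S.π * (algebraMap O E S.π ^ k * t) := by
      ring
    rw [h1] at h
    have hkV : algebraMap O E S.π ^ k * t ∈ S.V := by
      refine hV.mul_mem _ ?_ _ ht
      clear ih h h1
      induction k with
      | zero =>
        simp only [pow_zero]
        exact hV.of_Rm 1 ⟨0, by simp⟩
      | succ n ihn => rw [pow_succ]; exact hV.mul_mem _ ihn _ hπV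
    obtain ⟨z, hz, hzz⟩ := hV.desc _ h ⟨_, hkV, rfl⟩
    have : algebraMap O E S.π ^ k * t = z := mul_left_cancel₀ (pi_ne_zero S) hzz
    exact ih ht (this ▸ hz)

/-- `t ∈ Rm`, `π^k t ∈ R0` ⟹ `t ∈ R0`. -/
theorem mem_R0_of_pow_mul (hR : S.LeafR) (k : ℕ) {t : E} (ht : t ∈ S.Rm)
    (h : algebraMap O E S.π ^ k * t ∈ S.R0) : t ∈ S.R0 := by
  induction k generalizing t with
  | zero => simpa using h
  | succ k ih =>
    have h1 : algebraMap O E S.π ^ (k + 1) * t = algebraMap O E S.π * (algebraMap O E S.π ^ k * t) := by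
      ring
    rw [h1] at h
    have hkm : algebraMap O E S.π ^ k * t ∈ S.Rm := by
      refine hR.mul_mem _ ?_ _ ht
      exact hR.of_R0 _ (S.R0.pow_mem (pi_mem_R0 S) k)
    obtain ⟨z, hz, hzz⟩ := hR.desc0 _ h ⟨_, hkm, rfl⟩
    have : algebraMap O E S.π ^ k * t = z := mul_left_cancel₀ (pi_ne_zero S) hzz
    exact ih ht (this ▸ hz)

/-- `t ∈ Rm`, `π^k t ∈ Rinf` ⟹ `t ∈ Rinf`. -/
theorem mem_Rinf_of_pow_mul (hR : S.LeafR) (k : ℕ) {t : E} (ht : t ∈ S.Rm)
    (h : algebraMap O E S.π ^ k * t ∈ S.Rinf) : t ∈ S.Rinf := by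
  induction k generalizing t with
  | zero => simpa using h
  | succ k ih =>
    have h1 : algebraMap O E S.π ^ (k + 1) * t = algebraMap O E S.π * (algebraMap O E S.π ^ k * t) := by
      ring
    rw [h1] at h
    have hkm : algebraMap O E S.π ^ k * t ∈ S.Rm := by
      refine hR.mul_mem _ ?_ _ ht
      exact hR.of_Rinf _ (S.Rinf.pow_mem (pi_mem_Rinf S) k)
    obtain ⟨z, hz, hzz⟩ := hR.descInf _ h ⟨_, hkm, rfl⟩
    have : algebraMap O E S.π ^ k * t = z := mul_left_cancel₀ (pi_ne_zero S) hzz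
    exact ih ht (this ▸ hz)

/-- Key descent: `y = π z` with `z ∈ V` and `w y^m ∈ Rm` ⟹ `w z^m ∈ Rm`. -/
theorem descM_aux (hR : S.LeafR) (hV : S.LeafV) {y z : E} (hy : y ∈ S.L S.Rm) (hz : z ∈ S.V)
    (hyz : y = algebraMap O E S.π * z) : S.w * z ^ S.m ∈ S.Rm := by
  have hzm : z ^ S.m ∈ S.V := by
    have : ∀ n : ℕ, z ^ n ∈ S.V := by
      intro n
      induction n with
      | zero => simpa using one_mem_V S hR hV
      | succ k ih => rw [pow_succ]; exact hV.mul_mem _ ih _ hz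
    exact this _
  refine mem_Rm_of_pow_mul S hV S.m (hV.mul_mem _ (w_mem S hR hV) _ hzm) ?_ (pi_mem_V S hR hV)
  have : algebraMap O E S.π ^ S.m * (S.w * z ^ S.m) = S.w * y ^ S.m := by rw [hyz]; ring
  rw [this]
  exact hy

theorem leafL (hR : S.LeafR) (hV : S.LeafV) : S.LeafL where
  w_mem := w_mem S hR hV
  w_sub_one := w_sub_one S hR
  prod0 := prod_mem_of S _ S.R0.one_mem (fun _ hx _ hy => S.R0.mul_mem hx hy) S.root0
  prodInf := prod_mem_of S _ S.Rinf.one_mem (fun _ hx _ hy => S.Rinf.mul_mem hx hy) S.rootInf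
  prodM := prod_mem_of S _ (one_mem_Rm S hR) hR.mul_mem hR.root
  add0 := fun _ hx _ hy => add_mem_of S _ S.R0.zero_mem S.R0.one_mem
    (fun _ hx _ hy => S.R0.add_mem hx hy) (fun _ hx _ hy => S.R0.mul_mem hx hy) S.root0 hx hy
  addInf := fun _ hx _ hy => add_mem_of S _ S.Rinf.zero_mem S.Rinf.one_mem
    (fun _ hx _ hy => S.Rinf.add_mem hx hy) (fun _ hx _ hy => S.Rinf.mul_mem hx hy) S.rootInf
    hx hy
  addM := fun _ hx _ hy => add_mem_of S _ (zero_mem_Rm S hR) (one_mem_Rm S hR) hR.add_mem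
    hR.mul_mem hR.root hx hy
  smul0 := fun _ hr _ hy =>
    smul_mem_of S _ (fun _ hx _ hy => S.R0.mul_mem hx hy) S.R0.one_mem hr hy
  smulInf := fun _ hr _ hy =>
    smul_mem_of S _ (fun _ hx _ hy => S.Rinf.mul_mem hx hy) S.Rinf.one_mem hr hy
  smulM := fun _ hr _ hy => smul_mem_of S _ hR.mul_mem (one_mem_Rm S hR) hr hy
  subV := fun _ hy => subV S hR hV hy
  desc0 := by
    rintro y hy ⟨z, hz, hyz⟩
    have hyM : y ∈ S.L S.Rm := hR.of_R0 _ hy
    have h1 := descM_aux S hR hV hyM hz hyz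
    refine ⟨z, ?_, hyz⟩
    refine mem_R0_of_pow_mul S hR S.m h1 ?_
    have : algebraMap O E S.π ^ S.m * (S.w * z ^ S.m) = S.w * y ^ S.m := by rw [hyz]; ring
    rw [this]
    exact hy
  descInf := by
    rintro y hy ⟨z, hz, hyz⟩
    have hyM : y ∈ S.L S.Rm := hR.of_Rinf _ hy
    have h1 := descM_aux S hR hV hyM hz hyz
    refine ⟨z, ?_, hyz⟩
    refine mem_Rinf_of_pow_mul S hR S.m h1 ?_
    have : algebraMap O E S.π ^ S.m * (S.w * z ^ S.m) = S.w * y ^ S.m := by rw [hyz]; ring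
    rw [this]
    exact hy
  descM := by
    rintro y hy ⟨z, hz, hyz⟩
    exact ⟨z, descM_aux S hR hV hy hz hyz, hyz⟩
  iff0 := by
    intro y
    have hm := m_pos S
    constructor
    · rintro ⟨n, hn⟩
      refine ⟨n, ?_⟩
      show S.w * (y * S.j ^ n) ^ S.m ∈ S.R0
      have : S.w * (y * S.j ^ n) ^ S.m = S.w * y ^ S.m * S.j ^ n * (S.j ^ n) ^ (S.m - 1) := by
        have h2 : (S.j ^ n) ^ S.m = S.j ^ n * (S.j ^ n) ^ (S.m - 1) := by
          rw [← pow_succ']
          congr 1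
          omega
        rw [mul_pow, h2]
        ring
      rw [this]
      exact S.R0.mul_mem hn (S.R0.pow_mem (S.R0.pow_mem S.j_mem n) _)
    · rintro ⟨n, hn⟩
      refine ⟨n * S.m, ?_⟩
      have h3 : S.w * (y * S.j ^ n) ^ S.m ∈ S.R0 := hn
      have : S.w * y ^ S.m * S.j ^ (n * S.m) = S.w * (y * S.j ^ n) ^ S.m := by
        rw [mul_pow, ← pow_mul]
        ring
      rw [this]
      exact h3
  iffInf := by
    intro y
    have hm := m_pos S
    constructor
    · intro hy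
      obtain ⟨n, hn⟩ := (hR.iff_inf _).mp hy
      refine ⟨n, ?_⟩
      show S.w * (y * S.j⁻¹ ^ n) ^ S.m ∈ S.Rinf
      have : S.w * (y * S.j⁻¹ ^ n) ^ S.m =
          S.w * y ^ S.m * S.j⁻¹ ^ n * (S.j⁻¹ ^ n) ^ (S.m - 1) := by
        have h2 : (S.j⁻¹ ^ n) ^ S.m = S.j⁻¹ ^ n * (S.j⁻¹ ^ n) ^ (S.m - 1) := by
          rw [← pow_succ']
          congr 1
          omega
        rw [mul_pow, h2]
        ring
      rw [this]
      exact S.Rinf.mul_mem hn (S.Rinf.pow_mem (S.Rinf.pow_mem S.jinv_mem n) _)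
    · rintro ⟨n, hn⟩
      refine (hR.iff_inf _).mpr ⟨n * S.m, ?_⟩
      have h3 : S.w * (y * S.j⁻¹ ^ n) ^ S.m ∈ S.Rinf := hn
      have : S.w * y ^ S.m * S.j⁻¹ ^ (n * S.m) = S.w * (y * S.j⁻¹ ^ n) ^ S.m := by
        rw [mul_pow, ← pow_mul]
        ring
      rw [this]
      exact h3

end Fermat.Agent.S18.CechL
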