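/-
S18 — CechRoot.lean (owner: helper93).  Blueprint v1 (helper9), block [Cech], steps (c)+(d):
the place-free lifting induction for an `m`-th root on a two-chart cover.

`E` is any commutative ring (in the application the function field `F_K`), `π` a non-zero-divisor
(the uniformizer), `m` invertible (`ℓ ∤ m`), `R0, Ri ≤ Rm` the coordinate rings of the two charts
and of their intersection, `L0, Li ≤ Lm` the modules `{h | w h^m ∈ R•}`.  Given approximate roots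
`a1 ∈ L0`, `b1 ∈ Li` (`w a1^m ≡ 1`, `w b1^m ≡ 1`, `a1 ≡ b1` modulo `π`), the generation property
`Lm = Rm a1 + π Lm` and `π`-adic separatedness of `Lm / (L0 + Li)`, there is a common element
`h ∈ L0 ∩ Li` with `h ≡ a1` modulo `π L0`.
-/
import Mathlib

set_option autoImplicit false

namespace Fermat.Agent.S18.CechRoot

variable {E : Type*} [CommRing E]

/-- `(1 - t)^m = 1 - m t + t² ρ` with `ρ` in any subring containing `t`. -/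
theorem one_sub_pow_expand (S : Subring E) {t : E} (ht : t ∈ S) (m : ℕ) :
    ∃ ρ ∈ S, (1 - t) ^ m = 1 - (m : E) * t + t ^ 2 * ρ := by
  induction m with
  | zero => exact ⟨0, S.zero_mem, by simp⟩
  | succ m ih =>
    obtain ⟨ρ, hρ, h⟩ := ih
    refine ⟨(m : E) + ρ - t * ρ, S.sub_mem (S.add_mem (natCast_mem S m) hρ) (S.mul_mem ht hρ), ?_⟩
    rw [pow_succ, h]
    push_cast
    ring

/-- `w (A - P y)^m = w A^m + P ρ` with `ρ` in a subring containing `P` and the mixed products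
`w y^i A^(m-i)`. -/
theorem sub_pow_expand (S : Subring E) (w A y P : E) (m : ℕ) (hP : P ∈ S)
    (h : ∀ i ≤ m, w * y ^ i * A ^ (m - i) ∈ S) :
    ∃ ρ ∈ S, w * (A - P * y) ^ m = w * A ^ m + P * ρ := by
  refine ⟨∑ k ∈ Finset.range m, (-1) ^ (k + 1) * P ^ k * (m.choose (k + 1) : E) *
    (w * y ^ (k + 1) * A ^ (m - (k + 1))), ?_, ?_⟩
  · refine S.sum_mem fun k hk => ?_
    have hk' : k + 1 ≤ m := Finset.mem_range.1 hk
    exact S.mul_mem (S.mul_mem (S.mul_mem (S.pow_mem (S.neg_mem S.one_mem) _) (S.pow_mem hP _))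
      (natCast_mem S _)) (h _ hk')
  · have e : A - P * y = -(P * y) + A := by ring
    rw [e, add_pow, Finset.sum_range_succ', mul_add, Finset.mul_sum, Finset.mul_sum]
    simp only [pow_zero, Nat.sub_zero, Nat.choose_zero_right, Nat.cast_one, mul_one, one_mul]
    rw [add_comm]
    congr 1
    refine Finset.sum_congr rfl fun k _ => ?_
    rw [neg_pow, mul_pow, pow_succ P k]
    ring

theorem pow_mul_cancel (π : E) (hπ : ∀ x : E, π * x = 0 → x = 0) (n : ℕ) {x : E}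
    (h : π ^ n * x = 0) : x = 0 := by
  induction n with
  | zero => simpa using h
  | succ n ih =>
    apply ih
    apply hπ
    rw [← mul_assoc, ← pow_succ']
    exact h

/-- The data at stage `n` (level `π^(n+1)`) of the induction. -/
def Stage (π w : E) (m : ℕ) (R0 Ri : Subring E) (L0 Li Lm : AddSubgroup E) (a1 b1 : E) (n : ℕ)
    (a b : E) : Prop :=
  a ∈ L0 ∧ b ∈ Li ∧ (∃ l ∈ L0, a - a1 = π * l) ∧ (∃ l ∈ Li, b - b1 = π * l) ∧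
    (∃ x ∈ Lm, a - b = π ^ (n + 1) * x) ∧ (∃ α ∈ R0, w * a ^ m = 1 + π ^ (n + 1) * α) ∧
    (∃ β ∈ Ri, w * b ^ m = 1 + π ^ (n + 1) * β)

section Main

variable (π : E) (hπ : ∀ x : E, π * x = 0 → x = 0) (m : ℕ) (R0 Ri Rm : Subring E)
  (h0m : R0 ≤ Rm) (him : Ri ≤ Rm) (hπ0 : π ∈ R0) (hπi : π ∈ Ri)
  (μ : E) (hμ0 : μ ∈ R0) (hμi : μ ∈ Ri) (hμ : (m : E) * μ = 1)
  (w : E) (L0 Li Lm : AddSubgroup E) (hL0m : L0 ≤ Lm)
  (smul0 : ∀ r ∈ R0, ∀ x ∈ L0, r * x ∈ L0) (smuli : ∀ r ∈ Ri, ∀ x ∈ Li, r * x ∈ Li)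
  (smulm : ∀ r ∈ Rm, ∀ x ∈ Lm, r * x ∈ Lm)
  (hwm : ∀ x ∈ Lm, ∀ y ∈ Lm, ∀ i ≤ m, w * x ^ i * y ^ (m - i) ∈ Rm)
  (a1 b1 : E)
  (hgen : ∀ x ∈ Lm, ∃ c ∈ Rm, ∃ x' ∈ Lm, x = c * a1 + π * x')

include hπ h0m him hπ0 hπi hμ0 hμi hμ hL0m smul0 smuli smulm hwm hgen in
/-- Induction step (c) of the blueprint. -/
theorem stage_succ (n : ℕ) (a b : E) (h : Stage π w m R0 Ri L0 Li Lm a1 b1 n a b) :
    ∃ a' b', Stage π w m R0 Ri L0 Li Lm a1 b1 (n + 1) a' b' := by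
  obtain ⟨ha, hb, ⟨l, hl, hal⟩, ⟨l', hl', hbl⟩, ⟨x, hx, hab⟩, ⟨α, hα, hwa⟩, ⟨β, hβ, hwb⟩⟩ := h
  have hπm : π ∈ Rm := h0m hπ0
  -- `x = c a + π x''`
  obtain ⟨c, hc, x', hx', hxc'⟩ := hgen x hx
  have hx'' : x' - c * l ∈ Lm := Lm.sub_mem hx' (smulm c hc l (hL0m hl))
  have hxc : x = c * a + π * (x' - c * l) := by
    linear_combination hxc' - c * hal
  -- the key congruence `β = α - m c + π ρ`
  have hPm : π ^ (n + 1) ∈ Rm := Rm.pow_mem hπm _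
  have hAm : (1 - π ^ (n + 1) * c) * a ∈ Lm :=
    smulm _ (Rm.sub_mem Rm.one_mem (Rm.mul_mem hPm hc)) a (hL0m ha)
  obtain ⟨ρ₁, hρ₁, e1⟩ := sub_pow_expand Rm w ((1 - π ^ (n + 1) * c) * a) (x' - c * l)
    (π * π ^ (n + 1)) m (Rm.mul_mem hπm hPm) (fun i hi => hwm _ hx'' _ hAm i hi)
  obtain ⟨ρ₂, hρ₂, e2⟩ := one_sub_pow_expand Rm (Rm.mul_mem hPm hc) m
  have hbA : b = (1 - π ^ (n + 1) * c) * a - π * π ^ (n + 1) * (x' - c * l) := by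
    linear_combination (-1 : E) * hab - π ^ (n + 1) * hxc
  have hρm : π ^ n * (c ^ 2 * ρ₂ * (1 + π ^ (n + 1) * α) - (m : E) * c * α) + ρ₁ ∈ Rm :=
    Rm.add_mem (Rm.mul_mem (Rm.pow_mem hπm _) (Rm.sub_mem
      (Rm.mul_mem (Rm.mul_mem (Rm.pow_mem hc _) hρ₂)
        (Rm.add_mem Rm.one_mem (Rm.mul_mem hPm (h0m hα))))
      (Rm.mul_mem (Rm.mul_mem (natCast_mem Rm m) hc) (h0m hα)))) hρ₁
  have hβeq : β = α - (m : E) * c + π *
      (π ^ n * (c ^ 2 * ρ₂ * (1 + π ^ (n + 1) * α) - (m : E) * c * α) + ρ₁) := by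
    have h1 : w * b ^ m = (1 - π ^ (n + 1) * c) ^ m * (w * a ^ m) + π * π ^ (n + 1) * ρ₁ := by
      rw [hbA, e1, mul_pow]; ring
    rw [hwb, hwa, e2] at h1
    have h2 : π ^ (n + 1) * (β - (α - (m : E) * c + π *
        (π ^ n * (c ^ 2 * ρ₂ * (1 + π ^ (n + 1) * α) - (m : E) * c * α) + ρ₁))) = 0 := by
      linear_combination h1
    exact sub_eq_zero.1 (pow_mul_cancel π hπ (n + 1) h2)
  set ρ := π ^ n * (c ^ 2 * ρ₂ * (1 + π ^ (n + 1) * α) - (m : E) * c * α) + ρ₁ with hρdef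
  -- the new pair
  have hP0 : π ^ (n + 1) ∈ R0 := R0.pow_mem hπ0 _
  have hPi : π ^ (n + 1) ∈ Ri := Ri.pow_mem hπi _
  obtain ⟨ρ₄, hρ₄, e4⟩ := one_sub_pow_expand R0 (R0.mul_mem hP0 (R0.mul_mem hμ0 hα)) m
  obtain ⟨ρ₅, hρ₅, e5⟩ := one_sub_pow_expand Ri (Ri.mul_mem hPi (Ri.mul_mem hμi hβ)) m
  refine ⟨(1 - π ^ (n + 1) * (μ * α)) * a, (1 - π ^ (n + 1) * (μ * β)) * b, ?_, ?_, ?_, ?_, ?_, ?_, ?_⟩
  · exact smul0 _ (R0.sub_mem R0.one_mem (R0.mul_mem hP0 (R0.mul_mem hμ0 hα))) a ha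
  · exact smuli _ (Ri.sub_mem Ri.one_mem (Ri.mul_mem hPi (Ri.mul_mem hμi hβ))) b hb
  · refine ⟨l - π ^ n * (μ * α) * a, L0.sub_mem hl
      (smul0 _ (R0.mul_mem (R0.pow_mem hπ0 _) (R0.mul_mem hμ0 hα)) a ha), ?_⟩
    linear_combination hal
  · refine ⟨l' - π ^ n * (μ * β) * b, Li.sub_mem hl'
      (smuli _ (Ri.mul_mem (Ri.pow_mem hπi _) (Ri.mul_mem hμi hβ)) b hb), ?_⟩
    linear_combination hbl
  · refine ⟨μ * ρ * a - π ^ n * (μ * β) * x + (x' - c * l), ?_, ?_⟩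
    · refine Lm.add_mem (Lm.sub_mem (smulm _ (Rm.mul_mem (h0m hμ0) hρm) a (hL0m ha))
        (smulm _ (Rm.mul_mem (Rm.pow_mem hπm _) (Rm.mul_mem (h0m hμ0) (him hβ))) x hx)) hx''
    · linear_combination (1 - π ^ (n + 1) * μ * β) * hab + π ^ (n + 1) * hxc
        - (π ^ (n + 1) * a * c) * hμ + (π ^ (n + 1) * μ * a) * hβeq
  · refine ⟨π ^ n * ((μ * α) ^ 2 * ρ₄ * (1 + π ^ (n + 1) * α) - α ^ 2), R0.mul_mem
      (R0.pow_mem hπ0 _) (R0.sub_mem (R0.mul_mem (R0.mul_mem (R0.pow_mem (R0.mul_mem hμ0 hα) _) hρ₄)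
        (R0.add_mem R0.one_mem (R0.mul_mem hP0 hα))) (R0.pow_mem hα _)), ?_⟩
    have h1 : w * ((1 - π ^ (n + 1) * (μ * α)) * a) ^ m =
        (1 - π ^ (n + 1) * (μ * α)) ^ m * (w * a ^ m) := by rw [mul_pow]; ring
    rw [h1, hwa, e4]
    linear_combination (-(π ^ (n + 1) * α + (π ^ (n + 1)) ^ 2 * α ^ 2)) * hμ
  · refine ⟨π ^ n * ((μ * β) ^ 2 * ρ₅ * (1 + π ^ (n + 1) * β) - β ^ 2), Ri.mul_mem
      (Ri.pow_mem hπi _) (Ri.sub_mem (Ri.mul_mem (Ri.mul_mem (Ri.pow_mem (Ri.mul_mem hμi hβ) _) hρ₅)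
        (Ri.add_mem Ri.one_mem (Ri.mul_mem hPi hβ))) (Ri.pow_mem hβ _)), ?_⟩
    have h1 : w * ((1 - π ^ (n + 1) * (μ * β)) * b) ^ m =
        (1 - π ^ (n + 1) * (μ * β)) ^ m * (w * b ^ m) := by rw [mul_pow]; ring
    rw [h1, hwb, e5]
    linear_combination (-(π ^ (n + 1) * β + (π ^ (n + 1)) ^ 2 * β ^ 2)) * hμ

include hπ h0m him hπ0 hπi hμ0 hμi hμ hL0m smul0 smuli smulm hwm hgen in
/-- **[Cech] (c)+(d).**  Approximate `m`-th roots of `w⁻¹` on the two charts that agree modulo `π`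
can be corrected to a common element of `L0 ∩ Li`. -/
theorem exists_common_root (ha1 : a1 ∈ L0) (hb1 : b1 ∈ Li) (hab : ∃ x ∈ Lm, a1 - b1 = π * x)
    (hwa : ∃ α ∈ R0, w * a1 ^ m = 1 + π * α) (hwb : ∃ β ∈ Ri, w * b1 ^ m = 1 + π * β)
    (hsep : ∀ x ∈ Lm, (∀ n : ℕ, ∃ y0 ∈ L0, ∃ yi ∈ Li, ∃ ym ∈ Lm, x = y0 + yi + π ^ n * ym) →
      ∃ y0 ∈ L0, ∃ yi ∈ Li, x = y0 + yi) :
    ∃ h ∈ L0, h ∈ Li ∧ ∃ l ∈ L0, h - a1 = π * l := by
  have all : ∀ n : ℕ, ∃ a b, Stage π w m R0 Ri L0 Li Lm a1 b1 n a b := by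
    intro n
    induction n with
    | zero =>
      refine ⟨a1, b1, ha1, hb1, ⟨0, L0.zero_mem, by simp⟩, ⟨0, Li.zero_mem, by simp⟩, ?_, ?_, ?_⟩
      · simpa using hab
      · simpa using hwa
      · simpa using hwb
    | succ n ih =>
      obtain ⟨a, b, h⟩ := ih
      exact stage_succ π hπ m R0 Ri Rm h0m him hπ0 hπi μ hμ0 hμi hμ w L0 Li Lm hL0m smul0 smuli
        smulm hwm a1 b1 hgen n a b h
  obtain ⟨x1, hx1, hab1⟩ := hab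
  have key : ∀ n : ℕ, ∃ y0 ∈ L0, ∃ yi ∈ Li, ∃ ym ∈ Lm, x1 = y0 + yi + π ^ n * ym := by
    intro n
    obtain ⟨a, b, -, -, ⟨l, hl, hal⟩, ⟨l', hl', hbl⟩, ⟨x, hx, habn⟩, -, -⟩ := all n
    refine ⟨-l, L0.neg_mem hl, l', hl', x, hx, ?_⟩
    have h0 : π * (x1 - (-l + l' + π ^ n * x)) = 0 := by
      linear_combination (-1 : E) * hab1 - hal + hbl + habn
    exact sub_eq_zero.1 (hπ _ h0)
  obtain ⟨y0, hy0, yi, hyi, hxy⟩ := hsep x1 hx1 key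
  refine ⟨a1 - π * y0, L0.sub_mem ha1 (smul0 π hπ0 y0 hy0), ?_, -y0, L0.neg_mem hy0, by ring⟩
  have e : a1 - π * y0 = b1 + π * yi := by linear_combination hab1 + π * hxy
  rw [e]
  exact Li.add_mem hb1 (smuli π hπi yi hyi)

end Main

end Fermat.Agent.S18.CechRoot
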