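import Mathlib
import Fermat.Agent.S18.CechPlan

/-!
# S18, block [Cech], leaf [Cech-N]

`leafN S hR hV : S.LeafN` : consequences of (Nor) in `E`-language. If `y ∈ V` satisfies
`y ^ m ≡ r` modulo `π V` with `r` in one of the charts `R0`, `Rinf`, `Rm`, then `y ≡ c` modulo
`π V` for some `c` in the same chart.

Proof for a chart `R ∈ {R0, Rinf}`: write `y = p / t` with `p, t ∈ R`, `t ∉ π R` (clear the
powers of `j`). Then `p ^ m - r t ^ m ∈ R ∩ π V = π R`, so in the domain `D = R ⧸ π R` the fraction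
`p̄ / t̄ ∈ Frac D` is a root of `X ^ m - r̄`; as `D` is integrally closed, `p̄ = c̄ t̄`, i.e.
`p - c t ∈ π R`, and `y - c = (p - c t) / t ∈ π V` because `t` is a unit of `V`.
For `Rm`: apply the case `R0` to `j ^ k * y`.
-/

set_option autoImplicit false

namespace Fermat.Agent.S18.CechNor

open Fermat.Agent.S18.CechPlan Polynomial

variable {O : Type*} [CommRing O] [IsDomain O] [IsDiscreteValuationRing O]
  {E : Type*} [Field E] [Algebra O E]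

/-- `π R`-divisibility of an element of a subalgebra `R`, in ideal language. -/
theorem piDvd_iff (S : Setting O E) (R : Subalgebra O E) (x : R) :
    S.PiDvd R (x : E) ↔ x ∈ Ideal.span {algebraMap O R S.π} := by
  rw [Ideal.mem_span_singleton']
  constructor
  · rintro ⟨z, hz, h⟩
    refine ⟨⟨z, hz⟩, Subtype.ext ?_⟩
    show z * algebraMap O E S.π = (x : E)
    rw [h, mul_comm]
  · rintro ⟨a, ha⟩
    refine ⟨a, a.2, ?_⟩
    have h : (a : E) * algebraMap O E S.π = (x : E) := congrArg Subtype.val ha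
    rw [← h, mul_comm]

theorem m_ne_zero (S : Setting O E) : S.m ≠ 0 := by
  intro h
  have h1 := S.hm
  rw [h, Nat.cast_zero] at h1
  exact not_isUnit_zero h1

/-- No power of `j` is divisible by `π` in `Rm`. -/
theorem not_piDvd_j_pow (S : Setting O E) (hR : S.LeafR) (n : ℕ) : ¬ S.PiDvd S.Rm (S.j ^ n) := by
  induction n with
  | zero => rw [pow_zero]; exact hR.one_not
  | succ n ih =>
    intro h
    rw [pow_succ] at h
    rcases hR.prime _ (hR.of_R0 _ (S.R0.pow_mem S.j_mem n)) _ (hR.of_R0 _ S.j_mem) h with h1 | h1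
    · exact ih h1
    · exact S.j_not ((piDvd_iff S S.R0 ⟨S.j, S.j_mem⟩).mp (hR.desc0 _ S.j_mem h1))

/-- No power of `j⁻¹` is divisible by `π` in `Rm`. -/
theorem not_piDvd_jinv_pow (S : Setting O E) (hR : S.LeafR) (n : ℕ) :
    ¬ S.PiDvd S.Rm (S.j⁻¹ ^ n) := by
  induction n with
  | zero => rw [pow_zero]; exact hR.one_not
  | succ n ih =>
    intro h
    rw [pow_succ] at h
    rcases hR.prime _ (hR.of_Rinf _ (S.Rinf.pow_mem S.jinv_mem n)) _ (hR.of_Rinf _ S.jinv_mem) h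
      with h1 | h1
    · exact ih h1
    · exact S.jinv_not
        ((piDvd_iff S S.Rinf ⟨S.j⁻¹, S.jinv_mem⟩).mp (hR.descInf _ S.jinv_mem h1))

/-- Every element of `V` is a fraction `p / t` with `p, t ∈ R0`, `t ∉ π R0`. -/
theorem exists_frac0 (S : Setting O E) (hR : S.LeafR) (y : E) (hy : y ∈ S.V) :
    ∃ p ∈ S.R0, ∃ t ∈ S.R0, ¬ S.PiDvd S.R0 t ∧ t * y = p := by
  obtain ⟨s, ⟨a, ha⟩, hsn, ⟨b, hb⟩⟩ := hy
  refine ⟨s * y * S.j ^ b * S.j ^ a, S.R0.mul_mem hb (S.R0.pow_mem S.j_mem a),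
    s * S.j ^ a * S.j ^ b, S.R0.mul_mem ha (S.R0.pow_mem S.j_mem b), ?_, by ring⟩
  rintro ⟨z, hz, hzt⟩
  have h1 : S.PiDvd S.Rm (s * S.j ^ (a + b)) := ⟨z, hR.of_R0 z hz, by rw [← hzt, pow_add]; ring⟩
  rcases hR.prime s ⟨a, ha⟩ _ (hR.of_R0 _ (S.R0.pow_mem S.j_mem (a + b))) h1 with h2 | h2
  · exact hsn h2
  · exact not_piDvd_j_pow S hR _ h2

/-- Every element of `V` is a fraction `p / t` with `p, t ∈ Rinf`, `t ∉ π Rinf`. -/
theorem exists_fracInf (S : Setting O E) (hR : S.LeafR) (y : E) (hy : y ∈ S.V) :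
    ∃ p ∈ S.Rinf, ∃ t ∈ S.Rinf, ¬ S.PiDvd S.Rinf t ∧ t * y = p := by
  obtain ⟨s, hs, hsn, hsy⟩ := hy
  obtain ⟨a, ha⟩ := (hR.iff_inf s).mp hs
  obtain ⟨b, hb⟩ := (hR.iff_inf (s * y)).mp hsy
  refine ⟨s * y * S.j⁻¹ ^ b * S.j⁻¹ ^ a, S.Rinf.mul_mem hb (S.Rinf.pow_mem S.jinv_mem a),
    s * S.j⁻¹ ^ a * S.j⁻¹ ^ b, S.Rinf.mul_mem ha (S.Rinf.pow_mem S.jinv_mem b), ?_, by ring⟩
  rintro ⟨z, hz, hzt⟩
  have h1 : S.PiDvd S.Rm (s * S.j⁻¹ ^ (a + b)) :=
    ⟨z, hR.of_Rinf z hz, by rw [← hzt, pow_add]; ring⟩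
  rcases hR.prime s hs _ (hR.of_Rinf _ (S.Rinf.pow_mem S.jinv_mem (a + b))) h1 with h2 | h2
  · exact hsn h2
  · exact not_piDvd_jinv_pow S hR _ h2

/-- The core of [Cech-N] for a chart `R` whose special fibre is an integrally closed domain and
in which every element of `V` is a fraction with denominator prime to `π`. -/
theorem nor_core (S : Setting O E) (hV : S.LeafV) (R : Subalgebra O E)
    (hprime : (Ideal.span {algebraMap O R S.π}).IsPrime)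
    (hnor : IsIntegrallyClosed (R ⧸ Ideal.span {algebraMap O R S.π}))
    (hsub : ∀ x ∈ R, x ∈ S.Rm)
    (hdesc : ∀ x ∈ R, S.PiDvd S.Rm x → S.PiDvd R x)
    (hfrac : ∀ y ∈ S.V, ∃ p ∈ R, ∃ t ∈ R, ¬ S.PiDvd R t ∧ t * y = p)
    (y : E) (hy : y ∈ S.V) (r : E) (hr : r ∈ R) (h : S.PiDvd S.V (y ^ S.m - r)) :
    ∃ c ∈ R, S.PiDvd S.V (y - c) := by
  obtain ⟨p, hp, t, ht, htn, hty⟩ := hfrac y hy
  have ht0 : t ≠ 0 := by
    rintro rfl
    exact htn ⟨0, R.zero_mem, by rw [mul_zero]⟩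
  have htV : t ∈ S.V := hV.of_Rm t (hsub t ht)
  have htnV : ¬ S.PiDvd S.V t := fun h' => htn (hdesc t ht (hV.desc t (hsub t ht) h'))
  have htinv : t⁻¹ ∈ S.V := hV.inv_mem t htV htnV
  have hpowV : ∀ n : ℕ, t ^ n ∈ S.V := fun n => by
    induction n with
    | zero => rw [pow_zero]; exact hV.of_Rm 1 (hsub 1 R.one_mem)
    | succ n ih => rw [pow_succ]; exact hV.mul_mem _ ih _ htV
  -- `p ^ m - r t ^ m ∈ π R`
  obtain ⟨v, hv, hyv⟩ := h
  have hmem : p ^ S.m - r * t ^ S.m ∈ R :=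
    R.sub_mem (R.pow_mem hp _) (R.mul_mem hr (R.pow_mem ht _))
  obtain ⟨z, hz, hpz⟩ : S.PiDvd R (p ^ S.m - r * t ^ S.m) := by
    refine hdesc _ hmem (hV.desc _ (hsub _ hmem) ⟨v * t ^ S.m, hV.mul_mem v hv _ (hpowV _), ?_⟩)
    rw [← hty, mul_pow]
    linear_combination t ^ S.m * hyv
  -- pass to the special fibre `D = R ⧸ π R`
  have := hprime
  have := hnor
  have hT : Ideal.Quotient.mk (Ideal.span {algebraMap O R S.π}) ⟨t, ht⟩ ≠ 0 := by
    rw [Ne, Ideal.Quotient.eq_zero_iff_mem]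
    exact fun hmem' => htn ((piDvd_iff S R ⟨t, ht⟩).mpr hmem')
  have hrel : Ideal.Quotient.mk (Ideal.span {algebraMap O R S.π}) ⟨p, hp⟩ ^ S.m =
      Ideal.Quotient.mk (Ideal.span {algebraMap O R S.π}) ⟨r, hr⟩ *
        Ideal.Quotient.mk (Ideal.span {algebraMap O R S.π}) ⟨t, ht⟩ ^ S.m := by
    rw [← map_pow, ← map_pow, ← map_mul, ← sub_eq_zero, ← map_sub,
      Ideal.Quotient.eq_zero_iff_mem]
    exact (piDvd_iff S R (⟨p, hp⟩ ^ S.m - ⟨r, hr⟩ * ⟨t, ht⟩ ^ S.m)).mp ⟨z, hz, hpz⟩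
  have hTK : algebraMap (R ⧸ Ideal.span {algebraMap O R S.π})
      (FractionRing (R ⧸ Ideal.span {algebraMap O R S.π}))
      (Ideal.Quotient.mk (Ideal.span {algebraMap O R S.π}) ⟨t, ht⟩) ≠ 0 :=
    (map_ne_zero_iff _ (IsFractionRing.injective _ _)).mpr hT
  have hξ : IsIntegral (R ⧸ Ideal.span {algebraMap O R S.π})
      (algebraMap (R ⧸ Ideal.span {algebraMap O R S.π})
        (FractionRing (R ⧸ Ideal.span {algebraMap O R S.π}))
        (Ideal.Quotient.mk (Ideal.span {algebraMap O R S.π}) ⟨p, hp⟩) /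
      algebraMap (R ⧸ Ideal.span {algebraMap O R S.π})
        (FractionRing (R ⧸ Ideal.span {algebraMap O R S.π}))
        (Ideal.Quotient.mk (Ideal.span {algebraMap O R S.π}) ⟨t, ht⟩)) := by
    refine ⟨X ^ S.m - C (Ideal.Quotient.mk (Ideal.span {algebraMap O R S.π}) ⟨r, hr⟩),
      monic_X_pow_sub_C _ (m_ne_zero S), ?_⟩
    rw [eval₂_sub, eval₂_pow, eval₂_X, eval₂_C, div_pow, ← map_pow, hrel, map_mul, map_pow,
      mul_div_assoc, div_self (pow_ne_zero _ hTK), mul_one, sub_self]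
  obtain ⟨cbar, hc⟩ := IsIntegrallyClosed.isIntegral_iff.mp hξ
  obtain ⟨c, rfl⟩ := Ideal.Quotient.mk_surjective cbar
  have hPT : Ideal.Quotient.mk (Ideal.span {algebraMap O R S.π}) ⟨p, hp⟩ =
      Ideal.Quotient.mk (Ideal.span {algebraMap O R S.π}) c *
        Ideal.Quotient.mk (Ideal.span {algebraMap O R S.π}) ⟨t, ht⟩ := by
    apply IsFractionRing.injective (R ⧸ Ideal.span {algebraMap O R S.π})
      (FractionRing (R ⧸ Ideal.span {algebraMap O R S.π}))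
    rw [map_mul, hc, div_mul_cancel₀ _ hTK]
  have hmem2 : (⟨p, hp⟩ - c * ⟨t, ht⟩ : R) ∈ Ideal.span {algebraMap O R S.π} := by
    rw [← Ideal.Quotient.eq_zero_iff_mem, map_sub, map_mul, hPT, sub_self]
  obtain ⟨z', hz', hpz'⟩ := (piDvd_iff S R (⟨p, hp⟩ - c * ⟨t, ht⟩)).mpr hmem2
  have hpz'' : p - (c : E) * t = algebraMap O E S.π * z' := hpz'
  refine ⟨(c : E), c.2, z' * t⁻¹, hV.mul_mem _ (hV.of_Rm _ (hsub _ hz')) _ htinv, ?_⟩
  have hy' : y = p * t⁻¹ := by rw [← hty]; field_simp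
  rw [hy']
  field_simp
  linear_combination hpz''

/-- **[Cech-N]** -/
theorem leafN (S : Setting O E) (hR : S.LeafR) (hV : S.LeafV) : S.LeafN := by
  have h0 : ∀ y ∈ S.V, ∀ r ∈ S.R0, S.PiDvd S.V (y ^ S.m - r) → ∃ c ∈ S.R0, S.PiDvd S.V (y - c) :=
    fun y hy r hr h => nor_core S hV S.R0 S.prime0 S.nor0 hR.of_R0 hR.desc0
      (exists_frac0 S hR) y hy r hr h
  refine ⟨h0, fun y hy r hr h => nor_core S hV S.Rinf S.primeInf S.norInf hR.of_Rinf hR.descInf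
      (exists_fracInf S hR) y hy r hr h, ?_⟩
  -- the middle chart: multiply by a power of `j`
  rintro y hy r ⟨k, hk⟩ ⟨v, hv, hyv⟩
  have hm : S.m ≠ 0 := m_ne_zero S
  have hjV : ∀ n : ℕ, S.j ^ n ∈ S.V := fun n => hV.of_Rm _ (hR.of_R0 _ (S.R0.pow_mem S.j_mem n))
  have hjinvM : ∀ n : ℕ, S.j⁻¹ ^ n ∈ S.Rm := fun n =>
    hR.of_Rinf _ (S.Rinf.pow_mem S.jinv_mem n)
  have hj0 : S.j ≠ 0 := by
    intro hj
    refine not_piDvd_j_pow S hR 1 ⟨0, ?_, by rw [hj, pow_one, mul_zero]⟩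
    exact hR.of_R0 0 S.R0.zero_mem
  obtain ⟨c, hc, z, hz, hcz⟩ := h0 (S.j ^ k * y) (hV.mul_mem _ (hjV k) _ hy)
    (S.j ^ (k * (S.m - 1)) * (r * S.j ^ k))
    (S.R0.mul_mem (S.R0.pow_mem S.j_mem _) hk)
    ⟨S.j ^ (k * S.m) * v, hV.mul_mem _ (hjV _) _ hv, by
      have e : k * S.m = k * (S.m - 1) + k := by
        obtain ⟨n, hn⟩ := Nat.exists_eq_succ_of_ne_zero hm
        rw [hn, Nat.succ_sub_one, Nat.mul_succ]
      rw [mul_pow, ← pow_mul]
      have e2 : S.j ^ (k * (S.m - 1)) * (r * S.j ^ k) = S.j ^ (k * S.m) * r := by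
        rw [e, pow_add]; ring
      rw [e2]
      linear_combination S.j ^ (k * S.m) * hyv⟩
  refine ⟨c * S.j⁻¹ ^ k, hR.mul_mem _ (hR.of_R0 _ hc) _ (hjinvM k),
    S.j⁻¹ ^ k * z, hV.mul_mem _ (hV.of_Rm _ (hjinvM k)) _ hz, ?_⟩
  have e3 : y - c * S.j⁻¹ ^ k = S.j⁻¹ ^ k * (S.j ^ k * y - c) := by
    rw [inv_pow]
    field_simp
  rw [e3, hcz]
  ring

end Fermat.Agent.S18.CechNor
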