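import Fermat.Agent.S18.CechPlan

/-!
# S18, block [Cech] : leaves [Cech-R] and [Cech-V]

`leafR` : the middle chart `Rm = R0[1/j] = Rinf[j]` is a subring of `E` containing both charts,
`m`-root closed, `π` is prime in it and divisibility by `π` descends to the two charts.

`leafV` : `V = (Rm)_(π)` is a local subring of `E` with maximal ideal `π V`, `m`-root closed,
and `Rm ∩ π V = π Rm`.

Everything is by clearing powers of `j` and primality of `π` in `R0` / `Rinf`.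
-/

set_option autoImplicit false
set_option linter.unusedSectionVars false

namespace Fermat.Agent.S18.CechRing

open Fermat.Agent.S18.CechPlan

variable {O : Type*} [CommRing O] [IsDomain O] [IsDiscreteValuationRing O]
  {E : Type*} [Field E] [Algebra O E]

/-- Membership in the principal ideal `π R` of a subalgebra, in `E`-language. -/
theorem mem_span_pi_iff (R : Subalgebra O E) (p : O) (x : R) :
    x ∈ Ideal.span {algebraMap O R p} ↔ ∃ z ∈ R, (x : E) = algebraMap O E p * z := by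
  rw [Ideal.mem_span_singleton']
  constructor
  · rintro ⟨a, ha⟩
    refine ⟨a, a.2, ?_⟩
    rw [← ha, mul_comm]
    rfl
  · rintro ⟨z, hz, hxz⟩
    refine ⟨⟨z, hz⟩, Subtype.ext ?_⟩
    rw [hxz, mul_comm]
    rfl

/-- If `π R` is prime, `t ∈ R ∖ π R`, `x ∈ R` and `x * t ^ n ∈ π R`, then `x ∈ π R`. -/
theorem desc_of_prime (R : Subalgebra O E) (p : O)
    (hprime : (Ideal.span {algebraMap O R p}).IsPrime) (t : E) (ht : t ∈ R)
    (htnot : (⟨t, ht⟩ : R) ∉ Ideal.span {algebraMap O R p}) (x : E) (hx : x ∈ R) (n : ℕ)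
    (z : E) (hz : z ∈ R) (hxz : x * t ^ n = algebraMap O E p * z) :
    ∃ r ∈ R, x = algebraMap O E p * r := by
  have h1 : (⟨x, hx⟩ : R) * (⟨t, ht⟩ : R) ^ n ∈ Ideal.span {algebraMap O R p} := by
    rw [mem_span_pi_iff]
    exact ⟨z, hz, hxz⟩
  rcases hprime.mem_or_mem h1 with h2 | h2
  · exact (mem_span_pi_iff R p ⟨x, hx⟩).mp h2
  · exact absurd (hprime.mem_of_pow_mem n h2) htnot

/-- If `π R` is prime and `t ∈ R ∖ π R` then `t ^ n ∉ π R`. -/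
theorem pow_not_of_prime (R : Subalgebra O E) (p : O)
    (hprime : (Ideal.span {algebraMap O R p}).IsPrime) (t : E) (ht : t ∈ R)
    (htnot : (⟨t, ht⟩ : R) ∉ Ideal.span {algebraMap O R p}) (n : ℕ)
    (z : E) (hz : z ∈ R) (hxz : t ^ n = algebraMap O E p * z) : False := by
  obtain ⟨r, hr, h1⟩ := desc_of_prime R p hprime t ht htnot 1 R.one_mem n z hz
    (by rw [one_mul]; exact hxz)
  apply hprime.ne_top
  rw [Ideal.eq_top_iff_one, mem_span_pi_iff]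
  exact ⟨r, hr, h1⟩

section Aux

variable (S : Setting O E)

theorem m_ne_zero : S.m ≠ 0 := by
  intro h
  have h1 := S.hm
  rw [h, Nat.cast_zero] at h1
  exact not_isUnit_zero h1

theorem j_ne_zero : S.j ≠ 0 := by
  intro h
  apply S.j_not
  have : (⟨S.j, S.j_mem⟩ : S.R0) = 0 := Subtype.ext h
  rw [this]
  exact Ideal.zero_mem _

theorem jinv_mul_j : S.j⁻¹ * S.j = 1 := inv_mul_cancel₀ (j_ne_zero S)

theorem j_mul_jinv : S.j * S.j⁻¹ = 1 := mul_inv_cancel₀ (j_ne_zero S)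

theorem jpow_mul_jinvpow (n : ℕ) : S.j ^ n * S.j⁻¹ ^ n = 1 := by
  rw [← mul_pow, (j_mul_jinv S), one_pow]

theorem jpow_mem (n : ℕ) : S.j ^ n ∈ S.R0 := S.R0.pow_mem S.j_mem n

theorem jinvpow_mem (n : ℕ) : S.j⁻¹ ^ n ∈ S.Rinf := S.Rinf.pow_mem S.jinv_mem n

theorem mem_Rm_iff (x : E) : x ∈ S.Rm ↔ ∃ n : ℕ, x * S.j ^ n ∈ S.R0 := Iff.rfl

theorem mem_Rm_iff_inf (x : E) : x ∈ S.Rm ↔ ∃ n : ℕ, x * S.j⁻¹ ^ n ∈ S.Rinf := by
  constructor
  · rintro ⟨n, hn⟩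
    obtain ⟨k, hk⟩ := S.glue0 _ hn
    refine ⟨k, ?_⟩
    have h1 := S.Rinf.mul_mem hk ((jinvpow_mem S) n)
    have h2 : x * S.j ^ n * S.j⁻¹ ^ k * S.j⁻¹ ^ n = x * S.j⁻¹ ^ k * (S.j ^ n * S.j⁻¹ ^ n) := by
      ring
    rw [h2, (jpow_mul_jinvpow S), mul_one] at h1
    exact h1
  · rintro ⟨n, hn⟩
    obtain ⟨k, hk⟩ := S.glueInf _ hn
    refine ⟨k, ?_⟩
    have h1 := S.R0.mul_mem hk ((jpow_mem S) n)
    have h2 : x * S.j⁻¹ ^ n * S.j ^ k * S.j ^ n = x * S.j ^ k * (S.j ^ n * S.j⁻¹ ^ n) := by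
      ring
    rw [h2, (jpow_mul_jinvpow S), mul_one] at h1
    exact h1

theorem Rm_of_R0 {x : E} (hx : x ∈ S.R0) : x ∈ S.Rm := ⟨0, by rw [pow_zero, mul_one]; exact hx⟩

theorem Rm_add {x y : E} (hx : x ∈ S.Rm) (hy : y ∈ S.Rm) : x + y ∈ S.Rm := by
  obtain ⟨a, ha⟩ := hx
  obtain ⟨b, hb⟩ := hy
  refine ⟨a + b, ?_⟩
  have h1 : (x + y) * S.j ^ (a + b) = x * S.j ^ a * S.j ^ b + y * S.j ^ b * S.j ^ a := by ring
  rw [h1]
  exact S.R0.add_mem (S.R0.mul_mem ha ((jpow_mem S) b)) (S.R0.mul_mem hb ((jpow_mem S) a))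

theorem Rm_mul {x y : E} (hx : x ∈ S.Rm) (hy : y ∈ S.Rm) : x * y ∈ S.Rm := by
  obtain ⟨a, ha⟩ := hx
  obtain ⟨b, hb⟩ := hy
  refine ⟨a + b, ?_⟩
  have h1 : x * y * S.j ^ (a + b) = x * S.j ^ a * (y * S.j ^ b) := by ring
  rw [h1]
  exact S.R0.mul_mem ha hb

theorem Rm_neg {x : E} (hx : x ∈ S.Rm) : -x ∈ S.Rm := by
  obtain ⟨a, ha⟩ := hx
  refine ⟨a, ?_⟩
  rw [neg_mul]
  exact S.R0.neg_mem ha

theorem Rm_one : (1 : E) ∈ S.Rm := (Rm_of_R0 S) S.R0.one_mem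

theorem Rm_pow {x : E} (hx : x ∈ S.Rm) (n : ℕ) : x ^ n ∈ S.Rm := by
  induction n with
  | zero => rw [pow_zero]; exact (Rm_one S)
  | succ n ih => rw [pow_succ]; exact (Rm_mul S) ih hx

theorem Rm_jinvpow (n : ℕ) : S.j⁻¹ ^ n ∈ S.Rm :=
  ⟨n, by rw [mul_comm, (jpow_mul_jinvpow S)]; exact S.R0.one_mem⟩

/-- `z ∈ Rm` with `z j^n ∈ R0`: then `z = (z j^n) j^{-n}`. -/
theorem Rm_of_mul_jpow {r : E} (hr : r ∈ S.R0) (n : ℕ) : r * S.j⁻¹ ^ n ∈ S.Rm :=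
  (Rm_mul S) ((Rm_of_R0 S) hr) ((Rm_jinvpow S) n)

theorem not_piDvd_Rm_one : ¬ S.PiDvd S.Rm 1 := by
  rintro ⟨z, ⟨n, hn⟩, hz⟩
  refine pow_not_of_prime S.R0 S.π S.prime0 S.j S.j_mem S.j_not n (z * S.j ^ n) hn ?_
  rw [← mul_assoc, ← hz, one_mul]

theorem piDvd_Rm_of_mul {x : E} (hx : x ∈ S.Rm) {y : E} (hy : y ∈ S.Rm)
    (h : S.PiDvd S.Rm (x * y)) : S.PiDvd S.Rm x ∨ S.PiDvd S.Rm y := by
  obtain ⟨a, ha⟩ := hx
  obtain ⟨b, hb⟩ := hy
  obtain ⟨z, ⟨c, hc⟩, hz⟩ := h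
  have h1 : (⟨x * S.j ^ a, ha⟩ : S.R0) * ⟨y * S.j ^ b, hb⟩ ∈
      Ideal.span {algebraMap O S.R0 S.π} := by
    have h2 : ((⟨x * S.j ^ a, ha⟩ : S.R0) * ⟨y * S.j ^ b, hb⟩) * (⟨S.j, S.j_mem⟩ : S.R0) ^ c ∈
        Ideal.span {algebraMap O S.R0 S.π} := by
      rw [mem_span_pi_iff]
      refine ⟨z * S.j ^ c * S.j ^ (a + b), S.R0.mul_mem hc ((jpow_mem S) _), ?_⟩
      show x * S.j ^ a * (y * S.j ^ b) * S.j ^ c = _
      have h3 : x * S.j ^ a * (y * S.j ^ b) * S.j ^ c = x * y * S.j ^ c * S.j ^ (a + b) := by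
        ring
      rw [h3, hz]
      ring
    rcases S.prime0.mem_or_mem h2 with h3 | h3
    · exact h3
    · exact absurd (S.prime0.mem_of_pow_mem c h3) S.j_not
  rcases S.prime0.mem_or_mem h1 with h2 | h2
  · left
    obtain ⟨r, hr, hxr⟩ := (mem_span_pi_iff S.R0 S.π _).mp h2
    refine ⟨r * S.j⁻¹ ^ a, (Rm_of_mul_jpow S) hr a, ?_⟩
    have h3 : x = x * S.j ^ a * S.j⁻¹ ^ a := by
      rw [mul_assoc, (jpow_mul_jinvpow S), mul_one]
    rw [h3]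
    show x * S.j ^ a * S.j⁻¹ ^ a = _
    have h4 : x * S.j ^ a = algebraMap O E S.π * r := hxr
    rw [h4, mul_assoc]
  · right
    obtain ⟨r, hr, hyr⟩ := (mem_span_pi_iff S.R0 S.π _).mp h2
    refine ⟨r * S.j⁻¹ ^ b, (Rm_of_mul_jpow S) hr b, ?_⟩
    have h3 : y = y * S.j ^ b * S.j⁻¹ ^ b := by
      rw [mul_assoc, (jpow_mul_jinvpow S), mul_one]
    rw [h3]
    show y * S.j ^ b * S.j⁻¹ ^ b = _
    have h4 : y * S.j ^ b = algebraMap O E S.π * r := hyr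
    rw [h4, mul_assoc]

end Aux

/-- **[Cech-R]** -/
theorem leafR (S : Setting O E) : S.LeafR where
  of_R0 := fun x hx => (Rm_of_R0 S) hx
  of_Rinf := fun x hx => S.glueInf x hx
  iff_inf := (mem_Rm_iff_inf S)
  add_mem := fun x hx y hy => (Rm_add S) hx hy
  mul_mem := fun x hx y hy => (Rm_mul S) hx hy
  neg_mem := fun x hx => (Rm_neg S) hx
  jinv_mem := by
    have := (Rm_jinvpow S) 1
    rwa [pow_one] at this
  root := by
    intro x hx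
    obtain ⟨n, hn⟩ := hx
    refine ⟨n, S.root0 _ ?_⟩
    obtain ⟨k, hk⟩ := Nat.exists_eq_succ_of_ne_zero (m_ne_zero S)
    have h1 : (x * S.j ^ n) ^ S.m = x ^ S.m * S.j ^ n * (S.j ^ n) ^ k := by
      rw [mul_pow, hk, pow_succ (S.j ^ n) k]
      ring
    rw [h1]
    exact S.R0.mul_mem hn (S.R0.pow_mem ((jpow_mem S) n) k)
  prime := fun x hx y hy h => (piDvd_Rm_of_mul S) hx hy h
  one_not := (not_piDvd_Rm_one S)
  desc0 := by
    rintro x hx ⟨z, ⟨n, hn⟩, hz⟩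
    obtain ⟨r, hr, hxr⟩ := desc_of_prime S.R0 S.π S.prime0 S.j S.j_mem S.j_not x hx n
      (z * S.j ^ n) hn (by rw [hz, mul_assoc])
    exact ⟨r, hr, hxr⟩
  descInf := by
    rintro x hx ⟨z, hzm, hz⟩
    obtain ⟨n, hn⟩ := ((mem_Rm_iff_inf S) z).mp hzm
    obtain ⟨r, hr, hxr⟩ := desc_of_prime S.Rinf S.π S.primeInf S.j⁻¹ S.jinv_mem S.jinv_not x hx n
      (z * S.j⁻¹ ^ n) hn (by rw [hz, mul_assoc])
    exact ⟨r, hr, hxr⟩

/-- **[Cech-V]** -/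
theorem leafV (S : Setting O E) (hR : S.LeafR) : S.LeafV where
  of_Rm := fun x hx => ⟨1, (Rm_one S), hR.one_not, by rw [one_mul]; exact hx⟩
  add_mem := by
    rintro x ⟨s, hs, hsn, hsx⟩ y ⟨s', hs', hsn', hsy⟩
    refine ⟨s * s', hR.mul_mem s hs s' hs', ?_, ?_⟩
    · intro h
      rcases hR.prime s hs s' hs' h with h1 | h1
      · exact hsn h1
      · exact hsn' h1
    · have h1 : s * s' * (x + y) = s' * (s * x) + s * (s' * y) := by ring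
      rw [h1]
      exact hR.add_mem _ (hR.mul_mem s' hs' _ hsx) _ (hR.mul_mem s hs _ hsy)
  mul_mem := by
    rintro x ⟨s, hs, hsn, hsx⟩ y ⟨s', hs', hsn', hsy⟩
    refine ⟨s * s', hR.mul_mem s hs s' hs', ?_, ?_⟩
    · intro h
      rcases hR.prime s hs s' hs' h with h1 | h1
      · exact hsn h1
      · exact hsn' h1
    · have h1 : s * s' * (x * y) = s * x * (s' * y) := by ring
      rw [h1]
      exact hR.mul_mem _ hsx _ hsy
  neg_mem := by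
    rintro x ⟨s, hs, hsn, hsx⟩
    refine ⟨s, hs, hsn, ?_⟩
    rw [mul_neg]
    exact hR.neg_mem _ hsx
  root := by
    rintro x ⟨s, hs, hsn, hsx⟩
    refine ⟨s, hs, hsn, hR.root _ ?_⟩
    obtain ⟨k, hk⟩ := Nat.exists_eq_succ_of_ne_zero (m_ne_zero S)
    have h1 : (s * x) ^ S.m = s ^ k * (s * x ^ S.m) := by
      rw [hk, Nat.succ_eq_add_one, mul_pow, pow_succ s k]
      ring
    rw [h1]
    exact hR.mul_mem _ ((Rm_pow S) hs k) _ hsx
  inv_mem := by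
    rintro x ⟨s, hs, hsn, hsx⟩ hx
    have hs0 : s ≠ 0 := by
      rintro rfl
      exact hsn ⟨0, (Rm_of_R0 S) S.R0.zero_mem, by rw [mul_zero]⟩
    have hx0 : x ≠ 0 := by
      rintro rfl
      exact hx ⟨0, ⟨1, (Rm_one S), hR.one_not, by rw [mul_zero]; exact (Rm_of_R0 S) S.R0.zero_mem⟩,
        by rw [mul_zero]⟩
    refine ⟨s * x, hsx, ?_, ?_⟩
    · rintro ⟨z, hz, hsxz⟩
      apply hx
      refine ⟨z * s⁻¹, ⟨s, hs, hsn, ?_⟩, ?_⟩
      · rw [mul_comm z, ← mul_assoc, mul_inv_cancel₀ hs0, one_mul]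
        exact hz
      · rw [← mul_assoc, ← hsxz, mul_comm s x, mul_assoc, mul_inv_cancel₀ hs0, mul_one]
    · rw [mul_assoc, mul_inv_cancel₀ hx0, mul_one]
      exact hs
  one_not := by
    rintro ⟨z, ⟨s, hs, hsn, hsz⟩, hz⟩
    apply hsn
    refine ⟨s * z, hsz, ?_⟩
    rw [mul_left_comm, ← hz, mul_one]
  desc := by
    rintro x hx ⟨z, ⟨s, hs, hsn, hsz⟩, hz⟩
    have h1 : S.PiDvd S.Rm (s * x) := by
      refine ⟨s * z, hsz, ?_⟩
      rw [hz]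
      ring
    rcases hR.prime s hs x hx h1 with h2 | h2
    · exact absurd h2 hsn
    · exact h2

end Fermat.Agent.S18.CechRing
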