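import Fermat.Agent.S18.CechL

/-!
# S18, block [Cech], leaves [Cech-a] and [Cech-b] (owner: helper93)

* `leafA` : each chart carries a section of `L` which is `≡ 1` modulo `π V`
  (from (Loc) and the consequence `LeafN` of (Nor));
* `leafB` : `Lm = Rm · a + π Lm` for every `a ∈ Lm` with `a ≡ 1`.
-/

set_option autoImplicit false

namespace Fermat.Agent.S18.CechStart

open Fermat.Agent.S18.CechPlan Fermat.Agent.S18.CechL

variable {O : Type*} [CommRing O] [IsDomain O] [IsDiscreteValuationRing O]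
  {E : Type*} [Field E] [Algebra O E] (S : Setting O E)

theorem zero_mem_V (hR : S.LeafR) (hV : S.LeafV) : (0 : E) ∈ S.V :=
  hV.of_Rm 0 (zero_mem_Rm S hR)

theorem pow_mem_V (hR : S.LeafR) (hV : S.LeafV) {x : E} (hx : x ∈ S.V) (n : ℕ) :
    x ^ n ∈ S.V := by
  induction n with
  | zero => simpa using one_mem_V S hR hV
  | succ k ih => rw [pow_succ]; exact hV.mul_mem _ ih _ hx

theorem sub_mem_V (hV : S.LeafV) {x y : E} (hx : x ∈ S.V) (hy : y ∈ S.V) : x - y ∈ S.V := by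
  rw [sub_eq_add_neg]
  exact hV.add_mem _ hx _ (hV.neg_mem _ hy)

theorem w_ne_zero (hR : S.LeafR) (hV : S.LeafV) : S.w ≠ 0 := by
  intro h0
  obtain ⟨z', hz', hwz'⟩ := w_sub_one S hR
  apply hV.one_not
  refine ⟨-z', hV.neg_mem _ hz', ?_⟩
  rw [h0] at hwz'
  linear_combination -hwz'

/-- One chart of [Cech-a], for a subalgebra `R` with the relevant properties of `R0`, `Rinf`. -/
theorem exists_one (hR : S.LeafR) (hV : S.LeafV) (R : Subalgebra O E)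
    (hRm : ∀ x ∈ R, x ∈ S.Rm)
    (add : ∀ x ∈ S.L R, ∀ y ∈ S.L R, x + y ∈ S.L R)
    (smul : ∀ r ∈ R, ∀ y ∈ S.L R, r * y ∈ S.L R)
    (desc : ∀ x ∈ R, S.PiDvd S.Rm x → S.PiDvd R x)
    (nor : ∀ y ∈ S.V, ∀ r ∈ R, S.PiDvd S.V (y ^ S.m - r) → ∃ c ∈ R, S.PiDvd S.V (y - c))
    (loc : ∀ n : Ideal R, n.IsMaximal → algebraMap O R S.π ∈ n →
      ∃ g : E, ∃ hg : S.w * g ^ S.m ∈ R, (⟨S.w * g ^ S.m, hg⟩ : R) ∉ n) :
    ∃ a ∈ S.L R, S.PiDvd S.V (a - 1) := by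
  have hmpos := m_pos S
  have hRV : ∀ x ∈ R, x ∈ S.V := fun x hx => hV.of_Rm x (hRm x hx)
  have h0L : (0 : E) ∈ S.L (R : Set E) := by
    show S.w * 0 ^ S.m ∈ R
    rw [zero_pow hmpos.ne', mul_zero]
    exact R.zero_mem
  -- the ideal of `R` of elements congruent to a section of `L R`
  let I : Ideal R :=
    { carrier := {r : R | ∃ l ∈ S.L (R : Set E), S.PiDvd S.V (l - (r : E))}
      add_mem' := by
        rintro r₁ r₂ ⟨l₁, hl₁, z₁, hz₁, e₁⟩ ⟨l₂, hl₂, z₂, hz₂, e₂⟩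
        refine ⟨l₁ + l₂, add _ hl₁ _ hl₂, z₁ + z₂, hV.add_mem _ hz₁ _ hz₂, ?_⟩
        push_cast
        linear_combination e₁ + e₂
      zero_mem' := ⟨0, h0L, 0, zero_mem_V S hR hV, by simp⟩
      smul_mem' := by
        rintro c r ⟨l, hl, z, hz, e⟩
        refine ⟨(c : E) * l, smul _ c.2 _ hl, (c : E) * z, hV.mul_mem _ (hRV _ c.2) _ hz, ?_⟩
        simp only [smul_eq_mul, MulMemClass.coe_mul]
        linear_combination (c : E) * e }
  have hI : ∀ r : R, r ∈ I ↔ ∃ l ∈ S.L (R : Set E), S.PiDvd S.V (l - (r : E)) := fun _ => Iff.rfl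
  have hπI : algebraMap O R S.π ∈ I := by
    rw [hI]
    refine ⟨0, h0L, -1, hV.neg_mem _ (one_mem_V S hR hV), ?_⟩
    have : ((algebraMap O R S.π : R) : E) = algebraMap O E S.π := rfl
    rw [this]; ring
  have htop : I = ⊤ := by
    by_contra hne
    obtain ⟨n, hn, hIn⟩ := Ideal.exists_le_maximal I hne
    obtain ⟨g, hg, hgn⟩ := loc n hn (hIn hπI)
    apply hgn
    apply hIn
    rw [hI]
    -- `u := w g^m ∈ R \ n`
    have hgL : g ∈ S.L (R : Set E) := hg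
    have hgV : g ∈ S.V := subV S hR hV (show S.w * g ^ S.m ∈ S.Rm from hRm _ hg)
    obtain ⟨z₀, hz₀, hw1⟩ := w_sub_one S hR
    -- `g ∉ π V`
    have hgπ : ¬ S.PiDvd S.V g := by
      rintro ⟨z, hz, e⟩
      apply hgn
      have hu : S.PiDvd S.V (S.w * g ^ S.m) := by
        refine ⟨S.w * (algebraMap O E S.π ^ (S.m - 1) * z ^ S.m),
          hV.mul_mem _ (w_mem S hR hV) _ (hV.mul_mem _
            (pow_mem_V S hR hV (pi_mem_V S hR hV) _) _ (pow_mem_V S hR hV hz _)), ?_⟩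
        rw [e, mul_pow]
        have : algebraMap O E S.π ^ S.m = algebraMap O E S.π * algebraMap O E S.π ^ (S.m - 1) := by
          rw [← pow_succ', Nat.sub_add_cancel hmpos]
        rw [this]; ring
      obtain ⟨z', hz', e'⟩ := desc _ hg (hV.desc _ (hRm _ hg) hu)
      have : (⟨S.w * g ^ S.m, hg⟩ : R) = algebraMap O R S.π * ⟨z', hz'⟩ := Subtype.ext e'
      rw [this]
      exact n.mul_mem_right _ (hIn hπI)
    have hginv : g⁻¹ ∈ S.V := hV.inv_mem g hgV hgπ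
    have hg0 : g ≠ 0 := by
      rintro rfl
      exact hgπ ⟨0, zero_mem_V S hR hV, by simp⟩
    set u : E := S.w * g ^ S.m with hu
    have huV : u ∈ S.V := hRV _ hg
    -- `y := u g⁻¹` has `y^m ≡ u^(m-1)`
    have hy : u * g⁻¹ ∈ S.V := hV.mul_mem _ huV _ hginv
    have hym : (u * g⁻¹) ^ S.m - u ^ (S.m - 1) = algebraMap O E S.π * (u ^ (S.m - 1) * z₀) := by
      have h1 : (u * g⁻¹) ^ S.m = u ^ (S.m - 1) * S.w := by
        have h3 : u ^ S.m = u ^ (S.m - 1) * u := by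
          rw [← pow_succ, Nat.sub_add_cancel hmpos]
        have hgm : g ^ S.m ≠ 0 := pow_ne_zero _ hg0
        have h4 : u * (g ^ S.m)⁻¹ = S.w := by
          rw [hu, mul_assoc, mul_inv_cancel₀ hgm, mul_one]
        rw [mul_pow, inv_pow, h3, mul_assoc, h4]
      rw [h1]
      linear_combination u ^ (S.m - 1) * hw1
    obtain ⟨c, hc, z₁, hz₁, e₁⟩ := nor _ hy (u ^ (S.m - 1)) (R.pow_mem hg _)
      ⟨u ^ (S.m - 1) * z₀, hV.mul_mem _ (pow_mem_V S hR hV huV _) _ hz₀, hym⟩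
    refine ⟨c * g, smul c hc g hgL, -(z₁ * g), hV.neg_mem _ (hV.mul_mem _ hz₁ _ hgV), ?_⟩
    show c * g - u = algebraMap O E S.π * -(z₁ * g)
    have h2 : u * g⁻¹ * g = u := by field_simp
    linear_combination (-g) * e₁ + h2
  have h1 : (1 : R) ∈ I := by rw [htop]; trivial
  obtain ⟨l, hl, hl1⟩ := (hI 1).1 h1
  exact ⟨l, hl, by simpa using hl1⟩

/-- **[Cech-a]** -/
theorem leafA (hR : S.LeafR) (hV : S.LeafV) (hL : S.LeafL) (hN : S.LeafN) : S.LeafA :=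
  ⟨exists_one S hR hV S.R0 hR.of_R0 hL.add0 hL.smul0 hR.desc0 hN.n0 S.loc0,
    exists_one S hR hV S.Rinf hR.of_Rinf hL.addInf hL.smulInf hR.descInf hN.nInf S.locInf⟩

/-- **[Cech-b]** -/
theorem leafB (hR : S.LeafR) (hV : S.LeafV) (hL : S.LeafL) (hN : S.LeafN) : S.LeafB := by
  intro a ha ha1 y hy
  have hyV : y ∈ S.V := hL.subV y hy
  obtain ⟨z₀, hz₀, hw1⟩ := hL.w_sub_one
  obtain ⟨z₂, hz₂, ea⟩ := ha1
  -- `y^m ≡ w y^m ∈ Rm`
  have hym : S.PiDvd S.V (y ^ S.m - S.w * y ^ S.m) :=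
    ⟨-(y ^ S.m * z₀), hV.neg_mem _ (hV.mul_mem _ (pow_mem_V S hR hV hyV _) _ hz₀), by
      linear_combination (-(y ^ S.m)) * hw1⟩
  obtain ⟨c, hc, z₁, hz₁, e₁⟩ := hN.nM y hyV (S.w * y ^ S.m) hy hym
  have hneg1 : (-1 : E) ∈ S.Rm := hR.neg_mem 1 (one_mem_Rm S hR)
  have hca : -1 * (c * a) ∈ S.L S.Rm := hL.smulM _ hneg1 _ (hL.smulM c hc a ha)
  have hmem : y - c * a ∈ S.L S.Rm := by
    have : y - c * a = y + -1 * (c * a) := by ring
    rw [this]
    exact hL.addM y hy _ hca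
  have hdvd : S.PiDvd S.V (y - c * a) :=
    ⟨z₁ - c * z₂, sub_mem_V S hV hz₁ (hV.mul_mem _ (hV.of_Rm c hc) _ hz₂), by
      linear_combination e₁ - c * ea⟩
  obtain ⟨y', hy', e⟩ := hL.descM _ hmem hdvd
  exact ⟨c, hc, y', hy', by linear_combination e⟩

end Fermat.Agent.S18.CechStart
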