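import Fermat.Agent.S18.CechAsm
import Fermat.Agent.S18.CechRing
import Fermat.Agent.S18.CechNor
import Fermat.Agent.S18.CechFacts
import Fermat.Agent.S18.CechStart
import Fermat.Agent.S18.CechGlue

/-!
# S18, block [Cech] : the abstract two-chart lifting theorem

In the setting of `CechPlan.Setting` there is `h ≠ 0` with `w * h ^ m ∈ R0 ∩ Rinf`.
-/

set_option autoImplicit false

namespace Fermat.Agent.S18.Cech

open Fermat.Agent.S18.CechPlan

/-- Block [Cech], universe-polymorphic form. -/
theorem cech {O : Type*} [CommRing O] [IsDomain O] [IsDiscreteValuationRing O]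
    {E : Type*} [Field E] [Algebra O E] (S : Setting O E) : S.Conclusion := by
  have hR := CechRing.leafR S
  have hV := CechRing.leafV S hR
  have hL := CechL.leafL S hR hV
  have hN := CechNor.leafN S hR hV
  have hA := CechStart.leafA S hR hV hL hN
  have hB := CechStart.leafB S hR hV hL hN
  have hD := CechFacts.leafD S hR hV hL
  have hH := CechGlue.leafH S hR hV hL hB hD
  exact CechAsm.conclusion_of_leaves S hR hV hA hH

/-- Block [Cech] in the form of the Plan. -/
theorem cechStatement : CechStatement := fun _ _ _ _ _ _ _ S => cech S

end Fermat.Agent.S18.Cech
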