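/-
S18 — ConstK.lean (helper18): the char-`ℓ` leaf `ConstStatement` (a function on the reduced curve
without poles is constant), IGUSA-FREE.

General statement: `K` algebraically closed, `F / K` a field extension, `t ∈ F` transcendental with
`F / K(t)` finite separable.  If `f ∈ F` has order `≥ 0` at every place of `F / K`, then `f ∈ K`.
Proof: `f` is integral over `K[t]` and over `K[t⁻¹]` (the integral closures are Dedekind domains,
hence intersections of their localisations), so the minimal polynomial of `f` over `K(t)` has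
coefficients in `K[t] ∩ K[t⁻¹] = K`.

Application: `Red.ConstStatement N A` for every valuation subring `A` of `ℚ̄` over a prime `ℓ`
(finiteness of `F_k / k(j̄)`: `SepDeg`, helper69; separability: `SepLaurent`, helper30/helper48).
-/
import Mathlib
import Fermat.Agent.S18.Red
import Fermat.Agent.S18.BaseRes
import Fermat.Agent.S18.SepDeg
import Fermat.Agent.S18.SepLaurent
import Fermat.Agent.S24.RamSum
import Fermat.Agent.S24.PlacesDedekind
import Fermat.Agent.S24.Principal

set_option autoImplicit false

namespace Fermat.Agent.S18.ConstK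

open AlgebraicCurve IntermediateField IsDedekindDomain Polynomial
open scoped IntermediateField.algebraAdjoinAdjoin

section General

variable {K F : Type*} [Field K] [Field F] [Algebra K F]

/-! ### `K[t] ∩ K[t⁻¹] = K` -/

theorem mem_range_of_mem_adjoin_inv {t : F} (ht : Transcendental K t) {x : F}
    (h1 : x ∈ Algebra.adjoin K {t}) (h2 : x ∈ Algebra.adjoin K {t⁻¹}) :
    x ∈ Set.range (algebraMap K F) := by
  rw [Algebra.adjoin_singleton_eq_range_aeval] at h1 h2
  obtain ⟨p, rfl⟩ := h1
  obtain ⟨q, hq⟩ := h2
  change Polynomial.aeval t⁻¹ q = Polynomial.aeval t p at hq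
  have ht0 : t ≠ 0 := fun h => ht (h ▸ isAlgebraic_zero)
  let _ : Invertible t := invertibleOfNonzero ht0
  have hinv : ⅟t = t⁻¹ := invOf_eq_inv t
  set n := q.natDegree with hn
  have hrefl_deg : (Polynomial.reflect n q).natDegree ≤ n := by
    rw [Polynomial.natDegree_le_iff_coeff_eq_zero]
    intro N hN
    rw [Polynomial.coeff_reflect, Polynomial.revAt_eq_self_of_lt hN]
    exact Polynomial.coeff_eq_zero_of_natDegree_lt hN
  have hrr : Polynomial.reflect n (Polynomial.reflect n q) = q := by
    ext i
    rw [Polynomial.coeff_reflect, Polynomial.coeff_reflect, Polynomial.revAt_invol]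
  -- `aeval t⁻¹ q * t ^ n = aeval t (reflect n q)`
  have key : Polynomial.aeval t⁻¹ q * t ^ n = Polynomial.aeval t (Polynomial.reflect n q) := by
    have := Polynomial.eval₂_reflect_mul_pow (algebraMap K F) t n (Polynomial.reflect n q)
      hrefl_deg
    rw [hrr, hinv] at this
    exact this
  have hinj : Function.Injective (Polynomial.aeval t : K[X] →ₐ[K] F) :=
    transcendental_iff_injective.mp ht
  have heq : p * Polynomial.X ^ n = Polynomial.reflect n q := by
    apply hinj
    rw [map_mul, map_pow, Polynomial.aeval_X, ← key, ← hq]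
  rcases eq_or_ne p 0 with rfl | hp
  · exact ⟨0, by simp⟩
  have hdeg : (p * Polynomial.X ^ n).natDegree ≤ n := by
    rw [heq]; exact hrefl_deg
  rw [Polynomial.natDegree_mul_X_pow n hp] at hdeg
  have hp0 : p.natDegree = 0 := by omega
  obtain ⟨c, rfl⟩ := Polynomial.natDegree_eq_zero.mp hp0
  exact ⟨c, by simp⟩

/-! ### Functions without poles away from the poles of `t` are integral over `K[t]` -/

open Fermat.Agent.S24 in
theorem isIntegral_adjoin_of_forall_ord_nonneg {t : F} (ht : Transcendental K t)
    [FiniteDimensional K⟮t⟯ F] [Algebra.IsSeparable K⟮t⟯ F] {f : F}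
    (h : ∀ v : Place K F, 0 ≤ v.ord f) : IsIntegral (↥(Algebra.adjoin K {t})) f := by
  have := RamSum.isPrincipalIdealRing_adjoin t ht
  have hD : IsDedekindDomain (RamSum.B K t) :=
    integralClosure.isDedekindDomain (↥(Algebra.adjoin K {t})) K⟮t⟯ F
  have hFr : IsFractionRing (RamSum.B K t) F :=
    integralClosure.isFractionRing_of_finite_extension K⟮t⟯ F
  have hval : ∀ P : HeightOneSpectrum (RamSum.B K t), P.valuation F f ≤ 1 := by
    intro P
    have h1 := h (Place.ofHeightOneSpectrum (K := K) (F := F) P)
    rw [ord_ofHeightOneSpectrum] at h1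
    rcases eq_or_ne f 0 with rfl | hf
    · simp
    have h2 : WithZero.log (P.valuation F f) ≤ 0 := by omega
    have hne : P.valuation F f ≠ 0 := (Valuation.ne_zero_iff _).mpr hf
    rw [WithZero.log_le_iff_le_exp hne] at h2
    simpa using h2
  obtain ⟨b, hb⟩ := HeightOneSpectrum.mem_integers_of_valuation_le_one F f hval
  rw [← hb]
  exact b.2

theorem finiteDimensional_of_eq {E₁ E₂ : IntermediateField K F} (h : E₁ = E₂)
    [FiniteDimensional E₂ F] : FiniteDimensional E₁ F := by
  subst h; infer_instance

theorem isSeparable_of_eq {E₁ E₂ : IntermediateField K F} (h : E₁ = E₂)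
    [Algebra.IsSeparable E₂ F] : Algebra.IsSeparable E₁ F := by
  subst h; infer_instance

theorem map_minpoly_eq_of_eq {E₁ E₂ : IntermediateField K F} (h : E₁ = E₂) (f : F) :
    (minpoly E₁ f).map (algebraMap E₁ F) = (minpoly E₂ f).map (algebraMap E₂ F) := by
  subst h; rfl

open Fermat.Agent.S24 in
theorem coeff_minpoly_mem_adjoin {t : F} (ht : Transcendental K t) {f : F}
    (hf : IsIntegral (↥(Algebra.adjoin K {t})) f) (i : ℕ) :
    ((minpoly K⟮t⟯ f).map (algebraMap K⟮t⟯ F)).coeff i ∈ Algebra.adjoin K {t} := by
  have := RamSum.isPrincipalIdealRing_adjoin t ht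
  rw [minpoly.isIntegrallyClosed_eq_field_fractions' K⟮t⟯ hf, Polynomial.map_map,
    ← IsScalarTower.algebraMap_eq, Polynomial.coeff_map]
  exact ((minpoly (↥(Algebra.adjoin K {t})) f).coeff i).2

open Fermat.Agent.S24 in
/-- An element integral over `K[t]` and over `K[t⁻¹]` is algebraic over `K`. -/
theorem isAlgebraic_of_isIntegral_adjoin {t : F} (ht : Transcendental K t) {f : F}
    (h1 : IsIntegral (↥(Algebra.adjoin K {t})) f)
    (h2 : IsIntegral (↥(Algebra.adjoin K {t⁻¹})) f) : IsAlgebraic K f := by
  have hint : IsIntegral K⟮t⟯ f := h1.tower_top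
  set P : F[X] := (minpoly K⟮t⟯ f).map (algebraMap K⟮t⟯ F) with hP
  have hPmonic : P.Monic := (minpoly.monic hint).map _
  have hcoeff : ∀ i, P.coeff i ∈ (algebraMap K F).range := by
    intro i
    have e1 : P.coeff i ∈ Algebra.adjoin K {t} := coeff_minpoly_mem_adjoin ht h1 i
    have e2 : P.coeff i ∈ Algebra.adjoin K {t⁻¹} := by
      rw [hP, ← map_minpoly_eq_of_eq (principal_adjoin_inv (K := K) t) f]
      exact coeff_minpoly_mem_adjoin (principal_transcendental_inv ht) h2 i
    exact mem_range_of_mem_adjoin_inv ht e1 e2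
  obtain ⟨p, hp⟩ := (Polynomial.lifts_iff_coeff_lifts P).mpr
    (fun i => by simpa using hcoeff i)
  replace hp : p.map (algebraMap K F) = P := hp
  refine ⟨p, ?_, ?_⟩
  · rintro rfl
    rw [Polynomial.map_zero] at hp
    exact hPmonic.ne_zero hp.symm
  · rw [Polynomial.aeval_def, ← Polynomial.eval_map, hp, hP, Polynomial.eval_map,
      ← Polynomial.aeval_def, minpoly.aeval]

open Fermat.Agent.S24 in
/-- **A function without poles is constant** (`K` algebraically closed, `F / K(t)` finite
separable; any characteristic). -/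
theorem mem_range_of_forall_ord_nonneg [IsAlgClosed K] {t : F} (ht : Transcendental K t)
    [FiniteDimensional K⟮t⟯ F] [Algebra.IsSeparable K⟮t⟯ F] {f : F}
    (h : ∀ v : Place K F, 0 ≤ v.ord f) : f ∈ Set.range (algebraMap K F) := by
  have h1 : IsIntegral (↥(Algebra.adjoin K {t})) f := isIntegral_adjoin_of_forall_ord_nonneg ht h
  have := finiteDimensional_of_eq (principal_adjoin_inv (K := K) t)
  have := isSeparable_of_eq (principal_adjoin_inv (K := K) t)
  have h2 : IsIntegral (↥(Algebra.adjoin K {t⁻¹})) f :=
    isIntegral_adjoin_of_forall_ord_nonneg (principal_transcendental_inv ht) h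
  have halg := isAlgebraic_of_isIntegral_adjoin ht h1 h2
  by_contra hc
  exact principal_transcendental_of_notMem_range hc halg

end General

/-! ### The reduced modular function field -/

section Modular

open ModularCurve

variable (k : Type*) [Field k] (N : ℕ) [NeZero N]

omit [NeZero N] in
/-- `j̄` is transcendental over the algebraically closed field `k` (it has a pole at `q = 0`). -/
theorem transcendental_jb [IsAlgClosed k] : Transcendental k (SepDeg.jb k N) := by
  intro halg
  have hint : IsIntegral k (SepDeg.jb k N) := halg.isIntegral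
  have hdeg : (minpoly k (SepDeg.jb k N)).degree = 1 :=
    IsAlgClosed.degree_eq_one_of_irreducible k (minpoly.irreducible hint)
  obtain ⟨c, hc⟩ := minpoly.mem_range_of_degree_eq_one k (SepDeg.jb k N) hdeg
  have h1 : algebraMap k (LaurentSeries k) c = jqModC k :=
    congrArg (fun x : ↥(modularFunctionFieldFullC k N) => (x : LaurentSeries k)) hc
  have h2 := coeff_jqModC_neg_one k
  rw [← h1, algebraMap_laurentSeries_eq_single, HahnSeries.coeff_single_of_ne (by norm_num)] at h2
  exact zero_ne_one h2

set_option synthInstance.maxHeartbeats 400000 in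
/-- A function of the reduced function field `F_k` without poles is constant (`k` algebraically
closed of characteristic `ℓ`). -/
theorem mem_range_of_forall_ord_nonneg_full (ℓ : ℕ) [Fact ℓ.Prime] [CharP k ℓ] [IsAlgClosed k]
    (f : ↥(modularFunctionFieldFullC k N))
    (h : ∀ Q : Place k ↥(modularFunctionFieldFullC k N), 0 ≤ Q.ord f) :
    f ∈ Set.range (algebraMap k ↥(modularFunctionFieldFullC k N)) := by
  have hfd := SepDeg.finiteDimensional_full k N
  have hsep := SepDeg.isSeparable_full_of k N ℓ Fact.out
    (fun t ht ht0 x hx => SepLaurent.isSeparable_of_mem_laurent ℓ t ht ht0 x hx)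
  exact mem_range_of_forall_ord_nonneg (transcendental_jb k N) h

end Modular

/-- **[Const]**: the leaf `Red.ConstStatement N A` for a valuation subring `A` of `ℚ̄` lying over a
prime `ℓ`. -/
theorem constStatement (N : ℕ) [NeZero N] {ℓ : ℕ} [Fact ℓ.Prime]
    (A : ValuationSubring (AlgebraicClosure ℚ)) (hA : A.LiesOverPrime ℓ) :
    Red.ConstStatement N A := by
  intro f _ hf
  have := BaseRes.charP_residueField ℓ A hA
  have := BaseRes.isAlgClosed_residueField A
  obtain ⟨c, hc⟩ := mem_range_of_forall_ord_nonneg_full (IsLocalRing.ResidueField A) N ℓ f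
    (fun Q => (hf Q).ge)
  exact ⟨c, hc.symm⟩

end Fermat.Agent.S18.ConstK
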