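/-
T4 / S18, block [Dict], piece (2) (owner: helper30).

A valuation subring `W` of a field `F'` in which every nonzero element is a power of a fixed
nonunit `t` times a unit is a discrete valuation ring with uniformizer `t`; if `W` contains the
constants it is a `Place`, and orders are read off from the exponent.
-/
import Mathlib
import Fermat.Prelude.Def_AlgebraicCurve_DivisorClassGroup

set_option autoImplicit false

noncomputable section

namespace Fermat.Agent.S18.PlaceOfUnif

open AlgebraicCurve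

section Field

variable {F' : Type*} [Field F'] (W : ValuationSubring F')

/-- A nonzero element has valuation one iff it and its inverse lie in `W`. -/
theorem valuation_eq_one_iff_mem {x : F'} (hx : x ≠ 0) :
    W.valuation x = 1 ↔ x ∈ W ∧ x⁻¹ ∈ W := by
  have h0 : 0 < W.valuation x := (Valuation.pos_iff _).2 hx
  rw [← W.valuation_le_one_iff, ← W.valuation_le_one_iff, map_inv₀, inv_le_one₀ h0]
  exact ⟨fun h => ⟨h.le, h.ge⟩, fun h => le_antisymm h.1 h.2⟩

/-- **Uniformizer criterion.**  If `t ∈ W` is a nonunit such that every nonzero element of `F'`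
is a power of `t` times a unit of `W`, then `t` is irreducible in `W` and every nonzero element
of `W` is associated to a power of `t`. -/
theorem exists_irreducible_of_uniformizer (t : F') (htW : t ∈ W) (htn : t⁻¹ ∉ W)
    (hgood : ∀ x : F', x ≠ 0 → ∃ n : ℤ, x * t ^ n ∈ W ∧ (x * t ^ n)⁻¹ ∈ W) :
    Irreducible (⟨t, htW⟩ : W) ∧
      ∀ x : W, x ≠ 0 → ∃ n : ℕ, ∃ u : Wˣ, (⟨t, htW⟩ : W) ^ n * u = x := by
  have ht0 : t ≠ 0 := by
    rintro rfl
    exact htn (by rw [inv_zero]; exact W.zero_mem)
  have hγ0 : 0 < W.valuation t := (Valuation.pos_iff _).2 ht0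
  have hγ1 : W.valuation t < 1 := by
    refine lt_of_le_of_ne ((W.valuation_le_one_iff _).2 htW) ?_
    intro h
    exact htn ((valuation_eq_one_iff_mem W ht0).1 h).2
  -- the factorisation
  have claim : ∀ x : W, x ≠ 0 → ∃ n : ℕ, ∃ u : Wˣ, (⟨t, htW⟩ : W) ^ n * u = x := by
    intro x hx
    have hxF : (x : F') ≠ 0 := fun h => hx (Subtype.ext h)
    obtain ⟨k, hk1, hk2⟩ := hgood x hxF
    have hy0 : (x : F') * t ^ k ≠ 0 := mul_ne_zero hxF (zpow_ne_zero _ ht0)
    have hv1 : W.valuation ((x : F') * t ^ k) = 1 :=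
      (valuation_eq_one_iff_mem W hy0).2 ⟨hk1, hk2⟩
    have hvx : W.valuation (x : F') = W.valuation t ^ (-k) := by
      have h1 : W.valuation (x : F') * W.valuation t ^ k = 1 := by
        rw [← hv1, map_mul, map_zpow₀]
      rw [zpow_neg]
      exact eq_inv_of_mul_eq_one_left h1
    have hk : 0 ≤ -k := by
      have hx1 : W.valuation (x : F') ≤ 1 := (W.valuation_le_one_iff _).2 x.2
      rw [hvx] at hx1
      exact (zpow_le_one_iff_right_of_lt_one₀ hγ0 hγ1).1 hx1
    refine ⟨(-k).toNat, ⟨⟨(x : F') * t ^ k, hk1⟩, ⟨((x : F') * t ^ k)⁻¹, hk2⟩, ?_, ?_⟩, ?_⟩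
    · exact Subtype.ext (mul_inv_cancel₀ hy0)
    · exact Subtype.ext (inv_mul_cancel₀ hy0)
    · apply Subtype.ext
      show t ^ (-k).toNat * ((x : F') * t ^ k) = (x : F')
      have h2 : t ^ (-k).toNat = t ^ (-k) := by
        rw [← zpow_natCast, Int.toNat_of_nonneg hk]
      rw [h2, mul_comm, mul_assoc, ← zpow_add₀ ht0, add_neg_cancel, zpow_zero, mul_one]
  have hval_unit : ∀ u : Wˣ, W.valuation ((u : W) : F') = 1 := fun u =>
    (W.valuation_eq_one_iff _).1 u.isUnit
  have hnonunit : ∀ x : W, ¬ IsUnit x → W.valuation (x : F') ≤ W.valuation t := by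
    intro x hx
    by_cases hx0 : x = 0
    · rw [hx0]; simp
    obtain ⟨n, u, hnu⟩ := claim x hx0
    have hn : n ≠ 0 := by
      rintro rfl
      rw [pow_zero, one_mul] at hnu
      exact hx (hnu ▸ u.isUnit)
    have h1 : W.valuation (x : F') = W.valuation t ^ n := by
      rw [← hnu]
      show W.valuation (t ^ n * ((u : W) : F')) = _
      rw [map_mul, map_pow, hval_unit u, mul_one]
    rw [h1]
    exact pow_le_of_le_one hγ0.le hγ1.le hn
  refine ⟨?_, claim⟩
  rw [irreducible_iff]
  constructor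
  · intro hu
    have h1 := (W.valuation_eq_one_iff _).1 hu
    exact absurd h1 hγ1.ne
  · intro a b hab
    by_contra hcon
    rw [not_or] at hcon
    have ha := hnonunit a hcon.1
    have hb := hnonunit b hcon.2
    have h1 : W.valuation t = W.valuation (a : F') * W.valuation (b : F') := by
      rw [← map_mul]
      have h2 := congrArg (fun z : W => (z : F')) hab
      exact congrArg W.valuation h2
    have h3 : W.valuation t ≤ W.valuation t * W.valuation t := by
      calc W.valuation t = _ := h1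
        _ ≤ _ := mul_le_mul' ha hb
    have h4 : W.valuation t * W.valuation t < W.valuation t * 1 :=
      mul_lt_mul_of_pos_left hγ1 hγ0
    rw [mul_one] at h4
    exact absurd (lt_of_le_of_lt h3 h4) (lt_irrefl _)

/-- `W` is a discrete valuation ring as soon as it has a uniformizer in the above sense. -/
theorem isDiscreteValuationRing_of_uniformizer (t : F') (htW : t ∈ W) (htn : t⁻¹ ∉ W)
    (hgood : ∀ x : F', x ≠ 0 → ∃ n : ℤ, x * t ^ n ∈ W ∧ (x * t ^ n)⁻¹ ∈ W) :
    IsDiscreteValuationRing W := by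
  obtain ⟨hp, hfac⟩ := exists_irreducible_of_uniformizer W t htW htn hgood
  exact IsDiscreteValuationRing.ofHasUnitMulPowIrreducibleFactorization
    ⟨_, hp, fun {x} hx => hfac x hx⟩

end Field

/-- **[Dict], piece (2).**  A valuation subring `W ⊇ k'` of `F'` with a uniformizer `t` (every
nonzero element is `t^(-n)` times a unit) is a place of `F'/k'`, and `ord x = -n` whenever
`x * t^n` is a unit of `W`. -/
theorem exists_place_of_uniformizer {k' F' : Type*} [Field k'] [Field F'] [Algebra k' F']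
    (W : ValuationSubring F') (hconst : ∀ c : k', algebraMap k' F' c ∈ W)
    (t : F') (htW : t ∈ W) (htn : t⁻¹ ∉ W)
    (hgood : ∀ x : F', x ≠ 0 → ∃ n : ℤ, x * t ^ n ∈ W ∧ (x * t ^ n)⁻¹ ∈ W) :
    ∃ P : AlgebraicCurve.Place k' F', P.toValuationSubring = W ∧
      ∀ (x : F') (n : ℤ), x ≠ 0 → x * t ^ n ∈ W → (x * t ^ n)⁻¹ ∈ W → P.ord x = -n := by
  have ht0 : t ≠ 0 := by
    rintro rfl
    exact htn (by rw [inv_zero]; exact W.zero_mem)
  obtain ⟨hp, -⟩ := exists_irreducible_of_uniformizer W t htW htn hgood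
  have hdvr : IsDiscreteValuationRing W := isDiscreteValuationRing_of_uniformizer W t htW htn hgood
  have hne : W ≠ ⊤ := by
    intro h
    exact htn (h ▸ ValuationSubring.mem_top _)
  refine ⟨⟨W, hconst, hne, inferInstance⟩, rfl, ?_⟩
  intro x n hx h1 h2
  have hy0 : x * t ^ n ≠ 0 := mul_ne_zero hx (zpow_ne_zero _ ht0)
  have hx' : x = (((⟨⟨x * t ^ n, h1⟩, ⟨(x * t ^ n)⁻¹, h2⟩, Subtype.ext (mul_inv_cancel₀ hy0),
      Subtype.ext (inv_mul_cancel₀ hy0)⟩ : Wˣ) : W) : F') * ((⟨t, htW⟩ : W) : F') ^ (-n) := by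
    show x = x * t ^ n * t ^ (-n)
    rw [mul_assoc, ← zpow_add₀ ht0, add_neg_cancel, zpow_zero, mul_one]
  conv_lhs => rw [hx']
  exact Place.ord_unit_smul_zpow (⟨W, hconst, hne, inferInstance⟩ : Place k' F') _ hp (-n)

end Fermat.Agent.S18.PlaceOfUnif
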