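/-
T4 / S18 (owner: helper30).  The abstract *unramified step* in valuation-subring form.

`A` is a valuation subring of a field `F`; `O1` is a commutative ring mapping to `A` (in the
applications: the valuation ring `A ∩ E` of a subfield `E`), with a surjection `r1` onto a field
`k1` compatible with the residue map of `A`, and an element `π1` dividing every element of `O1`
that is a nonunit of `A` (a uniformizer).  If `θ ∈ A` is a root of a polynomial `g ∈ O1[X]` with
`g'(θ)` a unit of `A` (i.e. `θ` is a simple root modulo the maximal ideal), then in the ring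
`O1[θ][1/π]` every element that is a nonunit of `A` is divisible by `π`: the extension is
unramified.

Used for `K1(ζ_n)/K1` with `ℓ ∤ n` (block [Base]) and for constant field extensions of function
fields (block [Dict]).
-/
import Mathlib

set_option autoImplicit false

namespace Fermat.Agent.S18.Unram

open Polynomial

section Core

variable {F : Type*} [Field F] (A : ValuationSubring F)
  {O1 : Type*} [CommRing O1] (ι : O1 →+* A)
  {k1 : Type*} [Field k1] (r1 : O1 →+* k1)
  (φ : k1 →+* IsLocalRing.ResidueField A)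
  (π1 : O1) (g : O1[X]) (θ : A)

/-- Reduction is compatible with evaluation. -/
theorem eval₂_map_residue (hφ : ∀ c, φ (r1 c) = IsLocalRing.residue A (ι c)) (Q : O1[X]) :
    (Q.map r1).eval₂ φ (IsLocalRing.residue A θ) = IsLocalRing.residue A (Q.eval₂ ι θ) := by
  rw [Polynomial.eval₂_map, Polynomial.hom_eval₂]
  congr 1
  ext c
  exact hφ c

/-- **Key divisibility.**  If `P(θ)` is a nonunit of `A`, some `E(θ)`, a unit of `A`,
multiplies it into `π·O1[θ]`. -/
theorem exists_mul_eq_pi_mul (hr1 : Function.Surjective r1)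
    (hφ : ∀ c, φ (r1 c) = IsLocalRing.residue A (ι c))
    (hπ : ∀ c : O1, IsLocalRing.residue A (ι c) = 0 → ∃ c', c = π1 * c')
    (hg : g.eval₂ ι θ = 0)
    (hg' : IsLocalRing.residue A (g.derivative.eval₂ ι θ) ≠ 0)
    (P : O1[X]) (hP : IsLocalRing.residue A (P.eval₂ ι θ) = 0) :
    ∃ E T : O1[X], IsLocalRing.residue A (E.eval₂ ι θ) ≠ 0 ∧
      E.eval₂ ι θ * P.eval₂ ι θ = ι π1 * T.eval₂ ι θ := by
  classical
  have hcomp := eval₂_map_residue A ι r1 φ θ hφ
  obtain ⟨c, hc⟩ := EuclideanDomain.gcd_dvd_left (P.map r1) (g.map r1)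
  obtain ⟨e, he⟩ := EuclideanDomain.gcd_dvd_right (P.map r1) (g.map r1)
  have hd0 : (EuclideanDomain.gcd (P.map r1) (g.map r1)).eval₂ φ (IsLocalRing.residue A θ) = 0 := by
    rw [EuclideanDomain.gcd_eq_gcd_ab (P.map r1) (g.map r1), eval₂_add, eval₂_mul, eval₂_mul,
      hcomp P, hcomp g, hP, hg, map_zero, zero_mul, zero_mul, add_zero]
  have he0 : e.eval₂ φ (IsLocalRing.residue A θ) ≠ 0 := by
    intro h0
    apply hg'
    rw [← hcomp, ← Polynomial.derivative_map, he, derivative_mul, eval₂_add, eval₂_mul, eval₂_mul,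
      h0, hd0, mul_zero, zero_mul, add_zero]
  obtain ⟨E, hE⟩ := Polynomial.map_surjective r1 hr1 e
  obtain ⟨C, hC⟩ := Polynomial.map_surjective r1 hr1 c
  have hzero : (E * P - C * g).map r1 = 0 := by
    rw [Polynomial.map_sub, Polynomial.map_mul, Polynomial.map_mul, hE, hC]
    nth_rewrite 1 [hc]
    nth_rewrite 2 [he]
    ring
  have hdvd : Polynomial.C π1 ∣ E * P - C * g := by
    rw [Polynomial.C_dvd_iff_dvd_coeff]
    intro i
    have h1 : r1 ((E * P - C * g).coeff i) = 0 := by
      rw [← Polynomial.coeff_map, hzero, coeff_zero]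
    have h2 : IsLocalRing.residue A (ι ((E * P - C * g).coeff i)) = 0 := by
      rw [← hφ, h1, map_zero]
    obtain ⟨c', hc'⟩ := hπ _ h2
    exact ⟨c', hc'⟩
  obtain ⟨T, hT⟩ := hdvd
  refine ⟨E, T, ?_, ?_⟩
  · rw [← hcomp, hE]; exact he0
  · have h3 := congrArg (fun Q => Q.eval₂ ι θ) hT
    simp only [eval₂_sub, eval₂_mul, eval₂_C, hg, mul_zero, sub_zero] at h3
    exact h3

/-- Iterated form: if `P(θ)` has valuation `< v(π)^k`, then a unit `E(θ)` multiplies it into
`π^(k+1)·O1[θ]`. -/
theorem exists_mul_eq_pi_pow_mul (hr1 : Function.Surjective r1)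
    (hφ : ∀ c, φ (r1 c) = IsLocalRing.residue A (ι c))
    (hπ : ∀ c : O1, IsLocalRing.residue A (ι c) = 0 → ∃ c', c = π1 * c')
    (hg : g.eval₂ ι θ = 0)
    (hg' : IsLocalRing.residue A (g.derivative.eval₂ ι θ) ≠ 0) :
    ∀ (k : ℕ) (P : O1[X]),
      A.valuation ((P.eval₂ ι θ : A) : F) < A.valuation ((ι π1 : A) : F) ^ k →
      ∃ E T : O1[X], A.valuation ((E.eval₂ ι θ : A) : F) = 1 ∧
        E.eval₂ ι θ * P.eval₂ ι θ = ι π1 ^ (k + 1) * T.eval₂ ι θ := by
  have key := exists_mul_eq_pi_mul A ι r1 φ π1 g θ hr1 hφ hπ hg hg'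
  have hres : ∀ a : A, A.valuation (a : F) < 1 → IsLocalRing.residue A a = 0 := fun a ha =>
    (IsLocalRing.residue_eq_zero_iff a).2 ((A.valuation_lt_one_iff a).2 ha)
  have hunit : ∀ a : A, IsLocalRing.residue A a ≠ 0 → A.valuation (a : F) = 1 := fun a ha =>
    (A.valuation_lt_one_or_eq_one a).resolve_left (fun h => ha (hres a h))
  intro k
  induction k with
  | zero =>
    intro P hP
    rw [pow_zero] at hP
    obtain ⟨E, T, hE, hET⟩ := key P (hres _ hP)
    exact ⟨E, T, hunit _ hE, by rw [zero_add, pow_one]; exact hET⟩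
  | succ k ih =>
    intro P hP
    have hπle : A.valuation ((ι π1 : A) : F) ≤ 1 := A.valuation_le_one _
    have hP' : A.valuation ((P.eval₂ ι θ : A) : F) < A.valuation ((ι π1 : A) : F) ^ k :=
      lt_of_lt_of_le hP (pow_le_pow_right_of_le_one' hπle (Nat.le_succ k))
    obtain ⟨E, T, hE, hET⟩ := ih P hP'
    have hval : A.valuation ((P.eval₂ ι θ : A) : F)
        = A.valuation ((ι π1 : A) : F) ^ (k + 1) * A.valuation ((T.eval₂ ι θ : A) : F) := by
      have h1 := congrArg (fun a : A => A.valuation (a : F)) hET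
      simp only [MulMemClass.coe_mul, SubmonoidClass.coe_pow, map_mul, map_pow, hE, one_mul] at h1
      exact h1
    have hT : A.valuation ((T.eval₂ ι θ : A) : F) < 1 := by
      rcases A.valuation_lt_one_or_eq_one (T.eval₂ ι θ) with h | h
      · exact h
      · rw [h, mul_one] at hval
        rw [hval] at hP
        exact absurd hP (lt_irrefl _)
    obtain ⟨E', T', hE', hET'⟩ := key T (hres _ hT)
    refine ⟨E' * E, T', ?_, ?_⟩
    · rw [eval₂_mul, MulMemClass.coe_mul, map_mul, hE, hunit _ hE', one_mul]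
    · rw [eval₂_mul, mul_assoc, hET, ← mul_assoc, mul_comm (eval₂ ι θ E') _, mul_assoc, hET']
      ring

/-- **Unramified step.**  An element `P(θ)` of `O1[θ]` of valuation `< v(π)^k` has valuation
`≤ v(π)^(k+1)`. -/
theorem valuation_le_pi_pow_succ (hr1 : Function.Surjective r1)
    (hφ : ∀ c, φ (r1 c) = IsLocalRing.residue A (ι c))
    (hπ : ∀ c : O1, IsLocalRing.residue A (ι c) = 0 → ∃ c', c = π1 * c')
    (hg : g.eval₂ ι θ = 0)
    (hg' : IsLocalRing.residue A (g.derivative.eval₂ ι θ) ≠ 0)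
    (k : ℕ) (P : O1[X])
    (hP : A.valuation ((P.eval₂ ι θ : A) : F) < A.valuation ((ι π1 : A) : F) ^ k) :
    A.valuation ((P.eval₂ ι θ : A) : F) ≤ A.valuation ((ι π1 : A) : F) ^ (k + 1) := by
  obtain ⟨E, T, hE, hET⟩ :=
    exists_mul_eq_pi_pow_mul A ι r1 φ π1 g θ hr1 hφ hπ hg hg' k P hP
  have h1 := congrArg (fun a : A => A.valuation (a : F)) hET
  simp only [MulMemClass.coe_mul, SubmonoidClass.coe_pow, map_mul, map_pow, hE, one_mul] at h1
  rw [h1]
  exact mul_le_of_le_one_right' (A.valuation_le_one _)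

end Core

end Fermat.Agent.S18.Unram
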