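/-
T4 / S18, block [Dict], A-track core (owner: helper30).

`exists_place_extension`: a place `v` of a function field `F/k` (characteristic `0`) extends,
with ramification index `1`, to a place of any field `F' ⊇ F` generated over `F` by constants
algebraic over `k` (a constant field extension).

Ingredients: a valuation subring `W` of `F'` dominating `O_v` (Mathlib), the unramified step
`Unram.valuation_le_pi_pow_succ` (adjoining one separable constant does not change the value
group), induction over finite sets of constants, and `PlaceOfUnif.exists_place_of_uniformizer`.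
-/
import Mathlib
import Fermat.Prelude.Def_AlgebraicCurve_DivisorClassGroup
import Fermat.Agent.S18.Unram
import Fermat.Agent.S18.PlaceOfUnif

set_option autoImplicit false

noncomputable section

namespace Fermat.Agent.S18.DictCore

open Polynomial

section Step

variable {Ω : Type*} [Field Ω] (W : ValuationSubring Ω)

/-- "Every nonzero element of `E` is a power of `t` times a unit of `W`." -/
def Good (t : Ω) (E : Subfield Ω) : Prop :=
  ∀ x ∈ E, x ≠ 0 → ∃ n : ℤ, x * t ^ n ∈ W ∧ (x * t ^ n)⁻¹ ∈ W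

/-- A root of a nonzero polynomial with coefficients in a field inside `W` lies in `W`. -/
theorem mem_of_eval₂_eq_zero {k : Type*} [Field k] (σ : k →+* Ω) (hσW : ∀ a, σ a ∈ W)
    (p : k[X]) (hp : p ≠ 0) (θ : Ω) (h : p.eval₂ σ θ = 0) : θ ∈ W := by
  have hint : IsIntegral W θ := by
    refine ⟨(p * C p.leadingCoeff⁻¹).map (σ.codRestrict W hσW),
      (monic_mul_leadingCoeff_inv hp).map _, ?_⟩
    rw [eval₂_map]
    have hcomp : (algebraMap W Ω).comp (σ.codRestrict W hσW) = σ := RingHom.ext fun _ => rfl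
    rw [hcomp, eval₂_mul, h, zero_mul]
  obtain ⟨y, hy⟩ := (IsIntegrallyClosed.isIntegral_iff (R := W) (K := Ω)).1 hint
  rw [← hy]
  exact y.2

/-- The inclusion `W ∩ E → W`. -/
def incl (E : Subfield Ω) : ↥(W.comap E.subtype) →+* W where
  toFun x := ⟨((x : E) : Ω), x.2⟩
  map_one' := rfl
  map_mul' _ _ := rfl
  map_zero' := rfl
  map_add' _ _ := rfl

theorem isLocalHom_incl (E : Subfield Ω) : IsLocalHom (incl W E) := by
  constructor
  intro a ha
  obtain ⟨b, hb⟩ := isUnit_iff_exists_inv.1 ha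
  have h1 : ((a : E) : Ω) * (b : Ω) = 1 := congrArg Subtype.val hb
  have ha0 : (a : E) ≠ 0 := by
    intro h0
    rw [h0] at h1
    simp at h1
  have hinv : (((a : E)⁻¹ : E) : Ω) = (b : Ω) := by
    have h2 : (((a : E)⁻¹ : E) : Ω) = ((a : E) : Ω)⁻¹ := rfl
    rw [h2]
    exact (eq_inv_of_mul_eq_one_right h1).symm
  refine isUnit_iff_exists_inv.2 ⟨⟨(a : E)⁻¹, ?_⟩, ?_⟩
  · show (((a : E)⁻¹ : E) : Ω) ∈ W
    rw [hinv]
    exact b.2
  · exact Subtype.ext (mul_inv_cancel₀ ha0)

/-- **One step.**  Adjoining to a `Good` subfield `E` a root `θ` of a separable polynomial with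
coefficients in a field of constants inside `E ∩ W` gives a `Good` subfield (same `t`). -/
theorem good_adjoin (t : Ω) (E : Subfield Ω) (htE : t ∈ E) (htW : t ∈ W) (htn : t⁻¹ ∉ W)
    (hE : Good W t E) {k : Type*} [Field k] (σ : k →+* Ω) (hσE : ∀ a, σ a ∈ E)
    (hσW : ∀ a, σ a ∈ W) (g : k[X]) (hg : g.Separable) (θ : Ω) (hgθ : g.eval₂ σ θ = 0) :
    Good W t (Subfield.closure ((E : Set Ω) ∪ {θ})) := by
  classical
  have ht0 : t ≠ 0 := by
    rintro rfl
    exact htn (by rw [inv_zero]; exact W.zero_mem)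
  have hγ0 : 0 < W.valuation t := (Valuation.pos_iff _).2 ht0
  have hγ1 : W.valuation t < 1 := by
    refine lt_of_le_of_ne ((W.valuation_le_one_iff _).2 htW) ?_
    intro h
    exact htn ((PlaceOfUnif.valuation_eq_one_iff_mem W ht0).1 h).2
  have hθW : θ ∈ W := mem_of_eval₂_eq_zero W σ hσW g hg.ne_zero θ hgθ
  have := isLocalHom_incl W E
  -- the data for the unramified step
  let π1 : ↥(W.comap E.subtype) := ⟨⟨t, htE⟩, htW⟩
  let j : k →+* ↥(W.comap E.subtype) :=
    { toFun := fun a => ⟨⟨σ a, hσE a⟩, hσW a⟩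
      map_one' := Subtype.ext (Subtype.ext (map_one σ))
      map_mul' := fun a b => Subtype.ext (Subtype.ext (map_mul σ a b))
      map_zero' := Subtype.ext (Subtype.ext (map_zero σ))
      map_add' := fun a b => Subtype.ext (Subtype.ext (map_add σ a b)) }
  have hcompσ : (W.subtype.comp ((incl W E).comp j)) = σ := RingHom.ext fun _ => rfl
  have hφ : ∀ c : ↥(W.comap E.subtype),
      IsLocalRing.ResidueField.map (incl W E) (IsLocalRing.residue _ c)
        = IsLocalRing.residue W (incl W E c) := fun c =>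
    IsLocalRing.ResidueField.map_residue (incl W E) c
  have hres_lt : ∀ a : W, IsLocalRing.residue W a = 0 → W.valuation (a : Ω) < 1 := fun a ha =>
    (W.valuation_lt_one_iff a).1 ((IsLocalRing.residue_eq_zero_iff a).1 ha)
  have hπ : ∀ c : ↥(W.comap E.subtype), IsLocalRing.residue W (incl W E c) = 0 →
      ∃ c', c = π1 * c' := by
    intro c hc
    have hc1 : W.valuation (((c : E) : Ω)) < 1 := hres_lt _ hc
    by_cases hc0 : ((c : E) : Ω) = 0
    · refine ⟨0, ?_⟩
      rw [mul_zero]
      exact Subtype.ext (Subtype.ext hc0)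
    · obtain ⟨n, hn1, hn2⟩ := hE _ (c : E).2 hc0
      have hy0 : ((c : E) : Ω) * t ^ n ≠ 0 := mul_ne_zero hc0 (zpow_ne_zero _ ht0)
      have hv1 : W.valuation (((c : E) : Ω) * t ^ n) = 1 :=
        (PlaceOfUnif.valuation_eq_one_iff_mem W hy0).2 ⟨hn1, hn2⟩
      have hvc : W.valuation (((c : E) : Ω)) = W.valuation t ^ (-n) := by
        have h1 : W.valuation (((c : E) : Ω)) * W.valuation t ^ n = 1 := by
          rw [← hv1, map_mul, map_zpow₀]
        rw [zpow_neg]
        exact eq_inv_of_mul_eq_one_left h1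
      have hn : 0 < -n := by
        rw [hvc] at hc1
        exact (zpow_lt_one_iff_right_of_lt_one₀ hγ0 hγ1).1 hc1
      have hdiv : ((c : E) : Ω) / t ∈ W := by
        rw [← W.valuation_le_one_iff, map_div₀, hvc, div_eq_mul_inv, ← zpow_neg_one,
          ← zpow_add₀ hγ0.ne']
        exact (zpow_le_one_iff_right_of_lt_one₀ hγ0 hγ1).2 (by omega)
      refine ⟨⟨⟨((c : E) : Ω) / t, div_mem (c : E).2 htE⟩, hdiv⟩, ?_⟩
      apply Subtype.ext
      apply Subtype.ext
      show ((c : E) : Ω) = t * (((c : E) : Ω) / t)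
      field_simp
  have hG : (g.map j).eval₂ (incl W E) (⟨θ, hθW⟩ : W) = 0 := by
    apply Subtype.ext
    show W.subtype ((g.map j).eval₂ (incl W E) (⟨θ, hθW⟩ : W)) = 0
    rw [eval₂_map, hom_eval₂, hcompσ]
    exact hgθ
  have hG' : IsLocalRing.residue W ((g.map j).derivative.eval₂ (incl W E) (⟨θ, hθW⟩ : W)) ≠ 0 := by
    obtain ⟨a, b, hab⟩ := hg
    have h1 := congrArg (eval₂ ((incl W E).comp j) (⟨θ, hθW⟩ : W)) hab
    rw [eval₂_add, eval₂_mul, eval₂_mul, eval₂_one] at h1
    have h2 : eval₂ ((incl W E).comp j) (⟨θ, hθW⟩ : W) g = 0 := by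
      rw [← eval₂_map]; exact hG
    rw [h2, mul_zero, zero_add] at h1
    have h3 : IsUnit (eval₂ ((incl W E).comp j) (⟨θ, hθW⟩ : W) (derivative g)) :=
      IsUnit.of_mul_eq_one _ (by rw [mul_comm]; exact h1)
    rw [derivative_map, eval₂_map]
    intro h4
    exact ((IsLocalRing.residue_eq_zero_iff _).1 h4) h3
  have key := Unram.valuation_le_pi_pow_succ W (incl W E) (IsLocalRing.residue _)
    (IsLocalRing.ResidueField.map (incl W E)) π1 (g.map j) (⟨θ, hθW⟩ : W)
    IsLocalRing.residue_surjective hφ hπ hG hG'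
  -- every element of `E[θ]` is `P(θ) / t^N`
  have hθint : IsIntegral E θ := by
    refine IsAlgebraic.isIntegral ⟨g.map (σ.codRestrict E hσE), Polynomial.map_ne_zero hg.ne_zero, ?_⟩
    rw [aeval_def, eval₂_map]
    have hc : (algebraMap E Ω).comp (σ.codRestrict E hσE) = σ := RingHom.ext fun _ => rfl
    rw [hc]
    exact hgθ
  have hrepA : ∀ x ∈ Algebra.adjoin E ({θ} : Set Ω),
      ∃ N : ℕ, ∃ P : (↥(W.comap E.subtype))[X],
        t ^ N * x = ((P.eval₂ (incl W E) (⟨θ, hθW⟩ : W) : W) : Ω) := by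
    intro x hx
    induction hx using Algebra.adjoin_induction with
    | mem y hy =>
      rw [Set.mem_singleton_iff] at hy
      refine ⟨0, X, ?_⟩
      rw [eval₂_X, pow_zero, one_mul, hy]
    | algebraMap e =>
      by_cases he : (e : Ω) = 0
      · refine ⟨0, 0, ?_⟩
        rw [eval₂_zero]
        show _ * (e : Ω) = 0
        rw [he, mul_zero]
      · obtain ⟨n, hn1, hn2⟩ := hE _ e.2 he
        have hmem : t ^ n.toNat * (e : Ω) ∈ W := by
          have h1 : t ^ n.toNat * (e : Ω) = (e : Ω) * t ^ n * t ^ ((n.toNat : ℤ) - n) := by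
            rw [mul_assoc, ← zpow_add₀ ht0, add_sub_cancel, zpow_natCast, mul_comm]
          rw [h1]
          refine W.mul_mem _ _ hn1 ?_
          have h0 : 0 ≤ (n.toNat : ℤ) - n := by
            have := Int.self_le_toNat n
            omega
          obtain ⟨m, hm⟩ := Int.eq_ofNat_of_zero_le h0
          rw [hm, zpow_natCast]
          exact pow_mem htW m
        refine ⟨n.toNat, C ⟨⟨t ^ n.toNat * (e : Ω), mul_mem (pow_mem htE _) e.2⟩, hmem⟩, ?_⟩
        rw [eval₂_C]
        rfl
    | add x y hx hy ihx ihy =>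
      obtain ⟨N, P, hP⟩ := ihx
      obtain ⟨N', P', hP'⟩ := ihy
      refine ⟨N + N', C (π1 ^ N') * P + C (π1 ^ N) * P', ?_⟩
      rw [eval₂_add, eval₂_mul, eval₂_mul, eval₂_C, eval₂_C, map_pow, map_pow]
      show t ^ (N + N') * (x + y) = t ^ N' * _ + t ^ N * _
      rw [← hP, ← hP']
      ring
    | mul x y hx hy ihx ihy =>
      obtain ⟨N, P, hP⟩ := ihx
      obtain ⟨N', P', hP'⟩ := ihy
      refine ⟨N + N', P * P', ?_⟩
      rw [eval₂_mul]
      show t ^ (N + N') * (x * y) = _ * _
      rw [← hP, ← hP']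
      ring
  have hle : Subfield.closure ((E : Set Ω) ∪ {θ}) ≤ (IntermediateField.adjoin E ({θ} : Set Ω)).toSubfield := by
    rw [Subfield.closure_le]
    rintro y (hy | hy)
    · exact (IntermediateField.adjoin E ({θ} : Set Ω)).algebraMap_mem ⟨y, hy⟩
    · rw [Set.mem_singleton_iff] at hy
      rw [hy]
      exact IntermediateField.mem_adjoin_simple_self E θ
  have hrep : ∀ x ∈ Subfield.closure ((E : Set Ω) ∪ {θ}),
      ∃ N : ℕ, ∃ P : (↥(W.comap E.subtype))[X],
        t ^ N * x = ((P.eval₂ (incl W E) (⟨θ, hθW⟩ : W) : W) : Ω) := by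
    intro x hx
    apply hrepA
    have h1 : x ∈ (IntermediateField.adjoin E ({θ} : Set Ω)).toSubalgebra := hle hx
    rw [IntermediateField.adjoin_simple_toSubalgebra_of_isAlgebraic hθint.isAlgebraic] at h1
    exact h1
  -- conclusion
  intro x hx hx0
  obtain ⟨N, P, hP⟩ := hrep x hx
  obtain ⟨M, Q, hQ⟩ := hrep x⁻¹ (inv_mem hx)
  have hlow : W.valuation t ^ (N + M) ≤ W.valuation ((P.eval₂ (incl W E) (⟨θ, hθW⟩ : W) : W) : Ω) := by
    have h1 : ((P.eval₂ (incl W E) (⟨θ, hθW⟩ : W) : W) : Ω) *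
        ((Q.eval₂ (incl W E) (⟨θ, hθW⟩ : W) : W) : Ω) = t ^ (N + M) := by
      rw [← hP, ← hQ]
      field_simp
      ring
    have h2 := congrArg W.valuation h1
    rw [map_mul, map_pow] at h2
    rw [← h2]
    exact mul_le_of_le_one_right' (W.valuation_le_one _)
  have hdesc : ∀ d k : ℕ, k + d = N + M →
      W.valuation ((P.eval₂ (incl W E) (⟨θ, hθW⟩ : W) : W) : Ω) ≤ W.valuation t ^ k →
      ∃ j : ℕ, W.valuation ((P.eval₂ (incl W E) (⟨θ, hθW⟩ : W) : W) : Ω) = W.valuation t ^ j := by
    intro d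
    induction d with
    | zero =>
      intro k hk hle'
      rw [add_zero] at hk
      exact ⟨k, le_antisymm hle' (hk ▸ hlow)⟩
    | succ d ih =>
      intro k hk hle'
      rcases eq_or_lt_of_le hle' with h | h
      · exact ⟨k, h⟩
      · exact ih (k + 1) (by omega) (key k P h)
  obtain ⟨j, hj⟩ := hdesc (N + M) 0 (by omega) (by rw [pow_zero]; exact W.valuation_le_one _)
  refine ⟨(N : ℤ) - j, ?_⟩
  have hy0 : x * t ^ ((N : ℤ) - j) ≠ 0 := mul_ne_zero hx0 (zpow_ne_zero _ ht0)
  rw [← PlaceOfUnif.valuation_eq_one_iff_mem W hy0]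
  have h1 : W.valuation t ^ N * W.valuation x = W.valuation t ^ j := by
    rw [← hj, ← hP, map_mul, map_pow]
  rw [map_mul, map_zpow₀, zpow_sub₀ hγ0.ne', zpow_natCast, zpow_natCast, mul_comm,
    div_mul_eq_mul_div, h1]
  exact div_self (pow_ne_zero _ hγ0.ne')

theorem Good.mono {t : Ω} {E E' : Subfield Ω} (h : E ≤ E') (hE' : Good W t E') : Good W t E :=
  fun x hx hx0 => hE' x (h hx) hx0

end Step

section Main

variable {k F k' F' : Type*} [Field k] [Field F] [Algebra k F] [Field k'] [Field F']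
  [Algebra k' F']

/-- A valuation subring of `F'` containing `i(O_v)` in which the image of a uniformizer of `v`
is a nonunit. -/
theorem exists_valuationSubring_dominating (i : F →+* F') (v : AlgebraicCurve.Place k F)
    (τ : v.toValuationSubring) (hτ : Irreducible τ) :
    ∃ W : ValuationSubring F', (∀ a : v.toValuationSubring, i (a : F) ∈ W) ∧
      i (τ : F) ∈ W ∧ (i (τ : F))⁻¹ ∉ W := by
  have hmem : i (τ : F) ∈ (i.comp v.toValuationSubring.subtype).range := ⟨τ, rfl⟩
  have hI : Ideal.span {(⟨i (τ : F), hmem⟩ : (i.comp v.toValuationSubring.subtype).range)} ≠ ⊤ := by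
    rw [Ne, Ideal.span_singleton_eq_top]
    intro hu
    obtain ⟨⟨b, b', hb'⟩, hb⟩ := isUnit_iff_exists_inv.1 hu
    apply hτ.not_isUnit
    refine isUnit_iff_exists_inv.2 ⟨b', ?_⟩
    have h1 : i (τ : F) * b = 1 := congrArg Subtype.val hb
    rw [← hb'] at h1
    have h2 : i ((τ : F) * (b' : F)) = i 1 := by
      rw [map_mul, map_one]
      exact h1
    exact Subtype.ext (i.injective h2)
  obtain ⟨W, hW1, hW2⟩ := Ideal.image_subset_nonunits_valuationSubring _ hI
  have ht : i (τ : F) ∈ W.nonunits :=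
    hW2 ⟨⟨i (τ : F), hmem⟩, Ideal.mem_span_singleton_self _, rfl⟩
  have ht0 : i (τ : F) ≠ 0 := by
    rw [Ne, map_eq_zero]
    intro h
    exact hτ.ne_zero (Subtype.ext h)
  refine ⟨W, fun a => hW1 ⟨a, rfl⟩, ?_, ?_⟩
  · exact (W.valuation_le_one_iff _).1 ((W.mem_nonunits_iff).1 ht).le
  · rcases (W.mem_nonunits_iff_or).1 ht with h | h
    · exact absurd h ht0
    · exact h

/-- **[Dict], abstract form.**  Let `F/k` be a field extension in characteristic `0`, `v` a
place of `F/k`, and `F' ⊇ F` a field generated over `F` by the constants `k'` of `F'`, all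
algebraic over `k`.  Then `v` is the restriction of a place `P` of `F'/k'` with ramification
index one: `ord_P (i x) = ord_v x`. -/
theorem exists_place_extension [CharZero k] (i : F →+* F')
    (halg : ∀ c : k', ∃ p : Polynomial k, p ≠ 0 ∧
      Polynomial.eval₂ (i.comp (algebraMap k F)) (algebraMap k' F' c) p = 0)
    (hgen : ∀ x : F', ∃ S : Finset k',
      x ∈ Subfield.closure (Set.range i ∪ (algebraMap k' F') '' (S : Set k')))
    (v : AlgebraicCurve.Place k F) :
    ∃ P : AlgebraicCurve.Place k' F', ∀ x : F, P.ord (i x) = v.ord x := by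
  classical
  obtain ⟨τ, hτ⟩ := IsDiscreteValuationRing.exists_irreducible v.toValuationSubring
  obtain ⟨W, hW, htW, htn⟩ := exists_valuationSubring_dominating i v τ hτ
  have hτ0 : (τ : F) ≠ 0 := fun h => hτ.ne_zero (Subtype.ext h)
  have ht0 : i (τ : F) ≠ 0 := (map_ne_zero i).2 hτ0
  have hσW : ∀ a : k, (i.comp (algebraMap k F)) a ∈ W := fun a =>
    hW ⟨algebraMap k F a, v.algebraMap_mem' a⟩
  -- elements of `F`
  have hF : ∀ y : F, y ≠ 0 → i y * i (τ : F) ^ (-(v.ord y)) ∈ W ∧
      (i y * i (τ : F) ^ (-(v.ord y)))⁻¹ ∈ W := by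
    intro y hy
    obtain ⟨u, hu⟩ := v.exists_unit_mul_zpow hy hτ
    have h1 : i y * i (τ : F) ^ (-(v.ord y)) = i ((u : v.toValuationSubring) : F) := by
      generalize v.ord y = m at hu ⊢
      rw [hu, map_mul, map_zpow₀, mul_assoc, ← zpow_add₀ ht0, add_neg_cancel, zpow_zero, mul_one]
    have h2 : (i ((u : v.toValuationSubring) : F))⁻¹
        = i (((u⁻¹ : (v.toValuationSubring)ˣ) : v.toValuationSubring) : F) := by
      rw [inv_eq_iff_eq_inv]
      refine eq_inv_of_mul_eq_one_left ?_
      rw [← map_mul]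
      have h3 : ((u : v.toValuationSubring) : F) *
          (((u⁻¹ : (v.toValuationSubring)ˣ) : v.toValuationSubring) : F) = 1 :=
        congrArg Subtype.val (Units.mul_inv u)
      rw [h3, map_one]
    rw [h1, h2]
    exact ⟨hW _, hW _⟩
  have h0 : Good W (i (τ : F)) i.fieldRange := by
    intro x hx hx0
    obtain ⟨y, rfl⟩ := RingHom.mem_fieldRange.1 hx
    exact ⟨-(v.ord y), hF y (fun h => hx0 (by rw [h, map_zero]))⟩
  -- induction over finite sets of constants
  have hS : ∀ S : Finset k',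
      Good W (i (τ : F)) (Subfield.closure (Set.range i ∪ (algebraMap k' F') '' (S : Set k'))) := by
    intro S
    induction S using Finset.induction_on with
    | empty =>
      refine Good.mono W ?_ h0
      rw [Subfield.closure_le]
      rintro x (⟨y, rfl⟩ | ⟨c, hc, -⟩)
      · exact RingHom.mem_fieldRange.2 ⟨y, rfl⟩
      · simp at hc
    | insert c S _ ih =>
      obtain ⟨p, hp, hpc⟩ := halg c
      let _ : Algebra k F' := (i.comp (algebraMap k F)).toAlgebra
      have hint : IsIntegral k (algebraMap k' F' c) :=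
        IsAlgebraic.isIntegral ⟨p, hp, by rw [aeval_def]; exact hpc⟩
      have hsep : (minpoly k (algebraMap k' F' c)).Separable :=
        (minpoly.irreducible hint).separable
      have hroot : (minpoly k (algebraMap k' F' c)).eval₂ (i.comp (algebraMap k F))
          (algebraMap k' F' c) = 0 := by
        have := minpoly.aeval k (algebraMap k' F' c)
        rw [aeval_def] at this
        exact this
      have hstep := good_adjoin W (i (τ : F))
        (Subfield.closure (Set.range i ∪ (algebraMap k' F') '' (S : Set k')))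
        (Subfield.subset_closure (Or.inl ⟨_, rfl⟩)) htW htn ih (i.comp (algebraMap k F))
        (fun a => Subfield.subset_closure (Or.inl ⟨_, rfl⟩)) hσW _ hsep _ hroot
      refine Good.mono W ?_ hstep
      rw [Subfield.closure_le]
      rintro x (⟨y, rfl⟩ | ⟨d, hd, rfl⟩)
      · exact Subfield.subset_closure (Or.inl (Subfield.subset_closure (Or.inl ⟨y, rfl⟩)))
      · rw [Finset.coe_insert, Set.mem_insert_iff] at hd
        rcases hd with rfl | hd
        · exact Subfield.subset_closure (Or.inr rfl)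
        · exact Subfield.subset_closure (Or.inl (Subfield.subset_closure (Or.inr ⟨d, hd, rfl⟩)))
  have hgood : ∀ x : F', x ≠ 0 →
      ∃ n : ℤ, x * i (τ : F) ^ n ∈ W ∧ (x * i (τ : F) ^ n)⁻¹ ∈ W := by
    intro x hx
    obtain ⟨S, hxS⟩ := hgen x
    exact hS S x hxS hx
  have hconst : ∀ c : k', algebraMap k' F' c ∈ W := by
    intro c
    obtain ⟨p, hp, hpc⟩ := halg c
    exact mem_of_eval₂_eq_zero W _ hσW p hp _ hpc
  obtain ⟨P, -, hP⟩ := PlaceOfUnif.exists_place_of_uniformizer W hconst (i (τ : F)) htW htn hgood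
  refine ⟨P, fun x => ?_⟩
  by_cases hx : x = 0
  · rw [hx, map_zero, AlgebraicCurve.Place.ord_zero, AlgebraicCurve.Place.ord_zero]
  · rw [hP (i x) (-(v.ord x)) ((map_ne_zero i).2 hx) (hF x hx).1 (hF x hx).2, neg_neg]

end Main

end Fermat.Agent.S18.DictCore
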