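/-
S18 — DictInst.lean (helper18): instantiation glue for the [ARITH] leaf [Dict] (A-track).

`DictCore.exists_place_extension` (helper30; abstract: places extend, unramified, along an
algebraic separable constant field extension) is applied with
`k := K`, `F := F_K = FK N K`, `k' := ℚ̄`, `F' := F̄ = modularFunctionFieldBar N`, `i := incl N K`.
Here we provide the inclusion `incl`, its two hypotheses `halg`, `hgen`, and the reduction
`dictStatement_of` of `Arith.DictStatement N` to the (specialised) abstract statement.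
-/
import Mathlib
import Fermat.Agent.S18.ArithPlan
import Fermat.Agent.S18.DescCoeff

set_option autoImplicit false

namespace Fermat.Agent.S18.DictInst

open ModularCurve HahnSeries AlgebraicCurve Fermat.Agent.S18.Arith

variable (N : ℕ) (K : IntermediateField ℚ Qb)

/-- The inclusion `F_K ⊆ F̄`. -/
noncomputable def incl : ↥(FK N K) →+* ↥(modularFunctionFieldBar N) where
  toFun x := ⟨(x : LaurentSeries Qb), DescCoeff.FK_le_bar N K x.2⟩
  map_one' := rfl
  map_mul' _ _ := rfl
  map_zero' := rfl
  map_add' _ _ := rfl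

@[simp]
theorem coe_incl (x : ↥(FK N K)) :
    ((incl N K x : ↥(modularFunctionFieldBar N)) : LaurentSeries Qb) = (x : LaurentSeries Qb) :=
  rfl

theorem incl_eq (x : ↥(FK N K)) (hx : (x : LaurentSeries Qb) ∈ modularFunctionFieldBar N) :
    incl N K x = ⟨(x : LaurentSeries Qb), hx⟩ :=
  rfl

/-- On constants of `K`, the inclusion is the structure map of `F̄`. -/
theorem incl_comp_algebraMap :
    (incl N K).comp (algebraMap K (FK N K))
      = (algebraMap Qb ↥(modularFunctionFieldBar N)).comp (algebraMap K Qb) := by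
  refine RingHom.ext fun c => Subtype.ext ?_
  change (HahnSeries.C ((c : Qb)) : LaurentSeries Qb) = algebraMap Qb (LaurentSeries Qb) (c : Qb)
  rw [algebraMap_laurentSeries_eq_single]
  rfl

/-- **(halg)** every constant of `F̄` is algebraic over `K`. -/
theorem halg (c : Qb) :
    ∃ p : Polynomial K, p ≠ 0 ∧
      Polynomial.eval₂ ((incl N K).comp (algebraMap K (FK N K)))
        (algebraMap Qb ↥(modularFunctionFieldBar N) c) p = 0 := by
  have hQ : IsAlgebraic ℚ c := (AlgebraicClosure.isAlgebraic ℚ).isAlgebraic c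
  have hint : IsIntegral K c := (hQ.tower_top (K := ℚ) K).isIntegral
  refine ⟨minpoly K c, minpoly.ne_zero hint, ?_⟩
  rw [incl_comp_algebraMap, ← Polynomial.hom_eval₂, ← Polynomial.aeval_def, minpoly.aeval,
    map_zero]

/-- The subfield of `F̄` generated by `F_K` and the constants in `S`. -/
noncomputable def gen (S : Set Qb) : Subfield ↥(modularFunctionFieldBar N) :=
  Subfield.closure (Set.range (incl N K) ∪ (algebraMap Qb ↥(modularFunctionFieldBar N)) '' S)

theorem gen_mono {S T : Set Qb} (h : S ⊆ T) : gen N K S ≤ gen N K T :=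
  Subfield.closure_mono (Set.union_subset_union_right _ (Set.image_mono h))

/-- `gen`, pushed into `ℚ̄((q))`. -/
noncomputable def genΩ (S : Set Qb) : Subfield (LaurentSeries Qb) :=
  (gen N K S).map (modularFunctionFieldBar N).toSubfield.subtype

theorem genΩ_mono {S T : Set Qb} (h : S ⊆ T) : genΩ N K S ≤ genΩ N K T := by
  rintro x ⟨y, hy, rfl⟩
  exact ⟨y, gen_mono N K h hy, rfl⟩

theorem exists_mem_genΩ (x : LaurentSeries Qb) (hx : x ∈ modularFunctionFieldBar N) :
    ∃ S : Finset Qb, x ∈ genΩ N K (S : Set Qb) := by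
  classical
  induction hx using IntermediateField.adjoin_induction with
  | mem x hx =>
    obtain ⟨y, hy, rfl⟩ := hx
    exact ⟨∅, ⟨incl N K (ratEmb N K ⟨y, hy⟩),
      Subfield.subset_closure (Or.inl ⟨ratEmb N K ⟨y, hy⟩, rfl⟩), rfl⟩⟩
  | algebraMap c =>
    exact ⟨{c}, ⟨algebraMap Qb ↥(modularFunctionFieldBar N) c,
      Subfield.subset_closure (Or.inr ⟨c, by simp, rfl⟩), rfl⟩⟩
  | add x y hx hy ihx ihy =>
    obtain ⟨S, hS⟩ := ihx
    obtain ⟨T, hT⟩ := ihy
    refine ⟨S ∪ T, ?_⟩
    rw [Finset.coe_union]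
    exact add_mem (genΩ_mono N K Set.subset_union_left hS)
      (genΩ_mono N K Set.subset_union_right hT)
  | inv x hx ihx =>
    obtain ⟨S, hS⟩ := ihx
    exact ⟨S, inv_mem hS⟩
  | mul x y hx hy ihx ihy =>
    obtain ⟨S, hS⟩ := ihx
    obtain ⟨T, hT⟩ := ihy
    refine ⟨S ∪ T, ?_⟩
    rw [Finset.coe_union]
    exact mul_mem (genΩ_mono N K Set.subset_union_left hS)
      (genΩ_mono N K Set.subset_union_right hT)

/-- **(hgen)** `F̄` is generated by `F_K` and finitely many constants, elementwise. -/
theorem hgen (x : ↥(modularFunctionFieldBar N)) :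
    ∃ S : Finset Qb, x ∈ Subfield.closure
      (Set.range (incl N K) ∪ (algebraMap Qb ↥(modularFunctionFieldBar N)) '' (S : Set Qb)) := by
  obtain ⟨S, y, hy, hyx⟩ := exists_mem_genΩ N K (x : LaurentSeries Qb) x.2
  have : y = x := Subtype.ext hyx
  exact ⟨S, this ▸ hy⟩

/-- **[Dict]** from the abstract place-extension statement (helper30's
`DictCore.exists_place_extension`, specialised). -/
theorem dictStatement_of
    (hcore : ∀ (K : IntermediateField ℚ Qb) (i : ↥(FK N K) →+* ↥(modularFunctionFieldBar N)),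
      (∀ c : Qb, ∃ p : Polynomial K, p ≠ 0 ∧
        Polynomial.eval₂ (i.comp (algebraMap K (FK N K)))
          (algebraMap Qb ↥(modularFunctionFieldBar N) c) p = 0) →
      (∀ x : ↥(modularFunctionFieldBar N), ∃ S : Finset Qb, x ∈ Subfield.closure
        (Set.range i ∪ (algebraMap Qb ↥(modularFunctionFieldBar N)) '' (S : Set Qb))) →
      ∀ v : Place K (FK N K), ∃ P : Place Qb (modularFunctionFieldBar N),
        ∀ x : FK N K, P.ord (i x) = v.ord x) :
    DictStatement N := by
  intro K v
  obtain ⟨P, hP⟩ := hcore K (incl N K) (halg N K) (hgen N K) v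
  exact ⟨P, fun x hx => hP x⟩

end Fermat.Agent.S18.DictInst
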