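/-
T4 / S18, block [Dict] (A-track: helper30 `DictCore` + helper18 `DictInst`).
`dictStatement N : Arith.DictStatement N`: every place of `F_K / K` is the restriction of a
place of `F̄ / ℚ̄` with ramification index one.
-/
import Fermat.Agent.S18.DictInst
import Fermat.Agent.S18.DictCore

set_option autoImplicit false

namespace Fermat.Agent.S18.Dict

theorem dictStatement (N : ℕ) : Arith.DictStatement N :=
  DictInst.dictStatement_of N
    (fun _ i halg hgen v => DictCore.exists_place_extension i halg hgen v)

end Fermat.Agent.S18.Dict
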