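/-
S18 — FinalCore.lean (helper29, [GLUE]): the assembly of the lifting statement from the leaf
statements of `ArithPlan.lean` through the two-chart lifting `CechPlan.CechStatement`.

* `exists_root` : for a fixed base field `K` (with `BaseFacts`, `ModelFacts`, both `IgusaAt`),
  the leaves [Gauss], [Loc], [Nor], [Cech] give `h ≠ 0` with `u / v * h ^ m ∈ R0 ∩ Rinf`.
* `final_of_jNot` : `Arith.FinalStatement N ℓ`, given the facts `j ∉ 𝔪 R0`, `j⁻¹ ∉ 𝔪 Rinf`
  (`JNotFacts`; they are proved in `JNot.lean` from the Gauss-ring calculus).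
-/
import Fermat.Agent.S18.ModelPlan
import Fermat.Agent.S18.BaseRes

set_option autoImplicit false

noncomputable section

namespace Fermat.Agent.S18.FinalCore

open ModularCurve ModularCurve.IgusaScheme AlgebraicCurve HahnSeries Fermat.Agent.S18.Arith

/-- `O = A ∩ K` lies over `ℓ` as soon as `A` does. -/
theorem liesOverPrime_OK {ℓ : ℕ} (A : ValuationSubring Qb) (hA : A.LiesOverPrime ℓ)
    (K : IntermediateField ℚ Qb) : (OK A K).LiesOverPrime ℓ := by
  have hA' : (ℓ : Qb) ∈ A.nonunits := hA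
  rw [ValuationSubring.mem_nonunits_iff_exists_mem_maximalIdeal] at hA'
  obtain ⟨ha, hmax⟩ := hA'
  show (ℓ : K) ∈ (OK A K).nonunits
  rw [ValuationSubring.mem_nonunits_iff_exists_mem_maximalIdeal]
  have hmem : (ℓ : K) ∈ OK A K := by
    rw [ValuationSubring.mem_comap]
    simp [ha]
  refine ⟨hmem, ?_⟩
  rw [IsLocalRing.mem_maximalIdeal, mem_nonunits_iff] at hmax ⊢
  intro hu
  apply hmax
  obtain ⟨y, hy⟩ := hu.exists_right_inv
  have hyA : ((y : K) : Qb) ∈ A := by
    have := y.2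
    rw [ValuationSubring.mem_comap] at this
    exact this
  refine IsUnit.of_mul_eq_one ⟨((y : K) : Qb), hyA⟩ ?_
  apply Subtype.ext
  have h1 := congrArg (fun z : OK A K => ((z : K) : Qb)) hy
  simpa using h1

/-- `m` is a unit of `O` for `ℓ ∤ m`. -/
theorem isUnit_natCast_OK {ℓ : ℕ} [Fact ℓ.Prime] (A : ValuationSubring Qb)
    (hA : A.LiesOverPrime ℓ) (K : IntermediateField ℚ Qb) {m : ℕ} (hm : ¬ ℓ ∣ m) :
    IsUnit ((m : ℕ) : OK A K) :=
  BaseRes.isUnit_natCast ℓ (OK A K) (liesOverPrime_OK A hA K) hm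

theorem piIdeal_eq_span (N : ℕ) (A : ValuationSubring Qb) (K : IntermediateField ℚ Qb)
    [IsDiscreteValuationRing (OK A K)] (R : Subalgebra (OK A K) (FK N K)) {π : OK A K}
    (hπ : Irreducible π) :
    piIdeal N A K R = Ideal.span {algebraMap (OK A K) R π} := by
  rw [piIdeal, hπ.maximalIdeal_eq, Ideal.map_span, Set.image_singleton]

theorem algebraMap_injective_OK (N : ℕ) (A : ValuationSubring Qb) (K : IntermediateField ℚ Qb) :
    Function.Injective (algebraMap (OK A K) (FK N K)) := by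
  have h1 : Function.Injective (constK N K) := (constK N K).injective
  have h2 : Function.Injective (OK A K).subtype := Subtype.val_injective
  exact h1.comp h2

theorem ord_div_mul_pow {K F : Type*} [Field K] [Field F] [Algebra K F] (P : Place K F)
    {a b h : F} (ha : a ≠ 0) (hb : b ≠ 0) (hh : h ≠ 0) (m : ℕ) :
    P.ord (a / b * h ^ m) = P.ord a - P.ord b + (m : ℤ) * P.ord h := by
  rw [P.ord_mul (div_ne_zero ha hb) (pow_ne_zero m hh), div_eq_mul_inv,
    P.ord_mul ha (inv_ne_zero hb), P.ord_inv, ← zpow_natCast, P.ord_zpow]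
  ring

theorem ord_div {K F : Type*} [Field K] [Field F] [Algebra K F] (P : Place K F)
    {a b : F} (ha : a ≠ 0) (hb : b ≠ 0) :
    P.ord (a / b) = P.ord a - P.ord b := by
  rw [div_eq_mul_inv, P.ord_mul ha (inv_ne_zero hb), P.ord_inv]
  ring

/-- A subalgebra which is integrally closed in the ambient field is closed under `m`-th roots. -/
theorem root_mem_of_closed {O E : Type*} [CommRing O] [Field E] [Algebra O E]
    (R : Subalgebra O E) (hcl : ∀ x : E, IsIntegral R x → x ∈ R) {m : ℕ} (hm : m ≠ 0)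
    (x : E) (hx : x ^ m ∈ R) : x ∈ R := by
  apply hcl
  refine ⟨Polynomial.X ^ m - Polynomial.C (⟨x ^ m, hx⟩ : R),
    Polynomial.monic_X_pow_sub_C _ hm, ?_⟩
  simp [Polynomial.eval₂_sub, Polynomial.eval₂_pow]

section Core

variable (N : ℕ) [NeZero N] (ℓ : ℕ) [Fact ℓ.Prime]

/-- The `j`-non-vanishing facts needed by the two-chart setting. -/
def JNotFacts (A : ValuationSubring Qb) (K : IntermediateField ℚ Qb)
    (hM : ModelFacts N ℓ A K) : Prop :=
  (⟨jK N K, hM.c0.t_mem⟩ : R0 N ℓ A K) ∉ piIdeal N A K (R0 N ℓ A K) ∧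
    (⟨(jK N K)⁻¹, hM.cInf.t_mem⟩ : Rinf N ℓ A K) ∉ piIdeal N A K (Rinf N ℓ A K)

set_option maxHeartbeats 1000000 in
/-- The core of [Final]: for a fixed base field `K` the leaves give a global `m`-th root. -/
theorem exists_root (hGauss : GaussStatement N) (hLoc : LocStatement N) (hNor : NorStatement N)
    (hCech : CechPlan.CechStatement)
    (A : ValuationSubring Qb) (hA : A.LiesOverPrime ℓ) (m : ℕ) (hm : ¬ ℓ ∣ m)
    (K : IntermediateField ℚ Qb) (hB : BaseFacts ℓ A K) (hM : ModelFacts N ℓ A K)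
    (hJ : JNotFacts N ℓ A K hM)
    (hI0 : IgusaAt N A K (R0 N ℓ A K)) (hIinf : IgusaAt N A K (Rinf N ℓ A K))
    (U V : LaurentSeries A) (u v : FK N K)
    (hu : (u : LaurentSeries Qb) = coeffMap A.subtype U)
    (hv : (v : LaurentSeries Qb) = coeffMap A.subtype V)
    (hU0 : coeffMap (IsLocalRing.residue A) U ≠ 0)
    (hUV : coeffMap (IsLocalRing.residue A) U = coeffMap (IsLocalRing.residue A) V)
    (hdiv : ∀ P : Place K (FK N K), (m : ℤ) ∣ P.ord (u / v)) :
    ∃ h : FK N K, h ≠ 0 ∧ u / v * h ^ m ∈ R0 N ℓ A K ∧ u / v * h ^ m ∈ Rinf N ℓ A K := by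
  have := hB.dvr
  obtain ⟨π, hπ⟩ := IsDiscreteValuationRing.exists_irreducible (OK A K)
  have hm0 : m ≠ 0 := by
    rintro rfl
    exact hm (dvd_zero ℓ)
  obtain ⟨hunit0, s0, hs0, r0, hr0, hsr0⟩ :=
    hGauss A K hB.dvr (R0 N ℓ A K) (jK N K) hM.c0 U V u v hu hv hU0 hUV
  obtain ⟨hunitInf, -⟩ :=
    hGauss A K hB.dvr (Rinf N ℓ A K) (jK N K)⁻¹ hM.cInf U V u v hu hv hU0 hUV
  have hloc0 := hLoc A K hB.dvr (R0 N ℓ A K) (jK N K) hM.c0 hI0 m (u / v) hm0 hunit0 hdiv
  have hlocInf :=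
    hLoc A K hB.dvr (Rinf N ℓ A K) (jK N K)⁻¹ hM.cInf hIinf m (u / v) hm0 hunitInf hdiv
  obtain ⟨hprime0, hnor0⟩ := hNor A K hB.dvr (R0 N ℓ A K) (jK N K) hM.c0 hI0 π hπ
  obtain ⟨hprimeInf, hnorInf⟩ := hNor A K hB.dvr (Rinf N ℓ A K) (jK N K)⁻¹ hM.cInf hIinf π hπ
  have hpi0 := piIdeal_eq_span N A K (R0 N ℓ A K) hπ
  have hpiInf := piIdeal_eq_span N A K (Rinf N ℓ A K) hπ
  let S : CechPlan.Setting (OK A K) (FK N K) :=
    { π := π
      m := m
      j := jK N K
      w := u / v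
      R0 := R0 N ℓ A K
      Rinf := Rinf N ℓ A K
      inj := algebraMap_injective_OK N A K
      irr := hπ
      hm := isUnit_natCast_OK A hA K hm
      j_mem := hM.c0.t_mem
      jinv_mem := hM.cInf.t_mem
      glue0 := hM.glue0
      glueInf := hM.glueInf
      root0 := root_mem_of_closed _ hM.c0.closed hm0
      rootInf := root_mem_of_closed _ hM.cInf.closed hm0
      prime0 := hprime0
      primeInf := hprimeInf
      nor0 := hnor0
      norInf := hnorInf
      j_not := by rw [← hpi0]; exact hJ.1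
      jinv_not := by rw [← hpiInf]; exact hJ.2
      fin0 := hM.c0.fin
      loc0 := fun n hn hπn => hloc0 n hn (by
        rw [hpi0, Ideal.span_singleton_le_iff_mem]; exact hπn)
      locInf := fun n hn hπn => hlocInf n hn (by
        rw [hpiInf, Ideal.span_singleton_le_iff_mem]; exact hπn)
      hw := by
        refine ⟨s0, by rw [← hpi0]; exact hs0, ?_⟩
        rw [hpi0, Ideal.mem_span_singleton'] at hr0
        obtain ⟨r', hr'⟩ := hr0
        refine ⟨r', ?_⟩
        rw [hsr0, ← hr']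
        simp [mul_comm] }
  exact hCech (OK A K) (FK N K) S

/-- **[Final]**, with the `j`-non-vanishing facts as a hypothesis. -/
theorem final_of_jNot
    (hJ : ∀ (A : ValuationSubring Qb) (K : IntermediateField ℚ Qb) (hM : ModelFacts N ℓ A K),
      JNotFacts N ℓ A K hM) :
    FinalStatement N ℓ := by
  intro hBase hDesc _hCoeff hModel hIgusa hGauss hDict hLoc hNor hGlob hCech hℓN A hA m hm
    U V hU hV _hUk hU0 hUV D hD
  classical
  have hm0 : m ≠ 0 := by
    rintro rfl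
    exact hm (dvd_zero ℓ)
  obtain ⟨SU, hSU⟩ := hDesc.1 _ hU
  obtain ⟨SV, hSV⟩ := hDesc.1 _ hV
  obtain ⟨K, hK, hB⟩ := hBase A hA (SU ∪ SV)
  have hUK : coeffMap A.subtype U ∈ FK N K :=
    hSU K (fun x hx => hK (by simp only [Finset.coe_union, Set.mem_union]; exact Or.inl hx))
  have hVK : coeffMap A.subtype V ∈ FK N K :=
    hSV K (fun x hx => hK (by simp only [Finset.coe_union, Set.mem_union]; exact Or.inr hx))
  have hM := hModel hℓN A hA K hB
  obtain ⟨hI0, hIinf⟩ := hIgusa hℓN A hA K hB hM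
  -- nonvanishing
  have hne : ∀ W : LaurentSeries A, coeffMap (IsLocalRing.residue A) W ≠ 0 →
      coeffMap A.subtype W ≠ 0 := by
    intro W hW h0
    apply hW
    have hW0 : W = 0 := by
      ext k
      have hk := congrArg (fun x : LaurentSeries Qb => x.coeff k) h0
      simp only [coeffMap_coeff, HahnSeries.coeff_zero] at hk
      have : (W.coeff k : Qb) = 0 := hk
      exact_mod_cast this
    rw [hW0, map_zero]
  have hU1 : coeffMap A.subtype U ≠ 0 := hne U hU0
  have hV1 : coeffMap A.subtype V ≠ 0 := hne V (hUV ▸ hU0)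
  have hUF : (⟨coeffMap A.subtype U, hU⟩ : modularFunctionFieldBar N) ≠ 0 :=
    fun h => hU1 (congrArg Subtype.val h)
  have hVF : (⟨coeffMap A.subtype V, hV⟩ : modularFunctionFieldBar N) ≠ 0 :=
    fun h => hV1 (congrArg Subtype.val h)
  have hu0 : (⟨coeffMap A.subtype U, hUK⟩ : FK N K) ≠ 0 :=
    fun h => hU1 (congrArg Subtype.val h)
  have hv0 : (⟨coeffMap A.subtype V, hVK⟩ : FK N K) ≠ 0 :=
    fun h => hV1 (congrArg Subtype.val h)
  -- divisibility of the orders at the places of `F_K`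
  have hdiv : ∀ P : Place K (FK N K), (m : ℤ) ∣
      P.ord ((⟨coeffMap A.subtype U, hUK⟩ : FK N K) / ⟨coeffMap A.subtype V, hVK⟩) := by
    intro P
    obtain ⟨Q, hQ⟩ := hDict K P
    have h1 := hQ ((⟨coeffMap A.subtype U, hUK⟩ : FK N K) / ⟨coeffMap A.subtype V, hVK⟩)
      (hDesc.2 K _ (SetLike.coe_mem _))
    have h2 : (⟨(((⟨coeffMap A.subtype U, hUK⟩ : FK N K) / ⟨coeffMap A.subtype V, hVK⟩ :
        FK N K) : LaurentSeries Qb), hDesc.2 K _ (SetLike.coe_mem _)⟩ :
        modularFunctionFieldBar N) =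
        (⟨coeffMap A.subtype U, hU⟩ : modularFunctionFieldBar N) /
          ⟨coeffMap A.subtype V, hV⟩ := Subtype.ext rfl
    rw [h2, ord_div Q hUF hVF, ← hD Q] at h1
    rw [← h1]
    exact dvd_mul_right _ _
  obtain ⟨h, hh0, hh1, hh2⟩ := exists_root N ℓ hGauss hLoc hNor hCech A hA m hm K hB hM
    (hJ A K hM) hI0 hIinf U V ⟨coeffMap A.subtype U, hUK⟩ ⟨coeffMap A.subtype V, hVK⟩ rfl rfl
    hU0 hUV hdiv
  have hhF : (h : LaurentSeries Qb) ∈ modularFunctionFieldBar N := hDesc.2 K _ h.2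
  have hhF0 : (⟨(h : LaurentSeries Qb), hhF⟩ : modularFunctionFieldBar N) ≠ 0 := by
    intro h0
    apply hh0
    have h1 : (h : LaurentSeries Qb) = 0 := congrArg Subtype.val h0
    exact Subtype.ext h1
  refine ⟨(⟨(h : LaurentSeries Qb), hhF⟩ : modularFunctionFieldBar N)⁻¹,
    inv_ne_zero hhF0, fun P => ?_⟩
  have h1 := hGlob A K hM _ hh1 hh2 (mul_ne_zero (div_ne_zero hu0 hv0) (pow_ne_zero m hh0))
    (hDesc.2 K _ (SetLike.coe_mem _)) P
  have h2 : (⟨(((⟨coeffMap A.subtype U, hUK⟩ : FK N K) / ⟨coeffMap A.subtype V, hVK⟩ * h ^ m :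
      FK N K) : LaurentSeries Qb), hDesc.2 K _ (SetLike.coe_mem _)⟩ :
      modularFunctionFieldBar N) =
      (⟨coeffMap A.subtype U, hU⟩ : modularFunctionFieldBar N) /
        ⟨coeffMap A.subtype V, hV⟩ * ⟨(h : LaurentSeries Qb), hhF⟩ ^ m := Subtype.ext rfl
  rw [h2, ord_div_mul_pow P hUF hVF hhF0 m, ← hD P] at h1
  rw [Place.ord_inv]
  have h3 : (m : ℤ) * (D P + P.ord (⟨(h : LaurentSeries Qb), hhF⟩ : modularFunctionFieldBar N))
      = 0 := by linarith
  rcases mul_eq_zero.1 h3 with h4 | h4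
  · exact absurd (by exact_mod_cast h4) hm0
  · linarith

end Core

end Fermat.Agent.S18.FinalCore
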