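/-
S18 — Final.lean (helper29, [GLUE]): `Arith.FinalStatement N ℓ`.

The lifting statement `Red.LiftStatement N A m` follows from the leaf statements of
`ArithPlan.lean` ([Base], [Desc], [Model], [Igusa], [Gauss], [Dict], [Loc], [Nor], [Glob]) and the
two-chart lifting `CechPlan.CechStatement`.  The assembly is in `FinalCore.lean`; the facts
`j ∉ 𝔪 R0`, `j⁻¹ ∉ 𝔪 Rinf` come from `JNot.lean` and the Gauss-ring calculus `GRel.lean`.
-/
import Fermat.Agent.S18.FinalCore
import Fermat.Agent.S18.JNot
import Fermat.Agent.S18.GRel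

set_option autoImplicit false

namespace Fermat.Agent.S18.Final

open Fermat.Agent.S18.Arith

/-- **[Final]** -/
theorem final (N : ℕ) [NeZero N] (ℓ : ℕ) [Fact ℓ.Prime] : FinalStatement N ℓ :=
  FinalCore.final_of_jNot N ℓ (fun A K hM => JNot.jNot GRel.gRelStatement N ℓ A K hM)

end Fermat.Agent.S18.Final
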