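/-
S18 — [Gauss] (helper48): the leaf `Arith.GaussStatement N` of the arithmetic half, on top of the
Gauss-ring calculus `ModelPlan.GRelStatement` (taken as a hypothesis).

Proof.  Let `x = u / v - 1 ∈ F_K`.  By the `GRel` calculus `x` lies in the Gauss ring with
reduction `0`.  Write `x · b₁ = a₁` with `a₁, b₁ ∈ R`, `b₁ ≠ 0` (`frac`).  The chart `R` is a
noetherian domain (`fin`: it sits inside a finitely generated `O[t]`-module) and `𝔪_O R = ϖ R`
for a uniformizer `ϖ` of the discrete valuation ring `O`, so `a₁ = ϖ^α a'`, `b₁ = ϖ^β b'` with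
`a', b' ∉ ϖ R = ker ρ`.  If `α ≤ β` then `x · ϖ^(β-α) b' = a'` reduces to `0 = ρ a' ≠ 0`.  Hence
`β < α` and `b' · x = ϖ^(α-β) a' ∈ ϖ R`.
-/
import Fermat.Agent.S18.ModelPlan

set_option autoImplicit false

noncomputable section

namespace Fermat.Agent.S18.Gauss

open ModularCurve ModularCurve.IgusaScheme AlgebraicCurve HahnSeries Fermat.Agent.S18.Arith

/-- A subalgebra `R ∋ t` contained in a finitely generated `O[t]`-module (`O` noetherian) is a
noetherian ring. -/
theorem isNoetherianRing_of_subset_span {O E : Type*} [CommRing O] [IsNoetherianRing O]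
    [CommRing E] [Algebra O E] (R : Subalgebra O E) (t : E) (ht : t ∈ R) (s : Finset E)
    (hs : (R : Set E) ⊆ Submodule.span (Algebra.adjoin O {t}) (s : Set E)) :
    IsNoetherianRing R := by
  have hSR : Algebra.adjoin O {t} ≤ R := Algebra.adjoin_le (by simpa using ht)
  have hS : IsNoetherianRing (Algebra.adjoin O {t}) := by
    rw [Algebra.adjoin_singleton_eq_range_aeval]
    exact isNoetherianRing_of_surjective _ _ (Polynomial.aeval t).rangeRestrict.toRingHom
      (Polynomial.aeval t).rangeRestrict_surjective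
  have hM : IsNoetherian (Algebra.adjoin O {t})
      (Submodule.span (Algebra.adjoin O {t}) (s : Set E)) :=
    isNoetherian_span_of_finite _ s.finite_toSet
  let _ : Algebra (Algebra.adjoin O {t}) R := (Subalgebra.inclusion hSR).toRingHom.toAlgebra
  let f : R →ₗ[Algebra.adjoin O {t}] (Submodule.span (Algebra.adjoin O {t}) (s : Set E)) :=
    { toFun := fun x => ⟨(x : E), hs x.2⟩
      map_add' := fun x y => rfl
      map_smul' := fun c x => rfl }
  have hf : Function.Injective f := fun x y h => by
    have h1 : ((f x : Submodule.span (Algebra.adjoin O {t}) (s : Set E)) : E) = (f y : E) := by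
      rw [h]
    exact Subtype.ext h1
  have : Module.Finite (Algebra.adjoin O {t}) R := Module.Finite.of_injective f hf
  exact IsNoetherianRing.of_finite (Algebra.adjoin O {t}) R

/-- **[Gauss]** (the leaf `Arith.GaussStatement`), from the calculus of the Gauss ring. -/
theorem gaussStatement (N : ℕ) (hG : ModelPlan.GRelStatement) : Arith.GaussStatement N := by
  intro A K hdvr R t hC U V u v hu hv hU hUV
  have hGA := hG A
  obtain ⟨ρ, hρG, hρker, -⟩ := hC.red
  obtain ⟨s0, hs0⟩ := hC.fin
  have : IsNoetherianRing R := isNoetherianRing_of_subset_span R t hC.t_mem s0 hs0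
  obtain ⟨π, hπ⟩ := IsDiscreteValuationRing.exists_irreducible (OK A K)
  set ϖ : R := algebraMap (OK A K) R π with hϖ
  have hP : piIdeal N A K R = Ideal.span {ϖ} := by
    unfold piIdeal
    rw [hπ.maximalIdeal_eq, Ideal.map_span, Set.image_singleton]
  have hmem : ∀ x : R, x ∈ piIdeal N A K R ↔ ϖ ∣ x := fun x => by
    rw [hP, Ideal.mem_span_singleton]
  have hker : ∀ x : R, ρ x = 0 ↔ ϖ ∣ x := fun x => by
    rw [← hmem, ← hρker, RingHom.mem_ker]
  have hϖu : ¬ IsUnit ϖ := by
    intro h
    have h1 : ρ ϖ = 0 := (hker ϖ).2 dvd_rfl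
    have h2 := h.map ρ
    rw [h1] at h2
    exact not_isUnit_zero h2
  have hϖ0 : ((ϖ : R) : FK N K) ≠ 0 := by
    have h1 : ((ϖ : R) : FK N K) = constK N K (π : K) := rfl
    rw [h1]
    exact (map_ne_zero (constK N K)).2 (fun h => hπ.ne_zero (Subtype.ext h))
  -- the second claim implies the first
  have key : ∃ s : R, s ∉ piIdeal N A K R ∧ ∃ r : R, r ∈ piIdeal N A K R ∧
      (s : FK N K) * (u / v - 1) = r := by
    have hV0 : coeffMap (IsLocalRing.residue A) V ≠ 0 := hUV ▸ hU
    have gu : GRel A (u : LaurentSeries Qb) (coeffMap (IsLocalRing.residue A) U) :=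
      hu ▸ hGA.of_int U
    have gv : GRel A (v : LaurentSeries Qb) (coeffMap (IsLocalRing.residue A) V) :=
      hv ▸ hGA.of_int V
    have g1 : GRel A (1 : LaurentSeries Qb) 1 := by
      have := hGA.of_int 1
      simpa using this
    have gx : GRel A (((u / v - 1 : FK N K)) : LaurentSeries Qb) 0 := by
      have h1 := hGA.mul _ _ _ _ gu (hGA.inv _ _ gv hV0)
      have h2 := hGA.add _ _ _ _ h1 (hGA.neg _ _ g1)
      rw [hUV, mul_inv_cancel₀ hV0, add_neg_cancel] at h2
      have e : ((u / v - 1 : FK N K) : LaurentSeries Qb) =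
          (u : LaurentSeries Qb) * (v : LaurentSeries Qb)⁻¹ + -1 := by
        push_cast
        ring
      rw [e]
      exact h2
    by_cases hx0 : u / v - 1 = 0
    · refine ⟨1, ?_, 0, Ideal.zero_mem _, by rw [hx0]; simp⟩
      rw [hmem]
      exact fun h => hϖu (isUnit_of_dvd_one h)
    obtain ⟨a1, ha1, b1, hb1, hb10, hab⟩ := hC.frac (u / v - 1)
    have ha10 : (⟨a1, ha1⟩ : R) ≠ 0 := by
      intro h
      have h0 : a1 = 0 := congrArg Subtype.val h
      rw [h0] at hab
      exact (mul_ne_zero hx0 hb10) hab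
    have hb10' : (⟨b1, hb1⟩ : R) ≠ 0 := fun h => hb10 (congrArg Subtype.val h)
    obtain ⟨α, a', ha', haeq⟩ := WfDvdMonoid.max_power_factor' ha10 hϖu
    obtain ⟨β, b', hb', hbeq⟩ := WfDvdMonoid.max_power_factor' hb10' hϖu
    have haeq' : a1 = ((ϖ : R) : FK N K) ^ α * (a' : FK N K) := by
      have := congrArg (fun z : R => (z : FK N K)) haeq
      simpa using this
    have hbeq' : b1 = ((ϖ : R) : FK N K) ^ β * (b' : FK N K) := by
      have := congrArg (fun z : R => (z : FK N K)) hbeq
      simpa using this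
    rcases lt_or_ge β α with hlt | hge
    · refine ⟨b', (hmem b').not.2 hb', ϖ ^ (α - β) * a', ?_, ?_⟩
      · rw [hmem]
        exact Dvd.dvd.mul_right (dvd_pow_self ϖ (Nat.sub_ne_zero_of_lt hlt)) a'
      · have h3 : ((ϖ : R) : FK N K) ^ β * ((b' : FK N K) * (u / v - 1)) =
            ((ϖ : R) : FK N K) ^ β * (((ϖ : R) : FK N K) ^ (α - β) * (a' : FK N K)) := by
          rw [← mul_assoc _ _ (a' : FK N K), ← _root_.pow_add, Nat.add_sub_cancel' hlt.le, ← haeq',
            ← hab, hbeq']
          ring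
        have h4 := mul_left_cancel₀ (pow_ne_zero β hϖ0) h3
        rw [h4]
        push_cast
        rfl
    · exfalso
      have h3 : (u / v - 1) * (((ϖ : R) : FK N K) ^ (β - α) * (b' : FK N K)) = (a' : FK N K) := by
        apply mul_left_cancel₀ (pow_ne_zero α hϖ0)
        rw [← haeq', ← hab, hbeq']
        have hβ : β = α + (β - α) := (Nat.add_sub_cancel' hge).symm
        conv_rhs => rw [hβ, _root_.pow_add]
        ring
      have g2 := hGA.mul _ _ _ _ gx (hρG (ϖ ^ (β - α) * b'))
      rw [zero_mul] at g2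
      have e2 : ((u / v - 1 : FK N K) : LaurentSeries Qb) *
          (((ϖ ^ (β - α) * b' : R) : FK N K) : LaurentSeries Qb) =
            ((a' : FK N K) : LaurentSeries Qb) := by
        rw [← h3]
        push_cast
        rfl
      rw [e2] at g2
      have h5 := hGA.unique _ _ _ g2 (hρG a')
      exact ha' ((hker a').1 h5.symm)
  obtain ⟨s, hs, r, hr, hsr⟩ := key
  refine ⟨⟨s + r, s, ?_, hs, ?_⟩, s, hs, r, hr, hsr⟩
  · intro h
    exact hs (by simpa using Ideal.sub_mem _ h hr)
  · have h1 : u / v * (s : FK N K) = (s : FK N K) * (u / v - 1) + s := by ring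
    rw [h1, hsr]
    push_cast
    ring

end Fermat.Agent.S18.Gauss
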