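/-
S18 — RedDiv.lean (helper18): `DivExists N` (every nonzero function of `Fbar` has a divisor) from
the landed S24 library, and the resulting form of the formal reduction of S18.
-/
import Mathlib
import Fermat.Agent.S18.Red
import Fermat.Agent.S24.Principal
import Fermat.Agent.S24.AnDegree

set_option autoImplicit false

namespace Fermat.Agent.S18.Red

open ModularCurve AlgebraicCurve HahnSeries

set_option synthInstance.maxHeartbeats 400000

/-- `Fbar = ℚ̄ · ℚ(j(q^d) : d ∣ N)` is a function field in one variable over `ℚ̄`. -/
theorem isFF1_bar (N : ℕ) [NeZero N] :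
    Fermat.Agent.S24.IsFF1 (AlgebraicClosure ℚ) (modularFunctionFieldBar N) :=
  ⟨Fermat.Agent.S24.jF N, Fermat.Agent.S24.transcendental_jF N,
    Fermat.Agent.S24.finiteDimensional_jF N⟩

/-- Every nonzero function of `Fbar` has a divisor. -/
theorem divExists (N : ℕ) [NeZero N] : DivExists N := by
  intro f hf
  exact ⟨Finsupp.ofSupportFinite (fun v => v.ord f)
    (Fermat.Agent.S24.finite_ord_ne_zero (isFF1_bar N) hf), fun v => rfl⟩

/-- **S18 from the two remaining cores** `ConstStatement` (char `ℓ`) and `LiftStatement`. -/
theorem result_of_const_lift (N : ℕ) [NeZero N] (A : ValuationSubring (AlgebraicClosure ℚ))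
    (h : ReductionInputsModL A N) (m : ℕ)
    (hconst : ConstStatement N A) (hlift : LiftStatement N A m)
    (z : JZero N) (hmz : m • z = 0) (hz : reductionModL A N z = 0) : z = 0 :=
  result_of_lift h m (divExists N) hconst hlift z hmz hz

end Fermat.Agent.S18.Red
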