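/-
S18 — Glob.lean (helper54): block [Glob] of `ArithPlan`:
a nonzero element of `R0 ∩ Rinf` has order `0` at every place of `F̄ / ℚ̄`.

Every place contains `j` or `j⁻¹`; `R0` is integral over `O[j]`, `Rinf` over `O[j⁻¹]`; valuation
rings are integrally closed; so a global function has no poles, and since the sum of the orders
of a nonzero function vanishes (S24), it has no zeros either.

Also: the final divisor step (e) of the blueprint in abstract place-language.
-/
import Mathlib
import Fermat.Agent.S18.ArithPlan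
import Fermat.Agent.S18.RedDiv

set_option autoImplicit false

namespace Fermat.Agent.S18.Glob

open ModularCurve ModularCurve.IgusaScheme AlgebraicCurve HahnSeries Fermat.Agent.S18.Arith

set_option synthInstance.maxHeartbeats 400000

/-! ### Abstract place-language lemmas -/

section Abstract

variable {K F : Type*} [Field K] [Field F] [Algebra K F]

/-- A valuation subring is integrally closed (membership form). -/
theorem mem_valuationSubring_of_isIntegral (W : ValuationSubring F) {x : F}
    (hx : IsIntegral W x) : x ∈ W := by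
  obtain ⟨y, hy⟩ := (IsIntegrallyClosed.isIntegral_iff (R := W) (K := F)).mp hx
  rw [← hy]
  exact y.2

/-- A nonzero function without poles has no zeros (function field in one variable over an
algebraically closed field of characteristic `0`). -/
theorem ord_eq_zero_of_forall_ord_nonneg [IsAlgClosed K] [CharZero K]
    (hF : Fermat.Agent.S24.IsFF1 K F) {f : F} (hf : f ≠ 0)
    (h : ∀ v : Place K F, 0 ≤ v.ord f) (v : Place K F) : v.ord f = 0 := by
  have hfin := Fermat.Agent.S24.finite_ord_ne_zero hF hf
  have hsum := Fermat.Agent.S24.sum_ord_eq_zero hF hf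
  rw [finsum_mem_eq_finite_toFinset_sum _ hfin] at hsum
  by_contra hv
  have hmem : v ∈ hfin.toFinset := by
    rw [Set.Finite.mem_toFinset]
    exact hv
  have h0 := (Finset.sum_eq_zero_iff_of_nonneg (fun w _ => h w)).mp hsum v hmem
  exact hv h0

/-- **Step (e)** of the blueprint, in place-language: if `u / v * h ^ m` has order `0` everywhere
and `m • D = div u - div v`, then `D = div (h⁻¹)` is principal. -/
theorem isPrincipal_of_ord_div_mul_pow_eq_zero (m : ℕ) (hm : m ≠ 0) (u v h : F) (hu : u ≠ 0)
    (hv : v ≠ 0) (hh : h ≠ 0) (hc : ∀ P : Place K F, P.ord (u / v * h ^ m) = 0)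
    (D : Divisor K F) (hD : ∀ P : Place K F, (m : ℤ) * D P = P.ord u - P.ord v) :
    Divisor.IsPrincipal D := by
  refine ⟨h⁻¹, inv_ne_zero hh, fun P => ?_⟩
  have h1 := hc P
  rw [P.ord_mul (div_ne_zero hu hv) (pow_ne_zero m hh), Fermat.Agent.S24.ord_div P hu hv,
    Fermat.Agent.S24.ord_pow] at h1
  rw [P.ord_inv]
  have h2 : (m : ℤ) * D P = (m : ℤ) * (-P.ord h) := by
    rw [hD P]
    linarith
  exact mul_left_cancel₀ (Nat.cast_ne_zero.mpr hm) h2

end Abstract

/-! ### `F_K ⊆ F̄` -/

section Concrete

variable (N : ℕ) [NeZero N]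

omit [NeZero N] in
/-- `F_K ⊆ F̄`. -/
theorem fk_le_bar (K : IntermediateField ℚ Qb) :
    FK N K ≤ (modularFunctionFieldBar N).toSubfield := by
  unfold FK
  rw [Subfield.closure_le]
  rintro x (⟨c, rfl⟩ | ⟨y, rfl⟩)
  · have h := (modularFunctionFieldBar N).algebraMap_mem (c : Qb)
    rw [algebraMap_laurentSeries_eq_single] at h
    exact h
  · exact coeffEmb_mem_laurentBaseChange Qb y.2

/-- The inclusion `F_K → F̄`. -/
noncomputable def toBar (K : IntermediateField ℚ Qb) : FK N K →+* modularFunctionFieldBar N :=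
  (FK N K).subtype.codRestrict (modularFunctionFieldBar N) (fun x => fk_le_bar N K x.2)

omit [NeZero N] in
theorem coe_toBar (K : IntermediateField ℚ Qb) (x : FK N K) :
    ((toBar N K x : modularFunctionFieldBar N) : LaurentSeries Qb) = (x : LaurentSeries Qb) :=
  rfl

omit [NeZero N] in
theorem toBar_algebraMap (A : ValuationSubring Qb) (K : IntermediateField ℚ Qb) (c : OK A K) :
    toBar N K (algebraMap (OK A K) (FK N K) c)
      = algebraMap Qb (modularFunctionFieldBar N) ((c : K) : Qb) := by
  apply Subtype.ext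
  rw [coe_toBar]
  show (HahnSeries.C (((c : K) : Qb)) : LaurentSeries Qb) = algebraMap Qb (LaurentSeries Qb) _
  rw [algebraMap_laurentSeries_eq_single]
  rfl

omit [NeZero N] in
/-- If `t ∈ F_K` lies in the valuation ring of the place `P` of `F̄`, every element of `F_K`
integral over `O[t]` lies in it. -/
theorem toBar_mem_of_isIntegral (A : ValuationSubring Qb) (K : IntermediateField ℚ Qb)
    (P : Place Qb (modularFunctionFieldBar N)) (t : FK N K)
    (ht : toBar N K t ∈ P.toValuationSubring) (x : FK N K)
    (hx : IsIntegral (Algebra.adjoin (OK A K) {t}) x) :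
    toBar N K x ∈ P.toValuationSubring := by
  have hmem : ∀ y ∈ Algebra.adjoin (OK A K) {t}, toBar N K y ∈ P.toValuationSubring := by
    intro y hy
    induction hy using Algebra.adjoin_induction with
    | mem y hy =>
      rw [Set.mem_singleton_iff] at hy
      rw [hy]
      exact ht
    | algebraMap c =>
      rw [toBar_algebraMap]
      exact P.algebraMap_mem' _
    | add y z _ _ hy hz =>
      rw [map_add]
      exact add_mem hy hz
    | mul y z _ _ hy hz =>
      rw [map_mul]
      exact mul_mem hy hz
  let φ : Algebra.adjoin (OK A K) {t} →+* P.toValuationSubring :=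
    ((toBar N K).comp (Algebra.adjoin (OK A K) {t}).val.toRingHom).codRestrict
      P.toValuationSubring.toSubring (fun y => hmem y y.2)
  have hint : IsIntegral P.toValuationSubring (toBar N K x) :=
    IsIntegral.map_of_comp_eq φ (toBar N K) (RingHom.ext fun y => rfl) hx
  exact mem_valuationSubring_of_isIntegral _ hint

/-- **[Glob]**: a nonzero element of `R0 ∩ Rinf` has order `0` at every place of `F̄ / ℚ̄`. -/
theorem globStatement (ℓ : ℕ) [Fact ℓ.Prime] : GlobStatement N ℓ := by
  intro A K hM x hx0 hxInf hxne hx P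
  have hxeq : (⟨(x : LaurentSeries Qb), hx⟩ : modularFunctionFieldBar N) = toBar N K x := rfl
  rw [hxeq]
  have hne : toBar N K x ≠ 0 := fun h0 => hxne ((toBar N K).injective (by rw [h0, map_zero]))
  refine ord_eq_zero_of_forall_ord_nonneg (Red.isFF1_bar N) hne ?_ P
  intro v
  apply Fermat.Agent.S24.ord_nonneg_of_mem
  rcases v.toValuationSubring.mem_or_inv_mem (toBar N K (jK N K)) with hj | hj
  · exact toBar_mem_of_isIntegral N A K v (jK N K) hj x (hM.c0.integral x hx0)
  · refine toBar_mem_of_isIntegral N A K v (jK N K)⁻¹ ?_ x (hM.cInf.integral x hxInf)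
    rw [map_inv₀]
    exact hj

/-- **Final step (e)** in `ArithPlan` vocabulary: if `w = u / v` (with `u, v ∈ F_K` the images of
`U, V`) and `h ≠ 0` in `F_K` satisfy `w * h ^ m ∈ R0 ∩ Rinf` (the conclusion of block [Cech]),
and `m • D = div U - div V`, then `D` is principal (`D = div (h⁻¹)`). -/
theorem isPrincipal_of_mem_charts (ℓ : ℕ) [Fact ℓ.Prime] (A : ValuationSubring Qb)
    (K : IntermediateField ℚ Qb) (hM : ModelFacts N ℓ A K) (m : ℕ) (hm : m ≠ 0)
    (U V : LaurentSeries A)
    (hU : coeffMap A.subtype U ∈ modularFunctionFieldBar N)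
    (hV : coeffMap A.subtype V ∈ modularFunctionFieldBar N)
    (u v : FK N K) (hu : (u : LaurentSeries Qb) = coeffMap A.subtype U)
    (hv : (v : LaurentSeries Qb) = coeffMap A.subtype V) (hu0 : u ≠ 0) (hv0 : v ≠ 0)
    (h : FK N K) (hh : h ≠ 0) (h0 : u / v * h ^ m ∈ R0 N ℓ A K)
    (hInf : u / v * h ^ m ∈ Rinf N ℓ A K)
    (D : Divisor Qb (modularFunctionFieldBar N))
    (hD : ∀ P : Place Qb (modularFunctionFieldBar N),
      (m : ℤ) * D P = P.ord (⟨coeffMap A.subtype U, hU⟩ : modularFunctionFieldBar N)
        - P.ord (⟨coeffMap A.subtype V, hV⟩ : modularFunctionFieldBar N)) :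
    Divisor.IsPrincipal D := by
  have hinj := (toBar N K).injective
  have hUeq : (⟨coeffMap A.subtype U, hU⟩ : modularFunctionFieldBar N) = toBar N K u :=
    Subtype.ext hu.symm
  have hVeq : (⟨coeffMap A.subtype V, hV⟩ : modularFunctionFieldBar N) = toBar N K v :=
    Subtype.ext hv.symm
  have hne : u / v * h ^ m ≠ 0 := mul_ne_zero (div_ne_zero hu0 hv0) (pow_ne_zero m hh)
  refine isPrincipal_of_ord_div_mul_pow_eq_zero m hm (toBar N K u) (toBar N K v) (toBar N K h)
    (fun h0' => hu0 (hinj (by rw [h0', map_zero])))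
    (fun h0' => hv0 (hinj (by rw [h0', map_zero])))
    (fun h0' => hh (hinj (by rw [h0', map_zero]))) ?_ D ?_
  · intro P
    have h1 := globStatement N ℓ A K hM (u / v * h ^ m) h0 hInf hne
      (fk_le_bar N K (u / v * h ^ m).2) P
    have h2 : (⟨((u / v * h ^ m : FK N K) : LaurentSeries Qb), fk_le_bar N K (u / v * h ^ m).2⟩ :
        modularFunctionFieldBar N) = toBar N K u / toBar N K v * toBar N K h ^ m := by
      rw [← map_div₀, ← map_pow, ← map_mul]
      rfl
    rw [h2] at h1
    exact h1
  · intro P
    rw [hD P, hUeq, hVeq]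

end Concrete

end Fermat.Agent.S18.Glob
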