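import Mathlib
import Fermat.Agent.S18.UFD2

/-!
# S18, block [Local] : from Igusa's local structure statement to (Loc)

Pure commutative algebra.  `R` is a noetherian domain (a chart of the integral model) with
fraction field `E`, `π : R` a prime element, `n ∋ π` a maximal ideal such that `n R_n` is
generated by `π` and one more element `t` (Igusa: the closed fibre is regular at `n`).  Then
`R_n` is a unique factorisation domain (`UFD2`), and a function `w ∈ E` which

* is a unit (e.g. `≡ 1` modulo `π`) at the generic point of the closed fibre (`hw`), and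
* has valuation divisible by `m` at every discrete valuation ring of `E` containing
  `R[1/π]` (`hdiv`: the "horizontal" divisor of `w` is `m` times a divisor),

is, locally at `n`, a unit times an `m`-th power: `w * g ^ m ∈ R \ n` for some `g ∈ E`.

Main statements: `exists_mul_pow_mem_notMem_of_unit` (for `w` a unit at the generic point of
the closed fibre), `exists_mul_pow_mem_notMem` (for `w ≡ 1` there).
-/

set_option autoImplicit false

namespace Fermat.Agent.S18.NorLoc

open IsLocalRing


/-- In a unique factorisation domain, a nonzero element all of whose prime multiplicities are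
divisible by `m` is a unit times an `m`-th power. -/
theorem exists_unit_mul_pow_of_dvd_multiplicity {A : Type*} [CommRing A] [IsDomain A]
    [UniqueFactorizationMonoid A] (m : ℕ) (a : A) (ha : a ≠ 0)
    (h : ∀ p : A, Prime p → m ∣ multiplicity p a) : ∃ u : Aˣ, ∃ c : A, a = u * c ^ m := by
  revert ha h
  refine UniqueFactorizationMonoid.induction_on_coprime
    (P := fun a : A => a ≠ 0 → (∀ p : A, Prime p → m ∣ multiplicity p a) →
      ∃ u : Aˣ, ∃ c : A, a = u * c ^ m) a ?_ ?_ ?_ ?_
  · intro h; exact absurd rfl h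
  · intro x hx _ _
    exact ⟨hx.unit, 1, by simp⟩
  · intro p i hp _ h
    obtain ⟨k, hk⟩ := h p hp
    rw [multiplicity_pow_self_of_prime hp] at hk
    exact ⟨1, p ^ k, by rw [hk, Units.val_one, one_mul, ← pow_mul, mul_comm]⟩
  · intro x y hxy hx hy hne h
    have hx0 : x ≠ 0 := left_ne_zero_of_mul hne
    have hy0 : y ≠ 0 := right_ne_zero_of_mul hne
    have key : ∀ p : A, Prime p → m ∣ multiplicity p x ∧ m ∣ multiplicity p y := by
      intro p hp
      have h1 := h p hp
      rw [multiplicity_mul hp (FiniteMultiplicity.of_prime_left hp hne)] at h1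
      by_cases hpx : p ∣ x
      · have hpy : ¬ p ∣ y := fun hpy => hp.not_isUnit (hxy hpx hpy)
        have h0 : multiplicity p y = 0 := multiplicity_eq_zero.mpr hpy
        rw [h0, add_zero] at h1
        exact ⟨h1, h0 ▸ dvd_zero m⟩
      · have h0 : multiplicity p x = 0 := multiplicity_eq_zero.mpr hpx
        rw [h0, zero_add] at h1
        exact ⟨h0 ▸ dvd_zero m, h1⟩
    obtain ⟨u, c, rfl⟩ := hx hx0 fun p hp => (key p hp).1
    obtain ⟨u', c', rfl⟩ := hy hy0 fun p hp => (key p hp).2
    exact ⟨u * u', c * c', by rw [Units.val_mul, mul_pow]; ring⟩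

/-- In a unique factorisation domain `A` with fraction field `E`: an element `w ≠ 0` of `E`
whose valuation at every prime element is divisible by `m` is a unit of `A` times an
`m`-th power. -/
theorem exists_unit_mul_pow_of_forall_prime {A E : Type*} [CommRing A] [IsDomain A]
    [UniqueFactorizationMonoid A] [Field E] [Algebra A E] [IsFractionRing A E] (m : ℕ)
    (hm : m ≠ 0) (w : E) (hw : w ≠ 0)
    (h : ∀ p : A, Prime p → ∃ g : E, g ≠ 0 ∧ ∃ x y : A, ¬ p ∣ x ∧ ¬ p ∣ y ∧
      w * g ^ m * algebraMap A E y = algebraMap A E x) :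
    ∃ g : E, g ≠ 0 ∧ ∃ u : Aˣ, w * g ^ m = algebraMap A E u := by
  have hinj : Function.Injective (algebraMap A E) := IsFractionRing.injective A E
  obtain ⟨a, ⟨b, hb⟩, hab, hw'⟩ := IsFractionRing.exists_reduced_fraction A w
  have hb0 : b ≠ 0 := nonZeroDivisors.ne_zero hb
  have hb0' : algebraMap A E b ≠ 0 := fun h0 => hb0 (hinj (h0.trans (map_zero _).symm))
  have hwa : w * algebraMap A E b = algebraMap A E a := by
    rw [← hw']; exact IsLocalization.mk'_spec E a ⟨b, hb⟩
  have ha0 : a ≠ 0 := by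
    rintro rfl
    rw [map_zero] at hwa
    exact (mul_ne_zero hw hb0') hwa
  have hab' : IsRelPrime a b := hab
  -- multiplicities
  have key : ∀ p : A, Prime p → m ∣ multiplicity p a ∧ m ∣ multiplicity p b := by
    intro p hp
    obtain ⟨g, hg, x, y, hx, hy, hgxy⟩ := h p hp
    obtain ⟨c, ⟨d, hd⟩, hcd⟩ := IsLocalization.exists_mk'_eq (nonZeroDivisors A) g
    have hd0 : d ≠ 0 := nonZeroDivisors.ne_zero hd
    have hd0' : algebraMap A E d ≠ 0 := fun h0 => hd0 (hinj (h0.trans (map_zero _).symm))
    have hgc : g * algebraMap A E d = algebraMap A E c := by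
      rw [← hcd]; exact IsLocalization.mk'_spec E c ⟨d, hd⟩
    have hc0 : c ≠ 0 := by
      rintro rfl
      rw [map_zero] at hgc
      exact (mul_ne_zero hg hd0') hgc
    have hx0 : x ≠ 0 := fun h0 => hx (h0 ▸ dvd_zero p)
    have hy0 : y ≠ 0 := fun h0 => hy (h0 ▸ dvd_zero p)
    -- `a c^m y = x b d^m`
    have e1 : a * c ^ m * y = x * b * d ^ m := by
      apply hinj
      simp only [map_mul, map_pow]
      rw [← hwa, ← hgc, ← hgxy]
      ring
    have hfin1 : FiniteMultiplicity p (a * c ^ m * y) :=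
      FiniteMultiplicity.of_prime_left hp (mul_ne_zero (mul_ne_zero ha0 (pow_ne_zero m hc0)) hy0)
    have hfin2 : FiniteMultiplicity p (x * b * d ^ m) :=
      FiniteMultiplicity.of_prime_left hp (mul_ne_zero (mul_ne_zero hx0 hb0) (pow_ne_zero m hd0))
    have e2 := congrArg (multiplicity p) e1
    rw [multiplicity_mul hp hfin1, multiplicity_mul hp (hfin1.mul_left),
      multiplicity_mul hp hfin2, multiplicity_mul hp (hfin2.mul_left),
      (FiniteMultiplicity.of_prime_left hp hc0).multiplicity_pow hp,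
      (FiniteMultiplicity.of_prime_left hp hd0).multiplicity_pow hp,
      multiplicity_eq_zero.mpr hx, multiplicity_eq_zero.mpr hy, add_zero, zero_add] at e2
    by_cases hpa : p ∣ a
    · have hpb : ¬ p ∣ b := fun hpb => hp.not_isUnit (hab' hpa hpb)
      have h0 : multiplicity p b = 0 := multiplicity_eq_zero.mpr hpb
      rw [h0, zero_add] at e2
      refine ⟨?_, h0 ▸ dvd_zero m⟩
      exact (Nat.dvd_add_left (dvd_mul_right m _)).mp (e2 ▸ dvd_mul_right m _)
    · have h0 : multiplicity p a = 0 := multiplicity_eq_zero.mpr hpa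
      rw [h0, zero_add] at e2
      refine ⟨h0 ▸ dvd_zero m, ?_⟩
      exact (Nat.dvd_add_left (dvd_mul_right m _)).mp (e2 ▸ dvd_mul_right m _)
  obtain ⟨u, c, rfl⟩ := exists_unit_mul_pow_of_dvd_multiplicity m a ha0 fun p hp => (key p hp).1
  obtain ⟨u', d, rfl⟩ := exists_unit_mul_pow_of_dvd_multiplicity m b hb0 fun p hp => (key p hp).2
  have hc0 : c ≠ 0 := by
    rintro rfl
    exact ha0 (by rw [zero_pow hm, mul_zero])
  have hc0' : algebraMap A E c ≠ 0 := fun h0 => hc0 (hinj (h0.trans (map_zero _).symm))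
  refine ⟨algebraMap A E d / algebraMap A E c, ?_, u * u'⁻¹, ?_⟩
  · refine div_ne_zero (fun h0 => hb0 ?_) hc0'
    have : d = 0 := hinj (h0.trans (map_zero _).symm)
    rw [this, zero_pow hm, mul_zero]
  · have hu' : algebraMap A E (u' : A) ≠ 0 := fun h0 =>
      u'.ne_zero (hinj (h0.trans (map_zero _).symm))
    have e3 : w * (algebraMap A E (u' : A) * algebraMap A E d ^ m) =
        algebraMap A E (u : A) * algebraMap A E c ^ m := by
      rw [← map_pow, ← map_pow, ← map_mul, ← map_mul]; exact hwa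
    have e4 : algebraMap A E ((u * u'⁻¹ : Aˣ) : A) * algebraMap A E (u' : A) =
        algebraMap A E (u : A) := by
      rw [← map_mul, Units.val_mul, mul_assoc, Units.inv_mul, mul_one]
    rw [← e4] at e3
    rw [div_pow, ← mul_div_assoc, div_eq_iff (pow_ne_zero m hc0')]
    apply mul_right_cancel₀ hu'
    linear_combination e3



/-- The discrete valuation ring `A_(p)` of a prime element `p` of a noetherian domain `A`,
as a valuation subring of the fraction field. -/
theorem exists_dvr_of_prime {A E : Type*} [CommRing A] [IsDomain A] [IsNoetherianRing A]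
    [Field E] [Algebra A E] [IsFractionRing A E] (p : A) (hp : Prime p) :
    ∃ W : ValuationSubring E, IsDiscreteValuationRing W ∧ (∀ a : A, algebraMap A E a ∈ W) ∧
      (∀ a : A, ¬ p ∣ a → (algebraMap A E a)⁻¹ ∈ W) ∧
      ∀ x ∈ W, ∃ a b : A, ¬ p ∣ b ∧ x * algebraMap A E b = algebraMap A E a := by
  have hinj : Function.Injective (algebraMap A E) := IsFractionRing.injective A E
  set P : Ideal A := Ideal.span {p} with hPdef
  have hP : P.IsPrime := (Ideal.span_singleton_prime hp.ne_zero).mpr hp
  have hmemP : ∀ a : A, a ∈ P ↔ p ∣ a := fun a => Ideal.mem_span_singleton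
  set W0 : Subalgebra A E :=
    Localization.subalgebra.ofField E P.primeCompl P.primeCompl_le_nonZeroDivisors with hW0
  have hmemW0 : ∀ x : E, x ∈ W0 ↔
      ∃ (a s : A) (_ : s ∈ P.primeCompl), x = algebraMap A E a * (algebraMap A E s)⁻¹ :=
    fun x => Iff.rfl
  have hloc : IsLocalization.AtPrime W0 P :=
    Localization.subalgebra.isLocalization_ofField E P.primeCompl P.primeCompl_le_nonZeroDivisors
  have : IsLocalRing W0 := IsLocalization.AtPrime.isLocalRing W0 P
  have : IsNoetherianRing W0 := IsLocalization.isNoetherianRing P.primeCompl W0 inferInstance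
  have hmax : maximalIdeal W0 = Ideal.span {algebraMap A W0 p} := by
    rw [← IsLocalization.AtPrime.map_eq_maximalIdeal P W0, hPdef, Ideal.map_span,
      Set.image_singleton]
  have : IsPrincipalIdealRing W0 := UFD2.isPrincipalIdealRing_of_maximalIdeal_eq_span _ hmax
  have hp' : algebraMap A W0 p ≠ 0 := by
    intro h0
    have : algebraMap A E p = 0 := by
      have := congrArg (Subtype.val : W0 → E) h0
      simpa using this
    exact hp.ne_zero (hinj (this.trans (map_zero _).symm))
  have : IsDiscreteValuationRing W0 :=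
    { not_a_field' := by
        rw [hmax]
        intro h0
        exact hp' (Ideal.span_singleton_eq_bot.mp h0) }
  -- the valuation subring
  have hor : ∀ x : E, x ∈ W0 ∨ x⁻¹ ∈ W0 := by
    intro x
    rcases ValuationRing.isInteger_or_isInteger W0 x with ⟨y, hy⟩ | ⟨y, hy⟩
    · left; rw [← hy]; exact y.2
    · right; rw [← hy]; exact y.2
  let W : ValuationSubring E := { W0.toSubring with mem_or_inv_mem' := hor }
  have hWmem : ∀ x : E, x ∈ W ↔ x ∈ W0 := fun x => Iff.rfl
  let e : W0 ≃+* W :=
    { toFun := fun x => ⟨x.1, x.2⟩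
      invFun := fun x => ⟨x.1, x.2⟩
      left_inv := fun _ => rfl
      right_inv := fun _ => rfl
      map_mul' := fun _ _ => rfl
      map_add' := fun _ _ => rfl }
  refine ⟨W, IsDiscreteValuationRing.RingEquivClass.isDiscreteValuationRing e, ?_, ?_, ?_⟩
  · intro a
    exact (hWmem _).mpr (W0.algebraMap_mem a)
  · intro a ha
    rw [hWmem, hmemW0]
    exact ⟨1, a, fun h => ha ((hmemP a).mp h), by rw [map_one, one_mul]⟩
  · intro x hx
    rw [hWmem, hmemW0] at hx
    obtain ⟨a, s, hs, rfl⟩ := hx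
    refine ⟨a, s, fun h => hs ((hmemP s).mpr h), ?_⟩
    have hs0 : algebraMap A E s ≠ 0 := by
      intro h0
      have : s = 0 := hinj (h0.trans (map_zero _).symm)
      exact hs (this ▸ P.zero_mem)
    rw [mul_assoc, inv_mul_cancel₀ hs0, mul_one]

/-- (Loc) from Igusa's statement at `n`, for `w` a unit at the generic point of the closed
fibre: see the file header. -/
theorem exists_mul_pow_mem_notMem_of_unit {R E : Type*} [CommRing R] [IsDomain R]
    [IsNoetherianRing R] [Field E] [Algebra R E] [IsFractionRing R E] (π : R) (hπ : Prime π)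
    (n : Ideal R) (hn : n.IsMaximal) (hπn : π ∈ n) (t : R) (ht : t ∈ n)
    (hIg : ∀ x ∈ n, ∃ c : R, c ∉ n ∧ c * x ∈ Ideal.span {π, t}) (m : ℕ) (hm : m ≠ 0) (w : E)
    (hw : ∃ a b : R, ¬ π ∣ a ∧ ¬ π ∣ b ∧ w * algebraMap R E b = algebraMap R E a)
    (hdiv : ∀ W : ValuationSubring E, IsDiscreteValuationRing W →
      (∀ r : R, algebraMap R E r ∈ W) → (algebraMap R E π)⁻¹ ∈ W →
      ∃ x : E, x ≠ 0 ∧ w * x ^ m ∈ W ∧ (w * x ^ m)⁻¹ ∈ W) :
    ∃ g : E, g ≠ 0 ∧ ∃ a : R, a ∉ n ∧ w * g ^ m = algebraMap R E a := by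
  have hinj : Function.Injective (algebraMap R E) := IsFractionRing.injective R E
  have hnp : n.IsPrime := hn.isPrime
  set Rn : Subalgebra R E :=
    Localization.subalgebra.ofField E n.primeCompl n.primeCompl_le_nonZeroDivisors with hRn
  have hmemRn : ∀ x : E, x ∈ Rn ↔
      ∃ (a s : R) (_ : s ∈ n.primeCompl), x = algebraMap R E a * (algebraMap R E s)⁻¹ :=
    fun x => Iff.rfl
  have hloc : IsLocalization.AtPrime Rn n :=
    Localization.subalgebra.isLocalization_ofField E n.primeCompl n.primeCompl_le_nonZeroDivisors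
  have hlocal : IsLocalRing Rn := IsLocalization.AtPrime.isLocalRing Rn n
  have hnoeth : IsNoetherianRing Rn :=
    IsLocalization.isNoetherianRing n.primeCompl Rn inferInstance
  have hfrac : IsFractionRing Rn E :=
    Localization.subalgebra.isFractionRing_ofField E n.primeCompl
      n.primeCompl_le_nonZeroDivisors
  have hval : ∀ x : R, ((algebraMap R Rn x : Rn) : E) = algebraMap R E x := fun x => rfl
  -- the maximal ideal of `Rn`
  have hmax : maximalIdeal Rn = Ideal.span {algebraMap R Rn π, algebraMap R Rn t} := by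
    rw [← IsLocalization.AtPrime.map_eq_maximalIdeal n Rn]
    apply le_antisymm
    · rw [Ideal.map_le_iff_le_comap]
      intro x hx
      obtain ⟨c, hc, hcx⟩ := hIg x hx
      have hcu : IsUnit (algebraMap R Rn c) :=
        (IsLocalization.AtPrime.isUnit_to_map_iff Rn n c).mpr hc
      rw [Ideal.mem_comap]
      have h1 : algebraMap R Rn (c * x) ∈
          Ideal.span {algebraMap R Rn π, algebraMap R Rn t} := by
        have := Ideal.mem_map_of_mem (algebraMap R Rn) hcx
        rwa [Ideal.map_span, Set.image_pair] at this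
      rw [map_mul] at h1
      exact (Ideal.unit_mul_mem_iff_mem _ hcu).mp h1
    · rw [Ideal.span_le]
      rintro y (rfl | rfl)
      · exact Ideal.mem_map_of_mem _ hπn
      · exact Ideal.mem_map_of_mem _ ht
  -- `π` stays prime in `Rn`, and divisibility by `π` descends
  have hπR : (Ideal.span {π} : Ideal R).IsPrime := (Ideal.span_singleton_prime hπ.ne_zero).mpr hπ
  have hdisj : Disjoint (n.primeCompl : Set R) ((Ideal.span {π} : Ideal R) : Set R) := by
    rw [Set.disjoint_left]
    intro x hx hx'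
    exact hx ((Ideal.span_singleton_le_iff_mem n).mpr hπn hx')
  have hπ0' : algebraMap R Rn π ≠ 0 := by
    intro h0
    have h1 : algebraMap R E π = 0 := by rw [← hval, h0]; rfl
    exact hπ.ne_zero (hinj (h1.trans (map_zero _).symm))
  have hπ' : Prime (algebraMap R Rn π) := by
    have h2 := IsLocalization.isPrime_of_isPrime_disjoint n.primeCompl Rn _ hπR hdisj
    rw [Ideal.map_span, Set.image_singleton] at h2
    exact (Ideal.span_singleton_prime hπ0').mp h2
  have hdesc : ∀ x : R, algebraMap R Rn π ∣ algebraMap R Rn x → π ∣ x := by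
    intro x hx
    have h1 : algebraMap R Rn x ∈ Ideal.map (algebraMap R Rn) (Ideal.span {π}) := by
      rw [Ideal.map_span, Set.image_singleton]
      exact Ideal.mem_span_singleton.mpr hx
    have h2 : x ∈ (Ideal.map (algebraMap R Rn) (Ideal.span {π})).under R := h1
    rw [IsLocalization.under_map_of_isPrime_disjoint n.primeCompl Rn hπR hdisj] at h2
    exact Ideal.mem_span_singleton.mp h2
  have hufd : UniqueFactorizationMonoid Rn :=
    UFD2.ufd_of_maximalIdeal_eq_span_pair _ _ hπ' hmax
  -- `w ≠ 0`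
  have hw0 : w ≠ 0 := by
    rintro rfl
    obtain ⟨a, b, ha, -, hab⟩ := hw
    apply ha
    rw [zero_mul] at hab
    have : a = 0 := hinj (hab.symm.trans (map_zero _).symm)
    exact this ▸ dvd_zero π
  -- the valuation of `w` at every prime element of `Rn` is divisible by `m`
  have hprime : ∀ p : Rn, Prime p → ∃ g : E, g ≠ 0 ∧ ∃ x y : Rn, ¬ p ∣ x ∧ ¬ p ∣ y ∧
      w * g ^ m * algebraMap Rn E y = algebraMap Rn E x := by
    intro p hp
    by_cases hass : Associated p (algebraMap R Rn π)
    · obtain ⟨a, b, ha, hb, hab⟩ := hw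
      refine ⟨1, one_ne_zero, algebraMap R Rn a, algebraMap R Rn b, ?_, ?_, ?_⟩
      · intro hdvd
        exact ha (hdesc _ (hass.dvd_iff_dvd_left.mp hdvd))
      · intro hdvd
        exact hb (hdesc _ (hass.dvd_iff_dvd_left.mp hdvd))
      · change w * 1 ^ m * algebraMap R E b = algebraMap R E a
        rw [one_pow, mul_one, hab]
    · obtain ⟨W, hWdvr, hWA, hWinv, hWfrac⟩ := exists_dvr_of_prime (E := E) p hp
      have hpπ : ¬ p ∣ algebraMap R Rn π := fun hdvd => hass (hp.associated_of_dvd hπ' hdvd)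
      obtain ⟨x, hx0, hx1, hx2⟩ := hdiv W hWdvr (fun r => hWA (algebraMap R Rn r))
        (hWinv _ hpπ)
      obtain ⟨a, b, hb, hab⟩ := hWfrac _ hx1
      obtain ⟨a', b', hb', hab'⟩ := hWfrac _ hx2
      refine ⟨x, hx0, a, b, ?_, hb, hab⟩
      intro hpa
      have hne : w * x ^ m ≠ 0 := mul_ne_zero hw0 (pow_ne_zero m hx0)
      have e1 : a * a' = b * b' := by
        apply IsFractionRing.injective Rn E
        rw [map_mul, map_mul, ← hab, ← hab']
        field_simp
      have h1 : p ∣ b * b' := e1 ▸ Dvd.dvd.mul_right hpa a'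
      rcases hp.dvd_or_dvd h1 with h2 | h2
      · exact hb h2
      · exact hb' h2
  obtain ⟨g, hg0, u, hu⟩ := exists_unit_mul_pow_of_forall_prime (A := Rn) m hm w hw0 hprime
  -- clear the denominator of the unit `u`
  obtain ⟨a, s, hs, hus⟩ := (hmemRn _).mp (u : Rn).2
  have hs0 : algebraMap R E s ≠ 0 := by
    intro h0
    have : s = 0 := hinj (h0.trans (map_zero _).symm)
    exact hs (this ▸ n.zero_mem)
  have hsu : IsUnit (algebraMap R Rn s) := (IsLocalization.AtPrime.isUnit_to_map_iff Rn n s).mpr hs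
  have hau : IsUnit (algebraMap R Rn a) := by
    have e2 : algebraMap R Rn a = (u : Rn) * algebraMap R Rn s := by
      apply Subtype.ext
      change algebraMap R E a = ((u : Rn) : E) * algebraMap R E s
      rw [hus, mul_assoc, inv_mul_cancel₀ hs0, mul_one]
    rw [e2]
    exact u.isUnit.mul hsu
  have han : a ∉ n := (IsLocalization.AtPrime.isUnit_to_map_iff Rn n a).mp hau
  obtain ⟨m', rfl⟩ := Nat.exists_eq_succ_of_ne_zero hm
  refine ⟨g * algebraMap R E s, mul_ne_zero hg0 hs0, a * s ^ m', ?_, ?_⟩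
  · intro hmem
    rcases hnp.mem_or_mem hmem with h1 | h1
    · exact han h1
    · exact hs (hnp.mem_of_pow_mem _ h1)
  · have hu' : w * g ^ (m' + 1) = algebraMap R E a * (algebraMap R E s)⁻¹ := by
      rw [hu, ← hus]; rfl
    rw [mul_pow, ← mul_assoc, hu', map_mul, map_pow, pow_succ]
    field_simp

/-- (Loc) from Igusa's statement at `n`, for `w ≡ 1` modulo `π` at the generic point of the
closed fibre. -/
theorem exists_mul_pow_mem_notMem {R E : Type*} [CommRing R] [IsDomain R] [IsNoetherianRing R]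
    [Field E] [Algebra R E] [IsFractionRing R E] (π : R) (hπ : Prime π) (n : Ideal R)
    (hn : n.IsMaximal) (hπn : π ∈ n) (t : R) (ht : t ∈ n)
    (hIg : ∀ x ∈ n, ∃ c : R, c ∉ n ∧ c * x ∈ Ideal.span {π, t}) (m : ℕ) (hm : m ≠ 0) (w : E)
    (hw : ∃ s : R, ¬ π ∣ s ∧ ∃ r : R,
      algebraMap R E s * (w - 1) = algebraMap R E π * algebraMap R E r)
    (hdiv : ∀ W : ValuationSubring E, IsDiscreteValuationRing W →
      (∀ r : R, algebraMap R E r ∈ W) → (algebraMap R E π)⁻¹ ∈ W →
      ∃ x : E, x ≠ 0 ∧ w * x ^ m ∈ W ∧ (w * x ^ m)⁻¹ ∈ W) :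
    ∃ g : E, g ≠ 0 ∧ ∃ a : R, a ∉ n ∧ w * g ^ m = algebraMap R E a := by
  obtain ⟨s, hs, r, hsr⟩ := hw
  refine exists_mul_pow_mem_notMem_of_unit π hπ n hn hπn t ht hIg m hm w
    ⟨s + π * r, s, ?_, hs, ?_⟩ hdiv
  · intro h1
    exact hs ((dvd_add_left (dvd_mul_right π r)).mp h1)
  · rw [map_add, map_mul]
    linear_combination hsr

/-- The same statement with Igusa's hypothesis in existential form. -/
theorem exists_pow_mul_not_mem_of_igusa {R E : Type*} [CommRing R] [IsDomain R]
    [IsNoetherianRing R] [Field E] [Algebra R E] [IsFractionRing R E] (π : R) (hπ : Prime π)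
    (m : ℕ) (hm : m ≠ 0) (w : E)
    (hw : ∃ s : R, ¬ π ∣ s ∧ ∃ r : R, algebraMap R E s * (w - 1) = algebraMap R E (π * r))
    (hdiv : ∀ W : ValuationSubring E, IsDiscreteValuationRing W →
      (∀ r : R, algebraMap R E r ∈ W) → (algebraMap R E π)⁻¹ ∈ W →
      ∃ g : E, g ≠ 0 ∧ w * g ^ m ∈ W ∧ (w * g ^ m)⁻¹ ∈ W)
    (n : Ideal R) (hn : n.IsMaximal) (hπn : π ∈ n)
    (hI : ∃ t ∈ n, ∀ x ∈ n, ∃ c : R, c ∉ n ∧ c * x ∈ Ideal.span {π, t}) :
    ∃ g : E, ∃ a : R, a ∉ n ∧ w * g ^ m = algebraMap R E a := by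
  obtain ⟨t, ht, hIg⟩ := hI
  obtain ⟨s, hs, r, hsr⟩ := hw
  obtain ⟨g, -, a, ha, hga⟩ := exists_mul_pow_mem_notMem π hπ n hn hπn t ht hIg m hm w
    ⟨s, hs, r, by rw [hsr, map_mul]⟩ hdiv
  exact ⟨g, a, ha, hga⟩

end Fermat.Agent.S18.NorLoc
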