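import Fermat.Agent.S18.ArithPlan
import Fermat.Agent.S18.Nor
import Fermat.Agent.S18.NorLoc

/-!
# S18, [ARITH] leaf [Local]

`locStatement N : Arith.LocStatement N` : for a chart `R` with `ChartFacts` and the Igusa
statement `IgusaAt`, a function `w ∈ F_K` which is a unit at the generic point of the special
fibre and whose order at every place of `F_K / K` is divisible by `m` is, at every closed point
of the special fibre, a unit times an `m`-th power.

The commutative algebra is in `NorLoc.exists_mul_pow_mem_notMem_of_unit`; here we only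
translate: a discrete valuation subring of `F_K` containing `R` and `π⁻¹` contains `K`, hence
is a `Place K F_K`.
-/

set_option autoImplicit false

namespace Fermat.Agent.S18.Loc

open Fermat.Agent.S18 Fermat.Agent.S18.Arith ModularCurve AlgebraicCurve

/-- A discrete valuation subring `W ⊇ K` of `F` is a place of `F / K`; if the order of `w` at
every place is divisible by `m`, then `w` is an `m`-th power up to a unit of `W`. -/
theorem exists_pow_unit_of_dvd_ord {K F : Type*} [Field K] [Field F] [Algebra K F]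
    (W : ValuationSubring F) (hW : IsDiscreteValuationRing W)
    (hK : ∀ a : K, algebraMap K F a ∈ W) (m : ℕ) (w : F) (hw : w ≠ 0)
    (hdiv : ∀ v : Place K F, (m : ℤ) ∣ v.ord w) :
    ∃ x : F, x ≠ 0 ∧ w * x ^ m ∈ W ∧ (w * x ^ m)⁻¹ ∈ W := by
  obtain ⟨ϖ, hϖ⟩ := IsDiscreteValuationRing.exists_irreducible W
  have hϖ0 : (ϖ : F) ≠ 0 := by
    intro h0
    exact hϖ.ne_zero (Subtype.ext h0)
  have hne : W ≠ ⊤ := by
    intro htop
    have hall : ∀ x : F, x ∈ W := fun x => by rw [htop]; exact ValuationSubring.mem_top x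
    have hinv : (ϖ : F)⁻¹ ∈ W := hall _
    apply hϖ.not_isUnit
    refine IsUnit.of_mul_eq_one (⟨(ϖ : F)⁻¹, hinv⟩ : W) (Subtype.ext ?_)
    change (ϖ : F) * (ϖ : F)⁻¹ = 1
    exact mul_inv_cancel₀ hϖ0
  let v : Place K F := ⟨W, hK, hne, inferInstance⟩
  obtain ⟨k, hk⟩ := hdiv v
  obtain ⟨u, hu⟩ := v.exists_unit_mul_zpow hw (π := ϖ) hϖ
  have key : w * ((ϖ : F) ^ (-k)) ^ m = ((u : W) : F) := by
    have h1 : ((ϖ : F) ^ (-k)) ^ m = (ϖ : F) ^ (-(v.ord w)) := by
      rw [← zpow_natCast, ← zpow_mul, hk]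
      congr 1
      ring
    rw [h1]
    nth_rewrite 1 [hu]
    change ((u : W) : F) * (ϖ : F) ^ v.ord w * (ϖ : F) ^ (-(v.ord w)) = ((u : W) : F)
    rw [mul_assoc, ← zpow_add₀ hϖ0, add_neg_cancel, zpow_zero, mul_one]
  refine ⟨(ϖ : F) ^ (-k), zpow_ne_zero _ hϖ0, ?_, ?_⟩
  · rw [key]; exact (u : W).2
  · rw [key]
    have h2 : ((u : W) : F)⁻¹ = (((u⁻¹ : Wˣ) : W) : F) := by
      apply inv_eq_of_mul_eq_one_right
      have h4 : (u : W) * ((u⁻¹ : Wˣ) : W) = 1 := u.mul_inv
      exact_mod_cast congrArg (Subtype.val : W → F) h4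
    rw [h2]
    exact ((u⁻¹ : Wˣ) : W).2

/-- **[Local]** -/
theorem locStatement (N : ℕ) : Arith.LocStatement N := by
  intro A K hdvr R t hC hIg m w hm hw hdivm n hn hπn
  have := hdvr
  have hnoeth : IsNoetherianRing R := Nor.isNoetherianRing_chart hdvr hC
  obtain ⟨π, hπ⟩ := IsDiscreteValuationRing.exists_irreducible (OK A K)
  have hpi : piIdeal N A K R = Ideal.span {algebraMap (OK A K) R π} := Nor.piIdeal_eq_span R hπ
  have hprime : (Ideal.span {algebraMap (OK A K) R π}).IsPrime := Nor.isPrime_span hC hπ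
  -- the maps `O → R → F_K` are injective
  have hinjO : Function.Injective (algebraMap (OK A K) (FK N K)) := by
    have h1 : Function.Injective (constK N K) := (constK N K).injective
    exact h1.comp Subtype.val_injective
  have hvalR : ∀ o : OK A K,
      ((algebraMap (OK A K) R o : R) : FK N K) = algebraMap (OK A K) (FK N K) o := fun o => rfl
  have hπ0 : algebraMap (OK A K) R π ≠ 0 := by
    intro h0
    have h1 : algebraMap (OK A K) (FK N K) π = 0 := by rw [← hvalR, h0]; rfl
    exact hπ.ne_zero (hinjO (h1.trans (map_zero _).symm))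
  have hπ' : Prime (algebraMap (OK A K) R π) := (Ideal.span_singleton_prime hπ0).mp hprime
  -- `F_K = Frac R`
  have hfrac : IsFractionRing R (FK N K) := by
    refine IsFractionRing.of_field R (FK N K) fun z => ?_
    obtain ⟨a, ha, b, hb, hb0, hab⟩ := hC.frac z
    refine ⟨⟨a, ha⟩, ⟨b, hb⟩, ?_⟩
    change z = a / b
    rw [eq_div_iff hb0]
    exact hab
  have hπn' : algebraMap (OK A K) R π ∈ n := hπn (hpi ▸ Ideal.subset_span rfl)
  obtain ⟨t', ht', hIg'⟩ := hIg π hπ n hn hπn'
  obtain ⟨a, b, ha, hb, hab⟩ := hw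
  have ha' : ¬ algebraMap (OK A K) R π ∣ a := fun h =>
    ha (hpi ▸ Ideal.mem_span_singleton.mpr h)
  have hb' : ¬ algebraMap (OK A K) R π ∣ b := fun h =>
    hb (hpi ▸ Ideal.mem_span_singleton.mpr h)
  have hw0 : w ≠ 0 := by
    rintro rfl
    rw [zero_mul] at hab
    apply ha'
    have : a = 0 := Subtype.ext hab.symm
    exact this ▸ dvd_zero _
  -- discrete valuation rings containing `R[1/π]` are places of `F_K / K`
  have hdiv : ∀ W : ValuationSubring (FK N K), IsDiscreteValuationRing W →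
      (∀ r : R, algebraMap R (FK N K) r ∈ W) →
      (algebraMap R (FK N K) (algebraMap (OK A K) R π))⁻¹ ∈ W →
      ∃ x : FK N K, x ≠ 0 ∧ w * x ^ m ∈ W ∧ (w * x ^ m)⁻¹ ∈ W := by
    intro W hW hRW hπW
    refine exists_pow_unit_of_dvd_ord (K := K) W hW ?_ m w hw0 hdivm
    have hOW : ∀ o : OK A K, algebraMap (OK A K) (FK N K) o ∈ W := fun o =>
      hRW (algebraMap (OK A K) R o)
    intro c
    rcases (OK A K).mem_or_inv_mem c with hc | hc
    · exact hOW ⟨c, hc⟩
    · by_cases hc0 : c = 0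
      · subst hc0
        rw [map_zero]
        exact W.zero_mem
      · have ho0 : (⟨c⁻¹, hc⟩ : OK A K) ≠ 0 := fun h0 =>
          hc0 (inv_eq_zero.mp (congrArg Subtype.val h0))
        obtain ⟨k, u, hu⟩ := IsDiscreteValuationRing.eq_unit_mul_pow_irreducible ho0 hπ
        have h2 : algebraMap K (FK N K) c *
            algebraMap (OK A K) (FK N K) (⟨c⁻¹, hc⟩ : OK A K) = 1 := by
          change algebraMap K (FK N K) c * algebraMap K (FK N K) c⁻¹ = 1
          rw [← map_mul, mul_inv_cancel₀ hc0, map_one]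
        rw [hu, map_mul, map_pow] at h2
        have hu1 : algebraMap (OK A K) (FK N K) (u : OK A K) *
            algebraMap (OK A K) (FK N K) ((u⁻¹ : (OK A K)ˣ) : OK A K) = 1 := by
          rw [← map_mul, Units.mul_inv, map_one]
        have h1 : algebraMap K (FK N K) c =
            algebraMap (OK A K) (FK N K) ((u⁻¹ : (OK A K)ˣ) : OK A K) *
              ((algebraMap (OK A K) (FK N K) π)⁻¹) ^ k := by
          rw [eq_inv_of_mul_eq_one_right hu1, inv_pow, ← mul_inv]
          exact eq_inv_of_mul_eq_one_left h2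
        rw [h1]
        exact mul_mem (hOW _) (pow_mem hπW k)
  obtain ⟨g, -, a', ha'n, hga⟩ := NorLoc.exists_mul_pow_mem_notMem_of_unit
    (algebraMap (OK A K) R π) hπ' n hn hπn' t' ht' hIg' m hm w ⟨a, b, ha', hb', hab⟩ hdiv
  refine ⟨g, ?_, ?_⟩
  · rw [hga]; exact a'.2
  · intro hmem
    apply ha'n
    have : (⟨w * g ^ m, by rw [hga]; exact a'.2⟩ : R) = a' := Subtype.ext hga
    rwa [this] at hmem

end Fermat.Agent.S18.Loc
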