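/-
S18 — TopAsm.lean (helper29, [GLUE]): the top assembly of S18 from the two statements that are
still being proved, `Arith.ModelStatement N ℓ` ([Model]) and `Arith.IgusaStatement N ℓ` ([Igusa]).
Everything else ([Base], [Desc], [Coeff], [Gauss], [Dict], [Loc], [Nor], [Glob], [Cech], [Const],
[Final], the formal reduction `Red`) is taken from the landed files.
-/
import Fermat.Agent.S18.RedDiv
import Fermat.Agent.S18.ConstK
import Fermat.Agent.S18.Final
import Fermat.Agent.S18.Base
import Fermat.Agent.S18.DescCoeff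
import Fermat.Agent.S18.Gauss
import Fermat.Agent.S18.Dict
import Fermat.Agent.S18.Loc
import Fermat.Agent.S18.Nor
import Fermat.Agent.S18.Glob
import Fermat.Agent.S18.Cech
import Fermat.Agent.S18.GRel

set_option autoImplicit false

namespace Fermat.Agent.S18.TopAsm

open ModularCurve Fermat.Agent.S18.Arith

/-- The lifting statement from [Model] and [Igusa]. -/
theorem lift_of_model_igusa (N : ℕ) [NeZero N] {ℓ : ℕ} [Fact ℓ.Prime]
    (hModel : ModelStatement N ℓ) (hIgusa : IgusaStatement N ℓ)
    (hℓN : ¬ ℓ ∣ N) (A : ValuationSubring (AlgebraicClosure ℚ)) (hA : A.LiesOverPrime ℓ)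
    (m : ℕ) (hm : ¬ ℓ ∣ m) : Red.LiftStatement N A m :=
  Final.final N ℓ (Base.baseStatement ℓ) (DescCoeff.descStatement N)
    (DescCoeff.coeffStatement N) hModel hIgusa (Gauss.gaussStatement N GRel.gRelStatement)
    (Dict.dictStatement N) (Loc.locStatement N) (Nor.norStatement N) (Glob.globStatement N ℓ)
    Cech.cechStatement hℓN A hA m hm

/-- **S18 from [Model] and [Igusa].** -/
theorem result_of_model_igusa (N : ℕ) [NeZero N] {ℓ : ℕ} [Fact ℓ.Prime]
    (hModel : ModelStatement N ℓ) (hIgusa : IgusaStatement N ℓ)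
    (hℓN : ¬ ℓ ∣ N) (A : ValuationSubring (AlgebraicClosure ℚ)) (hA : A.LiesOverPrime ℓ)
    (h : ModularCurve.ReductionInputsModL A N) (m : ℕ) (hm : ¬ ℓ ∣ m) (z : ModularCurve.JZero N)
    (hmz : m • z = 0) (hz : ModularCurve.reductionModL A N z = 0) :
    z = 0 :=
  Red.result_of_const_lift N A h m (ConstK.constStatement N A hA)
    (lift_of_model_igusa N hModel hIgusa hℓN A hA m hm) z hmz hz

end Fermat.Agent.S18.TopAsm
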