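import Fermat.Agent.S18.CechL

/-!
# S18, block [Cech] : assembly of the conclusion from the leaves
-/

set_option autoImplicit false

namespace Fermat.Agent.S18.CechAsm

open Fermat.Agent.S18.CechPlan Fermat.Agent.S18.CechL

variable {O : Type*} [CommRing O] [IsDomain O] [IsDiscreteValuationRing O]
  {E : Type*} [Field E] [Algebra O E] (S : Setting O E)

/-- Step (e): a common section `h ≡ a ≡ 1` is nonzero, and `w h^m` is a global section. -/
theorem conclusion_of_leaves (hR : S.LeafR) (hV : S.LeafV) (hA : S.LeafA) (hH : S.LeafH) :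
    S.Conclusion := by
  obtain ⟨⟨a, ha, z, hz, haz⟩, ⟨b, hb, hb1⟩⟩ := hA
  obtain ⟨h, hh0, hhInf, l, hl, hhl⟩ := hH a ha b hb ⟨z, hz, haz⟩ hb1
  refine ⟨h, ?_, hh0, hhInf⟩
  rintro rfl
  have hlV : l ∈ S.V := subV S hR hV (hR.of_R0 _ hl)
  apply hV.one_not
  refine ⟨-l + -z, hV.add_mem _ (hV.neg_mem _ hlV) _ (hV.neg_mem _ hz), ?_⟩
  linear_combination -hhl - haz

end Fermat.Agent.S18.CechAsm
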