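/-
S18 — CechConn.lean (helper54): the abstract Čech-lifting / connectedness core.

Two-chart scheme `Y = Spec S ∪ Spec S'` glued along `Spec E` (`S, S' ⊆ E` subrings), `π ∈ S ∩ S'`.
* `exists_global_lift` : if the `π`-power torsion of `H¹ = E/(S + S')` is bounded, every global
  idempotent `(e, e')` of the special fibre `Y/π` is the reduction of a global function
  `h ∈ H⁰ = S ∩ S'`.
* `idem_trivial` : if moreover `H⁰` is "local at `π`", the special fibre is connected.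
* `exists_fg_sup_eq_top` : `H¹` is a finitely generated module over the base (two charts finite
  over `A[t]`, `A[t⁻¹]`).
* `exists_bounded_torsion` : bounded `π`-power torsion in a noetherian module.
Mathlib only.
-/
import Mathlib

set_option autoImplicit false

namespace Fermat.Agent.S18.CechConn

section Idem

variable {R : Type*} [CommRing R]

/-- Idempotents lift along `R/π^n → R/π` (Newton iteration `a ↦ 3a² - 2a³`). -/
theorem exists_idem_lift (π e : R) (h : π ∣ e ^ 2 - e) (n : ℕ) (hn : 1 ≤ n) :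
    ∃ a : R, π ∣ a - e ∧ π ^ n ∣ a ^ 2 - a := by
  induction n, hn using Nat.le_induction with
  | base => exact ⟨e, by simp, by simpa using h⟩
  | succ n hn ih =>
    obtain ⟨a, ha1, ⟨s, hs⟩⟩ := ih
    refine ⟨3 * a ^ 2 - 2 * a ^ 3, ?_, ?_⟩
    · have h1 : 3 * a ^ 2 - 2 * a ^ 3 - e = (a - e) - (a ^ 2 - a) * (2 * a - 1) := by ring
      rw [h1]
      apply dvd_sub ha1
      rw [hs]
      exact Dvd.dvd.mul_right (Dvd.dvd.mul_right (dvd_pow_self π (by omega)) s) _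
    · have h1 : (3 * a ^ 2 - 2 * a ^ 3) ^ 2 - (3 * a ^ 2 - 2 * a ^ 3)
          = (a ^ 2 - a) ^ 2 * (4 * a ^ 2 - 4 * a - 3) := by ring
      have h2 : π ^ n * π ^ n = π ^ (n + 1) * π ^ (n - 1) := by
        rw [← pow_add, ← pow_add]; congr 1; omega
      have h3 : (π ^ n * s) ^ 2 * (4 * a ^ 2 - 4 * a - 3)
          = π ^ (n + 1) * (π ^ (n - 1) * s ^ 2 * (4 * a ^ 2 - 4 * a - 3)) := by
        linear_combination (s ^ 2 * (4 * a ^ 2 - 4 * a - 3)) * h2
      rw [h1, hs, h3]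
      exact dvd_mul_right _ _

/-- Uniqueness of idempotent lifts modulo `π^n` in a commutative ring. -/
theorem idem_unique (π a b : R) (n : ℕ) (ha : π ^ n ∣ a ^ 2 - a) (hb : π ^ n ∣ b ^ 2 - b)
    (hab : π ∣ a - b) : π ^ n ∣ a - b := by
  have h3 : π ^ n ∣ (a - b) ^ 3 - (a - b) := by
    have h1 : (a - b) ^ 3 - (a - b) = (a ^ 2 - a) * (1 + a - 3 * b) + (b ^ 2 - b) * (3 * a - b - 1) := by
      ring
    rw [h1]
    exact dvd_add (Dvd.dvd.mul_right ha _) (Dvd.dvd.mul_right hb _)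
  have h4 : π ^ n ∣ (a - b) * (((a - b) ^ 2) ^ n - 1) := by
    have h1 : (a - b) * (((a - b) ^ 2) ^ n - 1)
        = ((a - b) ^ 3 - (a - b)) * ∑ i ∈ Finset.range n, ((a - b) ^ 2) ^ i := by
      rw [← mul_geom_sum]; ring
    rw [h1]
    exact Dvd.dvd.mul_right h3 _
  have h5 : π ^ n ∣ (a - b) * ((a - b) ^ 2) ^ n := by
    have h1 : π ^ n ∣ (a - b) ^ n := pow_dvd_pow_of_dvd hab n
    have h2 : (a - b) * ((a - b) ^ 2) ^ n = (a - b) ^ n * (a - b) ^ (n + 1) := by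
      rw [← pow_mul, ← pow_add, ← pow_succ']; congr 1; omega
    rw [h2]
    exact Dvd.dvd.mul_right h1 _
  have h6 : a - b = (a - b) * ((a - b) ^ 2) ^ n - (a - b) * (((a - b) ^ 2) ^ n - 1) := by ring
  rw [h6]
  exact dvd_sub h5 h4

end Idem

section Lift

variable {E : Type*} [CommRing E]

/-- **Čech lifting.**  `S, S' ⊆ E` subrings, `π ∈ S ∩ S'`; assume the `π`-power torsion of
`E/(S + S')` is killed by `π ^ c₀`.  Then every pair `(e, e')` of idempotents modulo `π` of `S`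
and `S'` which agree modulo `π` in `E` is the reduction of a global `h ∈ S ∩ S'`. -/
theorem exists_global_lift (S S' : Subring E) (π : E) (hπS : π ∈ S) (hπS' : π ∈ S') (c₀ : ℕ)
    (htors : ∀ (x : E) (n : ℕ), (∃ s ∈ S, ∃ s' ∈ S', π ^ n * x = s + s') →
      ∃ s ∈ S, ∃ s' ∈ S', π ^ c₀ * x = s + s')
    (e e' : E) (he : e ∈ S) (he' : e' ∈ S') (hid : ∃ s ∈ S, e ^ 2 - e = π * s)
    (hid' : ∃ s' ∈ S', e' ^ 2 - e' = π * s') (hag : ∃ x : E, e - e' = π * x) :
    ∃ h ∈ S ⊓ S', (∃ s ∈ S, h - e = π * s) ∧ (∃ s' ∈ S', h - e' = π * s') := by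
  -- lift inside `S`
  obtain ⟨s₀, hs₀, hs₀e⟩ := hid
  obtain ⟨a, ⟨t, ht⟩, ⟨u, hu⟩⟩ := exists_idem_lift (⟨π, hπS⟩ : S) ⟨e, he⟩
    ⟨⟨s₀, hs₀⟩, Subtype.ext (by simpa using hs₀e)⟩ (c₀ + 1) (by omega)
  have hta : (a : E) - e = π * t := by simpa using congrArg Subtype.val ht
  have hua : (a : E) ^ 2 - a = π ^ (c₀ + 1) * u := by simpa using congrArg Subtype.val hu
  -- lift inside `S'`
  obtain ⟨s₀', hs₀', hs₀e'⟩ := hid'
  obtain ⟨a', ⟨t', ht'⟩, ⟨u', hu'⟩⟩ := exists_idem_lift (⟨π, hπS'⟩ : S') ⟨e', he'⟩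
    ⟨⟨s₀', hs₀'⟩, Subtype.ext (by simpa using hs₀e')⟩ (c₀ + 1) (by omega)
  have htb : (a' : E) - e' = π * t' := by simpa using congrArg Subtype.val ht'
  have hub : (a' : E) ^ 2 - a' = π ^ (c₀ + 1) * u' := by simpa using congrArg Subtype.val hu'
  -- the two lifts agree modulo `π ^ (c₀ + 1)` in `E`
  obtain ⟨x, hx⟩ := hag
  obtain ⟨c, hc⟩ := idem_unique π (a : E) (a' : E) (c₀ + 1) ⟨u, hua⟩ ⟨u', hub⟩
    ⟨t + x - t', by linear_combination hta + hx - htb⟩
  -- bounded torsion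
  obtain ⟨s, hs, s', hs', hss'⟩ := htors c (c₀ + 1)
    ⟨a, a.2, -a', S'.neg_mem a'.2, by rw [← hc]; ring⟩
  have h2 : π ^ (c₀ + 1) * c = π * (π ^ c₀ * c) := by ring
  have h1 : (a : E) - π * s = a' + π * s' := by
    linear_combination hc + h2 + π * hss'
  refine ⟨a - π * s, ⟨S.sub_mem a.2 (S.mul_mem hπS hs), ?_⟩, ⟨t - s, S.sub_mem t.2 hs, ?_⟩,
    ⟨t' + s', S'.add_mem t'.2 hs', ?_⟩⟩
  · rw [SetLike.mem_coe, h1]
    exact S'.add_mem a'.2 (S'.mul_mem hπS' hs')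
  · linear_combination hta
  · linear_combination h1 + htb

/-- **Connectedness of the special fibre.**  If, in addition, every global function
`h ∈ S ∩ S'` which is idempotent modulo `π` is `≡ 0` or `≡ 1` modulo `π` on both charts, then
every global idempotent of the special fibre is trivial. -/
theorem idem_trivial (S S' : Subring E) (π : E) (hπS : π ∈ S) (hπS' : π ∈ S') (c₀ : ℕ)
    (htors : ∀ (x : E) (n : ℕ), (∃ s ∈ S, ∃ s' ∈ S', π ^ n * x = s + s') →
      ∃ s ∈ S, ∃ s' ∈ S', π ^ c₀ * x = s + s')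
    (hloc : ∀ h ∈ S ⊓ S', (∃ s ∈ S, h ^ 2 - h = π * s) →
      ((∃ s ∈ S, h = π * s) ∧ (∃ s' ∈ S', h = π * s')) ∨
        ((∃ s ∈ S, h - 1 = π * s) ∧ (∃ s' ∈ S', h - 1 = π * s')))
    (e e' : E) (he : e ∈ S) (he' : e' ∈ S') (hid : ∃ s ∈ S, e ^ 2 - e = π * s)
    (hid' : ∃ s' ∈ S', e' ^ 2 - e' = π * s') (hag : ∃ x : E, e - e' = π * x) :
    ((∃ s ∈ S, e = π * s) ∧ (∃ s' ∈ S', e' = π * s')) ∨
      ((∃ s ∈ S, e - 1 = π * s) ∧ (∃ s' ∈ S', e' - 1 = π * s')) := by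
  obtain ⟨h, hh, ⟨s, hs, hse⟩, ⟨s', hs', hse'⟩⟩ :=
    exists_global_lift S S' π hπS hπS' c₀ htors e e' he he' hid hid' hag
  obtain ⟨s₀, hs₀, hs₀e⟩ := hid
  have hh2 : ∃ r ∈ S, h ^ 2 - h = π * r := by
    refine ⟨s₀ + s * (h + e - 1), S.add_mem hs₀ (S.mul_mem hs
      (S.sub_mem (S.add_mem hh.1 he) S.one_mem)), ?_⟩
    linear_combination hs₀e + (h + e - 1) * hse
  rcases hloc h hh hh2 with ⟨⟨r, hr, hr1⟩, ⟨r', hr', hr1'⟩⟩ | ⟨⟨r, hr, hr1⟩, ⟨r', hr', hr1'⟩⟩
  · left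
    exact ⟨⟨r - s, S.sub_mem hr hs, by linear_combination hr1 - hse⟩,
      ⟨r' - s', S'.sub_mem hr' hs', by linear_combination hr1' - hse'⟩⟩
  · right
    exact ⟨⟨r - s, S.sub_mem hr hs, by linear_combination hr1 - hse⟩,
      ⟨r' - s', S'.sub_mem hr' hs', by linear_combination hr1' - hse'⟩⟩

end Lift

section H1

variable {A E : Type*} [CommRing A] [CommRing E] [Algebra A E]

/-- **Finiteness of `H¹` of a two-chart cover.**  `t` a unit of `E`; `M ⊇ A[t]·T`,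
`M'` stable under `t⁻¹` and containing `t⁻¹^a g` for suitable `a` (`g ∈ T`); `E` is spanned by
the `t^n g` (`n ∈ ℤ`, `g ∈ T`).  Then `E = M + M' + G` with `G` a finitely generated
`A`-module. -/
theorem exists_fg_sup_eq_top (t : Eˣ) (M M' : Submodule A E) (T : Finset E)
    (hT : ∀ g ∈ T, ∀ n : ℕ, (t : E) ^ n * g ∈ M)
    (hM' : ∀ x ∈ M', ((t⁻¹ : Eˣ) : E) * x ∈ M')
    (hTM' : ∀ g ∈ T, ∃ a : ℕ, ((t⁻¹ : Eˣ) : E) ^ a * g ∈ M')
    (hE : ∀ x : E, x ∈ Submodule.span A {y | ∃ g ∈ T, ∃ n : ℤ, y = ((t ^ n : Eˣ) : E) * g}) :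
    ∃ G : Submodule A E, G.FG ∧ M ⊔ M' ⊔ G = ⊤ := by
  classical
  choose! a ha using hTM'
  have hM'pow : ∀ (k : ℕ), ∀ x ∈ M', ((t⁻¹ : Eˣ) : E) ^ k * x ∈ M' := by
    intro k
    induction k with
    | zero => intro x hx; simpa using hx
    | succ k ih =>
      intro x hx
      rw [pow_succ, mul_assoc]
      exact ih _ (hM' x hx)
  set G0 : Set E := ⋃ g ∈ (T : Set E), (fun n : ℕ => ((t⁻¹ : Eˣ) : E) ^ n * g) '' (Finset.range (a g))
    with hG0
  have hG0fin : G0.Finite :=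
    Set.Finite.biUnion T.finite_toSet fun g _ => Set.Finite.image _ (Finset.finite_toSet _)
  refine ⟨Submodule.span A G0, Submodule.fg_span hG0fin, ?_⟩
  rw [eq_top_iff]
  intro x _
  refine Submodule.span_le.mpr ?_ (hE x)
  rintro y ⟨g, hg, n, rfl⟩
  obtain ⟨k, rfl | rfl⟩ := Int.eq_nat_or_neg n
  · -- nonnegative exponent: in `M`
    rw [zpow_natCast, Units.val_pow_eq_pow_val]
    exact Submodule.mem_sup_left (Submodule.mem_sup_left (hT g hg k))
  · rw [zpow_neg, zpow_natCast, ← inv_pow, Units.val_pow_eq_pow_val]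
    rcases Nat.lt_or_ge k (a g) with hk | hk
    · -- small negative exponent: in `G`
      refine Submodule.mem_sup_right (Submodule.subset_span ?_)
      rw [hG0]
      exact Set.mem_biUnion (Finset.mem_coe.mpr hg) ⟨k, Finset.mem_coe.mpr (Finset.mem_range.mpr hk), rfl⟩
    · -- large negative exponent: in `M'`
      refine Submodule.mem_sup_left (Submodule.mem_sup_right ?_)
      have h1 : ((t⁻¹ : Eˣ) : E) ^ k * g
          = ((t⁻¹ : Eˣ) : E) ^ (k - a g) * (((t⁻¹ : Eˣ) : E) ^ a g * g) := by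
        rw [← mul_assoc, ← pow_add]; congr 2; omega
      rw [h1]
      exact hM'pow _ _ (ha g hg)

/-- Bounded `π`-power torsion in a noetherian module. -/
theorem exists_bounded_torsion {Q : Type*} [AddCommGroup Q] [Module A Q] [IsNoetherian A Q]
    (π : A) : ∃ c₀ : ℕ, ∀ (x : Q) (n : ℕ), π ^ n • x = 0 → π ^ c₀ • x = 0 := by
  let f : ℕ →o Submodule A Q :=
    { toFun := fun n => LinearMap.ker (LinearMap.lsmul A Q (π ^ n))
      monotone' := by
        intro m n hmn x hx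
        rw [LinearMap.mem_ker, LinearMap.lsmul_apply] at hx ⊢
        obtain ⟨k, rfl⟩ := Nat.exists_eq_add_of_le hmn
        rw [pow_add, mul_comm, mul_smul, hx, smul_zero] }
  obtain ⟨c₀, hc₀⟩ := monotone_stabilizes_iff_noetherian.mpr (inferInstance : IsNoetherian A Q) f
  refine ⟨c₀, fun x n hx => ?_⟩
  rcases Nat.le_total c₀ n with h | h
  · have h1 : x ∈ f n := by
      change x ∈ LinearMap.ker (LinearMap.lsmul A Q (π ^ n))
      rw [LinearMap.mem_ker, LinearMap.lsmul_apply]; exact hx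
    rw [← hc₀ n h] at h1
    change x ∈ LinearMap.ker (LinearMap.lsmul A Q (π ^ c₀)) at h1
    rwa [LinearMap.mem_ker, LinearMap.lsmul_apply] at h1
  · obtain ⟨k, rfl⟩ := Nat.exists_eq_add_of_le h
    rw [pow_add, mul_comm, mul_smul, hx, smul_zero]

end H1

section Main

variable {A E : Type*} [CommRing A] [IsNoetherianRing A] [CommRing E] [Algebra A E]

/-- Two charts `S ∋ t`, `S' ∋ t⁻¹` of `E = S[1/t] = S'[t]`, with `S` a finite `A[t]`-module
(generated by `T`) and `A` noetherian: the `π`-power torsion of `E/(S + S')` is bounded. -/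
theorem exists_bounded_torsion_twoChart (π : A) (t : Eˣ) (S S' : Subalgebra A E) (T : Finset E)
    (htS : (t : E) ∈ S) (htS' : ((t⁻¹ : Eˣ) : E) ∈ S') (hT : ∀ g ∈ T, g ∈ S)
    (hS : ∀ x ∈ S, x ∈ Submodule.span A {y | ∃ g ∈ T, ∃ n : ℕ, y = (t : E) ^ n * g})
    (hES : ∀ x : E, ∃ n : ℕ, (t : E) ^ n * x ∈ S)
    (hES' : ∀ x : E, ∃ n : ℕ, ((t⁻¹ : Eˣ) : E) ^ n * x ∈ S') :
    ∃ c₀ : ℕ, ∀ (x : E) (n : ℕ), (∃ s ∈ S, ∃ s' ∈ S', algebraMap A E π ^ n * x = s + s') →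
      ∃ s ∈ S, ∃ s' ∈ S', algebraMap A E π ^ c₀ * x = s + s' := by
  have hE : ∀ x : E, x ∈ Submodule.span A {y | ∃ g ∈ T, ∃ n : ℤ, y = ((t ^ n : Eˣ) : E) * g} := by
    intro x
    obtain ⟨n, hn⟩ := hES x
    have h1 := hS _ hn
    have h2 : x = LinearMap.mulLeft A (((t⁻¹ : Eˣ) : E) ^ n) ((t : E) ^ n * x) := by
      rw [LinearMap.mulLeft_apply, ← mul_assoc, ← mul_pow, Units.inv_mul, one_pow, one_mul]
    rw [h2]
    have h3 := Submodule.mem_map_of_mem (f := LinearMap.mulLeft A (((t⁻¹ : Eˣ) : E) ^ n)) h1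
    rw [Submodule.map_span] at h3
    refine Submodule.span_mono ?_ h3
    rintro _ ⟨y, ⟨g, hg, k, rfl⟩, rfl⟩
    refine ⟨g, hg, (k : ℤ) - n, ?_⟩
    rw [LinearMap.mulLeft_apply, ← mul_assoc]
    congr 1
    rw [zpow_sub, zpow_natCast, zpow_natCast, Units.val_mul, mul_comm, ← inv_pow,
      Units.val_pow_eq_pow_val, Units.val_pow_eq_pow_val]

  obtain ⟨G, hG, hGtop⟩ := exists_fg_sup_eq_top t (Subalgebra.toSubmodule S)
    (Subalgebra.toSubmodule S') T
    (fun g hg n => S.mul_mem (S.pow_mem htS n) (hT g hg))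
    (fun x hx => S'.mul_mem htS' hx)
    (fun g _ => hES' g) hE
  set P : Submodule A E := Subalgebra.toSubmodule S ⊔ Subalgebra.toSubmodule S' with hP
  have hfinG : Module.Finite A G := Module.Finite.iff_fg.mpr hG
  have hsurj : Function.Surjective (P.mkQ.comp G.subtype) := by
    intro q
    obtain ⟨x, rfl⟩ := Submodule.mkQ_surjective P q
    have hx : x ∈ P ⊔ G := by rw [hGtop]; exact Submodule.mem_top
    obtain ⟨y, hy, g, hg, rfl⟩ := Submodule.mem_sup.mp hx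
    refine ⟨⟨g, hg⟩, ?_⟩
    have hy0 : P.mkQ y = 0 := by
      rw [Submodule.mkQ_apply]; exact (Submodule.Quotient.mk_eq_zero P).mpr hy
    rw [LinearMap.comp_apply, Submodule.subtype_apply, map_add, hy0, zero_add]
  have hfinQ : Module.Finite A (E ⧸ P) := Module.Finite.of_surjective _ hsurj
  have hnoeth : IsNoetherian A (E ⧸ P) := isNoetherian_of_isNoetherianRing_of_finite A (E ⧸ P)
  obtain ⟨c₀, hc₀⟩ := exists_bounded_torsion (Q := E ⧸ P) π
  refine ⟨c₀, fun x n hx => ?_⟩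
  have key : ∀ k : ℕ, (∃ s ∈ S, ∃ s' ∈ S', algebraMap A E π ^ k * x = s + s') ↔
      π ^ k • (P.mkQ x) = 0 := by
    intro k
    rw [← map_smul, Submodule.mkQ_apply, Submodule.Quotient.mk_eq_zero, hP, Submodule.mem_sup,
      Algebra.smul_def, map_pow]
    constructor
    · rintro ⟨s, hs, s', hs', h⟩
      exact ⟨s, hs, s', hs', h.symm⟩
    · rintro ⟨s, hs, s', hs', h⟩
      exact ⟨s, hs, s', hs', h.symm⟩
  exact (key c₀).mpr (hc₀ _ n ((key n).mp hx))

/-- **Connectedness of the special fibre of a two-chart scheme over a noetherian local ring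
with principal maximal ideal.**  `S ∋ t`, `S' ∋ t⁻¹` subalgebras of `E = S[1/t] = S'[t]`,
`S` a finite `A[t]`-module, `S ∩ S' = A`, `π` not a unit of `E`.  Then every pair `(e, e')` of
idempotents modulo `π` of `S`, `S'` which agree modulo `π` in `E` is `(0, 0)` or `(1, 1)`. -/
theorem special_fibre_connected [IsLocalRing A] (π : A)
    (hπ : IsLocalRing.maximalIdeal A = Ideal.span {π}) (t : Eˣ) (S S' : Subalgebra A E)
    (T : Finset E) (htS : (t : E) ∈ S) (htS' : ((t⁻¹ : Eˣ) : E) ∈ S') (hT : ∀ g ∈ T, g ∈ S)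
    (hS : ∀ x ∈ S, x ∈ Submodule.span A {y | ∃ g ∈ T, ∃ n : ℕ, y = (t : E) ^ n * g})
    (hES : ∀ x : E, ∃ n : ℕ, (t : E) ^ n * x ∈ S)
    (hES' : ∀ x : E, ∃ n : ℕ, ((t⁻¹ : Eˣ) : E) ^ n * x ∈ S')
    (hH0 : ∀ h : E, h ∈ S → h ∈ S' → ∃ a : A, algebraMap A E a = h)
    (hπE : ¬ IsUnit (algebraMap A E π))
    (e e' : E) (he : e ∈ S) (he' : e' ∈ S') (hid : ∃ s ∈ S, e ^ 2 - e = algebraMap A E π * s)
    (hid' : ∃ s' ∈ S', e' ^ 2 - e' = algebraMap A E π * s')
    (hag : ∃ x : E, e - e' = algebraMap A E π * x) :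
    ((∃ s ∈ S, e = algebraMap A E π * s) ∧ (∃ s' ∈ S', e' = algebraMap A E π * s')) ∨
      ((∃ s ∈ S, e - 1 = algebraMap A E π * s) ∧ (∃ s' ∈ S', e' - 1 = algebraMap A E π * s')) := by
  obtain ⟨c₀, hc₀⟩ := exists_bounded_torsion_twoChart π t S S' T htS htS' hT hS hES hES'
  refine idem_trivial S.toSubring S'.toSubring (algebraMap A E π) (S.algebraMap_mem π)
    (S'.algebraMap_mem π) c₀ hc₀ ?_ e e' he he' hid hid' hag
  rintro h ⟨hhS, hhS'⟩ ⟨s, -, hs⟩
  obtain ⟨a, rfl⟩ := hH0 h hhS hhS'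
  have hmem : a * (a - 1) ∈ IsLocalRing.maximalIdeal A := by
    by_contra hcon
    have hu : IsUnit (a * (a - 1)) := by
      rwa [IsLocalRing.mem_maximalIdeal, mem_nonunits_iff, not_not] at hcon
    apply hπE
    have h1 : algebraMap A E (a * (a - 1)) = algebraMap A E π * s := by
      rw [← hs]; simp only [map_mul, map_sub, map_one]; ring
    have h2 : IsUnit (algebraMap A E π * s) := h1 ▸ hu.map (algebraMap A E)
    exact isUnit_of_mul_isUnit_left h2
  rcases (IsLocalRing.maximalIdeal.isMaximal A).isPrime.mem_or_mem hmem with h1 | h1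
  · left
    rw [hπ, Ideal.mem_span_singleton'] at h1
    obtain ⟨b, hb⟩ := h1
    have h2 : algebraMap A E a = algebraMap A E π * algebraMap A E b := by
      rw [← map_mul, mul_comm, hb]
    exact ⟨⟨_, S.algebraMap_mem b, h2⟩, ⟨_, S'.algebraMap_mem b, h2⟩⟩
  · right
    rw [hπ, Ideal.mem_span_singleton'] at h1
    obtain ⟨b, hb⟩ := h1
    have h2 : algebraMap A E a - 1 = algebraMap A E π * algebraMap A E b := by
      rw [← map_mul, mul_comm, hb, map_sub, map_one]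
    exact ⟨⟨_, S.algebraMap_mem b, h2⟩, ⟨_, S'.algebraMap_mem b, h2⟩⟩

end Main

end Fermat.Agent.S18.CechConn
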