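import Mathlib
import Fermat.Agent.S18.IgusaInst
import Fermat.Agent.S18.DegFK
import Fermat.Agent.S18.KummerDatum
import Fermat.Agent.S18.KummerHor

/-!
# S18 : the cusp chart `t = j⁻¹` at `c = 0` — hypothesis (H) families and the chart theorem

For `F := ChartF N K (jK N K)⁻¹` (the field `F_K` with `O[y]`-structure `y ↦ j⁻¹`,
`O = OK A K`) and `φ := embC ∘ incO`:

* `hH_inf0`, `hH_inf1`: the embedding families of `DegFK.hypH_FK_inf_zero` / `hypH_FK_inf_ne`
  re-indexed by `Fin (finrank Ky F)` (given `hdeg : finrank Ky F = ψ(N)`), in the exact shape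
  of the hypotheses `hH0` / `hH1` of `KummerHor.horInput`;
* `horInput_inf`: `IgusaTop.HorInput Ky F (X ^ N) 1 π 0 φ`;
* `igusaAt_inf_zero`: the abstract Igusa theorem at the maximal ideals of the chart
  `chart N A K (jK N K)⁻¹` containing `π` and `j⁻¹`, through the Kummer cover.
-/

set_option autoImplicit false

noncomputable section

namespace Fermat.Agent.S18.ChartHorInf

open Polynomial ModularCurve Fermat.Agent.S24 Fermat.Agent.S18.Arith Fermat.Agent.S18.IgusaInst
open Fermat.Agent.S18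

variable (N : ℕ) [NeZero N] (A : ValuationSubring Qb) (K : IntermediateField ℚ Qb)

omit [NeZero N] in
/-- Re-indexing and transport to `ChartF` of a family of embeddings of `F_K`. -/
theorem exists_family_chartF (t : FK N K) [FaithfulSMul (OK A K)[X] (ChartF N K t)]
    (hdeg : Module.finrank (FractionRing (OK A K)[X]) (ChartF N K t) = dedekindPsi N)
    (y : LaurentSeries ℂ)
    (h : ∃ ι : Fin (dedekindPsi N) → (↥(FK N K) →+* LaurentSeries ℂ), Function.Injective ι ∧
        (∀ i (c : K), ι i (constK N K c) = HahnSeries.C (embC (c : Qb))) ∧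
        (∀ i, ι i t = y)) :
    ∃ ι : Fin (Module.finrank (FractionRing (OK A K)[X]) (ChartF N K t)) →
        (ChartF N K t →+* LaurentSeries ℂ), Function.Injective ι ∧
      (∀ i (o : OK A K), ι i (algebraMap (OK A K)[X] (ChartF N K t) (C o)) =
        HahnSeries.C ((embC.comp (incO A K)) o)) ∧
      ∀ i, ι i (algebraMap (OK A K)[X] (ChartF N K t) X) = y := by
  obtain ⟨ι₀, hι₀, hc, hj⟩ := h
  refine ⟨fun i => (ι₀ (Fin.cast hdeg i)).comp (toChartF N K t).symm.toRingHom, ?_, ?_, ?_⟩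
  · intro i k hik
    have h1 : ι₀ (Fin.cast hdeg i) = ι₀ (Fin.cast hdeg k) :=
      RingHom.cancel_right (toChartF N K t).symm.surjective |>.mp hik
    exact Fin.cast_injective hdeg (hι₀ h1)
  · intro i o
    rw [algebraMap_chartF_C]
    exact hc (Fin.cast hdeg i) ((OK A K).subtype o)
  · intro i
    rw [algebraMap_chartF_X]
    exact hj (Fin.cast hdeg i)

/-- **(H) at the cusps**, `a = 0`: `hH0` of `KummerHor.horInput`. -/
theorem hH_inf0 [FaithfulSMul (OK A K)[X] (ChartF N K (jK N K)⁻¹)]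
    (hdeg : Module.finrank (FractionRing (OK A K)[X]) (ChartF N K (jK N K)⁻¹) = dedekindPsi N) :
    ∃ T : PowerSeries ℂ, T.order = N ∧
      ∃ ι : Fin (Module.finrank (FractionRing (OK A K)[X]) (ChartF N K (jK N K)⁻¹)) →
          (ChartF N K (jK N K)⁻¹ →+* LaurentSeries ℂ), Function.Injective ι ∧
        (∀ i (o : OK A K), ι i (algebraMap (OK A K)[X] (ChartF N K (jK N K)⁻¹) (C o)) =
          HahnSeries.C ((embC.comp (incO A K)) o)) ∧
        ∀ i, ι i (algebraMap (OK A K)[X] (ChartF N K (jK N K)⁻¹) X) =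
          HahnSeries.ofPowerSeries ℤ ℂ (PowerSeries.C 0 + T) := by
  obtain ⟨T, hT, h⟩ := DegFK.hypH_FK_inf_zero N K
  exact ⟨T, hT, exists_family_chartF N A K _ hdeg _ h⟩

/-- **(H) away from the cusps**, `a ≠ 0`, `1728·a ≠ 1`: `hH1` of `KummerHor.horInput`. -/
theorem hH_inf1 [FaithfulSMul (OK A K)[X] (ChartF N K (jK N K)⁻¹)]
    (hdeg : Module.finrank (FractionRing (OK A K)[X]) (ChartF N K (jK N K)⁻¹) = dedekindPsi N) :
    ∀ a : ℂ, IsAlgebraic ℚ a → a ≠ 0 → 1728 * a ≠ 1 →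
    ∃ T : PowerSeries ℂ, T.order = 1 ∧
      ∃ ι : Fin (Module.finrank (FractionRing (OK A K)[X]) (ChartF N K (jK N K)⁻¹)) →
          (ChartF N K (jK N K)⁻¹ →+* LaurentSeries ℂ), Function.Injective ι ∧
        (∀ i (o : OK A K), ι i (algebraMap (OK A K)[X] (ChartF N K (jK N K)⁻¹) (C o)) =
          HahnSeries.C ((embC.comp (incO A K)) o)) ∧
        ∀ i, ι i (algebraMap (OK A K)[X] (ChartF N K (jK N K)⁻¹) X) =
          HahnSeries.ofPowerSeries ℤ ℂ (PowerSeries.C a + T) := by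
  intro a ha ha0 ha1
  obtain ⟨T, hT, h⟩ := DegFK.hypH_FK_inf_ne N K a ha ha0 ha1
  exact ⟨T, hT, exists_family_chartF N A K _ hdeg _ h⟩

theorem phi_injective : Function.Injective (embC.comp (incO A K)) :=
  embC.injective.comp ((algebraMap K Qb).injective.comp Subtype.val_injective)

theorem isAlgebraic_phi (o : OK A K) : IsAlgebraic ℚ ((embC.comp (incO A K)) o) :=
  DegFK.isAlgebraic_embC _

/-- **`HorInput` on the cusp chart at `c = 0`** (Kummer cover). -/
theorem horInput_inf [IsDiscreteValuationRing (OK A K)]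
    [FaithfulSMul (OK A K)[X] (ChartF N K (jK N K)⁻¹)]
    (hdeg : Module.finrank (FractionRing (OK A K)[X]) (ChartF N K (jK N K)⁻¹) = dedekindPsi N)
    (π : OK A K) (hπ : Irreducible π) :
    IgusaTop.HorInput (FractionRing (OK A K)[X]) (ChartF N K (jK N K)⁻¹)
      (X ^ N : (OK A K)[X]) (1 : (OK A K)[X]) π 0 (embC.comp (incO A K)) :=
  KummerHor.horInput (FractionRing (OK A K)[X]) (ChartF N K (jK N K)⁻¹)
    (Nat.pos_of_ne_zero (NeZero.ne N)) hπ (embC.comp (incO A K)) (phi_injective A K)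
    (isAlgebraic_phi A K) (hH_inf0 N A K hdeg) (hH_inf1 N A K hdeg)

/-- **The cusp chart at `c = 0`**: the Igusa conclusion at the maximal ideals of
`chart N A K (jK N K)⁻¹` containing `π` and `j⁻¹`. -/
theorem igusaAt_inf_zero (hAbs : IgusaTop.IgusaAbs) [IsDiscreteValuationRing (OK A K)]
    [IsAlgClosed (IsLocalRing.ResidueField (OK A K))]
    [FaithfulSMul (OK A K)[X] (ChartF N K (jK N K)⁻¹)]
    [FiniteDimensional (FractionRing (OK A K)[X]) (ChartF N K (jK N K)⁻¹)]
    (hdeg : Module.finrank (FractionRing (OK A K)[X]) (ChartF N K (jK N K)⁻¹) = dedekindPsi N)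
    {ζ : OK A K} (hζ : IsPrimitiveRoot ζ N) (π : OK A K) (hπ : Irreducible π)
    (hV : IgusaTop.VertInput (FractionRing (OK A K)[X]) (ChartF N K (jK N K)⁻¹) π) :
    ∀ n : Ideal (chart N A K (jK N K)⁻¹), n.IsMaximal →
      algebraMap (OK A K) (chart N A K (jK N K)⁻¹) π ∈ n →
      (⟨(jK N K)⁻¹, Model.self_mem_chart N A K (jK N K)⁻¹⟩ : chart N A K (jK N K)⁻¹) -
          algebraMap (OK A K) (chart N A K (jK N K)⁻¹) 0 ∈ n →
      ∃ t' ∈ n, ∀ x ∈ n, ∃ u : chart N A K (jK N K)⁻¹, u ∉ n ∧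
        u * x ∈ Ideal.span {algebraMap (OK A K) (chart N A K (jK N K)⁻¹) π, t'} :=
  igusaAt_chart N A K hAbs (jK N K)⁻¹ π 0 hπ
    (KummerChart.data (OK A K) N (Nat.pos_of_ne_zero (NeZero.ne N)))
    (KummerDatum.coverDatum (Nat.pos_of_ne_zero (NeZero.ne N)) hζ) hV
    (embC.comp (incO A K)) (phi_injective A K) (horInput_inf N A K hdeg π hπ)

end Fermat.Agent.S18.ChartHorInf
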