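import Fermat.Agent.S18.CoverLocDef

/-!
# S18 team library, block [IGUSA] T3e (consumer form): units and prime divisors in `R1`

`R1 x c1` is the local ring of the `x`-line at `x ≡ c1`.  We show `p(x)` is a unit of `R1` iff
`p(c1)` is a unit of `O`, and that every nonzero non-unit of `R1` is divisible by `π` or by
`p(x)` for a prime `p` of `O[X]`, not associated to `π`, with `π ∣ p(c1)`.
-/

set_option autoImplicit false

namespace Fermat.Agent.S18.CoverLocDvd

open Polynomial Fermat.Agent.S18.CoverLocDef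

section basic

variable {O : Type*} [CommRing O] {L : Type*} [Field L] [Algebra O[X] L]

theorem evR_mul (x : L) (c1 : O) (a b : O[X]) :
    evR x c1 (a * b) = evR x c1 a * evR x c1 b :=
  map_mul (evRHom x c1) a b

theorem isUnit_evR_of_isUnit_eval (x : L) (hL1 : Function.Injective (evx (O := O) x)) (c1 : O)
    (q : O[X]) (hq : IsUnit (q.eval c1)) : IsUnit (evR x c1 q) := by
  have h0 : evx x q ≠ 0 := by
    intro h
    have hq0 : q = 0 := hL1 (by rw [h, map_zero])
    rw [hq0, eval_zero] at hq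
    have h1 : (1 : O) = 0 := (isUnit_zero_iff.mp hq).symm
    have h2 : (1 : O[X]) = 0 := by rw [← C_1, h1, C_0]
    have h3 : (1 : L) = 0 := by rw [← map_one (evx (O := O) x), h2, map_zero]
    exact one_ne_zero h3
  refine IsUnit.of_mul_eq_one ⟨(evx x q)⁻¹, inv_evx_mem_R1 x c1 q hq h0⟩ ?_
  apply Subtype.ext
  show evx x q * (evx x q)⁻¹ = 1
  exact mul_inv_cancel₀ h0

/-- Every element of `R1` is a fraction `evR a / evR q` with `q(c1)` a unit. -/
theorem exists_mul_evR_eq (x : L) (c1 : O) (d : R1 x c1) :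
    ∃ a q : O[X], IsUnit (q.eval c1) ∧ d * evR x c1 q = evR x c1 a := by
  obtain ⟨l, a, q, hq, h⟩ := d
  exact ⟨a, q, hq, Subtype.ext h⟩

theorem not_isUnit_of_dvd {π : O} (hπ : Irreducible π) {r : O} (hr : π ∣ r) : ¬ IsUnit r :=
  fun hu => hπ.not_isUnit (isUnit_of_dvd_unit hr hu)

end basic

variable {O : Type*} [CommRing O] [IsDomain O] [IsDiscreteValuationRing O] {L : Type*} [Field L]
  [Algebra O[X] L]

set_option linter.unusedSectionVars false in
theorem isUnit_evR_iff (x : L) (hL1 : Function.Injective (evx (O := O) x)) (c1 : O) (q : O[X]) :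
    IsUnit (evR x c1 q) ↔ IsUnit (q.eval c1) := by
  constructor
  · intro hu
    obtain ⟨w, hw⟩ := hu.exists_right_inv
    obtain ⟨p', q', hq', h'⟩ := exists_mul_evR_eq x c1 w
    -- evR q * w = 1, w * evR q' = evR p'  ⟹  evR q' = evR q * evR p'
    have hE : evR x c1 q' = evR x c1 (q * p') := by
      rw [evR_mul, ← h', ← mul_assoc, hw, one_mul]
    have hE' : evx x q' = evx x (q * p') := congrArg Subtype.val hE
    have hqq : q' = q * p' := hL1 hE'
    rw [hqq, eval_mul] at hq'
    exact isUnit_of_mul_isUnit_left hq'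
  · exact isUnit_evR_of_isUnit_eval x hL1 c1 q

theorem dvd_of_not_isUnit {π : O} (hπ : Irreducible π) {r : O} (hr : ¬ IsUnit r) : π ∣ r := by
  have : r ∈ IsLocalRing.maximalIdeal O := (IsLocalRing.mem_maximalIdeal r).mpr hr
  rw [hπ.maximalIdeal_eq, Ideal.mem_span_singleton] at this
  exact this

theorem exists_prime_dvd (x : L) (hL1 : Function.Injective (evx (O := O) x)) (c1 : O) (π : O)
    (hπ : Irreducible π) (d : R1 x c1) (hd0 : d ≠ 0) (hd : ¬ IsUnit d) :
    piR x c1 π ∣ d ∨ ∃ p : O[X], Prime p ∧ ¬ Associated p (C π) ∧ π ∣ p.eval c1 ∧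
      evR x c1 p ∣ d := by
  obtain ⟨a, q, hq, h⟩ := exists_mul_evR_eq x c1 d
  have hqu : IsUnit (evR x c1 q) := isUnit_evR_of_isUnit_eval x hL1 c1 q hq
  have ha0 : a ≠ 0 := by
    rintro rfl
    have h0 : evR x c1 (0 : O[X]) = 0 := map_zero (evRHom x c1)
    rw [h0] at h
    exact hd0 ((hqu.mul_left_eq_zero).mp h)
  have hau : ¬ IsUnit (evR x c1 a) := by
    intro hu
    rw [← h] at hu
    exact hd (isUnit_of_mul_isUnit_left hu)
  have hπa : π ∣ a.eval c1 :=
    dvd_of_not_isUnit hπ (fun hu => hau ((isUnit_evR_iff x hL1 c1 a).mpr hu))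
  -- key: every divisor `p` of `a` yields `evR p ∣ d`
  have hdvd : ∀ p : O[X], p ∣ a → evR x c1 p ∣ d := by
    rintro p ⟨a', rfl⟩
    rw [evR_mul] at h
    have : evR x c1 p ∣ d * evR x c1 q := ⟨evR x c1 a', h⟩
    exact (hqu.dvd_mul_right).mp this
  obtain ⟨f, hf, hfa⟩ := UniqueFactorizationMonoid.exists_prime_factors a ha0
  have hπf : π ∣ (f.map (evalRingHom c1)).prod := by
    have hass : Associated ((evalRingHom c1) f.prod) ((evalRingHom c1) a) := hfa.map _
    rw [← map_multiset_prod]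
    exact (hass.dvd_iff_dvd_right).mpr hπa
  obtain ⟨r, hr, hπr⟩ := (hπ.prime).exists_mem_multiset_dvd hπf
  obtain ⟨p, hp, rfl⟩ := Multiset.mem_map.mp hr
  have hpa : p ∣ a := (Multiset.dvd_prod hp).trans hfa.dvd
  by_cases hass : Associated p (C π)
  · left
    exact hdvd (C π) (hass.symm.dvd.trans hpa)
  · right
    exact ⟨p, hf p hp, hass, hπr, hdvd p hpa⟩

theorem exists_prime_of_prime (x : L) (hL1 : Function.Injective (evx (O := O) x)) (c1 : O) (π : O)
    (hπ : Irreducible π) (p1 : R1 x c1) (hp1 : Prime p1) (hne : ¬ Associated p1 (piR x c1 π)) :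
    ∃ p : O[X], Prime p ∧ ¬ Associated p (C π) ∧ π ∣ p.eval c1 ∧ Associated p1 (evR x c1 p) := by
  have key : ∀ e : R1 x c1, ¬ IsUnit e → e ∣ p1 → Associated p1 e := by
    rintro e he ⟨w, rfl⟩
    rcases hp1.irreducible.isUnit_or_isUnit rfl with h | h
    · exact absurd h he
    · exact (associated_mul_unit_right e w h).symm
  rcases exists_prime_dvd x hL1 c1 π hπ p1 hp1.ne_zero hp1.not_isUnit with h | ⟨p, hp, hpa, hπp, h⟩
  · exfalso
    refine hne (key _ ?_ h)
    intro hu
    have : IsUnit ((C π : O[X]).eval c1) := (isUnit_evR_iff x hL1 c1 (C π)).mp hu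
    rw [eval_C] at this
    exact hπ.not_isUnit this
  · refine ⟨p, hp, hpa, hπp, key _ ?_ h⟩
    intro hu
    exact not_isUnit_of_dvd hπ hπp ((isUnit_evR_iff x hL1 c1 p).mp hu)

end Fermat.Agent.S18.CoverLocDvd
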