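import Mathlib
import Fermat.Agent.S18.CoverLocDef

/-!
# S18 team library, block [IGUSA] T3d (B-file): `A0/π → R1/π` is injective

If `π ∣ a(y)` in the local ring `R1 x c1` of the `x`-line (`y = Num(x)/Den(x)`,
`deg Den < deg Num`, `Num` with unit leading coefficient, `Den(c1)` a unit), then `C π ∣ a` in
`A0 = O[X]`.  Proof: clear denominators to get `H * q = C π * p * Den ^ d` in `O[X]`
(`H = ∑ C (a_i) * Num ^ i * Den ^ (d - i)`), reduce modulo `π`, and use that a nonconstant
rational function over the residue field is transcendental.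
-/

set_option autoImplicit false

namespace Fermat.Agent.S18.CoverLocPiB

open Polynomial
open Fermat.Agent.S18.CoverLocDef

section Hom

variable {O : Type*} [CommRing O] {L : Type*} [Field L] [Algebra O[X] L]

/-- The homogenised polynomial `Den ^ d * a (Num / Den)`, `d = natDegree a`. -/
noncomputable def homPoly (Num Den a : O[X]) : O[X] :=
  ∑ i ∈ Finset.range (a.natDegree + 1), C (a.coeff i) * Num ^ i * Den ^ (a.natDegree - i)

theorem algebraMap_mul_pow (x : L) (Num Den : O[X])
    (hL3 : algebraMap O[X] L X * evx x Den = evx x Num) (a : O[X]) :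
    algebraMap O[X] L a * evx x Den ^ a.natDegree = evx x (homPoly Num Den a) := by
  have ha : algebraMap O[X] L a = ∑ i ∈ Finset.range (a.natDegree + 1),
      evx x (C (a.coeff i)) * (algebraMap O[X] L X) ^ i := by
    conv_lhs => rw [a.as_sum_range_C_mul_X_pow]
    rw [map_sum]
    refine Finset.sum_congr rfl fun i _ => ?_
    rw [map_mul, map_pow, evx_C]
  rw [ha, Finset.sum_mul, homPoly, map_sum]
  refine Finset.sum_congr rfl fun i hi => ?_
  have hi' : i ≤ a.natDegree := Nat.lt_succ_iff.mp (Finset.mem_range.mp hi)
  have hpow : evx x Den ^ a.natDegree = evx x Den ^ i * evx x Den ^ (a.natDegree - i) := by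
    rw [← pow_add, Nat.add_sub_cancel' hi']
  rw [map_mul, map_mul, map_pow, map_pow, ← hL3, mul_pow, hpow]
  ring

end Hom

section Main

variable {O : Type*} [CommRing O] [IsDomain O] [IsDiscreteValuationRing O]
  {L : Type*} [Field L] [Algebra O[X] L]

/-- **T3d.** `π ∣ a(y)` in `R1` implies `C π ∣ a` in `A0 = O[X]`. -/
theorem C_dvd_of_piR_dvd (x : L) (hL1 : Function.Injective (evx (O := O) x)) (c1 : O) (π : O)
    (hπ : Irreducible π) (Num Den : O[X])
    (hL3 : algebraMap O[X] L X * evx x Den = evx x Num) (hc1 : IsUnit (Den.eval c1))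
    (hNum : IsUnit Num.leadingCoeff) (hdeg : Den.natDegree < Num.natDegree) (a : O[X])
    (h : piR x c1 π ∣ ⟨algebraMap O[X] L a, algebraMap_mem_R1 x c1 Num Den hL3 hc1 a⟩) :
    C π ∣ a := by
  classical
  obtain ⟨r, hr⟩ := h
  obtain ⟨p, q, hq, hpq⟩ := r.2
  have hr' : algebraMap O[X] L a = evx x (C π) * (r : L) := by
    have h1 := congrArg Subtype.val hr
    rw [evx_C, ← coe_piR x c1 π]
    exact h1
  -- the key identity in `O[X]`
  have key : homPoly Num Den a * q = C π * p * Den ^ a.natDegree := by
    apply hL1
    rw [map_mul, map_mul, map_mul, map_pow, ← algebraMap_mul_pow x Num Den hL3 a, hr', ← hpq]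
    ring
  -- reduction modulo `π`
  set res := IsLocalRing.residue O with hres
  have hresπ : res π = 0 := by
    rw [hres, IsLocalRing.residue_eq_zero_iff, hπ.maximalIdeal_eq]
    exact Ideal.mem_span_singleton_self π
  have heval : ∀ (g : O[X]) (c : O), (g.map res).eval (res c) = res (g.eval c) := by
    intro g c
    rw [eval_map, eval₂_at_apply]
  have hq' : q.map res ≠ 0 := by
    intro h0
    have h1 := heval q c1
    rw [h0, eval_zero] at h1
    exact (hq.map res).ne_zero h1.symm
  have hD' : Den.map res ≠ 0 := by
    intro h0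
    have h1 := heval Den c1
    rw [h0, eval_zero] at h1
    exact (hc1.map res).ne_zero h1.symm
  have hH : (homPoly Num Den a).map res = 0 := by
    have h1 := congrArg (Polynomial.map res) key
    rw [Polynomial.map_mul, Polynomial.map_mul, Polynomial.map_mul, map_C, hresπ, C_0, zero_mul,
      zero_mul] at h1
    exact (mul_eq_zero.mp h1).resolve_right hq'
  -- abbreviations in `RatFunc k`
  set k := IsLocalRing.ResidueField O with hk
  set Nb : k[X] := Num.map res with hNb
  set Db : k[X] := Den.map res with hDb
  set ab : k[X] := a.map res with hab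
  set n : RatFunc k := algebraMap k[X] (RatFunc k) Nb with hn
  set δ : RatFunc k := algebraMap k[X] (RatFunc k) Db with hδ
  have hδ0 : δ ≠ 0 := by
    rw [hδ]
    exact (map_ne_zero_iff _ (RatFunc.algebraMap_injective k)).mpr hD'
  -- `aeval (n / δ) ab = 0`
  have haev : aeval (n / δ) ab = 0 := by
    have hdeg' : ab.natDegree < a.natDegree + 1 :=
      Nat.lt_succ_of_le (natDegree_map_le)
    have h1 : aeval (n / δ) ab * δ ^ a.natDegree
        = algebraMap k[X] (RatFunc k) ((homPoly Num Den a).map res) := by
      rw [aeval_eq_sum_range' hdeg', Finset.sum_mul, homPoly, Polynomial.map_sum, map_sum]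
      refine Finset.sum_congr rfl fun i hi => ?_
      have hi' : i ≤ a.natDegree := Nat.lt_succ_iff.mp (Finset.mem_range.mp hi)
      have hpow : δ ^ a.natDegree = δ ^ i * δ ^ (a.natDegree - i) := by
        rw [← pow_add, Nat.add_sub_cancel' hi']
      rw [Polynomial.map_mul, Polynomial.map_mul, Polynomial.map_pow, Polynomial.map_pow, map_C,
        map_mul, map_mul, map_pow, map_pow, RatFunc.algebraMap_C, Algebra.smul_def,
        RatFunc.algebraMap_eq_C, hab, coeff_map, hpow, div_pow]
      field_simp
      rfl
    rw [hH, map_zero] at h1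
    exact (mul_eq_zero.mp h1).resolve_right (pow_ne_zero _ hδ0)
  -- hence `ab = 0`
  have hab0 : ab = 0 := by
    by_contra hne
    have halg : IsAlgebraic k (n / δ) := ⟨ab, hne, haev⟩
    have hC : ∃ c : k, n / δ = RatFunc.C c := by
      by_contra hC
      exact (RatFunc.transcendental_of_ne_C (n / δ) hC) halg
    obtain ⟨c, hc⟩ := hC
    have h1 : n = RatFunc.C c * δ := by
      rw [← hc, div_mul_cancel₀ _ hδ0]
    have h2 : Nb = C c * Db := by
      apply RatFunc.algebraMap_injective k
      rw [map_mul, RatFunc.algebraMap_C]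
      exact h1
    have h3 : Nb.natDegree = Num.natDegree := by
      rw [hNb]
      exact natDegree_map_of_leadingCoeff_ne_zero res (hNum.map res).ne_zero
    have h4 : Nb.natDegree ≤ Db.natDegree := by
      rw [h2]
      exact natDegree_C_mul_le c Db
    have h5 : Db.natDegree ≤ Den.natDegree := natDegree_map_le
    omega
  -- conclusion
  rw [C_dvd_iff_dvd_coeff]
  intro i
  have h1 : res (a.coeff i) = 0 := by
    have := congrArg (fun g : k[X] => g.coeff i) hab0
    simpa [hab, coeff_map] using this
  rw [hres, IsLocalRing.residue_eq_zero_iff, hπ.maximalIdeal_eq, Ideal.mem_span_singleton] at h1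
  exact h1

end Main

end Fermat.Agent.S18.CoverLocPiB
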