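import Fermat.Agent.S18.FreeCrit

/-!
# S18 / [IGUSA] leaf P1 : freeness over a two-generator local ring (table statement, verbatim)

Thin wrapper around `Fermat.Agent.S18.FreeCrit.free_of_regular_pair`, restating the criterion
with the binder shapes of the S18 block table: `R` Noetherian local with maximal ideal `(π, s)`,
`M` finitely generated, `π` a nonzerodivisor on `M` and `s` a nonzerodivisor on `M / π M`
(in the two-variable form `s • x = π • y → x ∈ π M`).  Then `M` is free.
-/

set_option autoImplicit false

namespace Fermat.Agent.S18.Free2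

theorem free_of_regular_pair {R : Type*} [CommRing R] [IsNoetherianRing R] [IsLocalRing R]
    {M : Type*} [AddCommGroup M] [Module R M] [Module.Finite R M] (π s : R)
    (hm : IsLocalRing.maximalIdeal R = Ideal.span {π, s})
    (hπ : ∀ x : M, π • x = 0 → x = 0)
    (hs : ∀ x y : M, s • x = π • y → ∃ z : M, x = π • z) : Module.Free R M :=
  FreeCrit.free_of_regular_pair π s hm hπ fun x ⟨y, hy⟩ => hs x y hy

/-- Basis form: there is a basis indexed by `Fin n`. -/
theorem exists_basis_of_regular_pair {R : Type*} [CommRing R] [IsNoetherianRing R]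
    [IsLocalRing R] {M : Type*} [AddCommGroup M] [Module R M] [Module.Finite R M] (π s : R)
    (hm : IsLocalRing.maximalIdeal R = Ideal.span {π, s})
    (hπ : ∀ x : M, π • x = 0 → x = 0)
    (hs : ∀ x y : M, s • x = π • y → ∃ z : M, x = π • z) :
    ∃ n : ℕ, Nonempty (Module.Basis (Fin n) R M) :=
  FreeCrit.exists_basis_of_regular_pair π s hm hπ fun x ⟨y, hy⟩ => hs x y hy

end Fermat.Agent.S18.Free2
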