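import Mathlib

/-!
# S18 : a freeness criterion over a two-generator local ring (blueprint [Igusa](i), lemma P1)

Let `R` be a Noetherian local ring whose maximal ideal is generated by two elements `π, s`, and
let `M` be a finitely generated `R`-module such that `π` is a nonzerodivisor on `M` and `s` is a
nonzerodivisor on `M / π M`. Then `M` is free (`free_of_regular_pair`); more precisely every
generating family of minimal length is a basis (`exists_basis_of_regular_pair`).

Proof: for a generating family `e : Fin n → M` of minimal length every relation `∑ aᵢ eᵢ = 0` has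
all `aᵢ ∈ 𝔪`. Writing `aᵢ = π bᵢ + s cᵢ`, regularity gives `dᵢ` with `∑ cᵢ eᵢ = π ∑ dᵢ eᵢ`, so
`c - π d` and `b + s d` are relations and `a = π (b + s d) + s (c - π d)`: the relation module
`N` satisfies `N ≤ 𝔪 N`, hence `N = 0` by Nakayama.
-/

set_option autoImplicit false

namespace Fermat.Agent.S18.FreeCrit

open Submodule

section Minimal

variable {R : Type*} [CommRing R] [IsLocalRing R] {M : Type*} [AddCommGroup M] [Module R M]

/-- In a generating family of minimal length over a local ring, every relation has all its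
coefficients in the maximal ideal. -/
theorem coeff_mem_maximalIdeal_of_minimal {n : ℕ} (e : Fin n → M)
    (hmin : ∀ k : ℕ, k < n → ¬ ∃ e' : Fin k → M, span R (Set.range e') = ⊤)
    (he : span R (Set.range e) = ⊤) (a : Fin n → R) (ha : ∑ i, a i • e i = 0) (i : Fin n) :
    a i ∈ IsLocalRing.maximalIdeal R := by
  by_contra hai
  have hu : IsUnit (a i) := by
    by_contra hnu
    exact hai ((IsLocalRing.mem_maximalIdeal _).mpr hnu)
  obtain ⟨u, hu⟩ := hu
  cases n with
  | zero => exact i.elim0
  | succ n =>
    refine hmin n (Nat.lt_succ_self n) ⟨e ∘ i.succAbove, ?_⟩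
    have hsub : ∀ j : Fin (n + 1), j ≠ i → e j ∈ span R (Set.range (e ∘ i.succAbove)) := by
      intro j hj
      obtain ⟨j', rfl⟩ := Fin.exists_succAbove_eq hj
      exact subset_span ⟨j', rfl⟩
    have hi : e i ∈ span R (Set.range (e ∘ i.succAbove)) := by
      have h1 : a i • e i = - ∑ j ∈ Finset.univ.erase i, a j • e j := by
        rw [eq_neg_iff_add_eq_zero,
          Finset.add_sum_erase Finset.univ (fun j => a j • e j) (Finset.mem_univ i)]
        exact ha
      have h2 : e i = (↑u⁻¹ : R) • (a i • e i) := by
        rw [smul_smul, ← hu, Units.inv_mul, one_smul]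
      rw [h2, h1]
      refine Submodule.smul_mem _ _ (Submodule.neg_mem _ (Submodule.sum_mem _ fun j hj => ?_))
      exact Submodule.smul_mem _ _ (hsub j (Finset.ne_of_mem_erase hj))
    rw [eq_top_iff, ← he, span_le]
    rintro _ ⟨j, rfl⟩
    by_cases hj : j = i
    · rw [hj]; exact hi
    · exact hsub j hj

end Minimal

variable {R : Type*} [CommRing R] [IsLocalRing R] [IsNoetherianRing R]
  {M : Type*} [AddCommGroup M] [Module R M] [Module.Finite R M]

/-- **P1.** A finitely generated module over a Noetherian local ring with maximal ideal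
`(π, s)`, on which `π` is regular and `s` is regular modulo `π`, has a basis. -/
theorem exists_basis_of_regular_pair (π s : R)
    (hm : IsLocalRing.maximalIdeal R = Ideal.span {π, s})
    (hπ : ∀ x : M, π • x = 0 → x = 0)
    (hs : ∀ x : M, (∃ y : M, s • x = π • y) → ∃ z : M, x = π • z) :
    ∃ n : ℕ, Nonempty (Module.Basis (Fin n) R M) := by
  classical
  have hex : ∃ n : ℕ, ∃ e : Fin n → M, span R (Set.range e) = ⊤ := Module.Finite.exists_fin
  obtain ⟨n, ⟨e, he⟩, hmin⟩ : ∃ n : ℕ, (∃ e : Fin n → M, span R (Set.range e) = ⊤) ∧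
      ∀ k : ℕ, k < n → ¬ ∃ e' : Fin k → M, span R (Set.range e') = ⊤ :=
    ⟨Nat.find hex, Nat.find_spec hex, fun k hk => Nat.find_min hex hk⟩
  -- the module of relations
  set N : Submodule R (Fin n → R) := LinearMap.ker (Fintype.linearCombination R e) with hN
  have hmemN : ∀ a : Fin n → R, a ∈ N ↔ ∑ i, a i • e i = 0 := by
    intro a
    rw [hN, LinearMap.mem_ker, Fintype.linearCombination_apply]
  have hle : N ≤ IsLocalRing.maximalIdeal R • N := by
    intro a ha
    have ha' := (hmemN a).mp ha
    have hcoef : ∀ i, ∃ b c : R, b * π + c * s = a i := fun i =>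
      Ideal.mem_span_pair.mp (hm ▸ coeff_mem_maximalIdeal_of_minimal e hmin he a ha' i)
    choose b c hbc using hcoef
    -- `s • ∑ cᵢ eᵢ = π • (- ∑ bᵢ eᵢ)`
    have h1 : s • ∑ i, c i • e i = π • (- ∑ i, b i • e i) := by
      rw [smul_neg, eq_neg_iff_add_eq_zero, Finset.smul_sum, Finset.smul_sum,
        ← Finset.sum_add_distrib, ← ha']
      refine Finset.sum_congr rfl fun i _ => ?_
      rw [smul_smul, smul_smul, ← add_smul, ← hbc i]
      congr 1
      ring
    obtain ⟨z, hz⟩ := hs _ ⟨_, h1⟩
    obtain ⟨d, hd⟩ : ∃ d : Fin n → R, ∑ i, d i • e i = z :=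
      (Submodule.mem_span_range_iff_exists_fun R).mp (he ▸ Submodule.mem_top)
    have hcN : (fun i => c i - π * d i) ∈ N := by
      rw [hmemN]
      simp only [sub_smul, Finset.sum_sub_distrib, mul_smul]
      rw [← Finset.smul_sum, hd, hz, sub_self]
    have hbN : (fun i => b i + s * d i) ∈ N := by
      rw [hmemN]
      apply hπ
      have hcd : ∑ i, c i • e i = π • ∑ i, d i • e i := by rw [hd, hz]
      have e1 : ∑ i, (b i + s * d i) • e i = ∑ i, b i • e i + s • ∑ i, d i • e i := by
        rw [Finset.smul_sum, ← Finset.sum_add_distrib]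
        refine Finset.sum_congr rfl fun i _ => ?_
        rw [add_smul, mul_smul]
      rw [e1, smul_add, smul_comm π s, ← hcd, ← ha', Finset.smul_sum, Finset.smul_sum,
        ← Finset.sum_add_distrib]
      refine Finset.sum_congr rfl fun i _ => ?_
      rw [smul_smul, smul_smul, ← add_smul, ← hbc i]
      congr 1
      ring
    have hsum : a = π • (fun i => b i + s * d i) + s • (fun i => c i - π * d i) := by
      funext i
      simp only [Pi.add_apply, Pi.smul_apply, smul_eq_mul]
      rw [← hbc i]
      ring
    rw [hsum]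
    have hπm : π ∈ IsLocalRing.maximalIdeal R := by
      rw [hm]; exact Ideal.subset_span (Set.mem_insert _ _)
    have hsm : s ∈ IsLocalRing.maximalIdeal R := by
      rw [hm]; exact Ideal.subset_span (Set.mem_insert_of_mem _ rfl)
    exact Submodule.add_mem _ (Submodule.smul_mem_smul hπm hbN) (Submodule.smul_mem_smul hsm hcN)
  have hNbot : N = ⊥ :=
    Submodule.eq_bot_of_le_smul_of_le_jacobson_bot _ N (IsNoetherian.noetherian N) hle
      (IsLocalRing.maximalIdeal_le_jacobson _)
  have hli : LinearIndependent R e := by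
    rw [Fintype.linearIndependent_iff]
    intro g hg i
    have : g ∈ N := (hmemN g).mpr hg
    rw [hNbot, Submodule.mem_bot] at this
    rw [this]; rfl
  exact ⟨n, ⟨Module.Basis.mk hli he.ge⟩⟩

/-- **P1**, `Module.Free` form. -/
theorem free_of_regular_pair (π s : R) (hm : IsLocalRing.maximalIdeal R = Ideal.span {π, s})
    (hπ : ∀ x : M, π • x = 0 → x = 0)
    (hs : ∀ x : M, (∃ y : M, s • x = π • y) → ∃ z : M, x = π • z) : Module.Free R M := by
  obtain ⟨n, ⟨b⟩⟩ := exists_basis_of_regular_pair π s hm hπ hs
  exact Module.Free.of_basis b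

end Fermat.Agent.S18.FreeCrit
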