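/-
S18 — GRelNFB.lean (helper7): B-attempt of block [GRel-NF] of the arithmetic half:
`π`-adic normal form over the discrete valuation ring `O = A ∩ K` of quotients of two Laurent
series with coefficients in `O`.

Main result: `gRelNF : ModelPlan.GRelNFStatement`.
-/
import Fermat.Agent.S18.GRel

set_option autoImplicit false

noncomputable section

namespace Fermat.Agent.S18.GRelNFB

open ModularCurve HahnSeries Fermat.Agent.S18.Arith Fermat.Agent.S18.ModelPlan
open Fermat.Agent.S18.GRel

variable (A : ValuationSubring Qb) (K : IntermediateField ℚ Qb)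

theorem incO_injective : Function.Injective (incO A K) := by
  intro x y h
  apply Subtype.ext
  exact (algebraMap K Qb).injective h

/-- Primitive part, in Gauss form: a nonzero series `a ∈ O((q))` is `π ^ α` times a series of
`A((q))` with nonzero reduction. -/
theorem exists_primitive [IsDiscreteValuationRing (OK A K)] (π : OK A K) (hπ : Irreducible π)
    (a : LaurentSeries (OK A K)) (ha : a ≠ 0) :
    ∃ (α : ℕ) (P : LaurentSeries A), coeffMap (IsLocalRing.residue A) P ≠ 0 ∧
      coeffMap (incO A K) a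
        = (HahnSeries.C (incO A K π) : LaurentSeries Qb) ^ α * coeffMap A.subtype P := by
  classical
  have hex : ∃ m : ℕ, ∃ n : ℤ, ∃ u : (OK A K)ˣ, a.coeff n = u * π ^ m := by
    have h1 : ∃ n, a.coeff n ≠ 0 := by
      by_contra hcon
      apply ha
      refine HahnSeries.ext (funext fun n => ?_)
      by_contra hn
      exact hcon ⟨n, hn⟩
    obtain ⟨n, hn⟩ := h1
    obtain ⟨m, u, hu⟩ := IsDiscreteValuationRing.eq_unit_mul_pow_irreducible hn hπ
    exact ⟨m, n, u, hu⟩
  obtain ⟨n₀, u₀, h₀⟩ := Nat.find_spec hex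
  set α := Nat.find hex with hα
  have hdiv : ∀ n, ∃ c : OK A K, a.coeff n = π ^ α * c := by
    intro n
    by_cases hn : a.coeff n = 0
    · exact ⟨0, by rw [hn, mul_zero]⟩
    · obtain ⟨m, u, hu⟩ := IsDiscreteValuationRing.eq_unit_mul_pow_irreducible hn hπ
      have hle : α ≤ m := Nat.find_min' hex ⟨n, u, hu⟩
      refine ⟨u * π ^ (m - α), ?_⟩
      rw [hu, mul_left_comm, ← _root_.pow_add, Nat.add_sub_cancel' hle]
  set ϖ : Qb := incO A K π with hϖ
  have hϖ0 : ϖ ≠ 0 := by
    intro h
    apply hπ.ne_zero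
    apply incO_injective A K
    rw [← hϖ, h, map_zero]
  set xa : LaurentSeries Qb := HahnSeries.C ((ϖ ^ α)⁻¹) * coeffMap (incO A K) a with hxa
  have hcoeff : ∀ n (c : OK A K), a.coeff n = π ^ α * c → xa.coeff n = incO A K c := by
    intro n c hc
    rw [hxa, HahnSeries.C_mul_eq_smul, HahnSeries.coeff_smul, coeffMap_coeff, hc, map_mul,
      map_pow, ← hϖ, smul_eq_mul, ← mul_assoc, inv_mul_cancel₀ (pow_ne_zero _ hϖ0), one_mul]
  have hmem : ∀ n, xa.coeff n ∈ A := by
    intro n
    obtain ⟨c, hc⟩ := hdiv n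
    rw [hcoeff n c hc]
    exact c.2
  obtain ⟨P, hP⟩ := exists_coeffMap_subtype_eq A xa hmem
  refine ⟨α, P, ?_, ?_⟩
  · intro h0
    have h1 : IsLocalRing.residue A (P.coeff n₀) = 0 := by
      have := congrArg (fun z : LaurentSeries (IsLocalRing.ResidueField A) => z.coeff n₀) h0
      simpa using this
    have h2 : P.coeff n₀ = ((incO A K).codRestrict A.toSubring (fun x => x.2)) (u₀ : OK A K) := by
      apply Subtype.ext
      have h3 : ((P.coeff n₀ : A) : Qb) = xa.coeff n₀ := by
        rw [← hP]; rfl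
      rw [h3, hcoeff n₀ (u₀ : OK A K) (by rw [h₀, mul_comm])]
      rfl
    have h4 : IsUnit (P.coeff n₀) := by
      rw [h2]
      exact u₀.isUnit.map _
    exact (h4.map (IsLocalRing.residue A)).ne_zero h1
  · rw [hP, hxa, ← mul_assoc, ← map_pow, ← map_mul, mul_inv_cancel₀ (pow_ne_zero _ hϖ0), map_one,
      one_mul]

/-- **[GRel-NF]** `π`-adic normal form. -/
theorem gRelNF : ModelPlan.GRelNFStatement := by
  intro A K hdvr π hπ x a b ha hb hx
  have := hdvr
  obtain ⟨α, Pa, hPa, hA⟩ := exists_primitive A K π hπ a ha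
  obtain ⟨β, Pb, hPb, hB⟩ := exists_primitive A K π hπ b hb
  have hϖ0 : (HahnSeries.C (incO A K π) : LaurentSeries Qb) ≠ 0 := by
    intro h
    apply hπ.ne_zero
    apply incO_injective A K
    rw [map_zero]
    exact HahnSeries.C_injective (h.trans (map_zero _).symm)
  have hιb : coeffMap A.subtype Pb ≠ 0 := by
    intro h
    apply hPb
    rw [coeffMap_subtype_injective A (h.trans (map_zero _).symm), map_zero]
  refine ⟨(α : ℤ) - β, coeffMap (IsLocalRing.residue A) Pa * (coeffMap (IsLocalRing.residue A) Pb)⁻¹,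
    mul_ne_zero hPa (inv_ne_zero hPb), ?_⟩
  have key : x * (HahnSeries.C (incO A K π) : LaurentSeries Qb) ^ (-((α : ℤ) - β))
      = coeffMap A.subtype Pa * (coeffMap A.subtype Pb)⁻¹ := by
    rw [hA, hB] at hx
    rw [eq_mul_inv_iff_mul_eq₀ hιb]
    have h1 : -((α : ℤ) - β) = (β : ℤ) - α := by ring
    rw [h1, zpow_sub₀ hϖ0, zpow_natCast, zpow_natCast, div_eq_mul_inv]
    have h2 : (HahnSeries.C (incO A K π) : LaurentSeries Qb) ^ α ≠ 0 := pow_ne_zero _ hϖ0
    apply mul_left_cancel₀ h2
    rw [← hx]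
    field_simp
  rw [key]
  exact gRel_mul A _ _ _ _ (gRel_of_int A Pa) (gRel_inv A _ _ (gRel_of_int A Pb) hPb)

end Fermat.Agent.S18.GRelNFB
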