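/-
S18 — [Gauss] core (helper48): model-independent part of block [Gauss] of the S18 blueprint.

Setting.  `φ : O →+* K` injective (`K = Frac O`), `res : O →+* k` the residue map (`k` a field),
`π : O` with `res π = 0`.  `V` is a subring of `K((q))` (the "Gauss valuation ring" of the
function field) with a reduction map `ρ : V →+* k((q))` such that
* `hker`: the kernel of `ρ` is `π V`;
* `hint`: every `s ∈ V` satisfies a polynomial equation with coefficients in (the image of)
  `O((q))` whose leading coefficient has nonzero coefficientwise reduction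
  (i.e. `s` is integral over `O[j]_(π)`).

Then for `y₀ ∈ O((q))`:
* (G1) if `y₀ ∈ V` and `red y₀ ≠ 0` then `ρ y₀ ≠ 0` (so `y₀ ∉ π V`);
* (G2) `π · s · y₀ ≠ 1` for every `s ∈ V` (so `y₀ ∈ V` once `V` is a valuation ring with
  maximal ideal `π V`);
* (G3) `ρ y₀ = red y₀` as soon as `ρ y₀ = ρ a / ρ b` with `a, b ∈ O((q)) ∩ V` on which `ρ` is
  the coefficientwise reduction.
-/
import Mathlib
import Fermat.Prelude.Def_ModularCurve_LaurentCoeff

set_option autoImplicit false

namespace Fermat.Agent.S18.GaussCore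

open ModularCurve

variable {O K k : Type*} [CommRing O] [Field K] [Field k]

theorem coeffMap_injective {φ : O →+* K} (hφ : Function.Injective φ) :
    Function.Injective (coeffMap φ) := by
  intro x y h
  ext n
  apply hφ
  have := congrArg (fun z => z.coeff n) h
  simpa using this

theorem coeffMap_C {R S : Type*} [CommRing R] [CommRing S] (f : R →+* S) (r : R) :
    coeffMap f (HahnSeries.C r : LaurentSeries R) = HahnSeries.C (f r) := by
  rw [HahnSeries.C_apply, HahnSeries.C_apply, coeffMap_single]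

section core

variable (φ : O →+* K) (res : O →+* k) (π : O)
variable (V : Subring (LaurentSeries K)) (ρ : ↥V →+* LaurentSeries k)

/-- the kernel of `ρ` is `π V` (only the inclusion `⊆` is used). -/
def KerCond : Prop :=
  ∀ v : ↥V, ρ v = 0 → ∃ u : ↥V, (v : LaurentSeries K) = HahnSeries.C (φ π) * (u : LaurentSeries K)

/-- every element of `V` is "integral over `O[j]_(π)`" in coefficient form. -/
def IntCond : Prop :=
  ∀ s : ↥V, ∃ (n : ℕ) (c : ℕ → LaurentSeries O), coeffMap res (c n) ≠ 0 ∧
    ∑ i ∈ Finset.range (n + 1), coeffMap φ (c i) * (s : LaurentSeries K) ^ i = 0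

variable {φ res π V ρ}

/-- Key computation: an equation `∑ c_i u^i = 0` and `π^? ` scaling, reduced modulo `π`. -/
theorem red_eq_zero_of_scaled {n : ℕ} {c : ℕ → LaurentSeries O}
    (hπ : res π = 0) (z w : LaurentSeries O)
    (h : ∑ i ∈ Finset.range (n + 1),
      (c i * (HahnSeries.C π * z) ^ (n - i) * w ^ i : LaurentSeries O) = 0) :
    coeffMap res (c n) * coeffMap res w ^ n = 0 := by
  have h1 := congrArg (coeffMap res) h
  rw [map_zero, map_sum, Finset.sum_range_succ] at h1
  have h2 : ∑ i ∈ Finset.range n,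
      coeffMap res (c i * (HahnSeries.C π * z) ^ (n - i) * w ^ i) = 0 := by
    apply Finset.sum_eq_zero
    intro i hi
    have hi' : n - i ≠ 0 := Nat.sub_ne_zero_of_lt (Finset.mem_range.mp hi)
    rw [map_mul, map_mul, map_pow, map_mul, coeffMap_C, hπ, map_zero, zero_mul, zero_pow hi',
      mul_zero, zero_mul]
  rw [h2, zero_add, Nat.sub_self, pow_zero, mul_one, map_mul, map_pow] at h1
  exact h1

/-- (G1) an element of `V ∩ O((q))` with nonzero reduction is not in the kernel of `ρ`. -/
theorem rho_ne_zero (hφ : Function.Injective φ) (hπ : res π = 0) (hker : KerCond φ π V ρ)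
    (hint : IntCond φ res V) (y₀ : LaurentSeries O) (hy : coeffMap φ y₀ ∈ V)
    (hred : coeffMap res y₀ ≠ 0) : ρ ⟨coeffMap φ y₀, hy⟩ ≠ 0 := by
  intro h0
  obtain ⟨u, hu⟩ := hker _ h0
  obtain ⟨n, c, hcn, hsum⟩ := hint u
  have hu' : coeffMap φ y₀ = HahnSeries.C (φ π) * (u : LaurentSeries K) := hu
  have key : ∑ i ∈ Finset.range (n + 1),
      (c i * (HahnSeries.C π * 1) ^ (n - i) * y₀ ^ i : LaurentSeries O) = 0 := by
    apply coeffMap_injective hφ
    rw [map_zero, map_sum]
    have hmul : ∀ i ∈ Finset.range (n + 1),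
        coeffMap φ (c i * (HahnSeries.C π * 1) ^ (n - i) * y₀ ^ i) =
          HahnSeries.C (φ π) ^ n * (coeffMap φ (c i) * (u : LaurentSeries K) ^ i) := by
      intro i hi
      have hin : i ≤ n := Nat.lt_succ_iff.mp (Finset.mem_range.mp hi)
      rw [map_mul, map_mul, map_pow, map_pow, map_mul, map_one, mul_one, coeffMap_C, hu', mul_pow]
      have : HahnSeries.C (φ π) ^ n = (HahnSeries.C (φ π) : LaurentSeries K) ^ (n - i) *
          HahnSeries.C (φ π) ^ i := by
        rw [← pow_add, Nat.sub_add_cancel hin]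
      rw [this]
      ring
    rw [Finset.sum_congr rfl hmul, ← Finset.mul_sum, hsum, mul_zero]
  have := red_eq_zero_of_scaled (res := res) hπ 1 y₀ key
  rcases mul_eq_zero.mp this with h | h
  · exact hcn h
  · exact hred (pow_eq_zero_iff (by
      intro hn0
      subst hn0
      simp at h) |>.mp h)

/-- (G2) `π · s · y₀ = 1` is impossible for `s ∈ V`, `y₀ ∈ O((q))`: an element of `O((q))` is
never the inverse of an element of `π V`. -/
theorem not_inv_mem (hφ : Function.Injective φ) (hπ : res π = 0)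
    (hint : IntCond φ res V) (y₀ : LaurentSeries O) (s : ↥V) :
    HahnSeries.C (φ π) * (s : LaurentSeries K) * coeffMap φ y₀ ≠ 1 := by
  intro h1
  obtain ⟨n, c, hcn, hsum⟩ := hint s
  have key : ∑ i ∈ Finset.range (n + 1),
      (c i * (HahnSeries.C π * y₀) ^ (n - i) * 1 ^ i : LaurentSeries O) = 0 := by
    apply coeffMap_injective hφ
    rw [map_zero, map_sum]
    have hmul : ∀ i ∈ Finset.range (n + 1),
        coeffMap φ (c i * (HahnSeries.C π * y₀) ^ (n - i) * 1 ^ i) =
          (HahnSeries.C (φ π) * coeffMap φ y₀) ^ n *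
            (coeffMap φ (c i) * (s : LaurentSeries K) ^ i) := by
      intro i hi
      have hin : i ≤ n := Nat.lt_succ_iff.mp (Finset.mem_range.mp hi)
      rw [map_mul, map_mul, map_pow, map_pow, map_mul, map_one, one_pow, mul_one, coeffMap_C]
      have h2 : (HahnSeries.C (φ π) * coeffMap φ y₀) ^ n * (s : LaurentSeries K) ^ i =
          (HahnSeries.C (φ π) * coeffMap φ y₀) ^ (n - i) := by
        have h3 : (HahnSeries.C (φ π) * coeffMap φ y₀) ^ n =
            (HahnSeries.C (φ π) * coeffMap φ y₀) ^ (n - i) *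
              (HahnSeries.C (φ π) * coeffMap φ y₀) ^ i := by
          rw [← pow_add, Nat.sub_add_cancel hin]
        rw [h3, mul_assoc, ← mul_pow]
        have h4 : HahnSeries.C (φ π) * coeffMap φ y₀ * (s : LaurentSeries K) = 1 := by
          rw [← h1]; ring
        rw [h4, one_pow, mul_one]
      rw [← h2]
      ring
    rw [Finset.sum_congr rfl hmul, ← Finset.mul_sum, hsum, mul_zero]
  have := red_eq_zero_of_scaled (res := res) hπ y₀ 1 key
  rw [map_one, one_pow, mul_one] at this
  exact hcn this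

/-- (G3) on `V ∩ O((q))` the reduction map `ρ` is the coefficientwise reduction, as soon as
`ρ y = ρ a / ρ b` for some `a, b ∈ V ∩ O((q))` on which `ρ` is the coefficientwise reduction. -/
theorem rho_eq_red (hφ : Function.Injective φ) (hπ : res π = 0) (hker : KerCond φ π V ρ)
    (hint : IntCond φ res V) (y₀ a₀ b₀ : LaurentSeries O) (hy : coeffMap φ y₀ ∈ V)
    (ha : coeffMap φ a₀ ∈ V) (hb : coeffMap φ b₀ ∈ V)
    (hρa : ρ ⟨coeffMap φ a₀, ha⟩ = coeffMap res a₀)
    (hρb : ρ ⟨coeffMap φ b₀, hb⟩ = coeffMap res b₀) (hb0 : coeffMap res b₀ ≠ 0)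
    (hfrac : ρ ⟨coeffMap φ y₀, hy⟩ * ρ ⟨coeffMap φ b₀, hb⟩ = ρ ⟨coeffMap φ a₀, ha⟩) :
    ρ ⟨coeffMap φ y₀, hy⟩ = coeffMap res y₀ := by
  have hz : coeffMap φ (y₀ * b₀ - a₀) ∈ V := by
    rw [map_sub, map_mul]
    exact V.sub_mem (V.mul_mem hy hb) ha
  have hρz : ρ ⟨coeffMap φ (y₀ * b₀ - a₀), hz⟩ = 0 := by
    have : (⟨coeffMap φ (y₀ * b₀ - a₀), hz⟩ : ↥V) =
        ⟨coeffMap φ y₀, hy⟩ * ⟨coeffMap φ b₀, hb⟩ - ⟨coeffMap φ a₀, ha⟩ := by
      apply Subtype.ext
      simp [map_sub, map_mul]
    rw [this, map_sub, map_mul, hfrac, sub_self]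
  have hred : coeffMap res (y₀ * b₀ - a₀) = 0 := by
    by_contra hne
    exact rho_ne_zero hφ hπ hker hint _ hz hne hρz
  rw [map_sub, map_mul, sub_eq_zero] at hred
  have h1 : ρ ⟨coeffMap φ y₀, hy⟩ * coeffMap res b₀ = coeffMap res y₀ * coeffMap res b₀ := by
    rw [hred, ← hρa, ← hfrac, hρb]
  exact mul_right_cancel₀ hb0 h1

end core

end Fermat.Agent.S18.GaussCore
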