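import Mathlib
import Fermat.Agent.S18.HorGlue
import Fermat.Agent.S18.IgusaRegLoc

/-!
# S18 team library, block [IGUSA]: the leaf `IgusaRegLoc.HorGlueStatement`

OWNER: helper73 (only the owner edits this file).

`IgusaRegLoc.HorGlueStatement` is `HorGlue.horHypAt_of_horInput` (with extra, unused instances).
-/

set_option autoImplicit false

namespace Fermat.Agent.S18.HorGlueLeaf

/-- **Leaf HorGlue** of `IgusaRegLoc`. -/
theorem horGlue : IgusaRegLoc.HorGlueStatement := by
  intro O _ _ _ _ _ Ky F L _ _ _ _ _ _ _ _ _ _ _ _ x Num Den π c φ hπ hφ hcov hH c1 hc hDen p1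
    hp1 hne
  exact HorGlue.horHypAt_of_horInput Ky F L x Num Den π c φ hπ hφ hcov hH c1 hc hDen p1 hp1 hne

end Fermat.Agent.S18.HorGlueLeaf
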