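import Mathlib
import Fermat.Agent.S18.HesseDatum
import Fermat.Agent.S18.LegendreDatum
import Fermat.Agent.S18.KummerDatum
import Fermat.Agent.S18.HorHyp
import Fermat.Agent.S18.HesseHor
import Fermat.Agent.S18.LegendreHor
import Fermat.Agent.S18.KummerHor
import Fermat.Agent.S18.IgusaAbsMain

/-!
# S18 team library, block [IGUSA] T8: the three covers in the call shape of `IgusaInst.igusaAt_chart`

OWNER: helper65 (only the owner edits this file).

For each cover `d : CoverGen.RatData O` (Hesse, Legendre, Kummer) we record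

* `…_coverDatum : IgusaTop.CoverDatum (FractionRing O[X]) (CoverGen.xc d) d.Num d.Den`
  (literally the `hcov` argument of `IgusaInst.igusaAt_chart`), and
* `…_hE3` : the local factorisation (E3) with the ramification function `HorHyp.eC`, literally
  the hypothesis `hE3` of `ChartHor.horInput_fin` for `Num := d.Num`, `Den := d.Den`.

So the consistency of the cover files with the T8 instantiation is checked by the kernel here.
-/

set_option autoImplicit false

namespace Fermat.Agent.S18.IgusaCovers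

open Polynomial

universe u

variable (O : Type u) [CommRing O] [IsDomain O] [CharZero O]

/-! ### Hesse (used for `ℓ ≠ 3`) -/

theorem hesse_coverDatum (ω : O) (hω : ω ^ 2 + ω + 1 = 0) (h3 : IsUnit (3 : O)) :
    IgusaTop.CoverDatum (FractionRing O[X]) (CoverGen.xc (Hesse.data O)) (Hesse.data O).Num
      (Hesse.data O).Den :=
  HesseDatum.coverDatum O ω hω h3

theorem eH_eq_eC (a : ℂ) : Hesse.eH a = HorHyp.eC a := by
  unfold Hesse.eH HorHyp.eC
  split_ifs <;> rfl

theorem hesse_hE3 (φ : O →+* ℂ) :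
    ∀ x0 : ℂ, (((Hesse.data O).Den).map φ).eval x0 ≠ 0 →
      ∃ g : ℂ[X],
        ((Hesse.data O).Num).map φ -
            C ((((Hesse.data O).Num).map φ).eval x0 / (((Hesse.data O).Den).map φ).eval x0) *
              ((Hesse.data O).Den).map φ =
          (X - C x0) ^ HorHyp.eC
              ((((Hesse.data O).Num).map φ).eval x0 / (((Hesse.data O).Den).map φ).eval x0) * g ∧
        g.eval x0 ≠ 0 := by
  intro x0 hx0
  obtain ⟨g, hg, hg0, -⟩ := Hesse.local_factor O φ x0 hx0
  refine ⟨g, ?_, hg0⟩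
  rw [← eH_eq_eC]
  exact hg

/-! ### Legendre (used for `ℓ ≠ 2`, in particular `ℓ = 3`) -/

theorem legendre_coverDatum (h2 : IsUnit (2 : O)) :
    IgusaTop.CoverDatum (FractionRing O[X]) (CoverGen.xc (Legendre.legData O))
      (Legendre.legData O).Num (Legendre.legData O).Den :=
  LegendreDatum.coverDatum O h2

theorem legendre_hE3 (φ : O →+* ℂ) :
    ∀ x0 : ℂ, (((Legendre.legData O).Den).map φ).eval x0 ≠ 0 →
      ∃ g : ℂ[X],
        ((Legendre.legData O).Num).map φ -
            C ((((Legendre.legData O).Num).map φ).eval x0 /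
              (((Legendre.legData O).Den).map φ).eval x0) * ((Legendre.legData O).Den).map φ =
          (X - C x0) ^ HorHyp.eC
              ((((Legendre.legData O).Num).map φ).eval x0 /
                (((Legendre.legData O).Den).map φ).eval x0) * g ∧
        g.eval x0 ≠ 0 := by
  intro x0 hx0
  obtain ⟨g, hg, hg0, -⟩ := Legendre.exists_local_factor O HorHyp.eC HorHyp.eC_zero
    HorHyp.eC_1728 (fun a h0 h1 => HorHyp.eC_of_ne h0 h1) φ x0 hx0
  exact ⟨g, hg, hg0⟩

/-! ### Kummer (chart `∞`, point `c = 0`) -/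

theorem kummer_coverDatum {N : ℕ} (hN : 0 < N) {ζ : O} (hζ : IsPrimitiveRoot ζ N) :
    IgusaTop.CoverDatum (FractionRing O[X]) (CoverGen.xc (KummerChart.data O N hN))
      (KummerChart.data O N hN).Num (KummerChart.data O N hN).Den :=
  KummerDatum.coverDatum hN hζ

omit [CharZero O] in
theorem kummer_Num {N : ℕ} (hN : 0 < N) : (KummerChart.data O N hN).Num = X ^ N := rfl

omit [CharZero O] in
theorem kummer_Den {N : ℕ} (hN : 0 < N) : (KummerChart.data O N hN).Den = 1 := rfl

/-! ### The abstract Igusa theorem for the three covers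

`O : Type` a DVR of characteristic zero with algebraically closed residue field and uniformizer
`π`, `F` a finite extension of `Ky = Frac O[y]`; inputs: the vertical input `(S')` and the
families of embeddings `(H)` (outputs of `DegFK` / `HorHyp`). -/

section Conclusions

variable (O : Type) [CommRing O] [IsDomain O] [IsDiscreteValuationRing O] [CharZero O]
  [IsAlgClosed (IsLocalRing.ResidueField O)]
  (F : Type) [Field F] [Algebra (FractionRing O[X]) F] [Algebra O[X] F]
  [IsScalarTower O[X] (FractionRing O[X]) F] [FiniteDimensional (FractionRing O[X]) F]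

/-- Hesse cover (`3 ∈ Oˣ`, `ω ∈ O`): the conclusion (I3) at the points over `y = c`, every `c`. -/
theorem conclusion_hesse (ω : O) (hω : ω ^ 2 + ω + 1 = 0) (h3 : IsUnit (3 : O))
    {π : O} (hπ : Irreducible π) (c : O) (φ : O →+* ℂ) (hφ : Function.Injective φ)
    (hφalg : ∀ o : O, IsAlgebraic ℚ (φ o))
    (hV : IgusaTop.VertInput (FractionRing O[X]) F π)
    (hH : ∀ a : ℂ, IsAlgebraic ℚ a → ∃ T : PowerSeries ℂ, T.order = HorHyp.eC a ∧
      ∃ ι : Fin (Module.finrank (FractionRing O[X]) F) → (F →+* LaurentSeries ℂ),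
        Function.Injective ι ∧
        (∀ i (o : O), ι i (algebraMap O[X] F (C o)) = HahnSeries.C (φ o)) ∧
        ∀ i, ι i (algebraMap O[X] F X) = HahnSeries.ofPowerSeries ℤ ℂ (PowerSeries.C a + T)) :
    IgusaTop.Conclusion F π c :=
  IgusaAbsMain.igusaAbs O (FractionRing O[X]) F (CoverGen.CoverField (Hesse.data O))
    (CoverGen.xc (Hesse.data O)) (Hesse.hNum O) (Hesse.hDen O) π c φ hπ hφ
    (HesseDatum.coverDatum O ω hω h3) hV
    (HesseHor.horInput (FractionRing O[X]) F hπ c φ hφ hφalg HorHyp.eC HorHyp.eC_zero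
      HorHyp.eC_1728 (fun _ h0 h1 => HorHyp.eC_of_ne h0 h1) hH)

/-- Legendre cover (`2 ∈ Oˣ`): the conclusion (I3) at the points over `y = c`, every `c`. -/
theorem conclusion_legendre (h2 : IsUnit (2 : O))
    {π : O} (hπ : Irreducible π) (c : O) (φ : O →+* ℂ) (hφ : Function.Injective φ)
    (hφalg : ∀ o : O, IsAlgebraic ℚ (φ o))
    (hV : IgusaTop.VertInput (FractionRing O[X]) F π)
    (hH : ∀ a : ℂ, IsAlgebraic ℚ a → ∃ T : PowerSeries ℂ, T.order = HorHyp.eC a ∧
      ∃ ι : Fin (Module.finrank (FractionRing O[X]) F) → (F →+* LaurentSeries ℂ),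
        Function.Injective ι ∧
        (∀ i (o : O), ι i (algebraMap O[X] F (C o)) = HahnSeries.C (φ o)) ∧
        ∀ i, ι i (algebraMap O[X] F X) = HahnSeries.ofPowerSeries ℤ ℂ (PowerSeries.C a + T)) :
    IgusaTop.Conclusion F π c :=
  IgusaAbsMain.igusaAbs O (FractionRing O[X]) F (CoverGen.CoverField (Legendre.legData O))
    (CoverGen.xc (Legendre.legData O)) (Legendre.numP O) (Legendre.denP O) π c φ hπ hφ
    (LegendreDatum.coverDatum O h2) hV
    (LegendreHor.horInput (FractionRing O[X]) F hπ c φ hφ hφalg HorHyp.eC HorHyp.eC_zero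
      HorHyp.eC_1728 (fun _ h0 h1 => HorHyp.eC_of_ne h0 h1) hH)

/-- Kummer cover (`ζ ∈ O` a primitive `N`-th root of unity): the conclusion (I3) at the points
over `y = 0`. -/
theorem conclusion_kummer {N : ℕ} (hN : 0 < N) {ζ : O} (hζ : IsPrimitiveRoot ζ N)
    {π : O} (hπ : Irreducible π) (φ : O →+* ℂ) (hφ : Function.Injective φ)
    (hφalg : ∀ o : O, IsAlgebraic ℚ (φ o))
    (hV : IgusaTop.VertInput (FractionRing O[X]) F π)
    (hH0 : ∃ T : PowerSeries ℂ, T.order = N ∧
      ∃ ι : Fin (Module.finrank (FractionRing O[X]) F) → (F →+* LaurentSeries ℂ),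
        Function.Injective ι ∧
        (∀ i (o : O), ι i (algebraMap O[X] F (C o)) = HahnSeries.C (φ o)) ∧
        ∀ i, ι i (algebraMap O[X] F X) = HahnSeries.ofPowerSeries ℤ ℂ (PowerSeries.C 0 + T))
    (hH1 : ∀ a : ℂ, IsAlgebraic ℚ a → a ≠ 0 → 1728 * a ≠ 1 →
      ∃ T : PowerSeries ℂ, T.order = 1 ∧
      ∃ ι : Fin (Module.finrank (FractionRing O[X]) F) → (F →+* LaurentSeries ℂ),
        Function.Injective ι ∧
        (∀ i (o : O), ι i (algebraMap O[X] F (C o)) = HahnSeries.C (φ o)) ∧
        ∀ i, ι i (algebraMap O[X] F X) = HahnSeries.ofPowerSeries ℤ ℂ (PowerSeries.C a + T)) :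
    IgusaTop.Conclusion F π 0 :=
  IgusaAbsMain.igusaAbs O (FractionRing O[X]) F (CoverGen.CoverField (KummerChart.data O N hN))
    (CoverGen.xc (KummerChart.data O N hN)) (X ^ N) 1 π 0 φ hπ hφ
    (KummerDatum.coverDatum hN hζ) hV
    (KummerHor.horInput (FractionRing O[X]) F hN hπ φ hφ hφalg hH0 hH1)

end Conclusions

end Fermat.Agent.S18.IgusaCovers
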