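import Mathlib

/-!
# S18 : the Kummer chart at the cusps, explicit group-action model (spare; blueprint [Igusa], COVERS)

The explicit cover used at the cusps is `B0 := O[t]` over `O[z]` (`z = 1/j`) via `z ↦ t ^ N`,
with covering group `G = μ_N ⊂ O` acting by `t ↦ ζ t`.

* `scale ζ : O[X] →ₐ[O] O[X]` is the substitution `t ↦ ζ t`; `scale_scale`, `scale_one`,
  `scale_expand` (it fixes `O[t ^ N]`), `exists_expand_eq_of_scale_eq` (invariants of a primitive
  `N`-th root of unity lie in `O[t ^ N]`).
* `component`, `coeff_sum_X_pow_mul_expand`, `eq_sum_X_pow_mul_expand`,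
  `eq_zero_of_sum_X_pow_mul_expand_eq_zero`: `O[t] = ⊕_{i < N} t ^ i • O[t ^ N]`.
* `KummerAlg O N`: the ring `O[t]` with its `O[z]`-algebra structure `z ↦ t ^ N`; `basis`
  (`1, t, …, t ^ (N - 1)`), `finrank_eq`; the action of `rootsOfUnity N O`, its invariants
  (`exists_algebraMap_eq_of_smul_eq`) and the factorisation `prod_X_sub_C_smul` of `Y ^ N - z`.
* `exists_eq_span_pair_of_isMaximal`: over a ring `O` with `O / π` an algebraically closed field
  every maximal ideal of `O[t]` containing `π` is of the form `(π, t - c)`.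
-/

set_option autoImplicit false

namespace Fermat.Agent.S18.KummerAct

open Polynomial

section Scale

variable {O : Type*} [CommRing O]

/-- The substitution `t ↦ ζ t` on `O[t]`. -/
noncomputable def scale (ζ : O) : O[X] →ₐ[O] O[X] := aeval (C ζ * X)

theorem scale_apply (ζ : O) (f : O[X]) : scale ζ f = f.comp (C ζ * X) := rfl

@[simp] theorem scale_X (ζ : O) : scale ζ X = C ζ * X := aeval_X _

@[simp] theorem scale_C (ζ a : O) : scale ζ (C a) = C a := aeval_C _ _

theorem coeff_scale (ζ : O) (f : O[X]) (n : ℕ) : (scale ζ f).coeff n = ζ ^ n * f.coeff n := by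
  rw [scale_apply, comp_C_mul_X_coeff, mul_comm]

theorem scale_scale (ζ ξ : O) (f : O[X]) : scale ζ (scale ξ f) = scale (ζ * ξ) f := by
  ext n
  simp only [coeff_scale]
  ring

@[simp] theorem scale_one (f : O[X]) : scale (1 : O) f = f := by
  ext n
  simp [coeff_scale]

theorem scale_X_pow (ζ : O) (n : ℕ) : scale ζ (X ^ n) = C (ζ ^ n) * X ^ n := by
  rw [map_pow, scale_X, mul_pow, C_pow]

/-- `t ↦ ζ t` fixes `O[t ^ N]` when `ζ ^ N = 1`. -/
theorem scale_expand {ζ : O} {N : ℕ} (hζ : ζ ^ N = 1) (f : O[X]) :
    scale ζ (expand O N f) = expand O N f := by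
  have h : (scale ζ).comp (expand O N) = expand O N := by
    ext
    simp [scale_X_pow, hζ]
  exact DFunLike.congr_fun h f

/-- The invariants of `t ↦ ζ t`, `ζ` a primitive `N`-th root of unity, are `O[t ^ N]`. -/
theorem exists_expand_eq_of_scale_eq [IsDomain O] {ζ : O} {N : ℕ} (hζ : IsPrimitiveRoot ζ N)
    (hN : 0 < N) {f : O[X]} (hf : scale ζ f = f) : ∃ g : O[X], expand O N g = f := by
  refine ⟨contract N f, ?_⟩
  ext n
  rw [coeff_expand hN]
  split_ifs with h
  · rw [coeff_contract hN.ne']
    obtain ⟨k, rfl⟩ := h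
    rw [Nat.mul_div_cancel_left _ hN, mul_comm]
  · have h0 := congrArg (fun g => coeff g n) hf
    simp only [coeff_scale] at h0
    have h1 : (ζ ^ n - 1) * f.coeff n = 0 := by rw [sub_mul, one_mul, h0, sub_self]
    rcases mul_eq_zero.mp h1 with h2 | h2
    · exact absurd ((hζ.pow_eq_one_iff_dvd n).mp (sub_eq_zero.mp h2)) h
    · exact h2.symm

end Scale

section Decomposition

variable {O : Type*} [CommRing O]

theorem coeff_iterate_divX (i : ℕ) (f : O[X]) (n : ℕ) :
    (divX^[i] f).coeff n = f.coeff (n + i) := by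
  induction i generalizing f with
  | zero => simp
  | succ i ih =>
    rw [Function.iterate_succ_apply, ih, coeff_divX]
    congr 1

/-- The `i`-th component `∑ₖ a_{kN+i} zᵏ` of `f = ∑ aₙ tⁿ`. -/
noncomputable def component (N i : ℕ) (f : O[X]) : O[X] := contract N (divX^[i] f)

theorem coeff_component {N : ℕ} (hN : N ≠ 0) (i : ℕ) (f : O[X]) (k : ℕ) :
    (component N i f).coeff k = f.coeff (k * N + i) := by
  rw [component, coeff_contract hN, coeff_iterate_divX]

/-- The coefficients of `∑_{i < N} tⁱ cᵢ(t ^ N)`. -/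
theorem coeff_sum_X_pow_mul_expand {N : ℕ} (hN : 0 < N) (c : Fin N → O[X]) (n : ℕ) :
    (∑ i : Fin N, X ^ (i : ℕ) * expand O N (c i)).coeff n
      = (c ⟨n % N, Nat.mod_lt n hN⟩).coeff (n / N) := by
  rw [finsetSum_coeff, Finset.sum_eq_single (⟨n % N, Nat.mod_lt n hN⟩ : Fin N)]
  · have h1 : n % N ≤ n := Nat.mod_le n N
    have h2 : n - n % N = N * (n / N) := by
      have := Nat.mod_add_div n N
      omega
    rw [coeff_X_pow_mul', if_pos h1, coeff_expand hN, h2, if_pos (dvd_mul_right _ _),
      Nat.mul_div_cancel_left _ hN]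
  · intro i _ hi
    rw [coeff_X_pow_mul']
    split_ifs with h1
    · rw [coeff_expand hN, if_neg]
      rintro ⟨k, hk⟩
      apply hi
      apply Fin.ext
      have h3 : n = (i : ℕ) + N * k := by omega
      show (i : ℕ) = n % N
      rw [h3, Nat.add_mul_mod_self_left, Nat.mod_eq_of_lt i.isLt]
    · rfl
  · intro h
    exact absurd (Finset.mem_univ _) h

/-- `O[t] = ∑_{i < N} tⁱ O[t ^ N]`. -/
theorem eq_sum_X_pow_mul_expand {N : ℕ} (hN : 0 < N) (f : O[X]) :
    f = ∑ i : Fin N, X ^ (i : ℕ) * expand O N (component N i f) := by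
  ext n
  rw [coeff_sum_X_pow_mul_expand hN, coeff_component hN.ne', Nat.div_add_mod']

/-- The sum `O[t] = ⊕_{i < N} tⁱ O[t ^ N]` is direct. -/
theorem eq_zero_of_sum_X_pow_mul_expand_eq_zero {N : ℕ} (hN : 0 < N) (c : Fin N → O[X])
    (h : ∑ i : Fin N, X ^ (i : ℕ) * expand O N (c i) = 0) (i : Fin N) : c i = 0 := by
  ext k
  have h1 := coeff_sum_X_pow_mul_expand hN c (k * N + i)
  rw [h, coeff_zero] at h1
  have h2 : (k * N + (i : ℕ)) % N = i := by
    rw [Nat.mul_add_mod_self_right, Nat.mod_eq_of_lt i.isLt]
  have h3 : (k * N + (i : ℕ)) / N = k := by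
    rw [Nat.add_comm, Nat.add_mul_div_right _ _ hN, Nat.div_eq_of_lt i.isLt, zero_add]
  rw [coeff_zero, h1]
  congr 2
  · exact (Fin.ext h2).symm
  · exact h3.symm

end Decomposition

section Alg

/-- The ring `O[t]`, regarded as an algebra over `O[z]` via `z ↦ t ^ N`. -/
def KummerAlg (O : Type*) [CommRing O] (_N : ℕ) : Type _ := O[X]

variable (O : Type*) [CommRing O] (N : ℕ)

noncomputable instance : CommRing (KummerAlg O N) := inferInstanceAs (CommRing O[X])

noncomputable instance : Algebra O (KummerAlg O N) := inferInstanceAs (Algebra O O[X])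

noncomputable instance : Algebra O[X] (KummerAlg O N) := (expand O N).toRingHom.toAlgebra

instance : IsScalarTower O O[X] (KummerAlg O N) :=
  IsScalarTower.of_algebraMap_eq fun a => (expand_C N a).symm

instance [IsDomain O] : IsDomain (KummerAlg O N) := inferInstanceAs (IsDomain O[X])

variable {O N}

/-- The identification `O[t] → KummerAlg O N`. -/
def ofPoly (f : O[X]) : KummerAlg O N := f

/-- The identification `KummerAlg O N → O[t]`. -/
def toPoly (f : KummerAlg O N) : O[X] := f

theorem algebraMap_apply (p : O[X]) :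
    algebraMap O[X] (KummerAlg O N) p = ofPoly (expand O N p) := rfl

theorem smul_def' (p : O[X]) (f : KummerAlg O N) :
    p • f = ofPoly (expand O N p * toPoly f) := rfl

/-- The coordinate `t` of the Kummer chart. -/
noncomputable def tt : KummerAlg O N := ofPoly X

theorem algebraMap_X : algebraMap O[X] (KummerAlg O N) X = tt ^ N := expand_X N

/-- `1, t, …, t ^ (N - 1)` is a basis of `O[t]` over `O[z]`, `z = t ^ N`. -/
noncomputable def basis (hN : 0 < N) : Module.Basis (Fin N) O[X] (KummerAlg O N) :=
  Module.Basis.mk (v := fun i : Fin N => (tt : KummerAlg O N) ^ (i : ℕ))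
    (by
      rw [Fintype.linearIndependent_iff]
      intro g hg i
      refine eq_zero_of_sum_X_pow_mul_expand_eq_zero hN g ?_ i
      refine Eq.trans (Finset.sum_congr rfl fun i _ => ?_) hg
      rw [mul_comm]
      rfl)
    (by
      intro f _
      have hf : f = ∑ i : Fin N, component N i (toPoly f) • (tt : KummerAlg O N) ^ (i : ℕ) := by
        refine (eq_sum_X_pow_mul_expand hN (toPoly f)).trans ?_
        refine Finset.sum_congr rfl fun i _ => ?_
        rw [mul_comm]
        rfl
      rw [hf]
      exact Submodule.sum_mem _ fun i _ =>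
        Submodule.smul_mem _ _ (Submodule.subset_span ⟨i, rfl⟩))

theorem basis_apply (hN : 0 < N) (i : Fin N) :
    basis hN i = (tt : KummerAlg O N) ^ (i : ℕ) := by
  rw [basis, Module.Basis.mk_apply]

theorem free (hN : 0 < N) : Module.Free O[X] (KummerAlg O N) :=
  Module.Free.of_basis (basis hN)

theorem finite (hN : 0 < N) : Module.Finite O[X] (KummerAlg O N) :=
  Module.Finite.of_basis (basis hN)

theorem finrank_eq [Nontrivial O] (hN : 0 < N) : Module.finrank O[X] (KummerAlg O N) = N := by
  rw [Module.finrank_eq_card_basis (basis hN), Fintype.card_fin]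

end Alg

section Action

/-- The covering group `μ_N ⊂ O` of the Kummer chart (a copy of `rootsOfUnity N O`, so that its
action on `O[t]` by `t ↦ ζ t` does not clash with scalar multiplication by units). -/
def KummerGroup (O : Type*) [CommRing O] (N : ℕ) : Type _ := rootsOfUnity N O

variable {O : Type*} [CommRing O] {N : ℕ}

instance : CommGroup (KummerGroup O N) := inferInstanceAs (CommGroup (rootsOfUnity N O))

noncomputable instance [IsDomain O] [NeZero N] : Fintype (KummerGroup O N) :=
  @Fintype.ofFinite (rootsOfUnity N O) inferInstance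

/-- The root of unity in `O` underlying an element of the covering group. -/
def KummerGroup.val : KummerGroup O N →* O :=
  (Units.coeHom O).comp (rootsOfUnity N O).subtype

theorem KummerGroup.val_injective : Function.Injective (KummerGroup.val : KummerGroup O N → O) :=
  rootsOfUnity.coe_injective

theorem KummerGroup.val_pow (g : KummerGroup O N) : g.val ^ N = 1 := by
  have h : ((⟨g.1, g.2⟩ : rootsOfUnity N O) : Oˣ) ^ N = 1 := (mem_rootsOfUnity N g.1).mp g.2
  exact (Units.val_pow_eq_pow_val _ _).symm.trans ((congrArg Units.val h).trans Units.val_one)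

/-- The element of the covering group given by an `N`-th root of unity in `O`. -/
def KummerGroup.mk [NeZero N] (ζ : O) (h : ζ ^ N = 1) : KummerGroup O N :=
  rootsOfUnity.mkOfPowEq ζ h

theorem KummerGroup.val_mk [NeZero N] (ζ : O) (h : ζ ^ N = 1) : (KummerGroup.mk ζ h).val = ζ :=
  rfl

theorem KummerGroup.card_eq [IsDomain O] [NeZero N] {ζ : O} (hζ : IsPrimitiveRoot ζ N) :
    Fintype.card (KummerGroup O N) = N := by
  rw [← Nat.card_eq_fintype_card]
  exact hζ.card_rootsOfUnity

/-- The covering group `μ_N ⊂ O` acts on `O[t]` by `t ↦ ζ t`. -/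
noncomputable instance : MulSemiringAction (KummerGroup O N) (KummerAlg O N) where
  smul g f := ofPoly (scale g.val (toPoly f))
  one_smul f := (congrArg (fun ζ => scale ζ (toPoly f)) (map_one KummerGroup.val)).trans
    (scale_one (toPoly f))
  mul_smul g h f := (congrArg (fun ζ => scale ζ (toPoly f)) (map_mul KummerGroup.val g h)).trans
    (scale_scale _ _ (toPoly f)).symm
  smul_zero g := map_zero (scale g.val)
  smul_add g a b := map_add (scale g.val) (toPoly a) (toPoly b)
  smul_one g := map_one (scale g.val)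
  smul_mul g a b := map_mul (scale g.val) (toPoly a) (toPoly b)

theorem smul_def (g : KummerGroup O N) (f : KummerAlg O N) :
    g • f = ofPoly (scale g.val (toPoly f)) := rfl

theorem smul_tt (g : KummerGroup O N) :
    g • (tt : KummerAlg O N) = algebraMap O (KummerAlg O N) g.val * tt :=
  scale_X _

/-- The action is faithful. -/
theorem eq_one_of_smul_tt_eq {g : KummerGroup O N} (h : g • (tt : KummerAlg O N) = tt) :
    g = 1 := by
  have h1 : (C g.val * X : O[X]) = X := (scale_X _).symm.trans h
  have h2 := congrArg (fun p => coeff p 1) h1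
  simp only [coeff_C_mul, coeff_X_one, mul_one] at h2
  exact KummerGroup.val_injective (h2.trans (map_one KummerGroup.val).symm)

/-- The covering group acts by `O[z]`-algebra automorphisms. -/
theorem smul_algebraMap (g : KummerGroup O N) (p : O[X]) :
    g • algebraMap O[X] (KummerAlg O N) p = algebraMap O[X] (KummerAlg O N) p :=
  scale_expand g.val_pow p

instance : SMulCommClass (KummerGroup O N) O[X] (KummerAlg O N) :=
  ⟨fun g p f => by
    rw [Algebra.smul_def, Algebra.smul_def, smul_mul', smul_algebraMap]⟩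

/-- The invariants of the covering group are `O[z]`. -/
theorem exists_algebraMap_eq_of_smul_eq [IsDomain O] {ζ : O} (hζ : IsPrimitiveRoot ζ N)
    (hN : 0 < N) {f : KummerAlg O N} (hf : ∀ g : KummerGroup O N, g • f = f) :
    ∃ p : O[X], algebraMap O[X] (KummerAlg O N) p = f := by
  have : NeZero N := ⟨hN.ne'⟩
  exact exists_expand_eq_of_scale_eq hζ hN (hf (KummerGroup.mk ζ hζ.pow_eq_one))

/-- The norm of an element of `O[t]` lies in `O[z]`. -/
theorem exists_algebraMap_eq_prod_smul [IsDomain O] [NeZero N] {ζ : O}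
    (hζ : IsPrimitiveRoot ζ N) (f : KummerAlg O N) :
    ∃ p : O[X], algebraMap O[X] (KummerAlg O N) p = ∏ g : KummerGroup O N, g • f := by
  refine exists_algebraMap_eq_of_smul_eq hζ (Nat.pos_of_ne_zero (NeZero.ne N)) fun h => ?_
  rw [Finset.smul_prod']
  simp only [smul_smul]
  exact Fintype.prod_equiv (Equiv.mulLeft h) _ _ fun g => rfl

/-- `Y ^ N - z = ∏_{ζ ∈ μ_N} (Y - ζ t)`: the characteristic polynomial of `t` over `O[z]`. -/
theorem prod_X_sub_C_smul [IsDomain O] [NeZero N] {ζ : O} (hζ : IsPrimitiveRoot ζ N) :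
    ∏ g : KummerGroup O N, (X - C (g • (tt : KummerAlg O N)))
      = X ^ N - C (algebraMap O[X] (KummerAlg O N) X) := by
  classical
  have hN : 0 < N := Nat.pos_of_ne_zero (NeZero.ne N)
  set φ : O →+* (KummerAlg O N)[X] := (C : KummerAlg O N →+* _).comp (algebraMap O (KummerAlg O N))
    with hφ
  have hφinj : Function.Injective φ :=
    (C_injective).comp (C_injective : Function.Injective (C : O → O[X]))
  have hζ' : IsPrimitiveRoot (φ ζ) N := hζ.map_of_injective hφinj
  have himg : (Finset.univ.image fun g : KummerGroup O N => φ g.val)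
      = nthRootsFinset N (1 : (KummerAlg O N)[X]) := by
    refine Finset.eq_of_subset_of_card_le ?_ ?_
    · intro x hx
      obtain ⟨g, -, rfl⟩ := Finset.mem_image.mp hx
      rw [mem_nthRootsFinset hN, ← map_pow, g.val_pow, map_one]
    · rw [hζ'.card_nthRootsFinset, Finset.card_image_of_injective, Finset.card_univ,
        KummerGroup.card_eq hζ]
      exact hφinj.comp KummerGroup.val_injective
  rw [algebraMap_X, C_pow, hζ'.pow_sub_pow_eq_prod_sub_mul _ _ hN, ← himg,
    Finset.prod_image (fun a _ b _ h => KummerGroup.val_injective (hφinj h))]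
  refine Finset.prod_congr rfl fun g _ => ?_
  rw [smul_tt, C_mul]
  rfl

end Action

section MaximalIdeals

variable {O k : Type*} [CommRing O] [Field k]

/-- The kernel of `O[t] → k[t]` is generated by `π` when the kernel of `O → k` is. -/
theorem ker_mapRingHom_eq_span (res : O →+* k) (π : O)
    (hker : RingHom.ker res = Ideal.span {π}) :
    RingHom.ker (mapRingHom res) = Ideal.span {C π} := by
  rw [ker_mapRingHom, hker, Ideal.map_span, Set.image_singleton]

/-- The kernel of `O[t] → k`, `f ↦ f(c) mod π`, is `(π, t - c)`. -/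
theorem ker_evalRes_eq_span (res : O →+* k) (π : O)
    (hker : RingHom.ker res = Ideal.span {π}) (c : O) :
    RingHom.ker (res.comp (evalRingHom c)) = Ideal.span {C π, X - C c} := by
  refine le_antisymm ?_ ?_
  · intro f hf
    have h1 : f.eval c ∈ RingHom.ker res := hf
    rw [hker] at h1
    obtain ⟨a, ha⟩ := Ideal.mem_span_singleton.mp h1
    have h2 : f = C π * C a + (X - C c) * (f /ₘ (X - C c)) := by
      have h3 := modByMonic_add_div f (X - C c)
      rw [modByMonic_X_sub_C_eq_C_eval, ha, C_mul] at h3
      exact h3.symm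
    rw [h2]
    exact Ideal.add_mem _ (Ideal.mul_mem_right _ _ (Ideal.subset_span (by simp)))
      (Ideal.mul_mem_right _ _ (Ideal.subset_span (by simp)))
  · rw [Ideal.span_le]
    rintro x (rfl | rfl)
    · have h1 : π ∈ RingHom.ker res := by
        rw [hker]
        exact Ideal.subset_span rfl
      simpa using h1
    · simp

/-- `(π, t - c)` is a maximal ideal of `O[t]` when `O / π` is a field. -/
theorem span_pair_isMaximal (res : O →+* k) (hres : Function.Surjective res) (π : O)
    (hker : RingHom.ker res = Ideal.span {π}) (c : O) :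
    (Ideal.span {C π, X - C c} : Ideal O[X]).IsMaximal := by
  rw [← ker_evalRes_eq_span res π hker c]
  refine RingHom.ker_isMaximal_of_surjective _ fun y => ?_
  obtain ⟨a, rfl⟩ := hres y
  exact ⟨C a, by simp⟩

/-- If `O / π` is an algebraically closed field, every maximal ideal of `O[t]` containing `π`
is of the form `(π, t - c)`. -/
theorem exists_eq_span_pair_of_isMaximal [IsAlgClosed k] (res : O →+* k)
    (hres : Function.Surjective res) (π : O) (hker : RingHom.ker res = Ideal.span {π})
    (m : Ideal O[X]) [hm : m.IsMaximal] (hπ : C π ∈ m) :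
    ∃ c : O, m = Ideal.span {C π, X - C c} := by
  set φ : O[X] →+* k[X] := mapRingHom res with hφ
  have hφs : Function.Surjective φ := map_surjective res hres
  have hkerφ : RingHom.ker φ = Ideal.span {C π} := ker_mapRingHom_eq_span res π hker
  have hkm : RingHom.ker φ ≤ m := by
    rw [hkerφ, Ideal.span_singleton_le_iff_mem]
    exact hπ
  have hcomap : (m.map φ).comap φ = m := by
    rw [Ideal.comap_map_of_surjective φ hφs, ← RingHom.ker_eq_comap_bot, sup_eq_left.mpr hkm]
  have hm' : (m.map φ).IsMaximal := by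
    rcases Ideal.map_eq_top_or_isMaximal_of_surjective φ hφs hm with h | h
    · exfalso
      rw [h, Ideal.comap_top] at hcomap
      exact hm.ne_top hcomap.symm
    · exact h
  obtain ⟨p, hp⟩ : ∃ p, m.map φ = Ideal.span {p} :=
    (IsPrincipalIdealRing.principal (m.map φ)).principal
  have hpu : ¬ IsUnit p := fun h => hm'.ne_top (hp.trans (Ideal.span_singleton_eq_top.mpr h))
  have hp0 : p ≠ 0 := by
    rintro rfl
    have hX : Ideal.span {(X : k[X])} ≠ ⊤ := by
      rw [Ne, Ideal.span_singleton_eq_top]
      exact not_isUnit_X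
    have h1 := hm'.eq_of_le hX (by rw [hp]; simp)
    rw [hp] at h1
    have h2 : (X : k[X]) ∈ Ideal.span {(0 : k[X])} := h1 ▸ Ideal.subset_span rfl
    rw [Ideal.mem_span_singleton, zero_dvd_iff] at h2
    exact X_ne_zero h2
  have hdeg : p.degree ≠ 0 := fun h => hpu (isUnit_iff_degree_eq_zero.mpr h)
  obtain ⟨c', hc'⟩ := IsAlgClosed.exists_root p hdeg
  have hdvd : X - C c' ∣ p := dvd_iff_isRoot.mpr hc'
  have hle : m.map φ ≤ Ideal.span {X - C c'} := by
    rw [hp, Ideal.span_singleton_le_span_singleton]
    exact hdvd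
  have hne : Ideal.span {X - C c'} ≠ (⊤ : Ideal k[X]) := by
    rw [Ne, Ideal.span_singleton_eq_top]
    exact not_isUnit_X_sub_C c'
  have heq : m.map φ = Ideal.span {X - C c'} := hm'.eq_of_le hne hle
  obtain ⟨c, rfl⟩ := hres c'
  refine ⟨c, ?_⟩
  have hmax := span_pair_isMaximal res hres π hker c
  refine (hmax.eq_of_le hm.ne_top ?_).symm
  rw [Ideal.span_le]
  rintro x (rfl | rfl)
  · exact hπ
  · have h1 : X - C c ∈ (m.map φ).comap φ := by
      rw [Ideal.mem_comap, heq]
      apply Ideal.subset_span
      simp [hφ]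
    rw [hcomap] at h1
    exact h1

end MaximalIdeals

end Fermat.Agent.S18.KummerAct
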