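import Mathlib
import Fermat.Agent.S18.IgusaTop
import Fermat.Agent.S18.KummerAct

/-!
# S18, block [IGUSA], T8 glue: all closed points, and the chart as an integral closure over `O[y]`

OWNER: helper76 (only the owner edits this file).

* `exists_X_sub_C_mem`, `igusa_of_conclusion` : over a DVR `O` with algebraically closed residue
  field, every maximal ideal `n ∋ π` of `integralClosure O[y] F` contains some `y - c`; hence
  `(∀ c, IgusaTop.Conclusion F π c)` gives the Igusa statement at every such `n`.
* `isIntegral_iff`, `chartEquiv`, `igusaAt_of_integralClosure`, `igusaAt_of_conclusion` :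
  transport to a chart `R : Subalgebra O E` given as the integral closure of `O[t] ⊆ E`
  (`Algebra.adjoin O {t}`), where the `O[y]`-structure of `E` is `y ↦ t` (instance-agnostic: any
  `[Algebra O[X] E]` with `algebraMap (C a) = algebraMap a` and `algebraMap X = t`).
-/

set_option autoImplicit false

noncomputable section

namespace Fermat.Agent.S18.IgusaPts

open Polynomial Fermat.Agent.S18.IgusaTop

/-- A maximal ideal `n ∋ π` of a ring integral over `O[y]` (`O` a DVR with algebraically closed
residue field) contains `y - c` for some `c : O`. -/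
theorem exists_X_sub_C_mem {O : Type*} [CommRing O] [IsDomain O] [IsDiscreteValuationRing O]
    [IsAlgClosed (IsLocalRing.ResidueField O)] (π : O) (hπ : Irreducible π)
    {R : Type*} [CommRing R] [Algebra O[X] R] [Algebra.IsIntegral O[X] R]
    (n : Ideal R) [hn : n.IsMaximal] (hπn : algebraMap O[X] R (C π) ∈ n) :
    ∃ c : O, algebraMap O[X] R (X - C c) ∈ n := by
  have hm : (n.comap (algebraMap O[X] R)).IsMaximal :=
    Ideal.isMaximal_comap_of_isIntegral_of_isMaximal n
  have hker : RingHom.ker (IsLocalRing.residue O) = Ideal.span {π} := by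
    rw [IsLocalRing.ker_residue, hπ.maximalIdeal_eq]
  obtain ⟨c, hc⟩ := KummerAct.exists_eq_span_pair_of_isMaximal (IsLocalRing.residue O)
    IsLocalRing.residue_surjective π hker (n.comap (algebraMap O[X] R)) (Ideal.mem_comap.mpr hπn)
  refine ⟨c, ?_⟩
  have : X - C c ∈ n.comap (algebraMap O[X] R) := by
    rw [hc]
    exact Ideal.subset_span (by simp)
  exact Ideal.mem_comap.mp this

/-- All closed points of the special fibre: if `Conclusion F π c` holds for every `c : O`, then
every maximal ideal `n ∋ π` of `integralClosure O[y] F` is locally generated by `π` and one more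
element. -/
theorem igusa_of_conclusion {O : Type*} [CommRing O] [IsDomain O] [IsDiscreteValuationRing O]
    [IsAlgClosed (IsLocalRing.ResidueField O)] (F : Type*) [Field F] [Algebra O[X] F]
    (π : O) (hπ : Irreducible π) (h : ∀ c : O, Conclusion F π c)
    (n : Ideal (integralClosure O[X] F)) (hn : n.IsMaximal)
    (hπn : algebraMap O[X] (integralClosure O[X] F) (C π) ∈ n) :
    ∃ t ∈ n, ∀ z ∈ n, ∃ u, u ∉ n ∧
      u * z ∈ Ideal.span {algebraMap O[X] (integralClosure O[X] F) (C π), t} := by
  obtain ⟨c, hc⟩ := exists_X_sub_C_mem π hπ n hπn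
  exact h c n hn hπn hc

section Chart

variable {O E : Type*} [CommRing O] [CommRing E] [Algebra O E] [Algebra O[X] E]

/-- The `O[y]`-structure `y ↦ t` is evaluation at `t`. -/
theorem algebraMap_eq_aeval (t : E)
    (hC : ∀ a : O, algebraMap O[X] E (C a) = algebraMap O E a)
    (hX : algebraMap O[X] E X = t) (p : O[X]) : algebraMap O[X] E p = aeval t p := by
  have h : algebraMap O[X] E = (aeval t : O[X] →ₐ[O] E).toRingHom := by
    apply Polynomial.ringHom_ext
    · intro a
      rw [hC]
      simp
    · rw [hX]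
      simp
  rw [h]
  rfl

/-- Integrality over `O[y]` (acting through `y ↦ t`) is integrality over `O[t] ⊆ E`. -/
theorem isIntegral_iff (t : E)
    (hC : ∀ a : O, algebraMap O[X] E (C a) = algebraMap O E a)
    (hX : algebraMap O[X] E X = t) (x : E) :
    IsIntegral O[X] x ↔ IsIntegral (Algebra.adjoin O {t}) x := by
  let g : O[X] →+* Algebra.adjoin O {t} :=
    (aeval t : O[X] →ₐ[O] E).toRingHom.codRestrict (Algebra.adjoin O {t}).toSubring
      (fun p => aeval_mem_adjoin_singleton O t)
  have hg : (algebraMap (Algebra.adjoin O {t}) E).comp g = algebraMap O[X] E := by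
    ext p
    · simp only [RingHom.comp_apply, hC]
      change aeval t (C p) = _
      simp
    · simp only [RingHom.comp_apply, hX]
      change aeval t X = _
      simp
  have hgs : Function.Surjective g := by
    rintro ⟨y, hy⟩
    rw [Algebra.adjoin_singleton_eq_range_aeval] at hy
    obtain ⟨p, hp⟩ := hy
    exact ⟨p, Subtype.ext hp⟩
  constructor
  · rintro ⟨p, hp, hpx⟩
    refine ⟨p.map g, hp.map g, ?_⟩
    rw [eval₂_map, hg]
    exact hpx
  · rintro ⟨p, hp, hpx⟩
    have hlift : p ∈ Polynomial.lifts g := by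
      rw [lifts_iff_coeff_lifts]
      intro i
      exact hgs _
    obtain ⟨q, hq, -, hqm⟩ := lifts_and_natDegree_eq_and_monic hlift hp
    refine ⟨q, hqm, ?_⟩
    rw [← hg, ← eval₂_map, hq]
    exact hpx

/-- A chart `R` (the integral closure of `O[t]` in `E`, as a subalgebra over `O`) is the integral
closure of `O[y]` in `E`. -/
def chartEquiv (R : Subalgebra O E) (t : E)
    (hC : ∀ a : O, algebraMap O[X] E (C a) = algebraMap O E a)
    (hX : algebraMap O[X] E X = t)
    (hR : ∀ x : E, x ∈ R ↔ IsIntegral (Algebra.adjoin O {t}) x) :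
    R ≃+* integralClosure O[X] E where
  toFun z := ⟨z.1, (isIntegral_iff t hC hX z.1).mpr ((hR z.1).mp z.2)⟩
  invFun z := ⟨z.1, (hR z.1).mpr ((isIntegral_iff t hC hX z.1).mp z.2)⟩
  left_inv _ := rfl
  right_inv _ := rfl
  map_mul' _ _ := rfl
  map_add' _ _ := rfl

@[simp] theorem coe_chartEquiv (R : Subalgebra O E) (t : E)
    (hC : ∀ a : O, algebraMap O[X] E (C a) = algebraMap O E a)
    (hX : algebraMap O[X] E X = t)
    (hR : ∀ x : E, x ∈ R ↔ IsIntegral (Algebra.adjoin O {t}) x) (z : R) :
    ((chartEquiv R t hC hX hR z : integralClosure O[X] E) : E) = z := rfl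

@[simp] theorem coe_chartEquiv_symm (R : Subalgebra O E) (t : E)
    (hC : ∀ a : O, algebraMap O[X] E (C a) = algebraMap O E a)
    (hX : algebraMap O[X] E X = t)
    (hR : ∀ x : E, x ∈ R ↔ IsIntegral (Algebra.adjoin O {t}) x) (z : integralClosure O[X] E) :
    (((chartEquiv R t hC hX hR).symm z : R) : E) = z := rfl

theorem chartEquiv_algebraMap (R : Subalgebra O E) (t : E)
    (hC : ∀ a : O, algebraMap O[X] E (C a) = algebraMap O E a)
    (hX : algebraMap O[X] E X = t)
    (hR : ∀ x : E, x ∈ R ↔ IsIntegral (Algebra.adjoin O {t}) x) (a : O) :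
    chartEquiv R t hC hX hR (algebraMap O R a) = algebraMap O[X] (integralClosure O[X] E) (C a) :=
  Subtype.ext (hC a).symm

theorem chartEquiv_symm_algebraMap (R : Subalgebra O E) (t : E)
    (hC : ∀ a : O, algebraMap O[X] E (C a) = algebraMap O E a)
    (hX : algebraMap O[X] E X = t)
    (hR : ∀ x : E, x ∈ R ↔ IsIntegral (Algebra.adjoin O {t}) x) (a : O) :
    (chartEquiv R t hC hX hR).symm (algebraMap O[X] (integralClosure O[X] E) (C a)) =
      algebraMap O R a :=
  Subtype.ext (hC a)

/-- Transport of the Igusa statement from `integralClosure O[y] E` to the chart `R`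
(conclusion in the shape of `Arith.IgusaAt`). -/
theorem igusaAt_of_integralClosure (R : Subalgebra O E) (t : E)
    (hC : ∀ a : O, algebraMap O[X] E (C a) = algebraMap O E a)
    (hX : algebraMap O[X] E X = t)
    (hR : ∀ x : E, x ∈ R ↔ IsIntegral (Algebra.adjoin O {t}) x) (π : O)
    (h : ∀ n : Ideal (integralClosure O[X] E), n.IsMaximal →
      algebraMap O[X] (integralClosure O[X] E) (C π) ∈ n →
      ∃ s ∈ n, ∀ z ∈ n, ∃ u, u ∉ n ∧
        u * z ∈ Ideal.span {algebraMap O[X] (integralClosure O[X] E) (C π), s})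
    (n : Ideal R) (hn : n.IsMaximal) (hπn : algebraMap O R π ∈ n) :
    ∃ s ∈ n, ∀ x ∈ n, ∃ c : R, c ∉ n ∧ c * x ∈ Ideal.span {algebraMap O R π, s} := by
  set e := chartEquiv R t hC hX hR with he
  have hmax : (n.comap (e.symm : integralClosure O[X] E →+* R)).IsMaximal :=
    Ideal.comap_isMaximal_of_surjective _ e.symm.surjective
  have hπ' : algebraMap O[X] (integralClosure O[X] E) (C π) ∈
      n.comap (e.symm : integralClosure O[X] E →+* R) := by
    rw [Ideal.mem_comap]
    change e.symm _ ∈ n
    rw [he, chartEquiv_symm_algebraMap]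
    exact hπn
  obtain ⟨s', hs', hloc⟩ := h _ hmax hπ'
  refine ⟨e.symm s', hs', fun x hx => ?_⟩
  have hx' : e x ∈ n.comap (e.symm : integralClosure O[X] E →+* R) := by
    rw [Ideal.mem_comap]
    change e.symm (e x) ∈ n
    rw [RingEquiv.symm_apply_apply]
    exact hx
  obtain ⟨u, hu, huz⟩ := hloc (e x) hx'
  refine ⟨e.symm u, hu, ?_⟩
  rw [Ideal.mem_span_pair] at huz ⊢
  obtain ⟨a, b, hab⟩ := huz
  refine ⟨e.symm a, e.symm b, ?_⟩
  have := congrArg e.symm hab
  rw [map_add, map_mul, map_mul, map_mul, RingEquiv.symm_apply_apply, he,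
    chartEquiv_symm_algebraMap] at this
  exact this

end Chart

/-- **T8 glue.** `(∀ c, Conclusion E π c)` for the `O[y]`-structure `y ↦ t` gives the Igusa
statement (in the shape of `Arith.IgusaAt`) at every maximal ideal `n ∋ π` of the chart
`R = ` integral closure of `O[t]` in `E`. -/
theorem igusaAt_of_conclusion {O E : Type*} [CommRing O] [IsDomain O]
    [IsDiscreteValuationRing O] [IsAlgClosed (IsLocalRing.ResidueField O)]
    [Field E] [Algebra O E] [Algebra O[X] E] (R : Subalgebra O E) (t : E)
    (hC : ∀ a : O, algebraMap O[X] E (C a) = algebraMap O E a)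
    (hX : algebraMap O[X] E X = t)
    (hR : ∀ x : E, x ∈ R ↔ IsIntegral (Algebra.adjoin O {t}) x)
    (π : O) (hπ : Irreducible π) (h : ∀ c : O, Conclusion E π c)
    (n : Ideal R) (hn : n.IsMaximal) (hπn : algebraMap O R π ∈ n) :
    ∃ s ∈ n, ∀ x ∈ n, ∃ c : R, c ∉ n ∧ c * x ∈ Ideal.span {algebraMap O R π, s} :=
  igusaAt_of_integralClosure R t hC hX hR π
    (fun n' hn' hπn' => igusa_of_conclusion E π hπ h n' hn' hπn') n hn hπn

end Fermat.Agent.S18.IgusaPts
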