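import Mathlib
import Fermat.Agent.S18.IgusaInst
import Fermat.Agent.S18.IgusaPts

/-!
# S18, block [IGUSA], T8 glue: every closed point of the special fibre of a chart has a coordinate

OWNER: helper76 (only the owner edits this file).

In the vocabulary of `IgusaInst` (helper9): for a chart `chart N A K t` over the DVR `O = OK A K`
with algebraically closed residue field, every maximal ideal `n ∋ π` contains `t - c` for some
`c : O`.  Together with `IgusaInst.igusaAt_chart` (which needs `t - c ∈ n`) this covers all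
closed points of the special fibre.
-/

set_option autoImplicit false

namespace Fermat.Agent.S18.IgusaPtsChart

open Polynomial Fermat.Agent.S18.Arith Fermat.Agent.S18.IgusaInst

variable (N : ℕ) (A : ValuationSubring Qb) (K : IntermediateField ℚ Qb)

/-- Every maximal ideal `n ∋ π` of the chart with coordinate `t` contains `t - c` for some
`c : O`. -/
theorem exists_coord_sub_mem [IsDiscreteValuationRing (OK A K)]
    [IsAlgClosed (IsLocalRing.ResidueField (OK A K))] (t : FK N K)
    (π : OK A K) (hπ : Irreducible π) (n : Ideal (chart N A K t)) (hn : n.IsMaximal)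
    (hπn : algebraMap (OK A K) (chart N A K t) π ∈ n) :
    ∃ c : OK A K, (⟨t, Model.self_mem_chart N A K t⟩ : chart N A K t) -
      algebraMap (OK A K) (chart N A K t) c ∈ n := by
  set e := chartEquiv N A K t with he
  set f : integralClosure (OK A K)[X] (ChartF N K t) →+* chart N A K t := e.symm.toRingHom with hf
  have hfe : ∀ z, f (e z) = z := fun z => e.symm_apply_apply z
  let n' : Ideal (integralClosure (OK A K)[X] (ChartF N K t)) := n.comap f
  have hn' : n'.IsMaximal :=
    Ideal.comap_isMaximal_of_surjective f e.symm.surjective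
  have hmem : ∀ z, z ∈ n' ↔ f z ∈ n := fun z => Iff.rfl
  have hπ' : algebraMap (OK A K)[X] (integralClosure (OK A K)[X] (ChartF N K t)) (C π) ∈ n' := by
    rw [hmem, ← chartEquiv_algebraMap, hfe]
    exact hπn
  obtain ⟨c, hc⟩ := @IgusaPts.exists_X_sub_C_mem (OK A K) _ _ _ _ π hπ
    (integralClosure (OK A K)[X] (ChartF N K t)) _ _ _ n' hn' hπ'
  refine ⟨c, ?_⟩
  rw [hmem, ← chartEquiv_coord, hfe] at hc
  exact hc

/-- **All closed points of a chart.** If the conclusion of `IgusaInst.igusaAt_chart` holds for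
every `c : O`, then the chart satisfies `Arith.IgusaAt` at `π`. -/
theorem igusaAt_of_forall [IsDiscreteValuationRing (OK A K)]
    [IsAlgClosed (IsLocalRing.ResidueField (OK A K))] (t : FK N K)
    (π : OK A K) (hπ : Irreducible π)
    (h : ∀ c : OK A K, ∀ n : Ideal (chart N A K t), n.IsMaximal →
      algebraMap (OK A K) (chart N A K t) π ∈ n →
      (⟨t, Model.self_mem_chart N A K t⟩ : chart N A K t) -
          algebraMap (OK A K) (chart N A K t) c ∈ n →
      ∃ t' ∈ n, ∀ x ∈ n, ∃ u : chart N A K t, u ∉ n ∧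
        u * x ∈ Ideal.span {algebraMap (OK A K) (chart N A K t) π, t'})
    (n : Ideal (chart N A K t)) (hn : n.IsMaximal)
    (hπn : algebraMap (OK A K) (chart N A K t) π ∈ n) :
    ∃ t' ∈ n, ∀ x ∈ n, ∃ u : chart N A K t, u ∉ n ∧
      u * x ∈ Ideal.span {algebraMap (OK A K) (chart N A K t) π, t'} := by
  obtain ⟨c, hc⟩ := exists_coord_sub_mem N A K t π hπ n hn hπn
  exact h c n hn hπn hc

/-- The case `c = 0` (used at the chart at infinity, `t = j⁻¹`, for the points with `t ∈ n`):
the hypothesis `t - 0 ∈ n` of `IgusaInst.igusaAt_chart` in the form `t ∈ n`. -/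
theorem igusaAt_of_coord_mem (t : FK N K) (π : OK A K)
    (h : ∀ n : Ideal (chart N A K t), n.IsMaximal →
      algebraMap (OK A K) (chart N A K t) π ∈ n →
      (⟨t, Model.self_mem_chart N A K t⟩ : chart N A K t) -
          algebraMap (OK A K) (chart N A K t) 0 ∈ n →
      ∃ t' ∈ n, ∀ x ∈ n, ∃ u : chart N A K t, u ∉ n ∧
        u * x ∈ Ideal.span {algebraMap (OK A K) (chart N A K t) π, t'})
    (n : Ideal (chart N A K t)) (hn : n.IsMaximal)
    (hπn : algebraMap (OK A K) (chart N A K t) π ∈ n)
    (ht : (⟨t, Model.self_mem_chart N A K t⟩ : chart N A K t) ∈ n) :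
    ∃ t' ∈ n, ∀ x ∈ n, ∃ u : chart N A K t, u ∉ n ∧
      u * x ∈ Ideal.span {algebraMap (OK A K) (chart N A K t) π, t'} :=
  h n hn hπn (by rw [map_zero, sub_zero]; exact ht)

/-- Abstract form of the case `c = 0`: `Conclusion F π 0` at the maximal ideals containing `y`. -/
theorem igusa_of_conclusion_zero {O : Type*} [CommRing O] (F : Type*) [Field F] [Algebra O[X] F]
    (π : O) (h : IgusaTop.Conclusion F π 0)
    (n : Ideal (integralClosure O[X] F)) (hn : n.IsMaximal)
    (hπn : algebraMap O[X] (integralClosure O[X] F) (C π) ∈ n)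
    (hX : algebraMap O[X] (integralClosure O[X] F) X ∈ n) :
    ∃ t ∈ n, ∀ z ∈ n, ∃ u, u ∉ n ∧
      u * z ∈ Ideal.span {algebraMap O[X] (integralClosure O[X] F) (C π), t} :=
  h n hn hπn (by rw [map_zero, sub_zero]; exact hX)

end Fermat.Agent.S18.IgusaPtsChart
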