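import Mathlib
import Fermat.Agent.S18.IgusaCovers
import Fermat.Agent.S18.IgusaInst
import Fermat.Agent.S18.IgusaPtsChart
import Fermat.Agent.S18.IgusaTransfer
import Fermat.Agent.S18.ChartDeg
import Fermat.Agent.S18.ChartBase
import Fermat.Agent.S18.ChartHorBase
import Fermat.Agent.S18.ResOK

/-!
# S18 team library, block [IGUSA] T8 (C6): assembly of `Arith.IgusaStatement`

OWNER: helper65 (only the owner edits this file).

`igusaStatement_of_vert`: the arithmetic Igusa statement for both charts, from the single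
remaining chart input (C3) — the vertical input `IgusaTop.VertInput` of the chart field, stated
exactly as `ChartVert.vertInput_chart` — everything else being on the main branch:

* the abstract Igusa theorem for the three covers (`IgusaCovers.conclusion_hesse`,
  `conclusion_legendre`, `conclusion_kummer`);
* the chart dictionary (`IgusaInst.igusaAt_of_conclusion`), the closed points of the special
  fibre (`IgusaPtsChart.igusaAt_of_forall`, `igusaAt_of_coord_mem`) and the transfer to the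
  chart at infinity (`IgusaTransfer.igusaAt_inf`);
* (C1) `ChartDeg`, (C2) `ChartBase`, (C4) `ChartHorBase`, and `ResOK`.

Cover selection on the chart `y = j`: Legendre (`2 ∈ Oˣ`) when `ℓ = 3`, Hesse (`3 ∈ Oˣ`,
`ω ∈ O`) when `ℓ ≠ 3`; on the chart `y = 1/j`: Kummer (`ℓ ∤ N`, `ζ_N ∈ O`) at the cusp `y = 0`.
-/

set_option autoImplicit false

namespace Fermat.Agent.S18.IgusaAsm

open Polynomial ModularCurve Fermat.Agent.S18.Arith Fermat.Agent.S18.IgusaInst

/-- The shape of the chart input (C3) (`ChartVert.vertInput_chart`), as a `Prop`. -/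
def VertChart (N : ℕ) [NeZero N] (ℓ : ℕ) [Fact ℓ.Prime] : Prop :=
  ∀ (A : ValuationSubring Qb) (K : IntermediateField ℚ Qb), BaseFacts ℓ A K →
    A.LiesOverPrime ℓ → ∀ (t : FK N K), t = jK N K ∨ t = (jK N K)⁻¹ →
    ∀ [FaithfulSMul (OK A K)[X] (ChartF N K t)]
      [FiniteDimensional (FractionRing (OK A K)[X]) (ChartF N K t)],
      ChartFacts N A K (chart N A K t) t → ∀ π : OK A K, Irreducible π →
        IgusaTop.VertInput (FractionRing (OK A K)[X]) (ChartF N K t) π

variable (N : ℕ) [NeZero N] (ℓ : ℕ) [Fact ℓ.Prime]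

/-- The chart `y = j`: (I3) at every closed point of the special fibre. -/
theorem igusaAt_R0 (hV : VertChart N ℓ) (A : ValuationSubring Qb) (hA : A.LiesOverPrime ℓ)
    (K : IntermediateField ℚ Qb) (hB : BaseFacts ℓ A K) (hM : ModelFacts N ℓ A K) :
    IgusaAt N A K (R0 N ℓ A K) := by
  have := hB.dvr
  have := ResOK.isAlgClosed_residueField_OK ℓ A K hB
  have := ChartDeg.faithfulSMul_jK N A K
  have := (ChartDeg.finrank_chartF N A K (jK N K) (Or.inl rfl)).1
  intro π hπ n hn hπn
  have hVert : IgusaTop.VertInput (FractionRing (OK A K)[X]) (ChartF N K (jK N K)) π :=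
    hV A K hB hA (jK N K) (Or.inl rfl) hM.c0 π hπ
  have hconcl : ∀ c : OK A K, IgusaTop.Conclusion (ChartF N K (jK N K)) π c := by
    intro c
    by_cases h3 : ℓ = 3
    · have h2 : IsUnit (2 : OK A K) := by
        have := ChartBase.isUnit_natCast_OK ℓ A K hA 2 (by rw [h3]; norm_num)
        exact_mod_cast this
      exact IgusaCovers.conclusion_legendre (OK A K) (ChartF N K (jK N K)) h2 hπ c
        (ChartBase.phiO A K) (ChartBase.phiO_injective A K) (ChartBase.isAlgebraic_phiO A K)
        hVert (ChartHorBase.hH_fin N A K)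
    · obtain ⟨ω, hω⟩ := ChartBase.exists_omega_OK ℓ A K hB hA h3
      have h3u : IsUnit (3 : OK A K) := by
        have := ChartBase.isUnit_natCast_OK ℓ A K hA 3 (fun hd =>
          h3 ((Nat.prime_dvd_prime_iff_eq Fact.out Nat.prime_three).mp hd))
        exact_mod_cast this
      exact IgusaCovers.conclusion_hesse (OK A K) (ChartF N K (jK N K)) ω hω h3u hπ c
        (ChartBase.phiO A K) (ChartBase.phiO_injective A K) (ChartBase.isAlgebraic_phiO A K)
        hVert (ChartHorBase.hH_fin N A K)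
  exact IgusaPtsChart.igusaAt_of_forall N A K (jK N K) π hπ
    (fun c => igusaAt_of_conclusion N A K (jK N K) π c (hconcl c)) n hn hπn

/-- The chart `y = 1/j`: (I3) at the closed points of the special fibre over the cusp `y = 0`. -/
theorem igusaAt_cusp (hV : VertChart N ℓ) (hℓN : ¬ ℓ ∣ N) (A : ValuationSubring Qb)
    (hA : A.LiesOverPrime ℓ) (K : IntermediateField ℚ Qb) (hB : BaseFacts ℓ A K)
    (hM : ModelFacts N ℓ A K) (π : OK A K) (hπ : Irreducible π)
    (n : Ideal (Rinf N ℓ A K)) (hn : n.IsMaximal)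
    (hπn : algebraMap (OK A K) (Rinf N ℓ A K) π ∈ n)
    (hj : (⟨(jK N K)⁻¹, hM.cInf.t_mem⟩ : Rinf N ℓ A K) ∈ n) :
    ∃ t ∈ n, ∀ x ∈ n, ∃ c : Rinf N ℓ A K, c ∉ n ∧
      c * x ∈ Ideal.span {algebraMap (OK A K) (Rinf N ℓ A K) π, t} := by
  have := hB.dvr
  have := ResOK.isAlgClosed_residueField_OK ℓ A K hB
  have := ChartDeg.faithfulSMul_jKinv N A K
  have := (ChartDeg.finrank_chartF N A K (jK N K)⁻¹ (Or.inr rfl)).1
  have hVert : IgusaTop.VertInput (FractionRing (OK A K)[X]) (ChartF N K (jK N K)⁻¹) π :=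
    hV A K hB hA (jK N K)⁻¹ (Or.inr rfl) hM.cInf π hπ
  obtain ⟨ζ, hζ⟩ := ChartBase.exists_primitiveRoot_OK ℓ A K hB hA N hℓN
  have hconcl : IgusaTop.Conclusion (ChartF N K (jK N K)⁻¹) π 0 :=
    IgusaCovers.conclusion_kummer (OK A K) (ChartF N K (jK N K)⁻¹)
      (Nat.pos_of_ne_zero (NeZero.ne N)) hζ hπ
      (ChartBase.phiO A K) (ChartBase.phiO_injective A K) (ChartBase.isAlgebraic_phiO A K)
      hVert (ChartHorBase.hH_inf0 N A K) (ChartHorBase.hH_inf1 N A K)
  exact IgusaPtsChart.igusaAt_of_coord_mem N A K (jK N K)⁻¹ π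
    (igusaAt_of_conclusion N A K (jK N K)⁻¹ π 0 hconcl) n hn hπn hj

/-- **(C6)** `Arith.IgusaStatement` from the chart input (C3). -/
theorem igusaStatement_of_vert (hV : VertChart N ℓ) : IgusaStatement N ℓ := by
  intro hℓN A hA K hB hM
  have h0 := igusaAt_R0 N ℓ hV A hA K hB hM
  exact ⟨h0, IgusaTransfer.igusaAt_inf N ℓ A K hB hM h0
    (fun π hπ n hn hπn hj => igusaAt_cusp N ℓ hV hℓN A hA K hB hM π hπ n hn hπn hj)⟩

end Fermat.Agent.S18.IgusaAsm
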