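import Fermat.Agent.S18.IgusaPlan
import Fermat.Agent.S18.IgusaTop
import Fermat.Agent.S18.CoverLocPi
import Fermat.Agent.S18.TotTrace

/-!
# S18 [IGUSA]: the vertical hypothesis of `LocEt` at `R1 x c1`

OWNER: helper55.

`vertHyp_of_vertInput`: the global vertical input `IgusaTop.VertInput Ky F π` (a family `e` of
integral elements of `F` with discriminant prime to `C π`) gives the local vertical hypothesis
`IgusaPlan.VertHyp L (L ⊗[Ky] F) (piR x c1 π) n` at every point `c1` of the `x`-line with
`Den(c1)` a unit: take `c i := 1 ⊗ e i`.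
-/

set_option autoImplicit false

namespace Fermat.Agent.S18.IgusaVertBridge

open Polynomial TensorProduct Fermat.Agent.S18.CoverLocDef

universe u

variable {O : Type*} [CommRing O] [IsDomain O] [IsDiscreteValuationRing O]
  {Ky F L : Type u} [Field Ky] [Field F] [Field L]
  [Algebra O[X] Ky]
  [Algebra Ky F] [Algebra O[X] F] [IsScalarTower O[X] Ky F] [FiniteDimensional Ky F]
  [Algebra Ky L] [Algebra O[X] L] [IsScalarTower O[X] Ky L]

omit [IsDomain O] [IsDiscreteValuationRing O] [FiniteDimensional Ky F] in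
/-- `1 ⊗ f` is integral over `A0 = O[X]` (structure through `L`) when `f` is. -/
theorem isIntegral_one_tmul {f : F} (hf : IsIntegral O[X] f) :
    IsIntegral O[X] ((1 : L) ⊗ₜ[Ky] f) := by
  have h := IsIntegral.map_of_comp_eq (RingHom.id O[X])
    (Algebra.TensorProduct.includeRight (R := Ky) (A := L) (B := F)).toRingHom
    (RingHom.ext fun a => by
      simp only [RingHom.comp_apply, AlgHom.toRingHom_eq_coe, RingHom.coe_coe,
        Algebra.TensorProduct.includeRight_apply, RingHom.id_apply]
      rw [Algebra.TensorProduct.algebraMap_apply, IsScalarTower.algebraMap_apply O[X] Ky F,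
        IsScalarTower.algebraMap_apply O[X] Ky L, Algebra.algebraMap_eq_smul_one,
        TensorProduct.smul_tmul, ← Algebra.algebraMap_eq_smul_one])
    hf
  exact h

theorem vertHyp_of_vertInput (x : L) (Num Den : O[X]) (π c1 : O) (hπ : Irreducible π)
    (hcov : IgusaTop.CoverDatum Ky x Num Den) (hc1 : IsUnit (Den.eval c1))
    (hV : IgusaTop.VertInput Ky F π) :
    IgusaPlan.VertHyp L (L ⊗[Ky] F) (piR x c1 π) (Module.finrank Ky F) := by
  obtain ⟨e, d0, he, hd0, hπd0⟩ := hV
  refine ⟨fun i => (1 : L) ⊗ₜ[Ky] e i, fun i => ?_,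
    ofA0 x c1 Num Den hcov.y_eq hc1 d0, ?_, ?_⟩
  · exact isIntegral_R1_of_isIntegral x c1 Num Den hcov.y_eq hc1 (isIntegral_one_tmul (he i))
  · change algebraMap O[X] L d0 = _
    rw [IsScalarTower.algebraMap_apply O[X] Ky L, hd0, RingHom.map_det]
    congr 1
    ext i j
    simp only [RingHom.mapMatrix_apply, Matrix.map_apply, Matrix.of_apply, IgusaPlan.gram]
    rw [Algebra.TensorProduct.tmul_mul_tmul, one_mul, TotTrace.trace_left]
  · intro hdvd
    exact hπd0 (CoverLocPi.C_dvd_of_piR_dvd_ofA0 x hcov.inj c1 π hπ Num Den hcov.y_eq hc1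
      hcov.lc hcov.deg d0 hdvd)

end Fermat.Agent.S18.IgusaVertBridge
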