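import Mathlib

/-!
# S18 / [IGUSA] P2 : `s` is regular on `B / π B` for an integral closure `B`

`R` an integrally closed domain with fraction field `K`, `T` a `K`-algebra (not necessarily a
domain), `π, s ∈ R` with `R[1/π] ∩ R[1/s] = R`.  If `x, y ∈ T` are integral over `R` and
`s x = π y`, then `x = π u` with `u` integral over `R`.

Proof: `u := π⁻¹ x = s⁻¹ y`; the minimal polynomial `g` of `u` over `K` has the property that
`scaleRoots g π` and `scaleRoots g s` have coefficients in `R` (they divide monic integral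
polynomials, `IsIntegrallyClosed.eq_map_mul_C_of_dvd`), hence the coefficients of `g` lie in
`R[1/π] ∩ R[1/s] = R`.
-/

set_option autoImplicit false

namespace Fermat.Agent.S18.IntClReg

open Polynomial

/-- `R[1/π] ∩ R[1/s] = R` when `π` is prime and does not divide `s`. -/
theorem mem_of_pow_mul_mem_of_prime {R K : Type*} [CommRing R] [IsDomain R] [Field K]
    [Algebra R K] [IsFractionRing R K] (π s : R) (hπ : Prime π) (hs : ¬ π ∣ s) (a : K)
    (h1 : ∃ n : ℕ, ∃ r : R, algebraMap R K π ^ n * a = algebraMap R K r)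
    (h2 : ∃ n : ℕ, ∃ r : R, algebraMap R K s ^ n * a = algebraMap R K r) :
    ∃ r : R, a = algebraMap R K r := by
  obtain ⟨n, r1, h1⟩ := h1
  obtain ⟨k, r2, h2⟩ := h2
  have hinj := IsFractionRing.injective R K
  have h3 : s ^ k * r1 = π ^ n * r2 := by
    apply hinj
    rw [map_mul, map_mul, map_pow, map_pow, ← h1, ← h2]
    ring
  have h4 : π ^ n ∣ r1 :=
    hπ.pow_dvd_of_dvd_mul_left n (fun h => hs (hπ.dvd_of_dvd_pow h)) ⟨r2, h3⟩
  obtain ⟨r, rfl⟩ := h4
  refine ⟨r, ?_⟩
  have hπK : algebraMap R K π ^ n ≠ 0 :=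
    pow_ne_zero _ ((map_ne_zero_iff _ hinj).mpr hπ.ne_zero)
  apply mul_left_cancel₀ hπK
  rw [h1, map_mul, map_pow]

/-- If `c • u` is integral over the integrally closed domain `R` (`0 ≠ c ∈ R`, `u` in an algebra
over `K = Frac R`), the coefficients `a_i` of the minimal polynomial of `u` over `K` satisfy
`c ^ (d - i) a_i ∈ R`. -/
theorem exists_pow_mul_coeff_minpoly {R K T : Type*} [CommRing R] [IsDomain R]
    [IsIntegrallyClosed R] [Field K] [Algebra R K] [IsFractionRing R K] [CommRing T] [Algebra R T]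
    [Algebra K T] [IsScalarTower R K T] (c : R) (hc : c ≠ 0) (u : T) (hu : IsIntegral R (c • u))
    (i : ℕ) :
    IsIntegral K u ∧ ∃ r : R, algebraMap R K c ^ ((minpoly K u).natDegree - i) *
      (minpoly K u).coeff i = algebraMap R K r := by
  have hinj := IsFractionRing.injective R K
  have hcK : algebraMap R K c ≠ 0 := (map_ne_zero_iff _ hinj).mpr hc
  obtain ⟨f, hf, hfu⟩ := hu
  have hfK : (f.map (algebraMap R K)).Monic := hf.map _
  have h1 : aeval (c • u) (f.map (algebraMap R K)) = 0 := by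
    rw [aeval_map_algebraMap, aeval_def]
    exact hfu
  have h2 : algebraMap K T (algebraMap R K c)⁻¹ * (c • u) = u := by
    rw [Algebra.smul_def, IsScalarTower.algebraMap_apply R K T, ← mul_assoc, ← map_mul,
      inv_mul_cancel₀ hcK, map_one, one_mul]
  have h3 : aeval u ((f.map (algebraMap R K)).scaleRoots (algebraMap R K c)⁻¹) = 0 := by
    have := scaleRoots_aeval_eq_zero (r := (algebraMap R K c)⁻¹) h1
    rwa [h2] at this
  have huK : IsIntegral K u :=
    ⟨_, (monic_scaleRoots_iff _).mpr hfK, by rw [← aeval_def]; exact h3⟩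
  refine ⟨huK, ?_⟩
  have h4 : minpoly K u ∣ (f.map (algebraMap R K)).scaleRoots (algebraMap R K c)⁻¹ :=
    minpoly.dvd K u h3
  have h5 : (minpoly K u).scaleRoots (algebraMap R K c) ∣ f.map (algebraMap R K) := by
    have := scaleRoots_dvd _ _ (r := algebraMap R K c) h4
    rwa [← scaleRoots_mul, inv_mul_cancel₀ hcK, scaleRoots_one] at this
  obtain ⟨g', hg'⟩ := IsIntegrallyClosed.eq_map_mul_C_of_dvd K hf h5
  rw [leadingCoeff_scaleRoots, (minpoly.monic huK).leadingCoeff, map_one, mul_one] at hg'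
  refine ⟨g'.coeff i, ?_⟩
  rw [← coeff_map, hg', coeff_scaleRoots, mul_comm]

/-- P2: `s` is regular on `B / π B`, `B` the integral closure of `R` in the `K`-algebra `T`. -/
theorem exists_integral_smul_eq {R K T : Type*} [CommRing R] [IsDomain R] [IsIntegrallyClosed R]
    [Field K] [Algebra R K] [IsFractionRing R K] [CommRing T] [Algebra R T] [Algebra K T]
    [IsScalarTower R K T] (π s : R) (hπ : π ≠ 0) (hs : s ≠ 0)
    (hR : ∀ a : K, (∃ n : ℕ, ∃ r : R, algebraMap R K π ^ n * a = algebraMap R K r) →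
      (∃ n : ℕ, ∃ r : R, algebraMap R K s ^ n * a = algebraMap R K r) →
      ∃ r : R, a = algebraMap R K r)
    (x y : T) (hx : IsIntegral R x) (hy : IsIntegral R y) (hxy : s • x = π • y) :
    ∃ u : T, IsIntegral R u ∧ x = π • u := by
  have hinj := IsFractionRing.injective R K
  have hπK : algebraMap R K π ≠ 0 := (map_ne_zero_iff _ hinj).mpr hπ
  have hxu : π • (algebraMap K T (algebraMap R K π)⁻¹ * x) = x := by
    rw [Algebra.smul_def, IsScalarTower.algebraMap_apply R K T, ← mul_assoc, ← map_mul,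
      mul_inv_cancel₀ hπK, map_one, one_mul]
  have hyu : s • (algebraMap K T (algebraMap R K π)⁻¹ * x) = y := by
    rw [← mul_smul_comm, hxy, Algebra.smul_def, IsScalarTower.algebraMap_apply R K T, ← mul_assoc,
      ← map_mul, inv_mul_cancel₀ hπK, map_one, one_mul]
  refine ⟨algebraMap K T (algebraMap R K π)⁻¹ * x, ?_, hxu.symm⟩
  generalize algebraMap K T (algebraMap R K π)⁻¹ * x = u at hxu hyu
  have hπu : IsIntegral R (π • u) := hxu ▸ hx
  have hsu : IsIntegral R (s • u) := hyu ▸ hy
  have huK : IsIntegral K u := (exists_pow_mul_coeff_minpoly π hπ u hπu 0).1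
  have hlift : minpoly K u ∈ lifts (algebraMap R K) := by
    rw [lifts_iff_coeff_lifts]
    intro i
    obtain ⟨r, hr⟩ := hR ((minpoly K u).coeff i)
      ⟨_, (exists_pow_mul_coeff_minpoly π hπ u hπu i).2⟩
      ⟨_, (exists_pow_mul_coeff_minpoly s hs u hsu i).2⟩
    exact ⟨r, hr.symm⟩
  obtain ⟨q, hq, -, hqm⟩ := lifts_and_natDegree_eq_and_monic hlift (minpoly.monic huK)
  refine ⟨q, hqm, ?_⟩
  rw [← aeval_def, ← aeval_map_algebraMap K, hq, minpoly.aeval]

end Fermat.Agent.S18.IntClReg
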