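import Mathlib
import Fermat.Agent.S18.FreeCrit

/-!
# S18 : integrality from two localisations (blueprint [Igusa](i), lemma P2)

Let `R` be an integrally closed domain with fraction field `K`, `T` any commutative `K`-algebra
(not necessarily a field or a domain), and `π, s ∈ R` nonzero with `R[1/π] ∩ R[1/s] = R`
(in the form `a * s ^ n = b * π ^ n → π ^ n ∣ a`; e.g. `π` prime and `π ∤ s`).

* `isIntegral_of_isIntegral_smul_pair` : if `π • u` and `s • u` are integral over `R`, so is `u`.
* `exists_eq_smul_of_smul_eq_smul` (**P2**) : if `x, y` are integral over `R` and `s • x = π • y`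
  then `x = π • u` with `u` integral: `s` is a nonzerodivisor on `B / π B`, `B` the integral
  closure of `R` in `T`.
* `free_integralClosure` (**P1 + P2**) : if moreover `R` is Noetherian local with maximal ideal
  `(π, s)` and the integral closure `B` of `R` in `T` is a finite `R`-module, then `B` is free.

Proof of the first statement: the minimal polynomial `μ` of `u` over `K` divides the monic
polynomial obtained from an integral equation of `a • u` (`a = π` or `s`) by scaling roots, so by
Gauss's lemma for integrally closed domains `a ^ (d - i) * μ.coeff i ∈ R`; with `a = π` and `a = s`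
this forces `μ.coeff i ∈ R`.
-/

set_option autoImplicit false

namespace Fermat.Agent.S18.IntClosedPair

open Polynomial

/-- If `π` is prime and `π ∤ s` then `a * s ^ n = b * π ^ n` implies `π ^ n ∣ a`. -/
theorem pow_dvd_of_prime {R : Type*} [CommRing R] [IsDomain R] {π s : R} (hp : Prime π)
    (hps : ¬ π ∣ s) (a b : R) (n : ℕ) (h : a * s ^ n = b * π ^ n) : π ^ n ∣ a :=
  hp.pow_dvd_of_dvd_mul_right n (fun hd => hps (hp.dvd_of_dvd_pow hd)) ⟨b, by rw [h, mul_comm]⟩

section Core

/-- If `a • u` is integral over the integrally closed domain `R` (`a ≠ 0`), then `u` is algebraic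
over `K = Frac R` and its minimal polynomial with roots scaled by `a` has coefficients in `R`. -/
theorem scaleRoots_minpoly_mem_lifts {R : Type*} (K : Type*) {T : Type*} [CommRing R]
    [IsIntegrallyClosed R] [Field K] [Algebra R K] [IsFractionRing R K] [CommRing T] [Algebra R T]
    [Algebra K T] [IsScalarTower R K T] [Nontrivial T] (a : R) (ha : a ≠ 0) (u : T)
    (h : IsIntegral R (a • u)) :
    IsIntegral K u ∧
      ∃ g : R[X], g.map (algebraMap R K) = (minpoly K u).scaleRoots (algebraMap R K a) := by
  obtain ⟨f, hf, hfu⟩ := h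
  have haK0 : algebraMap R K a ≠ 0 := (map_ne_zero_iff _ (IsFractionRing.injective R K)).mpr ha
  have hfu' : aeval (a • u) (f.map (algebraMap R K)) = 0 := by
    rw [aeval_map_algebraMap]
    exact hfu
  have hu : algebraMap K T (algebraMap R K a)⁻¹ * a • u = u := by
    rw [← algebraMap_smul K a u, ← Algebra.smul_def, smul_smul, inv_mul_cancel₀ haK0, one_smul]
  have h1 : aeval u ((f.map (algebraMap R K)).scaleRoots (algebraMap R K a)⁻¹) = 0 := by
    have h := scaleRoots_aeval_eq_zero (A := T) (r := (algebraMap R K a)⁻¹) hfu'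
    rwa [hu] at h
  have hint : IsIntegral K u :=
    ⟨_, (monic_scaleRoots_iff _).mpr (hf.map (algebraMap R K)), h1⟩
  refine ⟨hint, ?_⟩
  have h2 : minpoly K u ∣ (f.map (algebraMap R K)).scaleRoots (algebraMap R K a)⁻¹ :=
    minpoly.dvd K u h1
  have h3 : (minpoly K u).scaleRoots (algebraMap R K a) ∣ f.map (algebraMap R K) := by
    have h := scaleRoots_dvd (r := algebraMap R K a) _ _ h2
    rwa [← scaleRoots_mul, inv_mul_cancel₀ haK0, scaleRoots_one] at h
  obtain ⟨g, hg⟩ := IsIntegrallyClosed.eq_map_mul_C_of_dvd K hf h3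
  refine ⟨g, ?_⟩
  have hmonic : ((minpoly K u).scaleRoots (algebraMap R K a)).Monic :=
    (monic_scaleRoots_iff _).mpr (minpoly.monic hint)
  rw [hmonic.leadingCoeff, C_1, mul_one] at hg
  exact hg

/-- If `π • u` and `s • u` are integral over `R` and `R[1/π] ∩ R[1/s] = R`, then `u` is
integral over `R`. -/
theorem isIntegral_of_isIntegral_smul_pair {R : Type*} (K : Type*) {T : Type*} [CommRing R]
    [IsDomain R] [IsIntegrallyClosed R] [Field K] [Algebra R K] [IsFractionRing R K] [CommRing T]
    [Algebra R T] [Algebra K T] [IsScalarTower R K T] (π s : R) (hπ : π ≠ 0) (hs : s ≠ 0)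
    (hcop : ∀ (a b : R) (n : ℕ), a * s ^ n = b * π ^ n → π ^ n ∣ a) (u : T)
    (h1 : IsIntegral R (π • u)) (h2 : IsIntegral R (s • u)) : IsIntegral R u := by
  rcases subsingleton_or_nontrivial T with hT | hT
  · rw [Subsingleton.elim u 0]
    exact isIntegral_zero
  obtain ⟨hint, g1, hg1⟩ := scaleRoots_minpoly_mem_lifts K π hπ u h1
  obtain ⟨-, g2, hg2⟩ := scaleRoots_minpoly_mem_lifts K s hs u h2
  have hπK : algebraMap R K π ≠ 0 := (map_ne_zero_iff _ (IsFractionRing.injective R K)).mpr hπ
  have hcoef : ∀ i, ∃ r : R, algebraMap R K r = (minpoly K u).coeff i := by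
    intro i
    have e1 := congrArg (fun p => p.coeff i) hg1
    have e2 := congrArg (fun p => p.coeff i) hg2
    simp only [coeff_map, coeff_scaleRoots] at e1 e2
    have e3 : g1.coeff i * s ^ ((minpoly K u).natDegree - i) =
        g2.coeff i * π ^ ((minpoly K u).natDegree - i) := by
      apply IsFractionRing.injective R K
      rw [map_mul, map_mul, map_pow, map_pow, e1, e2]
      ring
    obtain ⟨r, hr⟩ := hcop _ _ _ e3
    refine ⟨r, ?_⟩
    have h : algebraMap R K r * algebraMap R K π ^ ((minpoly K u).natDegree - i) =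
        (minpoly K u).coeff i * algebraMap R K π ^ ((minpoly K u).natDegree - i) := by
      rw [← e1, hr, map_mul, map_pow]
      ring
    exact mul_right_cancel₀ (pow_ne_zero _ hπK) h
  have hlift : minpoly K u ∈ Polynomial.lifts (algebraMap R K) :=
    (lifts_iff_coeff_lifts _).mpr fun i => by
      obtain ⟨r, hr⟩ := hcoef i
      exact ⟨r, hr⟩
  obtain ⟨q, hq, -, hqmonic⟩ := lifts_and_degree_eq_and_monic hlift (minpoly.monic hint)
  refine ⟨q, hqmonic, ?_⟩
  have h : aeval u (q.map (algebraMap R K)) = 0 := by
    rw [hq]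
    exact minpoly.aeval K u
  rwa [aeval_map_algebraMap] at h

/-- **P2.** If `x, y` are integral over `R` and `s • x = π • y`, then `x = π • u` with `u`
integral over `R`. -/
theorem exists_eq_smul_of_smul_eq_smul {R : Type*} (K : Type*) {T : Type*} [CommRing R]
    [IsDomain R] [IsIntegrallyClosed R] [Field K] [Algebra R K] [IsFractionRing R K] [CommRing T]
    [Algebra R T] [Algebra K T] [IsScalarTower R K T] (π s : R) (hπ : π ≠ 0) (hs : s ≠ 0)
    (hcop : ∀ (a b : R) (n : ℕ), a * s ^ n = b * π ^ n → π ^ n ∣ a) (x y : T)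
    (hx : IsIntegral R x) (hy : IsIntegral R y) (h : s • x = π • y) :
    ∃ u : T, IsIntegral R u ∧ x = π • u := by
  have hπK : algebraMap R K π ≠ 0 := (map_ne_zero_iff _ (IsFractionRing.injective R K)).mpr hπ
  have e1 : π • ((algebraMap R K π)⁻¹ • x) = x := by
    rw [← algebraMap_smul K π ((algebraMap R K π)⁻¹ • x), smul_smul, mul_inv_cancel₀ hπK,
      one_smul]
  have e2 : s • ((algebraMap R K π)⁻¹ • x) = y := by
    rw [smul_comm, h, ← algebraMap_smul K π y, smul_smul, inv_mul_cancel₀ hπK, one_smul]
  refine ⟨(algebraMap R K π)⁻¹ • x, ?_, e1.symm⟩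
  exact isIntegral_of_isIntegral_smul_pair K π s hπ hs hcop _ (e1.symm ▸ hx) (e2.symm ▸ hy)

end Core

/-- **P1 + P2.** Let `R` be a Noetherian local integrally closed domain whose maximal ideal is
`(π, s)` with `π` prime and `π ∤ s`, and let `T` be an algebra over `K = Frac R` such that the
integral closure of `R` in `T` is a finite `R`-module. Then this integral closure is a free
`R`-module. -/
theorem free_integralClosure {R : Type*} (K : Type*) {T : Type*} [CommRing R] [IsDomain R] [IsIntegrallyClosed R]
    [IsLocalRing R] [IsNoetherianRing R] [Field K] [Algebra R K] [IsFractionRing R K]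
    [CommRing T] [Algebra R T] [Algebra K T] [IsScalarTower R K T] (π s : R)
    (hm : IsLocalRing.maximalIdeal R = Ideal.span {π, s}) (hp : Prime π) (hps : ¬ π ∣ s)
    [Module.Finite R (integralClosure R T)] : Module.Free R (integralClosure R T) := by
  have hπ0 : π ≠ 0 := hp.ne_zero
  have hs0 : s ≠ 0 := fun h => hps (h ▸ dvd_zero π)
  have hπK : algebraMap R K π ≠ 0 := (map_ne_zero_iff _ (IsFractionRing.injective R K)).mpr hπ0
  refine FreeCrit.free_of_regular_pair π s hm ?_ ?_
  · intro x hx
    have h1 : π • (x : T) = 0 := congrArg Subtype.val hx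
    have h3 : (algebraMap R K π)⁻¹ • (algebraMap R K π • (x : T)) = 0 := by
      rw [algebraMap_smul, h1, smul_zero]
    rw [smul_smul, inv_mul_cancel₀ hπK, one_smul] at h3
    exact Subtype.ext h3
  · rintro x ⟨y, hxy⟩
    have h1 : s • (x : T) = π • (y : T) := congrArg Subtype.val hxy
    obtain ⟨u, hu, hxu⟩ := exists_eq_smul_of_smul_eq_smul K π s hπ0 hs0
      (pow_dvd_of_prime hp hps) (x : T) (y : T) x.2 y.2 h1
    exact ⟨⟨u, hu⟩, Subtype.ext hxu⟩

end Fermat.Agent.S18.IntClosedPair
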