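import Mathlib
import Fermat.Agent.S18.IgusaTop
import Fermat.Agent.S18.KummerDatum
import Fermat.Agent.S18.KummerHor

/-!
# S18 : the abstract Igusa theorem on the cusp chart (`y = 1/j`, `c = 0`) through the Kummer cover

`conclusion_zero`: `IgusaTop.IgusaAbs` applied to the Kummer cover datum.  Everything that does
not mention the concrete function field: `O` a DVR of characteristic zero with algebraically
closed residue field containing a primitive `N`-th root of unity, `F` a finite extension of
`Ky := FractionRing O[X]` (variable `y`), the vertical input and hypothesis (H) at `a = 0`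
(order `N`) and at algebraic `a ≠ 0`, `1728·a ≠ 1` (order `1`).
-/

set_option autoImplicit false

namespace Fermat.Agent.S18.KummerInst

open Polynomial
open Fermat.Agent.S18

/-- **The cusp chart at `c = 0`.** -/
theorem conclusion_zero (hIg : IgusaTop.IgusaAbs)
    (O : Type) [CommRing O] [IsDomain O] [IsDiscreteValuationRing O] [CharZero O]
    [IsAlgClosed (IsLocalRing.ResidueField O)]
    (F : Type) [Field F] [Algebra O[X] F] [Algebra (FractionRing O[X]) F]
    [IsScalarTower O[X] (FractionRing O[X]) F] [FiniteDimensional (FractionRing O[X]) F]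
    {N : ℕ} (hN : 0 < N) {ζ : O} (hζ : IsPrimitiveRoot ζ N) (π : O) (hπ : Irreducible π)
    (φ : O →+* ℂ) (hφ : Function.Injective φ) (hφalg : ∀ o : O, IsAlgebraic ℚ (φ o))
    (hV : IgusaTop.VertInput (FractionRing O[X]) F π)
    (hH0 : ∃ T : PowerSeries ℂ, T.order = N ∧
      ∃ ι : Fin (Module.finrank (FractionRing O[X]) F) → (F →+* LaurentSeries ℂ),
        Function.Injective ι ∧
        (∀ i (o : O), ι i (algebraMap O[X] F (C o)) = HahnSeries.C (φ o)) ∧
        ∀ i, ι i (algebraMap O[X] F X) = HahnSeries.ofPowerSeries ℤ ℂ (PowerSeries.C 0 + T))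
    (hH1 : ∀ a : ℂ, IsAlgebraic ℚ a → a ≠ 0 → 1728 * a ≠ 1 →
      ∃ T : PowerSeries ℂ, T.order = 1 ∧
      ∃ ι : Fin (Module.finrank (FractionRing O[X]) F) → (F →+* LaurentSeries ℂ),
        Function.Injective ι ∧
        (∀ i (o : O), ι i (algebraMap O[X] F (C o)) = HahnSeries.C (φ o)) ∧
        ∀ i, ι i (algebraMap O[X] F X) = HahnSeries.ofPowerSeries ℤ ℂ (PowerSeries.C a + T)) :
    IgusaTop.Conclusion F π 0 :=
  hIg O (FractionRing O[X]) F (CoverGen.CoverField (KummerChart.data O N hN))
    (CoverGen.xc (KummerChart.data O N hN)) (X ^ N) 1 π 0 φ hπ hφ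
    (KummerDatum.coverDatum hN hζ) hV
    (KummerHor.horInput (FractionRing O[X]) F hN hπ φ hφ hφalg hH0 hH1)

end Fermat.Agent.S18.KummerInst
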