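/-
S18 block [IGUSA] A-cov (spare, AdjoinRoot model): the Legendre algebra
`A[λ] / ((λ²-λ+1)³ - c λ²(λ-1)²)` over an arbitrary base `(A, c)`, `c = j/256`, with the action of
the anharmonic group `S₃ = DihedralGroup 3`, the product formula and the invariants.
-/
import Fermat.Agent.S18.LegendreId

set_option autoImplicit false

noncomputable section

namespace Fermat.Agent.S18.Legendre

open Polynomial

section Alg

variable (A : Type*) [CommRing A] (c : A)

/-- The Legendre algebra `A[λ] / ((λ²-λ+1)³ - c λ²(λ-1)²)`, free of rank `6` over `A`. -/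
abbrev LegAlg : Type _ := AdjoinRoot (legPoly A c)

/-- The coordinate `λ`. -/
def lam : LegAlg A c := AdjoinRoot.root (legPoly A c)

variable {A c}

theorem legE_lam : legE (algebraMap A (LegAlg A c) c) (lam A c) = 0 := by
  have h := AdjoinRoot.eval₂_root (legPoly A c)
  rw [eval₂_legPoly] at h
  exact h

/-- The defining relation in the form `(λ²-λ+1)³ = c λ²(λ-1)²`. -/
theorem lam_rel :
    (lam A c ^ 2 - lam A c + 1) ^ 3 =
      algebraMap A (LegAlg A c) c * (lam A c ^ 2 * (lam A c - 1) ^ 2) := by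
  have h := legE_lam (A := A) (c := c)
  unfold legE at h
  exact sub_eq_zero.mp h

variable (A c)

/-- The inverse of `λ`. -/
def lamInv : LegAlg A c :=
  -(lam A c - 1) * ((lam A c ^ 2 - lam A c) ^ 2 + 3 * (lam A c ^ 2 - lam A c) + 3 -
    algebraMap A (LegAlg A c) c * (lam A c ^ 2 - lam A c))

/-- The inverse of `1 - λ`. -/
def omlInv : LegAlg A c :=
  lam A c * ((lam A c ^ 2 - lam A c) ^ 2 + 3 * (lam A c ^ 2 - lam A c) + 3 -
    algebraMap A (LegAlg A c) c * (lam A c ^ 2 - lam A c))

variable {A c}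

theorem lam_mul_lamInv : lam A c * lamInv A c = 1 := by
  have h := legE_lam (A := A) (c := c)
  unfold legE at h
  unfold lamInv
  linear_combination (-1 : LegAlg A c) * h

theorem oml_mul_omlInv : (1 - lam A c) * omlInv A c = 1 := by
  have h := legE_lam (A := A) (c := c)
  unfold legE at h
  unfold omlInv
  linear_combination (-1 : LegAlg A c) * h

theorem isUnit_lam : IsUnit (lam A c) := IsUnit.of_mul_eq_one _ lam_mul_lamInv

theorem isUnit_oml : IsUnit (1 - lam A c) := IsUnit.of_mul_eq_one _ oml_mul_omlInv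

theorem isUnit_lam_sub_one : IsUnit (lam A c - 1) := by
  have : lam A c - 1 = -(1 - lam A c) := by ring
  rw [this]
  exact isUnit_oml.neg

/-- Uniqueness of inverses, in the form used below. -/
theorem eq_of_mul_eq_one {B : Type*} [CommRing B] {a b b' : B} (h : a * b = 1) (h' : a * b' = 1) :
    b = b' := by
  calc b = b * (a * b') := by rw [h', mul_one]
    _ = (a * b) * b' := by ring
    _ = b' := by rw [h, one_mul]

/-- Algebra maps out of the Legendre algebra. -/
def lift {B : Type*} [CommRing B] [Algebra A B] (y : B) (h : legE (algebraMap A B c) y = 0) :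
    LegAlg A c →ₐ[A] B :=
  AdjoinRoot.liftAlgHom (legPoly A c) (Algebra.ofId A B) y (by
    rw [eval₂_legPoly]; exact h)

@[simp]
theorem lift_lam {B : Type*} [CommRing B] [Algebra A B] (y : B)
    (h : legE (algebraMap A B c) y = 0) : lift y h (lam A c) = y := by
  unfold lift lam
  exact AdjoinRoot.liftAlgHom_root _ _ _ _

theorem algHom_ext {B : Type*} [CommRing B] [Algebra A B] {f g : LegAlg A c →ₐ[A] B}
    (h : f (lam A c) = g (lam A c)) : f = g :=
  AdjoinRoot.algHom_ext h

theorem legE_algHom {B : Type*} [CommRing B] [Algebra A B] (f : LegAlg A c →ₐ[A] B) :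
    legE (algebraMap A B c) (f (lam A c)) = 0 := by
  have h := AdjoinRoot.aeval_algHom_eq_zero (legPoly A c) f
  rw [aeval_legPoly] at h
  exact h

end Alg

/-! ### Homomorphisms out of a dihedral group -/

section Dihedral

variable {H : Type*} [Group H] {n : ℕ} [NeZero n]

/-- `i ↦ ρ ^ i` on `ZMod n`. -/
def zmodPow (ρ : H) (i : ZMod n) : H := ρ ^ i.val

theorem zmodPow_add {ρ : H} (hρ : ρ ^ n = 1) (i j : ZMod n) :
    zmodPow ρ (i + j) = zmodPow ρ i * zmodPow ρ j := by
  unfold zmodPow
  rw [ZMod.val_add, ← pow_add, ← pow_eq_pow_mod _ hρ]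

omit [NeZero n] in
theorem zmodPow_zero (ρ : H) : zmodPow ρ (0 : ZMod n) = 1 := by
  unfold zmodPow
  rw [ZMod.val_zero, pow_zero]

theorem zmodPow_sub {ρ : H} (hρ : ρ ^ n = 1) (i j : ZMod n) :
    zmodPow ρ (j - i) = (zmodPow ρ i)⁻¹ * zmodPow ρ j := by
  have h := zmodPow_add hρ i (j - i)
  rw [add_sub_cancel] at h
  rw [h, inv_mul_cancel_left]

omit [NeZero n] in
theorem zmodPow_comm (ρ : H) (i j : ZMod n) :
    zmodPow ρ i * zmodPow ρ j = zmodPow ρ j * zmodPow ρ i := by
  unfold zmodPow
  rw [← pow_add, ← pow_add, add_comm]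

omit [NeZero n] in
theorem zmodPow_mul_s {ρ s : H} (hs : s * s = 1) (hsρ : s * ρ * s = ρ⁻¹) (i : ZMod n) :
    zmodPow ρ i * s = s * (zmodPow ρ i)⁻¹ := by
  have hsinv : s⁻¹ = s := inv_eq_of_mul_eq_one_right hs
  have h1 : s * ρ ^ i.val * s = (ρ ^ i.val)⁻¹ := by
    have := conj_pow (a := s) (b := ρ) (i := i.val)
    rw [hsinv, hsρ, inv_pow] at this
    exact this.symm
  unfold zmodPow
  calc ρ ^ i.val * s = s * (s * ρ ^ i.val * s) := by
        rw [← mul_assoc, ← mul_assoc, hs, one_mul]
    _ = _ := by rw [h1]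

/-- The homomorphism `DihedralGroup n → H` attached to a dihedral pair `(ρ, s)`. -/
def dihLift (ρ s : H) (hρ : ρ ^ n = 1) (hs : s * s = 1) (hsρ : s * ρ * s = ρ⁻¹) :
    DihedralGroup n →* H :=
  MonoidHom.mk' (fun g => match g with
    | DihedralGroup.r i => zmodPow ρ i
    | DihedralGroup.sr i => s * zmodPow ρ i) (by
    intro a b
    rcases a with i | i <;> rcases b with j | j
    · simp only [DihedralGroup.r_mul_r]
      exact zmodPow_add hρ i j
    · simp only [DihedralGroup.r_mul_sr]
      rw [zmodPow_sub hρ, ← mul_assoc, ← mul_assoc, zmodPow_mul_s hs hsρ]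
    · simp only [DihedralGroup.sr_mul_r]
      rw [zmodPow_add hρ, mul_assoc]
    · simp only [DihedralGroup.sr_mul_sr]
      rw [zmodPow_sub hρ]
      calc (zmodPow ρ i)⁻¹ * zmodPow ρ j
          = s * s * ((zmodPow ρ i)⁻¹ * zmodPow ρ j) := by rw [hs, one_mul]
        _ = s * (s * (zmodPow ρ i)⁻¹) * zmodPow ρ j := by simp only [mul_assoc]
        _ = s * zmodPow ρ i * (s * zmodPow ρ j) := by
            rw [← zmodPow_mul_s hs hsρ]; simp only [mul_assoc])

@[simp]
theorem dihLift_r (ρ s : H) (hρ : ρ ^ n = 1) (hs : s * s = 1) (hsρ : s * ρ * s = ρ⁻¹)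
    (i : ZMod n) : dihLift ρ s hρ hs hsρ (DihedralGroup.r i) = ρ ^ i.val := rfl

@[simp]
theorem dihLift_sr (ρ s : H) (hρ : ρ ^ n = 1) (hs : s * s = 1) (hsρ : s * ρ * s = ρ⁻¹)
    (i : ZMod n) : dihLift ρ s hρ hs hsρ (DihedralGroup.sr i) = s * ρ ^ i.val := rfl

end Dihedral

/-! ### The anharmonic group acting on the Legendre algebra -/

section Aut

variable (A : Type*) [CommRing A] (c : A)

/-- `λ ↦ 1 - λ`. -/
def sigmaHom : LegAlg A c →ₐ[A] LegAlg A c :=
  lift (1 - lam A c) (by rw [legE_one_sub]; exact legE_lam)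

/-- `λ ↦ 1/λ`. -/
def tauHom : LegAlg A c →ₐ[A] LegAlg A c :=
  lift (lamInv A c) (by
    have h := legE_inv (c := algebraMap A (LegAlg A c) c) (lam_mul_lamInv (A := A) (c := c))
    rw [legE_lam] at h
    have h2 : legE (algebraMap A (LegAlg A c) c) (lamInv A c) =
        lamInv A c ^ 6 * (lam A c ^ 6 * legE (algebraMap A (LegAlg A c) c) (lamInv A c)) := by
      rw [← mul_assoc, ← mul_pow, mul_comm (lamInv A c), lam_mul_lamInv, one_pow, one_mul]
    rw [h2, h, mul_zero])

variable {A c}

@[simp] theorem sigmaHom_lam : sigmaHom A c (lam A c) = 1 - lam A c := lift_lam _ _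

@[simp] theorem tauHom_lam : tauHom A c (lam A c) = lamInv A c := lift_lam _ _

theorem sigmaHom_comp_self : (sigmaHom A c).comp (sigmaHom A c) = AlgHom.id A _ :=
  algHom_ext (by simp)

theorem tauHom_lamInv : tauHom A c (lamInv A c) = lam A c := by
  have h := congrArg (tauHom A c) (lam_mul_lamInv (A := A) (c := c))
  rw [map_mul, map_one, tauHom_lam] at h
  have h' : lamInv A c * lam A c = 1 := by rw [mul_comm]; exact lam_mul_lamInv
  exact eq_of_mul_eq_one h h'

theorem tauHom_comp_self : (tauHom A c).comp (tauHom A c) = AlgHom.id A _ :=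
  algHom_ext (by simp [tauHom_lamInv])

theorem sigmaHom_lamInv : sigmaHom A c (lamInv A c) = omlInv A c := by
  have h := congrArg (sigmaHom A c) (lam_mul_lamInv (A := A) (c := c))
  rw [map_mul, map_one, sigmaHom_lam] at h
  exact eq_of_mul_eq_one h oml_mul_omlInv

theorem sigmaHom_omlInv : sigmaHom A c (omlInv A c) = lamInv A c := by
  have h := congrArg (sigmaHom A c) (oml_mul_omlInv (A := A) (c := c))
  rw [map_mul, map_one, map_sub, map_one, sigmaHom_lam, sub_sub_cancel] at h
  exact eq_of_mul_eq_one h lam_mul_lamInv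

theorem tauHom_omlInv : tauHom A c (omlInv A c) = -(lam A c * omlInv A c) := by
  have h := congrArg (tauHom A c) (oml_mul_omlInv (A := A) (c := c))
  rw [map_mul, map_one, map_sub, map_one, tauHom_lam] at h
  refine eq_of_mul_eq_one h ?_
  linear_combination (omlInv A c) * (lam_mul_lamInv (A := A) (c := c)) +
    (oml_mul_omlInv (A := A) (c := c))

variable (A c)

/-- `λ ↦ 1 - λ` as an automorphism. -/
def sigma : LegAlg A c ≃ₐ[A] LegAlg A c :=
  AlgEquiv.ofAlgHom (sigmaHom A c) (sigmaHom A c) sigmaHom_comp_self sigmaHom_comp_self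

/-- `λ ↦ 1/λ` as an automorphism. -/
def tau : LegAlg A c ≃ₐ[A] LegAlg A c :=
  AlgEquiv.ofAlgHom (tauHom A c) (tauHom A c) tauHom_comp_self tauHom_comp_self

/-- The automorphism of order three `λ ↦ 1/(1-λ)`. -/
def rho : LegAlg A c ≃ₐ[A] LegAlg A c := sigma A c * tau A c

variable {A c}

@[simp] theorem sigma_apply (y : LegAlg A c) : sigma A c y = sigmaHom A c y := rfl

@[simp] theorem tau_apply (y : LegAlg A c) : tau A c y = tauHom A c y := rfl

theorem rho_apply (y : LegAlg A c) : rho A c y = sigmaHom A c (tauHom A c y) := rfl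

theorem sigma_mul_self : sigma A c * sigma A c = 1 := by
  ext y
  exact congrArg (fun f : LegAlg A c →ₐ[A] LegAlg A c => f y) sigmaHom_comp_self

theorem tau_mul_self : tau A c * tau A c = 1 := by
  ext y
  exact congrArg (fun f : LegAlg A c →ₐ[A] LegAlg A c => f y) tauHom_comp_self

theorem rho_lam : rho A c (lam A c) = omlInv A c := by
  rw [rho_apply, tauHom_lam, sigmaHom_lamInv]

theorem rho_lamInv : rho A c (lamInv A c) = 1 - lam A c := by
  rw [rho_apply, tauHom_lamInv, sigmaHom_lam]

theorem rho_omlInv : rho A c (omlInv A c) = -((1 - lam A c) * lamInv A c) := by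
  rw [rho_apply, tauHom_omlInv, map_neg, map_mul, sigmaHom_lam, sigmaHom_omlInv]

theorem rho_rho_lam : rho A c (rho A c (lam A c)) = -((1 - lam A c) * lamInv A c) := by
  rw [rho_lam, rho_omlInv]

theorem rho_pow_three : rho A c ^ 3 = 1 := by
  apply AlgEquiv.coe_toAlgHom_injective
  apply algHom_ext
  show (rho A c ^ 3) (lam A c) = lam A c
  have h3 : (rho A c ^ 3) (lam A c) = rho A c (rho A c (rho A c (lam A c))) := by
    rw [pow_succ, pow_two]; rfl
  rw [h3, rho_rho_lam, map_neg, map_mul, map_sub, map_one, rho_lam, rho_lamInv]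
  linear_combination (oml_mul_omlInv (A := A) (c := c))

theorem sigma_mul_rho_mul_sigma : sigma A c * rho A c * sigma A c = (rho A c)⁻¹ := by
  have hs : (sigma A c)⁻¹ = sigma A c := inv_eq_of_mul_eq_one_right sigma_mul_self
  have ht : (tau A c)⁻¹ = tau A c := inv_eq_of_mul_eq_one_right tau_mul_self
  unfold rho
  rw [mul_inv_rev, hs, ht, ← mul_assoc, sigma_mul_self, one_mul]

variable (A c)

/-- The action of the anharmonic group `S₃ = DihedralGroup 3`. -/
def dihHom : DihedralGroup 3 →* (LegAlg A c ≃ₐ[A] LegAlg A c) :=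
  dihLift (rho A c) (sigma A c) rho_pow_three sigma_mul_self sigma_mul_rho_mul_sigma

instance instMulSemiringAction : MulSemiringAction (DihedralGroup 3) (LegAlg A c) :=
  MulSemiringAction.compHom _ (dihHom A c)

variable {A c}

theorem smul_def (g : DihedralGroup 3) (y : LegAlg A c) : g • y = dihHom A c g y := rfl

instance instSMulCommClass : SMulCommClass (DihedralGroup 3) A (LegAlg A c) :=
  ⟨fun g a y => by rw [smul_def, smul_def, map_smul]⟩

theorem smul_algebraMap (g : DihedralGroup 3) (a : A) :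
    g • (algebraMap A (LegAlg A c) a) = algebraMap A (LegAlg A c) a := by
  rw [smul_def, AlgEquiv.commutes]

theorem r_zero_smul_lam : (DihedralGroup.r (0 : ZMod 3)) • lam A c = lam A c := by
  rw [DihedralGroup.r_zero, one_smul]

theorem r_one_smul_lam : (DihedralGroup.r (1 : ZMod 3)) • lam A c = omlInv A c := by
  rw [smul_def]
  show (rho A c ^ 1) (lam A c) = _
  rw [pow_one, rho_lam]

theorem r_two_smul_lam :
    (DihedralGroup.r (2 : ZMod 3)) • lam A c = -((1 - lam A c) * lamInv A c) := by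
  rw [smul_def]
  show (rho A c ^ 2) (lam A c) = _
  rw [pow_two]
  exact rho_rho_lam

theorem sr_zero_smul_lam : (DihedralGroup.sr (0 : ZMod 3)) • lam A c = 1 - lam A c := by
  rw [smul_def]
  show (sigma A c * rho A c ^ 0) (lam A c) = _
  rw [pow_zero, mul_one, sigma_apply, sigmaHom_lam]

theorem sr_one_smul_lam : (DihedralGroup.sr (1 : ZMod 3)) • lam A c = lamInv A c := by
  rw [smul_def]
  show (sigma A c * rho A c ^ 1) (lam A c) = _
  rw [pow_one, AlgEquiv.mul_apply, rho_lam, sigma_apply, sigmaHom_omlInv]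

theorem sr_two_smul_lam :
    (DihedralGroup.sr (2 : ZMod 3)) • lam A c = -(lam A c * omlInv A c) := by
  rw [smul_def]
  show (sigma A c * rho A c ^ 2) (lam A c) = _
  rw [pow_two, AlgEquiv.mul_apply, AlgEquiv.mul_apply, rho_rho_lam, sigma_apply, map_neg, map_mul,
    map_sub, map_one, sigmaHom_lam, sigmaHom_lamInv, sub_sub_cancel]

end Aut

/-! ### The product formula and invariants -/

section Prod

theorem prod_dihedral_three {M : Type*} [CommMonoid M] (f : DihedralGroup 3 → M) :
    ∏ g, f g = f (DihedralGroup.r 0) * f (DihedralGroup.r 1) * f (DihedralGroup.r 2) *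
      (f (DihedralGroup.sr 0) * f (DihedralGroup.sr 1) * f (DihedralGroup.sr 2)) := by
  rw [← Equiv.prod_comp DihedralGroup.equivSum.symm f, Fintype.prod_sum_type]
  show (∏ i : Fin 3, f (DihedralGroup.r i)) * ∏ i : Fin 3, f (DihedralGroup.sr i) = _
  rw [Fin.prod_univ_three, Fin.prod_univ_three]
  rfl

theorem prod_six {S : Type*} [CommRing S] {U V P' K Y : S} (hUV : U * V = 1)
    (hP : (1 - U) * P' = 1) (hrel : (U ^ 2 - U + 1) ^ 3 = K * (U ^ 2 * (U - 1) ^ 2)) :
    (Y - U) * (Y - P') * (Y - -((1 - U) * V)) * ((Y - (1 - U)) * (Y - V) * (Y - -(U * P'))) =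
      (Y ^ 2 - Y + 1) ^ 3 - K * (Y ^ 2 * (Y - 1) ^ 2) := by
  have h3 : U * (Y - V) = U * Y - 1 := by linear_combination (-1) * hUV
  have h4 : (1 - U) * (Y - P') = (1 - U) * Y - 1 := by linear_combination (-1) * hP
  have h5 : U * (Y - -((1 - U) * V)) = U * Y - (U - 1) := by linear_combination (1 - U) * hUV
  have h6 : (U - 1) * (Y - -(U * P')) = (U - 1) * Y - U := by linear_combination (-U) * hP
  have key : U ^ 2 * (U - 1) ^ 2 *
      ((Y - U) * (Y - P') * (Y - -((1 - U) * V)) * ((Y - (1 - U)) * (Y - V) * (Y - -(U * P')))) =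
      U ^ 2 * (U - 1) ^ 2 * ((Y ^ 2 - Y + 1) ^ 3 - K * (Y ^ 2 * (Y - 1) ^ 2)) := by
    calc U ^ 2 * (U - 1) ^ 2 *
        ((Y - U) * (Y - P') * (Y - -((1 - U) * V)) * ((Y - (1 - U)) * (Y - V) * (Y - -(U * P'))))
        = -((Y - U) * (Y - (1 - U)) * (U * (Y - V)) * ((1 - U) * (Y - P')) *
            (U * (Y - -((1 - U) * V))) * ((U - 1) * (Y - -(U * P')))) := by ring
      _ = -((Y - U) * (Y - (1 - U)) * (U * Y - 1) * ((1 - U) * Y - 1) * (U * Y - (U - 1)) *
            ((U - 1) * Y - U)) := by rw [h3, h4, h5, h6]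
      _ = -((U ^ 2 - U + 1) ^ 3 * (Y ^ 2 * (Y - 1) ^ 2) -
            (U ^ 2 * (U - 1) ^ 2) * (Y ^ 2 - Y + 1) ^ 3) := by rw [prod_formula]
      _ = _ := by rw [hrel]; ring
  have h7 : V * P' * (U * (U - 1)) = -1 := by
    linear_combination (-((1 - U) * P')) * hUV - hP
  have hD : (V * P') ^ 2 * (U ^ 2 * (U - 1) ^ 2) = 1 := by
    calc (V * P') ^ 2 * (U ^ 2 * (U - 1) ^ 2) = (V * P' * (U * (U - 1))) ^ 2 := by ring
      _ = 1 := by rw [h7]; ring
  calc (Y - U) * (Y - P') * (Y - -((1 - U) * V)) * ((Y - (1 - U)) * (Y - V) * (Y - -(U * P')))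
      = (V * P') ^ 2 * (U ^ 2 * (U - 1) ^ 2 *
        ((Y - U) * (Y - P') * (Y - -((1 - U) * V)) *
          ((Y - (1 - U)) * (Y - V) * (Y - -(U * P'))))) := by
        rw [← mul_assoc ((V * P') ^ 2), hD, one_mul]
    _ = (V * P') ^ 2 * (U ^ 2 * (U - 1) ^ 2 *
        ((Y ^ 2 - Y + 1) ^ 3 - K * (Y ^ 2 * (Y - 1) ^ 2))) := by rw [key]
    _ = _ := by rw [← mul_assoc ((V * P') ^ 2), hD, one_mul]

variable {A : Type*} [CommRing A] {c : A}

/-- The six conjugates of `λ` are the roots of the Legendre polynomial. -/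
theorem prod_X_sub_C_smul_lam :
    ∏ g : DihedralGroup 3, (X - C (g • lam A c)) =
      (legPoly A c).map (algebraMap A (LegAlg A c)) := by
  rw [prod_dihedral_three, r_zero_smul_lam, r_one_smul_lam, r_two_smul_lam, sr_zero_smul_lam,
    sr_one_smul_lam, sr_two_smul_lam, map_legPoly]
  have hUV : (C (lam A c) : (LegAlg A c)[X]) * C (lamInv A c) = 1 := by
    rw [← C_mul, lam_mul_lamInv, C_1]
  have hP : (1 - C (lam A c) : (LegAlg A c)[X]) * C (omlInv A c) = 1 := by
    rw [← C_1, ← C_sub, ← C_mul, oml_mul_omlInv]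
  have hrel : ((C (lam A c) : (LegAlg A c)[X]) ^ 2 - C (lam A c) + 1) ^ 3 =
      C (algebraMap A (LegAlg A c) c) * (C (lam A c) ^ 2 * (C (lam A c) - 1) ^ 2) := by
    have := congrArg (C : LegAlg A c → (LegAlg A c)[X]) (lam_rel (A := A) (c := c))
    simpa using this
  have := prod_six (Y := (X : (LegAlg A c)[X])) hUV hP hrel
  simp only [C_neg, C_mul, C_sub, C_1]
  unfold legPoly
  exact this

end Prod

section Inv

variable {A : Type*} [CommRing A] {c : A}

instance instFree : Module.Free A (LegAlg A c) := (legPoly_monic A c).free_adjoinRoot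

instance instFinite : Module.Finite A (LegAlg A c) := (legPoly_monic A c).finite_adjoinRoot

theorem finrank_legAlg [Nontrivial A] : Module.finrank A (LegAlg A c) = 6 := by
  rw [← legPoly_natDegree A c]
  exact (AdjoinRoot.powerBasis' (legPoly_monic A c)).finrank

/-- `1, λ, …, λ⁵` are linearly independent. -/
theorem linearIndependent_pow_lam [Nontrivial A] :
    LinearIndependent A (fun i : Fin 6 => lam A c ^ (i : ℕ)) := by
  have h := (AdjoinRoot.powerBasis' (legPoly_monic A c)).basis.linearIndependent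
  have hd : (AdjoinRoot.powerBasis' (legPoly_monic A c)).dim = 6 := legPoly_natDegree A c
  have h2 : (fun i : Fin 6 => lam A c ^ (i : ℕ)) =
      (AdjoinRoot.powerBasis' (legPoly_monic A c)).basis ∘ (finCongr hd.symm) := by
    funext i
    simp [lam]
  rw [h2]
  exact h.comp _ (finCongr hd.symm).injective

theorem smul_isUnit {y : LegAlg A c} (g : DihedralGroup 3) (hy : IsUnit y) : IsUnit (g • y) := by
  rw [smul_def]
  exact hy.map (dihHom A c g)

theorem isUnit_sq_sub_add_one (hc : IsUnit c) : IsUnit (lam A c ^ 2 - lam A c + 1) := by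
  have hu : IsUnit ((lam A c ^ 2 - lam A c + 1) ^ 3) := by
    rw [lam_rel]
    exact (hc.map (algebraMap A _)).mul ((isUnit_lam.pow 2).mul (isUnit_lam_sub_one.pow 2))
  exact (isUnit_pow_iff (by norm_num)).mp hu

theorem isUnit_three_factors (h27 : IsUnit (4 * c - 27)) :
    IsUnit ((lam A c + 1) * (lam A c - 2) * (2 * lam A c - 1)) := by
  have h := four_mul_cube_sub (lam A c)
  rw [lam_rel] at h
  have hu : IsUnit (((lam A c + 1) * (lam A c - 2) * (2 * lam A c - 1)) ^ 2) := by
    rw [← h]
    have h2 : 4 * (algebraMap A (LegAlg A c) c * (lam A c ^ 2 * (lam A c - 1) ^ 2)) -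
        27 * (lam A c ^ 2 * (lam A c - 1) ^ 2) =
        algebraMap A (LegAlg A c) (4 * c - 27) * (lam A c ^ 2 * (lam A c - 1) ^ 2) := by
      rw [map_sub, map_mul, map_ofNat, map_ofNat]; ring
    rw [h2]
    exact (h27.map (algebraMap A _)).mul ((isUnit_lam.pow 2).mul (isUnit_lam_sub_one.pow 2))
  exact (isUnit_pow_iff (by norm_num)).mp hu

theorem zmod_three_cases (i : ZMod 3) : i = 0 ∨ i = 1 ∨ i = 2 := by
  revert i; decide

theorem isUnit_smul_lam_sub_lam (hc : IsUnit c) (h27 : IsUnit (4 * c - 27))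
    (g : DihedralGroup 3) (hg : g ≠ 1) : IsUnit (g • lam A c - lam A c) := by
  have hw := isUnit_sq_sub_add_one (A := A) hc
  have ht := isUnit_three_factors (A := A) h27
  rw [IsUnit.mul_iff, IsUnit.mul_iff] at ht
  obtain ⟨⟨ht1, ht2⟩, ht3⟩ := ht
  have hv : IsUnit (lamInv A c) :=
    IsUnit.of_mul_eq_one (lam A c) (by rw [mul_comm]; exact lam_mul_lamInv)
  have hp : IsUnit (omlInv A c) :=
    IsUnit.of_mul_eq_one (1 - lam A c) (by rw [mul_comm]; exact oml_mul_omlInv)
  have hUV := lam_mul_lamInv (A := A) (c := c)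
  have hP := oml_mul_omlInv (A := A) (c := c)
  rcases g with i | i
  · rcases zmod_three_cases i with rfl | rfl | rfl
    · exact absurd DihedralGroup.r_zero hg
    · rw [r_one_smul_lam]
      have : omlInv A c - lam A c = (lam A c ^ 2 - lam A c + 1) * omlInv A c := by
        linear_combination (lam A c) * hP
      rw [this]
      exact hw.mul hp
    · rw [r_two_smul_lam]
      have : -((1 - lam A c) * lamInv A c) - lam A c =
          -((lam A c ^ 2 - lam A c + 1) * lamInv A c) := by
        linear_combination (lam A c) * hUV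
      rw [this]
      exact (hw.mul hv).neg
  · rcases zmod_three_cases i with rfl | rfl | rfl
    · rw [sr_zero_smul_lam]
      have : 1 - lam A c - lam A c = -(2 * lam A c - 1) := by ring
      rw [this]
      exact ht3.neg
    · rw [sr_one_smul_lam]
      have : lamInv A c - lam A c = -((lam A c - 1) * (lam A c + 1) * lamInv A c) := by
        linear_combination (lam A c) * hUV
      rw [this]
      exact ((isUnit_lam_sub_one.mul ht1).mul hv).neg
    · rw [sr_two_smul_lam]
      have : -(lam A c * omlInv A c) - lam A c = lam A c * (lam A c - 2) * omlInv A c := by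
        linear_combination (lam A c) * hP
      rw [this]
      exact (isUnit_lam.mul ht2).mul hp

/-- The six conjugates of `λ` have pairwise unit differences when `c` and `4c - 27` are units
(i.e. `j` and `j - 1728` are units). -/
theorem isUnit_smul_lam_sub_smul_lam (hc : IsUnit c) (h27 : IsUnit (4 * c - 27))
    (g h : DihedralGroup 3) (hgh : g ≠ h) : IsUnit (g • lam A c - h • lam A c) := by
  have h1 : g • lam A c - h • lam A c = h • ((h⁻¹ * g) • lam A c - lam A c) := by
    rw [smul_sub, smul_smul, mul_inv_cancel_left]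
  rw [h1]
  refine smul_isUnit h (isUnit_smul_lam_sub_lam hc h27 _ ?_)
  intro h2
  exact hgh (by rw [inv_mul_eq_one] at h2; exact h2.symm)

/-- A polynomial vanishing at points with pairwise unit differences is divisible by the
product of the corresponding linear factors. -/
theorem prod_X_sub_C_dvd {S : Type*} [CommRing S] {ι : Type*} [DecidableEq ι] (s : Finset ι)
    (r : ι → S) (hr : ∀ i ∈ s, ∀ j ∈ s, i ≠ j → IsUnit (r i - r j)) (F : S[X])
    (hF : ∀ i ∈ s, F.eval (r i) = 0) : ∏ i ∈ s, (X - C (r i)) ∣ F := by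
  induction s using Finset.induction_on generalizing F with
  | empty => simp
  | insert a s ha ih =>
    rw [Finset.prod_insert ha]
    obtain ⟨G, hG⟩ := dvd_iff_isRoot.mpr (hF a (Finset.mem_insert_self a s))
    rw [hG]
    refine mul_dvd_mul_left _ (ih (fun i hi j hj hij => hr i (Finset.mem_insert_of_mem hi) j
      (Finset.mem_insert_of_mem hj) hij) G (fun i hi => ?_))
    have h1 := hF i (Finset.mem_insert_of_mem hi)
    rw [hG, eval_mul, eval_sub, eval_X, eval_C] at h1
    have hu : IsUnit (r i - r a) :=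
      hr i (Finset.mem_insert_of_mem hi) a (Finset.mem_insert_self a s)
        (fun h => ha (h ▸ hi))
    exact (hu.mul_right_eq_zero).mp h1

theorem eval_map_smul_lam (f : A[X]) (g : DihedralGroup 3) :
    (f.map (algebraMap A (LegAlg A c))).eval (g • lam A c) = g • (aeval (lam A c) f) := by
  rw [eval_map_algebraMap, smul_def, smul_def]
  exact aeval_algHom_apply (dihHom A c g : LegAlg A c →ₐ[A] LegAlg A c) (lam A c) f

/-- Invariants of the anharmonic group: if `c` and `4c - 27` are units of `A` (e.g. `A` a field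
in which `j ≠ 0, 1728`), then the invariants of `LegAlg A c` are exactly `A`. -/
theorem exists_algebraMap_eq_of_smul_eq (hc : IsUnit c) (h27 : IsUnit (4 * c - 27))
    (y : LegAlg A c) (hy : ∀ g : DihedralGroup 3, g • y = y) :
    ∃ a : A, algebraMap A (LegAlg A c) a = y := by
  rcases subsingleton_or_nontrivial (LegAlg A c) with hsub | hnt
  · exact ⟨0, Subsingleton.elim _ _⟩
  have : Nontrivial A := (algebraMap A (LegAlg A c)).domain_nontrivial
  obtain ⟨f₀, hf₀⟩ := AdjoinRoot.mk_surjective (g := legPoly A c) y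
  set f := f₀ %ₘ legPoly A c with hf
  have hfy : aeval (lam A c) f = y := by
    have h1 : AdjoinRoot.mk (legPoly A c) f = AdjoinRoot.mk (legPoly A c) f₀ := by
      rw [AdjoinRoot.mk_eq_mk]
      refine ⟨-(f₀ /ₘ legPoly A c), ?_⟩
      have h2 := modByMonic_add_div f₀ (legPoly A c)
      rw [hf]
      linear_combination h2
    unfold lam
    rw [AdjoinRoot.aeval_eq, h1, hf₀]
  have hdeg : f.natDegree < 6 := by
    have h1 := natDegree_modByMonic_lt f₀ (legPoly_monic A c) (by
      intro h
      have h2 := legPoly_natDegree A c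
      rw [h, natDegree_one] at h2
      exact absurd h2 (by norm_num))
    rw [legPoly_natDegree] at h1
    exact h1
  set F : (LegAlg A c)[X] := f.map (algebraMap A (LegAlg A c)) - C y with hFdef
  have hFroot : ∀ g ∈ (Finset.univ : Finset (DihedralGroup 3)), F.eval (g • lam A c) = 0 := by
    intro g _
    rw [hFdef, eval_sub, eval_C, eval_map_smul_lam, hfy, hy g, sub_self]
  have hdvd := prod_X_sub_C_dvd (Finset.univ : Finset (DihedralGroup 3)) (fun g => g • lam A c)
    (fun g _ h _ hgh => isUnit_smul_lam_sub_smul_lam hc h27 g h hgh) F hFroot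
  rw [prod_X_sub_C_smul_lam] at hdvd
  have hmonic : ((legPoly A c).map (algebraMap A (LegAlg A c))).Monic := (legPoly_monic A c).map _
  have hFdeg : F.natDegree < ((legPoly A c).map (algebraMap A (LegAlg A c))).natDegree := by
    rw [map_legPoly, legPoly_natDegree]
    refine lt_of_le_of_lt (natDegree_sub_le _ _) ?_
    rw [natDegree_C, max_eq_left (Nat.zero_le _)]
    exact lt_of_le_of_lt natDegree_map_le hdeg
  have hF0 : F = 0 := by
    by_contra hne
    exact hmonic.not_dvd_of_natDegree_lt hne hFdeg hdvd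
  refine ⟨f.coeff 0, ?_⟩
  have h3 := congrArg (fun q : (LegAlg A c)[X] => q.coeff 0) hF0
  simp only [hFdef, coeff_sub, coeff_map, coeff_C_zero, coeff_zero] at h3
  exact sub_eq_zero.mp h3

end Inv

end Fermat.Agent.S18.Legendre
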