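/-
S18 — ModelAll.lean (helper42): block [Model] of the arithmetic half, unconditional.
-/
import Fermat.Agent.S18.ModelAsm
import Fermat.Agent.S18.QExp

set_option autoImplicit false

namespace Fermat.Agent.S18.ModelAll

/-- **[Model]** (I4): for `ℓ ∤ N`, a place `A` over `ℓ` and a base `K` with `BaseFacts`, the two
charts `R0`, `Rinf` (integral closures of `O[j]`, `O[j⁻¹]` in `F_K`) satisfy `ModelFacts`. -/
theorem modelStatement (N : ℕ) [NeZero N] (ℓ : ℕ) [Fact ℓ.Prime] : Arith.ModelStatement N ℓ :=
  ModelAsm.modelStatement_of_qExp N ℓ (QExp.qExpStatement N ℓ)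

end Fermat.Agent.S18.ModelAll
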