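import Fermat.Agent.S18.NormTrickCRT

/-!
# S18 / [IGUSA] T7a : norm descent (abstract)

`R` an integrally closed domain with fraction field `F`, `T` a finite `F`-algebra with an action
of a finite group `G` by `F`-algebra automorphisms, `T^G = F`, `dim_F T = |G|`;
`B := integralClosure R T`, finite over `R`.  Let `n` be a maximal ideal of `R`, `π ∈ n`, and
`Q` a maximal ideal of `B` over `n` which is locally generated by `π` and some `s0`, with
residue field `R / n`.  Then `n` is locally generated by `π` and some `t`:
`∃ t ∈ n, ∀ z ∈ n, ∃ u ∉ n, u z ∈ (π, t)`.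

Proof: localise at `n` (`R' = R_n ⊂ F`, `B' = integralClosure R' T = R' B`), transfer the
hypotheses to `Q' = Q B'`, apply `NormTrickCRT.normTrick'` and clear denominators.
-/

set_option autoImplicit false

namespace Fermat.Agent.S18.NormDescent

open IsLocalRing

/-- The action of `G` on the integral closure of `A` in `T` (for `G` acting by `A`-algebra
automorphisms). -/
@[reducible] noncomputable def actionIntegralClosure (G A T : Type*) [Group G] [CommRing A]
    [CommRing T] [Algebra A T] [MulSemiringAction G T] [SMulCommClass G A T] :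
    MulSemiringAction G (integralClosure A T) where
  smul g z := ⟨g • (z : T), z.2.map (MulSemiringAction.toAlgHom A T g)⟩
  one_smul z := Subtype.ext (one_smul G (z : T))
  mul_smul g h z := Subtype.ext (mul_smul g h (z : T))
  smul_zero g := Subtype.ext (smul_zero g)
  smul_add g x y := Subtype.ext (smul_add g (x : T) (y : T))
  smul_one g := Subtype.ext (smul_one g)
  smul_mul g x y := Subtype.ext (smul_mul' g (x : T) (y : T))

theorem smulCommClass_of_tower (G F T R' : Type*) [Group G] [Field F] [CommRing T] [Algebra F T]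
    [MulSemiringAction G T] [SMulCommClass G F T] [CommRing R'] [Algebra R' F] [Algebra R' T]
    [IsScalarTower R' F T] : SMulCommClass G R' T :=
  ⟨fun g r z => by
    rw [← algebraMap_smul F r z, ← algebraMap_smul F r (g • z), smul_comm]⟩

section Aux

variable {R F T G : Type*} [CommRing R] [IsDomain R] [IsIntegrallyClosed R]
  [Field F] [Algebra R F] [IsFractionRing R F]
  [CommRing T] [Algebra F T] [Algebra R T] [IsScalarTower R F T] [Module.Finite F T]
  [Group G] [Finite G] [MulSemiringAction G T] [SMulCommClass G F T]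
  (R' : Type*) [CommRing R'] [Algebra R R'] [Algebra R' F] [IsScalarTower R R' F]
  [Algebra R' T] [IsScalarTower R' F T] [IsScalarTower R R' T]

theorem normDescent_aux
    (hinv : ∀ z : T, (∀ g : G, g • z = z) → z ∈ Set.range (algebraMap F T))
    (hcard : Module.finrank F T = Nat.card G)
    [Module.Finite R (integralClosure R T)]
    (n : Ideal R) [hn : n.IsMaximal] [IsLocalization.AtPrime R' n] (π : R) (hπ : π ∈ n)
    (Q : Ideal (integralClosure R T)) (hQ : Q.IsMaximal)
    (hQn : Q.comap (algebraMap R (integralClosure R T)) = n)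
    (s0 : integralClosure R T) (hs0 : s0 ∈ Q)
    (hloc : ∀ z ∈ Q, ∃ u ∉ Q, u * z ∈ Ideal.span {algebraMap R (integralClosure R T) π, s0})
    (hres : ∀ b : integralClosure R T, ∃ r : R,
      b - algebraMap R (integralClosure R T) r ∈ Q) :
    ∃ t ∈ n, ∀ z ∈ n, ∃ u ∉ n, u * z ∈ Ideal.span {π, t} := by
  classical
  have hcardpos : 0 < Nat.card G := Nat.card_pos
  have hntT : Nontrivial T :=
    Module.nontrivial_of_finrank_pos (R := F) (by rw [hcard]; exact hcardpos)
  have hFT : Function.Injective (algebraMap F T) := (algebraMap F T).injective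
  have hS : n.primeCompl ≤ nonZeroDivisors R := Ideal.primeCompl_le_nonZeroDivisors n
  have hlocR' : IsLocalRing R' := IsLocalization.AtPrime.isLocalRing R' n
  have hfrR' : IsFractionRing R' F :=
    IsFractionRing.isFractionRing_of_isDomain_of_isLocalization n.primeCompl R' F
  have hR'F : Function.Injective (algebraMap R' F) := IsFractionRing.injective R' F
  have hdomR' : IsDomain R' := hR'F.isDomain _
  have hicR' : IsIntegrallyClosed R' := isIntegrallyClosed_of_isLocalization R' n.primeCompl hS
  have hRR' : Function.Injective (algebraMap R R') := IsLocalization.injective R' hS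
  have hQp : Q.IsPrime := hQ.isPrime
  have h1n : (1 : R) ∉ n := (Ideal.ne_top_iff_one n).mp hn.ne_top
  have hunit : ∀ u : R, u ∉ n → IsUnit (algebraMap R R' u) := fun u hu =>
    IsLocalization.map_units R' (⟨u, hu⟩ : n.primeCompl)
  -- integrality over `R'` versus over `R`
  have hK1 : ∀ z : T, IsIntegral R' z → ∃ u : R, u ∉ n ∧ IsIntegral R (u • z) := by
    intro z hz
    obtain ⟨m, hm⟩ := IsIntegral.exists_multiple_integral_of_isLocalization n.primeCompl z hz
    exact ⟨m.1, m.2, hm⟩
  have hmemQ : ∀ u : R, algebraMap R (integralClosure R T) u ∈ Q → u ∈ n := by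
    intro u hu
    rw [← hQn]
    exact hu
  have hnQ : ∀ a : R, a ∈ n → algebraMap R (integralClosure R T) a ∈ Q := by
    intro a ha
    rw [← hQn] at ha
    exact ha
  -- the `G`-action on `B'`
  have hcomm : SMulCommClass G R' T := smulCommClass_of_tower G F T R'
  let _act : MulSemiringAction G (integralClosure R' T) := actionIntegralClosure G R' T
  have hcoe : ∀ (g : G) (z : integralClosure R' T), ((g • z : integralClosure R' T) : T) =
      g • (z : T) := fun g z => rfl
  have hcomm' : SMulCommClass G R' (integralClosure R' T) :=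
    ⟨fun g r z => Subtype.ext (smul_comm g r (z : T))⟩
  -- `B'` is finite over `R'`
  have hfinB' : Module.Finite R' (integralClosure R' T) := by
    obtain ⟨S, hSgen⟩ := (Module.Finite.fg_top : (⊤ : Submodule R (integralClosure R T)).FG)
    let ι : integralClosure R T → integralClosure R' T := fun b => ⟨(b : T), b.2.tower_top⟩
    refine ⟨⟨S.image ι, ?_⟩⟩
    rw [eq_top_iff]
    intro z _
    obtain ⟨u, hu, huz⟩ := hK1 (z : T) z.2
    have hmem : (⟨u • (z : T), huz⟩ : integralClosure R T) ∈ Submodule.span R (S : Set _) := by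
      rw [hSgen]
      exact Submodule.mem_top
    have hιmem : ∀ b : integralClosure R T, b ∈ Submodule.span R (S : Set _) →
        ι b ∈ Submodule.span R' ((S.image ι : Finset _) : Set (integralClosure R' T)) := by
      intro b hb
      induction hb using Submodule.span_induction with
      | mem x hx =>
        exact Submodule.subset_span (Finset.mem_coe.mpr (Finset.mem_image_of_mem ι hx))
      | zero => exact Submodule.zero_mem _
      | add x y _ _ hx hy =>
        have h : ι (x + y) = ι x + ι y := rfl
        rw [h]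
        exact Submodule.add_mem _ hx hy
      | smul r x _ hx =>
        have h : ι (r • x) = algebraMap R R' r • ι x := by
          apply Subtype.ext
          show r • (x : T) = algebraMap R R' r • (x : T)
          rw [algebraMap_smul]
        rw [h]
        exact Submodule.smul_mem _ _ hx
    have h2 := hιmem _ hmem
    obtain ⟨w, hw⟩ := (hunit u hu).exists_left_inv
    have h3 : z = w • ι ⟨u • (z : T), huz⟩ := by
      apply Subtype.ext
      show (z : T) = w • (u • (z : T))
      rw [← algebraMap_smul R' u (z : T), smul_smul, hw, one_smul]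
    rw [h3]
    exact Submodule.smul_mem _ _ h2
  -- invariants
  have hinv' : ∀ b : integralClosure R' T, (∀ g : G, g • b = b) →
      ∃ r : R', algebraMap R' (integralClosure R' T) r = b := by
    intro b hb
    obtain ⟨f, hf⟩ := hinv (b : T) (fun g => by rw [← hcoe, hb g])
    have hfint : IsIntegral R' f := by
      have h1 : IsIntegral R' (algebraMap F T f) := by
        rw [hf]
        exact b.2
      exact (isIntegral_algebraMap_iff hFT).mp h1
    obtain ⟨y, hy⟩ := IsIntegrallyClosed.isIntegral_iff.mp hfint
    refine ⟨y, Subtype.ext ?_⟩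
    show algebraMap R' T y = (b : T)
    rw [IsScalarTower.algebraMap_apply R' F T, hy, hf]
  -- rank
  have hrank' : ∃ v : Fin (Nat.card G) → integralClosure R' T, LinearIndependent R' v := by
    let b0 : Module.Basis (Fin (Nat.card G)) F T := Module.finBasisOfFinrankEq F T hcard
    have halg : ∀ i, IsAlgebraic R (b0 i) := fun i =>
      (IsFractionRing.isAlgebraic_iff R F T).mpr (Algebra.IsAlgebraic.isAlgebraic (b0 i))
    choose y hy0 hyint using fun i => (halg i).exists_integral_multiple
    refine ⟨fun i => ⟨y i • b0 i, (hyint i).tower_top⟩, ?_⟩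
    have hyF : ∀ i, algebraMap R F (y i) ≠ 0 := fun i =>
      (map_ne_zero_iff _ (IsFractionRing.injective R F)).mpr (hy0 i)
    have h1 : LinearIndependent F (fun i => y i • b0 i) := by
      have h := b0.linearIndependent.units_smul (fun i => Units.mk0 _ (hyF i))
      convert h using 1
      funext i
      simp only [Pi.smul_apply', Units.smul_def, Units.val_mk0, algebraMap_smul]
    have h2 : LinearIndependent R' (fun i => y i • b0 i) := by
      refine h1.restrict_scalars ?_
      intro a b hab
      apply hR'F
      simpa [Algebra.smul_def] using hab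
    exact LinearIndependent.of_comp ((integralClosure R' T).val.toLinearMap) h2
  -- the maximal ideal `Q'` of `B'`
  let Q' : Ideal (integralClosure R' T) :=
    { carrier := {z | ∃ u : R, u ∉ n ∧ ∃ q ∈ Q, u • (z : T) = (q : T)}
      zero_mem' := ⟨1, h1n, 0, Q.zero_mem, by simp⟩
      add_mem' := by
        rintro z1 z2 ⟨u1, hu1, q1, hq1, h1⟩ ⟨u2, hu2, q2, hq2, h2⟩
        refine ⟨u1 * u2, hn.isPrime.mul_notMem hu1 hu2, u2 • q1 + u1 • q2,
          Q.add_mem (Q.smul_of_tower_mem u2 hq1) (Q.smul_of_tower_mem u1 hq2), ?_⟩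
        show (u1 * u2) • ((z1 : T) + (z2 : T)) = u2 • (q1 : T) + u1 • (q2 : T)
        rw [← h1, ← h2, smul_add, mul_smul, mul_smul, smul_comm u1 u2 (z1 : T)]
      smul_mem' := by
        rintro c z ⟨u, hu, q, hq, h⟩
        obtain ⟨uc, huc, hcint⟩ := hK1 (c : T) c.2
        refine ⟨uc * u, hn.isPrime.mul_notMem huc hu, ⟨uc • (c : T), hcint⟩ * q,
          Q.mul_mem_left _ hq, ?_⟩
        show (uc * u) • ((c : T) * (z : T)) = (uc • (c : T)) * (q : T)
        rw [← h, smul_mul_smul_comm] }
  have hQ'mem : ∀ z : integralClosure R' T, z ∈ Q' ↔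
      ∃ u : R, u ∉ n ∧ ∃ q ∈ Q, u • (z : T) = (q : T) := fun z => Iff.rfl
  -- residue field
  have hres' : ∀ z : integralClosure R' T, ∃ r : R',
      z - algebraMap R' (integralClosure R' T) r ∈ Q' := by
    intro z
    obtain ⟨u, hu, huz⟩ := hK1 (z : T) z.2
    obtain ⟨r, hr⟩ := hres ⟨u • (z : T), huz⟩
    have hu' : u ∈ n.primeCompl := hu
    refine ⟨IsLocalization.mk' R' r (⟨u, hu'⟩ : n.primeCompl), ?_⟩
    rw [hQ'mem]
    refine ⟨u, hu, _, hr, ?_⟩
    have key : u • algebraMap R' T (IsLocalization.mk' R' r (⟨u, hu'⟩ : n.primeCompl)) =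
        algebraMap R T r := by
      rw [IsScalarTower.algebraMap_apply R R' T r, ← IsLocalization.mk'_spec'_mk R' r u hu',
        map_mul, ← IsScalarTower.algebraMap_apply R R' T u, ← Algebra.smul_def]
    show u • ((z : T) - algebraMap R' T (IsLocalization.mk' R' r (⟨u, hu'⟩ : n.primeCompl))) =
      u • (z : T) - algebraMap R T r
    rw [smul_sub, key]
  -- the maximal ideal of `R'` maps into `Q'`
  have hmQ' : ∀ r : R', r ∈ maximalIdeal R' → algebraMap R' (integralClosure R' T) r ∈ Q' := by
    intro r hr
    obtain ⟨⟨a, u⟩, hau⟩ := IsLocalization.surj n.primeCompl r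
    have ha : a ∈ n := by
      rw [← IsLocalization.AtPrime.to_map_mem_maximal_iff R' n a, ← hau]
      exact Ideal.mul_mem_right _ _ hr
    rw [hQ'mem]
    refine ⟨u.1, u.2, _, hnQ a ha, ?_⟩
    show (u.1 : R) • algebraMap R' T r = algebraMap R T a
    rw [← algebraMap_smul R' (u.1 : R) (algebraMap R' T r), Algebra.smul_def, ← map_mul,
      mul_comm, hau, ← IsScalarTower.algebraMap_apply]
  have hQ'max : Q'.IsMaximal := by
    rw [Ideal.isMaximal_iff]
    constructor
    · rintro ⟨u, hu, q, hq, h⟩
      apply hu
      apply hmemQ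
      have h2 : algebraMap R (integralClosure R T) u = q := by
        apply Subtype.ext
        rw [← h]
        show algebraMap R T u = u • (1 : T)
        rw [Algebra.smul_def, mul_one]
      rw [h2]
      exact hq
    · intro J x hJ hx hxJ
      obtain ⟨r, hr⟩ := hres' x
      have hrJ : algebraMap R' (integralClosure R' T) r ∈ J := by
        have h1 : algebraMap R' (integralClosure R' T) r =
            x - (x - algebraMap R' (integralClosure R' T) r) := by ring
        rw [h1]
        exact J.sub_mem hxJ (hJ hr)
      have hrm : r ∉ maximalIdeal R' := by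
        intro hrm
        apply hx
        have h1 : x = (x - algebraMap R' (integralClosure R' T) r) +
            algebraMap R' (integralClosure R' T) r := by ring
        rw [h1]
        exact Q'.add_mem hr (hmQ' r hrm)
      have hru : IsUnit r := by
        rwa [mem_maximalIdeal, mem_nonunits_iff, not_not] at hrm
      rw [← Ideal.eq_top_iff_one]
      exact Ideal.eq_top_of_isUnit_mem _ hrJ (hru.map _)
  -- transfer of the local generation
  let s0' : integralClosure R' T := ⟨(s0 : T), s0.2.tower_top⟩
  have hs0' : s0' ∈ Q' := by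
    rw [hQ'mem]
    exact ⟨1, h1n, s0, hs0, one_smul _ _⟩
  have hπ' : algebraMap R R' π ∈ maximalIdeal R' :=
    (IsLocalization.AtPrime.to_map_mem_maximal_iff R' n π).mpr hπ
  have hloc' : ∀ z ∈ Q', ∃ w ∉ Q', w * z ∈
      Ideal.span {algebraMap R' (integralClosure R' T) (algebraMap R R' π), s0'} := by
    intro z hz
    obtain ⟨u, hu, q, hq, huq⟩ := (hQ'mem z).mp hz
    obtain ⟨w0, hw0, hw0q⟩ := hloc q hq
    obtain ⟨b1, b2, h12⟩ := Ideal.mem_span_pair.mp hw0q
    have h12T : (b1 : T) * algebraMap R T π + (b2 : T) * (s0 : T) = (w0 : T) * (q : T) :=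
      congrArg Subtype.val h12
    obtain ⟨ui, hui⟩ := (hunit u hu).exists_left_inv
    refine ⟨⟨(w0 : T), w0.2.tower_top⟩, ?_, ?_⟩
    · rw [hQ'mem]
      rintro ⟨u2, hu2, q2, hq2, h2⟩
      have h3 : algebraMap R (integralClosure R T) u2 * w0 = q2 := by
        apply Subtype.ext
        rw [← h2]
        show algebraMap R T u2 * (w0 : T) = u2 • (w0 : T)
        rw [Algebra.smul_def]
      have h4 : algebraMap R (integralClosure R T) u2 * w0 ∈ Q := by
        rw [h3]
        exact hq2
      rcases hQp.mem_or_mem h4 with h | h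
      · exact hu2 (hmemQ u2 h)
      · exact hw0 h
    · refine Ideal.mem_span_pair.mpr
        ⟨ui • ⟨(b1 : T), b1.2.tower_top⟩, ui • ⟨(b2 : T), b2.2.tower_top⟩, Subtype.ext ?_⟩
      show (ui • (b1 : T)) * algebraMap R' T (algebraMap R R' π) + (ui • (b2 : T)) * (s0 : T) =
        (w0 : T) * (z : T)
      have hz' : (z : T) = ui • (q : T) := by
        rw [← huq, ← algebraMap_smul R' u (z : T), smul_smul, hui, one_smul]
      rw [hz', mul_smul_comm, ← h12T, smul_add, smul_mul_assoc, smul_mul_assoc,
        ← IsScalarTower.algebraMap_apply]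
  -- the norm trick over the local ring `R'`
  obtain ⟨t', ht', hmax, -⟩ := NormTrickCRT.normTrick' hinv' hrank' (algebraMap R R' π) hπ'
    Q' hQ'max s0' hs0' hloc' hres'
  -- clear denominators
  obtain ⟨⟨t0, u0⟩, ht0⟩ := IsLocalization.surj n.primeCompl t'
  have ht0n : t0 ∈ n := by
    rw [← IsLocalization.AtPrime.to_map_mem_maximal_iff R' n t0, ← ht0]
    exact Ideal.mul_mem_right _ _ ht'
  refine ⟨t0, ht0n, fun z hz => ?_⟩
  have hzm : algebraMap R R' z ∈ maximalIdeal R' :=
    (IsLocalization.AtPrime.to_map_mem_maximal_iff R' n z).mpr hz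
  rw [hmax] at hzm
  obtain ⟨a', b', hab⟩ := Ideal.mem_span_pair.mp hzm
  obtain ⟨⟨a, ua⟩, ha⟩ := IsLocalization.surj n.primeCompl a'
  obtain ⟨⟨b, ub⟩, hb⟩ := IsLocalization.surj n.primeCompl b'
  refine ⟨ua.1 * ub.1 * u0.1,
    hn.isPrime.mul_notMem (hn.isPrime.mul_notMem ua.2 ub.2) u0.2, ?_⟩
  rw [Ideal.mem_span_pair]
  refine ⟨a * ub.1 * u0.1, b * ua.1, hRR' ?_⟩
  simp only [map_add, map_mul]
  simp only at ha hb ht0
  linear_combination (algebraMap R R' ua.1 * algebraMap R R' ub.1 * algebraMap R R' u0.1) * hab
    - (algebraMap R R' ub.1 * algebraMap R R' u0.1 * algebraMap R R' π) * ha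
    - (algebraMap R R' ua.1 * algebraMap R R' t0) * hb
    - (b' * algebraMap R R' ub.1 * algebraMap R R' ua.1) * ht0

end Aux

/-- [IGUSA] T7a, norm descent: local generation of a maximal ideal `Q` of the integral closure
`B` (in a `G`-Galois algebra `T` over `F = Frac R`) descends to local generation of `n = Q ∩ R`. -/
theorem normDescent {R F T G : Type*} [CommRing R] [IsDomain R] [IsIntegrallyClosed R]
    [Field F] [Algebra R F] [IsFractionRing R F]
    [CommRing T] [Algebra F T] [Algebra R T] [IsScalarTower R F T] [Module.Finite F T]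
    [Group G] [Finite G] [MulSemiringAction G T] [SMulCommClass G F T]
    (hinv : ∀ z : T, (∀ g : G, g • z = z) → z ∈ Set.range (algebraMap F T))
    (hcard : Module.finrank F T = Nat.card G)
    [Module.Finite R (integralClosure R T)]
    (n : Ideal R) [n.IsMaximal] (π : R) (hπ : π ∈ n)
    (Q : Ideal (integralClosure R T)) (hQ : Q.IsMaximal)
    (hQn : Q.comap (algebraMap R (integralClosure R T)) = n)
    (s0 : integralClosure R T) (hs0 : s0 ∈ Q)
    (hloc : ∀ z ∈ Q, ∃ u ∉ Q, u * z ∈ Ideal.span {algebraMap R (integralClosure R T) π, s0})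
    (hres : ∀ b : integralClosure R T, ∃ r : R,
      b - algebraMap R (integralClosure R T) r ∈ Q) :
    ∃ t ∈ n, ∀ z ∈ n, ∃ u ∉ n, u * z ∈ Ideal.span {π, t} := by
  have hS : n.primeCompl ≤ nonZeroDivisors R := Ideal.primeCompl_le_nonZeroDivisors n
  have : IsLocalization.AtPrime (Localization.subalgebra.ofField F n.primeCompl hS) n :=
    Localization.subalgebra.isLocalization_ofField F n.primeCompl hS
  exact normDescent_aux (Localization.subalgebra.ofField F n.primeCompl hS) hinv hcard n π hπ
    Q hQ hQn s0 hs0 hloc hres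

end Fermat.Agent.S18.NormDescent
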