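import Mathlib

/-!
# S18 / [IGUSA] leaf P5 : the norm trick

`R` a local ring with maximal ideal `𝔪`, `B` a finite `R`-algebra with an action of a finite
group `G` by `R`-algebra automorphisms, `B^G = R`, and `B` contains `|G|` linearly independent
elements.  Let `π ∈ 𝔪` and `s ∈ B` be such that `(π, s) B` is a proper ideal with
`R → B / (π, s)` surjective and `𝔪 B ⊆ (π, s) B` (i.e. `(π, s) B` is a maximal ideal of `B` with
residue field `R / 𝔪`).  Then `t := ∏_g g • s` lies in `𝔪`, `𝔪 = (π, t)`, and `B` is free over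
`R` (of rank `|G|`, with basis the partial products of the `g • s`).

Proof (filtration, no lengths).  Enumerate `G = {g_1, …, g_n}`, `a_i := g_i • s`,
`c_i := a_1 ⋯ a_i`.  As `B = R + (π, a_{i+1}) B`, one has `(π, c_i) B = R c_i + (π, c_{i+1}) B`,
hence `B = R c_0 + ⋯ + R c_{n-1} + (π, t) B` and by Nakayama `c_0, …, c_{n-1}` generate `B`;
being `n` generators of a module containing `n` independent elements they are a basis (Orzech).
For `x ∈ 𝔪`: `x ∈ (π, a_n) B`, so `x c_{n-1} ∈ (π, t) B`; comparing the coefficients of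
`c_{n-1}` gives `x ∈ (π, t)`.

(The hypothesis `hm` is necessary: without it `G = 1`, `B = R = k[[x, y, z]]`, `π = x`, `s = y`
is a counterexample — found by helper36.)
-/

set_option autoImplicit false

namespace Fermat.Agent.S18.NormTrick

open IsLocalRing

section Aux

variable {R B G : Type*} [CommRing R] [CommRing B] [Algebra R B]

/-- Transport of membership in `(π, s)` by a ring automorphism fixing `R`. -/
theorem smul_mem_span_pair [Group G] [MulSemiringAction G B] [SMulCommClass G R B]
    (g : G) (π : R) (s y : B)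
    (hy : y ∈ Ideal.span {algebraMap R B π, s}) :
    g • y ∈ Ideal.span {algebraMap R B π, g • s} := by
  obtain ⟨a, b, rfl⟩ := Ideal.mem_span_pair.mp hy
  rw [smul_add, smul_mul', smul_mul', smul_algebraMap]
  exact Ideal.mem_span_pair.mpr ⟨g • a, g • b, rfl⟩

/-- One step of the filtration: `(π, c) B ⊆ R c + (π, c a) B` when `B = R + (π, a) B`. -/
theorem exists_sub_smul_mem (π : R) (a c : B)
    (hres : ∀ b : B, ∃ r : R, b - algebraMap R B r ∈ Ideal.span {algebraMap R B π, a})
    (y : B) (hy : y ∈ Ideal.span {algebraMap R B π, c}) :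
    ∃ r : R, y - r • c ∈ Ideal.span {algebraMap R B π, c * a} := by
  obtain ⟨b1, b2, rfl⟩ := Ideal.mem_span_pair.mp hy
  obtain ⟨r, hr⟩ := hres b2
  obtain ⟨b3, b4, h34⟩ := Ideal.mem_span_pair.mp hr
  refine ⟨r, Ideal.mem_span_pair.mpr ⟨b1 + c * b3, b4, ?_⟩⟩
  have h2 : b2 = algebraMap R B r + (b3 * algebraMap R B π + b4 * a) := by
    rw [h34]
    ring
  rw [h2, Algebra.smul_def]
  ring

/-- The filtration: `B = R c_0 + ⋯ + R c_{k-1} + (π, c_k) B` with `c_i = a_0 ⋯ a_{i-1}`. -/
theorem exists_mem_span_sub_mem (π : R) (a : ℕ → B) (n : ℕ)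
    (hres : ∀ j < n, ∀ b : B, ∃ r : R,
      b - algebraMap R B r ∈ Ideal.span {algebraMap R B π, a j}) :
    ∀ k ≤ n, ∀ b : B, ∃ y ∈ Submodule.span R
        ((fun i => ∏ j ∈ Finset.range i, a j) '' Set.Iio k),
      b - y ∈ Ideal.span {algebraMap R B π, ∏ j ∈ Finset.range k, a j} := by
  intro k
  induction k with
  | zero =>
    intro _ b
    refine ⟨0, Submodule.zero_mem _, Ideal.mem_span_pair.mpr ⟨0, b, ?_⟩⟩
    simp
  | succ k ih =>
    intro hk b
    obtain ⟨y, hy, hby⟩ := ih (Nat.le_of_succ_le hk) b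
    obtain ⟨r, hr⟩ := exists_sub_smul_mem π (a k) (∏ j ∈ Finset.range k, a j)
      (hres k hk) (b - y) hby
    refine ⟨y + r • ∏ j ∈ Finset.range k, a j, Submodule.add_mem _ ?_ ?_, ?_⟩
    · exact Submodule.span_mono (Set.image_mono (Set.Iio_subset_Iio (Nat.le_succ k))) hy
    · exact Submodule.smul_mem _ _ (Submodule.subset_span ⟨k, Nat.lt_succ_self k, rfl⟩)
    · rw [Finset.prod_range_succ]
      have h : b - (y + r • ∏ j ∈ Finset.range k, a j) =
          b - y - r • ∏ j ∈ Finset.range k, a j := by ring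
      rw [h]
      exact hr

end Aux

/-- [IGUSA] P5, strong form (no domain / Noetherian hypothesis needed): besides
`𝔪 = (π, t)` it records `t = ∏_g g • s` and the freeness of `B` over `R`. -/
theorem normTrick_strong {R B G : Type*} [CommRing R] [IsLocalRing R]
    [CommRing B] [Algebra R B] [Module.Finite R B] [Group G] [Finite G]
    [MulSemiringAction G B] [SMulCommClass G R B]
    (hinv : ∀ b : B, (∀ g : G, g • b = b) → ∃ r : R, algebraMap R B r = b)
    (hrank : ∃ v : Fin (Nat.card G) → B, LinearIndependent R v)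
    (π : R) (hπ : π ∈ IsLocalRing.maximalIdeal R) (s : B)
    (hQ : (1 : B) ∉ Ideal.span {algebraMap R B π, s})
    (hres : ∀ b : B, ∃ r : R, b - algebraMap R B r ∈ Ideal.span {algebraMap R B π, s})
    (hm : ∀ r ∈ IsLocalRing.maximalIdeal R,
      algebraMap R B r ∈ Ideal.span {algebraMap R B π, s}) :
    ∃ t ∈ IsLocalRing.maximalIdeal R, algebraMap R B t = ∏ᶠ g : G, g • s ∧
      IsLocalRing.maximalIdeal R = Ideal.span {π, t} ∧ Module.Free R B := by
  classical
  have : Fintype G := Fintype.ofFinite G
  obtain ⟨v, hv⟩ := hrank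
  generalize hn : Nat.card G = n at v hv
  have hnpos : 0 < n := hn ▸ Nat.card_pos
  let e : Fin n ≃ G := ((Finite.equivFin G).trans (finCongr hn)).symm
  let a : ℕ → B := fun j => if h : j < n then e ⟨j, h⟩ • s else 1
  let c : ℕ → B := fun i => ∏ j ∈ Finset.range i, a j
  have hca : ∀ j (h : j < n), a j = e ⟨j, h⟩ • s := fun j h => by simp [a, h]
  -- `c n = ∏ g, g • s`
  have hcn : c n = ∏ g : G, g • s := by
    show ∏ j ∈ Finset.range n, a j = _
    rw [← Fin.prod_univ_eq_prod_range a n, ← Equiv.prod_comp e (fun g => g • s)]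
    exact Finset.prod_congr rfl (fun i _ => hca i i.2)
  -- the product is `G`-invariant, hence comes from `R`
  have hinvt : ∀ h : G, h • (∏ g : G, g • s) = ∏ g : G, g • s := by
    intro h
    rw [Finset.smul_prod']
    simp_rw [smul_smul]
    exact Fintype.prod_equiv (Equiv.mulLeft h) _ _ (fun g => rfl)
  obtain ⟨t, ht⟩ := hinv _ hinvt
  -- `t ∈ 𝔪`
  have htm : t ∈ maximalIdeal R := by
    by_contra hnot
    have hu : IsUnit t := by
      rwa [mem_maximalIdeal, mem_nonunits_iff, not_not] at hnot
    apply hQ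
    have hs : s ∈ Ideal.span {algebraMap R B π, s} := Ideal.subset_span (by simp)
    have hdvd : s ∣ ∏ g : G, g • s := by
      have h1 := Finset.dvd_prod_of_mem (fun g : G => g • s) (Finset.mem_univ (1 : G))
      simpa using h1
    have hmem : algebraMap R B t ∈ Ideal.span {algebraMap R B π, s} := by
      rw [ht]
      obtain ⟨d, hd⟩ := hdvd
      rw [hd]
      exact Ideal.mul_mem_right _ _ hs
    rw [Ideal.eq_top_of_isUnit_mem _ hmem (hu.map (algebraMap R B))]
    exact Submodule.mem_top
  -- transport of the hypotheses to the conjugates of `s`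
  have hresg : ∀ g : G, ∀ b : B, ∃ r : R,
      b - algebraMap R B r ∈ Ideal.span {algebraMap R B π, g • s} := by
    intro g b
    obtain ⟨r, hr⟩ := hres (g⁻¹ • b)
    refine ⟨r, ?_⟩
    have h1 := smul_mem_span_pair g π s _ hr
    rwa [smul_sub, smul_inv_smul, smul_algebraMap] at h1
  have hmg : ∀ g : G, ∀ r ∈ maximalIdeal R,
      algebraMap R B r ∈ Ideal.span {algebraMap R B π, g • s} := by
    intro g r hr
    have h1 := smul_mem_span_pair g π s _ (hm r hr)
    rwa [smul_algebraMap] at h1
  have hresa : ∀ j < n, ∀ b : B, ∃ r : R,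
      b - algebraMap R B r ∈ Ideal.span {algebraMap R B π, a j} := by
    intro j hj b
    rw [hca j hj]
    exact hresg _ b
  -- the partial products generate `B` (Nakayama)
  have hB := exists_mem_span_sub_mem π a n hresa n le_rfl
  have hspan : (⊤ : Submodule R B) ≤ Submodule.span R (c '' Set.Iio n) := by
    refine Submodule.le_of_le_smul_of_le_jacobson_bot Module.Finite.fg_top
      (maximalIdeal_le_jacobson ⊥) ?_
    intro b _
    obtain ⟨y, hy, hby⟩ := hB b
    rw [Submodule.mem_sup]
    refine ⟨y, hy, b - y, ?_, by ring⟩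
    obtain ⟨b1, b2, h12⟩ := Ideal.mem_span_pair.mp hby
    have hcn' : ∏ j ∈ Finset.range n, a j = algebraMap R B t := by
      rw [ht]
      exact hcn
    rw [← h12, hcn']
    refine Submodule.add_mem _ ?_ ?_
    · rw [mul_comm, ← Algebra.smul_def]
      exact Submodule.smul_mem_smul hπ Submodule.mem_top
    · rw [mul_comm, ← Algebra.smul_def]
      exact Submodule.smul_mem_smul htm Submodule.mem_top
  let w : Fin n → B := fun i => c i
  have hwspan : (⊤ : Submodule R B) ≤ Submodule.span R (Set.range w) := by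
    refine hspan.trans (Submodule.span_mono ?_)
    rintro _ ⟨i, hi, rfl⟩
    exact ⟨⟨i, hi⟩, rfl⟩
  -- `n` generators of a module with `n` independent elements form a basis (Orzech)
  have hwli : LinearIndependent R w := by
    refine OrzechProperty.injective_of_surjective_of_injective
      (Finsupp.linearCombination R v) (Finsupp.linearCombination R w) hv ?_
    rw [← LinearMap.range_eq_top, Finsupp.range_linearCombination]
    exact top_le_iff.mp hwspan
  let bas : Module.Basis (Fin n) R B := Module.Basis.mk hwli hwspan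
  have hbas : ∀ i : Fin n, bas i = c i := fun i => by
    simp [bas, w]
  refine ⟨t, htm, ?_, ?_, Module.Free.of_basis bas⟩
  · rw [ht]
    exact (finprod_eq_prod_of_fintype _).symm
  · apply le_antisymm
    · intro x hx
      obtain ⟨k, hk⟩ : ∃ k, k + 1 = n := ⟨n - 1, Nat.sub_add_cancel hnpos⟩
      have hkn : k < n := by omega
      obtain ⟨b1, b2, h12⟩ := Ideal.mem_span_pair.mp (hmg (e ⟨k, hkn⟩) x hx)
      have hck : algebraMap R B t = c k * a k := by
        rw [ht, ← hcn, ← hk]
        exact Finset.prod_range_succ _ _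
      have key : x • c k = π • (c k * b1) + t • b2 := by
        rw [Algebra.smul_def, Algebra.smul_def, Algebra.smul_def, ← h12, hck, hca k hkn]
        ring
      have h2 := congrArg (fun z => bas.repr z ⟨k, hkn⟩) key
      simp only [map_add, map_smul, Finsupp.add_apply, Finsupp.smul_apply, smul_eq_mul] at h2
      rw [← hbas ⟨k, hkn⟩, Module.Basis.repr_self, Finsupp.single_eq_same, mul_one] at h2
      rw [Ideal.mem_span_pair]
      exact ⟨bas.repr (bas ⟨k, hkn⟩ * b1) ⟨k, hkn⟩, bas.repr b2 ⟨k, hkn⟩, by rw [h2]; ring⟩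
    · rw [Ideal.span_le]
      rintro x (rfl | rfl)
      · exact hπ
      · exact htm

/-- [IGUSA] P5 (table statement with the corrected hypothesis `hm`: `(π, s) B ⊇ 𝔪 B`). -/
theorem normTrick {R B G : Type*} [CommRing R] [IsDomain R] [IsLocalRing R] [IsNoetherianRing R]
    [CommRing B] [Algebra R B] [Module.Finite R B] [Group G] [Finite G]
    [MulSemiringAction G B] [SMulCommClass G R B]
    (hinv : ∀ b : B, (∀ g : G, g • b = b) → ∃ r : R, algebraMap R B r = b)
    (hrank : ∃ v : Fin (Nat.card G) → B, LinearIndependent R v)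
    (π : R) (hπ : π ∈ IsLocalRing.maximalIdeal R) (s : B)
    (hQ : (1 : B) ∉ Ideal.span {algebraMap R B π, s})
    (hres : ∀ b : B, ∃ r : R, b - algebraMap R B r ∈ Ideal.span {algebraMap R B π, s})
    (hm : ∀ r ∈ IsLocalRing.maximalIdeal R,
      algebraMap R B r ∈ Ideal.span {algebraMap R B π, s}) :
    ∃ t ∈ IsLocalRing.maximalIdeal R, IsLocalRing.maximalIdeal R = Ideal.span {π, t} := by
  obtain ⟨t, htm, -, h, -⟩ := normTrick_strong hinv hrank π hπ s hQ hres hm
  exact ⟨t, htm, h⟩

/-- Variant: `(π, s) B` is assumed to be a maximal ideal of `B` (this gives `hπ`, `hQ`, `hm`). -/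
theorem normTrick_of_isMaximal {R B G : Type*} [CommRing R] [IsLocalRing R]
    [CommRing B] [Algebra R B] [Module.Finite R B] [Group G] [Finite G]
    [MulSemiringAction G B] [SMulCommClass G R B]
    (hinv : ∀ b : B, (∀ g : G, g • b = b) → ∃ r : R, algebraMap R B r = b)
    (hrank : ∃ v : Fin (Nat.card G) → B, LinearIndependent R v)
    (π : R) (s : B)
    (hmax : (Ideal.span {algebraMap R B π, s}).IsMaximal)
    (hres : ∀ b : B, ∃ r : R, b - algebraMap R B r ∈ Ideal.span {algebraMap R B π, s}) :
    ∃ t ∈ IsLocalRing.maximalIdeal R, algebraMap R B t = ∏ᶠ g : G, g • s ∧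
      IsLocalRing.maximalIdeal R = Ideal.span {π, t} ∧ Module.Free R B := by
  have hint : Algebra.IsIntegral R B := inferInstance
  have hcm : ((Ideal.span {algebraMap R B π, s}).comap (algebraMap R B)).IsMaximal :=
    Ideal.isMaximal_comap_of_isIntegral_of_isMaximal (R := R) _
  have hc : (Ideal.span {algebraMap R B π, s}).comap (algebraMap R B) = maximalIdeal R :=
    IsLocalRing.eq_maximalIdeal hcm
  have hm : ∀ r ∈ IsLocalRing.maximalIdeal R,
      algebraMap R B r ∈ Ideal.span {algebraMap R B π, s} := by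
    intro r hr
    rw [← hc] at hr
    exact hr
  have hπ : π ∈ IsLocalRing.maximalIdeal R := by
    rw [← hc]
    exact Ideal.subset_span (by simp)
  exact normTrick_strong hinv hrank π hπ s ((Ideal.ne_top_iff_one _).mp hmax.ne_top) hres hm

end Fermat.Agent.S18.NormTrick
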