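import Fermat.Agent.S18.NormTrick

/-!
# S18 / [IGUSA] : the norm trick, consumer form (local generation at a maximal ideal + CRT)

`R` local, `B` a finite `R`-algebra (hence semilocal), `Q` a maximal ideal of `B` which is
*locally* generated by `π` and `s0` (`∀ z ∈ Q, ∃ u ∉ Q, u z ∈ (π, s0)`).  Then there is `s` with
`(π, s) B = Q` (choose by CRT `f ∈ Q`, `f ≡ 1` modulo the other maximal ideals, and put
`s := s0 + f² (1 - s0)`).  Combined with `NormTrick.normTrick_of_isMaximal` this gives the norm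
trick under the hypotheses that the regular-point leaf produces.
-/

set_option autoImplicit false

namespace Fermat.Agent.S18.NormTrickCRT

open IsLocalRing

/-- A maximal ideal of a finite algebra over a local ring lies over the maximal ideal. -/
theorem comap_eq_maximalIdeal {R B : Type*} [CommRing R] [IsLocalRing R] [CommRing B]
    [Algebra R B] [Module.Finite R B] (M : Ideal B) (hM : M.IsMaximal) :
    M.comap (algebraMap R B) = maximalIdeal R := by
  have hint : Algebra.IsIntegral R B := inferInstance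
  exact IsLocalRing.eq_maximalIdeal (Ideal.isMaximal_comap_of_isIntegral_of_isMaximal (R := R) M)

/-- A finite algebra over a local ring is semilocal. -/
theorem finite_setOf_isMaximal (R : Type*) {B : Type*} [CommRing R] [IsLocalRing R] [CommRing B]
    [Algebra R B] [Module.Finite R B] : {M : Ideal B | M.IsMaximal}.Finite := by
  refine (Algebra.QuasiFinite.finite_primesOver (R := R) (S := B) (maximalIdeal R)).subset ?_
  intro M hM
  exact ⟨Ideal.IsMaximal.isPrime hM, ⟨(comap_eq_maximalIdeal (R := R) M hM).symm⟩⟩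

/-- CRT in a semilocal ring: an element of `Q` congruent to `1` modulo all other maximal
ideals. -/
theorem exists_mem_sub_one_mem {B : Type*} [CommRing B]
    (hfin : {M : Ideal B | M.IsMaximal}.Finite) (Q : Ideal B) (hQ : Q.IsMaximal) :
    ∃ f ∈ Q, ∀ M : Ideal B, M.IsMaximal → M ≠ Q → f - 1 ∈ M := by
  classical
  have h1 : Q ⊔ ⨅ M ∈ hfin.toFinset.erase Q, M = ⊤ := by
    refine Ideal.sup_iInf_eq_top (fun M hM => ?_)
    rw [Finset.mem_erase, Set.Finite.mem_toFinset] at hM
    exact Ideal.IsMaximal.coprime_of_ne hQ hM.2 (Ne.symm hM.1)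
  have h2 : (1 : B) ∈ Q ⊔ ⨅ M ∈ hfin.toFinset.erase Q, M := by
    rw [h1]
    exact Submodule.mem_top
  obtain ⟨f, hf, h, hh, hfh⟩ := Submodule.mem_sup.mp h2
  refine ⟨f, hf, fun M hM hMQ => ?_⟩
  have hMT : M ∈ hfin.toFinset.erase Q := by
    rw [Finset.mem_erase, Set.Finite.mem_toFinset]
    exact ⟨hMQ, hM⟩
  have hhM : h ∈ M := by
    have h3 := Ideal.mem_iInf.mp hh M
    exact Ideal.mem_iInf.mp h3 hMT
  have h4 : f - 1 = -h := by
    rw [← hfh]
    ring
  rw [h4]
  exact M.neg_mem hhM

/-- In a finite algebra over a local ring, a maximal ideal locally generated by `π` and `s0`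
is globally generated by `π` and a suitable `s`. -/
theorem exists_span_pair_eq {R B : Type*} [CommRing R] [IsLocalRing R] [CommRing B]
    [Algebra R B] [Module.Finite R B] (π : R) (hπ : π ∈ maximalIdeal R)
    (Q : Ideal B) (hQ : Q.IsMaximal) (s0 : B) (hs0 : s0 ∈ Q)
    (hloc : ∀ z ∈ Q, ∃ u ∉ Q, u * z ∈ Ideal.span {algebraMap R B π, s0}) :
    ∃ s : B, Ideal.span {algebraMap R B π, s} = Q := by
  have hQp : Q.IsPrime := hQ.isPrime
  have hfin := finite_setOf_isMaximal R (B := B)
  obtain ⟨f, hfQ, hf⟩ := exists_mem_sub_one_mem hfin Q hQ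
  have hπQ : algebraMap R B π ∈ Q := by
    have h1 : π ∈ Q.comap (algebraMap R B) := by
      rw [comap_eq_maximalIdeal Q hQ]
      exact hπ
    exact h1
  set s : B := s0 + f * f * (1 - s0) with hs
  have hsQ : s ∈ Q := Q.add_mem hs0 (Q.mul_mem_right _ (Q.mul_mem_right _ hfQ))
  have hs1 : ∀ M : Ideal B, M.IsMaximal → M ≠ Q → s ∉ M := by
    intro M hM hMQ hsM
    have h1 : s - 1 = (f - 1) * ((f + 1) * (1 - s0)) := by
      rw [hs]
      ring
    have h2 : s - 1 ∈ M := by
      rw [h1]
      exact M.mul_mem_right _ (hf M hM hMQ)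
    have h3 : (1 : B) ∈ M := by
      have h4 : (1 : B) = s - (s - 1) := by ring
      rw [h4]
      exact M.sub_mem hsM h2
    exact hM.ne_top ((Ideal.eq_top_iff_one M).mpr h3)
  have hπI : algebraMap R B π ∈ Ideal.span {algebraMap R B π, s} :=
    Ideal.subset_span (by simp)
  have hsI : s ∈ Ideal.span {algebraMap R B π, s} := Ideal.subset_span (by simp)
  -- `s0` is a multiple of `(π, s)` up to an element outside `Q`
  obtain ⟨v, hvQ, hv⟩ : ∃ v ∉ Q, v * s0 ∈ Ideal.span {algebraMap R B π, s} := by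
    obtain ⟨uf, huf, hufmem⟩ := hloc f hfQ
    obtain ⟨b1, b2, h12⟩ := Ideal.mem_span_pair.mp hufmem
    refine ⟨uf + b2 * f * (1 - s0), ?_, ?_⟩
    · intro hmem
      apply huf
      have h1 : uf = uf + b2 * f * (1 - s0) - b2 * f * (1 - s0) := by ring
      rw [h1]
      exact Q.sub_mem hmem (Q.mul_mem_right _ (Q.mul_mem_left _ hfQ))
    · have h1 : (uf + b2 * f * (1 - s0)) * s0 =
          uf * s - (b1 * f * (1 - s0)) * algebraMap R B π := by
        have h2 : uf * (f * f * (1 - s0)) = (uf * f) * (f * (1 - s0)) := by ring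
        rw [hs, mul_add, h2, ← h12]
        ring
      rw [h1]
      exact Ideal.sub_mem _ (Ideal.mul_mem_left _ _ hsI) (Ideal.mul_mem_left _ _ hπI)
  refine ⟨s, le_antisymm ?_ ?_⟩
  · rw [Ideal.span_le]
    rintro x (rfl | rfl)
    · exact hπQ
    · exact hsQ
  · intro z hz
    -- the colon ideal `{u | u z ∈ (π, s)}` lies in no maximal ideal
    by_contra hzI
    set J : Ideal B :=
      Submodule.comap (LinearMap.mulRight B z) (Ideal.span {algebraMap R B π, s}) with hJ
    have hJmem : ∀ u : B, u ∈ J ↔ u * z ∈ Ideal.span {algebraMap R B π, s} := fun u => by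
      rw [hJ, Submodule.mem_comap, LinearMap.mulRight_apply]
    have hJtop : J ≠ ⊤ := by
      intro h
      apply hzI
      have h1 : (1 : B) ∈ J := by
        rw [h]
        exact Submodule.mem_top
      simpa using (hJmem 1).mp h1
    obtain ⟨M, hM, hJM⟩ := Ideal.exists_le_maximal J hJtop
    by_cases hMQ : M = Q
    · subst hMQ
      obtain ⟨u, hu, humem⟩ := hloc z hz
      obtain ⟨c1, c2, h12⟩ := Ideal.mem_span_pair.mp humem
      have h1 : v * u ∈ J := by
        rw [hJmem]
        have h2 : v * u * z = (v * c1) * algebraMap R B π + c2 * (v * s0) := by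
          rw [mul_assoc, ← h12]
          ring
        rw [h2]
        exact Ideal.add_mem _ (Ideal.mul_mem_left _ _ hπI) (Ideal.mul_mem_left _ _ hv)
      rcases hQp.mem_or_mem (hJM h1) with h | h
      · exact hvQ h
      · exact hu h
    · have h1 : s ∈ J := by
        rw [hJmem]
        exact Ideal.mul_mem_right _ _ hsI
      exact hs1 M hM hMQ (hJM h1)

/-- [IGUSA] norm trick, consumer form: `Q` a maximal ideal of `B` locally generated by `π, s0`
with residue field `R / 𝔪`. -/
theorem normTrick' {R B G : Type*} [CommRing R] [IsLocalRing R]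
    [CommRing B] [Algebra R B] [Module.Finite R B] [Group G] [Finite G]
    [MulSemiringAction G B] [SMulCommClass G R B]
    (hinv : ∀ b : B, (∀ g : G, g • b = b) → ∃ r : R, algebraMap R B r = b)
    (hrank : ∃ v : Fin (Nat.card G) → B, LinearIndependent R v)
    (π : R) (hπ : π ∈ IsLocalRing.maximalIdeal R)
    (Q : Ideal B) (hQ : Q.IsMaximal) (s0 : B) (hs0 : s0 ∈ Q)
    (hloc : ∀ z ∈ Q, ∃ u ∉ Q, u * z ∈ Ideal.span {algebraMap R B π, s0})
    (hres : ∀ b : B, ∃ r : R, b - algebraMap R B r ∈ Q) :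
    ∃ t ∈ IsLocalRing.maximalIdeal R,
      IsLocalRing.maximalIdeal R = Ideal.span {π, t} ∧ Module.Free R B := by
  obtain ⟨s, hs⟩ := exists_span_pair_eq π hπ Q hQ s0 hs0 hloc
  obtain ⟨t, ht, -, h1, h2⟩ := NormTrick.normTrick_of_isMaximal hinv hrank π s
    (by rw [hs]; exact hQ) (by rw [hs]; exact hres)
  exact ⟨t, ht, h1, h2⟩

end Fermat.Agent.S18.NormTrickCRT
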