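import Mathlib
import Fermat.Agent.S18.IntClReg

/-!
# S18 / [ARITH] [Red] abstract core : π-saturation of the integral closure of `O[j]`

`O` a UFD, `T` a field, `j ∈ T` transcendental over `O`, `π` prime in `O`, `c ∈ O[X]` not
divisible by `π`.  If `x, w ∈ T` are integral over `O[j]` and `c(j) x = π w`, then `x = π u` with
`u` integral over `O[j]` (`exists_integral_mul_eq`, from `IntClReg.exists_integral_smul_eq` applied
to the polynomial ring `O[X]` acting through `aeval j`).

Also: integrality over `Algebra.adjoin O {j}` is integrality along `aeval j : O[X] → T`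
(`isIntegralElem_aeval_iff`).
-/

set_option autoImplicit false

namespace Fermat.Agent.S18.PolyIntCl

open Polynomial

/-- `aeval j` with codomain restricted to `O[j]`. -/
noncomputable def toAdjoin {O T : Type*} [CommRing O] [CommRing T] [Algebra O T] (j : T) :
    O[X] →+* Algebra.adjoin O {j} :=
  (aeval (R := O) j).toRingHom.codRestrict (Algebra.adjoin O {j}).toSubring (fun p => by
    show aeval j p ∈ Algebra.adjoin O {j}
    rw [Algebra.adjoin_singleton_eq_range_aeval]
    exact ⟨p, rfl⟩)

theorem toAdjoin_surjective {O T : Type*} [CommRing O] [CommRing T] [Algebra O T] (j : T) :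
    Function.Surjective (toAdjoin (O := O) j) := by
  rintro ⟨z, hz⟩
  have hz' := hz
  rw [Algebra.adjoin_singleton_eq_range_aeval] at hz'
  obtain ⟨p, hp⟩ := hz'
  exact ⟨p, Subtype.ext hp⟩

theorem algebraMap_comp_toAdjoin {O T : Type*} [CommRing O] [CommRing T] [Algebra O T] (j : T) :
    (algebraMap (Algebra.adjoin O {j}) T).comp (toAdjoin (O := O) j) =
      (aeval (R := O) j).toRingHom := rfl

/-- Integrality over `O[j] = Algebra.adjoin O {j}` is integrality over `Polynomial O` acting
through `aeval j`. -/
theorem isIntegralElem_aeval_iff {O T : Type*} [CommRing O] [CommRing T] [Algebra O T] (j : T)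
    (x : T) :
    (aeval (R := O) j).toRingHom.IsIntegralElem x ↔ IsIntegral (Algebra.adjoin O {j}) x := by
  constructor
  · rintro ⟨q, hq, hqx⟩
    refine ⟨q.map (toAdjoin j), hq.map _, ?_⟩
    rw [eval₂_map, algebraMap_comp_toAdjoin]
    exact hqx
  · rintro ⟨p, hp, hpx⟩
    have hl : p ∈ lifts (toAdjoin (O := O) j) := by
      rw [lifts_iff_coeff_lifts]
      intro n
      exact toAdjoin_surjective j _
    obtain ⟨q, hq, -, hqm⟩ := lifts_and_natDegree_eq_and_monic hl hp
    refine ⟨q, hqm, ?_⟩
    rw [← algebraMap_comp_toAdjoin, ← eval₂_map, hq]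
    exact hpx

/-- **π-saturation of the integral closure of `O[j]`.**  `O` a UFD, `j` transcendental over `O` in
a field `T`, `π` prime in `O`, `c ∈ O[X]` with `π ∤ c`.  If `x, w ∈ T` are integral over `O[j]`
and `c(j) x = π w`, then `x = π u` with `u` integral over `O[j]`. -/
theorem exists_integral_mul_eq {O T : Type*} [CommRing O] [IsDomain O]
    [UniqueFactorizationMonoid O] [Field T] [Algebra O T] (j : T) (hj : Transcendental O j)
    (π : O) (hπ : Prime π) (c : O[X]) (hc : ¬ C π ∣ c) (x w : T)
    (hx : IsIntegral (Algebra.adjoin O {j}) x) (hw : IsIntegral (Algebra.adjoin O {j}) w)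
    (h : aeval j c * x = algebraMap O T π * w) :
    ∃ u : T, IsIntegral (Algebra.adjoin O {j}) u ∧ x = algebraMap O T π * u := by
  let algPT : Algebra O[X] T := (aeval (R := O) j).toRingHom.toAlgebra
  have hinj : Function.Injective (algebraMap O[X] T) := transcendental_iff_injective.mp hj
  let algKT : Algebra (FractionRing O[X]) T := (IsFractionRing.lift hinj).toAlgebra
  have : IsScalarTower O[X] (FractionRing O[X]) T :=
    IsScalarTower.of_algebraMap_eq (fun p => (IsFractionRing.lift_algebraMap hinj p).symm)
  have hx' : IsIntegral O[X] x := (isIntegralElem_aeval_iff j x).mpr hx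
  have hw' : IsIntegral O[X] w := (isIntegralElem_aeval_iff j w).mpr hw
  have hCπ : Prime (C π : O[X]) := prime_C_iff.mpr hπ
  have hc0 : c ≠ 0 := fun h0 => hc (h0 ▸ dvd_zero _)
  have hxy : c • x = (C π : O[X]) • w := by
    rw [Algebra.smul_def, Algebra.smul_def]
    show aeval j c * x = aeval j (C π) * w
    rw [aeval_C]
    exact h
  obtain ⟨u, hu, hxu⟩ := IntClReg.exists_integral_smul_eq (K := FractionRing O[X]) (C π) c
    hCπ.ne_zero hc0
    (fun a h1 h2 => IntClReg.mem_of_pow_mul_mem_of_prime (C π) c hCπ hc a h1 h2) x w hx' hw' hxy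
  refine ⟨u, (isIntegralElem_aeval_iff j u).mp hu, ?_⟩
  rw [hxu, Algebra.smul_def]
  show aeval j (C π) * u = _
  rw [aeval_C]

end Fermat.Agent.S18.PolyIntCl
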