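/-
S18, block [Loc], abstract leaf (helper60): the place attached to a prime element.

Let `R` be a domain in which every nonzero element is a power of the prime element `p` times an
element not divisible by `p` (e.g. a UFD), `F = Frac R`, and `K` a field of constants of `F`
contained in the local ring `R_(p)`.  Then `R_(p) = {a / b : p ∤ b}` is a place of `F / K`
(in the sense of the frozen `AlgebraicCurve.Place`), and its order function is the
`p`-adic multiplicity:  `ord (p ^ i * a / (p ^ j * b)) = i - j`  for `p ∤ a`, `p ∤ b`.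
-/
import Mathlib
import Fermat.Prelude.Def_AlgebraicCurve_DivisorClassGroup

set_option autoImplicit false

namespace Fermat.Agent.S18.PrimePlace

open AlgebraicCurve

variable {K F R : Type*} [Field K] [Field F] [Algebra K F] [CommRing R] [IsDomain R]
  [WfDvdMonoid R] [Algebra R F] [IsFractionRing R F]

/-- The local ring `R_(p) = {a / b : p ∤ b}` of `R` at the prime element `p`, as a valuation
subring of `F = Frac R`. -/
def valSub (p : R) (hp : Prime p) : ValuationSubring F where
  carrier := {x | ∃ a b : R, ¬ p ∣ b ∧ x * algebraMap R F b = algebraMap R F a}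
  mul_mem' := by
    rintro x y ⟨a, b, hb, hx⟩ ⟨c, d, hd, hy⟩
    refine ⟨a * c, b * d, fun h => (hp.dvd_or_dvd h).elim hb hd, ?_⟩
    rw [map_mul, map_mul, ← hx, ← hy]
    ring
  one_mem' := ⟨1, 1, hp.not_dvd_one, by simp⟩
  add_mem' := by
    rintro x y ⟨a, b, hb, hx⟩ ⟨c, d, hd, hy⟩
    refine ⟨a * d + c * b, b * d, fun h => (hp.dvd_or_dvd h).elim hb hd, ?_⟩
    rw [map_add, map_mul, map_mul, map_mul, ← hx, ← hy]
    ring
  zero_mem' := ⟨0, 1, hp.not_dvd_one, by simp⟩
  neg_mem' := by
    rintro x ⟨a, b, hb, hx⟩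
    exact ⟨-a, b, hb, by rw [map_neg, ← hx]; ring⟩
  mem_or_inv_mem' := by
    intro x
    by_cases hx0 : x = 0
    · exact Or.inl ⟨0, 1, hp.not_dvd_one, by simp [hx0]⟩
    obtain ⟨a, b, hb, rfl⟩ := IsFractionRing.div_surjective (A := R) x
    have hb0 : b ≠ 0 := nonZeroDivisors.ne_zero hb
    have ha0 : a ≠ 0 := by
      rintro rfl
      exact hx0 (by simp)
    have hinj : Function.Injective (algebraMap R F) := IsFractionRing.injective R F
    have hbF : algebraMap R F b ≠ 0 := fun h => hb0 (hinj (by rw [h, map_zero]))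
    have haF : algebraMap R F a ≠ 0 := fun h => ha0 (hinj (by rw [h, map_zero]))
    obtain ⟨n, a', ha', rfl⟩ := WfDvdMonoid.max_power_factor ha0 hp.irreducible
    obtain ⟨k, b', hb', rfl⟩ := WfDvdMonoid.max_power_factor hb0 hp.irreducible
    have hpF : algebraMap R F p ≠ 0 := fun h => hp.ne_zero (hinj (by rw [h, map_zero]))
    have hb'F : algebraMap R F b' ≠ 0 := by
      intro h
      apply hbF
      rw [map_mul, h, mul_zero]
    have ha'F : algebraMap R F a' ≠ 0 := by
      intro h
      apply haF
      rw [map_mul, h, mul_zero]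
    rcases le_total k n with hkn | hnk
    · left
      refine ⟨p ^ (n - k) * a', b', hb', ?_⟩
      obtain ⟨d, rfl⟩ := Nat.exists_eq_add_of_le hkn
      simp only [map_mul, map_pow, Nat.add_sub_cancel_left]
      field_simp
      ring
    · right
      refine ⟨p ^ (k - n) * b', a', ha', ?_⟩
      obtain ⟨d, rfl⟩ := Nat.exists_eq_add_of_le hnk
      simp only [map_mul, map_pow, Nat.add_sub_cancel_left]
      field_simp
      ring

theorem mem_valSub {p : R} {hp : Prime p} {x : F} :
    x ∈ valSub (F := F) p hp ↔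
      ∃ a b : R, ¬ p ∣ b ∧ x * algebraMap R F b = algebraMap R F a := Iff.rfl

theorem algebraMap_mem (p : R) (hp : Prime p) (x : R) : algebraMap R F x ∈ valSub (F := F) p hp :=
  ⟨x, 1, hp.not_dvd_one, by simp⟩

theorem inv_algebraMap_mem (p : R) (hp : Prime p) {x : R} (hx : ¬ p ∣ x) :
    (algebraMap R F x)⁻¹ ∈ valSub (F := F) p hp := by
  have hinj : Function.Injective (algebraMap R F) := IsFractionRing.injective R F
  have hx0 : x ≠ 0 := by
    rintro rfl
    exact hx (dvd_zero p)
  have hxF : algebraMap R F x ≠ 0 := fun h => hx0 (hinj (by rw [h, map_zero]))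
  exact ⟨1, x, hx, by rw [inv_mul_cancel₀ hxF, map_one]⟩

theorem inv_prime_notMem (p : R) (hp : Prime p) :
    (algebraMap R F p)⁻¹ ∉ valSub (F := F) p hp := by
  have hinj : Function.Injective (algebraMap R F) := IsFractionRing.injective R F
  have hpF : algebraMap R F p ≠ 0 := fun h => hp.ne_zero (hinj (by rw [h, map_zero]))
  rintro ⟨a, b, hb, h⟩
  apply hb
  refine ⟨a, hinj ?_⟩
  rw [map_mul, ← h]
  field_simp

/-- the prime element as an element of the valuation subring. -/
def unif (p : R) (hp : Prime p) : valSub (F := F) p hp := ⟨algebraMap R F p, algebraMap_mem p hp p⟩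

theorem isUnit_of_inv_mem {V : ValuationSubring F} (x : V) (hx : (x : F) ≠ 0)
    (h : (x : F)⁻¹ ∈ V) : IsUnit x :=
  IsUnit.of_mul_eq_one ⟨(x : F)⁻¹, h⟩ (Subtype.ext (by simp [hx]))

theorem irreducible_unif (p : R) (hp : Prime p) : Irreducible (unif (F := F) p hp) := by
  have hinj : Function.Injective (algebraMap R F) := IsFractionRing.injective R F
  have hpF : algebraMap R F p ≠ 0 := fun h => hp.ne_zero (hinj (by rw [h, map_zero]))
  refine ⟨?_, ?_⟩
  · intro hu
    obtain ⟨y, hy⟩ := hu.exists_right_inv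
    have h1 : algebraMap R F p * (y : F) = 1 := congrArg Subtype.val hy
    have h2 : (y : F) = (algebraMap R F p)⁻¹ := eq_inv_of_mul_eq_one_right h1
    exact inv_prime_notMem p hp (h2 ▸ y.2)
  · rintro ⟨x, a, b, hb, hx⟩ ⟨y, c, d, hd, hy⟩ hxy
    have h1 : algebraMap R F p = x * y := congrArg Subtype.val hxy
    have h2 : p * (b * d) = a * c := by
      apply hinj
      rw [map_mul, map_mul, map_mul, h1, ← hx, ← hy]
      ring
    have hbd : ¬ p ∣ b * d := fun h => (hp.dvd_or_dvd h).elim hb hd
    have hac : p ∣ a * c := ⟨b * d, h2.symm⟩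
    have hx0 : x ≠ 0 := by
      rintro rfl
      exact hpF (by rw [h1, zero_mul])
    have hy0 : y ≠ 0 := by
      rintro rfl
      exact hpF (by rw [h1, mul_zero])
    have hbF : algebraMap R F b ≠ 0 := fun h => hb (by
      have : b = 0 := hinj (by rw [h, map_zero])
      rw [this]; exact dvd_zero p)
    have hdF : algebraMap R F d ≠ 0 := fun h => hd (by
      have : d = 0 := hinj (by rw [h, map_zero])
      rw [this]; exact dvd_zero p)
    rcases hp.dvd_or_dvd hac with ⟨a', rfl⟩ | ⟨c', rfl⟩
    · -- then `p ∤ c`, so `y` is a unit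
      right
      have hc : ¬ p ∣ c := by
        intro hc
        obtain ⟨c', rfl⟩ := hc
        apply hbd
        refine ⟨a' * c', ?_⟩
        have : p * (b * d) = p * (p * (a' * c')) := by rw [h2]; ring
        exact mul_left_cancel₀ hp.ne_zero this
      refine isUnit_of_inv_mem _ hy0 ?_
      have hcF : algebraMap R F c ≠ 0 := fun h => hc (by
        have : c = 0 := hinj (by rw [h, map_zero])
        rw [this]; exact dvd_zero p)
      refine ⟨d, c, hc, ?_⟩
      show y⁻¹ * algebraMap R F c = algebraMap R F d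
      rw [← hy, ← mul_assoc, inv_mul_cancel₀ hy0, one_mul]
    · left
      have ha : ¬ p ∣ a := by
        intro ha
        obtain ⟨a', rfl⟩ := ha
        apply hbd
        refine ⟨a' * c', ?_⟩
        have : p * (b * d) = p * (p * (a' * c')) := by rw [h2]; ring
        exact mul_left_cancel₀ hp.ne_zero this
      refine isUnit_of_inv_mem _ hx0 ?_
      have haF : algebraMap R F a ≠ 0 := fun h => ha (by
        have : a = 0 := hinj (by rw [h, map_zero])
        rw [this]; exact dvd_zero p)
      refine ⟨b, a, ha, ?_⟩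
      show x⁻¹ * algebraMap R F a = algebraMap R F b
      rw [← hx, ← mul_assoc, inv_mul_cancel₀ hx0, one_mul]

theorem hasUnitMulPow (p : R) (hp : Prime p) :
    IsDiscreteValuationRing.HasUnitMulPowIrreducibleFactorization (valSub (F := F) p hp) := by
  have hinj : Function.Injective (algebraMap R F) := IsFractionRing.injective R F
  have hpF : algebraMap R F p ≠ 0 := fun h => hp.ne_zero (hinj (by rw [h, map_zero]))
  refine ⟨unif p hp, irreducible_unif p hp, ?_⟩
  rintro ⟨x, a, b, hb, hx⟩ hx0
  have hxF : x ≠ 0 := fun h => hx0 (Subtype.ext h)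
  have hbF : algebraMap R F b ≠ 0 := fun h => hb (by
    have : b = 0 := hinj (by rw [h, map_zero])
    rw [this]; exact dvd_zero p)
  have ha0 : a ≠ 0 := by
    rintro rfl
    rw [map_zero] at hx
    exact (mul_ne_zero hxF hbF) hx
  obtain ⟨n, a', ha', rfl⟩ := WfDvdMonoid.max_power_factor ha0 hp.irreducible
  have ha'F : algebraMap R F a' ≠ 0 := fun h => ha' (by
    have : a' = 0 := hinj (by rw [h, map_zero])
    rw [this]; exact dvd_zero p)
  -- the unit `a' / b`
  have hu1 : algebraMap R F a' / algebraMap R F b ∈ valSub (F := F) p hp :=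
    ⟨a', b, hb, by field_simp⟩
  have hu2 : (algebraMap R F a' / algebraMap R F b)⁻¹ ∈ valSub (F := F) p hp :=
    ⟨b, a', ha', by field_simp⟩
  have hu : IsUnit (⟨_, hu1⟩ : valSub (F := F) p hp) :=
    isUnit_of_inv_mem _ (div_ne_zero ha'F hbF) hu2
  refine ⟨n, hu.unit, Subtype.ext ?_⟩
  show (algebraMap R F p) ^ n * (algebraMap R F a' / algebraMap R F b) = x
  rw [eq_comm, ← mul_div_assoc, eq_div_iff hbF, hx, map_mul, map_pow]

/-- The place of `F / K` attached to the prime element `p`, provided the constants lie in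
`R_(p)`. -/
noncomputable def place (p : R) (hp : Prime p)
    (hK : ∀ c : K, ∃ a b : R, ¬ p ∣ b ∧ algebraMap K F c * algebraMap R F b = algebraMap R F a) :
    Place K F where
  toValuationSubring := valSub p hp
  algebraMap_mem' := hK
  ne_top' := fun h => inv_prime_notMem (F := F) p hp (by rw [h]; exact ValuationSubring.mem_top _)
  isPrincipalIdealRing' :=
    haveI := IsDiscreteValuationRing.ofHasUnitMulPowIrreducibleFactorization (hasUnitMulPow (F := F) p hp)
    inferInstance

variable (p : R) (hp : Prime p)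
  (hK : ∀ c : K, ∃ a b : R, ¬ p ∣ b ∧ algebraMap K F c * algebraMap R F b = algebraMap R F a)

theorem ord_prime : (place p hp hK).ord (algebraMap R F p) = 1 :=
  (place p hp hK).ord_coe_irreducible (π := unif p hp) (irreducible_unif p hp)

theorem ord_of_not_dvd {x : R} (hx : ¬ p ∣ x) : (place p hp hK).ord (algebraMap R F x) = 0 := by
  have hinj : Function.Injective (algebraMap R F) := IsFractionRing.injective R F
  have hxF : algebraMap R F x ≠ 0 := fun h => hx (by
    have : x = 0 := hinj (by rw [h, map_zero])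
    rw [this]; exact dvd_zero p)
  have hu : IsUnit (⟨algebraMap R F x, algebraMap_mem p hp x⟩ : valSub (F := F) p hp) :=
    isUnit_of_inv_mem _ hxF (inv_algebraMap_mem p hp hx)
  exact (place p hp hK).ord_coe_unit hu.unit

/-- the order of the place at `p` is the `p`-adic multiplicity. -/
theorem ord_eq (w : F) (a b : R) (i j : ℕ) (ha : ¬ p ∣ a) (hb : ¬ p ∣ b)
    (h : w * algebraMap R F (p ^ j * b) = algebraMap R F (p ^ i * a)) :
    (place p hp hK).ord w = (i : ℤ) - j := by
  have hinj : Function.Injective (algebraMap R F) := IsFractionRing.injective R F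
  have hpF : algebraMap R F p ≠ 0 := fun h => hp.ne_zero (hinj (by rw [h, map_zero]))
  have haF : algebraMap R F a ≠ 0 := fun h => ha (by
    have : a = 0 := hinj (by rw [h, map_zero])
    rw [this]; exact dvd_zero p)
  have hbF : algebraMap R F b ≠ 0 := fun h => hb (by
    have : b = 0 := hinj (by rw [h, map_zero])
    rw [this]; exact dvd_zero p)
  set v := place p hp hK
  have hw : w = algebraMap R F p ^ (i : ℤ) * algebraMap R F a *
      (algebraMap R F p ^ (j : ℤ) * algebraMap R F b)⁻¹ := by
    rw [eq_mul_inv_iff_mul_eq₀ (mul_ne_zero (zpow_ne_zero _ hpF) hbF), zpow_natCast, zpow_natCast]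
    simpa [map_mul, map_pow] using h
  rw [hw, v.ord_mul (mul_ne_zero (zpow_ne_zero _ hpF) haF)
      (inv_ne_zero (mul_ne_zero (zpow_ne_zero _ hpF) hbF)), v.ord_inv,
    v.ord_mul (zpow_ne_zero _ hpF) haF, v.ord_mul (zpow_ne_zero _ hpF) hbF, v.ord_zpow,
    v.ord_zpow, ord_prime p hp hK, ord_of_not_dvd p hp hK ha, ord_of_not_dvd p hp hK hb]
  ring

/-- **Place of a prime element.**  `R` a domain with `p`-adic factorisations (e.g. a UFD),
`F = Frac R`, `p` a prime element, constants `K ⊆ R_(p)`: there is a place `v` of `F / K` whose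
order function is the `p`-adic multiplicity. -/
theorem exists_place_of_prime' (p : R) (hp : Prime p)
    (hK : ∀ c : K, ∃ a b : R, ¬ p ∣ b ∧ algebraMap K F c * algebraMap R F b = algebraMap R F a) :
    ∃ v : Place K F, ∀ (w : F) (a b : R) (i j : ℕ), ¬ p ∣ a → ¬ p ∣ b →
      w * algebraMap R F (p ^ j * b) = algebraMap R F (p ^ i * a) → v.ord w = (i : ℤ) - j :=
  ⟨place p hp hK, fun w a b i j ha hb h => ord_eq p hp hK w a b i j ha hb h⟩

theorem exists_place_of_prime (p : R) (hp : Prime p)
    (hK : ∀ c : K, ∃ a b : R, ¬ p ∣ b ∧ algebraMap K F c * algebraMap R F b = algebraMap R F a) :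
    ∃ v : Place K F, v.ord (algebraMap R F p) = 1 ∧
      ∀ x : R, ¬ p ∣ x → v.ord (algebraMap R F x) = 0 :=
  ⟨place p hp hK, ord_prime p hp hK, fun _ hx => ord_of_not_dvd p hp hK hx⟩

end Fermat.Agent.S18.PrimePlace
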