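/-
S18 — [QExp] sub-lemma (D) (helper48): the division step of the `q`-expansion principle.

`T0 ι κ` is the subring of `Ω` generated by the images of `ι : O →+* Ω` and `κ : S →+* Ω`; its
elements are the values `val ι κ l = ∑ ι o_i * κ s_i` of lists `l : List (O × S)`.

`exists_eq_mul_of_red_eq_zero`: if `S` has a reduction `ρ : S → 𝔽_ℓ((q))` with kernel `ℓ S` and
`O` has a residue map `res : O → k` with kernel `ϖ O` (`ϖ ∣ ℓ`), and the "reduced value"
`∑ res o_i · φ(ρ s_i) ∈ k((q))` of a list vanishes, then the value of the list is divisible by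
`ι ϖ` inside `T0`.
-/
import Mathlib
import Fermat.Prelude.Def_ModularCurve_LaurentCoeff

set_option autoImplicit false

namespace Fermat.Agent.S18.QExpDiv

open ModularCurve

variable {O S Ω k : Type*} [CommRing O] [CommRing S] [CommRing Ω] [Field k]

/-- The value `∑ ι o_i * κ s_i` of a list of pairs. -/
def val (ι : O →+* Ω) (κ : S →+* Ω) (l : List (O × S)) : Ω := (l.map fun p => ι p.1 * κ p.2).sum

/-- The subring generated by the images of `ι` and `κ`. -/
def T0 (ι : O →+* Ω) (κ : S →+* Ω) : Subring Ω := Subring.closure (Set.range ι ∪ Set.range κ)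

theorem val_nil (ι : O →+* Ω) (κ : S →+* Ω) : val ι κ [] = 0 := by
  simp [val]

theorem val_cons (ι : O →+* Ω) (κ : S →+* Ω) (p : O × S) (l : List (O × S)) :
    val ι κ (p :: l) = ι p.1 * κ p.2 + val ι κ l := by
  simp [val]

theorem val_append (ι : O →+* Ω) (κ : S →+* Ω) (l₁ l₂ : List (O × S)) :
    val ι κ (l₁ ++ l₂) = val ι κ l₁ + val ι κ l₂ := by
  simp [val]

theorem val_map_mul (ι : O →+* Ω) (κ : S →+* Ω) (o : O) (s : S) (l : List (O × S)) :
    val ι κ (l.map fun q => (o * q.1, s * q.2)) = ι o * κ s * val ι κ l := by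
  induction l with
  | nil => simp [val]
  | cons q l ih =>
    rw [List.map_cons, val_cons, val_cons, ih]
    simp only [map_mul]
    ring

theorem val_map_neg (ι : O →+* Ω) (κ : S →+* Ω) (l : List (O × S)) :
    val ι κ (l.map fun q => (-q.1, q.2)) = - val ι κ l := by
  induction l with
  | nil => simp [val]
  | cons q l ih =>
    rw [List.map_cons, val_cons, val_cons, ih]
    simp only [map_neg]
    ring

theorem val_mem_T0 (ι : O →+* Ω) (κ : S →+* Ω) (l : List (O × S)) : val ι κ l ∈ T0 ι κ := by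
  induction l with
  | nil => rw [val_nil]; exact Subring.zero_mem _
  | cons q l ih =>
    rw [val_cons]
    exact Subring.add_mem _
      (Subring.mul_mem _ (Subring.subset_closure (Or.inl ⟨q.1, rfl⟩))
        (Subring.subset_closure (Or.inr ⟨q.2, rfl⟩))) ih

/-- The set of values is a subring. -/
def valSubring (ι : O →+* Ω) (κ : S →+* Ω) : Subring Ω where
  carrier := {x | ∃ l : List (O × S), x = val ι κ l}
  mul_mem' := by
    rintro _ _ ⟨l₁, rfl⟩ ⟨l₂, rfl⟩
    induction l₁ with
    | nil => exact ⟨[], by simp [val]⟩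
    | cons p l₁ ih =>
      obtain ⟨l₃, h₃⟩ := ih
      refine ⟨(l₂.map fun q => (p.1 * q.1, p.2 * q.2)) ++ l₃, ?_⟩
      rw [val_append, val_map_mul, ← h₃, val_cons]
      ring
  one_mem' := ⟨[(1, 1)], by simp [val]⟩
  add_mem' := by
    rintro _ _ ⟨l₁, rfl⟩ ⟨l₂, rfl⟩
    exact ⟨l₁ ++ l₂, (val_append ι κ l₁ l₂).symm⟩
  zero_mem' := ⟨[], by simp [val]⟩
  neg_mem' := by
    rintro _ ⟨l, rfl⟩
    exact ⟨l.map fun q => (-q.1, q.2), (val_map_neg ι κ l).symm⟩

theorem mem_T0_iff (ι : O →+* Ω) (κ : S →+* Ω) (x : Ω) :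
    x ∈ T0 ι κ ↔ ∃ l : List (O × S), x = val ι κ l := by
  constructor
  · intro hx
    have hle : T0 ι κ ≤ valSubring ι κ := by
      unfold T0
      rw [Subring.closure_le]
      rintro y (⟨o, rfl⟩ | ⟨s, rfl⟩)
      · exact ⟨[(o, 1)], by simp [val]⟩
      · exact ⟨[(1, s)], by simp [val]⟩
    exact hle hx
  · rintro ⟨l, rfl⟩
    exact val_mem_T0 ι κ l

/-- Shifting the second components by multiples of a fixed `s₀`. -/
theorem val_map_shift (ι : O →+* Ω) (κ : S →+* Ω) (m : S → ℕ) (s₀ : S) (l : List (O × S)) :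
    val ι κ (l.map fun q => (q.1, q.2 + m q.2 • s₀)) =
      val ι κ l + ι ((l.map fun q => m q.2 • q.1).sum) * κ s₀ := by
  induction l with
  | nil => simp [val]
  | cons q l ih =>
    rw [List.map_cons, val_cons, val_cons, ih, List.map_cons, List.sum_cons]
    simp only [map_add, map_mul, map_natCast, nsmul_eq_mul]
    ring

/-- Coefficients of the reduced value. -/
theorem coeff_val_red {ℓ : ℕ} (φ : ZMod ℓ →+* k) (res : O →+* k)
    (ρ : S →+* LaurentSeries (ZMod ℓ)) (l : List (O × S)) (n : ℤ) :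
    (val ((HahnSeries.C : k →+* LaurentSeries k).comp res) ((coeffMap φ).comp ρ) l).coeff n =
      (l.map fun q => res q.1 * φ ((ρ q.2).coeff n)).sum := by
  induction l with
  | nil => simp [val]
  | cons q l ih =>
    rw [val_cons, HahnSeries.coeff_add, ih, List.map_cons, List.sum_cons]
    congr 1
    rw [RingHom.comp_apply, RingHom.comp_apply, HahnSeries.C_mul_eq_smul, HahnSeries.coeff_smul,
      coeffMap_coeff, smul_eq_mul]

/-- Auxiliary: the coefficient sum after the choice of multipliers `m`. -/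
theorem sum_red_eq {ℓ : ℕ} (φ : ZMod ℓ →+* k) (res : O →+* k)
    (ρ : S →+* LaurentSeries (ZMod ℓ)) (n₀ : ℤ) (c₀ : ZMod ℓ) (m : S → ℕ)
    (hm : ∀ s : S, (ρ s).coeff n₀ = -((m s : ℕ) : ZMod ℓ) * c₀) (l : List (O × S)) :
    (l.map fun q => res q.1 * φ ((ρ q.2).coeff n₀)).sum =
      - (res ((l.map fun q => m q.2 • q.1).sum) * φ c₀) := by
  induction l with
  | nil => simp
  | cons q l ih =>
    rw [List.map_cons, List.sum_cons, ih, List.map_cons, List.sum_cons, map_add, hm q.2]
    simp only [map_neg, map_mul, map_natCast, nsmul_eq_mul]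
    ring

/-- **(D)** the division step. -/
theorem exists_eq_mul_of_red_eq_zero (ℓ : ℕ) [Fact ℓ.Prime] (φ : ZMod ℓ →+* k) (ι : O →+* Ω)
    (κ : S →+* Ω) (res : O →+* k) (ρ : S →+* LaurentSeries (ZMod ℓ)) (ϖ : O)
    (hres : ∀ o : O, res o = 0 → ∃ o', o = ϖ * o')
    (hρ : ∀ s : S, ρ s = 0 → ∃ s', s = (ℓ : S) * s') (hℓ : ∃ w : O, (ℓ : O) = ϖ * w)
    (l : List (O × S))
    (h : val ((HahnSeries.C : k →+* LaurentSeries k).comp res) ((coeffMap φ).comp ρ) l = 0) :
    ∃ l' : List (O × S), val ι κ l = ι ϖ * val ι κ l' := by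
  have : NeZero ℓ := ⟨(Fact.out : ℓ.Prime).ne_zero⟩
  induction hn : l.length using Nat.strong_induction_on generalizing l with
  | _ n ih =>
  cases l with
  | nil => exact ⟨[], by simp [val]⟩
  | cons p l' =>
    have hlen : l'.length < n := by rw [← hn]; simp
    by_cases hp : ρ p.2 = 0
    · obtain ⟨s₀', hs₀'⟩ := hρ p.2 hp
      obtain ⟨w, hw⟩ := hℓ
      have h' : val ((HahnSeries.C : k →+* LaurentSeries k).comp res) ((coeffMap φ).comp ρ) l'
          = 0 := by
        rw [val_cons, RingHom.comp_apply (coeffMap φ) ρ, hp, map_zero, mul_zero, zero_add] at h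
        exact h
      obtain ⟨l'', hl''⟩ := ih l'.length hlen l' h' rfl
      refine ⟨(w * p.1, s₀') :: l'', ?_⟩
      have hℓΩ : (ℓ : Ω) = ι ϖ * ι w := by rw [← map_mul, ← hw, map_natCast]
      rw [val_cons, val_cons, hl'', hs₀']
      simp only [map_mul, map_natCast]
      rw [hℓΩ]
      ring
    · obtain ⟨n₀, hn₀⟩ : ∃ n₀, (ρ p.2).coeff n₀ ≠ 0 := by
        by_contra hcon
        exact hp (HahnSeries.ext (funext fun n => by
          by_contra hne
          exact hcon ⟨n, by simpa using hne⟩))
      set c₀ := (ρ p.2).coeff n₀ with hc₀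
      -- the multipliers
      let m : S → ℕ := fun s => (-(ρ s).coeff n₀ / c₀).val
      have hm : ∀ s : S, (ρ s).coeff n₀ = -((m s : ℕ) : ZMod ℓ) * c₀ := by
        intro s
        have h1 : ((m s : ℕ) : ZMod ℓ) = -(ρ s).coeff n₀ / c₀ := ZMod.natCast_zmod_val _
        rw [h1]
        field_simp
      set M : O := (l'.map fun q => m q.2 • q.1).sum with hM
      -- coefficient `n₀` of `h`
      have hresM : res (p.1 - M) = 0 := by
        have h1 := congrArg (fun z => z.coeff n₀) h
        simp only [HahnSeries.coeff_zero] at h1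
        rw [coeff_val_red, List.map_cons, List.sum_cons] at h1
        have h2 : (l'.map fun q => res q.1 * φ ((ρ q.2).coeff n₀)).sum = - (res M * φ c₀) :=
          sum_red_eq φ res ρ n₀ c₀ m hm l'
        rw [h2, ← hc₀] at h1
        have h3 : (res p.1 - res M) * φ c₀ = 0 := by
          rw [sub_mul]
          linear_combination h1
        have h4 : φ c₀ ≠ 0 := (map_ne_zero φ).2 hn₀
        rw [map_sub]
        exact (mul_eq_zero.mp h3).resolve_right h4
      obtain ⟨o', ho'⟩ := hres _ hresM
      -- the shifted list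
      have h'' : val ((HahnSeries.C : k →+* LaurentSeries k).comp res) ((coeffMap φ).comp ρ)
          (l'.map fun q => (q.1, q.2 + m q.2 • p.2)) = 0 := by
        rw [val_map_shift, ← hM]
        rw [val_cons] at h
        have h5 : res M = res p.1 := by
          rw [map_sub, sub_eq_zero] at hresM
          exact hresM.symm
        rw [RingHom.comp_apply HahnSeries.C res M, h5, add_comm]
        exact h
      obtain ⟨l'', hl''⟩ := ih (l'.map fun q => (q.1, q.2 + m q.2 • p.2)).length
        (by rw [List.length_map]; exact hlen) _ h'' rfl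
      refine ⟨(o', p.2) :: l'', ?_⟩
      rw [val_map_shift, ← hM] at hl''
      have h6 : p.1 = M + ϖ * o' := by rw [← ho']; ring
      rw [val_cons, val_cons, h6]
      simp only [map_add, map_mul]
      linear_combination hl''

end Fermat.Agent.S18.QExpDiv
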