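/-
S18 — [QExp] piece (Dv) (helper48): the ring `T0 = O · S_N ⊂ ℚ̄((q))` lies in the Gauss ring, its
Gauss reduction is computed termwise, elements of `T0` with reduction `0` are divisible by `ϖ`
inside `T0`, and reductions of elements of `T0` lie in `F_k(N)`.
-/
import Fermat.Agent.S18.QExpDefs
import Fermat.Agent.S18.QExpDiv
import Fermat.Agent.S18.QExpFrac

set_option autoImplicit false

noncomputable section

namespace Fermat.Agent.S18.QExpDivT0

open ModularCurve ModularCurve.IgusaScheme HahnSeries Fermat.Agent.S18.Arith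
  Fermat.Agent.S18.ModelPlan Fermat.Agent.S18.QExpDefs

variable (N : ℕ) [NeZero N] (ℓ : ℕ) [Fact ℓ.Prime] (A : ValuationSubring Qb)
  (K : IntermediateField ℚ Qb)

/-- The Gauss reduction of a value `∑ ι o_i * κ s_i` is the reduced value. -/
theorem gRel_val (hG : GRelFacts A) (φ : ZMod ℓ →+* IsLocalRing.ResidueField A)
    {S : Subring (LaurentSeries ℚ)} {ρ : ↥S →+* LaurentSeries (ZMod ℓ)}
    (hcompat : ∀ (s : LaurentSeries ℚ) (hs : s ∈ S), s ∈ modularFunctionFieldFull N →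
      GRel A (coeffEmb Qb s) (coeffMap φ (ρ ⟨s, hs⟩)))
    (l : List (OK A K × ↥(SN N S))) :
    GRel A (QExpDiv.val (ι A K) (κ N S) l) (QExpDiv.val (ιbar A K) (κbar A N ℓ φ ρ) l) := by
  induction l with
  | nil =>
    rw [QExpDiv.val_nil, QExpDiv.val_nil]
    exact gRel_zero hG
  | cons p l ih =>
    rw [QExpDiv.val_cons, QExpDiv.val_cons]
    refine hG.add _ _ _ _ (hG.mul _ _ _ _ (gRel_ι hG p.1) ?_) ih
    rw [κ_apply, κbar_apply]
    exact hcompat _ p.2.2.1 p.2.2.2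

/-- `T0` lies in the Gauss ring. -/
theorem T0_le_gRing (hG : GRelFacts A) (φ : ZMod ℓ →+* IsLocalRing.ResidueField A)
    {S : Subring (LaurentSeries ℚ)} {ρ : ↥S →+* LaurentSeries (ZMod ℓ)}
    (hcompat : ∀ (s : LaurentSeries ℚ) (hs : s ∈ S), s ∈ modularFunctionFieldFull N →
      GRel A (coeffEmb Qb s) (coeffMap φ (ρ ⟨s, hs⟩))) :
    T0 A K N S ≤ gRing A hG := by
  intro t ht
  have ht' : t ∈ QExpDiv.T0 (ι A K) (κ N S) := ht
  obtain ⟨l, rfl⟩ := (QExpDiv.mem_T0_iff _ _ _).1 ht'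
  exact ⟨_, gRel_val N ℓ A K hG φ hcompat l⟩

/-- The kernel of `ρ` on `S_N = S ∩ F_ℚ(N)` is `ℓ S_N`. -/
theorem exists_eq_mul_of_ρN_eq_zero {S : Subring (LaurentSeries ℚ)}
    {ρ : ↥S →+* LaurentSeries (ZMod ℓ)} (hg : Fermat.Agent.S28.GoodPair ℓ S ρ)
    (s : ↥(SN N S)) (hs : ρN N ℓ ρ s = 0) : ∃ s' : ↥(SN N S), s = (ℓ : ↥(SN N S)) * s' := by
  rw [ρN_apply] at hs
  obtain ⟨t, ht⟩ := (hg.map_eq_zero_iff _).1 hs
  have h2 : (s : LaurentSeries ℚ) = (ℓ : LaurentSeries ℚ) * (t : LaurentSeries ℚ) := by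
    have h := congrArg (fun z : ↥S => (z : LaurentSeries ℚ)) ht
    simpa using h
  have hℓ0 : (ℓ : LaurentSeries ℚ) ≠ 0 := hg.ell_ne_zero
  have htN : (t : LaurentSeries ℚ) ∈ modularFunctionFieldFull N := by
    have h3 : (t : LaurentSeries ℚ) = (ℓ : LaurentSeries ℚ)⁻¹ * (s : LaurentSeries ℚ) := by
      rw [h2, ← mul_assoc, inv_mul_cancel₀ hℓ0, one_mul]
    rw [h3]
    exact mul_mem (inv_mem (natCast_mem _ ℓ)) s.2.2
  refine ⟨⟨(t : LaurentSeries ℚ), t.2, htN⟩, Subtype.ext ?_⟩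
  rw [h2]
  simp

/-- Elements of `T0` with Gauss reduction `0` are divisible by `ϖ` in `T0`. -/
theorem div_T0 (hG : GRelFacts A) (φ : ZMod ℓ →+* IsLocalRing.ResidueField A)
    {S : Subring (LaurentSeries ℚ)} {ρ : ↥S →+* LaurentSeries (ZMod ℓ)}
    (hg : Fermat.Agent.S28.GoodPair ℓ S ρ)
    (hcompat : ∀ (s : LaurentSeries ℚ) (hs : s ∈ S), s ∈ modularFunctionFieldFull N →
      GRel A (coeffEmb Qb s) (coeffMap φ (ρ ⟨s, hs⟩)))
    (ϖ : OK A K) (hres : ∀ o : OK A K, resO A K o = 0 → ∃ o', o = ϖ * o')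
    (hℓ : ∃ w : OK A K, (ℓ : OK A K) = ϖ * w) :
    ∀ t ∈ T0 A K N S, red A t = 0 → ∃ t' ∈ T0 A K N S, t = ι A K ϖ * t' := by
  intro t ht hred
  have ht' : t ∈ QExpDiv.T0 (ι A K) (κ N S) := ht
  obtain ⟨l, rfl⟩ := (QExpDiv.mem_T0_iff _ _ _).1 ht'
  have h1 := red_eq hG (gRel_val N ℓ A K hG φ hcompat l)
  rw [hred] at h1
  have h2 : QExpDiv.val ((HahnSeries.C : IsLocalRing.ResidueField A →+*
      LaurentSeries (IsLocalRing.ResidueField A)).comp (resO A K))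
      ((coeffMap φ).comp (ρN N ℓ ρ)) l = 0 := h1.symm
  obtain ⟨l', hl'⟩ := QExpDiv.exists_eq_mul_of_red_eq_zero ℓ φ (ι A K) (κ N S) (resO A K)
    (ρN N ℓ ρ) ϖ hres (exists_eq_mul_of_ρN_eq_zero N ℓ hg) hℓ l h2
  exact ⟨_, QExpDiv.val_mem_T0 _ _ l', hl'⟩

/-- Reduced values lie in `F_k(N)`. -/
theorem val_bar_mem_fullC (φ : ZMod ℓ →+* IsLocalRing.ResidueField A)
    {S : Subring (LaurentSeries ℚ)} {ρ : ↥S →+* LaurentSeries (ZMod ℓ)}
    (hr : Set.range ρ ⊆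
      (modularFunctionFieldFullC (ZMod ℓ) N : Set (LaurentSeries (ZMod ℓ))))
    (l : List (OK A K × ↥(SN N S))) :
    QExpDiv.val (ιbar A K) (κbar A N ℓ φ ρ) l ∈
      modularFunctionFieldFullC (IsLocalRing.ResidueField A) N := by
  induction l with
  | nil =>
    rw [QExpDiv.val_nil]
    exact zero_mem _
  | cons p l ih =>
    rw [QExpDiv.val_cons]
    refine add_mem (mul_mem ?_ ?_) ih
    · rw [ιbar_apply, HahnSeries.C_apply, ← algebraMap_laurentSeries_eq_single]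
      exact (modularFunctionFieldFullC (IsLocalRing.ResidueField A) N).algebraMap_mem
        (resO A K p.1)
    · rw [κbar_apply]
      exact QExpFrac.coeffMap_mem_fullC φ N (hr ⟨_, rfl⟩)

/-- The Gauss reduction of an element of `T0` lies in `F_k(N)`. -/
theorem red_mem_fullC (hG : GRelFacts A) (φ : ZMod ℓ →+* IsLocalRing.ResidueField A)
    {S : Subring (LaurentSeries ℚ)} {ρ : ↥S →+* LaurentSeries (ZMod ℓ)}
    (hr : Set.range ρ ⊆
      (modularFunctionFieldFullC (ZMod ℓ) N : Set (LaurentSeries (ZMod ℓ))))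
    (hcompat : ∀ (s : LaurentSeries ℚ) (hs : s ∈ S), s ∈ modularFunctionFieldFull N →
      GRel A (coeffEmb Qb s) (coeffMap φ (ρ ⟨s, hs⟩))) :
    ∀ t ∈ T0 A K N S, red A t ∈ modularFunctionFieldFullC (IsLocalRing.ResidueField A) N := by
  intro t ht
  have ht' : t ∈ QExpDiv.T0 (ι A K) (κ N S) := ht
  obtain ⟨l, rfl⟩ := (QExpDiv.mem_T0_iff _ _ _).1 ht'
  rw [red_eq hG (gRel_val N ℓ A K hG φ hcompat l)]
  exact val_bar_mem_fullC N ℓ A K φ hr l

end Fermat.Agent.S18.QExpDivT0
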