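import Mathlib
import Fermat.Agent.S24.ModAssembly
import Fermat.Agent.S24.AnEmb
import Fermat.Agent.S24.AnEmbCusp

/-!
# S18 team library: characteristic-zero ("horizontal") ramification of `j` on `X₀(N)`

OWNER: helper39 (only the owner edits this file).

Unconditional statements about the places of the function field `FN N = modularFunctionFieldBar N`
over `Kb = ℚ̄`, extracted from the landed S24 library (embedding data `EmbDatum`):

* `ord_dvd_of_datum` (generic): in an `EmbDatum φ X t e g`, every zero of `t` has order dividing `e`;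
* `ord_sub_le_one`   : for `a ≠ 0, 1728`, every place has `ord (j - a) ≤ 1` (unramified);
* `ord_j_dvd_three`  : every zero of `j` has order dividing `3`;
* `ord_sub_1728_dvd_two` : every zero of `j - 1728` has order dividing `2`;
* `ord_inv_dvd`      : every zero of `j⁻¹` (pole of `j`) has order dividing `N`;
* `finrank_jF`, `finiteDimensional_jF'`, `isFF1` : `[F_N : ℚ̄(j)] = ψ(N)`;
* `card_zeros_*`     : the numbers of places over `j = 0, 1728, ∞` (orbit counts).
-/

set_option autoImplicit false

namespace Fermat.Agent.S18.RamChar0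

open AlgebraicCurve IntermediateField ModularCurve Fermat.Agent.S24
open scoped MatrixGroups

section Generic

variable {K F : Type*} [Field K] [Field F] [Algebra K F] [IsAlgClosed K] [CharZero K]
variable {C : Type*} [Field C] [CharZero C] {X : Type*} [Finite X] {G : Type*} [Group G]
  [MulAction G X]

/-- In an embedding datum of index `e`, every place over `t = 0` is induced by one of the
embeddings. -/
theorem exists_embInduces_of_datum (hF : IsFF1 K F) {t : F} (ht : Transcendental K t)
    (hX : Nat.card X = Module.finrank K⟮t⟯ F) (φ : K →+* C) {e : ℕ} (he : 0 < e) (g : G)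
    (h : EmbDatum φ X t e g) (v : Place K F) (hv : 0 < v.ord t) :
    ∃ (ι : F →+* LaurentSeries C) (r : ℕ), EmbInduces ι v r ∧ (ι t).order = (e : ℤ) ∧
      ∀ b : K, ι (algebraMap K F b) = HahnSeries.C (φ b) := by
  obtain ⟨ι, hinj, hφ, T, hT, hTe, -⟩ := h
  obtain ⟨x, r, hxr⟩ := exists_emb_induces (fun v b hb => exists_residue hF v hb) t
    (Module.finrank K⟮t⟯ F) (finite_ord_pos hF ht) (sum_ord_pos hF ht) hX ι hinj
    (fun x a => ⟨φ a, hφ x a⟩) (fun x y a => by rw [hφ x a, hφ y a])
    (fun x y => by rw [hT x, hT y])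
    (fun x => by rw [hT x, hTe]; exact_mod_cast he) v hv
  exact ⟨ι x, r, hxr, by rw [hT x, hTe], hφ x⟩

/-- In an embedding datum of index `e`, every zero of `t` has order dividing `e`. -/
theorem ord_dvd_of_datum (hF : IsFF1 K F) {t : F} (ht : Transcendental K t)
    (hX : Nat.card X = Module.finrank K⟮t⟯ F) (φ : K →+* C) {e : ℕ} (he : 0 < e) (g : G)
    (h : EmbDatum φ X t e g) (v : Place K F) (hv : 0 < v.ord t) :
    v.ord t ∣ (e : ℤ) := by
  obtain ⟨ι, r, hι, hord, -⟩ := exists_embInduces_of_datum hF ht hX φ he g h v hv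
  have ht0 : t ≠ 0 := EmbDefs.ne_zero_of_ord_ne_zero v hv.ne'
  have h1 := hι.order_eq ht0
  rw [hord] at h1
  exact ⟨(r : ℤ), by rw [h1]; ring⟩

end Generic

section Modular

variable (N : ℕ) [NeZero N]

theorem finrank_jF : Module.finrank Kb⟮jF N⟯ (FN N) = dedekindPsi N :=
  finrank_jF_of_hasCuspEmb (hasCuspEmb N)

theorem isFF1 : IsFF1 Kb (FN N) := ⟨jF N, transcendental_jF N, finiteDimensional_jF N⟩

theorem card_QN : Nat.card (QN N) = Module.finrank Kb⟮jF N⟯ (FN N) := by
  rw [finrank_jF]
  exact Fermat.Agent.S20.card_Q N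

theorem card_QN_sub (a : Kb) :
    Nat.card (QN N) = Module.finrank Kb⟮jF N - algebraMap Kb (FN N) a⟯ (FN N) := by
  rw [finrank_adjoin_sub_algebraMap, card_QN]

theorem card_QN_inv : Nat.card (QN N) = Module.finrank Kb⟮(jF N)⁻¹⟯ (FN N) := by
  rw [finrank_adjoin_inv, card_QN]

/-- **Unramified away from `0, 1728, ∞`.** -/
theorem ord_sub_le_one (a : Kb) (h0 : a ≠ 0) (h1 : a ≠ 1728) (v : Place Kb (FN N)) :
    v.ord (jF N - algebraMap Kb (FN N) a) ≤ 1 :=
  ModAssemblyGen.ord_le_one_of_datum (isFF1 N)
    (ModAssemblyGen.transcendental_sub_algebraMap (transcendental_jF N) a) (card_QN_sub N a) embC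
    (1 : SL(2, ℤ)) (datum_generic (fun z₀ => hasTaylorEmb N z₀) a h0 h1) v

/-- **Over `j = 0` the ramification indices divide `3`.** -/
theorem ord_j_dvd_three (v : Place Kb (FN N)) (hv : 0 < v.ord (jF N)) :
    v.ord (jF N) ∣ 3 := by
  have h := ord_dvd_of_datum (isFF1 N)
    (ModAssemblyGen.transcendental_sub_algebraMap (transcendental_jF N) 0) (card_QN_sub N 0) embC
    (by norm_num : 0 < 3) (ModularGroup.S * ModularGroup.T) (datum_rho (hasTaylorEmb N _)) v
    (by simpa using hv)
  simpa using h

/-- **Over `j = 1728` the ramification indices divide `2`.** -/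
theorem ord_sub_1728_dvd_two (v : Place Kb (FN N))
    (hv : 0 < v.ord (jF N - algebraMap Kb (FN N) 1728)) :
    v.ord (jF N - algebraMap Kb (FN N) 1728) ∣ 2 := by
  have h := ord_dvd_of_datum (isFF1 N)
    (ModAssemblyGen.transcendental_sub_algebraMap (transcendental_jF N) 1728)
    (card_QN_sub N 1728) embC
    (by norm_num : 0 < 2) ModularGroup.S (datum_i (hasTaylorEmb N _)) v hv
  simpa using h

/-- **Over `j = ∞` the ramification indices divide `N`.** -/
theorem ord_inv_dvd (v : Place Kb (FN N)) (hv : 0 < v.ord (jF N)⁻¹) :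
    v.ord (jF N)⁻¹ ∣ (N : ℤ) :=
  ord_dvd_of_datum (isFF1 N) (ModAssemblyGen.transcendental_inv (transcendental_jF N))
    (card_QN_inv N) embC (Nat.pos_of_ne_zero (NeZero.ne N)) ModularGroup.T
    (datum_cusp (hasCuspEmb N)) v hv

/-- Number of places over `j = 0`. -/
theorem card_zeros_j :
    Nat.card {v : Place Kb (FN N) // 0 < v.ord (jF N - algebraMap Kb (FN N) 0)} =
      Nat.card (MulAction.orbitRel.Quotient
        (Subgroup.zpowers (ModularGroup.S * ModularGroup.T)) (QN N)) :=
  ModAssemblyGen.card_zeros_eq_card_orbits (isFF1 N)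
    (ModAssemblyGen.transcendental_sub_algebraMap (transcendental_jF N) 0) (card_QN_sub N 0) embC
    (by norm_num : 0 < 3) _ (datum_rho (hasTaylorEmb N _))

/-- Number of places over `j = 1728`. -/
theorem card_zeros_sub_1728 :
    Nat.card {v : Place Kb (FN N) // 0 < v.ord (jF N - algebraMap Kb (FN N) 1728)} =
      Nat.card (MulAction.orbitRel.Quotient (Subgroup.zpowers ModularGroup.S) (QN N)) :=
  ModAssemblyGen.card_zeros_eq_card_orbits (isFF1 N)
    (ModAssemblyGen.transcendental_sub_algebraMap (transcendental_jF N) 1728)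
    (card_QN_sub N 1728) embC (by norm_num : 0 < 2) _ (datum_i (hasTaylorEmb N _))

/-- Number of places over `j = ∞` (cusps). -/
theorem card_poles_j :
    Nat.card {v : Place Kb (FN N) // 0 < v.ord (jF N)⁻¹} =
      Nat.card (MulAction.orbitRel.Quotient (Subgroup.zpowers ModularGroup.T) (QN N)) :=
  ModAssemblyGen.card_zeros_eq_card_orbits (isFF1 N)
    (ModAssemblyGen.transcendental_inv (transcendental_jF N)) (card_QN_inv N) embC
    (Nat.pos_of_ne_zero (NeZero.ne N)) _ (datum_cusp (hasCuspEmb N))

end Modular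

end Fermat.Agent.S18.RamChar0
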