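import Fermat.Agent.S18.ModelPlan

/-!
# S18 [ARITH] cut-out (R-G) of [Red]: chart elements lie in the Gauss local ring

OWNER: helper55.

`exists_gRel_of_mem_chart`: if `t ∈ F_K` has a `q`-expansion with coefficients in `O = A ∩ K`,
every element `x` of the chart `chart N A K t` (integral closure of `O[t]` in `F_K`) is
Gauss-integral: `∃ y, GRel A x y`.

Proof: `x = π^γ · w` with `w` a unit of the Gauss ring `G` (normal form).  If `γ ≥ 0` we are
done.  If `γ < 0` then `x⁻¹ ∈ G`, and the monic equation of `x` over `O[t] ⊆ G`, divided by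
`x^(d-1)`, exhibits `x` as a polynomial in `x⁻¹` with coefficients in `G`.
-/

set_option autoImplicit false

noncomputable section

namespace Fermat.Agent.S18.RedG

open ModularCurve HahnSeries Fermat.Agent.S18.Arith Fermat.Agent.S18.ModelPlan

/-- Membership in the Gauss local ring `G_A ⊂ ℚ̄((q))`. -/
def GMem (A : ValuationSubring Qb) (z : LaurentSeries Qb) : Prop :=
  ∃ y : LaurentSeries (IsLocalRing.ResidueField A), GRel A z y

section Calculus

variable {A : ValuationSubring Qb} (hG : GRelFacts A)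
include hG

theorem gMem_of_int (X : LaurentSeries A) : GMem A (coeffMap A.subtype X) :=
  ⟨_, hG.of_int X⟩

theorem gMem_zero : GMem A 0 := by
  have h := gMem_of_int hG (0 : LaurentSeries A)
  rwa [map_zero] at h

theorem gMem_one : GMem A 1 := by
  have h := gMem_of_int hG (1 : LaurentSeries A)
  rwa [map_one] at h

theorem gMem_add {z z' : LaurentSeries Qb} (h : GMem A z) (h' : GMem A z') : GMem A (z + z') := by
  obtain ⟨y, hy⟩ := h
  obtain ⟨y', hy'⟩ := h'
  exact ⟨_, hG.add z z' y y' hy hy'⟩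

theorem gMem_mul {z z' : LaurentSeries Qb} (h : GMem A z) (h' : GMem A z') : GMem A (z * z') := by
  obtain ⟨y, hy⟩ := h
  obtain ⟨y', hy'⟩ := h'
  exact ⟨_, hG.mul z z' y y' hy hy'⟩

theorem gMem_neg {z : LaurentSeries Qb} (h : GMem A z) : GMem A (-z) := by
  obtain ⟨y, hy⟩ := h
  exact ⟨_, hG.neg z y hy⟩

theorem gMem_pow {z : LaurentSeries Qb} (h : GMem A z) (n : ℕ) : GMem A (z ^ n) := by
  induction n with
  | zero => rw [pow_zero]; exact gMem_one hG
  | succ n ih => rw [pow_succ]; exact gMem_mul hG ih h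

theorem gMem_sum {ι : Type*} (s : Finset ι) (f : ι → LaurentSeries Qb)
    (h : ∀ i ∈ s, GMem A (f i)) : GMem A (∑ i ∈ s, f i) := by
  classical
  induction s using Finset.induction_on with
  | empty => rw [Finset.sum_empty]; exact gMem_zero hG
  | insert a s ha ih =>
    rw [Finset.sum_insert ha]
    exact gMem_add hG (h a (Finset.mem_insert_self a s))
      (ih fun i hi => h i (Finset.mem_insert_of_mem hi))

/-- Series with coefficients in `O = A ∩ K` lie in the Gauss ring. -/
theorem gMem_coeffMap_incO (K : IntermediateField ℚ Qb) (Z : LaurentSeries (OK A K)) :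
    GMem A (coeffMap (incO A K) Z) := by
  have h := gMem_of_int hG
    (coeffMap ((incO A K).codRestrict A.toSubring (fun x => x.2)) Z)
  rw [coeffMap_coeffMap] at h
  exact h

end Calculus

section Adjoin

variable (N : ℕ) [NeZero N] (A : ValuationSubring Qb) (K : IntermediateField ℚ Qb)

omit [NeZero N] in
/-- Elements of `O[t]` have `q`-expansions with coefficients in `O` as soon as `t` has. -/
theorem exists_coeffMap_of_mem_adjoin (t : FK N K) (T : LaurentSeries (OK A K))
    (hT : coeffMap (incO A K) T = ((t : FK N K) : LaurentSeries Qb)) (z : FK N K)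
    (hz : z ∈ Algebra.adjoin (OK A K) {t}) :
    ∃ Z : LaurentSeries (OK A K), coeffMap (incO A K) Z = ((z : FK N K) : LaurentSeries Qb) := by
  induction hz using Algebra.adjoin_induction with
  | mem x hx =>
    rw [Set.mem_singleton_iff] at hx
    subst hx
    exact ⟨T, hT⟩
  | algebraMap r =>
    refine ⟨HahnSeries.C r, ?_⟩
    change coeffMap (incO A K) (HahnSeries.single 0 r) = HahnSeries.single 0 (incO A K r)
    rw [coeffMap_single]
  | add x y _ _ hx hy =>
    obtain ⟨X, hX⟩ := hx
    obtain ⟨Y, hY⟩ := hy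
    exact ⟨X + Y, by rw [map_add, hX, hY]; rfl⟩
  | mul x y _ _ hx hy =>
    obtain ⟨X, hX⟩ := hx
    obtain ⟨Y, hY⟩ := hy
    exact ⟨X * Y, by rw [map_mul, hX, hY]; rfl⟩

end Adjoin

/-- **(R-G)** every element of a chart is Gauss-integral. -/
theorem exists_gRel_of_mem_chart (N : ℕ) [NeZero N] (A : ValuationSubring Qb)
    (K : IntermediateField ℚ Qb) (hG : ModelPlan.GRelFacts A) (hNF : ModelPlan.GRelNFStatement)
    (hdvr : IsDiscreteValuationRing (OK A K))
    (hq : ∀ x : FK N K, ∃ a b : LaurentSeries (OK A K), b ≠ 0 ∧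
      ((x : FK N K) : LaurentSeries Qb) * coeffMap (incO A K) b = coeffMap (incO A K) a)
    (t : FK N K) (T : LaurentSeries (OK A K))
    (hT : coeffMap (incO A K) T = ((t : FK N K) : LaurentSeries Qb)) (x : FK N K)
    (hx : x ∈ chart N A K t) :
    ∃ y : LaurentSeries (IsLocalRing.ResidueField A),
      GRel A ((x : FK N K) : LaurentSeries Qb) y := by
  classical
  by_cases hx0 : x = 0
  · subst hx0
    exact gMem_zero hG
  obtain ⟨a, b, hb, hab⟩ := hq x
  have hinj : Function.Injective (incO A K) :=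
    (algebraMap K Qb).injective.comp Subtype.val_injective
  have hcinj : ∀ Z : LaurentSeries (OK A K), Z ≠ 0 → coeffMap (incO A K) Z ≠ 0 := by
    intro Z hZ h0
    apply hZ
    apply HahnSeries.ext
    funext n
    have h1 := congrArg (fun z : LaurentSeries Qb => z.coeff n) h0
    simp only [coeffMap_coeff, HahnSeries.coeff_zero] at h1
    rw [HahnSeries.coeff_zero]
    exact hinj (h1.trans (map_zero _).symm)
  have hxL : ((x : FK N K) : LaurentSeries Qb) ≠ 0 := fun h => hx0 (Subtype.ext h)
  have ha : a ≠ 0 := by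
    rintro rfl
    rw [map_zero] at hab
    exact (mul_ne_zero hxL (hcinj b hb)) hab
  obtain ⟨π, hπ⟩ := IsDiscreteValuationRing.exists_irreducible (OK A K)
  obtain ⟨γ, y, hy0, hγ⟩ := hNF A K hdvr π hπ _ a b ha hb hab
  set ϖ : LaurentSeries Qb := (HahnSeries.C (incO A K π) : LaurentSeries Qb) with hϖ
  have hϖ0 : ϖ ≠ 0 := by
    have h1 := hcinj (HahnSeries.C π) (by
      intro h0
      exact hπ.ne_zero (HahnSeries.C_injective (by rw [h0, map_zero])))
    have h2 : coeffMap (incO A K) (HahnSeries.C π) = ϖ := by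
      change coeffMap (incO A K) (HahnSeries.single 0 π) = HahnSeries.single 0 (incO A K π)
      rw [coeffMap_single]
    rwa [h2] at h1
  have hϖG : GMem A ϖ := by
    have h1 := gMem_coeffMap_incO hG K (HahnSeries.C π)
    have h2 : coeffMap (incO A K) (HahnSeries.C π) = ϖ := by
      change coeffMap (incO A K) (HahnSeries.single 0 π) = HahnSeries.single 0 (incO A K π)
      rw [coeffMap_single]
    rwa [h2] at h1
  set w : LaurentSeries Qb := ((x : FK N K) : LaurentSeries Qb) * ϖ ^ (-γ) with hw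
  have hwG : GMem A w := ⟨y, hγ⟩
  rcases le_or_gt 0 γ with hγ0 | hγ0
  · -- `γ ≥ 0`
    obtain ⟨n, rfl⟩ := Int.eq_ofNat_of_zero_le hγ0
    have hxw : ((x : FK N K) : LaurentSeries Qb) = w * ϖ ^ n := by
      rw [hw, mul_assoc, ← zpow_natCast, ← zpow_add₀ hϖ0, neg_add_cancel, zpow_zero, mul_one]
    rw [hxw]
    exact gMem_mul hG hwG (gMem_pow hG hϖG n)
  · -- `γ < 0`: `x⁻¹ ∈ G`
    obtain ⟨m, hm⟩ : ∃ m : ℕ, -γ = (m : ℤ) := ⟨(-γ).toNat, by omega⟩
    have hinvG : GMem A (((x : FK N K) : LaurentSeries Qb))⁻¹ := by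
      have h1 : (((x : FK N K) : LaurentSeries Qb))⁻¹ = w⁻¹ * ϖ ^ m := by
        rw [hw, hm, zpow_natCast, mul_inv, mul_assoc, inv_mul_cancel₀ (pow_ne_zero _ hϖ0),
          mul_one]
      rw [h1]
      exact gMem_mul hG ⟨y⁻¹, hG.inv _ _ hγ hy0⟩ (gMem_pow hG hϖG m)
    -- the integral equation
    obtain ⟨P, hP, hPx⟩ := (mem_chart_iff N A K).1 hx
    set f := algebraMap (Algebra.adjoin (OK A K) {t}) (FK N K) with hf
    have hd : P.natDegree ≠ 0 := by
      intro h0
      have hP1 : P = 1 := (Polynomial.Monic.natDegree_eq_zero hP).1 h0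
      rw [hP1, Polynomial.eval₂_one] at hPx
      exact one_ne_zero hPx
    obtain ⟨e, he⟩ := Nat.exists_eq_succ_of_ne_zero hd
    have hsum : ∑ i ∈ Finset.range (e + 1), f (P.coeff i) * x ^ i + x ^ (e + 1) = 0 := by
      have h1 := hPx
      rw [Polynomial.eval₂_eq_sum_range, he, Finset.sum_range_succ] at h1
      have h2 : P.coeff (e + 1) = 1 := by
        have := hP.coeff_natDegree
        rwa [he] at this
      rw [h2, map_one, one_mul] at h1
      exact h1
    have key : x = -∑ i ∈ Finset.range (e + 1), f (P.coeff i) * x⁻¹ ^ (e - i) := by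
      have h1 : x ^ (e + 1) = -∑ i ∈ Finset.range (e + 1), f (P.coeff i) * x ^ i :=
        eq_neg_of_add_eq_zero_right hsum
      have h2 : x = x ^ (e + 1) * x⁻¹ ^ e := by
        rw [pow_succ, mul_comm (x ^ e) x, mul_assoc, ← mul_pow, mul_inv_cancel₀ hx0, one_pow,
          mul_one]
      calc x = x ^ (e + 1) * x⁻¹ ^ e := h2
        _ = (-∑ i ∈ Finset.range (e + 1), f (P.coeff i) * x ^ i) * x⁻¹ ^ e := by rw [h1]
        _ = -∑ i ∈ Finset.range (e + 1), f (P.coeff i) * x⁻¹ ^ (e - i) := by
          rw [neg_mul, Finset.sum_mul]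
          congr 1
          refine Finset.sum_congr rfl fun i hi => ?_
          have hie : i ≤ e := Nat.lt_succ_iff.1 (Finset.mem_range.1 hi)
          have h3 : x⁻¹ ^ e = x⁻¹ ^ i * x⁻¹ ^ (e - i) := by
            rw [← _root_.pow_add, Nat.add_sub_cancel' hie]
          rw [h3, mul_assoc, ← mul_assoc (x ^ i), ← mul_pow, mul_inv_cancel₀ hx0, one_pow,
            one_mul]
    have key' := congrArg (FK N K).subtype key
    simp only [map_neg, map_sum, map_mul, map_pow, map_inv₀] at key'
    change ((x : FK N K) : LaurentSeries Qb) = _ at key'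
    rw [key']
    refine gMem_neg hG (gMem_sum hG _ _ fun i _ => gMem_mul hG ?_ (gMem_pow hG hinvG _))
    obtain ⟨Z, hZ⟩ := exists_coeffMap_of_mem_adjoin N A K t T hT (f (P.coeff i)) (P.coeff i).2
    change GMem A ((f (P.coeff i) : FK N K) : LaurentSeries Qb)
    rw [← hZ]
    exact gMem_coeffMap_incO hG K Z

end Fermat.Agent.S18.RedG
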