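import Mathlib

/-!
# S18 team library, block [IGUSA]: residue fields of integral extensions over an
"algebraically closed point"

OWNER: helper92 (only the owner edits this file).

`exists_sub_mem`: let `B` be an integral `A`-algebra, `p` an ideal of `A` such that every monic
non-constant polynomial over `A` has a root modulo `p` (i.e. `A ⧸ p` is algebraically closed in the
elementwise sense), and `Q` a prime of `B` containing `p B`.  Then every `b : B` is congruent
modulo `Q` to an element of `A`:  the residue field of `Q` is that of `p`.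
-/

set_option autoImplicit false

namespace Fermat.Agent.S18.ResField

open Polynomial

/-- Peeling roots modulo `p`: a monic polynomial over `A` whose value at `b` lies in the prime
`Q ⊇ p B` has a "root" `a : A` with `b - a ∈ Q`. -/
theorem exists_sub_mem_of_aeval_mem {A B : Type*} [CommRing A] [CommRing B] [Algebra A B]
    (p : Ideal A) (hk : ∀ f : A[X], f.Monic → 0 < f.natDegree → ∃ a : A, f.eval a ∈ p)
    (Q : Ideal B) (hQ : Q.IsPrime) (hpQ : p.map (algebraMap A B) ≤ Q) (b : B) :
    ∀ (n : ℕ) (f : A[X]), f.Monic → f.natDegree = n → aeval b f ∈ Q →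
      ∃ a : A, b - algebraMap A B a ∈ Q := by
  intro n
  induction n with
  | zero =>
    intro f hf hn hfb
    exfalso
    have h1 : f = 1 := eq_one_of_monic_natDegree_zero hf hn
    rw [h1, map_one] at hfb
    exact hQ.ne_top ((Ideal.eq_top_iff_one Q).mpr hfb)
  | succ n ih =>
    intro f hf hn hfb
    have hA : Nontrivial A := by
      by_contra hA
      rw [not_nontrivial_iff_subsingleton] at hA
      have : (1 : B) = 0 := by
        rw [← map_one (algebraMap A B), Subsingleton.elim (1 : A) 0, map_zero]
      exact hQ.ne_top ((Ideal.eq_top_iff_one Q).mpr (this ▸ Q.zero_mem))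
    obtain ⟨a, ha⟩ := hk f hf (by omega)
    set g : A[X] := f /ₘ (X - C a) with hg
    have hdecomp : C (f.eval a) + (X - C a) * g = f := by
      have := modByMonic_add_div f (X - C a)
      rwa [modByMonic_X_sub_C_eq_C_eval] at this
    have hgdeg : g.natDegree = n := by
      rw [hg, natDegree_divByMonic f (monic_X_sub_C a), natDegree_X_sub_C, hn]
      rfl
    have hgmonic : g.Monic := by
      have hdeg : f.degree ≠ 0 :=
        ne_of_gt (natDegree_pos_iff_degree_pos.mp (by omega))
      have h1 : ((X - C a : A[X])).degree ≤ f.degree := by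
        rw [degree_X_sub_C]
        exact Nat.WithBot.one_le_iff_zero_lt.mpr (natDegree_pos_iff_degree_pos.mp (by omega))
      have := leadingCoeff_divByMonic_of_monic (p := f) (monic_X_sub_C a) h1
      rw [Monic, hg, this]
      exact hf
    have hval : aeval b f = algebraMap A B (f.eval a) + (b - algebraMap A B a) * aeval b g := by
      conv_lhs => rw [← hdecomp]
      simp [aeval_C]
    have hfa : algebraMap A B (f.eval a) ∈ Q := hpQ (Ideal.mem_map_of_mem _ ha)
    have hprod : (b - algebraMap A B a) * aeval b g ∈ Q := by
      have := Q.sub_mem hfb hfa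
      rwa [hval, add_sub_cancel_left] at this
    rcases hQ.mem_or_mem hprod with h | h
    · exact ⟨a, h⟩
    · exact ih g hgmonic hgdeg h

/-- **Residue field of an integral extension over an algebraically closed point.**
`B` integral over `A`, every monic non-constant polynomial over `A` has a root modulo `p`,
`Q` a prime of `B` above `p`: every element of `B` is congruent mod `Q` to an element of `A`. -/
theorem exists_sub_mem {A B : Type*} [CommRing A] [CommRing B] [Algebra A B]
    [Algebra.IsIntegral A B] (p : Ideal A)
    (hk : ∀ f : A[X], f.Monic → 0 < f.natDegree → ∃ a : A, f.eval a ∈ p)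
    (Q : Ideal B) (hQ : Q.IsPrime) (hpQ : p.map (algebraMap A B) ≤ Q) (b : B) :
    ∃ a : A, b - algebraMap A B a ∈ Q := by
  obtain ⟨f, hf, hfb⟩ := Algebra.IsIntegral.isIntegral (R := A) b
  refine exists_sub_mem_of_aeval_mem p hk Q hQ hpQ b f.natDegree f hf rfl ?_
  rw [aeval_def, hfb]
  exact Q.zero_mem

/-- Element-wise variant: only the given `b` is assumed integral over `A`. -/
theorem exists_sub_mem_of_isIntegral {A B : Type*} [CommRing A] [CommRing B] [Algebra A B]
    (p : Ideal A) (hk : ∀ f : A[X], f.Monic → 0 < f.natDegree → ∃ a : A, f.eval a ∈ p)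
    (Q : Ideal B) (hQ : Q.IsPrime) (hpQ : p.map (algebraMap A B) ≤ Q) (b : B)
    (hb : IsIntegral A b) : ∃ a : A, b - algebraMap A B a ∈ Q := by
  obtain ⟨f, hf, hfb⟩ := hb
  refine exists_sub_mem_of_aeval_mem p hk Q hQ hpQ b f.natDegree f hf rfl ?_
  rw [aeval_def, hfb]
  exact Q.zero_mem

end Fermat.Agent.S18.ResField
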