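import Fermat.Agent.S18.ArithPlan
import Fermat.Agent.S18.ResOK

/-!
# [ARITH]/[IGUSA] seam: the residue map `O = A ∩ K → k = ResidueField A`

Complements `ResOK.lean` (which proves that the residue field of `O` is algebraically closed):
kernel and surjectivity of `Arith.resO`, and the identification of the residue field of `O`
with the residue field of `A`.
-/

set_option autoImplicit false

namespace Fermat.Agent.S18.ResOKEquiv

open Fermat.Agent.S18.Arith

variable (A : ValuationSubring Qb) (K : IntermediateField ℚ Qb)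

/-- The inclusion `O = A ∩ K → A`. -/
noncomputable def incA : OK A K →+* A := (incO A K).codRestrict A.toSubring (fun x => x.2)

theorem coe_incA (o : OK A K) : ((incA A K o : A) : Qb) = algebraMap K Qb (o : K) := rfl

theorem incO_apply (o : OK A K) : incO A K o = algebraMap K Qb (o : K) := rfl

theorem incA_injective : Function.Injective (incA A K) := by
  intro a b hab
  have h : algebraMap K Qb (a : K) = algebraMap K Qb (b : K) :=
    congrArg (fun z : A => (z : Qb)) hab
  exact Subtype.ext ((algebraMap K Qb).injective h)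

theorem resO_eq (o : OK A K) : resO A K o = IsLocalRing.residue A (incA A K o) := rfl

/-- An element of `O` is a unit of `O` iff it is a unit of `A`. -/
theorem isUnit_incA_iff (o : OK A K) : IsUnit (incA A K o) ↔ IsUnit o := by
  constructor
  · intro h
    obtain ⟨u, hu⟩ := isUnit_iff_exists_inv.mp h
    have h1 : algebraMap K Qb (o : K) * (u : Qb) = 1 := congrArg (fun z : A => (z : Qb)) hu
    have hoK : (o : K) ≠ 0 := by
      intro h0
      rw [h0, map_zero, zero_mul] at h1
      exact zero_ne_one h1
    have h2 : algebraMap K Qb ((o : K)⁻¹) = (u : Qb) := by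
      rw [map_inv₀]
      exact inv_eq_of_mul_eq_one_right h1
    have hmem : (o : K)⁻¹ ∈ OK A K := by
      rw [ValuationSubring.mem_comap, h2]
      exact u.2
    refine isUnit_iff_exists_inv.mpr ⟨⟨(o : K)⁻¹, hmem⟩, ?_⟩
    exact Subtype.ext (mul_inv_cancel₀ hoK)
  · exact fun h => h.map (incA A K)

/-- The kernel of `resO` is the maximal ideal of `O` (element form). -/
theorem resO_eq_zero_iff (o : OK A K) :
    resO A K o = 0 ↔ o ∈ IsLocalRing.maximalIdeal (OK A K) := by
  rw [resO_eq, IsLocalRing.residue_eq_zero_iff, IsLocalRing.mem_maximalIdeal,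
    IsLocalRing.mem_maximalIdeal, mem_nonunits_iff, mem_nonunits_iff, isUnit_incA_iff]

/-- The kernel of `resO` is the maximal ideal of `O`. -/
theorem ker_resO : RingHom.ker (resO A K) = IsLocalRing.maximalIdeal (OK A K) := by
  ext o
  rw [RingHom.mem_ker, resO_eq_zero_iff]

/-- The kernel of `resO` is generated by any uniformizer of `O`. -/
theorem ker_resO_eq_span [IsDiscreteValuationRing (OK A K)] (π : OK A K)
    (hπ : Irreducible π) : RingHom.ker (resO A K) = Ideal.span {π} := by
  rw [ker_resO, hπ.maximalIdeal_eq]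

theorem resO_eq_zero_iff_dvd [IsDiscreteValuationRing (OK A K)] (π : OK A K)
    (hπ : Irreducible π) (o : OK A K) : resO A K o = 0 ↔ π ∣ o := by
  rw [← RingHom.mem_ker, ker_resO_eq_span A K π hπ, Ideal.mem_span_singleton]

/-- `resO` is a unit-detecting map: `resO o ≠ 0` iff `o` is a unit of `O`. -/
theorem resO_ne_zero_iff (o : OK A K) : resO A K o ≠ 0 ↔ IsUnit o := by
  rw [Ne, resO_eq_zero_iff, IsLocalRing.mem_maximalIdeal, mem_nonunits_iff, not_not]

section Base

variable {A K} {ℓ : ℕ}

/-- `O → k` is onto (from `BaseFacts.res_surj`). -/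
theorem resO_surjective (hB : BaseFacts ℓ A K) : Function.Surjective (resO A K) := by
  intro b
  obtain ⟨a, rfl⟩ := IsLocalRing.residue_surjective b
  obtain ⟨x, hx, hax⟩ := hB.res_surj a
  exact ⟨⟨x, ValuationSubring.mem_comap.mpr hx⟩, hax.symm⟩

/-- The residue field of `O = A ∩ K` is the residue field of `A`. -/
noncomputable def residueEquiv (hB : BaseFacts ℓ A K) :
    IsLocalRing.ResidueField (OK A K) ≃+* IsLocalRing.ResidueField A :=
  (Ideal.quotEquivOfEq (ker_resO A K).symm).trans
    (RingHom.quotientKerEquivOfSurjective (resO_surjective hB))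

theorem residueEquiv_residue (hB : BaseFacts ℓ A K) (o : OK A K) :
    residueEquiv hB (IsLocalRing.residue (OK A K) o) = resO A K o := rfl

theorem residueEquiv_symm_resO (hB : BaseFacts ℓ A K) (o : OK A K) :
    (residueEquiv hB).symm (resO A K o) = IsLocalRing.residue (OK A K) o := by
  rw [← residueEquiv_residue hB, RingEquiv.symm_apply_apply]

/-- The kernel of `resO` is generated by any uniformizer of `O` (from `BaseFacts.dvr`). -/
theorem ker_resO_span (hB : BaseFacts ℓ A K) (π : OK A K) (hπ : Irreducible π) :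
    RingHom.ker (resO A K) = Ideal.span {π} :=
  have := hB.dvr
  ker_resO_eq_span A K π hπ

/-- `resO o = 0 ↔ π ∣ o` for a uniformizer `π` of `O` (from `BaseFacts.dvr`). -/
theorem resO_eq_zero_iff_dvd' (hB : BaseFacts ℓ A K) (π : OK A K) (hπ : Irreducible π)
    (o : OK A K) : resO A K o = 0 ↔ π ∣ o :=
  have := hB.dvr
  resO_eq_zero_iff_dvd A K π hπ o

/-- Every element of `A` is congruent to an element of `O = A ∩ K`. -/
theorem exists_incA_sub_mem (hB : BaseFacts ℓ A K) (a : A) :
    ∃ o : OK A K, a - incA A K o ∈ IsLocalRing.maximalIdeal A := by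
  obtain ⟨o, ho⟩ := resO_surjective hB (IsLocalRing.residue A a)
  refine ⟨o, ?_⟩
  rw [← IsLocalRing.residue_eq_zero_iff, map_sub, ← resO_eq, ho, sub_self]

/-- The residue field of `O = A ∩ K` is algebraically closed (signature with `hA`). -/
theorem isAlgClosed_residueField_OK (ℓ : ℕ) [Fact ℓ.Prime] (A : ValuationSubring Qb)
    (_hA : A.LiesOverPrime ℓ) (K : IntermediateField ℚ Qb) (hB : BaseFacts ℓ A K) :
    IsAlgClosed (IsLocalRing.ResidueField (OK A K)) :=
  ResOK.isAlgClosed_residueField_OK ℓ A K hB

/-- The residue field of `O` has characteristic `ℓ`. -/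
theorem charP_residueField_OK (ℓ : ℕ) [Fact ℓ.Prime] (A : ValuationSubring Qb)
    (hA : A.LiesOverPrime ℓ) (K : IntermediateField ℚ Qb) (hB : BaseFacts ℓ A K) :
    CharP (IsLocalRing.ResidueField (OK A K)) ℓ := by
  have h1 : CharP (IsLocalRing.ResidueField A) ℓ := BaseRes.charP_residueField ℓ A hA
  exact (RingHom.charP_iff (residueEquiv hB : IsLocalRing.ResidueField (OK A K) →+*
    IsLocalRing.ResidueField A) (residueEquiv hB).injective ℓ).mpr h1

end Base

end Fermat.Agent.S18.ResOKEquiv
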