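/-
S18, block [ARITH]/[Sep] glue (helper69): `F_k = modularFunctionFieldFullC k N` is separable over
`k(j̄)` for a perfect field `k` of characteristic `ℓ` (hypothesis-free wrapper of
`SepDeg.isSeparable_full_of`, using leaf P6 `SepLaurent.isSeparable_of_mem_laurent`).
-/
import Fermat.Agent.S18.SepDeg
import Fermat.Agent.S18.SepLaurent

set_option autoImplicit false

noncomputable section

namespace Fermat.Agent.S18.SepDeg

open ModularCurve IntermediateField

/-- Leaf P6 in `Prop` form. -/
theorem sepLaurentStatement (k : Type*) [Field k] (ℓ : ℕ) [Fact ℓ.Prime] [CharP k ℓ]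
    [PerfectField k] : SepLaurentStatement k ℓ :=
  fun t ht ht0 x hx => Fermat.Agent.S18.SepLaurent.isSeparable_of_mem_laurent ℓ t ht ht0 x hx

/-- **(hsep)** `F_k` is separable over `k(j̄)`. -/
theorem isSeparable_full (k : Type*) [Field k] (ℓ : ℕ) [Fact ℓ.Prime] [CharP k ℓ]
    [PerfectField k] (N : ℕ) [NeZero N] :
    Algebra.IsSeparable ↥(adjoin k {jb k N}) ↥(modularFunctionFieldFullC k N) :=
  isSeparable_full_of k N ℓ Fact.out (sepLaurentStatement k ℓ)

/-- Elementwise form inside `k((q))`: every element of `F_k` is separable over `k(j̄) ⊂ k((q))`. -/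
theorem isSeparable_over_j (k : Type*) [Field k] (ℓ : ℕ) [Fact ℓ.Prime] [CharP k ℓ]
    [PerfectField k] (N : ℕ) (x : LaurentSeries k) (hx : x ∈ modularFunctionFieldFullC k N) :
    IsSeparable ↥(adjoin k {jqModC k}) x := by
  have hℓ : ℓ.Prime := Fact.out
  have hord : ¬ ((ℓ : ℤ) ∣ (jqModC k).order) := by
    rw [order_jqModC, Int.dvd_neg]
    intro h
    have h1 : ℓ ∣ 1 := by exact_mod_cast h
    exact hℓ.one_lt.ne' (Nat.dvd_one.mp h1)
  exact Fermat.Agent.S18.SepLaurent.isSeparable_of_mem_laurent ℓ (jqModC k) hord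
    (jqModC_ne_zero_of_nontrivial k) x (isAlgebraic_over_j k N x hx)

end Fermat.Agent.S18.SepDeg
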