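import Mathlib

/-!
# [IGUSA] T1: basic facts on the total ring `L ⊗[Ky] F`

`L / Ky` finite Galois with group `G = (L ≃ₐ[Ky] L)`, `F / Ky` any field extension.  The
total ring `Tot = L ⊗[Ky] F` is an `F`-algebra through the right factor
(`Algebra.TensorProduct.rightAlgebra`), `G` acts through the left factor, the invariants are
`F`, and `Tot` is `F`-free of rank `|G|`.

The action `galAction` is built on top of Mathlib's `TensorProduct.leftDistribMulAction`, so
`g • z` is the same scalar multiplication whether it is elaborated through `galAction` or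
through Mathlib's `TensorProduct.leftHasSMul`.
-/

set_option autoImplicit false

namespace Fermat.Agent.S18.TotBasic

open TensorProduct

variable {Ky L F : Type*} [Field Ky] [Field L] [Field F] [Algebra Ky L] [Algebra Ky F]

attribute [local instance] Algebra.TensorProduct.rightAlgebra

/-- The Galois group acts on `L ⊗[Ky] F` through the left factor. -/
noncomputable def galHom : (L ≃ₐ[Ky] L) →* ((L ⊗[Ky] F) ≃ₐ[Ky] (L ⊗[Ky] F)) where
  toFun g := Algebra.TensorProduct.congr g (AlgEquiv.refl : F ≃ₐ[Ky] F)
  map_one' := by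
    apply AlgEquiv.ext
    intro z
    induction z using TensorProduct.induction_on with
    | zero => simp
    | tmul l f => simp
    | add x y hx hy => simp only [map_add, hx, hy]
  map_mul' g h := by
    apply AlgEquiv.ext
    intro z
    induction z using TensorProduct.induction_on with
    | zero => simp
    | tmul l f => simp
    | add x y hx hy => simp only [map_add, hx, hy]

/-- Mathlib's action of `L ≃ₐ[Ky] L` on `L ⊗[Ky] F` (through the left factor) is given by the
algebra automorphisms `galHom g`. -/
theorem smul_eq_galHom (g : L ≃ₐ[Ky] L) (z : L ⊗[Ky] F) :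
    g • z = (galHom (Ky := Ky) (L := L) (F := F) g) z := rfl

/-- The action of the Galois group on `L ⊗[Ky] F` (through the left factor), as a
`MulSemiringAction` extending Mathlib's `TensorProduct.leftDistribMulAction`. -/
@[instance_reducible] noncomputable def galAction :
    MulSemiringAction (L ≃ₐ[Ky] L) (L ⊗[Ky] F) where
  toDistribMulAction := TensorProduct.leftDistribMulAction
  smul_one g := by rw [smul_eq_galHom, map_one]
  smul_mul g x y := by rw [smul_eq_galHom, smul_eq_galHom, smul_eq_galHom, map_mul]

attribute [local instance] galAction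

theorem galAction_def (g : L ≃ₐ[Ky] L) (z : L ⊗[Ky] F) :
    g • z = (galHom (Ky := Ky) (L := L) (F := F) g) z := rfl

@[simp]
theorem galAction_tmul (g : L ≃ₐ[Ky] L) (l : L) (f : F) :
    g • (l ⊗ₜ[Ky] f) = (g l) ⊗ₜ[Ky] f := rfl

theorem algebraMap_right_apply (f : F) :
    algebraMap F (L ⊗[Ky] F) f = (1 : L) ⊗ₜ[Ky] f := rfl

theorem smul_right_def (f : F) (z : L ⊗[Ky] F) :
    f • z = ((1 : L) ⊗ₜ[Ky] f) * z := by
  rw [Algebra.smul_def, algebraMap_right_apply]

theorem smulCommClass_right : SMulCommClass (L ≃ₐ[Ky] L) F (L ⊗[Ky] F) := by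
  constructor
  intro g f z
  rw [smul_right_def, smul_right_def, smul_mul', galAction_tmul, map_one]

/-- Coordinates in the `L`-basis `1 ⊗ b i` of `L ⊗[Ky] F` are permuted by the Galois action. -/
theorem repr_galAction {ι : Type*} (b : Module.Basis ι Ky F) (g : L ≃ₐ[Ky] L)
    (z : L ⊗[Ky] F) (i : ι) :
    (Algebra.TensorProduct.basis L b).repr (g • z) i =
      g ((Algebra.TensorProduct.basis L b).repr z i) := by
  induction z using TensorProduct.induction_on with
  | zero => simp
  | tmul l f =>
    rw [galAction_tmul, Algebra.TensorProduct.basis_repr_tmul,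
      Algebra.TensorProduct.basis_repr_tmul]
    simp
  | add x y hx hy =>
    rw [smul_add, map_add, map_add, Finsupp.add_apply, Finsupp.add_apply, hx, hy, map_add]

/-- The invariants of the Galois action on `L ⊗[Ky] F` are `F`. -/
theorem mem_range_of_fixed [FiniteDimensional Ky L] [IsGalois Ky L] (z : L ⊗[Ky] F)
    (hz : ∀ g : L ≃ₐ[Ky] L, g • z = z) : z ∈ Set.range (algebraMap F (L ⊗[Ky] F)) := by
  classical
  let b := Module.Basis.ofVectorSpace Ky F
  set B := Algebra.TensorProduct.basis L b with hB
  have h1 : ∀ i, B.repr z i ∈ Set.range (algebraMap Ky L) := by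
    intro i
    rw [IsGalois.mem_range_algebraMap_iff_fixed]
    intro g
    rw [← repr_galAction, hz]
  choose c hc using h1
  have hsum : z = ∑ i ∈ (B.repr z).support, (B.repr z i) • B i := by
    conv_lhs => rw [← B.linearCombination_repr z]
    rw [Finsupp.linearCombination_apply, Finsupp.sum]
  refine ⟨∑ i ∈ (B.repr z).support, c i • b i, ?_⟩
  rw [map_sum]
  conv_rhs => rw [hsum]
  refine Finset.sum_congr rfl fun i _ => ?_
  rw [← hc i, hB, Algebra.TensorProduct.basis_apply, algebraMap_right_apply,
    TensorProduct.tmul_smul, algebraMap_smul]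

/-- The swap `L ⊗[Ky] F ≃ F ⊗[Ky] L` as an `F`-linear equivalence (right structure on the
source, left structure on the target). -/
noncomputable def swapRight : (L ⊗[Ky] F) ≃ₗ[F] (F ⊗[Ky] L) :=
  { (Algebra.TensorProduct.comm Ky L F).toLinearEquiv with
    map_smul' := fun f t => by
      change (Algebra.TensorProduct.comm Ky L F) (f • t) =
        f • (Algebra.TensorProduct.comm Ky L F) t
      rw [smul_right_def, map_mul, Algebra.TensorProduct.comm_tmul, Algebra.smul_def,
        Algebra.TensorProduct.algebraMap_apply]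
      rfl }

theorem finite_right [FiniteDimensional Ky L] : Module.Finite F (L ⊗[Ky] F) :=
  Module.Finite.equiv (swapRight (Ky := Ky) (L := L) (F := F)).symm

/-- `L ⊗[Ky] F` is `F`-free of rank `|Gal(L/Ky)|`. -/
theorem finrank_right [FiniteDimensional Ky L] [IsGalois Ky L] :
    Module.finrank F (L ⊗[Ky] F) = Nat.card (L ≃ₐ[Ky] L) := by
  rw [(swapRight (Ky := Ky) (L := L) (F := F)).finrank_eq, Module.finrank_baseChange,
    IsGalois.card_aut_eq_finrank]

section Base

variable {A0 : Type*} [CommRing A0] [Algebra A0 Ky] [Algebra A0 L] [Algebra A0 F]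
  [IsScalarTower A0 Ky L] [IsScalarTower A0 Ky F]

omit [Algebra A0 F] [IsScalarTower A0 Ky F] in
theorem algebraMap_eq_left (a : A0) :
    algebraMap A0 (L ⊗[Ky] F) a = algebraMap L (L ⊗[Ky] F) (algebraMap A0 L a) := rfl

theorem algebraMap_eq_right (a : A0) :
    algebraMap A0 (L ⊗[Ky] F) a = algebraMap F (L ⊗[Ky] F) (algebraMap A0 F a) := by
  rw [algebraMap_right_apply, Algebra.TensorProduct.algebraMap_apply,
    IsScalarTower.algebraMap_apply A0 Ky F, IsScalarTower.algebraMap_apply A0 Ky L,
    Algebra.algebraMap_eq_smul_one (A := L), Algebra.algebraMap_eq_smul_one (A := F),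
    TensorProduct.smul_tmul]

theorem isScalarTower_right : IsScalarTower A0 F (L ⊗[Ky] F) :=
  IsScalarTower.of_algebraMap_eq fun a => algebraMap_eq_right a

theorem galAction_algebraMap (g : L ≃ₐ[Ky] L) (a : A0) :
    g • (algebraMap A0 (L ⊗[Ky] F) a) = algebraMap A0 (L ⊗[Ky] F) a := by
  rw [algebraMap_eq_right, algebraMap_right_apply, galAction_tmul, map_one]

theorem isIntegral_smul (g : L ≃ₐ[Ky] L) {z : L ⊗[Ky] F} (hz : IsIntegral A0 z) :
    IsIntegral A0 (g • z) := by
  have h := IsIntegral.map_of_comp_eq (RingHom.id A0)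
    ((galHom (Ky := Ky) (L := L) (F := F) g : (L ⊗[Ky] F) ≃ₐ[Ky] (L ⊗[Ky] F)) :
      (L ⊗[Ky] F) →+* (L ⊗[Ky] F))
    (by
      ext a
      simp only [RingHom.comp_apply, RingHom.id_apply, RingHom.coe_coe]
      rw [← galAction_def, galAction_algebraMap]) hz
  exact h

end Base

end Fermat.Agent.S18.TotBasic
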